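import Fermat.Agent.Curve.LocExp
import Fermat.Agent.Curve.ModularGenus
import Fermat.Agent.ES.Forms.GalChar

/-!
# Modular functions with coefficients in a subfield

A `Γ₀(N)`-invariant holomorphic function on `ℍ`, meromorphic at the cusps, with Laurent
coefficients at `∞` in a field `K` over which `ℂ` is an algebra lies in the function field of
`X₀(N)` over `K`.
-/

set_option autoImplicit false

noncomputable section

open UpperHalfPlane hiding I
open Filter Topology
open scoped MatrixGroups Manifold Classical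
open CongruenceSubgroup (Gamma0)

namespace FermatAgent.Mazur

open FermatAgent.Curve FermatAgent.ES
open ModularCurve (coeffMap qExpand jqModC)

local notation "Qbar" => AlgebraicClosure ℚ

/-- The algebraic numbers inside `ℂ`. -/
@[instance_reducible]
def embAlg : Algebra Qbar ℂ := ES.embC.toRingHom.toAlgebra

attribute [local instance] embAlg

/-! ### Expansions -/

/-- A function with a Laurent expansion at infinity has moderate growth. -/
lemma exists_bounded_of_hasLoc {w : ℕ} [NeZero w] {f : ℍ → ℂ} {P : LaurentSeries ℂ}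
    (h : HasLoc (qw (w : ℝ)) f P) :
    ∃ M : ℕ, IsBoundedAtImInfty fun τ => qw 1 τ ^ M * f τ := by
  obtain ⟨M, G, hG, hGe, -, -⟩ := h
  have hw : (0 : ℝ) < w := by exact_mod_cast Nat.pos_of_ne_zero (NeZero.ne w)
  refine ⟨M, ?_⟩
  have hc : Tendsto (fun τ : ℍ => qw w τ) atImInfty (𝓝 0) := qParam_tendsto_atImInfty hw
  have h1 : Tendsto (fun τ => qw w τ ^ (M * w - M) * G (qw w τ)) atImInfty
      (𝓝 ((0 : ℂ) ^ (M * w - M) * G 0)) :=
    (hc.pow _).mul ((analyticAt_of_ball hG).continuousAt.tendsto.comp hc)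
  refine (h1.congr fun τ => ?_).isBigO_one ℝ
  have hq := qw_eq_pow w τ
  rw [hGe, hq, ← pow_mul, mul_comm w M, ← mul_assoc, ← pow_add,
    Nat.sub_add_cancel (Nat.le_mul_of_pos_right M (Nat.pos_of_ne_zero (NeZero.ne w)))]

/-- Holomorphic functions of moderate growth at `∞`. -/
def regSub : Subring (ℍ → ℂ) where
  carrier := {f | MDiff f ∧ ∃ M : ℕ, IsBoundedAtImInfty fun τ => qw 1 τ ^ M * f τ}
  one_mem' := ⟨mdifferentiable_const, 0, by simpa using! const_boundedAtFilter _ (1 : ℂ)⟩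
  zero_mem' := ⟨mdifferentiable_const, 0, by simpa using! const_boundedAtFilter _ (0 : ℂ)⟩
  mul_mem' := by
    rintro f g ⟨hf, M, hM⟩ ⟨hg, M', hM'⟩
    refine ⟨hf.mul hg, M + M', ?_⟩
    refine ((hM.mul hM').congr_left fun τ => ?_).congr_right fun τ => by simp
    simp only [Pi.mul_apply, pow_add]
    ring
  add_mem' := by
    rintro f g ⟨hf, M, hM⟩ ⟨hg, M', hM'⟩
    refine ⟨hf.add hg, M + M', ?_⟩
    have hb : ∀ k : ℕ, IsBoundedAtImInfty fun τ : ℍ => qw 1 τ ^ k := fun k =>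
      ((qParam_tendsto_atImInfty (h := 1) one_pos).pow k).isBigO_one ℝ
    have h1 := (hb M').mul hM
    have h2 := (hb M).mul hM'
    refine ((h1.add h2).congr_left fun τ => ?_).congr_right fun τ => by simp
    simp only [Pi.add_apply, Pi.mul_apply, pow_add]
    ring
  neg_mem' := by
    rintro f ⟨hf, M, hM⟩
    exact ⟨hf.neg, M, hM.neg_left.congr_left fun τ => by simp⟩

/-- The holomorphic functions of moderate growth at infinity. -/
lemma mem_regSub {f : ℍ → ℂ} :
    f ∈ regSub ↔ MDiff f ∧ ∃ M : ℕ, IsBoundedAtImInfty fun τ => qw 1 τ ^ M * f τ := Iff.rfl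

lemma jGenF_smul_mem_regSub (N : ℕ) [NeZero N] (d : JIdx N) (k : SL(2, ℤ)) :
    (fun τ => jGenF N d (k • τ)) ∈ regSub := by
  obtain ⟨P, hP⟩ := (genCoord_qw N).exists_loc k d
  exact ⟨mdiff_jGenF_smul N d k, exists_bounded_of_hasLoc hP⟩

/-! ### Descent of coefficients -/

/-- Coefficientwise extension of `embC`. -/
abbrev lsC : LaurentSeries Qbar →+* LaurentSeries ℂ := coeffMap (algebraMap Qbar ℂ)

variable {K : Type*} [Field K] [Algebra K ℂ]

local notation "lsK" => coeffMap (algebraMap K ℂ)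

lemma exists_descend {ι : Type*} (T : Finset ι) (m : ι → LaurentSeries K) (a b : ι → ℂ)
    (s : LaurentSeries K)
    (h : lsK s * ∑ t ∈ T, HahnSeries.C (a t) * lsK (m t) =
      ∑ t ∈ T, HahnSeries.C (b t) * lsK (m t))
    (h0 : ∑ t ∈ T, HahnSeries.C (a t) * lsK (m t) ≠ 0) :
    ∃ A B : ι → K, ∑ t ∈ T, HahnSeries.C (A t) * m t ≠ 0 ∧
      s * ∑ t ∈ T, HahnSeries.C (A t) * m t = ∑ t ∈ T, HahnSeries.C (B t) * m t := by
  set D := ∑ t ∈ T, HahnSeries.C (a t) * lsK (m t)
  obtain ⟨φ, hφ⟩ := Module.Projective.exists_dual_ne_zero K (HahnSeries.leadingCoeff_ne_zero.2 h0)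
  have key : ∀ (c : ι → ℂ) (n : ι → LaurentSeries K) (i : ℤ),
      φ ((∑ t ∈ T, HahnSeries.C (c t) * lsK (n t)).coeff i) =
        (∑ t ∈ T, HahnSeries.C (φ (c t)) * n t).coeff i := by
    intro c n i
    rw [HahnSeries.coeff_sum, HahnSeries.coeff_sum, map_sum]
    refine Finset.sum_congr rfl fun t _ => ?_
    rw [HahnSeries.C_apply, HahnSeries.C_apply, HahnSeries.coeff_single_zero_mul,
      HahnSeries.coeff_single_zero_mul, ModularCurve.coeffMap_coeff, mul_comm, ← Algebra.smul_def,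
      map_smul, smul_eq_mul, mul_comm]
  refine ⟨fun t => φ (a t), fun t => φ (b t), fun hz => hφ ?_, ?_⟩
  · rw [HahnSeries.leadingCoeff_eq, key, hz, HahnSeries.coeff_zero]
  · ext i
    rw [← key b m i, ← h, Finset.mul_sum, Finset.mul_sum]
    simp only [mul_left_comm (lsK s), mul_left_comm s, ← map_mul lsK]
    exact (key a (fun t => s * m t) i).symm

/-! ### The criterion -/

variable {N : ℕ} [NeZero N]

omit [NeZero N] in
lemma hasLoc_jGenF (d : JIdx N) : HasLoc (qw 1) (jGenF N d) (lsK (jGenL K N d)) := by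
  have h := hasLoc_evF K N (MvPolynomial.X d)
  simpa [evF, evL] using! h

/-- Translate by a coset representative. -/
def transl (f : ℍ → ℂ) (x : SL(2, ℤ) ⧸ Gamma0 N) : ℍ → ℂ := fun τ => f ((x.out)⁻¹ • τ)

omit [NeZero N] in
lemma transl_mk {f : ℍ → ℂ} (hinv : ∀ γ ∈ Gamma0 N, ∀ τ, f (γ • τ) = f τ) (g : SL(2, ℤ))
    (τ : ℍ) : transl f (QuotientGroup.mk g : SL(2, ℤ) ⧸ Gamma0 N) τ = f (g⁻¹ • τ) := by
  obtain ⟨h, hh⟩ := QuotientGroup.mk_out_eq_mul (Gamma0 N) g
  rw [transl, hh, mul_inv_rev, mul_smul, hinv _ (inv_mem h.2)]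

/-- The interpolation polynomial of `f` at the conjugates of `g`. -/
def interpPoly (f g : ℍ → ℂ) : Polynomial (ℍ → ℂ) :=
  ∑ x : SL(2, ℤ) ⧸ Gamma0 N, Polynomial.C (transl f x) *
    ∏ y ∈ Finset.univ.erase x, (Polynomial.X - Polynomial.C (transl g y))

/-- The coefficients of the interpolation polynomial are polynomials in `j`. -/
lemma exists_coeff_eq_eval {f g : ℍ → ℂ} (hf : ∀ x : SL(2, ℤ) ⧸ Gamma0 N, transl f x ∈ regSub)
    (hg : ∀ x : SL(2, ℤ) ⧸ Gamma0 N, transl g x ∈ regSub)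
    (hfi : ∀ γ ∈ Gamma0 N, ∀ τ, f (γ • τ) = f τ) (hgi : ∀ γ ∈ Gamma0 N, ∀ τ, g (γ • τ) = g τ)
    (i : ℕ) :
    ∃ p : Polynomial ℂ, ∀ τ, (interpPoly (N := N) f g).coeff i τ = p.eval (jFun τ) := by
  set Q : Polynomial regSub := ∑ x : SL(2, ℤ) ⧸ Gamma0 N,
    Polynomial.C (⟨_, hf x⟩ : regSub) *
      ∏ y ∈ Finset.univ.erase x, (Polynomial.X - Polynomial.C (⟨_, hg y⟩ : regSub)) with hQ
  have hQP : Q.map regSub.subtype = interpPoly (N := N) f g := by
    simp [hQ, interpPoly, Polynomial.map_sum, Polynomial.map_prod]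
  have hmem : (interpPoly (N := N) f g).coeff i ∈ regSub := by
    rw [← hQP, Polynomial.coeff_map]
    exact (Q.coeff i).2
  obtain ⟨hd, M, hb⟩ := hmem
  refine exists_eq_eval_jFun M hd (fun γ τ => ?_) hb
  set pre : (ℍ → ℂ) →+* (ℍ → ℂ) := RingHom.pi fun τ => Pi.evalRingHom (fun _ : ℍ => ℂ) (γ • τ)
  suffices h : (interpPoly (N := N) f g).map pre = interpPoly (N := N) f g by
    have h1 := congrFun (congrArg (fun P : Polynomial (ℍ → ℂ) => P.coeff i) h) τ
    rw [Polynomial.coeff_map] at h1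
    exact h1
  have htr : ∀ (u : ℍ → ℂ), (∀ γ' ∈ Gamma0 N, ∀ τ, u (γ' • τ) = u τ) →
      ∀ x : SL(2, ℤ) ⧸ Gamma0 N, pre (transl u x) = transl u (γ⁻¹ • x) := by
    intro u hu x
    funext τ
    show transl u x (γ • τ) = _
    conv_rhs => rw [← QuotientGroup.out_eq' x]
    show _ = transl u (QuotientGroup.mk (γ⁻¹ * x.out) : SL(2, ℤ) ⧸ Gamma0 N) τ
    rw [transl_mk hu, transl, mul_inv_rev, inv_inv, mul_smul]
  simp only [interpPoly, Polynomial.map_sum, Polynomial.map_mul, Polynomial.map_prod,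
    Polynomial.map_sub, Polynomial.map_C, Polynomial.map_X]
  refine Fintype.sum_equiv (MulAction.toPerm γ⁻¹) _ _ fun x => ?_
  rw [MulAction.toPerm_apply, htr f hfi]
  congr 1
  refine Finset.prod_equiv (MulAction.toPerm γ⁻¹) (fun y => by simp) fun y _ => ?_
  rw [MulAction.toPerm_apply, htr g hgi]

omit [NeZero N] in
lemma eval_interpPoly [NeZero N] (f g : ℍ → ℂ)
    (hfi : ∀ γ ∈ Gamma0 N, ∀ τ, f (γ • τ) = f τ) (hgi : ∀ γ ∈ Gamma0 N, ∀ τ, g (γ • τ) = g τ) :
    (interpPoly (N := N) f g).eval g = f *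
      ∏ y ∈ Finset.univ.erase (QuotientGroup.mk 1 : SL(2, ℤ) ⧸ Gamma0 N), (g - transl g y) := by
  have h1 : ∀ u : ℍ → ℂ, (∀ γ ∈ Gamma0 N, ∀ τ, u (γ • τ) = u τ) →
      transl u (QuotientGroup.mk 1 : SL(2, ℤ) ⧸ Gamma0 N) = u := fun u hu => by
    funext τ; rw [transl_mk hu, inv_one, one_smul]
  simp only [interpPoly, Polynomial.eval_finsetSum, Polynomial.eval_mul, Polynomial.eval_C,
    Polynomial.eval_prod, Polynomial.eval_sub, Polynomial.eval_X]
  rw [Finset.sum_eq_single (QuotientGroup.mk 1 : SL(2, ℤ) ⧸ Gamma0 N), h1 f hfi]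
  · intro x _ hx
    rw [Finset.prod_eq_zero (Finset.mem_erase.2 ⟨Ne.symm hx, Finset.mem_univ _⟩)
      (by rw [h1 g hgi, sub_self]), mul_zero]
  · exact fun h => absurd (Finset.mem_univ _) h

lemma prod_sub_transl_ne_zero :
    ∏ y ∈ Finset.univ.erase (QuotientGroup.mk 1 : SL(2, ℤ) ⧸ Gamma0 N),
      (jGenF N (JIdx.top N) - transl (jGenF N (JIdx.top N)) y) ≠ 0 := by
  set g := jGenF N (JIdx.top N)
  have hd : ∀ y : SL(2, ℤ) ⧸ Gamma0 N, MDiff (g - transl g y) := fun y => by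
    have h1 := mdiff_jGenF_smul N (JIdx.top N) 1
    simp only [one_smul] at h1
    exact h1.sub (mdiff_jGenF_smul N (JIdx.top N) (y.out)⁻¹)
  suffices h : ∀ s : Finset (SL(2, ℤ) ⧸ Gamma0 N),
      QuotientGroup.mk 1 ∉ s →
        MDiff (∏ y ∈ s, (g - transl g y)) ∧ ∏ y ∈ s, (g - transl g y) ≠ 0 from
    (h _ (Finset.notMem_erase _ _)).2
  intro s
  induction s using Finset.induction_on with
  | empty => exact fun _ => ⟨by rw [Finset.prod_empty]; exact mdifferentiable_const,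
      by rw [Finset.prod_empty]; exact one_ne_zero⟩
  | insert y s hy ih =>
    intro hns
    obtain ⟨ihd, ihn⟩ := ih fun h => hns (Finset.mem_insert_of_mem h)
    have hne : g - transl g y ≠ 0 := by
      intro h0
      apply hns
      have hk : (y.out)⁻¹ ∈ Gamma0 N := mem_gamma0_of_jGenF_eq fun τ =>
        (sub_eq_zero.1 (congrFun h0 τ)).symm
      rw [show (QuotientGroup.mk 1 : SL(2, ℤ) ⧸ Gamma0 N) = y by
        rw [← QuotientGroup.out_eq' y]
        exact QuotientGroup.eq.2 (by simpa using inv_mem hk)]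
      exact Finset.mem_insert_self _ _
    rw [Finset.prod_insert hy]
    exact ⟨(hd y).mul ihd, mul_ne_zero_of_mdiff ihd (hd y) hne ihn⟩

/-- **Invariant functions with expansion over `K` are in the function field over `K`.** -/
theorem mem_jField_of_invariant {Φ : ℍ → ℂ}
    (hinv : ∀ γ ∈ Gamma0 N, ∀ τ, Φ (γ • τ) = Φ τ)
    (hreg : ∀ k : SL(2, ℤ), (fun τ => Φ (k • τ)) ∈ regSub) {s : LaurentSeries K}
    (hs : HasLoc (qw 1) Φ (lsK s)) : s ∈ jField K N := by
  set g := jGenF N (JIdx.top N) with hg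
  have hgi : ∀ γ ∈ Gamma0 N, ∀ τ, g (γ • τ) = g τ := fun γ hγ τ => jGenF_gamma0 hγ _ τ
  have hgr : ∀ x : SL(2, ℤ) ⧸ Gamma0 N, transl g x ∈ regSub := fun x =>
    jGenF_smul_mem_regSub N _ _
  choose p hp using exists_coeff_eq_eval (N := N) (f := Φ) (fun x => hreg _) hgr hinv hgi
  choose p₁ hp₁ using exists_coeff_eq_eval (N := N) (f := (1 : ℍ → ℂ))
    (fun _ => regSub.one_mem) hgr (fun _ _ _ => rfl) hgi
  set n := max (interpPoly (N := N) Φ g).natDegree (interpPoly (N := N) (1 : ℍ → ℂ) g).natDegree + 1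
  set B₀ := (Finset.range n).sup (fun i => max (p i).natDegree (p₁ i).natDegree) + 1
  set J : LaurentSeries K := jGenL K N (JIdx.one N)
  set JN : LaurentSeries K := jGenL K N (JIdx.top N)
  set D := ∏ y ∈ Finset.univ.erase (QuotientGroup.mk 1 : SL(2, ℤ) ⧸ Gamma0 N), (g - transl g y)
  set T := Finset.range n ×ˢ Finset.range B₀
  set m : ℕ × ℕ → LaurentSeries K := fun t => J ^ t.2 * JN ^ t.1
  have hJ : HasLoc (qw 1) jFun (lsK J) := by
    refine (hasLoc_jGenF (JIdx.one N)).congr_fun fun τ => congrArg jFun (UpperHalfPlane.ext ?_)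
    simp [coe_scalePt, JIdx.one]
  have hsum : ∀ {f : ℍ → ℂ} {q : ℕ → Polynomial ℂ}, (interpPoly (N := N) f g).natDegree < n →
      (∀ i ∈ Finset.range n, (q i).natDegree < B₀) →
      (∀ i τ, (interpPoly (N := N) f g).coeff i τ = (q i).eval (jFun τ)) →
      (∀ γ ∈ Gamma0 N, ∀ τ, f (γ • τ) = f τ) →
      HasLoc (qw 1) (f * D) (∑ t ∈ T, HahnSeries.C ((q t.1).coeff t.2) * lsK (m t)) := by
    intro f q hn hK hq hfi
    refine (HasLoc.sum T fun t _ => ((hJ.pow t.2).mul ((hasLoc_jGenF (JIdx.top N)).pow t.1)).smul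
      ((q t.1).coeff t.2)).congr_fun ?_ |> fun h => by simpa [m, map_mul, map_pow] using! h
    intro τ
    rw [← eval_interpPoly f g hfi hgi, Polynomial.eval_eq_sum_range' hn, Finset.sum_product,
      Finset.sum_apply, Finset.sum_apply]
    refine Finset.sum_congr rfl fun i hi => ?_
    rw [Finset.sum_apply, Pi.mul_apply, hq, Polynomial.eval_eq_sum_range' (hK i hi),
      Finset.sum_mul]
    refine Finset.sum_congr rfl fun k _ => ?_
    simp only [Pi.mul_apply, Pi.pow_apply]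
    ring
  have hKp : ∀ i ∈ Finset.range n, (p i).natDegree < B₀ ∧ (p₁ i).natDegree < B₀ := fun i hi => by
    have h1 := Finset.le_sup (f := fun i => max (p i).natDegree (p₁ i).natDegree) hi
    simp only [B₀]
    omega
  have hA := hsum (by simp only [n]; omega) (fun i hi => (hKp i hi).1) hp hinv
  have hD := hsum (by simp only [n]; omega) (fun i hi => (hKp i hi).2) hp₁ (fun _ _ _ => rfl)
  rw [one_mul] at hD
  obtain ⟨A, B, hA0, hAB⟩ := exists_descend T m (fun t => (p₁ t.1).coeff t.2)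
    (fun t => (p t.1).coeff t.2) s ((hs.mul hD).unique (locCoord_qw one_pos) hA) fun h0 => by
      exact prod_sub_transl_ne_zero (N := N) (HasLoc.eq_zero (locCoord_qw one_pos) (h0 ▸ hD))
  have hmem : ∀ C : ℕ × ℕ → K, ∑ t ∈ T, HahnSeries.C (C t) * m t ∈ jField K N := by
    intro C
    refine sum_mem fun t _ => mul_mem ?_ (mul_mem (pow_mem ?_ _) (pow_mem ?_ _))
    · rw [HahnSeries.C_apply, ← ModularCurve.algebraMap_laurentSeries_eq_single]
      exact (jField K N).algebraMap_mem _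
    all_goals exact IntermediateField.subset_adjoin _ _ ⟨_, rfl⟩
  rw [show s = (∑ t ∈ T, HahnSeries.C (B t) * m t) / ∑ t ∈ T, HahnSeries.C (A t) * m t by
    rw [← hAB, mul_div_assoc, div_self hA0, mul_one]]
  exact div_mem (hmem B) (hmem A)

end FermatAgent.Mazur

end
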