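import Fermat.Agent.Mazur.Val
import Fermat.Agent.ECLocal.Inertia

/-!
# Kummer theory on inertia groups
-/

set_option autoImplicit false

noncomputable section

open scoped Pointwise

namespace FermatAgent.Mazur

open FermatAgent.GaloisBasic
open FermatAgent.ECLocal (valuation_natCast_ne_zero valuation_natCast_eq_one
  valuation_map_of_mem_decomposition)

/-- Hilbert 90 for a subgroup of `G_ℚ` and a multiplicative cocycle trivial on an open subgroup. -/
theorem exists_eq_mul_of_cocycle (H : Subgroup GQ) (φ : GQ → Qbar)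
    (hmul : ∀ σ ∈ H, ∀ τ ∈ H, φ (σ * τ) = φ σ * σ (φ τ))
    (hne : ∀ σ ∈ H, φ σ ≠ 0)
    (U : Subgroup GQ) (hU : IsOpen (U : Set GQ)) (htriv : ∀ σ ∈ H, σ ∈ U → φ σ = 1) :
    ∃ a : Qbar, a ≠ 0 ∧ ∀ σ ∈ H, σ a = φ σ * a := by
  classical
  obtain ⟨L, hLfin, hLnormal, hLU⟩ :=
    (krullTopology_mem_nhds_one_iff_of_normal ℚ Qbar (U : Set GQ)).mp
      (hU.mem_nhds U.one_mem)
  have : Normal ℚ L := hLnormal
  have : FiniteDimensional ℚ L := hLfin
  let r : GQ →* (L ≃ₐ[ℚ] L) := AlgEquiv.restrictNormalHom L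
  have hwd : ∀ σ ∈ H, ∀ τ ∈ H, r σ = r τ → φ σ = φ τ := by
    intro σ hσ τ hτ h
    have hk : σ⁻¹ * τ ∈ L.fixingSubgroup := by
      rw [← restrictNormalHom_eq_one_iff, map_mul, map_inv]
      change (r σ)⁻¹ * r τ = 1
      rw [h, inv_mul_cancel]
    have hk' : σ⁻¹ * τ ∈ H := H.mul_mem (H.inv_mem hσ) hτ
    have := hmul σ hσ _ hk'
    rw [mul_inv_cancel_left, htriv _ hk' (hLU hk), map_one, mul_one] at this
    exact this.symm
  let G : Subgroup (L ≃ₐ[ℚ] L) := H.map r
  have hlift : ∀ g : G, ∃ σ ∈ H, r σ = g := fun g => g.2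
  choose lift hlift hlift' using hlift
  let χ : G → L →* Qbar := fun g =>
    (algebraMap L Qbar).toMonoidHom.comp ((g : L ≃ₐ[ℚ] L) : L →+* L).toMonoidHom
  have hχ : Function.Injective χ := fun g g' h => by
    refine Subtype.ext (AlgEquiv.ext fun x => (algebraMap L Qbar).injective ?_)
    exact DFunLike.congr_fun h x
  have hli := (linearIndependent_monoidHom L Qbar).comp χ hχ
  have hG1 : Nonempty G := ⟨1⟩
  obtain ⟨θ, hθ⟩ : ∃ θ : L, (∑ g : G, φ (lift g) * χ g θ) ≠ 0 := by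
    by_contra hall
    simp only [ne_eq, not_exists, not_not] at hall
    have h0 : (∑ g : G, φ (lift g) • (χ g : L → Qbar)) = 0 := by
      ext θ
      simpa [Finset.sum_apply] using hall θ
    exact hne _ (hlift 1) (Fintype.linearIndependent_iff.mp hli (fun g => φ (lift g)) h0 1)
  set b : Qbar := ∑ g : G, φ (lift g) * χ g θ with hb
  refine ⟨b⁻¹, inv_ne_zero hθ, fun τ hτ => ?_⟩
  let t : G := ⟨r τ, τ, hτ, rfl⟩
  have key : φ τ * τ b = b := by
    rw [hb, map_sum, Finset.mul_sum]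
    refine Fintype.sum_equiv (Equiv.mulLeft t) _ _ fun g => ?_
    rw [map_mul, ← mul_assoc, ← hmul τ hτ _ (hlift g)]
    congr 1
    · refine hwd _ (H.mul_mem hτ (hlift g)) _ (hlift _) ?_
      rw [map_mul, hlift', hlift']
      rfl
    · exact (AlgEquiv.restrictNormal_commutes τ L ((g : L ≃ₐ[ℚ] L) θ)).symm
  have hτb : τ b ≠ 0 := by simp [hθ]
  rw [map_inv₀]
  field_simp
  rw [mul_comm (τ b), key]

/-! ### The valuation of `A` under decomposition and inertia -/

variable {A : ValuationSubring Qbar} {q m : ℕ}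

/-- A decomposition element preserves the valuation ring. -/
lemma map_mem_of_mem_decomposition {F : GQ} (hF : F ∈ A.decompositionSubgroup ℚ) {x : Qbar}
    (hx : x ∈ A) : F x ∈ A := by
  have h : F • x ∈ F • A := ValuationSubring.smul_mem_pointwise_smul F x A hx
  rw [show F • A = A from hF] at h
  exact h

/-- Inertia moves integers by elements of the maximal ideal. -/
lemma valuation_map_sub_lt_one (hq : q.Prime) (hA : A.LiesOverPrime q) {σ : GQ}
    (hσ : σ ∈ A.inertiaSubgroupIn ℚ) {x : Qbar} (hx : A.valuation x ≤ 1) :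
    A.valuation (σ x - x) < 1 := by
  obtain ⟨b, s, hs, hab⟩ := (mem_iff_exists_mul_eq hq hA x).mp ((A.valuation_le_one_iff x).mp hx)
  have hσ' := (mem_inertiaSubgroupIn_iff hq hA σ).mp hσ
  have hs' : σ • s ∉ center A := fun h => hs (by simpa using Ideal.sub_mem _ h (hσ' s))
  have hmem : (σ • b) * s - b * (σ • s) ∈ center A := by
    have : (σ • b) * s - b * (σ • s) = (σ • b - b) * s - b * (σ • s - s) := by ring
    rw [this]
    exact Ideal.sub_mem _ (Ideal.mul_mem_right _ _ (hσ' b)) (Ideal.mul_mem_left _ _ (hσ' s))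
  have hlt : A.valuation (((σ • b) * s - b * (σ • s) : ZBar) : Qbar) < 1 :=
    A.mem_nonunits_iff.mp (mem_center.mp hmem)
  have heq : (((σ • b) * s - b * (σ • s) : ZBar) : Qbar) = (σ x - x) * σ s * s := by
    push_cast
    change σ (b : Qbar) * s - b * σ (s : Qbar) = _
    rw [← hab, map_mul]
    ring
  have h1 : A.valuation (σ (s : Qbar)) = 1 := valuation_eq_one_of_notMem_center hs'
  rw [heq, map_mul, map_mul, h1, valuation_eq_one_of_notMem_center hs, mul_one, mul_one] at hlt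
  exact hlt

/-- An element with a power of valuation one has valuation one. -/
lemma valuation_eq_one_of_pow {x : Qbar} (hm : m ≠ 0) (hx : A.valuation (x ^ m) = 1) :
    A.valuation x = 1 := by
  rw [map_pow] at hx
  exact (pow_eq_one_iff.mp hx).resolve_right hm

/-- Distinct roots of unity of order prime to `q` stay distinct in the residue field. -/
lemma root_eq_of_sub_lt (hq : q.Prime) (hA : A.LiesOverPrime q) (hqm : ¬ q ∣ m) {x y : Qbar}
    (hm : m ≠ 0) (hy : A.valuation y = 1) (hpow : x ^ m = y ^ m) (h : A.valuation (x - y) < 1) :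
    x = y := by
  by_contra hne
  have hx : A.valuation x = 1 := valuation_eq_one_of_pow hm (by rw [hpow, map_pow, hy, one_pow])
  let x' : A := ⟨x, (A.valuation_le_one_iff x).mp hx.le⟩
  let y' : A := ⟨y, (A.valuation_le_one_iff y).mp hy.le⟩
  have hres : IsLocalRing.residue A x' = IsLocalRing.residue A y' := by
    rw [← sub_eq_zero, ← map_sub, IsLocalRing.residue_eq_zero_iff, IsLocalRing.mem_maximalIdeal]
    exact (A.valuation_lt_one_iff (x' - y')).mpr h
  have hsum : ∑ i ∈ Finset.range m, x' ^ i * y' ^ (m - 1 - i) = 0 := by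
    have hh : (∑ i ∈ Finset.range m, x' ^ i * y' ^ (m - 1 - i)) * (x' - y') = 0 := by
      rw [geom_sum₂_mul, sub_eq_zero]
      exact Subtype.ext hpow
    refine (mul_eq_zero.mp hh).resolve_right fun h0 => hne ?_
    exact congrArg Subtype.val (sub_eq_zero.mp h0)
  have h' := congrArg (IsLocalRing.residue A) hsum
  rw [map_zero, map_sum] at h'
  simp_rw [map_mul, map_pow, hres] at h'
  rw [geom_sum₂_self, mul_eq_zero] at h'
  rcases h' with h' | h'
  · rw [← map_natCast (IsLocalRing.residue A), IsLocalRing.residue_eq_zero_iff,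
      IsLocalRing.mem_maximalIdeal, mem_nonunits_iff] at h'
    exact h' ((A.valuation_eq_one_iff (m : A)).mpr
      (by simpa using valuation_natCast_eq_one hq hA hqm))
  · have h'' := eq_zero_of_pow_eq_zero h'
    rw [IsLocalRing.residue_eq_zero_iff, IsLocalRing.mem_maximalIdeal, mem_nonunits_iff] at h''
    exact h'' ((A.valuation_eq_one_iff y').mpr hy)

/-- Inertia fixes the prime-to-`q` roots of its fixed units. -/
lemma inertia_fixes_root (hq : q.Prime) (hA : A.LiesOverPrime q) (hqm : ¬ q ∣ m) (hm : m ≠ 0)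
    {σ : GQ} (hσ : σ ∈ A.inertiaSubgroupIn ℚ) {x : Qbar} (hx : A.valuation x = 1)
    (hfix : σ (x ^ m) = x ^ m) : σ x = x :=
  root_eq_of_sub_lt hq hA hqm hm hx (by rw [← map_pow, hfix])
    (valuation_map_sub_lt_one hq hA hσ hx.le)

/-- Inertia fixes roots of unity of order prime to the residue characteristic. -/
lemma inertia_fixes_rootsOfUnity (hq : q.Prime) (hA : A.LiesOverPrime q) (hqm : ¬ q ∣ m)
    (hm : m ≠ 0) {σ : GQ} (hσ : σ ∈ A.inertiaSubgroupIn ℚ) {x : Qbar} (hx : x ^ m = 1) :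
    σ x = x :=
  inertia_fixes_root hq hA hqm hm hσ (valuation_eq_one_of_pow hm (by rw [hx, map_one]))
    (by rw [hx, map_one])

/-- Frobenius raises roots of unity of order prime to `q` to the `q`-th power. -/
lemma frobenius_rootsOfUnity (hq : q.Prime) (hA : A.LiesOverPrime q) (hqm : ¬ q ∣ m)
    (hm : m ≠ 0) {F : GQ} (hF : A.IsFrobeniusAt F q) {x : Qbar} (hx : x ^ m = 1) :
    F x = x ^ q := by
  refine root_eq_of_sub_lt hq hA hqm hm ?_ ?_ ?_
  · rw [map_pow, valuation_eq_one_of_pow hm (by rw [hx, map_one]), one_pow]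
  · rw [← map_pow, hx, map_one, ← pow_mul, mul_comm q m, pow_mul, hx, one_pow]
  · let b : ZBar :=
      ⟨x, IsIntegral.of_pow (Nat.pos_of_ne_zero hm) (by rw [hx]; exact isIntegral_one)⟩
    exact A.mem_nonunits_iff.mp (mem_center.mp ((isFrobeniusAt_iff hq hA F).mp hF b))

/-! ### Homomorphisms of inertia into prime-to-`q` roots of unity -/

/-- Every character of order dividing `m` of the inertia group at `q ∤ m` is a power of the Kummer
character of `q ^ (1/m)`. -/
theorem exists_tame_char (hq : q.Prime) (hA : A.LiesOverPrime q) (hqm : ¬ q ∣ m) (hm : m ≠ 0)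
    {F : GQ} (hF : A.IsFrobeniusAt F q) :
    ∃ κ : GQ → Qbar, (∀ σ, κ σ ^ m = 1) ∧
      (∀ σ ∈ A.inertiaSubgroupIn ℚ, κ (F * σ * F⁻¹) = κ σ ^ q) ∧
      ∀ φ : GQ → Qbar,
        (∀ σ ∈ A.inertiaSubgroupIn ℚ, ∀ τ ∈ A.inertiaSubgroupIn ℚ, φ (σ * τ) = φ σ * φ τ) →
        (∀ σ ∈ A.inertiaSubgroupIn ℚ, φ σ ^ m = 1) →
        (∀ U : Subgroup GQ, IsOpen (U : Set GQ) →
          (∀ σ ∈ A.inertiaSubgroupIn ℚ, σ ∈ U → φ σ = 1) →
          ∃ n : ℤ, ∀ σ ∈ A.inertiaSubgroupIn ℚ, φ σ = κ σ ^ n) := by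
  obtain ⟨π, hπ⟩ := IsAlgClosed.exists_pow_nat_eq (q : Qbar) (Nat.pos_of_ne_zero hm)
  have hπ0 : π ≠ 0 := fun h => by
    rw [h, zero_pow hm] at hπ
    exact hq.ne_zero (by exact_mod_cast hπ.symm)
  have hζ : ∀ τ : GQ, (τ π / π) ^ m = 1 := fun τ => by
    rw [div_pow, ← map_pow, hπ, map_natCast, div_self (Nat.cast_ne_zero.mpr hq.ne_zero)]
  refine ⟨fun σ => σ π / π, hζ, fun σ hσ => ?_, ?_⟩
  · have hz : F⁻¹ π = F⁻¹ π / π * π := (div_mul_cancel₀ _ hπ0).symm
    have h1 : (F * σ * F⁻¹) π = F (σ π / π) * π := by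
      change F (σ (F⁻¹ π)) = _
      rw [hz, map_mul, inertia_fixes_rootsOfUnity hq hA hqm hm hσ (hζ F⁻¹)]
      have h2 : F⁻¹ π / π * σ π = F⁻¹ π * (σ π / π) := by field_simp
      rw [h2, map_mul, show F (F⁻¹ π) = π from F.apply_symm_apply π, mul_comm]
    change (F * σ * F⁻¹) π / π = (σ π / π) ^ q
    rw [h1, mul_div_cancel_right₀ _ hπ0]
    exact frobenius_rootsOfUnity hq hA hqm hm hF (hζ σ)
  · intro φ hmul hpow U hU htriv
    have hne : ∀ σ ∈ A.inertiaSubgroupIn ℚ, φ σ ≠ 0 := fun σ hσ h => by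
      simpa [h, zero_pow hm] using hpow σ hσ
    obtain ⟨a, ha0, ha⟩ := exists_eq_mul_of_cocycle (A.inertiaSubgroupIn ℚ) φ
      (fun σ hσ τ hτ => by
        rw [hmul σ hσ τ hτ, inertia_fixes_rootsOfUnity hq hA hqm hm hσ (hpow τ hτ)])
      hne U hU htriv
    have hfix : ∀ σ ∈ A.inertiaSubgroupIn ℚ, σ (a ^ m) = a ^ m := fun σ hσ => by
      rw [map_pow, ha σ hσ, mul_pow, hpow σ hσ, one_mul]
    obtain ⟨n, hn⟩ := exists_zpow_valuation_eq hq hA (pow_ne_zero m ha0) hfix
    refine ⟨n, fun σ hσ => ?_⟩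
    set u := a / π ^ n with hu
    have hum : u ^ m = a ^ m / (q : Qbar) ^ n := by
      rw [hu, div_pow, ← hπ, ← zpow_natCast (π ^ n) m, ← zpow_natCast π m, ← zpow_mul, ← zpow_mul,
        mul_comm]
    have hu1 : A.valuation u = 1 := valuation_eq_one_of_pow hm (by
      rw [hum, map_div₀, map_zpow₀, hn, div_self (zpow_ne_zero n (valuation_natCast_ne_zero hq))])
    have hufix : σ u = u := inertia_fixes_root hq hA hqm hm hσ hu1 (by
      rw [hum, map_div₀, map_zpow₀, map_natCast, hfix σ hσ])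
    have hσπ : σ π ≠ 0 := by simp [hπ0]
    rw [hu, map_div₀, map_zpow₀, ha σ hσ, div_eq_div_iff (zpow_ne_zero n hσπ)
      (zpow_ne_zero n hπ0)] at hufix
    rw [div_zpow, eq_div_iff (zpow_ne_zero n hπ0)]
    exact mul_left_cancel₀ ha0 (by linear_combination hufix)

/-! ### Kummer cocycles of units -/

/-- `φ` is, on the inertia group at `A`, the Kummer cocycle of a unit of `A`. -/
def IsUnitKummer (A : ValuationSubring Qbar) (φ : GQ → Qbar) : Prop :=
  ∃ a : Qbar, A.valuation a = 1 ∧ ∀ σ ∈ A.inertiaSubgroupIn ℚ, σ a = φ σ * a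

/-- A Kummer cocycle of a unit depends only on inertia. -/
lemma IsUnitKummer.congr {φ ψ : GQ → Qbar} (h : IsUnitKummer A φ)
    (heq : ∀ σ ∈ A.inertiaSubgroupIn ℚ, φ σ = ψ σ) : IsUnitKummer A ψ := by
  obtain ⟨a, ha, h⟩ := h
  exact ⟨a, ha, fun σ hσ => heq σ hσ ▸ h σ hσ⟩

/-- Kummer cocycles of units are closed under quotients. -/
lemma IsUnitKummer.div {φ ψ : GQ → Qbar} (h : IsUnitKummer A φ) (h' : IsUnitKummer A ψ) :
    IsUnitKummer A fun σ => φ σ / ψ σ := by
  obtain ⟨a, ha, h⟩ := h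
  obtain ⟨b, hb, h'⟩ := h'
  refine ⟨a / b, by rw [map_div₀, ha, hb, one_div_one], fun σ hσ => ?_⟩
  rw [map_div₀, h σ hσ, h' σ hσ, div_mul_div_comm]

/-- A coboundary of a root of unity is the Kummer cocycle of a unit. -/
lemma isUnitKummer_coboundary (hm : m ≠ 0) {ζ : Qbar} (hζ : ζ ^ m = 1) :
    IsUnitKummer A fun σ => σ ζ / ζ := by
  have h0 : ζ ≠ 0 := fun h => by simp [h, zero_pow hm] at hζ
  exact ⟨ζ, valuation_eq_one_of_pow hm (by rw [hζ, map_one]),
    fun σ _ => (div_mul_cancel₀ _ h0).symm⟩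

/-- A cocycle and its conjugate by a decomposition element differ by the cocycle of a unit. -/
theorem isUnitKummer_conj_div (hq : q.Prime) (hA : A.LiesOverPrime q) (hm : m ≠ 0)
    {F : GQ} (hF : F ∈ A.decompositionSubgroup ℚ) (φ : GQ → Qbar)
    (hmul : ∀ σ ∈ A.inertiaSubgroupIn ℚ, ∀ τ ∈ A.inertiaSubgroupIn ℚ,
      φ (σ * τ) = φ σ * σ (φ τ))
    (hpow : ∀ σ ∈ A.inertiaSubgroupIn ℚ, φ σ ^ m = 1)
    (U : Subgroup GQ) (hU : IsOpen (U : Set GQ))
    (htriv : ∀ σ ∈ A.inertiaSubgroupIn ℚ, σ ∈ U → φ σ = 1) :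
    IsUnitKummer A fun σ => F (φ (F⁻¹ * σ * F)) / φ σ := by
  have hne : ∀ σ ∈ A.inertiaSubgroupIn ℚ, φ σ ≠ 0 := fun σ hσ h => by
    simpa [h, zero_pow hm] using hpow σ hσ
  obtain ⟨a, ha0, ha⟩ := exists_eq_mul_of_cocycle _ φ hmul hne U hU htriv
  have hFa : A.valuation (F a) = A.valuation a := valuation_map_of_mem_decomposition A F hF a
  refine ⟨F a / a, by rw [map_div₀, hFa, div_self (by simp [ha0])], fun σ hσ => ?_⟩
  have hconj : F⁻¹ * σ * F ∈ A.inertiaSubgroupIn ℚ := by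
    have := conj_mem_inertiaSubgroupIn_of_mem hq hA hσ (Subgroup.inv_mem _ hF)
    rwa [inv_inv] at this
  have h1 : σ (F a) = F (φ (F⁻¹ * σ * F)) * F a := by
    rw [← map_mul, ← ha _ hconj]
    change σ (F a) = (F * (F⁻¹ * σ * F)) a
    rw [mul_assoc, mul_inv_cancel_left]
    rfl
  rw [map_div₀, h1, ha σ hσ]
  have := hne σ hσ
  field_simp

end FermatAgent.Mazur

end
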