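import Fermat.Agent.GaloisBasic.Inertia
import Fermat.Agent.ECLocal.PlaceVal

/-!
# The value group of the inertia field is generated by the residue characteristic
-/

set_option autoImplicit false

noncomputable section

open scoped NumberField Pointwise

namespace FermatAgent.Mazur

open FermatAgent.GaloisBasic
open FermatAgent.ECLocal (valuation_natCast_lt_one valuation_natCast_ne_zero)

variable {A : ValuationSubring Qbar} {q : ℕ}

/-- An algebraic integer outside the prime has valuation one. -/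
lemma valuation_eq_one_of_notMem_center {b : ZBar} (hb : b ∉ center A) :
    A.valuation (b : Qbar) = 1 := by
  have hu : IsUnit (zbarIncl A b) := by
    by_contra hn
    exact hb hn
  exact (A.valuation_eq_one_iff (zbarIncl A b)).mp hu

/-- The powers of `q` have distinct valuations. -/
lemma valuation_zpow_injective (hq : q.Prime) (hA : A.LiesOverPrime q) {n m : ℤ}
    (h : A.valuation (q : Qbar) ^ n = A.valuation (q : Qbar) ^ m) : n = m :=
  zpow_right_injective₀ (zero_lt_iff.mpr (valuation_natCast_ne_zero hq))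
    (valuation_natCast_lt_one hA).ne h

/-- A field element fixed by inertia has the valuation of an integral power of `q`. -/
theorem exists_zpow_valuation_eq (hq : q.Prime) (hA : A.LiesOverPrime q) {x : Qbar} (hx0 : x ≠ 0)
    (hx : ∀ σ ∈ A.inertiaSubgroupIn ℚ, σ x = x) :
    ∃ n : ℤ, A.valuation x = A.valuation (q : Qbar) ^ n := by
  let L : IntermediateField ℚ Qbar :=
    IntermediateField.normalClosure ℚ (IntermediateField.adjoin ℚ {x}) Qbar
  have : FiniteDimensional ℚ (IntermediateField.adjoin ℚ {x}) :=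
    IntermediateField.adjoin.finiteDimensional (Algebra.IsIntegral.isIntegral x)
  have : NumberField L := { }
  have : Normal ℚ L := normalClosure.normal ℚ _ Qbar
  have : IsGalois ℚ L := ⟨⟩
  have hxL : x ∈ L := IntermediateField.le_normalClosure _
    (IntermediateField.mem_adjoin_simple_self ℚ x)
  set P : Ideal (𝓞 L) := centerIn L A with hPdef
  have hP0 : P ≠ ⊥ := centerIn_ne_bot L hq hA
  have : P.IsMaximal := (centerIn_isPrime L A).isMaximal hP0
  set I : Subgroup (L ≃ₐ[ℚ] L) := P.inertia (L ≃ₐ[ℚ] L) with hIdef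
  let M : IntermediateField ℚ L := FixedPoints.intermediateField (I : Subgroup (L ≃ₐ[ℚ] L))
  have hIM : IsGaloisGroup I M L := IsGaloisGroup.subgroup (L ≃ₐ[ℚ] L) ℚ L I
  have : NumberField M := NumberField.of_intermediateField M
  have : IsGaloisGroup I (𝓞 M) (𝓞 L) := IsGaloisGroup.of_isFractionRing I (𝓞 M) (𝓞 L) M L
  set 𝔭 : Ideal (𝓞 M) := P.under (𝓞 M) with h𝔭
  have hqP : ((q : ℤ) : 𝓞 L) ∈ P := by simpa using natCast_mem_centerIn L hA
  have hPZ : P.under ℤ = Ideal.span {(q : ℤ)} := by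
    symm
    have : Fact q.Prime := ⟨hq⟩
    refine (Int.ideal_span_isMaximal_of_prime q).eq_of_le Ideal.IsPrime.ne_top' ?_
    rw [Ideal.span_singleton_le_iff_mem, Ideal.mem_comap]
    simpa using natCast_mem_centerIn L hA
  have h𝔭Z : 𝔭.under ℤ = Ideal.span {(q : ℤ)} := by
    rw [h𝔭, Ideal.under_under, hPZ]
  have : P.LiesOver 𝔭 := ⟨rfl⟩
  have : 𝔭.IsMaximal := Ideal.IsMaximal.under (𝓞 M) P
  have hperf : ∀ (R : Type) [CommRing R] [Ring.HasFiniteQuotients R] (J : Ideal R) [J.IsMaximal],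
      J ≠ ⊥ → PerfectField J.ResidueField := by
    intro R _ _ J _ hJ
    have : Finite (R ⧸ J) := Ring.HasFiniteQuotients.finiteQuotient hJ
    have : Finite J.ResidueField :=
      Finite.of_surjective _ (IsFractionRing.surjective_iff_isField.mpr
        ((Ideal.Quotient.maximal_ideal_iff_isField_quotient J).mp inferInstance))
    exact PerfectField.ofFinite
  have hqspan : Ideal.span {(q : ℤ)} ≠ ⊥ := by simp [hq.ne_zero]
  have : (P.under ℤ).IsMaximal := Ideal.IsMaximal.under ℤ P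
  have := hperf ℤ (P.under ℤ) (hPZ ▸ hqspan)
  have h𝔭0 : 𝔭 ≠ ⊥ := fun h => by
    have h' := h𝔭Z
    rw [h, Ideal.under_bot] at h'
    exact hqspan h'.symm
  have := hperf (𝓞 M) 𝔭 h𝔭0
  -- `e(𝔭 | q) = 1`
  have e1 : Nat.card I = P.ramificationIdx ℤ := by
    rw [hIdef, Ideal.card_inertia_eq_ramificationIdxIn (G := (L ≃ₐ[ℚ] L)) (P.under ℤ) P,
      Ideal.ramificationIdxIn_eq_ramificationIdx (P.under ℤ) P (L ≃ₐ[ℚ] L)]
  have e2 : Nat.card I = P.ramificationIdx (𝓞 M) := by
    have hin : P.inertia I = ⊤ := by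
      rw [eq_top_iff]
      intro σ _
      exact σ.2
    rw [← Ideal.ramificationIdxIn_eq_ramificationIdx 𝔭 P I,
      ← Ideal.card_inertia_eq_ramificationIdxIn (G := I) 𝔭 P, hin, Subgroup.card_top]
  have etow := Ideal.ramificationIdx_tower (R := ℤ) 𝔭 P
  rw [← e1, ← e2] at etow
  have e3 : 𝔭.ramificationIdx ℤ = 1 :=
    (right_eq_mul₀ Nat.card_pos.ne').mp etow
  -- the valuation on `M`
  let v : IsDedekindDomain.HeightOneSpectrum (𝓞 M) := ⟨𝔭, inferInstance, h𝔭0⟩
  have : 𝔭.LiesOver (Ideal.span {(q : ℤ)}) := ⟨h𝔭Z.symm⟩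
  have hmap : (Ideal.span {(q : ℤ)}).map (algebraMap ℤ (𝓞 M)) = Ideal.span {(q : 𝓞 M)} := by
    rw [Ideal.map_span, Set.image_singleton]; simp
  have hqM : (q : 𝓞 M) ≠ 0 := Nat.cast_ne_zero.mpr hq.ne_zero
  have hvq : v.intValuation (q : 𝓞 M) = WithZero.exp (-1 : ℤ) := by
    rw [v.intValuation_eq_exp_neg_multiplicity hqM]
    have hm := Ideal.IsDedekindDomain.ramificationIdx_eq_multiplicity (Ideal.span {(q : ℤ)}) 𝔭
      (by rw [hmap]; simpa using hqM)
    rw [e3, hmap] at hm
    rw [show v.asIdeal = 𝔭 from rfl, ← hm]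
    rfl
  -- `x` lies in `M`
  have hxfix : ∀ τ ∈ I, τ (⟨x, hxL⟩ : L) = ⟨x, hxL⟩ := by
    intro τ hτ
    obtain ⟨σ, hσ, rfl⟩ := exists_mem_inertiaSubgroupIn_restrictNormal_eq L hq hA τ (fun c => hτ c)
    apply (algebraMap L Qbar).injective
    change algebraMap L Qbar (σ.restrictNormal L ⟨x, hxL⟩) = x
    rw [AlgEquiv.restrictNormal_commutes]
    exact hx σ hσ
  let x' : M := ⟨⟨x, hxL⟩, fun τ => hxfix τ.1 τ.2⟩
  have hx'0 : x' ≠ 0 := fun h => hx0 (congrArg (fun z : M => ((z : L) : Qbar)) h)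
  obtain ⟨n, hn⟩ : ∃ n : ℤ, v.valuation M x' = WithZero.exp (-n) :=
    ⟨-(v.valuation M x').log, by
      rw [neg_neg, WithZero.exp_log ((Valuation.ne_zero_iff _).mpr hx'0)]⟩
  set y : M := x' * (algebraMap (𝓞 M) M (q : 𝓞 M)) ^ (-n) with hydef
  have hy : v.valuation M y = 1 := by
    rw [hydef, map_mul, map_zpow₀, v.valuation_of_algebraMap, hvq, hn, ← WithZero.exp_zsmul,
      ← WithZero.exp_add]
    simp
  obtain ⟨a, d, had⟩ := v.exists_primeCompl_mul_eq_of_integer y hy.le
  have hd : v.intValuation (d : 𝓞 M) = 1 := (v.intValuation_eq_one_iff_mem_primeCompl _).mpr d.2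
  have ha : v.intValuation a = 1 := by
    have h := congrArg (v.valuation M) had
    rw [map_mul, hy, one_mul, v.valuation_of_algebraMap, v.valuation_of_algebraMap, hd] at h
    exact h.symm
  have ha' : a ∉ 𝔭 := (v.intValuation_eq_one_iff_mem_primeCompl _).mp ha
  let r : 𝓞 M →+* ZBar := (ringOfIntegersIncl L).comp (algebraMap (𝓞 M) (𝓞 L))
  have hout : ∀ b : 𝓞 M, b ∉ 𝔭 → A.valuation ((r b : ZBar) : Qbar) = 1 := fun b hb =>
    valuation_eq_one_of_notMem_center fun h => hb h
  have hco : ∀ b : 𝓞 M, ((r b : ZBar) : Qbar) = ((algebraMap (𝓞 M) M b : M) : L).1 := fun _ => rfl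
  have hmul := congrArg (fun z : M => A.valuation ((z : L) : Qbar)) had
  simp only [IntermediateField.coe_mul, map_mul, ← hco] at hmul
  rw [hout a ha', hout _ d.2, mul_one] at hmul
  refine ⟨n, ?_⟩
  have hyval : ((y : L) : Qbar) = x * ((q : Qbar)) ^ (-n) := by
    have hι : ((y : L) : Qbar) = ((L.val : L →+* Qbar).comp (M.val : M →+* L)) y := rfl
    rw [hι, hydef, map_mul, map_zpow₀, map_natCast, map_natCast]
    rfl
  rw [hyval, map_mul, map_zpow₀, zpow_neg, mul_inv_eq_one₀
    (zpow_ne_zero n (valuation_natCast_ne_zero hq))] at hmul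
  exact hmul

end FermatAgent.Mazur

end
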