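import Mathlib.LinearAlgebra.Matrix.ToLinearEquiv
import Mathlib.LinearAlgebra.Matrix.Charpoly.Coeff

/-!
# Groups of `2 × 2` matrices with eigenvalue `1`
-/

set_option autoImplicit false

open scoped Matrix

namespace FermatAgent.Mazur

/-- A `2 × 2` matrix with zero square has zero trace. -/
lemma trace_eq_zero_of_sq {R : Type*} [CommRing R] [IsDomain R] {A : Matrix (Fin 2) (Fin 2) R}
    (h : A ^ 2 = 0) : A 0 0 + A 1 1 = 0 := by
  rw [sq] at h
  have e00 := congrFun (congrFun h 0) 0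
  have e01 := congrFun (congrFun h 0) 1
  have e10 := congrFun (congrFun h 1) 0
  have e11 := congrFun (congrFun h 1) 1
  simp [Matrix.mul_apply, Fin.sum_univ_two] at e00 e01 e10 e11
  by_contra hne
  have b0 : A 0 1 = 0 := (mul_eq_zero.mp (show (A 0 0 + A 1 1) * A 0 1 = 0 by
    linear_combination e01)).resolve_left hne
  rw [b0, zero_mul, add_zero] at e00
  rw [b0, mul_zero, zero_add] at e11
  rw [mul_self_eq_zero.1 e00, mul_self_eq_zero.1 e11, add_zero] at hne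
  exact hne rfl

variable {k : Type*} [Field k]

lemma exists_smul_of_dot {u v v' : Fin 2 → k} (hu : u ≠ 0) (hv : v ≠ 0) (h : u ⬝ᵥ v = 0)
    (h' : u ⬝ᵥ v' = 0) : ∃ c : k, v' = c • v := by
  simp only [dotProduct, Fin.sum_univ_two] at h h'
  have hx : v 0 * v' 1 = v 1 * v' 0 := by
    rcases Function.ne_iff.1 hu with ⟨i, hi⟩
    fin_cases i <;> simp only [Pi.zero_apply, Fin.zero_eta, Fin.mk_one] at hi
    · exact mul_left_cancel₀ hi (by linear_combination v' 1 * h - v 1 * h')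
    · exact mul_left_cancel₀ hi (by linear_combination v 0 * h' - v' 0 * h)
  by_cases h0 : v 0 = 0
  · have h1 : v 1 ≠ 0 := fun h1 => hv (funext fun i => by fin_cases i <;> simp [h0, h1])
    refine ⟨v' 1 / v 1, funext fun i => ?_⟩
    fin_cases i
    · simp only [Fin.zero_eta, Pi.smul_apply, smul_eq_mul]
      rw [h0, mul_zero]
      exact (mul_eq_zero.1 (show v 1 * v' 0 = 0 by rw [← hx, h0, zero_mul])).resolve_left h1
    · simp [div_mul_cancel₀ _ h1]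
  · refine ⟨v' 0 / v 0, funext fun i => ?_⟩
    fin_cases i
    · simp [div_mul_cancel₀ _ h0]
    · simp only [Fin.mk_one, Pi.smul_apply, smul_eq_mul]
      rw [div_mul_eq_mul_div, eq_div_iff h0]
      linear_combination hx

lemma exists_smul_of_mulVec {A : Matrix (Fin 2) (Fin 2) k} (hA : A ≠ 0) {v v' : Fin 2 → k}
    (hv : v ≠ 0) (h : A *ᵥ v = 0) (h' : A *ᵥ v' = 0) : ∃ c : k, v' = c • v := by
  obtain ⟨i, hi⟩ := Function.ne_iff.1 hA
  exact exists_smul_of_dot (u := A i) hi hv (congrFun h i) (congrFun h' i)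

lemma exists_smul_of_vecMul {A : Matrix (Fin 2) (Fin 2) k} (hA : A ≠ 0) {w w' : Fin 2 → k}
    (hw : w ≠ 0) (h : w ᵥ* A = 0) (h' : w' ᵥ* A = 0) : ∃ c : k, w' = c • w := by
  refine exists_smul_of_mulVec (A := Aᵀ) (fun h0 => hA (Matrix.transpose_eq_zero.1 h0)) hw ?_ ?_
  · rw [Matrix.mulVec_transpose, h]
  · rw [Matrix.mulVec_transpose, h']

/-- Two matrices with eigenvalue `1` and product with eigenvalue `1` share a fixed vector or a
fixed covector. -/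
lemma common_fixed_pair {A B : Matrix (Fin 2) (Fin 2) k} (hA : A.det = 0) (hB : B.det = 0)
    (hAB : (A + B + A * B).det = 0) :
    (∃ v ≠ 0, A *ᵥ v = 0 ∧ B *ᵥ v = 0) ∨ (∃ w ≠ 0, w ᵥ* A = 0 ∧ w ᵥ* B = 0) := by
  obtain ⟨v, hv, hv'⟩ := Matrix.exists_mulVec_eq_zero_iff.2 hAB
  rw [Matrix.add_mulVec, Matrix.add_mulVec, ← Matrix.mulVec_mulVec] at hv'
  by_cases hBv : B *ᵥ v = 0
  · rw [hBv, add_zero, Matrix.mulVec_zero, add_zero] at hv'
    exact Or.inl ⟨v, hv, hv', hBv⟩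
  obtain ⟨w, hw, hwA⟩ := Matrix.exists_vecMul_eq_zero_iff.2 hA
  obtain ⟨w', hw', hwB⟩ := Matrix.exists_vecMul_eq_zero_iff.2 hB
  have h1 : B *ᵥ v ⬝ᵥ w = 0 := by
    have := congrArg (w ⬝ᵥ ·) hv'
    simp only [dotProduct_add, Matrix.dotProduct_mulVec, hwA, zero_dotProduct, dotProduct_zero,
      Matrix.zero_vecMul, zero_add, add_zero] at this
    rw [dotProduct_comm, Matrix.dotProduct_mulVec]
    exact this
  have h2 : B *ᵥ v ⬝ᵥ w' = 0 := by
    rw [dotProduct_comm, Matrix.dotProduct_mulVec, hwB, zero_dotProduct]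
  obtain ⟨c, rfl⟩ := exists_smul_of_dot hBv hw h1 h2
  refine Or.inr ⟨w, hw, hwA, ?_⟩
  rw [Matrix.smul_vecMul] at hwB
  exact (smul_eq_zero.1 hwB).resolve_left fun hc => hw' (by rw [hc, zero_smul])

/-- A group of matrices with eigenvalue `1` has a common fixed vector or a common fixed
covector. -/
theorem common_fixed {G : Type*} [Monoid G] (r : G →* Matrix (Fin 2) (Fin 2) k)
    (h : ∀ g, (r g - 1).det = 0) :
    (∃ v ≠ 0, ∀ g, r g *ᵥ v = v) ∨ (∃ w ≠ 0, ∀ g, w ᵥ* r g = w) := by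
  have hpair : ∀ g g', (∃ v ≠ 0, (r g - 1) *ᵥ v = 0 ∧ (r g' - 1) *ᵥ v = 0) ∨
      (∃ w ≠ 0, w ᵥ* (r g - 1) = 0 ∧ w ᵥ* (r g' - 1) = 0) := fun g g' => by
    refine common_fixed_pair (h g) (h g') ?_
    rw [show (r g - 1) + (r g' - 1) + (r g - 1) * (r g' - 1) = r (g * g') - 1 by
      rw [map_mul, sub_mul, mul_sub, mul_one, one_mul]; abel]
    exact h _
  suffices H : (∃ v ≠ 0, ∀ g, (r g - 1) *ᵥ v = 0) ∨ (∃ w ≠ 0, ∀ g, w ᵥ* (r g - 1) = 0) by
    refine H.imp ?_ ?_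
    · rintro ⟨v, hv, hfix⟩
      exact ⟨v, hv, fun g => by simpa [Matrix.sub_mulVec, sub_eq_zero] using hfix g⟩
    · rintro ⟨w, hw, hfix⟩
      exact ⟨w, hw, fun g => by simpa [Matrix.vecMul_sub, sub_eq_zero] using hfix g⟩
  by_cases hall : ∀ g, r g - 1 = 0
  · exact Or.inl ⟨Pi.single 0 1, by simp, fun g => by rw [hall g, Matrix.zero_mulVec]⟩
  push Not at hall
  obtain ⟨g, hg⟩ := hall
  obtain ⟨v, hv, hgv⟩ := Matrix.exists_mulVec_eq_zero_iff.2 (h g)
  by_cases hcommon : ∀ x, (r x - 1) *ᵥ v = 0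
  · exact Or.inl ⟨v, hv, hcommon⟩
  push Not at hcommon
  obtain ⟨g', hg'v⟩ := hcommon
  have hg' : r g' - 1 ≠ 0 := fun h0 => hg'v (by rw [h0, Matrix.zero_mulVec])
  obtain ⟨u, hu, hgu, hg'u⟩ | ⟨w, hw, hgw, hg'w⟩ := hpair g g'
  · obtain ⟨c, rfl⟩ := exists_smul_of_mulVec hg hv hgv hgu
    rw [Matrix.mulVec_smul, smul_eq_zero] at hg'u
    exact absurd (hg'u.resolve_left fun hc => hu (by rw [hc, zero_smul])) hg'v
  refine Or.inr ⟨w, hw, fun x => ?_⟩
  by_contra hx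
  have hker : ∀ y, r y - 1 ≠ 0 → w ᵥ* (r y - 1) = 0 →
      ∃ u ≠ 0, (r y - 1) *ᵥ u = 0 ∧ (r x - 1) *ᵥ u = 0 := by
    intro y hy hyw
    refine (hpair y x).resolve_right ?_
    rintro ⟨w', hw', hy', hx'⟩
    obtain ⟨c, rfl⟩ := exists_smul_of_vecMul hy hw hyw hy'
    rw [Matrix.smul_vecMul, smul_eq_zero] at hx'
    exact hx (hx'.resolve_left fun hc => hw' (by rw [hc, zero_smul]))
  obtain ⟨u, hu, hgu, hxu⟩ := hker g hg hgw
  obtain ⟨u', hu', hg'u, hxu'⟩ := hker g' hg' hg'w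
  have hxne : r x - 1 ≠ 0 := fun h0 => hx (by rw [h0, Matrix.vecMul_zero])
  obtain ⟨c, rfl⟩ := exists_smul_of_mulVec hg hv hgv hgu
  have hc : c ≠ 0 := fun hc => hu (by rw [hc, zero_smul])
  rw [Matrix.mulVec_smul, smul_eq_zero] at hxu
  obtain ⟨d, rfl⟩ := exists_smul_of_mulVec hxne hv (hxu.resolve_left hc) hxu'
  rw [Matrix.mulVec_smul, smul_eq_zero] at hg'u
  exact hg'v (hg'u.resolve_left fun hd => hu' (by rw [hd, zero_smul]))

/-- A fixed covector and vanishing trace give a fixed vector. -/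
lemma mulVec_eq_zero_of_vecMul {A : Matrix (Fin 2) (Fin 2) k} {w : Fin 2 → k}
    (h : w ᵥ* A = 0) (ht : A 0 0 + A 1 1 = 0) : A *ᵥ ![-w 1, w 0] = 0 := by
  have h0 := congrFun h 0
  have h1 := congrFun h 1
  simp [Matrix.vecMul, dotProduct, Fin.sum_univ_two] at h0 h1
  funext i
  fin_cases i <;> simp [Matrix.mulVec, dotProduct, Fin.sum_univ_two]
  · linear_combination h1 - w 1 * ht
  · linear_combination -h0 + w 0 * ht

end FermatAgent.Mazur
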