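import Fermat.Agent.ES.Tate.EigenLattice
import Fermat.Agent.ES.Tate.Unramified
import Mathlib.LinearAlgebra.Eigenspace.Pi
import Mathlib.LinearAlgebra.Eigenspace.Semisimple
import Mathlib.LinearAlgebra.Charpoly.Basic
import Mathlib.FieldTheory.Perfect

/-!
# Splitting parabolic homomorphisms into Hecke eigenvectors

If the Hecke algebra is reduced, every vector over an algebraically closed field of characteristic
zero is a sum of simultaneous eigenvectors.
-/

set_option autoImplicit false

noncomputable section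

open scoped Matrix Classical
open CongruenceSubgroup (Gamma0)
open FermatAgent.Period (parRank parMat parMatHom)
open FermatAgent.ES (intMat eigLat mem_eigLat)

namespace FermatAgent.Mazur

variable {N : ℕ} [NeZero N]

/-- Integer matrices as endomorphisms over a ring. -/
def matEnd (N : ℕ) [NeZero N] (R : Type) [CommRing R] :
    CuspForm.heckeAlgebra N 2 ∅ →+* Module.End R (Fin (parRank (Gamma0 N)) → R) :=
  (Matrix.toLinAlgEquiv'.toAlgHom.toRingHom.comp (Int.castRingHom R).mapMatrix).comp
    (parMatHom N ∅)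

lemma matEnd_apply {R : Type} [CommRing R] (t : CuspForm.heckeAlgebra N 2 ∅)
    (v : Fin (parRank (Gamma0 N)) → R) : matEnd N R t v = intMat R t *ᵥ v := rfl

variable (F : Type) [Field F] [CharZero F]

/-- Each operator is semisimple. -/
theorem isSemisimple_matEnd (hred : IsReduced (CuspForm.heckeAlgebra N 2 ∅))
    (t : CuspForm.heckeAlgebra N 2 ∅) : (matEnd N F t).IsSemisimple := by
  set A : Matrix (Fin (parRank (Gamma0 N))) (Fin (parRank (Gamma0 N))) ℚ :=
    (Int.castRingHom ℚ).mapMatrix (parMatHom N ∅ t) with hA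
  -- the radical of the minimal polynomial kills `A`
  set m := minpoly ℚ A
  have hm0 : m ≠ 0 := minpoly.ne_zero (Matrix.isIntegral A)
  have hsq : Squarefree m := by
    intro b hb
    obtain ⟨c, hc⟩ := hb
    by_contra hu
    set d := IsLocalization.integerNormalization (nonZeroDivisors ℤ) (b * c)
    obtain ⟨z, hz, hzd⟩ := IsLocalization.integerNormalization_spec (nonZeroDivisors ℤ) (b * c)
    have h1 : (Int.castRingHom ℚ).mapMatrix (parMatHom N ∅ (Polynomial.aeval t d)) =
        z • Polynomial.aeval A (b * c) := by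
      rw [← map_zsmul (Polynomial.aeval (R := ℚ) A), ← hzd, Polynomial.aeval_def,
        Polynomial.aeval_def,
        Polynomial.eval₂_map, ← RingHom.comp_apply (Int.castRingHom ℚ).mapMatrix,
        Polynomial.hom_eval₂]
      congr 1
      exact RingHom.ext_int _ _
    have hd : parMatHom N ∅ (Polynomial.aeval t d) = 0 := by
      have hsqz : Polynomial.aeval A (b * c) ^ 2 = 0 := by
        rw [← map_pow]
        obtain ⟨e, he⟩ : m ∣ (b * c) ^ 2 := ⟨c, by rw [hc]; ring⟩
        rw [he, map_mul, minpoly.aeval, zero_mul]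
      have hn : IsNilpotent (parMatHom N ∅ (Polynomial.aeval t d)) := ⟨2, by
        refine Matrix.map_injective (Int.cast_injective (α := ℚ)) ?_
        show (Int.castRingHom ℚ).mapMatrix (_ ^ 2) = (Int.castRingHom ℚ).mapMatrix 0
        rw [map_zero, map_pow, h1, smul_pow, hsqz, smul_zero]⟩
      rw [IsNilpotent.map_iff (FermatAgent.ES.parMatHom_injective N)] at hn
      rw [(hred.eq_zero _ hn), map_zero]
    have hA0 : Polynomial.aeval A (b * c) = 0 := by
      rw [hd, map_zero, eq_comm] at h1
      rw [← Int.cast_smul_eq_zsmul ℚ] at h1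
      exact (smul_eq_zero.1 h1).resolve_left (Int.cast_ne_zero.2 (nonZeroDivisors.ne_zero hz))
    have hbc : b * c ≠ 0 := fun h => hm0 (by rw [hc, mul_assoc, h, mul_zero])
    have hle : m.natDegree ≤ (b * c).natDegree :=
      Polynomial.natDegree_le_of_dvd (minpoly.dvd ℚ A hA0) hbc
    have hb0 : b ≠ 0 := left_ne_zero_of_mul hbc
    rw [hc, mul_assoc, Polynomial.natDegree_mul hb0 hbc] at hle
    refine hu (Polynomial.isUnit_iff_degree_eq_zero.2 ?_)
    rw [Polynomial.degree_eq_natDegree hb0, Nat.cast_eq_zero]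
    omega
  refine Module.End.isSemisimple_of_squarefree_aeval_eq_zero
    (p := m.map (algebraMap ℚ F)) ?_ ?_
  · exact ((PerfectField.separable_iff_squarefree.2 hsq).map).squarefree
  · rw [Polynomial.aeval_map_algebraMap]
    set ev : Matrix (Fin (parRank (Gamma0 N))) (Fin (parRank (Gamma0 N))) ℚ →ₐ[ℚ]
        Module.End F (Fin (parRank (Gamma0 N)) → F) :=
      (Matrix.toLinAlgEquiv' (R := F)).toAlgHom.restrictScalars ℚ |>.comp
        (Algebra.ofId ℚ F).mapMatrix
    have he : matEnd N F t = ev A := by
      refine congrArg Matrix.toLinAlgEquiv' ?_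
      ext i j
      simp [hA]
    rw [he, Polynomial.aeval_algHom_apply, minpoly.aeval, map_zero]

variable {F} [IsAlgClosed F]

/-- **Every vector is a sum of eigenvectors.** -/
theorem exists_eigen_sum (hred : IsReduced (CuspForm.heckeAlgebra N 2 ∅))
    (v : Fin (parRank (Gamma0 N)) → F) :
    ∃ (s : Finset (CuspForm.heckeAlgebra N 2 ∅ →+* F))
      (w : (CuspForm.heckeAlgebra N 2 ∅ →+* F) → Fin (parRank (Gamma0 N)) → F),
      (∀ θ ∈ s, w θ ∈ eigLat θ) ∧ v = ∑ θ ∈ s, w θ := by
  have htop :=
    Module.End.iSup_iInf_maxGenEigenspace_eq_top_of_iSup_maxGenEigenspace_eq_top_of_commute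
    (fun t => matEnd N F t) (fun a b _ => (Commute.all a b).map (matEnd N F))
    fun t => Module.End.iSup_maxGenEigenspace_eq_top _
  have hle : (⨆ χ : CuspForm.heckeAlgebra N 2 ∅ → F,
      ⨅ t, (matEnd N F t).maxGenEigenspace (χ t)) ≤
      ⨆ θ : CuspForm.heckeAlgebra N 2 ∅ →+* F, eigLat θ := by
    refine iSup_le fun χ u hu => ?_
    rcases eq_or_ne u 0 with rfl | hu0
    · exact zero_mem _
    have he : ∀ t, matEnd N F t u = χ t • u := fun t => by
      have h := (Submodule.mem_iInf _).1 hu t
      rw [(isSemisimple_matEnd F hred t).isFinitelySemisimple.maxGenEigenspace_eq_eigenspace,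
        Module.End.mem_eigenspace_iff] at h
      exact h
    have inj : ∀ {a b : F}, a • u = b • u → a = b := fun h => smul_left_injective F hu0 h
    let θ : CuspForm.heckeAlgebra N 2 ∅ →+* F :=
      { toFun := χ
        map_one' := inj (by rw [← he, map_one, one_smul]; rfl)
        map_mul' := fun a b => inj (by
          rw [← he, map_mul, Module.End.mul_apply, he b, map_smul, he a, smul_smul, mul_comm])
        map_zero' := inj (by rw [← he, map_zero, zero_smul]; rfl)
        map_add' := fun a b => inj (by rw [← he, map_add, LinearMap.add_apply, he, he, add_smul]) }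
    refine Submodule.mem_iSup_of_mem θ ((mem_eigLat θ).2 fun t => ?_)
    rw [← matEnd_apply]
    exact he t
  have hv : v ∈ ⨆ θ : CuspForm.heckeAlgebra N 2 ∅ →+* F, eigLat θ := hle (htop ▸ Submodule.mem_top)
  obtain ⟨f, hf, hsum⟩ := (Submodule.mem_iSup_iff_exists_finsupp _ _).1 hv
  exact ⟨f.support, fun θ => f θ, fun θ _ => hf θ, hsum.symm⟩

end FermatAgent.Mazur

end
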