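import Fermat.Agent.Mazur.GHecke

/-!
# Vanishing of `δ` and its consequences on ordinary parabolic homomorphisms

If `ψ` is approximately fixed by powers of `T_ℓ` and its limit series reduces to `1`, then
`δ ψ = 0`. Consequently inertia at `ℓ` fixes `δ` and a Frobenius satisfies the congruence
relation after applying `δ`.
-/

set_option autoImplicit false

noncomputable section

open scoped Classical
open Finset.HasAntidiagonal (antidiagonal)
open PowerSeries (coeff)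
open CongruenceSubgroup (Gamma0)

namespace FermatAgent.Mazur

open FermatAgent.GaloisBasic
open FermatAgent.ES (padChar galPad galLin)
open ModularCurve ModularCurve.Period

local notation "Qbar" => AlgebraicClosure ℚ

attribute [local instance] embAlg

variable {ℓ : ℕ} [hℓ : Fact ℓ.Prime]

local notation "PS" => PowerSeries ℂ_[ℓ]

/-- Coefficientwise congruence modulo the maximal ideal. -/
def SCong (G G' : PS) : Prop := ∀ j, ‖coeff j G - coeff j G'‖ < 1

namespace SCong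

variable {G G' G'' F F' : PowerSeries ℂ_[ℓ]}

lemma refl (G : PS) : SCong G G := fun j => by simp

lemma symm (h : SCong G G') : SCong G' G := fun j => by rw [norm_sub_rev]; exact h j

lemma trans (h : SCong G G') (h' : SCong G' G'') : SCong G G'' := fun j => by
  rw [← sub_add_sub_cancel (coeff j G) (coeff j G') (coeff j G'')]
  exact (IsUltrametricDist.norm_add_le_max _ _).trans_lt (max_lt (h j) (h' j))

lemma mul_right (h : SCong G G') (hF : BdBy F 1) : SCong (G * F) (G' * F) := fun j => by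
  rw [← map_sub, ← sub_mul, PowerSeries.coeff_mul]
  obtain ⟨x, -, hx⟩ := IsUltrametricDist.exists_norm_finsetSum_le (antidiagonal j)
    fun x => coeff x.1 (G - G') * coeff x.2 F
  refine hx.trans_lt ?_
  rw [norm_mul, map_sub]
  exact (mul_le_of_le_one_right (norm_nonneg _) (hF x.2)).trans_lt (h x.1)

lemma mul (h : SCong G G') (h' : SCong F F') (hF : BdBy F 1) (hG : BdBy G' 1) :
    SCong (G * F) (G' * F') := by
  have h1 : SCong (G * F) (G' * F) := SCong.mul_right h hF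
  have h2 : SCong (F * G') (F' * G') := SCong.mul_right h' hG
  exact h1.trans (mul_comm G' F ▸ mul_comm G' F' ▸ h2)

lemma prod {ι : Type*} (s : Finset ι) {G G' : ι → PS} (h : ∀ i ∈ s, SCong (G i) (G' i))
    (hG : ∀ i ∈ s, BdBy (G i) 1) (hG' : ∀ i ∈ s, BdBy (G' i) 1) :
    SCong (∏ i ∈ s, G i) (∏ i ∈ s, G' i) := by
  induction s using Finset.induction_on with
  | empty => rw [Finset.prod_empty, Finset.prod_empty]; exact refl _
  | insert a s ha ih =>
    rw [Finset.prod_insert ha, Finset.prod_insert ha]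
    exact (h a (Finset.mem_insert_self a s)).mul
      (ih (fun i hi => h i (Finset.mem_insert_of_mem hi))
        (fun i hi => hG i (Finset.mem_insert_of_mem hi))
        fun i hi => hG' i (Finset.mem_insert_of_mem hi))
      ((intSer ℓ).prod_mem fun i hi => hG i (Finset.mem_insert_of_mem hi))
      (hG' a (Finset.mem_insert_self a s))

lemma of_expand {d : ℕ} (hd : d ≠ 0)
    (h : SCong (PowerSeries.expand d hd G) (PowerSeries.expand d hd G')) : SCong G G' := fun j => by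
  have := h (d * j)
  rwa [PowerSeries.coeff_expand_mul, PowerSeries.coeff_expand_mul] at this

lemma to_one (h : SCong (G * G') G') (hG' : IsP1 G') : SCong G 1 := by
  have h1 := h.mul_right hG'.inv.2
  rwa [mul_assoc, hG'.mul_inv, mul_one] at h1

end SCong

/-- Raising to the `ℓ`-th power, coefficientwise. -/
lemma scong_pow_prime {G : PS} (hG : BdBy G 1) {σ : ℂ_[ℓ] →+* ℂ_[ℓ]}
    (hσ : ∀ x, ‖x‖ ≤ 1 → ‖σ x - x ^ ℓ‖ < 1) :
    SCong (G ^ ℓ) (PowerSeries.expand ℓ hℓ.out.ne_zero (G.map σ)) := by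
  have hℓ0 := hℓ.out.ne_zero
  intro n
  set T : ℕ → PS := fun M => ∑ i ∈ Finset.range M, PowerSeries.C (coeff i G) * PowerSeries.X ^ i
  have hmono : ∀ i, PowerSeries.C (coeff i G) * PowerSeries.X ^ i ∈ intSer ℓ := fun i j => by
    rw [PowerSeries.coeff_C_mul, PowerSeries.coeff_X_pow]
    split_ifs <;> simp [hG i]
  have hT : ∀ M, SCong (T M ^ ℓ)
      (∑ i ∈ Finset.range M, PowerSeries.C (coeff i G ^ ℓ) * PowerSeries.X ^ (ℓ * i)) := by
    intro M
    induction M with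
    | zero => simp only [T, Finset.sum_range_zero, zero_pow hℓ0]; exact SCong.refl _
    | succ M ih =>
      intro j
      obtain ⟨r₀, hr⟩ := exists_add_pow_prime_eq hℓ.out
        (⟨T M, (intSer ℓ).sum_mem fun i _ => hmono i⟩ : intSer ℓ) ⟨_, hmono M⟩
      set r : intSer ℓ := (⟨T M, (intSer ℓ).sum_mem fun i _ => hmono i⟩ : intSer ℓ) *
        ⟨_, hmono M⟩ * r₀ with hrdef
      have hr' : (T M + PowerSeries.C (coeff M G) * PowerSeries.X ^ M) ^ ℓ = T M ^ ℓ +
          (PowerSeries.C (coeff M G) * PowerSeries.X ^ M) ^ ℓ + (ℓ : PS) * (r : PS) := by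
        have h0 := congrArg Subtype.val hr
        push_cast [hrdef] at h0 ⊢
        linear_combination h0
      simp only [T, Finset.sum_range_succ] at hr' ⊢
      rw [hr', map_add, map_add, map_add, mul_pow, ← map_pow, ← pow_mul, mul_comm M ℓ]
      refine lt_of_eq_of_lt (congrArg norm ?_) ((IsUltrametricDist.norm_add_le_max
        (coeff j (T M ^ ℓ) - coeff j
          (∑ i ∈ Finset.range M, PowerSeries.C (coeff i G ^ ℓ) * PowerSeries.X ^ (ℓ * i)))
        (coeff j ((ℓ : PS) * (r : PS)))).trans_lt (max_lt (ih j) ?_))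
      · simp only [T]; ring
      · rw [← map_natCast (PowerSeries.C (R := ℂ_[ℓ])), PowerSeries.coeff_C_mul, norm_mul]
        exact (mul_le_of_le_one_right (norm_nonneg _) (r.2 j)).trans_lt norm_prime_cp_lt_one
  have h1 : coeff n (G ^ ℓ) = coeff n (T (n + 1) ^ ℓ) := by
    rw [← sub_eq_zero, ← map_sub]
    have hd : PowerSeries.X ^ (n + 1) ∣ G - T (n + 1) := PowerSeries.X_pow_dvd_iff.2 fun m hm => by
      simp only [T, map_sub, map_sum, PowerSeries.coeff_C_mul, PowerSeries.coeff_X_pow, mul_ite,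
        mul_one, mul_zero, Finset.sum_ite_eq, Finset.mem_range, hm, if_true, sub_self]
    exact PowerSeries.X_pow_dvd_iff.1 (hd.trans (sub_dvd_pow_sub_pow _ _ ℓ)) n (Nat.lt_succ_self n)
  refine lt_of_eq_of_lt ?_ ((IsUltrametricDist.norm_add_le_max
    (coeff n (T (n + 1) ^ ℓ) - coeff n
      (∑ i ∈ Finset.range (n + 1), PowerSeries.C (coeff i G ^ ℓ) * PowerSeries.X ^ (ℓ * i)))
    (coeff n (∑ i ∈ Finset.range (n + 1), PowerSeries.C (coeff i G ^ ℓ) * PowerSeries.X ^ (ℓ * i)) -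
      coeff n (PowerSeries.expand ℓ hℓ0 (G.map σ)))).trans_lt (max_lt (hT (n + 1) n) ?_))
  · rw [h1, sub_add_sub_cancel]
  simp only [map_sum, PowerSeries.coeff_C_mul, PowerSeries.coeff_X_pow, mul_ite, mul_one, mul_zero,
    PowerSeries.coeff_expand, PowerSeries.coeff_map]
  by_cases hd : ℓ ∣ n
  · obtain ⟨i, rfl⟩ := hd
    rw [if_pos (dvd_mul_right ℓ i), Nat.mul_div_cancel_left _ hℓ.out.pos,
      Finset.sum_eq_single_of_mem i (Finset.mem_range.2 (Nat.lt_succ_of_le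
        (Nat.le_mul_of_pos_left i hℓ.out.pos)))
        (fun b _ hb => if_neg fun h => hb (Nat.eq_of_mul_eq_mul_left hℓ.out.pos h).symm),
      if_pos rfl, norm_sub_rev]
    exact hσ _ (hG i)
  · rw [if_neg hd, Finset.sum_eq_zero fun i _ => if_neg fun h => hd ⟨i, h⟩]
    simp

lemma norm_root_sub_one_lt {ζ : ℂ_[ℓ]} (hζ : IsPrimitiveRoot ζ ℓ) : ‖ζ - 1‖ < 1 := by
  have h1 : ‖ζ‖ = 1 := norm_root_eq_one hζ
  have hle : ‖ζ - 1‖ ≤ 1 := by
    rw [sub_eq_add_neg]
    exact (IsUltrametricDist.norm_add_le_max _ _).trans (by simp [h1])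
  have hm : ∀ x : ℂ_[ℓ], ‖x‖ ≤ 1 → PowerSeries.C x ∈ intSer ℓ := fun x hx j => by
    rw [PowerSeries.coeff_C]; split_ifs <;> simp [hx]
  obtain ⟨r₀, hr⟩ := exists_add_pow_prime_eq hℓ.out (⟨_, hm (ζ - 1) hle⟩ : intSer ℓ) 1
  set r : intSer ℓ := (⟨_, hm (ζ - 1) hle⟩ : intSer ℓ) * r₀ with hrdef
  have h0 : (⟨_, hm (ζ - 1) hle⟩ + 1 : intSer ℓ) ^ ℓ =
      (⟨_, hm (ζ - 1) hle⟩ : intSer ℓ) ^ ℓ + 1 + (ℓ : intSer ℓ) * r := by
    rw [hr, one_pow, hrdef]; ring
  have h2 := congrArg (fun F : intSer ℓ => PowerSeries.constantCoeff (F : PS)) h0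
  push_cast at h2
  simp only [map_pow, map_add, map_mul, map_one, map_natCast, PowerSeries.constantCoeff_C,
    sub_add_cancel, hζ.pow_eq_one] at h2
  have h3 : (ζ - 1) ^ ℓ = -((ℓ : ℂ_[ℓ]) * PowerSeries.constantCoeff (r : PS)) := by
    linear_combination -h2
  by_contra! hge
  have h4 := congrArg norm h3
  rw [norm_pow, norm_neg, norm_mul, le_antisymm hle hge, one_pow] at h4
  refine absurd h4.symm (ne_of_lt ((mul_le_of_le_one_right (norm_nonneg _) ?_).trans_lt
    norm_prime_cp_lt_one))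
  simpa using r.2 0

/-- `normSer` reduces to the Frobenius twist. -/
lemma scong_normSer {ζ : ℂ_[ℓ]} (hζ : IsPrimitiveRoot ζ ℓ) {G : PS} (hG : IsP1 G)
    {σ : ℂ_[ℓ] →+* ℂ_[ℓ]} (hσ : ∀ x, ‖x‖ ≤ 1 → ‖σ x - x ^ ℓ‖ < 1) :
    SCong (normSer ℓ ζ G) (G.map σ) := by
  refine SCong.of_expand hℓ.out.ne_zero ?_
  rw [expand_normSer hζ]
  refine (SCong.trans ?_ (scong_pow_prime hG.2 hσ))
  have hr : ∀ i, SCong (PowerSeries.rescale (ζ ^ i) G) G := fun i j => by
    rw [PowerSeries.coeff_rescale, show (ζ ^ i) ^ j * coeff j G - coeff j G =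
      (ζ ^ (i * j) - 1) * coeff j G by rw [← pow_mul]; ring, norm_mul, ← geom_sum_mul, norm_mul]
    refine (mul_le_of_le_one_right (by positivity) (hG.2 j)).trans_lt
      ((mul_le_of_le_one_left (norm_nonneg _) ?_).trans_lt (norm_root_sub_one_lt hζ))
    exact IsUltrametricDist.norm_sum_le_of_forall_le_of_nonneg zero_le_one fun k _ => by
      rw [norm_pow, norm_root_eq_one hζ, one_pow]
  have h := SCong.prod (Finset.range ℓ) (G := fun i => PowerSeries.rescale (ζ ^ i) G)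
    (G' := fun _ => G) (fun i _ => hr i)
    (fun i _ => (hG.rescale (by rw [norm_pow, norm_root_eq_one hζ, one_pow])).2) fun _ _ => hG.2
  rwa [Finset.prod_const, Finset.card_range] at h

/-! ### Coefficients of logarithmic derivatives along `ℓ`-power multiples -/

/-- `1 + c q ^ m` is an integral one-unit for integral `c`. -/
lemma isP1_one_add {c : ℂ_[ℓ]} (hc : ‖c‖ ≤ 1) {m : ℕ} (hm : m ≠ 0) :
    IsP1 (1 + PowerSeries.C c * PowerSeries.X ^ m : PS) := by
  refine ⟨by simp [hm], fun j => ?_⟩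
  rw [map_add, PowerSeries.coeff_C_mul, PowerSeries.coeff_X_pow, PowerSeries.coeff_one]
  refine (IsUltrametricDist.norm_add_le_max _ _).trans (max_le ?_ ?_) <;> split_ifs <;> simp [hc]

/-- Stripping off the first nontrivial factor. -/
lemma exists_strip {G : PS} (hG : IsP1 G) {m : ℕ} (hm : m ≠ 0)
    (hv : ∀ j, j ≠ 0 → j < m → coeff j G = 0) :
    ∃ G', IsP1 G' ∧ G = (1 + PowerSeries.C (coeff m G) * PowerSeries.X ^ m) * G' ∧
      (∀ j, j ≠ 0 → j ≤ m → coeff j G' = 0) ∧ (SCong G 1 → SCong G' 1) := by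
  set c := coeff m G
  set S : PS := 1 + PowerSeries.C c * PowerSeries.X ^ m with hS
  have hS1 : IsP1 S := isP1_one_add (hG.2 m) hm
  have hGS : G = S * (G * S⁻¹) := by
    rw [← mul_assoc, mul_comm S, mul_assoc, hS1.mul_inv, mul_one]
  refine ⟨G * S⁻¹, hG.mul hS1.inv, hGS, fun j => ?_, fun h => ?_⟩
  · induction j using Nat.strong_induction_on with
    | _ j ihj =>
      intro hj hle
      have h1 := congrArg (coeff j) hGS
      rw [hS, coeff_mul_single, ← hS] at h1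
      by_cases hjm : j = m
      · subst hjm
        simpa [(hG.mul hS1.inv).1, c] using h1
      · have hlt : j < m := by omega
        rw [if_neg (by omega), add_zero, hv j hj hlt] at h1
        exact h1.symm
  · have hSc : SCong S 1 := fun j => by
      rw [hS, map_add, add_sub_cancel_left, PowerSeries.coeff_C_mul, PowerSeries.coeff_X_pow]
      split_ifs
      · simpa [c, PowerSeries.coeff_one, hm] using h m
      · simp
    have h2 := (SCong.trans h hSc.symm).mul_right hS1.inv.2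
    rwa [hS1.mul_inv] at h2

lemma norm_coeff_dlog_le_divisors {G : PS} (hG : IsP1 G) {M B : ℕ}
    (hv : ∀ j, j ≠ 0 → j ≤ B → coeff j G = 0) {r : ℝ} (hr : 0 ≤ r)
    (hd : ∀ m, m ∣ M → B < m → ‖(m : ℂ_[ℓ])‖ ≤ r) : ‖coeff M (dlog G)‖ ≤ r := by
  suffices key : ∀ (k : ℕ) (G : PS), IsP1 G → (∀ j, j ≠ 0 → j ≤ B → coeff j G = 0) →
      (∀ j, j ≠ 0 → j + k ≤ M → coeff j G = 0) → ‖coeff M (dlog G)‖ ≤ r by
    exact key M G hG hv fun j hj hle => absurd hle (by omega)
  intro k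
  induction k with
  | zero =>
    intro G _ _ hv'
    rw [coeff_dlog_eq_zero fun j hj hle => hv' j hj hle, norm_zero]
    exact hr
  | succ k ih =>
    intro G hG hvB hv'
    by_cases hk : M ≤ k
    · exact ih G hG hvB fun j hj hle => absurd hle (by omega)
    by_cases hmB : M - k ≤ B
    · refine ih G hG hvB fun j hj hle => ?_
      rcases lt_or_ge j (M - k) with h | h
      · exact hv' j hj (by omega)
      · exact hvB j hj (by omega)
    obtain ⟨G', hG', he, hv'', -⟩ := exists_strip hG (m := M - k) (by omega)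
      fun j hj hlt => hv' j hj (by omega)
    set c := coeff (M - k) G
    have hS1 := isP1_one_add (hG.2 (M - k)) (show M - k ≠ 0 by omega)
    rw [he, dlog_mul hS1 hG', map_add]
    refine (IsUltrametricDist.norm_add_le_max _ _).trans (max_le ?_
      (ih G' hG' (fun j hj hle => hv'' j hj (by omega)) fun j hj hle => hv'' j hj (by omega)))
    rw [coeff_dlog_single (by omega)]
    split_ifs with h
    · rw [norm_mul, norm_mul, norm_pow, norm_pow, norm_neg, norm_one, one_pow, mul_one]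
      exact (mul_le_of_le_one_right (norm_nonneg _)
        (pow_le_one₀ (norm_nonneg _) (hG.2 _))).trans (hd _ h.1 (by omega))
    · simp [hr]

theorem exists_norm_coeff_dlog_le {G : PS} (hG : IsP1 G) (h1 : SCong G 1) {i : ℕ} (hi : i ≠ 0)
    {ε : ℝ} (hε : 0 < ε) : ∃ J, ∀ j, J ≤ j → ‖coeff (ℓ ^ j * i) (dlog G)‖ ≤ ε := by
  obtain ⟨A, hA⟩ := exists_pow_lt_of_lt_one hε (norm_prime_cp_lt_one (ℓ := ℓ))
  suffices key : ∀ (k : ℕ) (G : PS), IsP1 G → SCong G 1 →
      (∀ j, j ≠ 0 → j + k ≤ ℓ ^ A * i → coeff j G = 0) →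
      ∃ J, ∀ j, J ≤ j → ‖coeff (ℓ ^ j * i) (dlog G)‖ ≤ ε by
    exact key (ℓ ^ A * i) G hG h1 fun j hj hle => absurd hle (by omega)
  intro k
  induction k with
  | zero =>
    intro G hG _ hv
    refine ⟨0, fun j _ => norm_coeff_dlog_le_divisors hG (fun j hj hle => hv j hj hle) hε.le
      fun m hm hlt => ?_⟩
    obtain ⟨b, c, hb, hc, rfl⟩ := exists_dvd_and_dvd_of_dvd_mul hm
    obtain ⟨a, -, rfl⟩ := (Nat.dvd_prime_pow hℓ.out).1 hb
    have hci := Nat.le_of_dvd (Nat.pos_of_ne_zero hi) hc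
    have hAa : A ≤ a := by
      by_contra hlt'
      have : ℓ ^ a ≤ ℓ ^ A := Nat.pow_le_pow_right hℓ.out.pos (by omega)
      have := Nat.mul_le_mul this hci
      omega
    rw [Nat.cast_mul, norm_mul, Nat.cast_pow, norm_pow]
    refine (mul_le_of_le_one_right
      (by positivity) (IsUltrametricDist.norm_natCast_le_one _ _)).trans ?_
    exact (pow_le_pow_of_le_one (norm_nonneg _) norm_prime_cp_lt_one.le hAa).trans hA.le
  | succ k ih =>
    intro G hG hG1 hv
    by_cases hk : ℓ ^ A * i ≤ k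
    · exact ih G hG hG1 fun j hj hle => absurd hle (by omega)
    set m := ℓ ^ A * i - k with hm
    obtain ⟨G', hG', he, hv', hG'1⟩ := exists_strip hG (m := m) (by omega)
      fun j hj hlt => hv j hj (by omega)
    obtain ⟨J, hJ⟩ := ih G' hG' (hG'1 hG1) fun j hj hle => hv' j hj (by omega)
    set c := coeff m G
    have hc : ‖c‖ < 1 := by simpa [c, PowerSeries.coeff_one, show m ≠ 0 by omega] using hG1 m
    obtain ⟨n₀, hn₀⟩ := exists_pow_lt_of_lt_one hε hc
    refine ⟨max J (n₀ * m), fun j hj => ?_⟩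
    have hS1 := isP1_one_add hc.le (show m ≠ 0 by omega)
    rw [he, dlog_mul hS1 hG', map_add]
    refine (IsUltrametricDist.norm_add_le_max _ _).trans (max_le ?_ (hJ j (by omega)))
    rw [coeff_dlog_single (by omega)]
    split_ifs with h
    · rw [norm_mul, norm_mul, norm_pow, norm_pow, norm_neg, norm_one, one_pow, mul_one]
      refine (mul_le_of_le_one_left
        (by positivity) (IsUltrametricDist.norm_natCast_le_one _ _)).trans
        ((pow_le_pow_of_le_one (norm_nonneg _) hc.le ?_).trans hn₀.le)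
      rw [Nat.le_div_iff_mul_le (by omega)]
      have h1 : j < ℓ ^ j := Nat.lt_pow_self hℓ.out.one_lt
      have h2 : ℓ ^ j ≤ ℓ ^ j * i := Nat.le_mul_of_pos_right _ (Nat.pos_of_ne_zero hi)
      omega
    · simp [hε.le]

/-! ### Ordinary homomorphisms -/

variable {N : ℕ}

local notation "V" => parabolicHoms ℤ_[ℓ] (Gamma0 N) ℤ_[ℓ]

/-- `T_ℓ` on parabolic homomorphisms, linearly. -/
def tV {q : ℕ} (hq : q.Prime) :
    Module.End ℤ_[ℓ] (parabolicHoms ℤ_[ℓ] (Gamma0 N) ℤ_[ℓ]) where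
  toFun ψ := heckeV hq ψ
  map_add' ψ ψ' := Subtype.ext (map_add (FermatAgent.Period.heckeOp ℤ_[ℓ] N hq) ψ.1 ψ'.1)
  map_smul' a ψ := Subtype.ext (map_smul (FermatAgent.Period.heckeOp ℤ_[ℓ] N hq) a ψ.1)

/-- The linear Hecke operator is `T_q`. -/
lemma tV_apply {q : ℕ} (hq : q.Prime) (ψ : V) : tV hq ψ = heckeV hq ψ := rfl

/-- Approximately fixed by powers of `T_ℓ`. -/
def IsOrd (ψ : V) : Prop :=
  ∀ K : ℕ, ∃ r, 0 < r ∧ ∃ η : V, (tV hℓ.out ^ r) ψ = ψ + ℓ ^ K • η

lemma exists_iterate_congr {ψ η : V} {r K : ℕ} (h : (tV hℓ.out ^ r) ψ = ψ + ℓ ^ K • η) (t : ℕ) :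
    ∃ η', (tV hℓ.out ^ (r * t)) ψ = ψ + ℓ ^ K • η' := by
  induction t with
  | zero => exact ⟨0, by simp⟩
  | succ t ih =>
    obtain ⟨η', hη'⟩ := ih
    refine ⟨η + (tV hℓ.out ^ r) η', ?_⟩
    rw [Nat.mul_succ, add_comm, pow_add, Module.End.mul_apply, hη', map_add, map_nsmul, h,
      nsmul_add, add_assoc]

namespace IsOrd

variable {ψ ψ' : parabolicHoms ℤ_[ℓ] (Gamma0 N) ℤ_[ℓ]}

lemma add (h : IsOrd ψ) (h' : IsOrd ψ') : IsOrd (ψ + ψ') := fun K => by
  obtain ⟨r, hr, η, hη⟩ := h K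
  obtain ⟨r', hr', η', hη'⟩ := h' K
  obtain ⟨a, ha⟩ := exists_iterate_congr hη r'
  obtain ⟨b, hb⟩ := exists_iterate_congr hη' r
  rw [mul_comm r' r] at hb
  exact ⟨r * r', Nat.mul_pos hr hr', a + b, by rw [map_add, ha, hb, nsmul_add]; abel⟩

lemma smul (h : IsOrd ψ) (a : ℤ_[ℓ]) : IsOrd (a • ψ) := fun K => by
  obtain ⟨r, hr, η, hη⟩ := h K
  exact ⟨r, hr, a • η, by rw [map_smul, hη, smul_add, smul_comm]⟩

lemma sub (h : IsOrd ψ) (h' : IsOrd ψ') : IsOrd (ψ - ψ') := by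
  rw [sub_eq_add_neg, ← neg_one_smul ℤ_[ℓ] ψ']
  exact h.add (h'.smul _)

lemma nsmul (h : IsOrd ψ) (n : ℕ) : IsOrd (n • ψ) := by
  rw [← Nat.cast_smul_eq_nsmul ℤ_[ℓ]]
  exact h.smul _

lemma tV (h : IsOrd ψ) {q : ℕ} (hq : q.Prime)
    (hcomm : Commute (Mazur.tV (ℓ := ℓ) (N := N) hq) (Mazur.tV hℓ.out)) :
    IsOrd (Mazur.tV hq ψ) := fun K => by
  obtain ⟨r, hr, η, hη⟩ := h K
  refine ⟨r, hr, Mazur.tV hq η, ?_⟩
  rw [← Module.End.mul_apply, ← (hcomm.pow_right r).eq, Module.End.mul_apply, hη,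
    map_add, map_nsmul]

end IsOrd

variable [NeZero N]

/-- The Galois action commutes with the Hecke operators. -/
lemma galLin_tV {q : ℕ} (hq : q.Prime) (g : GQ) (ψ : V) :
    galLin ℓ g (tV hq ψ) = tV hq (galLin ℓ g ψ) := by
  refine FermatAgent.ES.padChar_ext ℓ fun k => Subtype.ext ?_
  rw [tV_apply, tV_apply, FermatAgent.ES.galLin_apply, FermatAgent.ES.galLin_apply, heckeV, heckeV,
    FermatAgent.ES.padChar_galPad, FermatAgent.ES.padChar_heckeOp, FermatAgent.ES.padChar_galPad]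
  exact (congrArg (fun χ =>
    ((FermatAgent.ES.galChar (FermatAgent.ES.goodLevel_Gamma0 N) (ℓ ^ k) g χ :
    FermatAgent.ES.parGroup (Gamma0 N) (ℓ ^ k)) : Gamma0 N →* ℂˣ))
      (Subtype.ext (FermatAgent.ES.padChar_heckeOp ℓ hq k ψ))).trans
      (congrArg Subtype.val (FermatAgent.ES.galChar_heckeChar hq g (padChar ℓ k ψ)))

lemma IsOrd.gal {ψ : V} (h : IsOrd ψ) (g : GQ) : IsOrd (galLin ℓ g ψ) := fun K => by
  obtain ⟨r, hr, η, hη⟩ := h K
  have hc : Commute (galLin ℓ g : Module.End ℤ_[ℓ] V) (Mazur.tV hℓ.out) :=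
    LinearMap.ext fun χ => galLin_tV hℓ.out g χ
  refine ⟨r, hr, galLin ℓ g η, ?_⟩
  rw [← Module.End.mul_apply, ← (hc.pow_right r).eq, Module.End.mul_apply, hη, map_add, map_nsmul]

section Delta

variable [Algebra Qbar ℂ_[ℓ]]

lemma coeff_delt_tV (hN : ¬ ℓ ∣ N) (ψ : V) (m : ℕ) :
    coeff m (delt (tV hℓ.out ψ)) = coeff (ℓ * m) (delt ψ) +
      if ℓ ∣ m then (ℓ : ℂ_[ℓ]) * coeff (m / ℓ) (delt ψ) else 0 := by
  rw [tV_apply, coeff_delt_heckeV]
  simp only [hN, not_false_eq_true, true_and]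

/-- `δ` is linear in natural multiples. -/
lemma coeff_delt_nsmul (n : ℕ) (ψ : V) (m : ℕ) :
    coeff m (delt (n • ψ)) = (n : ℂ_[ℓ]) * coeff m (delt ψ) := by
  rw [delt, gInf_nsmul, dlog_pow (isP1_gInf ψ), map_nsmul, nsmul_eq_mul]; rfl

/-- `δ` vanishes at zero. -/
lemma delt_zero : delt (0 : V) = 0 := by rw [delt, gInf_zero, dlog_one]

/-- **Vanishing of `δ`.** -/
theorem delt_eq_zero_of_scong (hN : ¬ ℓ ∣ N) {ψ : V} (hψ : IsOrd ψ) (h1 : SCong (gInf ψ) 1) :
    delt ψ = 0 := by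
  ext M
  rw [map_zero]
  rcases eq_or_ne M 0 with rfl | hM
  · exact coeff_zero_delt ψ
  obtain ⟨x₀, i, hℓi, rfl⟩ := Nat.exists_eq_pow_mul_and_not_dvd hM ℓ hℓ.out.ne_one
  have hi : i ≠ 0 := fun h => hℓi (h ▸ dvd_zero ℓ)
  rw [← norm_le_zero_iff]
  refine le_of_forall_pos_le_add fun ε hε => ?_
  rw [zero_add]
  obtain ⟨X, hX⟩ := exists_norm_coeff_dlog_le (isP1_gInf ψ) h1 hi hε
  have hP : ∀ n x s : ℕ, X + 2 * s ≤ x + n →
      ‖coeff (ℓ ^ x * i) (delt ((tV hℓ.out ^ n) ψ))‖ ≤ max ε (‖(ℓ : ℂ_[ℓ])‖ ^ s) := by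
    intro n
    induction n with
    | zero =>
      intro x s hxs
      rw [pow_zero, Module.End.one_apply]
      exact (hX x (by omega)).trans (le_max_left _ _)
    | succ n ih =>
      intro x s hxs
      rw [pow_succ', Module.End.mul_apply, coeff_delt_tV hN]
      refine (IsUltrametricDist.norm_add_le_max _ _).trans (max_le ?_ ?_)
      · rw [← mul_assoc, ← pow_succ']
        exact ih (x + 1) s (by omega)
      · split_ifs with hd
        · rcases Nat.eq_zero_or_pos s with rfl | hs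
          · rw [pow_zero, norm_mul]
            exact (mul_le_one₀ norm_prime_cp_lt_one.le (norm_nonneg _) (bdBy_delt _ _)).trans
              (le_max_right _ _)
          obtain ⟨x, rfl⟩ : ∃ x', x = x' + 1 := by
            refine ⟨x - 1, (Nat.succ_pred_eq_of_ne_zero ?_).symm⟩
            rintro rfl
            exact hℓi (by simpa using hd)
          obtain ⟨s, rfl⟩ : ∃ s', s = s' + 1 := ⟨s - 1, by omega⟩
          rw [pow_succ', mul_assoc, Nat.mul_div_cancel_left _ hℓ.out.pos, norm_mul]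
          refine (mul_le_mul_of_nonneg_left (ih x s (by omega)) (norm_nonneg _)).trans ?_
          rw [mul_max_of_nonneg _ _ (norm_nonneg _), ← pow_succ']
          exact max_le_max (mul_le_of_le_one_left hε.le norm_prime_cp_lt_one.le) le_rfl
        · rw [norm_zero]; exact hε.le.trans (le_max_left _ _)
  obtain ⟨K, hK⟩ := exists_pow_lt_of_lt_one hε (norm_prime_cp_lt_one (ℓ := ℓ))
  obtain ⟨r, hr, η, hη⟩ := hψ K
  obtain ⟨η', hη'⟩ := exists_iterate_congr hη (X + 2 * K)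
  have hb := hP (r * (X + 2 * K)) x₀ K
    (le_add_left (Nat.le_mul_of_pos_left _ hr))
  rw [hη', delt_add, map_add, coeff_delt_nsmul] at hb
  have he : ∀ a b : ℂ_[ℓ], a = (a + b) + -b := fun a b => by ring
  rw [he (coeff (ℓ ^ x₀ * i) (delt ψ)) (((ℓ ^ K : ℕ) : ℂ_[ℓ]) * coeff (ℓ ^ x₀ * i) (delt η'))]
  refine (IsUltrametricDist.norm_add_le_max _ _).trans
    (max_le (hb.trans (max_le le_rfl hK.le)) ?_)
  rw [norm_neg, norm_mul, Nat.cast_pow, norm_pow]
  exact (mul_le_of_le_one_right (by positivity) (bdBy_delt _ _)).trans hK.le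

local notation "ιA" => (algebraMap (AlgebraicClosure ℚ) ℂ_[ℓ] : AlgebraicClosure ℚ →+* ℂ_[ℓ])

/-- An integer of `ℂ_ℓ` is congruent to an algebraic one. -/
lemma exists_approx {x : ℂ_[ℓ]} (hx : ‖x‖ ≤ 1) : ∃ y : Qbar, ‖ιA y‖ ≤ 1 ∧ ‖x - ιA y‖ < 1 := by
  obtain ⟨y, hy⟩ := (denseRange_padEmb (ι := ιA)).exists_dist_lt x zero_lt_one
  rw [dist_eq_norm] at hy
  refine ⟨y, ?_, hy⟩
  rw [show ιA y = x - (x - ιA y) by ring, sub_eq_add_neg]
  exact (IsUltrametricDist.norm_add_le_max _ _).trans (max_le hx (by rw [norm_neg]; exact hy.le))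

lemma norm_galExt_inertia_sub_lt (g : (padVal ιA).decompositionSubgroup ℚ)
    (hg : (g : GQ) ∈ (padVal ιA).inertiaSubgroupIn ℚ) {x : ℂ_[ℓ]} (hx : ‖x‖ ≤ 1) :
    ‖galExt ιA g x - x‖ < 1 := by
  obtain ⟨y, hy, hxy⟩ := exists_approx hx
  rw [show galExt ιA g x - x = galExt ιA g (x - ιA y) + (galExt ιA g (ιA y) - ιA y) + -(x - ιA y) by
    rw [map_sub]; ring]
  refine (IsUltrametricDist.norm_add_le_max _ _).trans_lt (max_lt
    ((IsUltrametricDist.norm_add_le_max _ _).trans_lt (max_lt ?_ ?_)) (by rwa [norm_neg]))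
  · rwa [norm_galExt]
  · rw [galExt_apply]; exact norm_inertia_sub_lt hg hy

lemma norm_galExt_frobenius_sub_lt (g : (padVal ιA).decompositionSubgroup ℚ)
    (hg : (padVal ιA).IsFrobeniusAt (g : GQ) ℓ) {x : ℂ_[ℓ]} (hx : ‖x‖ ≤ 1) :
    ‖galExt ιA g x - x ^ ℓ‖ < 1 := by
  obtain ⟨y, hy, hxy⟩ := exists_approx hx
  rw [show galExt ιA g x - x ^ ℓ =
      galExt ιA g (x - ιA y) + (galExt ιA g (ιA y) - ιA y ^ ℓ) + -(x ^ ℓ - ιA y ^ ℓ) by
    rw [map_sub]; ring]
  refine (IsUltrametricDist.norm_add_le_max _ _).trans_lt (max_lt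
    ((IsUltrametricDist.norm_add_le_max _ _).trans_lt (max_lt ?_ ?_)) ?_)
  · rwa [norm_galExt]
  · rw [galExt_apply]; exact norm_frobenius_sub_lt hg hy
  · rw [norm_neg, ← geom_sum₂_mul, norm_mul]
    refine (mul_le_of_le_one_left (norm_nonneg _) ?_).trans_lt hxy
    exact IsUltrametricDist.norm_sum_le_of_forall_le_of_nonneg zero_le_one fun k _ => by
      rw [norm_mul, norm_pow, norm_pow]
      exact mul_le_one₀ (pow_le_one₀ (norm_nonneg _) hx) (by positivity)
        (pow_le_one₀ (norm_nonneg _) hy)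

/-- **Inertia fixes `δ` on ordinary homomorphisms.** -/
theorem coeff_delt_inertia (hN : ¬ ℓ ∣ N) {ψ : V} (hψ : IsOrd ψ)
    (g : (padVal ιA).decompositionSubgroup ℚ) (hg : (g : GQ) ∈ (padVal ιA).inertiaSubgroupIn ℚ) :
    delt (galLin ℓ (g : GQ) ψ) = delt ψ := by
  set ψ' := galLin ℓ (g : GQ) ψ - ψ
  have h1 : gInf ψ' * gInf ψ = (gInf ψ).map (galExt ιA g) := by
    rw [← gInf_add, sub_add_cancel, FermatAgent.ES.galLin_apply, gInf_galPad]
  have h2 : SCong (gInf ψ') 1 := SCong.to_one (G' := gInf ψ) (fun j => by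
    rw [h1, PowerSeries.coeff_map]
    exact norm_galExt_inertia_sub_lt g hg ((isP1_gInf ψ).2 j)) (isP1_gInf ψ)
  have h3 := delt_eq_zero_of_scong hN ((hψ.gal g).sub hψ) h2
  rw [← sub_add_cancel (galLin ℓ (g : GQ) ψ) ψ, delt_add, h3, zero_add]

/-- **The congruence relation for `δ`**: on ordinary homomorphisms `F² - T_ℓ F + ℓ` is killed by
`δ`, for a Frobenius `F` at `ℓ`. -/
theorem delt_frobenius_relation (hN : ¬ ℓ ∣ N) {ψ : V} (hψ : IsOrd ψ)
    (g : (padVal ιA).decompositionSubgroup ℚ) (hg : (padVal ιA).IsFrobeniusAt (g : GQ) ℓ) :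
    delt (galLin ℓ (g : GQ) (galLin ℓ (g : GQ) ψ) + ℓ • ψ) =
      delt (tV hℓ.out (galLin ℓ (g : GQ) ψ)) := by
  set σ := galExt ιA g
  have hσ := norm_galExt g
  have hfr : ∀ x : ℂ_[ℓ], ‖x‖ ≤ 1 → ‖σ x - x ^ ℓ‖ < 1 := fun x hx =>
    norm_galExt_frobenius_sub_lt g hg hx
  set A := galLin ℓ (g : GQ) (galLin ℓ (g : GQ) ψ) + ℓ • ψ
  set B := tV hℓ.out (galLin ℓ (g : GQ) ψ)
  have hgal : ∀ χ : V, gInf (galLin ℓ (g : GQ) χ) = (gInf χ).map σ := fun χ => by
    rw [FermatAgent.ES.galLin_apply, gInf_galPad]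
  have hG1 := isP1_gInf (galLin ℓ (g : GQ) ψ)
  have hG2 := isP1_gInf (galLin ℓ (g : GQ) (galLin ℓ (g : GQ) ψ))
  obtain ⟨ζ, hζ, hB⟩ := gInf_heckeV (q := ℓ) (galLin ℓ (g : GQ) ψ)
  rw [if_neg hN] at hB
  have h1 : SCong (gInf A) (gInf B) := by
    rw [show gInf B = _ from hB,
      show gInf A = gInf (galLin ℓ (g : GQ) (galLin ℓ (g : GQ) ψ)) * gInf ψ ^ ℓ by
        rw [gInf_add, gInf_nsmul], mul_comm]
    refine SCong.mul ?_ ?_ hG2.2 ?_
    · rw [hgal ψ]; exact scong_pow_prime (isP1_gInf ψ).2 hfr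
    · rw [hgal (galLin ℓ (g : GQ) ψ)]; exact (scong_normSer hζ hG1 hfr).symm
    · exact (hG1.expand _).2
  have h2 : SCong (gInf (A - B)) 1 := SCong.to_one
    (by rw [← gInf_add, sub_add_cancel]; exact h1) (isP1_gInf B)
  have hord : IsOrd (A - B) :=
    (((hψ.gal g).gal g).add (hψ.nsmul ℓ)).sub ((hψ.gal g).tV hℓ.out (Commute.refl _))
  have h3 := delt_eq_zero_of_scong hN hord h2
  rw [← sub_add_cancel A B, delt_add, h3, zero_add]

end Delta

end FermatAgent.Mazur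

end
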