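import Fermat.Agent.Mazur.EisTwist
import Fermat.Agent.Mazur.Delta
import Fermat.Agent.Period.Eisenstein.LowerBound

/-!
# The Eisenstein class

For `ℓ^k ∣ N - 1` there is an integral parabolic homomorphism whose `δ` is congruent modulo `ℓ^k`
to `-24 Σ σ'(m) q^m`, an eigen series of the Hecke operators with the Eisenstein eigenvalues.
-/

set_option autoImplicit false

noncomputable section

open scoped Classical MatrixGroups ModularForm
open CongruenceSubgroup (Gamma0)

namespace FermatAgent.Mazur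

open FermatAgent.ES (HasExp IsTwist IsParChar parGroup padChar zU hasExp_one_twist goodLevel_Gamma0)
open ModularCurve ModularCurve.Period
open FermatAgent.Period (cocycleOf transition Cosets)
open FermatAgent.Period.Eis (sigP)

local notation "Qbar" => AlgebraicClosure ℚ
local notation "psQ" => HahnSeries.ofPowerSeries ℤ (AlgebraicClosure ℚ)

attribute [local instance] embAlg

/-! ### The series -/

/-- The unit part of the discriminant. -/
def etaQ : PowerSeries Qbar := dedekindEtaUnit.map (Int.castRingHom Qbar)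

/-- `Δ = q` times its unit part. -/
lemma deltaSer_eq : deltaSer = PowerSeries.X * etaQ := rfl

lemma constantCoeff_etaQ : PowerSeries.constantCoeff etaQ = 1 := by
  rw [etaQ, ← PowerSeries.coeff_zero_eq_constantCoeff_apply, PowerSeries.coeff_map,
    PowerSeries.coeff_zero_eq_constantCoeff_apply, constantCoeff_dedekindEtaUnit, map_one]

/-- An `n`-th root of a series with algebraic coefficients has algebraic coefficients. -/
lemma exists_psC_eq_of_pow {n : ℕ} (hn : n ≠ 0) {c : PowerSeries ℂ} {R : PowerSeries Qbar}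
    (h : c ^ n = psC R) (h0 : PowerSeries.constantCoeff R ≠ 0) : ∃ r, psC r = c := by
  have : NeZero n := ⟨hn⟩
  obtain ⟨y, hy⟩ := IsAlgClosed.exists_pow_nat_eq (PowerSeries.constantCoeff R)
    (Nat.pos_of_ne_zero hn)
  obtain ⟨w, hw⟩ := FermatAgent.ES.exists_series_root
    (u := PowerSeries.C (PowerSeries.constantCoeff R)⁻¹ * R) (by simp [h0])
    (mul_inv_cancel₀ (Nat.cast_ne_zero.2 hn : (n : Qbar) ≠ 0))
  obtain ⟨z, hz⟩ := exists_qbar_zeta n
  have hroot : IsPrimitiveRoot (PowerSeries.C (FermatAgent.ES.zetaC n)) n :=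
    (FermatAgent.ES.zetaC_isPrimitiveRoot n).map_of_injective PowerSeries.C_injective
  have hb : psC (PowerSeries.C y * w) ^ n = c ^ n := by
    rw [h, ← map_pow, mul_pow, ← map_pow, hy, hw, ← mul_assoc, ← map_mul, mul_inv_cancel₀ h0,
      map_one, one_mul]
  have hc : c ∈ Polynomial.nthRoots n (c ^ n) :=
    (Polynomial.mem_nthRoots (Nat.pos_of_ne_zero hn)).2 rfl
  rw [hroot.nthRoots_eq hb] at hc
  obtain ⟨i, -, rfl⟩ := Multiset.mem_map.1 hc
  exact ⟨PowerSeries.C z ^ i * (PowerSeries.C y * w), by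
    rw [map_mul, map_pow, PowerSeries.map_C, hz.1]⟩

variable {N : ℕ} [NeZero N]

/-- The series of the form with multiplier. -/
theorem exists_eis_series (hN : N.Prime) (h5 : 5 ≤ N) {n m : ℕ} (hn : 0 < n)
    (hnm : n * m = N - 1) :
    ∃ (φ : parGroup (Gamma0 N) n) (S : LaurentSeries Qbar) (a : Qbar), a ≠ 0 ∧
      IsMult N (φ : Gamma0 N →* ℂˣ) S ∧
      S ^ n * (HahnSeries.single ((N : ℤ) - 1) 1 * psQ (PowerSeries.expand N hN.ne_zero etaQ)) =
        HahnSeries.single 0 a * psQ etaQ ∧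
      ∀ (γ : Gamma0 N) (τ₀ : UpperHalfPlane), (γ : SL(2, ℤ)) • τ₀ = τ₀ →
        (φ : Gamma0 N →* ℂˣ) γ = 1 := by
  obtain ⟨φ, v, hφn, hpar, hv, hv0, hvn, hell⟩ := exists_eis_twist hN h5 hn hnm
  set c := UpperHalfPlane.qExpansion ((1 : ℕ) : ℝ) v
  have hc : HasExp 1 v c := hasExp_one_twist (goodLevel_Gamma0 N).T_mem hpar hv
  have hN0 : N ≠ 0 := hN.ne_zero
  -- the defining relation of the expansions
  have hdN : HasExp 1 (fun τ => ModularForm.discriminant (mulPt N τ))
      (PowerSeries.expand N hN0 (psC deltaSer)) := by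
    refine (FermatAgent.ES.hasExp_diag hN0 hasExp_discriminant).congr_fun fun τ => ?_
    congr 1
    ext
    rw [coe_mulPt, ModularForm.coe_heckeDiagMatrix_smul hN0]
  have hl : HasExp 1 (fun τ => difProd N τ ^ 6 * ModularForm.discriminant (mulPt N τ))
      (c ^ n * PowerSeries.expand N hN0 (psC deltaSer)) :=
    ((hc.pow n).mul hdN).congr_fun fun τ => by rw [Pi.mul_apply, hvn]
  have hr : HasExp 1 (fun τ => difProd N τ ^ 6 * ModularForm.discriminant (mulPt N τ))
      (PowerSeries.C (ratioConst N) * psC deltaSer ^ N) :=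
    ((hasExp_discriminant.pow N).smul (ratioConst N)).congr_fun fun τ => by
      rw [difProd_pow_mul hN h5]; rfl
  have hser := hl.series_unique hr
  rw [deltaSer_eq, map_mul, PowerSeries.map_X, map_mul, PowerSeries.expand_X, mul_pow,
    ← mul_assoc (PowerSeries.C (ratioConst N)), mul_comm (PowerSeries.C (ratioConst N)),
    mul_assoc, mul_left_comm] at hser
  replace hser := mul_left_cancel₀ (pow_ne_zero N PowerSeries.X_ne_zero) hser
  -- the constant is algebraic
  have hconst : ∃ a : Qbar, algebraMap Qbar ℂ a = ratioConst N := by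
    refine FermatAgent.ES.exists_embC_eq ?_
    obtain ⟨z, hz⟩ := exists_qbar_zeta N
    have hd : ∀ v w e, IsAlgebraic ℚ
        (PowerSeries.coeff e (FermatAgent.ES.difSeries N (FermatAgent.ES.zetaC N) v w)) := by
      intro v w e
      rw [FermatAgent.ES.difSeries, PowerSeries.coeff_mk, ← hz.1, ← FermatAgent.ES.map_divCoeff,
        ← FermatAgent.ES.map_divCoeff, ← map_sub]
      exact (Algebra.IsAlgebraic.isAlgebraic _).algHom FermatAgent.ES.embC
    simp only [ratioConst, ← PowerSeries.coeff_zero_eq_constantCoeff_apply]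
    exact (Finset.prod_induction _ (IsAlgebraic ℚ) (fun _ _ => IsAlgebraic.mul) isAlgebraic_one
      fun i _ => hd _ _ 0).pow 6
  obtain ⟨a, ha⟩ := hconst
  have ha0 : a ≠ 0 := fun h => ratioConst_ne_zero hN h5 (by rw [← ha, h, map_zero])
  set E := psC etaQ
  set R : PowerSeries Qbar := PowerSeries.C a * etaQ ^ N * (PowerSeries.expand N hN0 etaQ)⁻¹
  have hee : PowerSeries.expand N hN0 etaQ * (PowerSeries.expand N hN0 etaQ)⁻¹ = 1 :=
    PowerSeries.mul_inv_cancel _ (by
      rw [PowerSeries.constantCoeff_expand, constantCoeff_etaQ]; exact one_ne_zero)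
  have hcR : c ^ n = psC R := by
    have hE0 : PowerSeries.expand N hN0 E ≠ 0 := fun h => by
      have := congrArg PowerSeries.constantCoeff h
      rw [PowerSeries.constantCoeff_expand, map_zero] at this
      rw [← PowerSeries.coeff_zero_eq_constantCoeff_apply, PowerSeries.coeff_map,
        PowerSeries.coeff_zero_eq_constantCoeff_apply, constantCoeff_etaQ, map_one] at this
      exact one_ne_zero this
    refine mul_right_cancel₀ hE0 ?_
    rw [hser, show PowerSeries.expand N hN0 E = psC (PowerSeries.expand N hN0 etaQ) from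
      (PowerSeries.map_expand _ _ _ _).symm, ← map_mul psC, mul_assoc, mul_comm _⁻¹, hee, mul_one,
      map_mul, map_pow, PowerSeries.map_C, ha, mul_comm]
  obtain ⟨r, hrc⟩ := exists_psC_eq_of_pow hn.ne' hcR (by
    rw [map_mul, map_mul, PowerSeries.constantCoeff_C, map_pow, constantCoeff_etaQ,
      PowerSeries.constantCoeff_inv, PowerSeries.constantCoeff_expand, constantCoeff_etaQ]
    simpa using ha0)
  have hrn : r ^ n * PowerSeries.expand N hN0 etaQ = PowerSeries.C a * etaQ ^ N := by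
    rw [PowerSeries.map_injective _ (algebraMap Qbar ℂ).injective
      (a₁ := r ^ n) (a₂ := R) (by rw [map_pow]; exact hrc.symm ▸ hcR), mul_assoc,
      mul_comm _⁻¹, hee, mul_one]
  -- the quotient by a power of the discriminant
  have hw : ((2 * (6 * m) : ℕ) : ℤ) = (m : ℤ) * 12 := by push_cast; ring
  have hΔm : IsTwist (Gamma0 N) ((2 * (6 * m) : ℕ) : ℤ) 1 (ModularForm.discriminant ^ m) := by
    have h1 := (isTwist_discriminant (N := N)).pow m
    rw [one_char_pow] at h1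
    rwa [hw]
  have hΔm0 : (ModularForm.discriminant : UpperHalfPlane → ℂ) ^ m ≠ 0 := fun h =>
    pow_ne_zero m (ModularForm.discriminant_ne_zero UpperHalfPlane.I) (congrFun h _)
  have hdm : HasExp 1 ((ModularForm.discriminant : UpperHalfPlane → ℂ) ^ m)
      (psC (deltaSer ^ m)) := by
    rw [map_pow]; exact hasExp_discriminant.pow m
  refine ⟨⟨φ, hφn, hpar⟩, psQ r / psQ (deltaSer ^ m), a, ha0,
    ⟨6 * m, v, _, r, deltaSer ^ m, hv, hv0, hΔm, hΔm0, hrc ▸ hc, hdm,
      div_mul_cancel₀ _ (psQ_ne_zero_of_exp hdm hΔm0)⟩, ?_, hell⟩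
  have hE0 : psQ etaQ ≠ 0 := fun h => by
    have h1 := congrArg (fun x : LaurentSeries Qbar => x.coeff ((0 : ℕ) : ℤ)) h
    simp only [HahnSeries.ofPowerSeries_apply_coeff, HahnSeries.coeff_zero,
      PowerSeries.coeff_zero_eq_constantCoeff, constantCoeff_etaQ] at h1
    exact one_ne_zero h1
  have hX : psQ (deltaSer ^ m) ^ n = HahnSeries.single ((N : ℤ) - 1) 1 * psQ etaQ ^ (N - 1) := by
    rw [← map_pow, ← pow_mul, mul_comm m, hnm, deltaSer_eq, mul_pow, map_mul, map_pow, map_pow,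
      HahnSeries.ofPowerSeries_X, HahnSeries.single_pow, one_pow, nsmul_eq_mul, mul_one,
      Nat.cast_sub hN.one_le, Nat.cast_one]
  have h1 := congrArg psQ hrn
  rw [map_mul, map_mul, map_pow, map_pow, HahnSeries.ofPowerSeries_C, HahnSeries.C_apply] at h1
  rw [div_pow, hX, div_mul_eq_mul_div, div_eq_iff (mul_ne_zero
    (HahnSeries.single_ne_zero one_ne_zero) (pow_ne_zero _ hE0)), mul_left_comm, h1,
    show psQ etaQ ^ N = psQ etaQ * psQ etaQ ^ (N - 1) by
      rw [← pow_succ', Nat.sub_add_cancel hN.one_le]]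
  ring

/-! ### Lifting characters -/

/-- A character of order dividing `ℓ^k`, trivial at fixed points, lifts to `ℤ_ℓ`. -/
lemma exists_lift (hNp : N.Prime) {ℓ : ℕ} [Fact ℓ.Prime] (k : ℕ) {et : Gamma0 N →* ℂˣ}
    (het : et ^ ℓ ^ k = 1) (hpar : IsParChar (Gamma0 N) et)
    (hell : ∀ (γ : Gamma0 N) (τ₀ : UpperHalfPlane), (γ : SL(2, ℤ)) • τ₀ = τ₀ → et γ = 1) :
    ∃ ψ : parabolicHoms ℤ_[ℓ] (Gamma0 N) ℤ_[ℓ], (padChar ℓ k ψ : Gamma0 N →* ℂˣ) = et := by
  have hex : ∀ γ : Gamma0 N, ∃ x : ZMod (ℓ ^ k),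
      zU (ℓ ^ k) (Multiplicative.ofAdd x) = et γ := fun γ =>
    FermatAgent.ES.exists_zU_eq (by rw [← MonoidHom.pow_apply, het]; rfl)
  choose f hf using hex
  have hinj : ∀ {x y : ZMod (ℓ ^ k)},
      zU (ℓ ^ k) (Multiplicative.ofAdd x) = zU (ℓ ^ k) (Multiplicative.ofAdd y) → x = y :=
    fun h => Multiplicative.ofAdd.injective (FermatAgent.ES.zU_injective _ h)
  set g : Additive (Gamma0 N) →+ ZMod (ℓ ^ k) :=
    { toFun := fun γ => f γ.toMul
      map_zero' := hinj (by rw [hf, toMul_zero, map_one, ofAdd_zero, map_one])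
      map_add' := fun a b => hinj (by
        rw [hf, toMul_add, map_mul, ofAdd_add, map_mul, hf, hf]) }
  have hg : ∀ γ, zU (ℓ ^ k) (Multiplicative.ofAdd (g (Additive.ofMul γ))) = et γ := fun γ => hf γ
  have hgpar : IsParabolicHom (Gamma0 N) g := fun γ hγ =>
    hinj (by rw [hg, hpar γ hγ, ofAdd_zero, map_one])
  have hfix : ∀ (e : SL(2, ℤ)) (τ₀ : UpperHalfPlane), e • τ₀ = τ₀ →
      ∀ x : Cosets (Gamma0 N), e • x = x → cocycleOf g e x = 0 := by
    intro e τ₀ he x hx
    refine hinj ?_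
    rw [cocycleOf, hg, ofAdd_zero, map_one]
    refine hell _ ((Quotient.out x)⁻¹ • τ₀) ?_
    rw [FermatAgent.Period.coe_transition, hx, mul_smul, mul_smul, smul_inv_smul, he]
  have : Fact N.Prime := ⟨hNp⟩
  obtain ⟨Ψ, hΨ⟩ := FermatAgent.Period.exists_parabolic_lift
    (FermatAgent.Period.neg_one_mem_Gamma0 N) (by
      have h := FermatAgent.Period.twelve_mul_finrank_cuspForm (N := N)
      rw [FermatAgent.Period.fixTwo_Gamma0, FermatAgent.Period.fixThree_Gamma0,
        FermatAgent.Period.card_cuspSet_Gamma0, FermatAgent.Period.index_Gamma0]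
      omega) hgpar
    (hfix ModularGroup.S UpperHalfPlane.I (by
      ext
      rw [FermatAgent.Curve.coe_sl_smul]
      simp [ModularGroup.S]))
    (hfix FermatAgent.Period.ellThree ⟨⟨-(1/2), Real.sqrt 3 / 2⟩, by positivity⟩ (by
      ext
      rw [FermatAgent.Curve.coe_sl_smul, FermatAgent.Period.coe_ellThree]
      have h3 : Real.sqrt 3 * Real.sqrt 3 = 3 := Real.mul_self_sqrt (by norm_num)
      have hne : (⟨-(1/2), Real.sqrt 3 / 2⟩ : ℂ) + 1 ≠ 0 := fun h => by
        have := congrArg Complex.re h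
        norm_num at this
      simp only [Matrix.of_apply, Matrix.cons_val', Matrix.cons_val_zero, Matrix.cons_val_one,
        Matrix.cons_val_fin_one, Int.cast_zero, Int.cast_neg, Int.cast_one, zero_mul, zero_add,
        one_mul]
      rw [div_eq_iff hne]
      apply Complex.ext <;> simp <;> nlinarith [h3]))
  refine ⟨⟨(Int.castAddHom ℤ_[ℓ]).comp Ψ.1, fun γ hγ => by
    rw [AddMonoidHom.comp_apply, Ψ.2 γ hγ, map_zero]⟩, MonoidHom.ext fun γ => ?_⟩
  rw [FermatAgent.ES.padChar_apply, ← hg γ, ← hΨ (Additive.ofMul γ)]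
  exact congrArg (fun x => zU (ℓ ^ k) (Multiplicative.ofAdd x))
    (map_intCast (PadicInt.toZModPow (p := ℓ) k) _)

/-! ### The congruence -/

variable {ℓ : ℕ} [hℓ : Fact ℓ.Prime]

/-- The unit part of the discriminant over `ℂ_ℓ`. -/
def etaCp (ℓ : ℕ) [Fact ℓ.Prime] : PowerSeries ℂ_[ℓ] := dedekindEtaUnit.map (Int.castRingHom ℂ_[ℓ])

/-- The unit part of the discriminant is an integral one-unit. -/
lemma isP1_etaCp : IsP1 (etaCp ℓ) := by
  refine ⟨?_, fun j => ?_⟩
  · rw [← PowerSeries.coeff_zero_eq_constantCoeff_apply, etaCp, PowerSeries.coeff_map,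
      PowerSeries.coeff_zero_eq_constantCoeff_apply, constantCoeff_dedekindEtaUnit, map_one]
  · rw [etaCp, PowerSeries.coeff_map, eq_intCast]
    exact IsUltrametricDist.norm_intCast_le_one _ _

/-- The Hecke relation of the sums of the divisors prime to `N`. -/
lemma sigP_hecke (hN : N.Prime) {q : ℕ} (hq : q.Prime) {m : ℕ} (hm : m ≠ 0) :
    sigP N (q * m) + (if ¬ q ∣ N ∧ q ∣ m then q * sigP N (m / q) else 0) =
      (if q = N then 1 else 1 + q) * sigP N m := by
  rcases eq_or_ne q N with rfl | hqN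
  · have := Fact.mk hq
    simp [FermatAgent.Period.Eis.sigP_self_mul]
  · have hnd : ¬ q ∣ N := fun h => hqN ((Nat.prime_dvd_prime_iff_eq hq hN).1 h)
    simpa [hqN, hnd] using FermatAgent.Period.Eis.sigP_prime_mul hq hqN hm

lemma coeff_dlog_etaCp (j : ℕ) :
    PowerSeries.coeff j (dlog (etaCp ℓ)) = -24 * ((∑ d ∈ j.divisors, d : ℕ) : ℂ_[ℓ]) := by
  set P : PowerSeries ℂ_[ℓ] := etaProd.map (Int.castRingHom ℂ_[ℓ])
  have hP : IsP1 P := by
    refine ⟨?_, fun i => ?_⟩
    · rw [← PowerSeries.coeff_zero_eq_constantCoeff_apply, PowerSeries.coeff_map,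
        PowerSeries.coeff_zero_eq_constantCoeff_apply, constantCoeff_etaProd, map_one]
    · rw [PowerSeries.coeff_map, eq_intCast]; exact IsUltrametricDist.norm_intCast_le_one _ _
  have he : etaCp ℓ = P ^ 24 := map_pow _ _ _
  obtain ⟨M, hM⟩ := Filter.eventually_atTop.1 (((Set.finite_Iic j).eventually_all.2
    fun i _ => FermatAgent.Curve.coeff_etaProd_eq i))
  set M' := max M j
  have hS : ∀ i : ℕ, IsP1 (1 + PowerSeries.C (-1 : ℂ_[ℓ]) * PowerSeries.X ^ (i + 1)) := fun i =>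
    isP1_one_add (by simp) i.succ_ne_zero
  set Q : PowerSeries ℂ_[ℓ] :=
    ∏ i ∈ Finset.range M', (1 + PowerSeries.C (-1 : ℂ_[ℓ]) * PowerSeries.X ^ (i + 1))
  have hQ : IsP1 Q := Finset.prod_induction _ IsP1 (fun _ _ => IsP1.mul) IsP1.one fun i _ => hS i
  have hQc : ∀ i ≤ j, PowerSeries.coeff i Q = PowerSeries.coeff i P := fun i hi => by
    have h1 := hM M' (le_max_left _ _) i (Set.mem_Iic.2 hi)
    rw [PowerSeries.coeff_map, ← h1, ← Polynomial.coeff_coe, ← PowerSeries.coeff_map]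
    congr 1
    rw [FermatAgent.Curve.etaPartial, ← Polynomial.coeToPowerSeries.ringHom_apply, map_prod,
      map_prod]
    refine Finset.prod_congr rfl fun l _ => ?_
    simp [sub_eq_add_neg]
  have hPQ : PowerSeries.coeff j (dlog P) = PowerSeries.coeff j (dlog Q) := by
    have e : P = (P * Q⁻¹) * Q := by rw [mul_assoc, mul_comm Q⁻¹, hQ.mul_inv, mul_one]
    conv_lhs => rw [e]
    rw [dlog_mul (hP.mul hQ.inv) hQ, map_add, coeff_dlog_eq_zero (fun i hi0 hi => ?_), zero_add]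
    have h2 : PowerSeries.X ^ (j + 1) ∣ P * Q⁻¹ - 1 := by
      rw [show P * Q⁻¹ - 1 = (P - Q) * Q⁻¹ by rw [sub_mul, hQ.mul_inv]]
      exact dvd_mul_of_dvd_left (PowerSeries.X_pow_dvd_iff.2 fun l hl => by
        rw [map_sub, hQc l (by omega), sub_self]) _
    have h3 := PowerSeries.X_pow_dvd_iff.1 h2 i (by omega)
    rwa [map_sub, PowerSeries.coeff_one, if_neg hi0, sub_zero] at h3
  have hprod : ∀ s : Finset ℕ, PowerSeries.coeff j
      (dlog (∏ i ∈ s, (1 + PowerSeries.C (-1 : ℂ_[ℓ]) * PowerSeries.X ^ (i + 1)))) =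
      ∑ i ∈ s, if i + 1 ∣ j ∧ j ≠ 0 then -((i + 1 : ℕ) : ℂ_[ℓ]) else 0 := by
    intro s
    induction s using Finset.induction_on with
    | empty => simp [dlog_one]
    | insert i s hi ih =>
      rw [Finset.prod_insert hi, Finset.sum_insert hi, dlog_mul (hS i)
        (Finset.prod_induction _ IsP1 (fun _ _ => IsP1.mul) IsP1.one fun l _ => hS l), map_add, ih,
        coeff_dlog_single (Nat.succ_ne_zero i)]
      congr 1
      split_ifs with h
      · obtain ⟨⟨t, ht⟩, hj⟩ := h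
        have ht0 : t ≠ 0 := fun h0 => hj (by rw [ht, h0, mul_zero])
        obtain ⟨t, rfl⟩ : ∃ t', t = t' + 1 := ⟨t - 1, by omega⟩
        rw [ht, Nat.mul_div_cancel_left _ (Nat.succ_pos i), Nat.add_sub_cancel, mul_assoc,
          ← pow_add, show t + (t + 1) = 2 * t + 1 by ring, pow_succ, pow_mul]
        simp
      · rfl
  rw [he, dlog_pow hP, map_nsmul, hPQ, hprod, nsmul_eq_mul, Nat.cast_sum]
  rcases eq_or_ne j 0 with rfl | hj
  · simp
  rw [Finset.mul_sum, Finset.mul_sum]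
  refine Eq.trans ?_ (Eq.symm (Finset.sum_subset (s₁ := j.divisors)
    (s₂ := (Finset.range M').image (· + 1)) (f := fun d => if d ∣ j then -24 * (d : ℂ_[ℓ]) else 0)
    ?_ ?_) |>.trans (Finset.sum_congr rfl fun d hd => if_pos (Nat.dvd_of_mem_divisors hd)))
  · rw [Finset.sum_image fun a _ b _ h => Nat.succ_injective h]
    refine Finset.sum_congr rfl fun i _ => ?_
    simp only [hj, ne_eq, not_false_eq_true, and_true]
    split_ifs <;> push_cast <;> ring
  · intro d hd
    have h1 := Nat.le_of_dvd (Nat.pos_of_ne_zero hj) (Nat.dvd_of_mem_divisors hd)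
    have h2 := Nat.pos_of_mem_divisors hd
    exact Finset.mem_image.2 ⟨d - 1, Finset.mem_range.2 (by omega), by omega⟩
  · intro d _ hd
    exact if_neg fun h => hd (Nat.mem_divisors.2 ⟨h, hj⟩)

omit [NeZero N] in
/-- The logarithmic derivative of the Eisenstein unit has coefficients `-24 σ'(j)`. -/
lemma coeff_dlog_eisUnit (hN : N.Prime) (j : ℕ) :
    PowerSeries.coeff j (dlog (etaCp ℓ * (PowerSeries.expand N hN.ne_zero (etaCp ℓ))⁻¹)) =
      -24 * (sigP N j : ℂ_[ℓ]) := by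
  have hE : IsP1 (etaCp ℓ) := isP1_etaCp
  rw [dlog_mul hE (hE.expand _).inv, map_add, dlog_inv (hE.expand _), map_neg,
    dlog_expand hE hN.ne_zero, ← map_natCast (PowerSeries.C (R := ℂ_[ℓ])),
    PowerSeries.coeff_C_mul, PowerSeries.coeff_expand, coeff_dlog_etaCp]
  have key : (∑ d ∈ j.divisors, d) = sigP N j +
      (if N ∣ j then N * ∑ d ∈ (j / N).divisors, d else 0) := by
    simp only [← ArithmeticFunction.sigma_one_apply, sigP]
    split_ifs with h
    · obtain ⟨t, rfl⟩ := h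
      rcases eq_or_ne t 0 with rfl | ht
      · simp
      rw [Nat.mul_div_cancel_left _ hN.pos, FermatAgent.Period.Eis.sigma_one_prime_mul hN ht,
        Nat.ordCompl_mul, FermatAgent.Period.Eis.ordCompl_prime_self hN, one_mul, add_comm]
    · rw [Nat.factorization_eq_zero_of_not_dvd h, pow_zero, Nat.div_one, add_zero]
  rw [key]
  split_ifs with h
  · rw [coeff_dlog_etaCp]
    push_cast
    ring
  · push_cast
    ring

/-- Congruent one-units have congruent logarithmic derivatives. -/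
lemma norm_coeff_dlog_sub_le {n : ℕ} {G G' : PowerSeries ℂ_[ℓ]} (h : PCong n G G')
    (hG' : IsP1 G') (m : ℕ) :
    ‖PowerSeries.coeff m (dlog G) - PowerSeries.coeff m (dlog G')‖ ≤ ‖(n : ℂ_[ℓ])‖ := by
  obtain ⟨H, hH, rfl⟩ := h
  rw [dlog_mul hG' (hH.pow n), dlog_pow hH, map_add, map_nsmul, add_sub_cancel_left, nsmul_eq_mul,
    norm_mul]
  exact mul_le_of_le_one_right (norm_nonneg _) (bdBy_dlog hH m)

local notation "V" => parabolicHoms ℤ_[ℓ] (Gamma0 N) ℤ_[ℓ]

/-- **The Eisenstein class**: for `ℓ ^ k ∣ N - 1` some homomorphism has `δ` congruent to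
`-24 σ'` modulo `ℓ ^ k`. -/
theorem exists_eisClass (hN : N.Prime) (h5 : 5 ≤ N) {k : ℕ} (hk : ℓ ^ k ∣ N - 1) :
    ∃ ψ : V, ∀ [Algebra Qbar ℂ_[ℓ]] (j : ℕ),
      ‖PowerSeries.coeff j (delt ψ) + 24 * (sigP N j : ℂ_[ℓ])‖ ≤ ‖((ℓ ^ k : ℕ) : ℂ_[ℓ])‖ := by
  obtain ⟨m, hm⟩ := hk
  obtain ⟨φ, S, a, ha, hS, hSn, hell⟩ :=
    exists_eis_series hN h5 (pow_pos hℓ.out.pos k) hm.symm
  obtain ⟨ψ, hψ⟩ := exists_lift hN k φ.2.1 φ.2.2 hell
  refine ⟨ψ, fun {_} j => ?_⟩
  rw [← hψ] at hS
  have hdec := pcong_gInf_of_isMult hS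
  have hE := isP1_etaCp (ℓ := ℓ)
  set G := etaCp ℓ * (PowerSeries.expand N hN.ne_zero (etaCp ℓ))⁻¹
  have hmap : ∀ F : PowerSeries Qbar, coeffMap (algebraMap Qbar ℂ_[ℓ]) (psQ F) =
      HahnSeries.ofPowerSeries ℤ ℂ_[ℓ] (F.map (algebraMap Qbar ℂ_[ℓ])) :=
    fun F => ModularCurve.coeffMap_ofPowerSeries _ F
  have heta : etaQ.map (algebraMap Qbar ℂ_[ℓ]) = etaCp ℓ := by
    ext i
    simp [etaQ, etaCp, PowerSeries.coeff_map]
  have hHas : HasDec (lsMap (K := ℂ_[ℓ]) S ^ ℓ ^ k) (algebraMap Qbar ℂ_[ℓ] a)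
      (1 - (N : ℤ)) G 0 := by
    refine ⟨?_, (map_ne_zero _).2 ha, hE.mul (hE.expand _).inv, by simp⟩
    have h1 := congrArg (lsMap (L := Qbar) (K := ℂ_[ℓ])) hSn
    simp only [lsMap, map_mul, map_pow] at h1
    simp only [hmap, PowerSeries.map_expand, heta, coeffMap_single, map_one] at h1
    have h2 : HahnSeries.ofPowerSeries ℤ ℂ_[ℓ] (PowerSeries.expand N hN.ne_zero (etaCp ℓ)) *
        HahnSeries.ofPowerSeries ℤ ℂ_[ℓ] (PowerSeries.expand N hN.ne_zero (etaCp ℓ))⁻¹ = 1 := by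
      rw [← map_mul, (hE.expand _).mul_inv, map_one]
    have h3 : (HahnSeries.single ((N : ℤ) - 1) (1 : ℂ_[ℓ]) : LaurentSeries ℂ_[ℓ]) *
        HahnSeries.single (1 - (N : ℤ)) 1 = 1 := by
      rw [HahnSeries.single_mul_single, one_mul, show (N : ℤ) - 1 + (1 - N) = 0 by ring]
      rfl
    have h4 : (HahnSeries.single 0 (algebraMap Qbar ℂ_[ℓ] a) : LaurentSeries ℂ_[ℓ]) *
        HahnSeries.single (1 - (N : ℤ)) 1 =
          HahnSeries.single (1 - (N : ℤ)) (algebraMap Qbar ℂ_[ℓ] a) := by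
      rw [HahnSeries.single_mul_single, zero_add, mul_one]
    rw [decS, linProdS_zero, mul_one, map_mul, ← h4, lsMap]
    set A := coeffMap (algebraMap Qbar ℂ_[ℓ]) S ^ ℓ ^ k
    linear_combination (HahnSeries.single (1 - (N : ℤ)) (1 : ℂ_[ℓ]) *
        HahnSeries.ofPowerSeries ℤ ℂ_[ℓ] (PowerSeries.expand N hN.ne_zero (etaCp ℓ))⁻¹) * h1 -
      A * (HahnSeries.ofPowerSeries ℤ ℂ_[ℓ] (PowerSeries.expand N hN.ne_zero (etaCp ℓ)) *
        HahnSeries.ofPowerSeries ℤ ℂ_[ℓ] (PowerSeries.expand N hN.ne_zero (etaCp ℓ))⁻¹) * h3 -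
      A * h2
  rw [decG_eq hHas] at hdec
  have h := norm_coeff_dlog_sub_le hdec (isP1_gInf ψ) j
  rw [coeff_dlog_eisUnit hN] at h
  rw [norm_sub_rev] at h
  simpa [delt, sub_neg_eq_add] using h

end FermatAgent.Mazur

end
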