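import Fermat.Agent.MF.Reduced
import Fermat.Agent.Mazur.EigenSplit
import Fermat.Agent.Mazur.EisClass

/-!
# An Eisenstein eigensystem with non-vanishing `δ`

Splitting the Eisenstein class into eigenvectors gives an eigensystem congruent to the Eisenstein
one on whose eigenspace the first coefficient of `δ` does not vanish.
-/

set_option autoImplicit false

noncomputable section

open scoped Classical Matrix MatrixGroups
open CongruenceSubgroup (Gamma0)
open ModularCurve.Period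
open FermatAgent.Period (parRank parabolicCoords parAction)
open FermatAgent.ES (intMat eigLat mem_eigLat)

namespace FermatAgent.Mazur

local notation "Qbar" => AlgebraicClosure ℚ

attribute [local instance] embAlg

variable {ℓ : ℕ} [hℓ : Fact ℓ.Prime] {N : ℕ} [NeZero N]

local notation "V" => parabolicHoms ℤ_[ℓ] (Gamma0 N) ℤ_[ℓ]
local notation "T" => CuspForm.heckeAlgebra N 2 ∅

/-- The operator at a prime. -/
def hop (N : ℕ) [NeZero N] {q : ℕ} (hq : q.Prime) : CuspForm.heckeAlgebra N 2 ∅ :=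
  ⟨_, MF.heckeAt_mem hq (Set.notMem_empty q)⟩

/-- The Hecke operator on coefficient sequences. -/
def heckeSeq (N q : ℕ) (F : ℕ → ℂ_[ℓ]) (m : ℕ) : ℂ_[ℓ] :=
  F (q * m) + if ¬ q ∣ N ∧ q ∣ m then (q : ℂ_[ℓ]) * F (m / q) else 0

/-- The Eisenstein eigenvalue. -/
def eisVal (N q : ℕ) : ℂ_[ℓ] := if q = N then 1 else 1 + (q : ℂ_[ℓ])

omit [NeZero N] in
lemma norm_eisVal_le_one (q : ℕ) : ‖(eisVal N q : ℂ_[ℓ])‖ ≤ 1 := by
  rw [eisVal]
  split_ifs
  · simp
  · exact (IsUltrametricDist.norm_add_le_max _ _).trans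
      (by simp [IsUltrametricDist.norm_natCast_le_one])

/-- The values of an eigensystem are integral. -/
theorem norm_eigenvalue_le_one (θ : T →+* ℂ_[ℓ]) (t : T) : ‖θ t‖ ≤ 1 := by
  have hint : IsIntegral ℤ (θ t) := by
    obtain ⟨p, hp, hp0⟩ := (Matrix.isIntegral (R := ℤ) (FermatAgent.Period.parMatHom N ∅ t))
    refine ⟨p, hp, ?_⟩
    have h : Polynomial.eval₂ (algebraMap ℤ T) t p = 0 := by
      refine FermatAgent.ES.parMatHom_injective N ?_
      rw [Polynomial.hom_eval₂, map_zero, ← hp0]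
      exact congrArg (fun f => Polynomial.eval₂ f _ p) (RingHom.ext_int _ _)
    have h' := congrArg θ h
    rw [Polynomial.hom_eval₂, map_zero] at h'
    rw [← h']
    exact congrArg (fun f => Polynomial.eval₂ f _ p) (RingHom.ext_int _ _)
  obtain ⟨p, hp, hp0⟩ := hint
  by_contra hlt
  push Not at hlt
  rw [Polynomial.eval₂_eq_sum_range, Finset.sum_range_succ, hp.coeff_natDegree, map_one, one_mul,
    add_eq_zero_iff_eq_neg'] at hp0
  have hbound : ‖∑ i ∈ Finset.range p.natDegree, algebraMap ℤ ℂ_[ℓ] (p.coeff i) * θ t ^ i‖ <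
      ‖θ t‖ ^ p.natDegree := by
    rcases Nat.eq_zero_or_pos p.natDegree with h0 | hpos
    · simp [h0]
    obtain ⟨i, hi, hle⟩ := IsUltrametricDist.exists_norm_finsetSum_le_of_nonempty
      (Finset.nonempty_range_iff.2 hpos.ne')
      (fun i => algebraMap ℤ ℂ_[ℓ] (p.coeff i) * θ t ^ i)
    refine hle.trans_lt ?_
    rw [norm_mul, norm_pow, eq_intCast]
    exact (mul_le_of_le_one_left
      (by positivity) (IsUltrametricDist.norm_intCast_le_one _ _)).trans_lt
      (pow_lt_pow_right₀ hlt (Finset.mem_range.1 hi))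
  refine hbound.ne ?_
  rw [← norm_neg, ← hp0, norm_pow]

/-- The dual vectors of the coordinates. -/
def basisV (j : Fin (parRank (Gamma0 N))) : V :=
  (parabolicCoords (Gamma0 N) ℤ_[ℓ] ℤ_[ℓ]).symm (Pi.single j 1)

/-- A homomorphism is the combination of the dual basis by its coordinates. -/
lemma eq_sum_smul_basisV (ψ : V) :
    ψ = ∑ j, parabolicCoords (Gamma0 N) ℤ_[ℓ] ℤ_[ℓ] ψ j • basisV (ℓ := ℓ) (N := N) j := by
  refine (parabolicCoords (Gamma0 N) ℤ_[ℓ] ℤ_[ℓ]).injective ?_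
  rw [map_sum]
  simp only [map_smul, basisV, LinearEquiv.apply_symm_apply]
  exact pi_eq_sum_univ' _

section

variable [Algebra Qbar ℂ_[ℓ]]

/-- `δ`, extended linearly. -/
def deltC : (Fin (parRank (Gamma0 N)) → ℂ_[ℓ]) →ₗ[ℂ_[ℓ]] (ℕ → ℂ_[ℓ]) where
  toFun v m := ∑ j, v j * PowerSeries.coeff m (delt (basisV (ℓ := ℓ) (N := N) j))
  map_add' v w := funext fun m => by simp [add_mul, Finset.sum_add_distrib]
  map_smul' a v := funext fun m => by simp [Finset.mul_sum, mul_assoc]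

/-- `δ` commutes with finite sums. -/
lemma coeff_delt_sum {ι : Type*} (s : Finset ι) (f : ι → V) (m : ℕ) :
    PowerSeries.coeff m (delt (∑ i ∈ s, f i)) = ∑ i ∈ s, PowerSeries.coeff m (delt (f i)) := by
  induction s using Finset.induction_on with
  | empty => rw [Finset.sum_empty, Finset.sum_empty, delt_zero, map_zero]
  | insert a t ha ih =>
    rw [Finset.sum_insert ha, Finset.sum_insert ha, delt_add, map_add, ih]

/-- The extended `δ` at the coordinates is `δ`. -/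
theorem deltC_coords (ψ : V) (m : ℕ) :
    deltC (fun j => zCp (parabolicCoords (Gamma0 N) ℤ_[ℓ] ℤ_[ℓ] ψ j)) m =
      PowerSeries.coeff m (delt ψ) := by
  set c := parabolicCoords (Gamma0 N) ℤ_[ℓ] ℤ_[ℓ] ψ with hc
  have hψ := eq_sum_smul_basisV ψ
  conv_rhs => rw [hψ, coeff_delt_sum]
  show ∑ j, zCp (c j) * PowerSeries.coeff m (delt (basisV j)) = _
  exact Finset.sum_congr rfl fun j _ => (coeff_delt_smul (c j) (basisV j) m).symm

omit [Algebra Qbar ℂ_[ℓ]] in
/-- The Hecke algebra acts at a prime by the Hecke operator. -/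
lemma parAction_hop {q : ℕ} (hq : q.Prime) (ψ : V) :
    parAction N ∅ ℤ_[ℓ] ℤ_[ℓ] (hop N hq) ψ = heckeV hq ψ :=
  Subtype.ext (FermatAgent.Period.parAction_heckeAt ℤ_[ℓ] ℤ_[ℓ] hq (Set.notMem_empty q) ψ)

theorem deltC_hop {q : ℕ} (hq : q.Prime) (v : Fin (parRank (Gamma0 N)) → ℂ_[ℓ]) :
    deltC (intMat ℂ_[ℓ] (hop N hq) *ᵥ v) = heckeSeq N q (deltC v) := by
  have : Fact q.Prime := ⟨hq⟩
  funext m
  have key : ∀ i, ∑ j, intMat ℂ_[ℓ] (hop N hq) j i *
      PowerSeries.coeff m (delt (basisV (ℓ := ℓ) (N := N) j)) =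
        heckeSeq N q (fun k => PowerSeries.coeff k (delt (basisV (ℓ := ℓ) (N := N) i))) m := by
    intro i
    rw [heckeSeq, ← coeff_delt_heckeV, ← parAction_hop, ← deltC_coords]
    refine Finset.sum_congr rfl fun j _ => ?_
    simp only [← FermatAgent.ES.heckePadMat_mulVec]
    rw [show parabolicCoords (Gamma0 N) ℤ_[ℓ] ℤ_[ℓ] (basisV i) = Pi.single i 1 from
      LinearEquiv.apply_symm_apply _ _, Matrix.mulVec_single_one]
    simp [FermatAgent.ES.heckePadMat, intMat, map_intCast]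
  show ∑ j, (intMat ℂ_[ℓ] (hop N hq) *ᵥ v) j * _ = _
  simp only [Matrix.mulVec, dotProduct, Finset.sum_mul]
  rw [Finset.sum_comm]
  simp only [mul_right_comm _ (v _), ← Finset.sum_mul, key]
  simp only [heckeSeq, deltC, LinearMap.coe_mk, AddHom.coe_mk]
  split_ifs <;> simp [Finset.mul_sum, mul_add, Finset.sum_add_distrib, mul_comm _ (v _),
    mul_left_comm]

end

omit [NeZero N] in
lemma norm_heckeSeq_le {q : ℕ} {F : ℕ → ℂ_[ℓ]} {ε : ℝ} (hε : 0 ≤ ε) (h : ∀ m, ‖F m‖ ≤ ε)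
    (m : ℕ) : ‖heckeSeq N q F m‖ ≤ ε := by
  refine (IsUltrametricDist.norm_add_le_max _ _).trans (max_le (h _) ?_)
  split_ifs
  · rw [norm_mul]
    exact (mul_le_of_le_one_left (norm_nonneg _) (IsUltrametricDist.norm_natCast_le_one _ q)).trans
      (h _)
  · rwa [norm_zero]

lemma norm_natCast_le_pow_iff [Algebra Qbar ℂ_[ℓ]] (n k : ℕ) :
    ‖(n : ℂ_[ℓ])‖ ≤ ‖((ℓ ^ k : ℕ) : ℂ_[ℓ])‖ ↔ ℓ ^ k ∣ n := by
  rw [← map_natCast (zCp (ℓ := ℓ)) n, ← map_natCast (zCp (ℓ := ℓ)) (ℓ ^ k), norm_zCp, norm_zCp,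
    show ((n : ℤ_[ℓ])) = ((n : ℤ) : ℤ_[ℓ]) by simp, Nat.cast_pow, PadicInt.norm_p_pow,
    PadicInt.norm_int_le_pow_iff_dvd]
  exact_mod_cast Iff.rfl

/-- **An Eisenstein eigensystem with `δ ≠ 0`**: for `ℓ ^ k ∣ N - 1`, `ℓ ^ k ∤ 24`, some eigensystem
congruent to the Eisenstein one has an eigenvector with nonzero first coefficient of `δ`. -/
theorem exists_eisPoint [Algebra Qbar ℂ_[ℓ]] (hN : N.Prime) (h5 : 5 ≤ N) {k : ℕ}
    (hk : ℓ ^ k ∣ N - 1) (h24 : ¬ ℓ ^ k ∣ 24) :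
    ∃ (θ : T →+* ℂ_[ℓ]) (w : Fin (parRank (Gamma0 N)) → ℂ_[ℓ]),
      w ∈ eigLat θ ∧ deltC w 1 ≠ 0 ∧
        ∀ (q : ℕ) (hq : q.Prime), ‖θ (hop N hq) - eisVal N q‖ < 1 := by
  obtain ⟨ψ, hψ⟩ := exists_eisClass (ℓ := ℓ) hN h5 hk
  set v : Fin (parRank (Gamma0 N)) → ℂ_[ℓ] :=
    fun j => zCp (parabolicCoords (Gamma0 N) ℤ_[ℓ] ℤ_[ℓ] ψ j)
  obtain ⟨s, w, hw, hvw⟩ :=
    exists_eigen_sum (F := ℂ_[ℓ]) (FermatAgent.MF.Petersson.isReduced_heckeAlgebra hN) v
  set ε : ℝ := ‖((ℓ ^ k : ℕ) : ℂ_[ℓ])‖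
  set E : ℕ → ℂ_[ℓ] := fun m => -24 * (Period.Eis.sigP N m : ℂ_[ℓ]) with hE
  by_contra hcon
  push Not at hcon
  have hε : 0 ≤ ε := norm_nonneg _
  have hbase : ∀ m, ‖deltC v m - E m‖ ≤ ε := fun m => by
    rw [deltC_coords, hE]
    simpa [sub_neg_eq_add] using hψ m
  have hEq : ∀ {q : ℕ}, q.Prime → ∀ m, heckeSeq N q E m = eisVal N q * E m := by
    intro q hq m
    rcases eq_or_ne m 0 with rfl | hm
    · simp [heckeSeq, hE, Period.Eis.sigP]
    have hs := congrArg (Nat.cast (R := ℂ_[ℓ])) (sigP_hecke (N := N) hN hq hm)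
    simp only [Nat.cast_add, Nat.cast_mul, apply_ite (Nat.cast (R := ℂ_[ℓ])), Nat.cast_zero,
      Nat.cast_one] at hs
    simp only [heckeSeq, hE, eisVal]
    by_cases hc : ¬ q ∣ N ∧ q ∣ m
    · rw [if_pos hc] at hs ⊢
      linear_combination (-24 : ℂ_[ℓ]) * hs
    · rw [if_neg hc] at hs ⊢
      linear_combination (-24 : ℂ_[ℓ]) * hs
  have key : ∀ S : Finset (T →+* ℂ_[ℓ]), S ⊆ s.filter (fun θ => deltC (w θ) 1 ≠ 0) →
      ∃ (μ : (T →+* ℂ_[ℓ]) → ℂ_[ℓ]) (c : ℂ_[ℓ]), ‖c‖ = 1 ∧ (∀ θ ∈ S, μ θ = 0) ∧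
        ∀ m, ‖deltC (∑ θ ∈ s, μ θ • w θ) m - c * E m‖ ≤ ε := by
    intro S
    induction S using Finset.induction_on with
    | empty =>
      refine fun _ => ⟨fun _ => 1, 1, norm_one, by simp, fun m => ?_⟩
      simpa [← hvw] using hbase m
    | insert a S ha ih =>
      intro hS
      obtain ⟨μ, c, hc, hμ, hb⟩ := ih (subset_trans (Finset.subset_insert _ _) hS)
      obtain ⟨has, ha1⟩ := Finset.mem_filter.1 (hS (Finset.mem_insert_self _ _))
      obtain ⟨q, hq, hqa⟩ := hcon a (w a) (hw a has) ha1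
      have h1 : ‖eisVal N q - a (hop N hq)‖ = 1 := by
        refine le_antisymm ((norm_sub_le_max_field _ _).trans
          (max_le (norm_eisVal_le_one q) (norm_eigenvalue_le_one a _))) ?_
        rwa [norm_sub_rev]
      refine ⟨fun θ => μ θ * (θ (hop N hq) - a (hop N hq)),
        c * (eisVal N q - a (hop N hq)), by rw [norm_mul, hc, h1, mul_one], ?_, fun m => ?_⟩
      · intro θ hθ
        rcases Finset.mem_insert.1 hθ with rfl | hθ
        · simp
        · simp [hμ θ hθ]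
      · set u := ∑ θ ∈ s, μ θ • w θ with hu
        have e : ∑ θ ∈ s, (μ θ * (θ (hop N hq) - a (hop N hq))) • w θ =
            intMat ℂ_[ℓ] (hop N hq) *ᵥ u - a (hop N hq) • u := by
          rw [hu, Matrix.mulVec_sum, Finset.smul_sum, ← Finset.sum_sub_distrib]
          refine Finset.sum_congr rfl fun θ hθ => ?_
          rw [Matrix.mulVec_smul, (mem_eigLat θ).1 (hw θ hθ), smul_smul, smul_smul, ← sub_smul,
            mul_sub, mul_comm (a _) (μ θ)]
        rw [e, map_sub, map_smul, deltC_hop hq]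
        have hF : ∀ j, heckeSeq N q (fun i => deltC u i - c * E i) j =
            heckeSeq N q (deltC u) j - c * heckeSeq N q E j := by
          intro j
          simp only [heckeSeq]
          split_ifs <;> ring
        have hrw : (heckeSeq N q (deltC u) - a (hop N hq) • deltC u) m -
            c * (eisVal N q - a (hop N hq)) * E m =
            heckeSeq N q (fun i => deltC u i - c * E i) m -
              a (hop N hq) * (deltC u m - c * E m) := by
          rw [hF, hEq hq, Pi.sub_apply, Pi.smul_apply, smul_eq_mul]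
          ring
        rw [hrw]
        refine (norm_sub_le_max_field _ _).trans (max_le (norm_heckeSeq_le hε hb m) ?_)
        rw [norm_mul]
        exact (mul_le_of_le_one_left (norm_nonneg _) (norm_eigenvalue_le_one a _)).trans (hb m)
  obtain ⟨μ, c, hc, hμ, hb⟩ := key _ subset_rfl
  have hzero : deltC (∑ θ ∈ s, μ θ • w θ) 1 = 0 := by
    rw [map_sum, Finset.sum_apply]
    refine Finset.sum_eq_zero fun θ hθ => ?_
    rw [map_smul, Pi.smul_apply, smul_eq_mul]
    by_cases h : deltC (w θ) 1 = 0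
    · rw [h, mul_zero]
    · rw [hμ θ (Finset.mem_filter.2 ⟨hθ, h⟩), zero_mul]
  have h := hb 1
  rw [hzero, zero_sub, norm_neg, norm_mul, hc, one_mul] at h
  refine h24 ((norm_natCast_le_pow_iff (ℓ := ℓ) 24 k).1 ?_)
  have hs1 : Period.Eis.sigP N 1 = 1 := by simp [Period.Eis.sigP]
  simpa [hE, hs1, ε] using h

end FermatAgent.Mazur

end
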