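import Fermat.Agent.ES.Coeff.Padic
import Fermat.Agent.ES.Tate.Extend
import Fermat.Agent.Mazur.EisPoint

/-!
# A coefficient ring for an eigensystem with values in `ℂ_ℓ`
-/

set_option autoImplicit false

noncomputable section

open IsLocalRing

namespace FermatAgent.Mazur

variable {ℓ : ℕ} [hℓ : Fact ℓ.Prime] {N : ℕ} [NeZero N]

/-- An eigensystem with values in `ℂ_ℓ` takes values in a complete discrete valuation ring which is
finite over `ℤ_ℓ`. -/
theorem exists_coeffRing (θ : CuspForm.heckeAlgebra N 2 ∅ →+* ℂ_[ℓ]) :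
    ∃ (O : Type) (_ : CommRing O) (_ : IsDomain O) (_ : IsDiscreteValuationRing O)
      (_ : IsAdicComplete (maximalIdeal O) O) (_ : CharZero O) (ι : ℤ_[ℓ] →+* O)
      (j : O →+* ℂ_[ℓ]) (χ : CuspForm.heckeAlgebra N 2 ∅ →+* O),
      ι.Finite ∧ Function.Injective j ∧ j.comp ι = zCp ∧ j.comp χ = θ ∧ (∀ x, ‖j x‖ ≤ 1) := by
  classical
  obtain ⟨s, hs⟩ : ∃ s : Finset (CuspForm.heckeAlgebra N 2 ∅),
      Submodule.span ℤ (s : Set (CuspForm.heckeAlgebra N 2 ∅)) = ⊤ :=
    (MF.moduleFinite_heckeAlgebra N 2 ∅).fg_top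
  have hrange : ∀ t, θ t ∈ (algebraMap (PadicAlgCl ℓ) ℂ_[ℓ]).range := by
    intro t
    have hint : IsIntegral (PadicAlgCl ℓ) (θ t) := by
      obtain ⟨p, hp, hp0⟩ := Matrix.isIntegral (R := ℤ) (FermatAgent.Period.parMatHom N ∅ t)
      have h : Polynomial.eval₂ (algebraMap ℤ _) t p = 0 := by
        refine FermatAgent.ES.parMatHom_injective N ?_
        rw [Polynomial.hom_eval₂, map_zero, ← hp0]
        exact congrArg (fun f => Polynomial.eval₂ f _ p) (RingHom.ext_int _ _)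
      have h' := congrArg θ h
      rw [Polynomial.hom_eval₂, map_zero] at h'
      refine IsIntegral.tower_top (R := ℤ) ⟨p, hp, ?_⟩
      rw [← h']
      exact congrArg (fun f => Polynomial.eval₂ f _ p) (RingHom.ext_int _ _)
    exact minpoly.mem_range_of_degree_eq_one _ _
      (IsAlgClosed.degree_eq_one_of_irreducible _ (minpoly.irreducible hint))
  choose v hv using hrange
  set K : IntermediateField ℚ_[ℓ] (PadicAlgCl ℓ) :=
    IntermediateField.adjoin ℚ_[ℓ] (s.image v : Set (PadicAlgCl ℓ)) with hK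
  have : FiniteDimensional ℚ_[ℓ] K :=
    IntermediateField.finiteDimensional_adjoin fun x _ => Algebra.IsIntegral.isIntegral x
  have : IsScalarTower ℤ_[ℓ] K (PadicAlgCl ℓ) := IsScalarTower.of_algebraMap_eq fun x => rfl
  have : IsScalarTower ℤ_[ℓ] ℚ_[ℓ] K := IsScalarTower.of_algebraMap_eq fun x => rfl
  obtain ⟨hdvr, hfin, hloc, hcomp, -, -⟩ := FermatAgent.ES.integralClosure_spec ℤ_[ℓ] ℚ_[ℓ] K
  set O := integralClosure ℤ_[ℓ] K
  set ι : ℤ_[ℓ] →+* O := algebraMap ℤ_[ℓ] O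
  set j : O →+* ℂ_[ℓ] := (algebraMap (PadicAlgCl ℓ) ℂ_[ℓ]).comp
    ((algebraMap K (PadicAlgCl ℓ)).comp O.toSubring.subtype) with hj
  have hjn : ∀ x, ‖j x‖ ≤ 1 := fun x => by
    show ‖((((x : O) : K) : PadicAlgCl ℓ) : ℂ_[ℓ])‖ ≤ 1
    rw [PadicComplex.norm_extends]
    exact FermatAgent.ES.norm_le_one_of_isIntegral
      (x.2.map (IsScalarTower.toAlgHom ℤ_[ℓ] K (PadicAlgCl ℓ)))
  have hjinj : Function.Injective j :=
    ((algebraMap (PadicAlgCl ℓ) ℂ_[ℓ]).injective.comp (algebraMap K (PadicAlgCl ℓ)).injective).comp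
      Subtype.val_injective
  have hjι : j.comp ι = zCp := RingHom.ext fun x => rfl
  have hvmem : ∀ t, θ t ∈ j.range := by
    intro t
    have hK' : ∀ t ∈ s, θ t ∈ j.range := by
      intro t ht
      have hmem : v t ∈ K := IntermediateField.subset_adjoin _ _ (Finset.mem_image_of_mem v ht)
      have hn : ‖v t‖ ≤ 1 := by
        rw [← PadicComplex.norm_extends]
        show ‖algebraMap (PadicAlgCl ℓ) ℂ_[ℓ] (v t)‖ ≤ 1
        rw [hv]
        exact norm_eigenvalue_le_one θ t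
      have hint : IsIntegral ℤ_[ℓ] (⟨v t, hmem⟩ : K) :=
        (isIntegral_algHom_iff (IsScalarTower.toAlgHom ℤ_[ℓ] K (PadicAlgCl ℓ))
          (algebraMap K (PadicAlgCl ℓ)).injective).mp (FermatAgent.ES.isIntegral_of_norm_le_one hn)
      exact ⟨⟨_, hint⟩, hv t⟩
    have hspan : t ∈ Submodule.span ℤ (s : Set (CuspForm.heckeAlgebra N 2 ∅)) :=
      hs ▸ Submodule.mem_top
    induction hspan using Submodule.span_induction with
    | mem x hx => exact hK' x hx
    | zero => rw [map_zero]; exact zero_mem _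
    | add x y _ _ hx hy => rw [map_add]; exact add_mem hx hy
    | smul a x _ hx => rw [map_zsmul]; exact zsmul_mem hx a
  let χ : CuspForm.heckeAlgebra N 2 ∅ →+* O :=
    (RingEquiv.ofLeftInverse (f := j) (g := Function.invFun j)
      (Function.leftInverse_invFun hjinj)).symm.toRingHom.comp
      (θ.codRestrict j.range hvmem)
  have hχ : j.comp χ = θ := RingHom.ext fun t =>
    congrArg Subtype.val ((RingEquiv.ofLeftInverse (f := j) (g := Function.invFun j)
      (Function.leftInverse_invFun hjinj)).apply_symm_apply ⟨θ t, hvmem t⟩)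
  have : CharZero O := charZero_of_injective_algebraMap
    (R := ℤ_[ℓ]) (FermatAgent.ES.injective_algebraMap_integralClosure ℤ_[ℓ] ℚ_[ℓ] K)
  refine ⟨O, inferInstance, inferInstance, hdvr, hcomp, inferInstance, ι, j, χ,
    RingHom.finite_algebraMap.mpr hfin, hjinj, hjι, hχ, hjn⟩

/-- What is small under a bounded embedding lies in the maximal ideal. -/
lemma mem_maximalIdeal_of_norm {ℓ : ℕ} [Fact ℓ.Prime] {O : Type} [CommRing O] [IsLocalRing O]
    (j : O →+* ℂ_[ℓ]) (hjn : ∀ x, ‖j x‖ ≤ 1) (x : O) (hx : ‖j x‖ < 1) : x ∈ maximalIdeal O :=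
  fun hu => by
  obtain ⟨u, rfl⟩ := hu
  have h1 := hjn (↑u⁻¹ : O)
  have h2 : ‖j (↑u : O)‖ * ‖j (↑u⁻¹ : O)‖ = 1 := by
    rw [← norm_mul, ← map_mul, Units.mul_inv, map_one, norm_one]
  nlinarith [norm_nonneg (j (↑u : O))]

end FermatAgent.Mazur

end
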