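import Fermat.Agent.Mazur.CuspLocal
import Fermat.Agent.Mazur.CoeffRing

/-!
# No rational point of `X₀(N)` near the cusp at an Eisenstein prime

If a power of `ℓ` divides `N - 1` and not `24`, no rational point of `X₀(N)` with non-integral `j`
at `ℓ` reduces there to the cusp `∞` (at `ℓ = 2` closer than the first layer).
-/

set_option autoImplicit false

noncomputable section

open scoped Classical MatrixGroups
open IsLocalRing
open CongruenceSubgroup (Gamma0)

namespace FermatAgent.Mazur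

open FermatAgent.Curve (jField)
open FermatAgent.GaloisBasic
open AlgebraicCurve (Place)

attribute [local instance] embAlg

local notation "Qbar" => AlgebraicClosure ℚ

variable {ℓ : ℕ} [hℓ : Fact ℓ.Prime]

/-- An isometric endomorphism commutes with evaluation, after moving the point. -/
lemma map_evalDisc {σ : ℂ_[ℓ] →+* ℂ_[ℓ]} (hσc : Continuous σ) {r : ℂ_[ℓ]} (hr : ‖r‖ < 1)
    (hσr : ‖σ r‖ < 1) (f : PowerSeries ℤ) :
    σ (evalDisc r hr (intPS ℂ_[ℓ] f)) = evalDisc (σ r) hσr (intPS ℂ_[ℓ] f) := by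
  have hs := summable_shift hr (intPS ℂ_[ℓ] f) 0
  simp only [zero_add] at hs
  rw [evalDisc_apply, evalDisc_apply]
  refine (hs.map_tsum σ hσc).trans (tsum_congr fun n => ?_)
  simp only [intPS, PowerSeries.coeff_map, map_mul, map_pow, eq_intCast, map_intCast]

variable [Algebra Qbar ℂ_[ℓ]]

local notation "ιA" => (algebraMap (AlgebraicClosure ℚ) ℂ_[ℓ] : AlgebraicClosure ℚ →+* ℂ_[ℓ])

/-- A point of the disc with rational `j` is fixed by the decomposition group. -/
lemma galExt_eq_self_of_jDisc {r : ℂ_[ℓ]} {hr : ‖r‖ < 1} {a : ℚ}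
    (ha : algebraMap Qbar ℂ_[ℓ] (a : Qbar) = jDisc r hr)
    (g : (padVal ιA).decompositionSubgroup ℚ) : galExt ιA g r = r := by
  have hσr : ‖galExt ιA g r‖ < 1 := by rw [norm_galExt]; exact hr
  refine jDisc_injective hσr hr ?_
  rw [← ha, jDisc, ← map_evalDisc (continuous_galExt g) hr hσr, ← map_div₀,
    show evalDisc r hr (intPS ℂ_[ℓ] ModularCurve.jNum) / r = jDisc r hr from rfl, ← ha,
    galExt_apply, map_ratCast]

omit [Algebra Qbar ℂ_[ℓ]] in
lemma norm_ratCast_cp (x : ℚ) (hx : x ≠ 0) :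
    ‖(x : ℂ_[ℓ])‖ = (ℓ : ℝ) ^ (-padicValRat ℓ x) := by
  rw [← map_ratCast (algebraMap ℚ_[ℓ] ℂ_[ℓ]) x, norm_algebraMap',
    Padic.norm_eq_zpow_neg_valuation (by exact_mod_cast hx), Padic.valuation_ratCast]

variable {N : ℕ} [NeZero N]

/-- A rational point with non-integral values gives a point of the disc. -/
theorem exists_discPt (hN : N.Prime) {P : Place Qbar (jField Qbar N)} {a b : ℚ}
    (hP : HasCoords P (a : Qbar) b)
    (hva : padicValRat ℓ a < 0) (hvb : padicValRat ℓ b = N * padicValRat ℓ a) :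
    ∃ D : DiscPt ℓ N, D.P = P ∧ D.a = (a : Qbar) := by
  have ha0 : a ≠ 0 := fun h0 => by simp [h0] at hva
  have hb0 : b ≠ 0 := fun h0 => by
    rw [h0, padicValRat.zero] at hvb
    have := hN.pos
    rcases mul_eq_zero.1 hvb.symm with h1 | h1 <;> omega
  have hℓ1 : (1 : ℝ) < ℓ := by exact_mod_cast hℓ.out.one_lt
  have hnorm : ‖algebraMap Qbar ℂ_[ℓ] (a : Qbar)‖ = (ℓ : ℝ) ^ (-padicValRat ℓ a) := by
    rw [map_ratCast, norm_ratCast_cp a ha0]
  have hav : 1 < ‖algebraMap Qbar ℂ_[ℓ] (a : Qbar)‖ := by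
    rw [hnorm]
    exact one_lt_zpow₀ hℓ1 (by omega)
  have hbv : ‖algebraMap Qbar ℂ_[ℓ] (b : Qbar)‖ = ‖algebraMap Qbar ℂ_[ℓ] (a : Qbar)‖ ^ N := by
    rw [hnorm, map_ratCast, norm_ratCast_cp b hb0, hvb, ← zpow_natCast, ← zpow_mul]
    congr 1
    ring
  obtain ⟨r, hr, hr0, ha, hPr⟩ := eq_discPlace (K := ℂ_[ℓ]) N hN P hP hav hbv
  have h1728 : (a : Qbar) ≠ 1728 := fun h0 => by
    rw [h0, show (1728 : Qbar) = ((1728 : ℕ) : Qbar) by norm_num] at hav
    exact absurd hav (norm_algebraMap_ofNat_le 1728).not_gt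
  exact ⟨{ P := P
           a := (a : Qbar)
           ord_a := hPr ▸ ord_discPlace_jElt_sub hr hr0 ha
           ne_zero := Rat.cast_ne_zero.2 ha0
           ne_1728 := h1728
           fix := galJ_smul_eq_self hN hP hav hbv
           r := r
           hr := hr
           hr0 := hr0
           ha := ha
           hP := hPr
           galExt_r := fun g => galExt_eq_self_of_jDisc ha g }, rfl, rfl⟩

/-- **No rational point near the cusp at an Eisenstein prime.** For a prime `N ≥ 5` and a prime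
power `ℓᵏ` dividing `N - 1` but not `24`, `X₀(N)` has no rational point `ℓ`-adically close
to the cusp `∞`. -/
theorem cuspAt (hN : N.Prime) (h5 : 5 ≤ N) {k : ℕ} (hk : ℓ ^ k ∣ N - 1) (h24 : ¬ ℓ ^ k ∣ 24) :
    ∀ (P : Place Qbar (jField Qbar N)) (a b : ℚ), HasCoords P (a : Qbar) b →
      padicValRat ℓ a < 0 → padicValRat ℓ b = N * padicValRat ℓ a →
      (ℓ = 2 → padicValRat ℓ a ≤ -2) → False := by
  intro P a b hP hva hvb htwo
  have hk0 : k ≠ 0 := fun h => h24 (by rw [h, pow_zero]; exact one_dvd _)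
  have hℓN : ℓ ≠ N := by
    rintro rfl
    have h1 := Nat.le_of_dvd (by omega) ((dvd_pow_self ℓ hk0).trans hk)
    omega
  obtain ⟨θ, w, hw, hw1, hθ⟩ := exists_eisPoint (ℓ := ℓ) hN h5 hk h24
  obtain ⟨O, iO1, iO2, iO3, iO4, iO5, ι, j, χ, hfin, hjinj, hjι, hjχ, hjn⟩ := exists_coeffRing θ
  let : Algebra ℤ_[ℓ] O := ι.toAlgebra
  have : Module.Finite ℤ_[ℓ] O := hfin
  have h : IsEisSystem ℓ N χ :=
    { prime := hN
      ne := hℓN
      mem := mem_maximalIdeal_of_norm j hjn _ (by rw [map_natCast]; exact norm_prime_cp_lt_one)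
      eis := fun q hq hqN => mem_maximalIdeal_of_norm j hjn _ (by
        have h1 := hθ q hq
        rw [eisVal, if_neg hqN, ← hjχ] at h1
        rwa [map_sub, map_add, map_one, map_natCast]) }
  have hnz := exists_delt_ne_zero χ hjinj hjι (w := w) (by rw [hjχ]; exact hw) hw1
  -- the point on the disc
  obtain ⟨D, -, hDa⟩ := exists_discPt (ℓ := ℓ) hN hP hva hvb
  have ha0 : a ≠ 0 := fun h0 => by simp [h0] at hva
  have hℓ1 : (1 : ℝ) < ℓ := by exact_mod_cast hℓ.out.one_lt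
  have hrn : ‖D.r‖ = (ℓ : ℝ) ^ padicValRat ℓ a := by
    rw [← inv_inv ‖D.r‖, ← norm_jDisc D.hr, ← D.ha, hDa, map_ratCast, norm_ratCast_cp a ha0,
      ← zpow_neg, neg_neg]
  have hℓn : ‖(ℓ : ℂ_[ℓ])‖ = (ℓ : ℝ) ^ (-1 : ℤ) := by rw [norm_prime_cp, zpow_neg_one]
  refine h.no_discPt hnz D ?_
  show if ℓ = 2 then ‖D.r‖ ≤ _ else ‖D.r‖ ≤ _
  split_ifs with h2
  · rw [hrn, hℓn, ← zpow_natCast, ← zpow_mul]
    exact zpow_le_zpow_right₀ hℓ1.le (by have := htwo h2; simpa using this)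
  · rw [hrn, hℓn]
    exact zpow_le_zpow_right₀ hℓ1.le (by omega)

end FermatAgent.Mazur

end
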