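import Fermat.Agent.Mazur.TorsionLocal
import Mathlib.FieldTheory.Finite.Basic
import Mathlib.Algebra.Polynomial.Derivative

/-!
# No fixed point of large prime order at a place of good reduction

A cubic is never a non-zero square at all elements of `𝔽_ℓ`, so an elliptic curve over `𝔽_ℓ` has
fewer than `2ℓ + 1` points.
-/

set_option autoImplicit false

noncomputable section

open Polynomial

namespace FermatAgent.Mazur

open WeierstrassCurve FermatAgent.ECLocal

local notation "Qbar" => AlgebraicClosure ℚ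

/-- A cubic is not a non-zero square everywhere on the prime field. -/
theorem cubic_pow_ne_one {F : Type*} [Field F] {ℓ : ℕ} [CharP F ℓ] (hℓ : ℓ.Prime) (h5 : 5 ≤ ℓ)
    {f : F[X]} (hf : f.natDegree = 3) :
    ¬ ∀ x : F, x ^ ℓ = x → f.eval x ^ ((ℓ - 1) / 2) = 1 := by
  intro hall
  have := Fact.mk hℓ
  set m := (ℓ - 1) / 2 with hm
  have hm2 : ℓ = 2 * m + 1 := by
    obtain ⟨t, ht⟩ := hℓ.odd_of_ne_two (by omega)
    omega
  set P : F[X] := X ^ ℓ - X
  have hP : P.natDegree = ℓ := FiniteField.X_pow_card_sub_X_natDegree_eq F hℓ.one_lt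
  have hmon : P.Monic := monic_X_pow_sub (by rw [degree_X]; exact_mod_cast hℓ.one_lt)
  set g := f ^ m - 1 with hg
  have hrem : g %ₘ P = 0 := by
    let φ : ZMod ℓ →+* F := ZMod.castHom (dvd_refl ℓ) F
    refine eq_zero_of_natDegree_lt_card_of_eval_eq_zero (g %ₘ P) φ.injective (fun t => ?_) ?_
    · have ht : φ t ^ ℓ = φ t := by rw [← map_pow, ZMod.pow_card]
      have h0 : P.eval (φ t) = 0 := by simp [P, ht]
      rw [eq_sub_of_add_eq (modByMonic_add_div g P), eval_sub, eval_mul, h0, zero_mul, sub_zero,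
        hg, eval_sub, eval_pow, hall _ ht, eval_one, sub_self]
    · rw [ZMod.card]
      exact (natDegree_modByMonic_lt _ hmon (fun h => by
        rw [h, natDegree_one] at hP; omega)).trans_eq hP
  obtain ⟨h, hh⟩ := (modByMonic_eq_zero_iff_dvd hmon).1 hrem
  have hgdeg : g.natDegree = 3 * m := by
    rw [hg, ← C_1, natDegree_sub_C, natDegree_pow, hf, mul_comm]
  have hh0 : h ≠ 0 := fun h0 => by
    rw [hh, h0, mul_zero, natDegree_zero] at hgdeg
    omega
  have hhdeg : ℓ + h.natDegree = 3 * m := by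
    rw [← hgdeg, hh, natDegree_mul hmon.ne_zero hh0, hP]
  have hdP : derivative P = -1 := by
    rw [derivative_sub, derivative_X_pow, derivative_X, CharP.cast_eq_zero F ℓ, C_0, zero_mul,
      zero_sub]
  have hd := congrArg derivative hh
  rw [hg, derivative_sub, derivative_one, sub_zero, derivative_pow, derivative_mul, hdP] at hd
  have hfm : f ^ m = f ^ (m - 1) * f := by rw [← pow_succ, Nat.sub_add_cancel (by omega)]
  set Q : F[X] := C (m : F) * derivative f + f * h
  have hdvd : P ∣ Q := ⟨f * derivative h - C (m : F) * h * derivative f, by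
    rw [show P * (f * derivative h - C (m : F) * h * derivative f) =
      f * (P * derivative h) - C (m : F) * derivative f * (P * h) by ring, ← hh, hg, hfm]
    linear_combination (norm := (simp only [Q]; ring)) f * hd⟩
  have hfh : (f * h).natDegree = 3 + h.natDegree := by
    rw [natDegree_mul (fun h0 => by simp [h0] at hf) hh0, hf]
  have hdf : (C (m : F) * derivative f).natDegree ≤ 2 :=
    (natDegree_C_mul_le _ _).trans ((natDegree_derivative_le f).trans (by omega))
  have hQ : Q = 0 := by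
    refine eq_zero_of_dvd_of_natDegree_lt hdvd ?_
    rw [hP]
    refine (natDegree_add_le _ _).trans_lt ?_
    omega
  have := congrArg natDegree (eq_neg_of_add_eq_zero_right hQ)
  rw [natDegree_neg, hfh] at this
  omega

variable {A : ValuationSubring Qbar} {ℓ : ℕ}

/-- A multiple `k • R`, `0 < k ≤ ℓ`, of a point of order `N ≥ 2ℓ + 1` fixed by Frobenius reduces to
an affine point rational over the prime field and different from its opposite. -/
lemma exists_red_coords [Fact ℓ.Prime] (hA : A.LiesOverPrime ℓ) {M : WeierstrassCurve A}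
    {σ : Qbar ≃ₐ[ℚ] Qbar} (hσ : A.IsFrobeniusAt σ ℓ) {N : ℕ} (hN2 : 2 * ℓ + 1 ≤ N)
    {R : (gen M).toAffine.Point} (hR : N • R = 0)
    (hfix : ∀ (k : ℕ) (x y : Qbar) (h : (gen M).toAffine.Nonsingular x y),
      k • R = .some x y h → σ x = x ∧ σ y = y)
    (hall : ∀ P : (gen M).toAffine.Point, IsE0 P)
    (hkill : ∀ S : (gen M).toAffine.Point, N • S = 0 → IsE1 S → S = 0)
    (hNk : ∀ k : ℕ, N • (k • R) = 0) (hk : ∀ k : ℕ, 0 < k → k < N → k • R ≠ 0)
    (k : ℕ) (hk0 : 0 < k) (hkℓ : k ≤ ℓ) :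
    ∃ a b c : IsLocalRing.ResidueField A,
      a ^ ℓ = a ∧ b ^ ℓ = b ∧ c ^ ℓ = c ∧ b ≠ c ∧ c = (spc M).toAffine.negY a b ∧
      ∃ hab : (spc M).toAffine.Nonsingular a b, red (k • R) = .some a b hab := by
  classical
  have hP0 := hk k hk0 (by omega)
  rcases hP : k • R with _ | ⟨x, y, h⟩
  · exact absurd hP hP0
  have hx : x ∈ A := by
    by_contra hx
    exact hP0 (hkill _ (hNk k) (by rw [hP, isE1_some_iff]; exact hx))
  have hy := y_mem_of_x_mem h.1 hx
  have hN' : (N - k) • R = .some x _ ((Affine.nonsingular_neg ..).mpr h) := by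
    rw [← Affine.Point.neg_some h, ← hP, eq_neg_iff_add_eq_zero, ← add_nsmul,
      Nat.sub_add_cancel (by omega), hR]
  obtain ⟨hσx, hσy⟩ := hfix k x y h hP
  obtain ⟨-, hσy'⟩ := hfix (N - k) _ _ _ hN'
  have hy' : (gen M).toAffine.negY x y ∈ A :=
    y_mem_of_x_mem ((Affine.nonsingular_neg ..).mpr h).1 hx
  have hF : ∀ z : Qbar, ∀ hz : z ∈ A, σ z = z →
      IsLocalRing.residue A ⟨z, hz⟩ ^ ℓ = IsLocalRing.residue A ⟨z, hz⟩ := fun z hz he => by
    obtain ⟨h', he'⟩ := frob_residue hA hσ hz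
    rw [← he']
    congr 1
    exact Subtype.ext he
  have h0 : IsE0 (.some x y h : (gen M).toAffine.Point) := hall _
  have eneg : IsLocalRing.residue A ⟨_, hy'⟩ =
      (spc M).toAffine.negY (IsLocalRing.residue A ⟨x, hx⟩)
      (IsLocalRing.residue A ⟨y, hy⟩) := by
    rw [Affine.map_negY]
    congr 1
  refine ⟨_, _, _, hF x hx hσx, hF y hy hσy, hF _ hy' hσy', fun hbc => ?_, eneg, _,
    red_some_of_mem h hx h0⟩
  refine hk (2 * k) (by omega) (by omega) ?_
  have h2 : red (k • R) = red (-(k • R)) := by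
    rw [(hall (k • R)).neg.2, hP, red_some_of_mem h hx h0, Affine.Point.neg_some]
    simp only [← eneg, ← hbc]
  have := hkill _ (by rw [nsmul_sub, hNk, neg_nsmul, hNk, neg_zero, sub_zero])
    (IsE1.sub_of_red_eq (hall _) (hall _) h2)
  rw [sub_neg_eq_add, ← add_nsmul, ← two_mul] at this
  exact this

/-- `ℓ` distinct elements fixed by `x ↦ x ^ ℓ` exhaust the fixed elements. -/
lemma exists_eq_of_pow_eq {K : Type*} [Field K] (hℓ : ℓ.Prime) [CharP K ℓ] {a : Fin ℓ → K}
    (hinj : Function.Injective a) (ha : ∀ i, a i ^ ℓ = a i) {x : K} (hx : x ^ ℓ = x) :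
    ∃ i, a i = x := by
  classical
  set P : K[X] := X ^ ℓ - X
  have hP0 : P ≠ 0 := FiniteField.X_pow_card_sub_X_ne_zero _ hℓ.one_lt
  by_contra hne
  push Not at hne
  have hsub : insert x (Finset.univ.image a) ⊆ P.roots.toFinset := by
    intro z hz
    rw [Multiset.mem_toFinset, mem_roots hP0]
    rcases Finset.mem_insert.1 hz with rfl | hz
    · simp [P, hx]
    · obtain ⟨i, -, rfl⟩ := Finset.mem_image.1 hz
      simp [P, ha i]
  have := (Finset.card_le_card hsub).trans
    ((Multiset.toFinset_card_le _).trans (card_roots' _))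
  rw [Finset.card_insert_of_notMem (by simpa using hne), Finset.card_image_of_injective _ hinj,
    Finset.card_univ, Fintype.card_fin,
    FiniteField.X_pow_card_sub_X_natDegree_eq _ hℓ.one_lt] at this
  omega

/-- At a place of good reduction over `ℓ ≥ 5` Frobenius fixes no point of prime order `≥ 2ℓ + 1`. -/
theorem no_fixed_torsion_good (hℓ : ℓ.Prime) (h5 : 5 ≤ ℓ) (hA : A.LiesOverPrime ℓ)
    {M : WeierstrassCurve A} (hgood : IsLocalRing.residue A M.Δ ≠ 0) {σ : Qbar ≃ₐ[ℚ] Qbar}
    (hσ : A.IsFrobeniusAt σ ℓ) {N : ℕ} (hN : N.Prime) (hN2 : 2 * ℓ + 1 ≤ N)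
    {R : (gen M).toAffine.Point} (hR : N • R = 0) (hR0 : R ≠ 0)
    (hfix : ∀ (k : ℕ) (x y : Qbar) (h : (gen M).toAffine.Nonsingular x y),
      k • R = .some x y h → σ x = x ∧ σ y = y) : False := by
  classical
  have := Fact.mk hℓ
  have : CharP (IsLocalRing.ResidueField A) ℓ := residueChar (hp := ⟨hℓ⟩) A hA
  have hall : ∀ P : (gen M).toAffine.Point, IsE0 P := isE0_of_residue_Δ_ne_zero hgood
  have hNres : (N : IsLocalRing.ResidueField A) ≠ 0 :=
    natCast_residue_ne_zero hℓ hA fun h => by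
      have := (Nat.prime_dvd_prime_iff_eq hℓ hN).1 h
      omega
  have hkill : ∀ S : (gen M).toAffine.Point, N • S = 0 → IsE1 S → S = 0 := fun S hS h1 =>
    h1.eq_zero_of_nsmul_eq_zero hNres hS
  have hNk : ∀ k : ℕ, N • (k • R) = 0 := fun k => by rw [← mul_nsmul, mul_nsmul', hR, nsmul_zero]
  have hk : ∀ k : ℕ, 0 < k → k < N → k • R ≠ 0 := fun k h0 hkN h => by
    have := Fact.mk hN
    have := addOrderOf_eq_prime_iff.2 ⟨hR, hR0⟩
    have := Nat.le_of_dvd h0 (this ▸ addOrderOf_dvd_of_nsmul_eq_zero h)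
    omega
  have hres := exists_red_coords hA hσ hN2 hR hfix hall hkill hNk hk
  choose a b c ha hb hc hbc hneg hab hred using fun i : Fin ℓ => hres ((i : ℕ) + 1) (by omega) i.2
  have hinj : Function.Injective a := by
    intro i j hij
    by_contra hne
    have hne' : (i : ℕ) ≠ j := fun h => hne (Fin.ext h)
    have hcase : red (((i : ℕ) + 1) • R) = red (((j : ℕ) + 1) • R) ∨
        red (((i : ℕ) + 1) • R) = red (-(((j : ℕ) + 1) • R)) := by
      rw [(hall (((j : ℕ) + 1) • R)).neg.2, hred, hred, Affine.Point.neg_some]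
      rcases Affine.Y_eq_of_X_eq (hab i).1 (hab j).1 hij with h | h
      · left; simp [hij, h]
      · right; simp [hij, h]
    have hlt1 : (i : ℕ) < ℓ := i.2
    have hlt2 : (j : ℕ) < ℓ := j.2
    rcases hcase with h | h
    · have := hkill _ (by rw [nsmul_sub, hNk, hNk, sub_zero])
        (IsE1.sub_of_red_eq (hall _) (hall _) h)
      rw [sub_eq_zero] at this
      rcases lt_or_gt_of_ne hne' with hlt | hgt
      · refine hk ((j : ℕ) - i) (by omega) (by omega) ?_
        exact left_eq_add.1 (this.trans (by rw [← add_nsmul]; congr 1; omega))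
      · refine hk ((i : ℕ) - j) (by omega) (by omega) ?_
        exact left_eq_add.1 (this.symm.trans (by rw [← add_nsmul]; congr 1; omega))
    · have := hkill _ (by rw [nsmul_sub, hNk, neg_nsmul, hNk, neg_zero, sub_zero])
        (IsE1.sub_of_red_eq (hall _) (hall _) h)
      rw [sub_neg_eq_add, ← add_nsmul] at this
      exact hk ((i : ℕ) + 1 + ((j : ℕ) + 1)) (by omega) (by omega) this
  have hsurj : ∀ x : IsLocalRing.ResidueField A, x ^ ℓ = x → ∃ i, a i = x := fun x hx =>
    exists_eq_of_pow_eq hℓ hinj ha hx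
  have h2res : (2 : IsLocalRing.ResidueField A) ≠ 0 := by
    have := natCast_residue_ne_zero hℓ hA (n := 2) (fun h => by
      have := Nat.le_of_dvd two_pos h; omega)
    exact_mod_cast this
  set f : (IsLocalRing.ResidueField A)[X] := C 4 * X ^ 3 + C (spc M).b₂ * X ^ 2 +
    C (2 * (spc M).b₄) * X + C (spc M).b₆ with hfdef
  have hfdeg : f.natDegree = 3 := natDegree_cubic (by
    rw [show (4 : IsLocalRing.ResidueField A) = 2 * 2 by norm_num]
    exact mul_ne_zero h2res h2res)
  refine cubic_pow_ne_one hℓ h5 hfdeg fun x hx => ?_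
  obtain ⟨i, rfl⟩ := hsurj x hx
  have hY : f.eval (a i) = (b i - c i) ^ 2 := by
    have he := (Affine.equation_iff _ _).1 (hab i).1
    rw [hneg i, Affine.negY]
    simp only [hfdef, eval_add, eval_mul, eval_C, eval_pow, eval_X, WeierstrassCurve.b₂,
      WeierstrassCurve.b₄, WeierstrassCurve.b₆]
    linear_combination (-4 : IsLocalRing.ResidueField A) * he
  have hodd : 2 * ((ℓ - 1) / 2) = ℓ - 1 := by
    obtain ⟨t, ht⟩ := hℓ.odd_of_ne_two (by omega)
    omega
  rw [hY, ← pow_mul, hodd]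
  have hne : b i - c i ≠ 0 := sub_ne_zero.2 (hbc i)
  refine mul_left_cancel₀ hne ?_
  rw [← pow_succ', Nat.sub_add_cancel hℓ.one_le, sub_pow_char, hb, hc, mul_one]

end FermatAgent.Mazur

end
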