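import Fermat.Agent.Mazur.S12Of
import Fermat.Agent.Mazur.CuspAt
import Fermat.Agent.Mazur.GoodTorsion
import Fermat.Agent.S10
import Fermat.Agent.S11
import Fermat.Agent.S13

/-!
# The Frey curve has no cofixed line of order `≥ 17`

An Eisenstein prime `ℓ` for `N` is a prime of multiplicative reduction, and there the rational point
of `X₀(N)` is close to one of the cusps.
-/

set_option autoImplicit false

noncomputable section

open scoped WeierstrassCurve.Affine Classical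

namespace FermatAgent.Mazur

open WeierstrassCurve WeierstrassCurve.Affine.Point FermatAgent.ECLocal
open FermatAgent.Curve (jField)
open AlgebraicCurve (Place)

local notation "Qbar" => AlgebraicClosure ℚ

/-- For a prime `N = 11` or `N ≥ 17` a prime power divides `N - 1` and not `24`. -/
theorem exists_eis_prime {N : ℕ} (hN : N.Prime) (h : N = 11 ∨ 17 ≤ N) :
    ∃ ℓ k : ℕ, ℓ.Prime ∧ ℓ ^ k ∣ N - 1 ∧ ¬ ℓ ^ k ∣ 24 ∧ (ℓ ≤ 3 ∨ 5 ≤ ℓ ∧ 2 * ℓ + 1 ≤ N) := by
  by_cases h9 : 9 ∣ N - 1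
  · exact ⟨3, 2, Nat.prime_three, h9, by decide, Or.inl le_rfl⟩
  by_cases h16 : 16 ∣ N - 1
  · exact ⟨2, 4, Nat.prime_two, h16, by decide, Or.inl (by norm_num)⟩
  by_cases hbig : ∃ ℓ, ℓ.Prime ∧ 5 ≤ ℓ ∧ ℓ ∣ N - 1
  · obtain ⟨ℓ, hℓ, h5, hd⟩ := hbig
    have h2 : 2 ∣ N - 1 := (hN.even_sub_one (by omega)).two_dvd
    have hd2 : 2 * ℓ ∣ N - 1 :=
      ((Nat.coprime_primes Nat.prime_two hℓ).2 (by omega)).mul_dvd_of_dvd_of_dvd h2 hd
    refine ⟨ℓ, 1, hℓ, by rwa [pow_one], fun h24 => ?_, Or.inr ⟨h5, ?_⟩⟩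
    · rw [pow_one] at h24
      rcases (hℓ.dvd_mul (m := 8) (n := 3)).1 h24 with h8 | h3
      · have := Nat.le_of_dvd (by norm_num) ((hℓ.dvd_of_dvd_pow (m := 2) (n := 3) h8))
        omega
      · have := Nat.le_of_dvd (by norm_num) h3
        omega
    · have := Nat.le_of_dvd (by omega) hd2
      omega
  exfalso
  push Not at hbig
  have hdvd : N - 1 ∣ 24 := by
    refine (Nat.dvd_iff_prime_pow_dvd_dvd _ _).2 fun q k hq hqk => ?_
    rcases Nat.eq_zero_or_pos k with rfl | hk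
    · simp
    have hqd : q ∣ N - 1 := (dvd_pow_self q hk.ne').trans hqk
    have hq5 : q < 5 := not_le.1 fun h5 => hbig q hq h5 hqd
    have := hq.two_le
    interval_cases q
    · have : k ≤ 3 := not_lt.1 fun hk4 => h16 ((pow_dvd_pow 2 hk4).trans hqk)
      exact (pow_dvd_pow 2 this).trans (by norm_num)
    · have : k ≤ 1 := not_lt.1 fun hk2 => h9 ((pow_dvd_pow 3 hk2).trans hqk)
      exact (pow_dvd_pow 3 this).trans (by norm_num)
    · exact absurd hq (by decide)
  have h24 := Nat.le_of_dvd (by norm_num) hdvd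
  rcases h with rfl | h17
  · exact absurd hdvd (by decide)
  · have : N ≤ 25 := by omega
    interval_cases N <;> revert hdvd hN <;> decide

/-- The valuation of the `j`-invariant at a multiplicative prime. -/
lemma padicValRat_j {W : WeierstrassCurve ℤ} {ℓ : ℕ} (hℓ : ℓ.Prime) (hΔ0 : W.Δ ≠ 0)
    (hc4 : ¬ (ℓ : ℤ) ∣ W.c₄) :
    padicValRat ℓ ((W.c₄ : ℚ) ^ 3 / W.Δ) = -(padicValInt ℓ W.Δ : ℤ) := by
  have := Fact.mk hℓ
  have h0 : (W.c₄ : ℚ) ≠ 0 := by
    exact_mod_cast fun h : W.c₄ = 0 => hc4 (h ▸ dvd_zero _)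
  rw [padicValRat.div (pow_ne_zero _ h0) (by exact_mod_cast hΔ0), padicValRat.pow,
    padicValRat.of_int, padicValRat.of_int, padicValInt.eq_zero_of_not_dvd hc4]
  simp

/-- The discriminant of the Frey curve has even valuation at `2`, at least `2`. -/
lemma frey_padicValInt_two (P : FreyPackage) (h2 : (2 : ℤ) ∣ P.freyCurveInt.Δ) :
    2 ≤ padicValInt 2 P.freyCurveInt.Δ ∧ Even (padicValInt 2 P.freyCurveInt.Δ) := by
  have := Fact.mk Nat.prime_two
  have hΔ0 := freyCurveInt_Δ_ne_zero P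
  have h := congrArg (padicValInt 2) (frey_Δ P)
  have hpow : ∀ (x : ℤ) (n : ℕ), x ≠ 0 → padicValInt 2 (x ^ n) = n * padicValInt 2 x := by
    intro x n hx
    rw [padicValInt, padicValInt, Int.natAbs_pow, padicValNat.pow]
  have h256 : padicValInt 2 (256 : ℤ) = 8 := by
    rw [padicValInt, show Int.natAbs 256 = 2 ^ 8 from rfl, padicValNat.prime_pow]
  rw [padicValInt.mul (by norm_num) hΔ0, h256, hpow _ _ P.habc0] at h
  have h1 : padicValInt 2 P.freyCurveInt.Δ ≠ 0 := by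
    intro h0
    rcases padicValInt.eq_zero_iff.1 h0 with h' | h' | h'
    · norm_num at h'
    · exact hΔ0 h'
    · exact h' (by exact_mod_cast h2)
  set v := padicValInt 2 P.freyCurveInt.Δ
  set w := padicValInt 2 (P.a * P.b * P.c)
  have he : Even v := by
    refine ⟨P.p * w - 4, ?_⟩
    rw [mul_assoc] at h
    omega
  exact ⟨by obtain ⟨t, ht⟩ := he; omega, he⟩

/-- **No cofixed line**: for `p ≥ 17` the `p`-torsion of the Frey curve has no stable line with
trivial action on the quotient. -/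
theorem frey_no_cofixed (P : FreyPackage) (hp : 17 ≤ P.p) :
    ¬ HasGaloisStableCofixedLine (K := Qbar) ℚ P.freyCurve P.p := by
  rw [freyCurve_eq_map]
  have := Fact.mk P.pp
  have : NeZero P.p := ⟨P.pp.ne_zero⟩
  let := qbarAlgebraC
  set W := P.freyCurveInt
  rintro ⟨C, hC, hC0, hC1, hcofC⟩
  have hΔ0 : W.Δ ≠ 0 := freyCurveInt_Δ_ne_zero P
  have hW := EC.intMap_Δ_ne_zero hΔ0
  obtain ⟨q, hqC, hq0⟩ := Submodule.exists_mem_ne_zero_of_ne_bot hC0
  set Q : ((W.map (Int.castRingHom ℚ))⁄Qbar).Point := q.1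
  have hQ : P.p • Q = 0 := nsmul_coe_torsion (W := W) q
  have hQ0 : Q ≠ 0 := fun h => hq0 (Subtype.ext h)
  have hV2 := EC.finrank_torsionBy_rat (W.map (Int.castRingHom ℚ)) hW P.p
  have hfin : FiniteDimensional (ZMod P.p)
      (Submodule.torsionBy ℤ ((W.map (Int.castRingHom ℚ))⁄Qbar).Point P.p) :=
    Module.finite_of_finrank_eq_succ hV2
  have hC1' : Module.finrank (ZMod P.p) C = 1 := by
    have h1 : 0 < Module.finrank (ZMod P.p) C :=
      Module.finrank_pos_iff.2 ((Submodule.nontrivial_iff_ne_bot).2 hC0)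
    have h2 : Module.finrank (ZMod P.p) C < 2 :=
      hV2 ▸ Submodule.finrank_lt hC1
    omega
  have hcof : ∀ (σ : Qbar ≃ₐ[ℚ] Qbar) (R : ((W.map (Int.castRingHom ℚ))⁄Qbar).Point),
      P.p • R = 0 → ∃ s : ℕ, σ • R = R + s • Q := by
    intro σ R hR
    set x : Submodule.torsionBy ℤ ((W.map (Int.castRingHom ℚ))⁄Qbar).Point P.p :=
      ⟨R, (Submodule.mem_torsionBy_iff _ _).2 (by rw [natCast_zsmul]; exact hR)⟩
    obtain ⟨c, hc⟩ := (finrank_eq_one_iff_of_nonzero' (⟨q, hqC⟩ : C)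
      (fun h => hq0 (congrArg Subtype.val h))).1 hC1' ⟨σ • x - x, hcofC σ x⟩
    refine ⟨c.val, ?_⟩
    have h1 : c • q = σ • x - x := congrArg Subtype.val hc
    rw [← ZMod.natCast_zmod_val c, Nat.cast_smul_eq_nsmul] at h1
    have h2 : c.val • Q = σ • R - R := by
      have := congrArg Subtype.val h1
      exact this
    rw [h2]; abel
  have hstab : ∀ σ : Qbar ≃ₐ[ℚ] Qbar, ∃ m : ℕ, σ • Q = m • Q := fun σ => by
    obtain ⟨s, hs⟩ := hcof σ Q hQ
    exact ⟨1 + s, by rw [hs, add_nsmul, one_nsmul]⟩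
  obtain ⟨ℓ, k, hℓ, hk, h24, hcase⟩ := exists_eis_prime P.pp (Or.inr hp)
  have := Fact.mk hℓ
  obtain ⟨A, hA⟩ := GaloisBasic.exists_liesOverPrime hℓ
  have hss : (ℓ : ℤ) ∣ W.Δ → ¬(ℓ : ℤ) ∣ W.c₄ := fun h =>
    frey_not_dvd_c₄ P hℓ (frey_dvd_abc P hℓ h)
  have hbad : (ℓ : ℤ) ∣ W.Δ := by
    rcases hcase with h3 | ⟨h5, h2⟩
    · exact (cofix_local P.pp (by omega) hℓ h3 hA hΔ0 hss hQ hQ0 hcof).1
    · by_contra hgood
      obtain ⟨σ, hσ⟩ := GaloisBasic.exists_isFrobeniusAt hℓ hA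
      obtain ⟨R, hR, hR0, hfix⟩ := exists_fixed_of_cofix P.pp hΔ0 hQ hQ0 hcof σ
      refine no_fixed_torsion_good hℓ h5 hA (M := modelAt W A) (residue_modelAt_Δ hℓ hA hgood) hσ
        P.pp h2 (R := toGen W A R) (by rw [← map_nsmul, hR, _root_.map_zero])
        (fun h => hR0 ((toGen W A).injective (h.trans (_root_.map_zero _).symm)))
        fun k x y h hkR => ?_
      rw [← map_nsmul] at hkR
      have hfk : σ • (k • R) = k • R := by rw [galois_smul_nsmul, hfix]
      rcases hkR' : k • R with _ | ⟨x', y', h'⟩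
      · rw [hkR', ← Affine.Point.zero_def, _root_.map_zero] at hkR
        exact absurd hkR.symm (Affine.Point.some_ne_zero _)
      rw [hkR', toGen_some, Affine.Point.some.injEq] at hkR
      obtain ⟨rfl, rfl⟩ := hkR
      rw [hkR'] at hfk
      have e : σ • (Affine.Point.some x' y' h' : ((W.map (Int.castRingHom ℚ))⁄Qbar).Point) =
          .some (σ x') (σ y') ((Affine.baseChange_nonsingular (W := W.map (Int.castRingHom ℚ))
            (f := σ.toAlgHom) σ.injective x' y').mpr h') := rfl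
      have := e.symm.trans hfk
      exact Affine.Point.some.injEq .. |>.mp this
  have hc4 := hss hbad
  obtain ⟨hc40, hc60⟩ := c₄_c₆_ne_zero hℓ hbad hc4
  obtain ⟨Pl, Pl', a, b, κ, hPl, hPl', ha, -, -, -, -⟩ :=
    exists_rat_place P.pp (by omega) hc40 hc60 hΔ0 hQ hQ0 hstab
  have ha' : a = (W.c₄ : ℚ) ^ 3 / W.Δ :=
    (Rat.cast_injective (α := Qbar)) (by rw [ha]; push_cast; rfl)
  have hva : padicValRat ℓ a = -(padicValInt ℓ W.Δ : ℤ) := by rw [ha', padicValRat_j hℓ hΔ0 hc4]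
  have hv1 : 1 ≤ padicValInt ℓ W.Δ :=
    ((padicValInt_dvd_iff 1 _).1 (by rwa [pow_one])).resolve_left hΔ0
  have htwo : ℓ = 2 → 2 ≤ padicValInt ℓ W.Δ ∧ Even (padicValInt ℓ W.Δ) := by
    rintro rfl
    exact frey_padicValInt_two P (by exact_mod_cast hbad)
  let : Algebra Qbar ℂ_[ℓ] :=
    (IsAlgClosed.lift (R := ℚ) (S := Qbar) (M := ℂ_[ℓ])).toRingHom.toAlgebra
  have hC := cuspAt P.pp (by omega) hk h24
  have hodd : Odd P.p := P.pp.odd_of_ne_two (by omega)
  rcases padicValRat_dichotomy P.pp hPl (ℓ := ℓ) (by omega) with h | h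
  · exact hC Pl a b hPl (by omega) h fun h2 => by have := htwo h2; omega
  · have hbneg : padicValRat ℓ b < 0 := by
      by_contra hb'
      have : (0 : ℤ) ≤ P.p * padicValRat ℓ b := mul_nonneg (by positivity) (not_lt.1 hb')
      omega
    refine hC Pl' b a hPl' hbneg h.symm fun h2 => ?_
    by_contra hb2
    have hb1 : padicValRat ℓ b = -1 := by omega
    rw [hb1, hva, mul_neg_one, neg_inj, Nat.cast_inj] at h
    rw [h] at hodd
    exact Nat.not_even_iff_odd.2 hodd (htwo h2).2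

/-- **Irreducibility for the Frey curve**: the mod `p` representation of a Frey package is
irreducible. -/
theorem frey_irreducible (P : FreyPackage) :
    GaloisRepIsIrreducible (K := Qbar) ℚ P.freyCurve P.p := by
  by_contra h
  have hline := Fermat.Agent.S13.result P h
  by_cases h17 : 17 ≤ P.p
  · exact frey_no_cofixed P h17 hline
  · have h5 := P.hp5
    have hp := P.pp
    have hcases : P.p = 5 ∨ P.p = 7 ∨ P.p = 13 ∨ P.p = 11 := by
      revert hp
      interval_cases P.p <;> decide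
    rcases hcases with e | e | e | e
    · exact Fermat.Agent.S10.result P (Or.inl e) hline
    · exact Fermat.Agent.S10.result P (Or.inr (Or.inl e)) hline
    · exact Fermat.Agent.S10.result P (Or.inr (Or.inr e)) hline
    · exact Fermat.Agent.S11.result P e hline

end FermatAgent.Mazur

end
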