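import Mathlib.NumberTheory.Padics.Complex
import Mathlib.RingTheory.PowerSeries.Derivative
import Mathlib.RingTheory.PowerSeries.Inverse

/-!
# Integral one-units in power series over `ℂ_p` and their logarithmic derivatives

`IsP1 G`: constant coefficient `1` and all coefficients of norm at most `1`.  `dlog G = q G' / G`.
-/

set_option autoImplicit false

noncomputable section

open PowerSeries Finset

namespace FermatAgent.Mazur

variable {ℓ : ℕ} [hℓ : Fact ℓ.Prime]

/-! ### The norm of natural numbers -/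

lemma norm_natCast_cp (n : ℕ) : ‖(n : ℂ_[ℓ])‖ = ‖(n : ℚ_[ℓ])‖ := by
  rw [← map_natCast (algebraMap ℚ_[ℓ] ℂ_[ℓ]) n]
  exact PadicComplex.norm_extends' (p := ℓ) _

/-- `|ℓ| = 1 / ℓ`. -/
lemma norm_prime_cp : ‖(ℓ : ℂ_[ℓ])‖ = (ℓ : ℝ)⁻¹ := by
  rw [norm_natCast_cp]
  exact Padic.norm_p

/-- `|ℓ| < 1`. -/
lemma norm_prime_cp_lt_one : ‖(ℓ : ℂ_[ℓ])‖ < 1 := by
  rw [norm_prime_cp]
  exact inv_lt_one_of_one_lt₀ (Nat.one_lt_cast.2 hℓ.out.one_lt)

/-- The norm of a nonzero natural number is a power of `|ℓ|`. -/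
lemma norm_natCast_cp_eq {n : ℕ} (hn : n ≠ 0) :
    ‖(n : ℂ_[ℓ])‖ = ‖(ℓ : ℂ_[ℓ])‖ ^ padicValNat ℓ n := by
  rw [norm_prime_cp, norm_natCast_cp, Padic.norm_eq_zpow_neg_valuation (Nat.cast_ne_zero.2 hn),
    Padic.valuation_natCast, zpow_neg, zpow_natCast, inv_pow]

/-- A nonzero natural number has positive norm. -/
lemma norm_natCast_cp_pos {n : ℕ} (hn : n ≠ 0) : 0 < ‖(n : ℂ_[ℓ])‖ :=
  norm_pos_iff.2 (Nat.cast_ne_zero.2 hn)

/-! ### Bounds on coefficients -/

/-- All coefficients have norm at most `c`. -/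
def BdBy (G : PowerSeries ℂ_[ℓ]) (c : ℝ) : Prop := ∀ m, ‖coeff m G‖ ≤ c

namespace BdBy

variable {F G : PowerSeries ℂ_[ℓ]} {a b : ℝ}

lemma nonneg (h : BdBy F a) : 0 ≤ a := (norm_nonneg _).trans (h 0)

lemma add (hF : BdBy F a) (hG : BdBy G a) : BdBy (F + G) a := fun m => by
  rw [map_add]
  exact (IsUltrametricDist.norm_add_le_max _ _).trans (max_le (hF m) (hG m))

lemma neg (hF : BdBy F a) : BdBy (-F) a := fun m => by
  rw [map_neg, norm_neg]
  exact hF m

lemma zero (ha : 0 ≤ a) : BdBy (0 : PowerSeries ℂ_[ℓ]) a := fun m => by simpa using ha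

/-- Bounds multiply. -/
lemma mul (hF : BdBy F a) (hG : BdBy G b) : BdBy (F * G) (a * b) := fun m => by
  rw [coeff_mul]
  refine IsUltrametricDist.norm_sum_le_of_forall_le_of_nonneg (mul_nonneg hF.nonneg hG.nonneg)
    fun x _ => ?_
  rw [norm_mul]
  exact mul_le_mul (hF _) (hG _) (norm_nonneg _) hF.nonneg

end BdBy

variable (ℓ) in
/-- Series with integral coefficients. -/
def intSer : Subring (PowerSeries ℂ_[ℓ]) where
  carrier := {G | BdBy G 1}
  mul_mem' := fun h h' => by simpa using h.mul h'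
  one_mem' := fun m => by rw [coeff_one]; split_ifs <;> simp
  add_mem' := fun h h' => h.add h'
  zero_mem' := BdBy.zero zero_le_one
  neg_mem' := fun h => h.neg

/-- `G ∈ 1 + q O⟦q⟧`. -/
def IsP1 (G : PowerSeries ℂ_[ℓ]) : Prop := constantCoeff G = 1 ∧ BdBy G 1

namespace IsP1

variable {F G : PowerSeries ℂ_[ℓ]}

/-- `1` is an integral one-unit. -/
lemma one : IsP1 (1 : PowerSeries ℂ_[ℓ]) := ⟨constantCoeff_one, (intSer ℓ).one_mem⟩

/-- Integral one-units are closed under products. -/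
lemma mul (hF : IsP1 F) (hG : IsP1 G) : IsP1 (F * G) :=
  ⟨by rw [map_mul, hF.1, hG.1, one_mul], (intSer ℓ).mul_mem hF.2 hG.2⟩

/-- Integral one-units are closed under powers. -/
lemma pow (hF : IsP1 F) (k : ℕ) : IsP1 (F ^ k) :=
  ⟨by rw [map_pow, hF.1, one_pow], (intSer ℓ).pow_mem hF.2 k⟩

/-- An integral one-unit has nonzero constant term. -/
lemma ne_zero (hF : IsP1 F) : constantCoeff F ≠ 0 := by rw [hF.1]; exact one_ne_zero

/-- Integral one-units are closed under inverses. -/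
lemma inv (hF : IsP1 F) : IsP1 F⁻¹ := by
  refine ⟨by rw [constantCoeff_inv, hF.1, inv_one], fun m => ?_⟩
  induction m using Nat.strong_induction_on with
  | _ m ih =>
    rw [coeff_inv]
    split_ifs with hm
    · rw [hF.1]; simp
    · rw [norm_mul, norm_neg, hF.1, inv_one, norm_one, one_mul]
      refine IsUltrametricDist.norm_sum_le_of_forall_le_of_nonneg zero_le_one fun x _ => ?_
      split_ifs with hx
      · rw [norm_mul]
        exact mul_le_one₀ (hF.2 _) (norm_nonneg _) (ih _ hx)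
      · simp

/-- An integral one-unit times its inverse is one. -/
lemma mul_inv (hF : IsP1 F) : F * F⁻¹ = 1 := PowerSeries.mul_inv_cancel _ hF.ne_zero

/-- Inverses commute with powers. -/
lemma pow_inv (hF : IsP1 F) (k : ℕ) : (F ^ k)⁻¹ = (F⁻¹) ^ k := by
  rw [inv_eq_iff_mul_eq_one (hF.pow k).ne_zero, ← mul_pow, mul_comm, hF.mul_inv, one_pow]

lemma mul_inv_rev (hF : IsP1 F) (hG : IsP1 G) : (F * G)⁻¹ = F⁻¹ * G⁻¹ := by
  rw [inv_eq_iff_mul_eq_one (hF.mul hG).ne_zero]
  linear_combination (G⁻¹ * G) * hF.mul_inv + hG.mul_inv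

end IsP1

/-! ### The logarithmic derivative -/

/-- `q d/dq`. -/
def theta (G : PowerSeries ℂ_[ℓ]) : PowerSeries ℂ_[ℓ] := X * derivative ℂ_[ℓ] G

/-- `q d/dq` multiplies the `m`-th coefficient by `m`. -/
lemma coeff_theta (G : PowerSeries ℂ_[ℓ]) (m : ℕ) : coeff m (theta G) = m * coeff m G := by
  cases m with
  | zero => simp [theta]
  | succ m =>
    rw [theta, coeff_succ_X_mul, coeff_derivative]
    push_cast
    ring

lemma theta_mul (F G : PowerSeries ℂ_[ℓ]) : theta (F * G) = theta F * G + F * theta G := by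
  rw [theta, theta, theta, Derivation.leibniz, smul_eq_mul, smul_eq_mul]
  ring

/-- `q G' / G`. -/
def dlog (G : PowerSeries ℂ_[ℓ]) : PowerSeries ℂ_[ℓ] := theta G * G⁻¹

/-- The logarithmic derivative turns products into sums. -/
lemma dlog_mul {F G : PowerSeries ℂ_[ℓ]} (hF : IsP1 F) (hG : IsP1 G) :
    dlog (F * G) = dlog F + dlog G := by
  rw [dlog, dlog, dlog, theta_mul, hF.mul_inv_rev hG]
  linear_combination (theta F * F⁻¹) * hG.mul_inv + (theta G * G⁻¹) * hF.mul_inv

/-- The logarithmic derivative of one is zero. -/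
lemma dlog_one : dlog (1 : PowerSeries ℂ_[ℓ]) = 0 := by
  simp [dlog, theta]

/-- The logarithmic derivative turns powers into multiples. -/
lemma dlog_pow {G : PowerSeries ℂ_[ℓ]} (hG : IsP1 G) (k : ℕ) : dlog (G ^ k) = k • dlog G := by
  induction k with
  | zero => simp [dlog_one]
  | succ k ih => rw [pow_succ, dlog_mul (hG.pow k) hG, ih, succ_nsmul]

/-- The logarithmic derivative of an inverse is the negative. -/
lemma dlog_inv {G : PowerSeries ℂ_[ℓ]} (hG : IsP1 G) : dlog G⁻¹ = -dlog G := by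
  rw [eq_neg_iff_add_eq_zero, ← dlog_mul hG.inv hG, mul_comm, hG.mul_inv, dlog_one]

/-- `q G' = (q G' / G) G`. -/
lemma theta_eq_dlog_mul {G : PowerSeries ℂ_[ℓ]} (hG : IsP1 G) : theta G = dlog G * G := by
  rw [dlog, mul_assoc, mul_comm G⁻¹, hG.mul_inv, mul_one]

/-- The logarithmic derivative has no constant term. -/
lemma coeff_zero_dlog (G : PowerSeries ℂ_[ℓ]) : coeff 0 (dlog G) = 0 := by
  simp [dlog, theta]

/-- The logarithmic derivative of an integral one-unit is integral. -/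
lemma bdBy_dlog {G : PowerSeries ℂ_[ℓ]} (hG : IsP1 G) : BdBy (dlog G) 1 :=
  (intSer ℓ).mul_mem (fun m => by
    rw [coeff_theta, norm_mul]
    exact mul_le_one₀ (IsUltrametricDist.norm_natCast_le_one _ m) (norm_nonneg _) (hG.2 m)) hG.inv.2

/-- If `G` agrees with `1` below degree `m + 1`, so does `dlog G` with `0`. -/
lemma coeff_dlog_eq_zero {G : PowerSeries ℂ_[ℓ]} {m : ℕ}
    (h : ∀ j, j ≠ 0 → j ≤ m → coeff j G = 0) : coeff m (dlog G) = 0 := by
  rw [dlog, coeff_mul]
  refine sum_eq_zero fun x hx => ?_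
  rw [mem_antidiagonal] at hx
  rw [coeff_theta]
  rcases eq_or_ne x.1 0 with h0 | h0
  · simp [h0]
  · rw [h x.1 h0 (by omega), mul_zero, zero_mul]

/-- The coefficients of a product with `1 + c q ^ m`. -/
lemma coeff_mul_single {m : ℕ} (c : ℂ_[ℓ]) (G : PowerSeries ℂ_[ℓ]) (j : ℕ) :
    coeff j ((1 + PowerSeries.C c * X ^ m) * G) =
      coeff j G + if m ≤ j then c * coeff (j - m) G else 0 := by
  rw [add_mul, one_mul, map_add, mul_assoc, coeff_C_mul, coeff_X_pow_mul']
  split_ifs <;> simp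

/-- The coefficients of the logarithmic derivative of `1 + c q ^ m`. -/
lemma coeff_dlog_single {m : ℕ} (hm : m ≠ 0) (c : ℂ_[ℓ]) (M : ℕ) :
    coeff M (dlog (1 + PowerSeries.C c * X ^ m)) =
      if m ∣ M ∧ M ≠ 0 then (m : ℂ_[ℓ]) * (-1) ^ (M / m - 1) * c ^ (M / m) else 0 := by
  set G : PowerSeries ℂ_[ℓ] := 1 + PowerSeries.C c * X ^ m
  set D : PowerSeries ℂ_[ℓ] := PowerSeries.mk fun M =>
    if m ∣ M ∧ M ≠ 0 then (m : ℂ_[ℓ]) * (-1) ^ (M / m - 1) * c ^ (M / m) else 0 with hD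
  have hc0 : constantCoeff G ≠ 0 := by
    simp [G, zero_pow hm]
  suffices h : dlog G = D by rw [h, hD, coeff_mk]
  have hθ : theta G = G * D := by
    ext j
    rw [coeff_theta, coeff_mul_single, hD, coeff_mk, coeff_mk]
    by_cases hj : m ∣ j
    · obtain ⟨i, rfl⟩ := hj
      have hi : coeff (m * i) G = if i = 0 then 1 else if i = 1 then c else 0 := by
        simp only [G, map_add, coeff_one, coeff_C_mul, coeff_X_pow]
        rcases i with _ | _ | i
        · simp [Ne.symm hm]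
        · simp [hm]
        · have h2 : m * (i + 1 + 1) ≠ m := by nlinarith [Nat.pos_of_ne_zero hm]
          simp [hm, h2]
      rw [hi]
      rcases i with _ | _ | i
      · simp [hm]
      · simp [hm, Nat.div_self (Nat.pos_of_ne_zero hm)]
      · have hle : m ≤ m * (i + 1 + 1) := Nat.le_mul_of_pos_right _ (by omega)
        have hsub : m * (i + 1 + 1) - m = m * (i + 1) := by
          rw [Nat.mul_succ m (i + 1), Nat.add_sub_cancel]
        simp [hm, hle, hsub, pow_succ]
        ring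
    · have h1 : coeff j G = 0 := by
        simp only [G, map_add, coeff_one, coeff_C_mul, coeff_X_pow]
        have a : j ≠ 0 := fun h => hj (h ▸ dvd_zero m)
        have b : j ≠ m := fun h => hj (h ▸ dvd_rfl)
        simp [a, b]
      have h2 : m ≤ j → ¬ m ∣ j - m := fun hle h => hj (by
        simpa [Nat.sub_add_cancel hle] using dvd_add h (dvd_refl m))
      rw [h1]
      by_cases hle : m ≤ j
      · simp [hj, h2 hle, hle]
      · simp [hj, hle]
  rw [dlog, hθ, mul_comm G, mul_assoc, PowerSeries.mul_inv_cancel _ hc0, mul_one]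

/-! ### Solutions of `θ g = d g` -/

/-- If `d` has coefficients bounded by `D ≤ 1` and `θ g = d g`, then `|m! g_m| ≤ D`. -/
lemma norm_factorial_mul_coeff_le {d g : PowerSeries ℂ_[ℓ]} (hg : constantCoeff g = 1)
    (hd0 : coeff 0 d = 0) {D : ℝ} (hd : BdBy d D) (hD : D ≤ 1) (h : theta g = d * g)
    {m : ℕ} (hm : m ≠ 0) : ‖(m.factorial : ℂ_[ℓ]) * coeff m g‖ ≤ D := by
  induction m using Nat.strong_induction_on with
  | _ m ih =>
    obtain ⟨k, rfl⟩ : ∃ k, m = k + 1 := ⟨m - 1, by omega⟩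
    have h1 := congrArg (coeff (k + 1)) h
    rw [coeff_theta, coeff_mul] at h1
    rw [Nat.factorial_succ, Nat.cast_mul, mul_comm ((k + 1 : ℕ) : ℂ_[ℓ]), mul_assoc, h1, mul_sum]
    refine IsUltrametricDist.norm_sum_le_of_forall_le_of_nonneg hd.nonneg fun x hx => ?_
    rw [mem_antidiagonal] at hx
    rcases eq_or_ne x.1 0 with h0 | h0
    · rw [h0, hd0, zero_mul, mul_zero, norm_zero]; exact hd.nonneg
    rcases eq_or_ne x.2 0 with h2 | h2
    · rw [h2, coeff_zero_eq_constantCoeff, hg, mul_one, norm_mul]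
      exact (mul_le_of_le_one_left (norm_nonneg _)
        (IsUltrametricDist.norm_natCast_le_one _ _)).trans (hd _)
    · obtain ⟨q, hq⟩ : x.2.factorial ∣ k.factorial := Nat.factorial_dvd_factorial (by omega)
      have := ih x.2 (by omega) h2
      rw [hq, Nat.cast_mul, show (x.2.factorial : ℂ_[ℓ]) * (q : ℂ_[ℓ]) *
        (coeff x.1 d * coeff x.2 g) =
          (q : ℂ_[ℓ]) * coeff x.1 d * ((x.2.factorial : ℂ_[ℓ]) * coeff x.2 g) by ring,
        norm_mul, norm_mul]
      calc ‖(q : ℂ_[ℓ])‖ * ‖coeff x.1 d‖ * ‖(x.2.factorial : ℂ_[ℓ]) * coeff x.2 g‖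
          ≤ 1 * D * 1 := by
            refine mul_le_mul (mul_le_mul (IsUltrametricDist.norm_natCast_le_one _ _) (hd _)
              (norm_nonneg _)
              zero_le_one) (this.trans hD) (norm_nonneg _) (by simpa using hd.nonneg)
        _ = D := by ring

/-- If `dlog Q` is divisible by `ℓ^K`, then `|Q_m| ≤ |ℓ^K| / |m!|`. -/
lemma norm_coeff_le_of_dlog {Q : PowerSeries ℂ_[ℓ]} (hQ : IsP1 Q) {D : ℝ} (hD : D ≤ 1)
    (hd : BdBy (dlog Q) D) {m : ℕ} (hm : m ≠ 0) :
    ‖coeff m Q‖ ≤ D / ‖(m.factorial : ℂ_[ℓ])‖ := by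
  rw [le_div_iff₀ (norm_natCast_cp_pos m.factorial_ne_zero), mul_comm, ← norm_mul]
  exact norm_factorial_mul_coeff_le hQ.1 (coeff_zero_dlog Q) hd hD (theta_eq_dlog_mul hQ) hm

end FermatAgent.Mazur

end
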