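import Fermat.Agent.Mazur.Kummer
import Fermat.Agent.Mazur.SeriesD
import Fermat.Agent.GaloisBasic.Inertia
import Mathlib.Topology.Algebra.UniformRing
import Mathlib.NumberTheory.Padics.Complex
import Mathlib.Analysis.Normed.Field.Approximation

/-!
# An `ℓ`-adic embedding of `ℚ̄` and the action of its decomposition group on `ℂ_ℓ`
-/

set_option autoImplicit false

noncomputable section

open Polynomial Filter Topology
open scoped Classical

namespace FermatAgent.Mazur

open FermatAgent.GaloisBasic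

variable {ℓ : ℕ} [hℓ : Fact ℓ.Prime] (ι : Qbar →+* ℂ_[ℓ])

/-- The embedding fixes natural numbers. -/
lemma padEmb_natCast (n : ℕ) : ι (n : Qbar) = (n : ℂ_[ℓ]) := map_natCast ι n

/-- The valuation ring of the embedding. -/
def padVal : ValuationSubring Qbar where
  carrier := {x | ‖ι x‖ ≤ 1}
  mul_mem' := fun {a b} ha hb => by
    rw [Set.mem_ofPred_eq, map_mul, norm_mul]
    exact mul_le_one₀ ha (norm_nonneg _) hb
  one_mem' := by simp
  add_mem' := fun {a b} ha hb => by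
    rw [Set.mem_ofPred_eq, map_add]
    exact (IsUltrametricDist.norm_add_le_max _ _).trans (max_le ha hb)
  zero_mem' := by simp
  neg_mem' := fun {a} ha => by simpa using ha
  mem_or_inv_mem' x := by
    by_cases h : ‖ι x‖ ≤ 1
    · exact Or.inl h
    · right
      show ‖ι x⁻¹‖ ≤ 1
      rw [map_inv₀, norm_inv]
      exact inv_le_one_of_one_le₀ (le_of_not_ge h)

variable {ι}

/-- The valuation ring consists of the elements of norm at most one. -/
lemma mem_padVal {x : Qbar} : x ∈ padVal ι ↔ ‖ι x‖ ≤ 1 := Iff.rfl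

/-- The maximal ideal consists of the elements of norm less than one. -/
lemma mem_nonunits_padVal {x : Qbar} : x ∈ (padVal ι).nonunits ↔ ‖ι x‖ < 1 := by
  rw [ValuationSubring.mem_nonunits_iff_exists_mem_maximalIdeal]
  constructor
  · rintro ⟨hx, hm⟩
    refine lt_of_le_of_ne hx fun h1 => hm ?_
    have hx0 : x ≠ 0 := fun h0 => by simp [h0] at h1
    refine isUnit_iff_exists_inv.2 ⟨⟨x⁻¹, ?_⟩, Subtype.ext (mul_inv_cancel₀ hx0)⟩
    rw [mem_padVal, map_inv₀, norm_inv, h1, inv_one]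
  · intro h
    refine ⟨h.le, fun hu => ?_⟩
    obtain ⟨⟨y, hy⟩, hxy⟩ := isUnit_iff_exists_inv.1 hu
    have h1 := congrArg (fun z : padVal ι => ‖ι z‖) hxy
    simp only [MulMemClass.coe_mul, map_mul, norm_mul, OneMemClass.coe_one, map_one, norm_one] at h1
    exact absurd h1 (ne_of_lt ((mul_le_of_le_one_right (norm_nonneg _) hy).trans_lt h))

/-- The valuation ring lies over `ℓ`. -/
lemma padVal_liesOverPrime : (padVal ι).LiesOverPrime ℓ := by
  show (ℓ : Qbar) ∈ (padVal ι).nonunits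
  rw [mem_nonunits_padVal, padEmb_natCast, norm_prime_cp]
  exact inv_lt_one_of_one_lt₀ (Nat.one_lt_cast.2 hℓ.out.one_lt)

/-- Decomposition elements are isometries. -/
lemma norm_map_eq {g : GQ} (hg : g ∈ (padVal ι).decompositionSubgroup ℚ) (x : Qbar) :
    ‖ι (g x)‖ = ‖ι x‖ := by
  suffices key : ∀ h ∈ (padVal ι).decompositionSubgroup ℚ, ∀ y, ‖ι y‖ ≤ ‖ι (h y)‖ by
    refine le_antisymm ?_ (key g hg x)
    have := key g⁻¹ (inv_mem hg) (g x)
    rwa [show g⁻¹ (g x) = x from g.symm_apply_apply x] at this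
  intro h hh y
  by_contra! hlt
  rcases eq_or_ne y 0 with rfl | hy
  · simp at hlt
  have hℓ1 : (1 : ℝ) < ℓ := Nat.one_lt_cast.2 hℓ.out.one_lt
  have hv : 0 < ‖ι (h y)‖ := norm_pos_iff.2 (by simpa using hy)
  have hu : 0 < ‖ι y‖ := hv.trans hlt
  obtain ⟨b, hb⟩ := exists_pow_lt_of_lt_one (inv_pos.2 (by linarith : (0 : ℝ) < ℓ))
    ((div_lt_one hu).2 hlt)
  rw [div_pow, div_lt_iff₀ (pow_pos hu b)] at hb
  obtain ⟨a, ha1, ha2⟩ := exists_mem_Ioc_zpow (pow_pos hv b) hℓ1
  set z : Qbar := y ^ b * (ℓ : Qbar) ^ (a + 1) with hz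
  have hzn : ∀ k : GQ, ‖ι (k z)‖ = ‖ι (k y)‖ ^ b * ((ℓ : ℝ) ^ (a + 1))⁻¹ := fun k => by
    rw [hz, map_mul, map_pow, map_zpow₀, map_natCast, map_mul, map_pow, map_zpow₀, padEmb_natCast,
      norm_mul, norm_pow, norm_zpow, norm_prime_cp, inv_zpow]
  have h1 : h z ∈ padVal ι := by
    rw [mem_padVal, hzn, mul_inv_le_iff₀ (zpow_pos (by linarith) _), one_mul]
    exact ha2
  have h2 : z ∈ padVal ι := by
    have := map_mem_of_mem_decomposition (inv_mem hh) h1
    rwa [show h⁻¹ (h z) = z from h.symm_apply_apply z] at this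
  rw [mem_padVal, show z = (1 : GQ) z from rfl, hzn, mul_inv_le_iff₀ (zpow_pos (by linarith) _),
    one_mul, AlgEquiv.one_apply] at h2
  have h3 : (ℓ : ℝ) ^ (a + 1) < ‖ι y‖ ^ b := by
    rw [zpow_add_one₀ (by linarith)]
    calc (ℓ : ℝ) ^ a * ℓ < ‖ι (h y)‖ ^ b * ℓ := by gcongr
      _ ≤ (ℓ : ℝ)⁻¹ * ‖ι y‖ ^ b * ℓ := by gcongr
      _ = ‖ι y‖ ^ b := by field_simp
  linarith

/-- Inertia moves integers by less than one. -/
lemma norm_inertia_sub_lt {g : GQ} (hg : g ∈ (padVal ι).inertiaSubgroupIn ℚ) {x : Qbar}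
    (hx : ‖ι x‖ ≤ 1) : ‖ι (g x) - ι x‖ < 1 := by
  rw [← map_sub, ← mem_nonunits_padVal, ValuationSubring.mem_nonunits_iff]
  exact valuation_map_sub_lt_one hℓ.out padVal_liesOverPrime hg
    ((ValuationSubring.valuation_le_one_iff _ _).2 hx)

/-- Frobenius is congruent to the `ℓ`-th power. -/
lemma norm_frobenius_sub_lt {g : GQ} (hg : (padVal ι).IsFrobeniusAt g ℓ) {x : Qbar}
    (hx : ‖ι x‖ ≤ 1) : ‖ι (g x) - ι x ^ ℓ‖ < 1 := by
  obtain ⟨hd, hF⟩ := hg
  set a : padVal ι := ⟨x, hx⟩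
  have h0 : IsLocalRing.residue (padVal ι)
      ((⟨g, hd⟩ : (padVal ι).decompositionSubgroup ℚ) • a - a ^ ℓ) = 0 := by
    rw [map_sub, IsLocalRing.ResidueField.residue_smul, hF, map_pow, sub_self]
  rw [IsLocalRing.residue_eq_zero_iff] at h0
  rw [← map_pow, ← map_sub, ← mem_nonunits_padVal,
    ValuationSubring.mem_nonunits_iff_exists_mem_maximalIdeal]
  exact ⟨_, h0⟩

/-! ### Density and extension to `ℂ_ℓ` -/

/-- `ℚ̄` is dense in `ℂ_ℓ`. -/
theorem denseRange_padEmb : DenseRange ι := by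
  intro x
  rw [Metric.mem_closure_iff]
  intro ε hε
  obtain ⟨y, hy⟩ := Metric.denseRange_iff.1
    (UniformSpace.Completion.denseRange_coe (α := PadicAlgCl ℓ)) x (ε / 2) (by linarith)
  have hint : IsIntegral ℚ_[ℓ] y := Algebra.IsIntegral.isIntegral y
  set P := minpoly ℚ_[ℓ] y with hP
  set Y : ℂ_[ℓ] := (y : ℂ_[ℓ]) with hY
  set δ : ℝ := (ε / 2 / max ‖Y‖ 1) ^ P.natDegree / (P.natDegree + 1) with hδdef
  have hm : 0 < max ‖Y‖ 1 := lt_max_of_lt_right one_pos
  have hδ : 0 < δ := by positivity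
  obtain ⟨g, gm, gd, gc⟩ := exists_monic_and_natDegree_eq_and_norm_map_algebraMap_coeff_sub_lt
    (K := ℚ) (L := ℚ_[ℓ]) (funext (eq_ratCast (algebraMap ℚ ℚ_[ℓ])) ▸ Padic.denseRange_ratCast ℓ)
    (minpoly.monic hint) hδ
  have hPY : P.aeval Y = 0 := by
    have h2 := aeval_algebraMap_apply ℂ_[ℓ] y P
    rwa [minpoly.aeval, map_zero] at h2
  obtain ⟨b, hb, hlt⟩ := exists_aroots_norm_sub_lt_of_norm_coeff_sub_lt hδ hPY
    (minpoly.monic hint) (gm.map _) ((gm.natDegree_map _).trans gd.symm) gc (IsAlgClosed.splits _)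
  have hmap : (g.map (algebraMap ℚ ℚ_[ℓ])).map (algebraMap ℚ_[ℓ] ℂ_[ℓ])
      = (g.map (algebraMap ℚ Qbar)).map ι := by
    rw [Polynomial.map_map, Polynomial.map_map]
    congr 1
    exact Subsingleton.elim _ _
  rw [aroots_def, hmap, (IsAlgClosed.splits (g.map (algebraMap ℚ Qbar))).roots_map ι] at hb
  obtain ⟨w, -, rfl⟩ := Multiset.mem_map.1 hb
  refine ⟨ι w, ⟨w, rfl⟩, (dist_triangle x Y (ι w)).trans_lt ?_⟩
  rw [dist_eq_norm Y]
  have hd : (P.natDegree : ℝ) ≠ 0 := Nat.cast_ne_zero.2 (minpoly.natDegree_pos hint).ne'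
  have : ((P.natDegree + 1 : ℝ) * δ) ^ (P.natDegree : ℝ)⁻¹ * max ‖Y‖ 1 = ε / 2 := by
    rw [hδdef, mul_div_cancel₀ _ (by positivity), Real.pow_rpow_inv_natCast (by positivity)
      (by exact_mod_cast hd), div_mul_cancel₀ _ hm.ne']
  linarith [hy, hlt, dist_comm x Y]

variable (ι) in
/-- The embedded `ℚ̄` inside `ℂ_ℓ`. -/
def padRange : Qbar ≃+* ι.fieldRange := RingEquiv.ofBijective ι.rangeRestrictField
  ι.rangeRestrictField_bijective

variable (ι) in
/-- The transported action on the embedded `ℚ̄`. -/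
def padAct (g : GQ) : ι.fieldRange →+* ℂ_[ℓ] :=
  ι.comp ((g : Qbar →+* Qbar).comp (padRange ι).symm.toRingHom)

lemma uniformContinuous_padAct {g : GQ} (hg : g ∈ (padVal ι).decompositionSubgroup ℚ) :
    UniformContinuous (padAct ι g) := by
  refine (AddMonoidHomClass.isometry_of_norm _ fun z => ?_).uniformContinuous
  obtain ⟨x, rfl⟩ := (padRange ι).surjective z
  show ‖ι (g ((padRange ι).symm (padRange ι x)))‖ = ‖ι x‖
  rw [RingEquiv.symm_apply_apply, norm_map_eq hg]

lemma denseRange_subtype_padRange : DenseRange (Subfield.subtype ι.fieldRange) := by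
  refine (denseRange_padEmb (ι := ι)).mono ?_
  rintro _ ⟨x, rfl⟩
  exact ⟨⟨ι x, x, rfl⟩, rfl⟩

variable (ι) in
/-- The extension of a decomposition element to `ℂ_ℓ`. -/
def galExt (g : (padVal ι).decompositionSubgroup ℚ) : ℂ_[ℓ] →+* ℂ_[ℓ] :=
  IsDenseInducing.extendRingHom (i := Subfield.subtype ι.fieldRange)
    (f := padAct ι g) isUniformEmbedding_subtype_val.isUniformInducing
    denseRange_subtype_padRange (uniformContinuous_padAct g.2)

variable (g : (padVal ι).decompositionSubgroup ℚ)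

/-- The extension of a decomposition element is continuous. -/
lemma continuous_galExt : Continuous (galExt ι g) :=
  (uniformContinuous_uniformly_extend isUniformEmbedding_subtype_val.isUniformInducing
    denseRange_subtype_padRange (uniformContinuous_padAct g.2)).continuous

/-- The extension restricts to the given automorphism. -/
@[simp] lemma galExt_apply (x : Qbar) : galExt ι g (ι x) = ι ((g : GQ) x) := by
  have h := (isUniformEmbedding_subtype_val
    (p := (· ∈ ι.fieldRange))).isUniformInducing.isDenseInducing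
    (denseRange_subtype_padRange (ι := ι))
  have h2 := h.extend_eq (uniformContinuous_padAct g.2).continuous (padRange ι x)
  simp only [padAct, RingHom.coe_comp, Function.comp_apply, RingEquiv.toRingHom_eq_coe,
    RingHom.coe_coe, RingEquiv.symm_apply_apply] at h2
  exact h2

/-- The extension is isometric. -/
lemma norm_galExt (x : ℂ_[ℓ]) : ‖galExt ι g x‖ = ‖x‖ := by
  refine congrFun
    ((denseRange_padEmb (ι := ι)).equalizer (continuous_galExt g).norm continuous_norm ?_) x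
  funext y
  simp [norm_map_eq g.2]

/-- The extension fixes the `ℓ`-adic numbers. -/
lemma galExt_padic (a : ℚ_[ℓ]) :
    galExt ι g (algebraMap ℚ_[ℓ] ℂ_[ℓ] a) = algebraMap ℚ_[ℓ] ℂ_[ℓ] a := by
  have hc : Continuous (algebraMap ℚ_[ℓ] ℂ_[ℓ]) := continuous_algebraMap ℚ_[ℓ] ℂ_[ℓ]
  refine congrFun ((Padic.denseRange_ratCast ℓ).equalizer ((continuous_galExt g).comp hc) hc ?_) a
  funext q
  simp only [Function.comp_apply, map_ratCast]

/-- A property of algebraic elements of the closed ball, open around each point, holds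
everywhere. -/
lemma forall_ball_of_padEmb (f : ℂ_[ℓ] → ℂ_[ℓ]) (hf : ∀ x : Qbar, ‖ι x‖ ≤ 1 → ‖f (ι x)‖ < 1)
    (hf' : ∀ x y : ℂ_[ℓ], ‖x‖ ≤ 1 → ‖x - y‖ < 1 → ‖f x - f y‖ < 1) {x : ℂ_[ℓ]} (hx : ‖x‖ ≤ 1) :
    ‖f x‖ < 1 := by
  obtain ⟨_, ⟨y, rfl⟩, hy⟩ := Metric.mem_closure_iff.1 (denseRange_padEmb (ι := ι) x) 1 one_pos
  rw [dist_eq_norm] at hy
  have hy1 : ‖ι y‖ ≤ 1 := by
    rw [show ι y = x - (x - ι y) by ring, sub_eq_add_neg]
    refine (IsUltrametricDist.norm_add_le_max _ _).trans ?_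
    rw [norm_neg]
    exact max_le hx hy.le
  rw [← sub_add_cancel (f x) (f (ι y))]
  exact (IsUltrametricDist.norm_add_le_max _ _).trans_lt (max_lt (hf' x _ hx hy) (hf y hy1))

/-- Inertia moves integers of `ℂ_ℓ` by less than one. -/
lemma norm_galExt_sub_lt (hg : (g : GQ) ∈ (padVal ι).inertiaSubgroupIn ℚ) {x : ℂ_[ℓ]}
    (hx : ‖x‖ ≤ 1) : ‖galExt ι g x - x‖ < 1 := by
  refine forall_ball_of_padEmb (ι := ι) (fun x => galExt ι g x - x) (fun y hy => ?_)
    (fun x y _ h => ?_) hx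
  · rw [galExt_apply]
    exact norm_inertia_sub_lt hg hy
  · rw [show galExt ι g x - x - (galExt ι g y - y) = galExt ι g (x - y) + -(x - y) by
      rw [map_sub]; ring]
    refine (IsUltrametricDist.norm_add_le_max _ _).trans_lt ?_
    rw [norm_neg, norm_galExt, max_self]
    exact h

/-- Frobenius is congruent to the `ℓ`-th power on the integers of `ℂ_ℓ`. -/
lemma norm_galExt_sub_pow_lt (hg : (padVal ι).IsFrobeniusAt (g : GQ) ℓ) {x : ℂ_[ℓ]}
    (hx : ‖x‖ ≤ 1) : ‖galExt ι g x - x ^ ℓ‖ < 1 := by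
  refine forall_ball_of_padEmb (ι := ι) (fun x => galExt ι g x - x ^ ℓ) (fun y hy => ?_)
    (fun x y hx h => ?_) hx
  · rw [galExt_apply]
    exact norm_frobenius_sub_lt hg hy
  · rw [show galExt ι g x - x ^ ℓ - (galExt ι g y - y ^ ℓ) =
        galExt ι g (x - y) + -(x ^ ℓ - y ^ ℓ) by
      rw [map_sub]; ring]
    refine (IsUltrametricDist.norm_add_le_max _ _).trans_lt (max_lt (by rwa [norm_galExt]) ?_)
    have hy : ‖y‖ ≤ 1 := by
      rw [show y = x + -(x - y) by ring]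
      exact (IsUltrametricDist.norm_add_le_max _ _).trans (max_le hx (by rw [norm_neg]; exact h.le))
    rw [norm_neg, ← geom_sum₂_mul, norm_mul]
    refine mul_lt_one_of_nonneg_of_lt_one_right ?_ (norm_nonneg _) h
    refine IsUltrametricDist.norm_sum_le_of_forall_le_of_nonneg zero_le_one fun i _ => ?_
    rw [norm_mul, norm_pow, norm_pow]
    exact mul_le_one₀ (pow_le_one₀ (norm_nonneg _) hx) (by positivity)
      (pow_le_one₀ (norm_nonneg _) hy)

end FermatAgent.Mazur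

end
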