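import Fermat.Agent.Curve.ModularDegree

/-!
# The Atkin–Lehner endomorphism of the field generated by the `j(dτ)`

It exchanges `j(dτ)` and `j((N/d)τ)`; on the upper half plane it is `τ ↦ -1/(Nτ)`.
-/

set_option autoImplicit false

noncomputable section

open UpperHalfPlane hiding I
open scoped MatrixGroups

namespace FermatAgent.Mazur

open FermatAgent.Curve

variable (N : ℕ) [NeZero N]

/-- `d ↦ N / d`. -/
def JIdx.flip (d : JIdx N) : JIdx N :=
  ⟨N / (d : ℕ), Nat.mem_divisors.2 ⟨Nat.div_dvd_of_dvd d.dvd, NeZero.ne N⟩⟩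

lemma JIdx.flip_flip (d : JIdx N) : JIdx.flip N (JIdx.flip N d) = d :=
  Subtype.ext (Nat.div_div_self d.dvd (NeZero.ne N))

lemma jGenF_flip (d : JIdx N) (τ : ℍ) :
    jGenF N (JIdx.flip N d) τ = jGenF N d (ModularGroup.S • scalePt N τ) := by
  set e : JIdx N := JIdx.flip N d with he
  have hde : (d : ℕ) * (e : ℕ) = N := Nat.mul_div_cancel' d.dvd
  have key : scalePt (d : ℕ) (ModularGroup.S • scalePt N τ)
      = ModularGroup.S • scalePt (e : ℕ) τ := by
    apply UpperHalfPlane.ext
    rw [coe_scalePt, coe_sl_smul, coe_sl_smul, coe_scalePt, coe_scalePt]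
    have hτ : (τ : ℂ) ≠ 0 := UpperHalfPlane.ne_zero τ
    have hd : ((d : ℕ) : ℂ) ≠ 0 := Nat.cast_ne_zero.2 (NeZero.ne _)
    have he' : ((e : ℕ) : ℂ) ≠ 0 := Nat.cast_ne_zero.2 (NeZero.ne _)
    have hN : ((N : ℕ) : ℂ) = (d : ℕ) * (e : ℕ) := by exact_mod_cast hde.symm
    rw [hN]
    simp [ModularGroup.S]
    field_simp
  rw [jGenF, jGenF, key, jFun_smul]

variable (K : Type*) [Field K] [Algebra K ℂ]

lemma evF_rename_flip (P : JPoly K N) (τ : ℍ) :
    evF K N (MvPolynomial.rename (JIdx.flip N) P) τ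
      = evF K N P (ModularGroup.S • scalePt N τ) := by
  induction P using MvPolynomial.induction_on with
  | C a => simp [evF]
  | add p q hp hq => simp only [map_add, Pi.add_apply, hp, hq]
  | mul_X p i hp =>
    simp only [map_mul, Pi.mul_apply, hp, MvPolynomial.rename_X]
    simp only [evF, MvPolynomial.aeval_X, jGenF_flip]

lemma evL_rename_flip_eq_zero {P : JPoly K N} (h : evL K N P = 0) :
    evL K N (MvPolynomial.rename (JIdx.flip N) P) = 0 := by
  rw [← evF_eq_zero_iff] at h ⊢
  funext τ
  rw [evF_rename_flip, h]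
  rfl

/-- The composite `P ↦ w(P)` into the field. -/
def flipPhi : JPoly K N →ₐ[K] jField K N :=
  (toJField K N).comp (MvPolynomial.rename (JIdx.flip N))

lemma flipPhi_eq_zero_iff (P : JPoly K N) : flipPhi N K P = 0 ↔ evL K N P = 0 := by
  constructor
  · intro h
    have h1 : evL K N (MvPolynomial.rename (JIdx.flip N) P) = 0 := by
      rw [← coe_toJField]
      exact congrArg Subtype.val h
    have h2 := evL_rename_flip_eq_zero N K h1
    rw [MvPolynomial.rename_rename] at h2
    have hid : JIdx.flip N ∘ JIdx.flip N = id := funext (JIdx.flip_flip N)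
    rw [hid, MvPolynomial.rename_id] at h2
    exact h2
  · intro h
    refine Subtype.ext ?_
    show ((toJField K N (MvPolynomial.rename (JIdx.flip N) P) : jField K N) : LaurentSeries K) = _
    rw [coe_toJField, evL_rename_flip_eq_zero N K h]
    rfl

/-- The Atkin–Lehner endomorphism. -/
def alHom : jField K N →ₐ[K] jField K N :=
  jLift (flipPhi N K) (flipPhi_eq_zero_iff N K)

/-- The Atkin–Lehner endomorphism exchanges `j(dτ)` and `j((N / d)τ)`. -/
lemma alHom_toJField (P : JPoly K N) :
    alHom N K (toJField K N P) = toJField K N (MvPolynomial.rename (JIdx.flip N) P) :=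
  jLift_toJField _ _ P

end FermatAgent.Mazur

end
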