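import Fermat.Agent.GaloisBasic.AdicLimit
import Fermat.Agent.Mazur.Kummer

/-!
# Additive characters of a complete discrete valuation ring with values in roots of unity
-/

set_option autoImplicit false

noncomputable section

namespace FermatAgent.Mazur

open FermatAgent.GaloisBasic IsLocalRing

variable {O : Type} [CommRing O]

/-- A limit of a coherent sequence. -/
lemma exists_limit [IsLocalRing O] [IsAdicComplete (maximalIdeal O) O] {π : O}
    (hπ : maximalIdeal O = Ideal.span {π}) (f : ℕ → O) (hf : ∀ n, π ^ n ∣ f (n + 1) - f n) :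
    ∃ L, ∀ n, π ^ n ∣ L - f n := by
  have hmem : ∀ (n : ℕ) (x : O), x ∈ maximalIdeal O ^ n ↔ π ^ n ∣ x := fun n x => by
    rw [hπ, Ideal.span_singleton_pow, Ideal.mem_span_singleton]
  simpa only [hmem] using exists_limit_of_succ (maximalIdeal O) f fun n => (hmem n _).mpr (hf n)

variable [IsDomain O] [IsDiscreteValuationRing O]

/-- An element divisible by every power of a nonunit is zero. -/
lemma eq_zero_of_forall_pow_dvd {a : O} (ha : a ∈ maximalIdeal O) {x : O}
    (h : ∀ r : ℕ, a ^ r ∣ x) : x = 0 := by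
  by_contra hx
  obtain ⟨π, hπ⟩ := IsDiscreteValuationRing.exists_irreducible O
  obtain ⟨n, u, rfl⟩ := IsDiscreteValuationRing.eq_unit_mul_pow_irreducible hx hπ
  have hπa : π ∣ a := by
    rwa [hπ.maximalIdeal_eq, Ideal.mem_span_singleton] at ha
  have h1 : π ^ (n + 1) ∣ ↑u * π ^ n := (pow_dvd_pow_of_dvd hπa _).trans (h (n + 1))
  rw [Units.dvd_mul_left, pow_dvd_pow_iff hπ.ne_zero hπ.not_isUnit] at h1
  omega

/-- The residue characteristic vanishes in the residue field. -/
lemma natCast_eq_zero_residue {ℓ : ℕ} (hℓ : (ℓ : O) ∈ maximalIdeal O) :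
    (ℓ : ResidueField O) = 0 := by
  rw [← map_natCast (residue O)]
  exact (residue_eq_zero_iff _).mpr hℓ

/-- A natural number reduces to `1` iff it is `1` modulo the residue characteristic. -/
lemma natCast_residue_eq_one_iff {ℓ : ℕ} (hℓp : ℓ.Prime) (hℓ : (ℓ : O) ∈ maximalIdeal O) {a : ℕ} :
    (a : ResidueField O) = 1 ↔ a ≡ 1 [MOD ℓ] := by
  have : CharP (ResidueField O) ℓ :=
    (CharP.charP_iff_prime_eq_zero hℓp).mpr (natCast_eq_zero_residue hℓ)
  rw [← Nat.cast_one, CharP.natCast_eq_natCast (ResidueField O) ℓ]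

/-- `ℚ̄` has primitive roots of unity of every order. -/
lemma exists_primitiveRoot_qbar {n : ℕ} (hn : n ≠ 0) : ∃ ζ : Qbar, IsPrimitiveRoot ζ n := by
  have : NeZero (n : Qbar) := ⟨Nat.cast_ne_zero.mpr hn⟩
  exact HasEnoughRootsOfUnity.exists_primitiveRoot Qbar n

/-- Equal powers of a primitive `n`-th root have exponents congruent modulo `n`. -/
lemma modEq_of_pow_eq {n a b : ℕ} (hn : n ≠ 0) {ζ : Qbar} (h : IsPrimitiveRoot ζ n)
    (e : ζ ^ a = ζ ^ b) : a ≡ b [MOD n] := by
  have h' : Units.mk0 ζ (h.ne_zero hn) ^ a = Units.mk0 ζ (h.ne_zero hn) ^ b :=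
    Units.ext (by simpa using e)
  have := pow_eq_pow_iff_modEq.mp h'
  rwa [← orderOf_units, Units.val_mk0, ← h.eq_orderOf] at this

/-- Residual characters separate points. -/
lemma exists_residue_char {ℓ : ℕ} (hℓp : ℓ.Prime) (hℓ : (ℓ : O) ∈ maximalIdeal O)
    {x : ResidueField O} (hx : x ≠ 0) : ∃ ψ : AddChar (ResidueField O) Qbar, ψ x ≠ 1 := by
  have : Fact ℓ.Prime := ⟨hℓp⟩
  have : CharP (ResidueField O) ℓ :=
    (CharP.charP_iff_prime_eq_zero hℓp).mpr (natCast_eq_zero_residue hℓ)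
  let := ZMod.algebra (ResidueField O) ℓ
  obtain ⟨f, hf⟩ : ∃ f : ResidueField O →ₗ[ZMod ℓ] ZMod ℓ, f x ≠ 0 := by
    by_contra h
    exact hx ((Module.forall_dual_apply_eq_zero_iff (ZMod ℓ) x).mp (by simpa using h))
  obtain ⟨ζ, hζ⟩ := exists_primitiveRoot_qbar hℓp.ne_zero
  refine ⟨(AddChar.zmodChar ℓ hζ.pow_eq_one).compAddMonoidHom f.toAddMonoidHom, ?_⟩
  rw [AddChar.compAddMonoidHom_apply]
  change AddChar.zmodChar ℓ hζ.pow_eq_one (f x) ≠ 1
  rw [AddChar.zmodChar_apply]
  intro h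
  exact hf ((ZMod.val_eq_zero (f x)).mp
    (Nat.eq_zero_of_dvd_of_lt ((hζ.pow_eq_one_iff_dvd _).mp h) (f x).val_lt))

/-- A residual character, transported to `s · O`, extends to a character of `O` killing a power
of the residue characteristic. -/
lemma exists_char {ℓ : ℕ} (hℓ : (ℓ : O) ∈ maximalIdeal O) {s : O}
    (hs : s ≠ 0) (ψ : AddChar (ResidueField O) Qbar) :
    ∃ (R : ℕ) (Λ : AddChar O Qbar),
      (∀ x, Λ ((ℓ : O) ^ R * x) = 1) ∧ ∀ x, Λ (s * x) = ψ (residue O x) := by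
  let div : DivisibleBy (Additive Qbarˣ) ℤ :=
    AddCommGroup.divisibleByIntOfSMulTopEqTop _ fun {n} hn => by
      rw [eq_top_iff]
      intro u _
      obtain ⟨z, hz⟩ : ∃ z : Qbarˣ, z ^ n = u.toMul := by
        have key : ∀ m : ℕ, m ≠ 0 → ∀ v : Qbarˣ, ∃ z : Qbarˣ, z ^ m = v := fun m hm v => by
          obtain ⟨z, hz⟩ := IsAlgClosed.exists_pow_nat_eq (v : Qbar) (Nat.pos_of_ne_zero hm)
          have hz0 : z ≠ 0 := fun h => v.ne_zero (by rw [← hz, h, zero_pow hm])
          exact ⟨Units.mk0 z hz0, Units.ext (by simpa using hz)⟩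
        obtain ⟨z, hz⟩ := key n.natAbs (Int.natAbs_ne_zero.mpr hn) u.toMul
        rcases Int.natAbs_eq n with e | e
        · exact ⟨z, by rw [e, zpow_natCast, hz]⟩
        · exact ⟨z⁻¹, by rw [e, zpow_neg, inv_zpow, inv_inv, zpow_natCast, hz]⟩
      refine ⟨Additive.ofMul z, trivial, ?_⟩
      exact congrArg Additive.ofMul hz
  let i : O →+ O := AddMonoidHom.mulLeft s
  have hi : Function.Injective i := fun a b h => mul_left_cancel₀ hs h
  let g₀ : O →+ Additive Qbarˣ :=
    { toFun := fun x => Additive.ofMul (Units.mk0 (ψ (residue O x)) (ψ.val_isUnit _).ne_zero)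
      map_zero' := by
        ext
        simp
      map_add' := fun x y => by
        ext
        simp [map_add, AddChar.map_add_eq_mul] }
  obtain ⟨g, hg⟩ :=
    (Module.Baer.of_divisible (Additive Qbarˣ)).extension_property_addMonoidHom i hi g₀
  let Λ : AddChar O Qbar :=
    { toFun := fun x => (((g x).toMul : Qbarˣ) : Qbar)
      map_zero_eq_one' := by simp
      map_add_eq_mul' := fun x y => by simp }
  have hΛ : ∀ x, Λ (s * x) = ψ (residue O x) := fun x => by
    have := DFunLike.congr_fun hg x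
    change (((g (i x)).toMul : Qbarˣ) : Qbar) = _
    rw [show g (i x) = g₀ x from this]
    rfl
  obtain ⟨π, hπ⟩ := IsDiscreteValuationRing.exists_irreducible O
  obtain ⟨n, u, hu⟩ := IsDiscreteValuationRing.eq_unit_mul_pow_irreducible hs hπ
  refine ⟨n + 1, Λ, fun x => ?_, hΛ⟩
  have hπℓ : π ∣ (ℓ : O) := by
    rwa [hπ.maximalIdeal_eq, Ideal.mem_span_singleton] at hℓ
  obtain ⟨t, ht⟩ := (pow_dvd_pow_of_dvd hπℓ (n + 1)).trans (dvd_mul_right _ x)
  have hts : (ℓ : O) ^ (n + 1) * x = s * (π * (↑u⁻¹ * t)) := by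
    rw [ht, hu, pow_succ]
    linear_combination (π ^ n * π * t) * (Units.mul_inv u).symm
  rw [hts, hΛ, map_mul, (residue_eq_zero_iff π).mpr (by
    rw [hπ.maximalIdeal_eq]; exact Ideal.mem_span_singleton_self π), zero_mul]
  exact ψ.map_zero_eq_one

end FermatAgent.Mazur

end
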