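import Fermat.Agent.Curve.ModularGenus

/-!
# Points of `X₀(N)` by their coordinates `(j, j_N)`
-/

set_option autoImplicit false

noncomputable section

open AlgebraicCurve (Place)

namespace FermatAgent.Mazur

open FermatAgent.Curve (jField jElt toJField JIdx OrdGE)

variable {L : Type*} [Field L] {N : ℕ} [NeZero N]

/-- At the place `P` of `X₀(N)` one has `j = a` and `j_N = b`, where `j_N(τ) = j(Nτ)`. -/
structure HasCoords (P : Place L (jField L N)) (a b : L) : Prop where
  ordGE_j : OrdGE P 1 (jElt L N - algebraMap L (jField L N) a)
  ordGE_jN : OrdGE P 1 (toJField L N (MvPolynomial.X (JIdx.top N)) - algebraMap L (jField L N) b)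

end FermatAgent.Mazur

end
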