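import Fermat.Agent.Mazur.DeltaRatio
import Fermat.Agent.Curve.ModularGenus
import Fermat.Agent.Mazur.Coords

/-!
# The place of a point of the upper half plane
-/

set_option autoImplicit false

noncomputable section

open UpperHalfPlane hiding I
open scoped MatrixGroups

namespace FermatAgent.Mazur

open FermatAgent.Curve
open AlgebraicCurve (Place)
open CongruenceSubgroup (Gamma0)

variable {L : Type*} [Field L] [CharZero L] [IsAlgClosed L] [Algebra L ℂ] (N : ℕ) [NeZero N]

omit [IsAlgClosed L] in
/-- The values at `τ₀` of `j` and `j(Nτ)`, when they are in `L`, are the values at some place. -/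
theorem exists_place_of_point (τ₀ : ℍ) {a b : L} (ha : algebraMap L ℂ a = Curve.jFun τ₀)
    (hb : algebraMap L ℂ b = Curve.jFun (mulPt N τ₀)) :
    ∃ P : Place L (jField L N), HasCoords P a b := by
  classical
  set hc := genCoord_discCoord N τ₀
  set x : SL(2, ℤ) ⧸ Gamma0 N := QuotientGroup.mk 1
  set σ : jField L N →ₐ[L] LaurentSeries ℂ := cosetEmb hc x
  have hpos : ∀ (d : JIdx N) (c : L), algebraMap L ℂ c = jGenF N d τ₀ →
      ∀ k : ℤ, k ≤ 0 →
        (σ (toJField L N (MvPolynomial.X d) - algebraMap L (jField L N) c)).coeff k = 0 := by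
    intro d c hdc k hk
    have hf := hasLoc_cosetEmb (K := L) hc x (MvPolynomial.X d - MvPolynomial.C c)
    have hval : ∀ τ, evF L N (MvPolynomial.X d - MvPolynomial.C c) ((x.out)⁻¹ • τ)
        = jGenF N d ((1 : SL(2, ℤ)) • τ) - algebraMap L ℂ c := fun τ => by
      rw [evF_out, inv_one]
      simp [evF]
    have hg : MDifferentiable (modelWithCornersSelf ℂ ℂ) (modelWithCornersSelf ℂ ℂ)
        (fun τ => jGenF N d ((1 : SL(2, ℤ)) • τ) - algebraMap L ℂ c) :=
      (mdiff_jGenF_smul N d 1).sub mdifferentiable_const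
    have huniq := hf.unique hc.coord ((hasLoc_discCoord τ₀ hg).congr_fun hval)
    have heq : toJField L N (MvPolynomial.X d) - algebraMap L (jField L N) c
        = toJField L N (MvPolynomial.X d - MvPolynomial.C c) := by
      rw [map_sub, ← MvPolynomial.algebraMap_eq, AlgHom.commutes]
    rw [heq, show σ = cosetEmb hc x from rfl, huniq]
    rcases hk.lt_or_eq with hk | rfl
    · exact ModularCurve.ofPowerSeries_coeff_of_neg _ hk
    · rw [show (0 : ℤ) = ((0 : ℕ) : ℤ) from rfl, HahnSeries.ofPowerSeries_apply_coeff,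
        coeff_zero_taylorPS, discFun_zero, one_smul, hdc, sub_self]
  have horder : ∀ (d : JIdx N) (c : L), algebraMap L ℂ c = jGenF N d τ₀ →
      toJField L N (MvPolynomial.X d) - algebraMap L (jField L N) c ≠ 0 →
      0 < (σ (toJField L N (MvPolynomial.X d) - algebraMap L (jField L N) c)).order := by
    intro d c hdc hne
    have h0 : σ (toJField L N (MvPolynomial.X d) - algebraMap L (jField L N) c) ≠ 0 := fun h =>
      hne (σ.toRingHom.injective (by rw [map_zero]; exact h))
    by_contra hle
    exact HahnSeries.leadingCoeff_ne_zero.2 h0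
      (by rw [HahnSeries.leadingCoeff_eq]; exact hpos d c hdc _ (not_lt.1 hle))
  have ha' : algebraMap L ℂ a = jGenF N (JIdx.one N) τ₀ := by
    rw [ha, jGenF]
    congr 1
    ext
    simp [coe_scalePt, JIdx.one]
  have hb' : algebraMap L ℂ b = jGenF N (JIdx.top N) τ₀ := by
    rw [hb, jGenF]
    congr 1
    ext
    simp [coe_scalePt, JIdx.top]
  have hone : toJField L N (MvPolynomial.X (JIdx.one N)) - algebraMap L (jField L N) a ≠ 0 :=
    fun h => transcendental_jElt (K := L) (N := N) (by
      rw [jElt, sub_eq_zero.1 h]; exact isAlgebraic_algebraMap a)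
  refine ⟨centre σ (horder _ a ha' hone), ?_, ?_⟩
  · exact Or.inr (centre_ord_pos σ _)
  · by_cases hz : toJField L N (MvPolynomial.X (JIdx.top N)) - algebraMap L (jField L N) b = 0
    · exact Or.inl hz
    · right
      obtain ⟨t, -, ht⟩ := exists_ord_eq_one (v := centre σ (horder _ a ha' hone))
      have h1 := order_apply σ (horder _ a ha' hone) ht
        (toJField L N (MvPolynomial.X (JIdx.top N)) - algebraMap L (jField L N) b)
      have h2 := order_uniformizer_pos σ (horder _ a ha' hone) ht
      have h3 := horder _ b hb' hz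
      rw [h1] at h3
      have := pos_of_mul_pos_right h3 h2.le
      omega

omit [IsAlgClosed L] in
/-- Exchanging the values by the Atkin–Lehner map. -/
theorem exists_place_flip {a b : L}
    (τ₀ : ℍ) (ha₀ : algebraMap L ℂ a = Curve.jFun τ₀)
    (hb₀ : algebraMap L ℂ b = Curve.jFun (mulPt N τ₀)) :
    ∃ P' : Place L (jField L N), HasCoords P' b a := by
  refine exists_place_of_point N (ModularGroup.S • scalePt N τ₀) ?_ ?_
  · rw [hb₀, jFun_smul]
    congr 1
    ext
    simp [coe_scalePt]
  · have h : mulPt N (ModularGroup.S • scalePt N τ₀) = ModularGroup.S • τ₀ := by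
      ext
      rw [coe_mulPt, coe_sl_smul, coe_sl_smul, coe_scalePt]
      have hN : (N : ℂ) ≠ 0 := NeZero.ne _
      have hτ := UpperHalfPlane.ne_zero τ₀
      simp [ModularGroup.S]
      field_simp
    rw [ha₀, h, jFun_smul]

end FermatAgent.Mazur

end
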