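import Fermat.Agent.Mazur.DescentLocal

/-!
# The Eisenstein descent

Every class in the sense of `DescentSetting.IsCls` is torsion in `H¹(ρ)`. A linear functional `Θ`
on classes vanishes only on classes which are divisible by the uniformiser modulo coboundaries, so
the classes are multiples of a single one with `Θ ≠ 0`; as `ρ` has no fixed vector, that one is
torsion.
-/

set_option autoImplicit false

noncomputable section

open scoped Pointwise Matrix

namespace FermatAgent.Mazur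

open FermatAgent.GaloisBasic IsLocalRing

lemma rootsOfUnity_commute {n : ℕ} [NeZero n] {ζ : Qbar} (hζ : ζ ^ n = 1) (σ τ : GQ) :
    σ (τ ζ) = τ (σ ζ) := by
  obtain ⟨ξ, hξ⟩ := exists_primitiveRoot_qbar (NeZero.ne n)
  obtain ⟨a, -, ha⟩ :=
    hξ.eq_pow_of_pow_eq_one (ξ := σ ξ) (by rw [← map_pow, hξ.pow_eq_one, map_one])
  obtain ⟨b, -, hb⟩ :=
    hξ.eq_pow_of_pow_eq_one (ξ := τ ξ) (by rw [← map_pow, hξ.pow_eq_one, map_one])
  obtain ⟨c, -, hc⟩ := hξ.eq_pow_of_pow_eq_one hζ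
  rw [← hc]
  simp only [map_pow, ← ha, ← hb, ← pow_mul]
  congr 1
  ring

lemma sq_ne_neg_one_of_fixed {i : Qbar} (hi : i ^ 2 = -1) : ∃ σ : GQ, σ i ≠ i := by
  by_contra h
  simp only [ne_eq, not_exists, not_not] at h
  obtain ⟨r, hr⟩ := IntermediateField.mem_bot.mp
    (mem_of_forall_fixing (L := ⊥) fun σ _ => h σ)
  rw [eq_ratCast] at hr
  rw [← hr, ← Rat.cast_pow, ← Rat.cast_one, ← Rat.cast_neg, Rat.cast_inj] at hi
  nlinarith [sq_nonneg r]

lemma exists_moving_root {ℓ : ℕ} (hℓ : ℓ.Prime) (h2 : ℓ ≠ 2) :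
    ∃ (ζ : Qbar) (σ : GQ), ζ ^ ℓ = 1 ∧ σ ζ ≠ ζ := by
  obtain ⟨ζ, hζ⟩ := exists_primitiveRoot_qbar hℓ.ne_zero
  by_contra h
  simp only [ne_eq, not_exists, not_and, not_not] at h
  obtain ⟨r, hr⟩ := IntermediateField.mem_bot.mp
    (mem_of_forall_fixing (L := ⊥) fun σ _ => h ζ σ hζ.pow_eq_one)
  rw [eq_ratCast] at hr
  have hp := hζ.pow_eq_one
  rw [← hr, ← Rat.cast_pow, ← Rat.cast_one, Rat.cast_inj] at hp
  have hr1 : r = 1 := by
    have hodd := hℓ.odd_of_ne_two h2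
    exact hodd.pow_injective (by simpa using hp)
  exact hζ.ne_one hℓ.one_lt (by rw [← hr, hr1, Rat.cast_one])

namespace DescentSetting

variable {O : Type} [CommRing O] [IsDomain O] [IsDiscreteValuationRing O] (S : DescentSetting O)

lemma exists_σ₁ : ∃ σ : GQ,
    if S.ℓ = 2 then (∀ i : Qbar, i ^ 2 = -1 → σ i ≠ i) else S.χ σ ≠ 1 := by
  split_ifs with h2
  · obtain ⟨i, hi⟩ := IsAlgClosed.exists_pow_nat_eq (-1 : Qbar) two_pos
    obtain ⟨σ, hσ⟩ := sq_ne_neg_one_of_fixed hi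
    refine ⟨σ, fun j hj hfix => ?_⟩
    rcases sq_eq_sq_iff_eq_or_eq_neg.mp (hj.trans hi.symm) with rfl | rfl
    · exact hσ hfix
    · exact hσ (by rwa [map_neg, neg_inj] at hfix)
  · obtain ⟨ζ, σ, hζ, hσ⟩ := exists_moving_root S.ℓ_prime h2
    refine ⟨σ, fun h => hσ ?_⟩
    obtain ⟨a, hres, ha⟩ := S.exists_χ_eq_natCast σ
    rw [hres, natCast_residue_eq_one_iff S.ℓ_prime S.ℓ_mem] at h
    have h' : a % S.ℓ = 1 % S.ℓ := h
    rw [ha ζ hζ, pow_eq_pow_mod a hζ, h', ← pow_eq_pow_mod 1 hζ, pow_one]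

/-- The auxiliary element for the global normalisation. -/
def σ₁ : GQ := S.exists_σ₁.choose

lemma σ₁_odd (h : S.ℓ ≠ 2) : S.χ S.σ₁ ≠ 1 := by
  have := S.exists_σ₁.choose_spec
  rwa [if_neg h] at this

lemma σ₁_two (h : S.ℓ = 2) {i : Qbar} (hi : i ^ 2 = -1) : S.σ₁ i ≠ i := by
  have := S.exists_σ₁.choose_spec
  rw [if_pos h] at this
  exact this i hi

/-- The residual second coordinate. -/
def dbar (c : GQ → Fin 2 → O) (σ : GQ) : ResidueField O := residue O (c σ 1)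

/-- The residual extension class. -/
def η (σ : GQ) : ResidueField O := residue O (S.ρ σ 0 1)

/-- The normalising parameter. -/
def zc (c : GQ → Fin 2 → O) : ResidueField O :=
  if S.ℓ = 2 then residue O (c S.σN 0) / S.η S.σN else dbar c S.σ₁ / (S.χ S.σ₁ - 1)

/-- The linear functional detecting classes divisible by the uniformiser. -/
def Θ (c : GQ → Fin 2 → O) : ResidueField O :=
  if S.ℓ = 2 then dbar c S.σ₁ else residue O (c S.σN 0) - S.η S.σN * S.zc c

lemma Θ_sub_smul (c t : GQ → Fin 2 → O) (r : O) :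
    S.Θ (fun σ => c σ - r • t σ) = S.Θ c - residue O r * S.Θ t := by
  unfold Θ zc dbar
  split_ifs with h <;> simp [map_sub, map_mul, sub_div, mul_sub, mul_div_assoc]
  all_goals ring

variable {S} {c : GQ → Fin 2 → O}

lemma IsCls.dbar_mul (hc : S.IsCls c) (σ τ : GQ) :
    dbar c (σ * τ) = dbar c σ + S.χ σ * dbar c τ := by
  rw [dbar, hc.cocycle, Pi.add_apply, mulVec1, map_add, map_add, map_mul, map_mul, S.res10,
    zero_mul, zero_add]
  rfl

lemma IsCls.dbar_conj (hc : S.IsCls c) {g σ : GQ} (hσ : S.χ σ = 1) :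
    dbar c (g * σ * g⁻¹) = S.χ g * dbar c σ := by
  have h0 : dbar c g + S.χ g * dbar c g⁻¹ = 0 := by
    rw [← hc.dbar_mul, mul_inv_cancel, dbar, hc.map_one, Pi.zero_apply, _root_.map_zero]
  rw [mul_assoc, hc.dbar_mul, hc.dbar_mul, hσ, one_mul, mul_add, ← add_assoc, add_right_comm, h0,
    zero_add]

lemma IsCls.dbar_eq_zero [CharZero O] (hc : S.IsCls c) {q : ℕ} (hq : q.Prime) (hne : q ≠ S.ℓ)
    {A : ValuationSubring Qbar} (hA : A.LiesOverPrime q) {σ : GQ}
    (hσ : σ ∈ A.inertiaSubgroupIn ℚ) : dbar c σ = 0 := by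
  by_cases hqN : q = S.N
  · subst hqN
    obtain ⟨g, rfl⟩ := exists_smul_eq hq S.AN_over hA
    have hσ' : g⁻¹ * σ * g ∈ S.AN.inertiaSubgroupIn ℚ := by
      have := conj_mem_inertiaSubgroupIn hq hA hσ g⁻¹
      rwa [inv_smul_smul, inv_inv] at this
    have h1 := hc.dbar_conj (g := g) (S.χ_eq_one_of_mem_inertia hq hne S.AN_over hσ')
    obtain ⟨r, hr⟩ := hc.exists_eq_on_AN
    rw [show g * (g⁻¹ * σ * g) * g⁻¹ = σ by group] at h1
    rw [h1, dbar, (hr _ hσ').2, _root_.map_zero, mul_zero]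
  · rw [dbar, hc.unramified q hq hne hqN A hA σ hσ, Pi.zero_apply, _root_.map_zero]

lemma F_const_ne_zero : (S.ρ S.F 0 0 ^ 2 - 1) * (S.ρ S.F 0 0 - 1) ≠ 0 := by
  refine mul_ne_zero (sub_ne_zero.mpr S.F_sq_ne) (sub_ne_zero.mpr fun h => S.F_sq_ne ?_)
  rw [h, one_pow]

lemma IsCls.exists_radicand [CharZero O] (hc : S.IsCls c) (ψ : AddChar (ResidueField O) Qbar) :
    ∃ b : Qbar, (b ^ S.ℓ = 1 ∨ b ^ S.ℓ = -1) ∧ ∀ σ, σ b = ψ (dbar c σ) * b := by
  obtain ⟨U, hU, h⟩ := hc.cts 1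
  refine exists_root_of_isUnitKummer S.ℓ_prime (fun σ => ψ (dbar c σ)) ?_ ?_ U hU ?_ ?_
  · intro σ τ
    rw [hc.dbar_mul, AddChar.map_add_eq_mul, S.residue_char_smul]
  · intro σ
    rw [← AddChar.map_nsmul_eq_pow, nsmul_eq_mul, natCast_eq_zero_residue S.ℓ_mem, zero_mul,
      AddChar.map_zero_eq_one]
  · intro σ hσ
    have : dbar c σ = 0 := (residue_eq_zero_iff _).mpr
      (Ideal.mem_of_dvd _ (by simpa using h σ hσ 1) S.ℓ_mem)
    rw [this, AddChar.map_zero_eq_one]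
  · intro q hq
    by_cases hqℓ : q = S.ℓ
    · subst hqℓ
      obtain ⟨R, Λ, hΛ, hext⟩ := exists_char S.ℓ_mem F_const_ne_zero ψ
      exact ⟨S.Aℓ, S.Aℓ_over,
        (hc.isUnitKummer (R := R) (Λ := Λ) hΛ).congr fun σ _ => hext _⟩
    · obtain ⟨A, hA⟩ := exists_liesOverPrime hq
      exact ⟨A, hA, 1, _root_.map_one _, fun σ hσ => by
        show σ 1 = ψ (dbar c σ) * 1
        rw [hc.dbar_eq_zero hq hqℓ hA hσ, AddChar.map_zero_eq_one, _root_.map_one, mul_one]⟩

lemma IsCls.dbar_eq [CharZero O] (hc : S.IsCls c) (hΘ : S.Θ c = 0) (σ : GQ) :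
    dbar c σ = (S.χ σ - 1) * S.zc c := by
  by_cases h2 : S.ℓ = 2
  · have hχ : S.χ σ = 1 := S.χ_eq_one_of_fix fun ζ hζ => by
      rw [h2] at hζ
      rcases sq_eq_one_iff.mp hζ with rfl | rfl <;> simp
    rw [hχ, sub_self, zero_mul]
    by_contra hne
    obtain ⟨ψ, hψ⟩ := exists_residue_char S.ℓ_prime S.ℓ_mem hne
    obtain ⟨b, hb, hσb⟩ := hc.exists_radicand ψ
    rw [h2] at hb
    rw [Θ, if_pos h2] at hΘ
    have h1 : S.σ₁ b = b := by rw [hσb, hΘ, AddChar.map_zero_eq_one, one_mul]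
    rcases hb with hb | hb
    · have hb0 : b ≠ 0 := fun h => by simp [h] at hb
      have hfix : σ b = b := by rcases sq_eq_one_iff.mp hb with rfl | rfl <;> simp
      exact hψ (mul_right_cancel₀ hb0 (by rw [← hσb, hfix, one_mul]))
    · exact S.σ₁_two h2 hb h1
  · have hne := sub_ne_zero.mpr (S.σ₁_odd h2)
    rw [zc, if_neg h2, mul_div_assoc', eq_div_iff hne, ← sub_eq_zero]
    by_contra hne'
    obtain ⟨ψ, hψ⟩ := exists_residue_char S.ℓ_prime S.ℓ_mem hne'
    apply hψ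
    obtain ⟨b₀, hb₀, hσb₀⟩ := hc.exists_radicand ψ
    obtain ⟨b, hb, hσb⟩ : ∃ b : Qbar, b ^ S.ℓ = 1 ∧ ∀ τ, τ b = ψ (dbar c τ) * b := by
      rcases hb₀ with h | h
      · exact ⟨b₀, h, hσb₀⟩
      · exact ⟨-b₀, by rw [(S.ℓ_prime.odd_of_ne_two h2).neg_pow, h, neg_neg],
          fun τ => by rw [map_neg, hσb₀, mul_neg]⟩
    have : NeZero S.ℓ := ⟨S.ℓ_prime.ne_zero⟩
    have hb0 : b ≠ 0 := fun h => by simp [h, zero_pow S.ℓ_prime.ne_zero] at hb
    have key : ∀ τ τ' : GQ,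
        τ' (τ b) = ψ (S.χ τ' * dbar c τ) * ψ (dbar c τ') * b := fun τ τ' => by
      rw [hσb τ, map_mul, S.residue_char_smul, hσb τ', mul_assoc]
    have hcomm : ψ (S.χ σ * dbar c S.σ₁) * ψ (dbar c σ)
        = ψ (S.χ S.σ₁ * dbar c σ) * ψ (dbar c S.σ₁) :=
      mul_right_cancel₀ hb0 (by rw [← key, ← key, rootsOfUnity_commute hb])
    rw [← AddChar.map_add_eq_mul, ← AddChar.map_add_eq_mul] at hcomm
    rw [show dbar c σ * (S.χ S.σ₁ - 1) - (S.χ σ - 1) * dbar c S.σ₁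
        = (S.χ S.σ₁ * dbar c σ + dbar c S.σ₁) - (S.χ σ * dbar c S.σ₁ + dbar c σ) by ring,
      AddChar.map_sub_eq_div, hcomm, div_self (ψ.val_isUnit _).ne_zero]

lemma η_mul (σ τ : GQ) : S.η (σ * τ) = S.η τ + S.η σ * S.χ τ := by
  rw [η, S.ρ_mul_apply, map_add, map_mul, map_mul, S.res00, one_mul]
  rfl

lemma η_σN_ne_zero : S.η S.σN ≠ 0 := S.σN_ne

/-- If `Θ` vanishes, the residual class is the coboundary of `(0, zc c)`. -/
lemma IsCls.residual_eq_zero [CharZero O] (hc : S.IsCls c) (hΘ : S.Θ c = 0) (σ : GQ) :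
    residue O (c σ 0) = S.η σ * S.zc c := by
  let h : GQ → ResidueField O := fun σ => residue O (c σ 0) - S.η σ * S.zc c
  have hadd : ∀ σ τ, h (σ * τ) = h σ + h τ := fun σ τ => by
    simp only [h]
    rw [hc.cocycle, Pi.add_apply, mulVec0, map_add, map_add, map_mul, map_mul, S.res00, one_mul,
      η_mul]
    have := hc.dbar_eq hΘ τ
    rw [dbar] at this
    rw [this]
    simp only [η]
    ring
  have h1 : h 1 = 0 := by
    have := hadd 1 1
    rwa [one_mul, left_eq_add] at this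
  have hconj : ∀ g τ, h (g * τ * g⁻¹) = h τ := fun g τ => by
    rw [hadd, hadd, add_comm (h g), add_assoc, ← hadd, mul_inv_cancel, h1, add_zero]
  have hσN : h S.σN = 0 := by
    simp only [h]
    by_cases h2 : S.ℓ = 2
    · rw [zc, if_pos h2, mul_div_cancel₀ _ η_σN_ne_zero, sub_self]
    · rw [Θ, if_neg h2] at hΘ
      exact hΘ
  let f : GQ →* Multiplicative (ResidueField O) :=
    { toFun := fun σ => Multiplicative.ofAdd (h σ)
      map_one' := by simp [h1]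
      map_mul' := fun σ τ => by simp [hadd] }
  have hf : f = 1 := by
    refine monoidHom_eq_one_of_unramified f ?_ fun q hq A hA τ hτ => ?_
    · obtain ⟨U, hU, hUc⟩ := hc.cts 1
      obtain ⟨V, hV, hVc⟩ := S.continuous 1
      refine Subgroup.isOpen_mono (H₁ := U ⊓ V) (fun τ hτ => ?_) (hU.inter hV)
      have hz : ∀ x : O, (S.ℓ : O) ^ 1 ∣ x → residue O x = 0 := fun x hx =>
        (residue_eq_zero_iff _).mpr (Ideal.mem_of_dvd _ (by simpa using hx) S.ℓ_mem)
      have e1 := hz _ (hUc τ hτ.1 0)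
      have e2 : S.η τ = 0 := hz _ (by simpa using hVc τ hτ.2 0 1)
      show Multiplicative.ofAdd (h τ) = 1
      simp [h, e1, e2]
    · show Multiplicative.ofAdd (h τ) = 1
      rw [ofAdd_eq_one]
      by_cases hqℓ : q = S.ℓ
      · subst hqℓ
        obtain ⟨g, rfl⟩ := exists_smul_eq hq S.Aℓ_over hA
        have hτ' : g⁻¹ * τ * g ∈ S.Aℓ.inertiaSubgroupIn ℚ := by
          have := conj_mem_inertiaSubgroupIn hq hA hτ g⁻¹
          rwa [inv_smul_smul, inv_inv] at this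
        rw [show τ = g * (g⁻¹ * τ * g) * g⁻¹ by group, hconj]
        simp only [h, η]
        rw [hc.ord _ hτ', S.ord01 _ (inertiaSubgroupIn_le_decompositionSubgroup _ hτ'),
          _root_.map_zero, zero_mul, sub_zero]
      · by_cases hqN : q = S.N
        · subst hqN
          obtain ⟨g, rfl⟩ := exists_smul_eq hq S.AN_over hA
          have hτ' : g⁻¹ * τ * g ∈ S.AN.inertiaSubgroupIn ℚ := by
            have := conj_mem_inertiaSubgroupIn hq hA hτ g⁻¹
            rwa [inv_smul_smul, inv_inv] at this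
          rw [show τ = g * (g⁻¹ * τ * g) * g⁻¹ by group, hconj]
          obtain ⟨r, hr⟩ := hc.exists_eq_on_AN
          simp only [h, η] at hσN ⊢
          rw [(hr _ S.σN_mem).1, u, map_mul] at hσN
          have hr' : residue O r = S.zc c := by
            refine mul_right_cancel₀ (η_σN_ne_zero (S := S)) ?_
            rw [η]
            linear_combination hσN
          rw [(hr _ hτ').1, u, map_mul, hr', mul_comm, sub_self]
        · simp only [h, η]
          rw [hc.unramified q hq hqℓ hqN A hA τ hτ, S.unramified q hq hqℓ hqN A hA τ hτ,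
            Pi.zero_apply, _root_.map_zero, Matrix.one_apply_ne (by decide), _root_.map_zero,
            zero_mul, sub_zero]
  have := DFunLike.congr_fun hf σ
  change Multiplicative.ofAdd (h σ) = 1 at this
  rwa [ofAdd_eq_one, sub_eq_zero] at this

/-- A class with `Θ = 0` is divisible by the uniformiser up to a coboundary. -/
lemma IsCls.exists_eq_add_smul [CharZero O] (hc : S.IsCls c) (hΘ : S.Θ c = 0) {π : O}
    (hπ : maximalIdeal O = Ideal.span {π}) :
    ∃ (x : Fin 2 → O) (c' : GQ → Fin 2 → O), S.IsCls c' ∧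
      ∀ σ, c σ = S.cob x σ + π • c' σ := by
  obtain ⟨Z, hZ⟩ := residue_surjective (S.zc c)
  set x : Fin 2 → O := ![0, Z] with hx
  have hd : S.IsCls (fun σ => c σ - S.cob x σ) := hc.sub (isCls_cob x)
  have hdvd : ∀ σ i, π ∣ c σ i - S.cob x σ i := fun σ i => by
    rw [← Ideal.mem_span_singleton, ← hπ, ← residue_eq_zero_iff, map_sub, sub_eq_zero]
    fin_cases i
    · simp [cob_apply0, hx, hZ, hc.residual_eq_zero hΘ σ, η]
    · have := hc.dbar_eq hΘ σ
      rw [dbar] at this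
      simp [cob_apply1, hx, hZ, this, χ]
  choose c' hc' using hdvd
  have hπ0 : π ≠ 0 := fun h => IsDiscreteValuationRing.not_a_field O (by rw [hπ, h]; simp)
  have hℓπ : π ∣ (S.ℓ : O) ^ 1 := by
    rw [pow_one, ← Ideal.mem_span_singleton, ← hπ]
    exact S.ℓ_mem
  have hcd : ∀ σ, π • c' σ = c σ - S.cob x σ := fun σ => funext fun i => (hc' σ i).symm
  exact ⟨x, c', IsCls.of_smul hπ0 hℓπ (by simpa only [hcd] using hd),
    fun σ => by rw [hcd, add_sub_cancel]⟩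

variable (S)

/-- A coboundary divisible by `π ^ (j + 1)` whose quotient has `Θ = 0` can be corrected to one
divisible by `π ^ (j + 2)`. -/
lemma exists_dvd_cob_succ [CharZero O] {π : O} (hπ : maximalIdeal O = Ideal.span {π}) {j : ℕ}
    {v : Fin 2 → O} (hv : ∀ σ i, π ^ (j + 1) ∣ S.cob v σ i)
    (hall : ∀ t, S.IsCls t → (∀ σ, π ^ (j + 1) • t σ = S.cob v σ) → S.Θ t = 0) :
    ∃ x : Fin 2 → O, ∀ σ i, π ^ (j + 1 + 1) ∣ S.cob (v - π ^ (j + 1) • x) σ i := by
  have hπ0 : π ≠ 0 := fun h => IsDiscreteValuationRing.not_a_field O (by rw [hπ, h]; simp)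
  have hℓπ : π ∣ (S.ℓ : O) := by rw [← Ideal.mem_span_singleton, ← hπ]; exact S.ℓ_mem
  choose t ht using hv
  have htv : ∀ σ, π ^ (j + 1) • t σ = S.cob v σ := fun σ => funext fun i => (ht σ i).symm
  have htcls : S.IsCls t := IsCls.of_smul (pow_ne_zero _ hπ0) (pow_dvd_pow_of_dvd hℓπ (j + 1))
    (by simpa only [htv] using isCls_cob (S := S) v)
  obtain ⟨x, c', -, hxc⟩ := htcls.exists_eq_add_smul (hall t htcls htv) hπ
  refine ⟨x, fun σ i => ⟨c' σ i, ?_⟩⟩
  rw [cob_sub, cob_smul, ← htv, hxc, smul_add, add_sub_cancel_left, smul_smul, ← pow_succ]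
  rfl

/-- Some class with `Θ ≠ 0` is torsion. Otherwise successive corrections of `(1, 0)` would converge
to a non-zero fixed vector. -/
lemma exists_cls_Θ_ne_zero [CharZero O] [IsAdicComplete (maximalIdeal O) O] {π : O}
    (hπ : maximalIdeal O = Ideal.span {π}) :
    ∃ (j : ℕ) (v : Fin 2 → O) (t : GQ → Fin 2 → O),
      S.IsCls t ∧ (∀ σ, π ^ j • t σ = S.cob v σ) ∧ S.Θ t ≠ 0 := by
  by_contra hall
  simp only [not_exists, not_and, not_not] at hall
  let P : ℕ → (Fin 2 → O) → Prop := fun j v =>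
    π ∣ v 0 - 1 ∧ ∀ σ i, π ^ (j + 1) ∣ S.cob v σ i
  have step : ∀ j v, P j v → ∃ v', P (j + 1) v' ∧ ∀ i, π ^ (j + 1) ∣ v' i - v i := by
    rintro j v ⟨hv0, hv⟩
    obtain ⟨x, hx⟩ := S.exists_dvd_cob_succ hπ hv (hall (j + 1) v)
    refine ⟨v - π ^ (j + 1) • x, ⟨?_, hx⟩, fun i => ⟨-x i, by simp⟩⟩
    rw [Pi.sub_apply, sub_right_comm]
    exact dvd_sub hv0 (Dvd.intro _ (by rw [Pi.smul_apply, smul_eq_mul, pow_succ', mul_assoc]))
  have h0 : P 0 ![1, 0] := by
    refine ⟨by simp, fun σ i => ?_⟩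
    rw [pow_one, ← Ideal.mem_span_singleton, ← hπ, ← residue_eq_zero_iff]
    fin_cases i <;> simp [cob_apply0, cob_apply1, S.res00 σ, S.res10 σ]
  choose f hfP hfd using step
  let seq : (n : ℕ) → {v : Fin 2 → O // P n v} := fun n =>
    Nat.rec ⟨![1, 0], h0⟩ (fun k p => ⟨f k p.1 p.2, hfP k p.1 p.2⟩) n
  have hseq : ∀ n i, π ^ n ∣ (seq (n + 1)).1 i - (seq n).1 i := fun n i =>
    (pow_dvd_pow π (Nat.le_succ n)).trans (hfd n (seq n).1 (seq n).2 i)
  choose L hL using fun i => exists_limit hπ (fun n => (seq n).1 i) fun n => hseq n i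
  have hfix : L = 0 := by
    refine S.fixed_zero L fun σ => ?_
    rw [← sub_eq_zero]
    ext i
    refine eq_zero_of_forall_pow_dvd (a := π) (by rw [hπ]; exact Ideal.mem_span_singleton_self π)
      fun r => ?_
    show π ^ r ∣ S.cob L σ i
    rw [← sub_add_cancel L (seq r).1, cob_add]
    exact dvd_add (dvd_cob (fun k => hL k r) σ i)
      ((pow_dvd_pow π (Nat.le_succ r)).trans ((seq r).2.2 σ i))
  have hπ1 : π ∣ 1 := by
    have ha := (seq 1).2.1
    have hb : π ∣ L 0 - (seq 1).1 0 := by simpa using hL 0 1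
    rw [hfix, Pi.zero_apply, zero_sub, dvd_neg] at hb
    simpa using dvd_sub hb ha
  exact (maximalIdeal.isMaximal O).ne_top
    (by rw [hπ, Ideal.span_singleton_eq_top]; exact isUnit_of_dvd_one hπ1)

variable {S}

/-- Successive approximation: modulo coboundaries every class is a multiple of a class `t` with
`Θ t ≠ 0`. -/
lemma IsCls.exists_eq_smul_add_cob [CharZero O] [IsAdicComplete (maximalIdeal O) O] {π : O}
    (hπ : maximalIdeal O = Ideal.span {π}) {t : GQ → Fin 2 → O} (ht : S.IsCls t)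
    (hΘt : S.Θ t ≠ 0) (hc : S.IsCls c) :
    ∃ (R : O) (X : Fin 2 → O), ∀ σ, c σ = R • t σ + S.cob X σ := by
  let Q : ℕ → O × (Fin 2 → O) → (GQ → Fin 2 → O) → Prop := fun n p c' =>
    S.IsCls c' ∧ ∀ σ, c σ = p.1 • t σ + S.cob p.2 σ + π ^ n • c' σ
  have step : ∀ n p, (∃ c', Q n p c') → ∃ p' : O × (Fin 2 → O), (∃ c', Q (n + 1) p' c') ∧
      π ^ n ∣ p'.1 - p.1 ∧ ∀ i, π ^ n ∣ p'.2 i - p.2 i := by
    rintro n ⟨R, X⟩ ⟨c', hc', hcR⟩
    obtain ⟨r, hr⟩ := residue_surjective (S.Θ c' / S.Θ t)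
    obtain ⟨x, c'', hc'', hx⟩ := (hc'.sub (ht.smul r)).exists_eq_add_smul
      (by rw [Θ_sub_smul, hr, div_mul_cancel₀ _ hΘt, sub_self]) hπ
    refine ⟨(R + π ^ n * r, X + π ^ n • x), ⟨c'', hc'', fun σ => ?_⟩, ⟨r, by ring⟩,
      fun i => ⟨x i, by simp⟩⟩
    rw [hcR σ, sub_eq_iff_eq_add.1 (hx σ), cob_add, cob_smul, pow_succ]
    module
  have hQ0 : ∃ c', Q 0 (0, 0) c' :=
    ⟨c, hc, fun σ => by simp [cob]⟩
  choose g hgQ hgR hgX using step
  let seq : (n : ℕ) → {p : O × (Fin 2 → O) // ∃ c', Q n p c'} := fun n =>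
    Nat.rec ⟨(0, 0), hQ0⟩ (fun k p => ⟨g k p.1 p.2, hgQ k p.1 p.2⟩) n
  obtain ⟨R, hR⟩ := exists_limit hπ (fun n => (seq n).1.1) fun n => hgR n (seq n).1 (seq n).2
  choose X hX using fun i => exists_limit hπ (fun n => (seq n).1.2 i)
    fun n => hgX n (seq n).1 (seq n).2 i
  refine ⟨R, X, fun σ => funext fun i => ?_⟩
  rw [← sub_eq_zero]
  refine eq_zero_of_forall_pow_dvd (a := π) (by rw [hπ]; exact Ideal.mem_span_singleton_self π)
    fun n => ?_
  obtain ⟨c', -, hcn⟩ := (seq n).2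
  obtain ⟨a, ha⟩ := hR n
  obtain ⟨w, hw⟩ := dvd_cob (S := S) (x := X - (seq n).1.2) (fun k => hX k n) σ i
  rw [cob_sub, Pi.sub_apply] at hw
  refine ⟨c' σ i - a * t σ i - w, ?_⟩
  simp only [hcn σ, Pi.add_apply, Pi.smul_apply, smul_eq_mul]
  linear_combination -hw - t σ i * ha

variable (S)

/-- **The Eisenstein descent.** Every class is torsion in `H¹`: some non-zero multiple of it is
a coboundary. -/
theorem exists_smul_eq_cob [CharZero O] [IsAdicComplete (maximalIdeal O) O]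
    (hc : S.IsCls c) : ∃ (a : O) (x : Fin 2 → O), a ≠ 0 ∧ ∀ σ, a • c σ = S.cob x σ := by
  obtain ⟨π, hirr⟩ := IsDiscreteValuationRing.exists_irreducible O
  obtain ⟨j, v, t, ht, htv, hΘt⟩ := S.exists_cls_Θ_ne_zero hirr.maximalIdeal_eq
  obtain ⟨R, X, hcX⟩ := ht.exists_eq_smul_add_cob hirr.maximalIdeal_eq hΘt hc
  refine ⟨π ^ j, R • v + π ^ j • X, pow_ne_zero j hirr.ne_zero, fun σ => ?_⟩
  rw [hcX, smul_add, smul_comm, htv, cob_add, cob_smul, cob_smul]

end DescentSetting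

end FermatAgent.Mazur

end
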