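import Fermat.Agent.Mazur.Kummer

/-!
# Global Kummer cocycles that are unit cocycles everywhere
-/

set_option autoImplicit false

noncomputable section

namespace FermatAgent.Mazur

open FermatAgent.GaloisBasic
open FermatAgent.ECLocal (valuation_ratCast_eq_zpow)

variable {A : ValuationSubring Qbar} {q : ℕ}

lemma exists_pow_eq_of_forall_dvd {n ℓ : ℕ} (hn : n ≠ 0)
    (h : ∀ q : ℕ, q.Prime → ℓ ∣ n.factorization q) : ∃ m, m ^ ℓ = n := by
  refine ⟨∏ p ∈ n.primeFactors, p ^ (n.factorization p / ℓ), ?_⟩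
  rw [← Finset.prod_pow]
  conv_rhs => rw [← Nat.prod_factorization_pow_eq_self hn]
  refine Finset.prod_congr rfl fun p hp => ?_
  rw [← pow_mul, Nat.div_mul_cancel (h p (Nat.prime_of_mem_primeFactors hp))]

lemma exists_rat_pow_eq {x : ℚ} (hx : x ≠ 0) {ℓ : ℕ}
    (h : ∀ q : ℕ, q.Prime → (ℓ : ℤ) ∣ padicValRat q x) :
    ∃ y : ℚ, y ≠ 0 ∧ (x = y ^ ℓ ∨ x = -y ^ ℓ) := by
  have hnum : x.num.natAbs ≠ 0 := Int.natAbs_ne_zero.mpr (Rat.num_ne_zero.mpr hx)
  have key : ∀ q : ℕ, q.Prime →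
      ℓ ∣ x.num.natAbs.factorization q ∧ ℓ ∣ x.den.factorization q := by
    intro q hq
    have : Fact q.Prime := ⟨hq⟩
    have h' := h q hq
    rw [padicValRat_def] at h'
    rw [Nat.factorization_def _ hq, Nat.factorization_def _ hq]
    by_cases hd : q ∣ x.den
    · have hn : ¬ q ∣ x.num.natAbs := fun hn =>
        hq.ne_one (Nat.dvd_one.mp (x.reduced ▸ Nat.dvd_gcd hn hd))
      have h0 : padicValInt q x.num = 0 := padicValNat.eq_zero_of_not_dvd hn
      rw [h0, Nat.cast_zero, zero_sub, dvd_neg, Int.natCast_dvd_natCast] at h'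
      exact ⟨by rw [padicValNat.eq_zero_of_not_dvd hn]; exact dvd_zero ℓ, h'⟩
    · rw [padicValNat.eq_zero_of_not_dvd hd, Nat.cast_zero, sub_zero,
        Int.natCast_dvd_natCast] at h'
      exact ⟨h', by rw [padicValNat.eq_zero_of_not_dvd hd]; exact dvd_zero ℓ⟩
  obtain ⟨a, ha⟩ := exists_pow_eq_of_forall_dvd hnum fun q hq => (key q hq).1
  obtain ⟨b, hb⟩ := exists_pow_eq_of_forall_dvd x.den_nz fun q hq => (key q hq).2
  have habs : ((a : ℚ) / b) ^ ℓ = (x.num.natAbs : ℚ) / x.den := by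
    rw [div_pow, ← Nat.cast_pow, ← Nat.cast_pow, ha, hb]
  have hy0 : (a : ℚ) / b ≠ 0 ∨ ℓ = 0 := by
    by_cases hℓ : ℓ = 0
    · exact Or.inr hℓ
    · refine Or.inl fun h0 => ?_
      rw [h0, zero_pow hℓ, eq_comm, div_eq_zero_iff] at habs
      rcases habs with h1 | h1
      · exact hnum (by exact_mod_cast h1)
      · exact x.den_nz (by exact_mod_cast h1)
  rcases hy0 with hy0 | rfl
  · refine ⟨_, hy0, ?_⟩
    rw [habs]
    rcases Int.natAbs_eq x.num with e | e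
    · left
      conv_lhs => rw [← Rat.num_div_den x, e]
      rw [Int.cast_natCast]
    · right
      conv_lhs => rw [← Rat.num_div_den x, e]
      rw [Int.cast_neg, Int.cast_natCast, neg_div]
  · refine ⟨1, one_ne_zero, ?_⟩
    rw [pow_zero] at habs ha hb
    rcases Int.natAbs_eq x.num with e | e
    · left; rw [← Rat.num_div_den x, e, ← ha, ← hb]; simp
    · right; rw [← Rat.num_div_den x, e, ← ha, ← hb]; simp

/-- A global Kummer cocycle of prime order which is a unit cocycle at every prime comes from a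
root of `±1`. -/
theorem exists_root_of_isUnitKummer {ℓ : ℕ} (hℓ : ℓ.Prime) (φ : GQ → Qbar)
    (hmul : ∀ σ τ, φ (σ * τ) = φ σ * σ (φ τ)) (hpow : ∀ σ, φ σ ^ ℓ = 1)
    (U : Subgroup GQ) (hU : IsOpen (U : Set GQ)) (htriv : ∀ σ ∈ U, φ σ = 1)
    (hloc : ∀ q : ℕ, q.Prime → ∃ A : ValuationSubring Qbar,
      A.LiesOverPrime q ∧ IsUnitKummer A φ) :
    ∃ b : Qbar, (b ^ ℓ = 1 ∨ b ^ ℓ = -1) ∧ ∀ σ, σ b = φ σ * b := by
  have hne : ∀ σ, φ σ ≠ 0 := fun σ h => by simpa [h, zero_pow hℓ.ne_zero] using hpow σ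
  obtain ⟨a, ha0, ha⟩ := exists_eq_mul_of_cocycle ⊤ φ (fun σ _ τ _ => hmul σ τ)
    (fun σ _ => hne σ) U hU (fun σ _ => htriv σ)
  have hbot : a ^ ℓ ∈ (⊥ : IntermediateField ℚ Qbar) := mem_of_forall_fixing fun σ _ => by
    rw [map_pow, ha σ trivial, mul_pow, hpow, one_mul]
  obtain ⟨β, hβ⟩ := IntermediateField.mem_bot.mp hbot
  rw [eq_ratCast] at hβ
  have hβ0 : β ≠ 0 := fun h => pow_ne_zero ℓ ha0 (by rw [← hβ, h, Rat.cast_zero])
  obtain ⟨y, hy0, hy⟩ := exists_rat_pow_eq hβ0 (ℓ := ℓ) fun q hq => by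
    obtain ⟨A, hA, a', ha', hUK⟩ := hloc q hq
    have ha'0 : a' ≠ 0 := fun h => by simp [h] at ha'
    obtain ⟨k, hk⟩ := exists_zpow_valuation_eq hq hA (div_ne_zero ha0 ha'0) fun σ hσ => by
      rw [map_div₀, ha σ trivial, hUK σ hσ, mul_div_mul_left _ _ (hne σ)]
    rw [map_div₀, ha', div_one] at hk
    have hv := valuation_ratCast_eq_zpow hq hA hβ0
    rw [hβ, map_pow, hk, ← zpow_natCast (A.valuation (q : Qbar) ^ k), ← zpow_mul] at hv
    exact ⟨k, by rw [← valuation_zpow_injective hq hA hv, mul_comm]⟩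
  have hy0' : ((y : Qbar) ^ ℓ) ≠ 0 := pow_ne_zero ℓ (Rat.cast_ne_zero.mpr hy0)
  refine ⟨a / (y : Qbar), ?_, fun σ => ?_⟩
  · rw [div_pow, ← hβ]
    rcases hy with rfl | rfl
    · left; rw [Rat.cast_pow, div_self hy0']
    · right; rw [Rat.cast_neg, Rat.cast_pow, neg_div, div_self hy0']
  · rw [map_div₀, map_ratCast, ha σ trivial, mul_div_assoc]

end FermatAgent.Mazur

end
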