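import Fermat.Agent.Mazur.Chars
import Fermat.Agent.Mazur.Radicand

/-!
# Eisenstein descent: setting and local computations

A two-dimensional `O`-adic representation, residually upper triangular with constituents trivial
and cyclotomic, ordinary at the residue characteristic `ℓ` and unipotent at a second prime `N`
(`DescentSetting`), and homomorphisms on inertia at `N` (`IsInertiaHom`).
-/

set_option autoImplicit false

noncomputable section

open scoped Pointwise Matrix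

namespace FermatAgent.Mazur

open FermatAgent.GaloisBasic IsLocalRing

/-- The data and hypotheses of the Eisenstein descent: a representation `ρ : G_ℚ → GL₂(O)` with
cyclotomic determinant and residual constituents `1` and `ω`, unramified outside `ℓ` and `N`,
ordinary at `ℓ`, unipotent and residually ramified at `N`, without fixed vectors. -/
structure DescentSetting (O : Type) [CommRing O] [IsDomain O] [IsDiscreteValuationRing O] where
  /-- the integral representation -/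
  ρ : GQ →* Matrix (Fin 2) (Fin 2) O
  /-- the residual characteristic -/
  ℓ : ℕ
  /-- the auxiliary prime where the representation is unipotent -/
  N : ℕ
  ℓ_prime : ℓ.Prime
  N_prime : N.Prime
  ℓ_ne_N : ℓ ≠ N
  ℓ_mem : (ℓ : O) ∈ maximalIdeal O
  /-- `ρ` is continuous -/
  continuous : ∀ r : ℕ, ∃ U : Subgroup GQ, IsOpen (U : Set GQ) ∧
    ∀ σ ∈ U, ∀ i j, (ℓ : O) ^ r ∣ (ρ σ - 1) i j
  /-- `ρ` is unramified outside `ℓ` and `N` -/
  unramified : ∀ q : ℕ, q.Prime → q ≠ ℓ → q ≠ N → ∀ A : ValuationSubring Qbar,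
    A.LiesOverPrime q → ∀ σ ∈ A.inertiaSubgroupIn ℚ, ρ σ = 1
  /-- the determinant is the `ℓ`-adic cyclotomic character -/
  det_cyclotomic : ∀ (σ : GQ) (r : ℕ), ∃ a : ℕ, (ℓ : O) ^ r ∣ (ρ σ).det - a ∧
    ∀ ζ : Qbar, ζ ^ ℓ ^ r = 1 → σ ζ = ζ ^ a
  /-- residually the first basis vector spans a trivial subrepresentation -/
  res00 : ∀ σ, residue O (ρ σ 0 0) = 1
  res10 : ∀ σ, residue O (ρ σ 1 0) = 0
  /-- a place over `ℓ` adapted to the ordinary line -/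
  Aℓ : ValuationSubring Qbar
  Aℓ_over : Aℓ.LiesOverPrime ℓ
  /-- at `ℓ` the second basis vector spans a stable line, with unramified quotient -/
  ord01 : ∀ σ ∈ Aℓ.decompositionSubgroup ℚ, ρ σ 0 1 = 0
  ord00 : ∀ σ ∈ Aℓ.inertiaSubgroupIn ℚ, ρ σ 0 0 = 1
  /-- an element of the decomposition group at `ℓ` whose first diagonal entry does not square
  to one -/
  F : GQ
  F_mem : F ∈ Aℓ.decompositionSubgroup ℚ
  F_sq_ne : (ρ F 0 0) ^ 2 ≠ 1
  /-- a place over `N` adapted to the unipotent line -/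
  AN : ValuationSubring Qbar
  AN_over : AN.LiesOverPrime N
  unip : ∀ σ ∈ AN.inertiaSubgroupIn ℚ, ρ σ 0 0 = 1 ∧ ρ σ 1 0 = 0 ∧ ρ σ 1 1 = 1
  /-- an inertia element at `N`, residually non trivial -/
  σN : GQ
  σN_mem : σN ∈ AN.inertiaSubgroupIn ℚ
  σN_ne : residue O (ρ σN 0 1) ≠ 0
  /-- `ρ` has no non-zero fixed vector -/
  fixed_zero : ∀ v : Fin 2 → O, (∀ σ, ρ σ *ᵥ v = v) → v = 0

namespace DescentSetting

variable {O : Type} [CommRing O] [IsDomain O] [IsDiscreteValuationRing O] (S : DescentSetting O)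

omit [IsDomain O] [IsDiscreteValuationRing O] in
/-- The first coordinate of a matrix times a vector. -/
lemma mulVec0 (M : Matrix (Fin 2) (Fin 2) O) (v : Fin 2 → O) :
    (M *ᵥ v) 0 = M 0 0 * v 0 + M 0 1 * v 1 := by
  simp [Matrix.mulVec, dotProduct, Fin.sum_univ_two]

omit [IsDomain O] [IsDiscreteValuationRing O] in
/-- The second coordinate of a matrix times a vector. -/
lemma mulVec1 (M : Matrix (Fin 2) (Fin 2) O) (v : Fin 2 → O) :
    (M *ᵥ v) 1 = M 1 0 * v 0 + M 1 1 * v 1 := by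
  simp [Matrix.mulVec, dotProduct, Fin.sum_univ_two]

/-- The entries of `ρ(στ)`. -/
lemma ρ_mul_apply (σ τ : GQ) (i j : Fin 2) :
    S.ρ (σ * τ) i j = S.ρ σ i 0 * S.ρ τ 0 j + S.ρ σ i 1 * S.ρ τ 1 j := by
  rw [map_mul, Matrix.mul_apply, Fin.sum_univ_two]

/-- The residual cyclotomic character. -/
def χ (σ : GQ) : ResidueField O := residue O (S.ρ σ 1 1)

lemma residue_det (σ : GQ) : residue O (S.ρ σ).det = S.χ σ := by
  rw [Matrix.det_fin_two, map_sub, map_mul, map_mul, S.res00, S.res10, one_mul, mul_zero, sub_zero]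
  rfl

/-- `χ` is the action on the `ℓ`th roots of unity. -/
lemma exists_χ_eq_natCast (σ : GQ) :
    ∃ a : ℕ, S.χ σ = (a : ResidueField O) ∧ ∀ ζ : Qbar, ζ ^ S.ℓ = 1 → σ ζ = ζ ^ a := by
  obtain ⟨a, ⟨b, hb⟩, ha⟩ := S.det_cyclotomic σ 1
  rw [pow_one] at hb ha
  refine ⟨a, ?_, ha⟩
  rw [← S.residue_det, sub_eq_iff_eq_add.mp hb, map_add, map_mul, map_natCast, map_natCast,
    natCast_eq_zero_residue S.ℓ_mem, zero_mul, zero_add]

/-- The residual cyclotomic character is trivial on automorphisms fixing the `ℓ`-th roots of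
unity. -/
lemma χ_eq_one_of_fix {σ : GQ} (h : ∀ ζ : Qbar, ζ ^ S.ℓ = 1 → σ ζ = ζ) : S.χ σ = 1 := by
  obtain ⟨a, hres, ha⟩ := S.exists_χ_eq_natCast σ
  rw [hres, natCast_residue_eq_one_iff S.ℓ_prime S.ℓ_mem]
  obtain ⟨ζ, hζ⟩ := exists_primitiveRoot_qbar S.ℓ_prime.ne_zero
  have h1 : ζ ^ a = ζ ^ 1 := by rw [pow_one, ← ha ζ hζ.pow_eq_one, h ζ hζ.pow_eq_one]
  exact modEq_of_pow_eq S.ℓ_prime.ne_zero hζ h1

/-- The residual cyclotomic character is unramified outside `ℓ`. -/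
lemma χ_eq_one_of_mem_inertia {q : ℕ} (hq : q.Prime) (hne : q ≠ S.ℓ) {A : ValuationSubring Qbar}
    (hA : A.LiesOverPrime q) {σ : GQ} (hσ : σ ∈ A.inertiaSubgroupIn ℚ) : S.χ σ = 1 :=
  S.χ_eq_one_of_fix fun _ hζ => inertia_fixes_rootsOfUnity hq hA
    (fun h => hne ((Nat.prime_dvd_prime_iff_eq hq S.ℓ_prime).mp h)) S.ℓ_prime.ne_zero hσ hζ

/-- An additive character killing `ℓ ^ R`. -/
def Kills (R : ℕ) (Λ : AddChar O Qbar) : Prop := ∀ x, Λ ((S.ℓ : O) ^ R * x) = 1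

variable {S} {R : ℕ} {Λ : AddChar O Qbar}

/-- A killing character is trivial on multiples of `ℓ ^ R`. -/
lemma Kills.apply_of_dvd (h : S.Kills R Λ) {x : O} (hx : (S.ℓ : O) ^ R ∣ x) : Λ x = 1 := by
  obtain ⟨y, rfl⟩ := hx
  exact h y

/-- A killing character takes values in the `ℓ ^ R`-th roots of unity. -/
lemma Kills.pow_eq_one (h : S.Kills R Λ) (x : O) : Λ x ^ S.ℓ ^ R = 1 := by
  rw [← AddChar.map_nsmul_eq_pow, nsmul_eq_mul, Nat.cast_pow]
  exact h x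

/-- A multiple of a killing character kills. -/
lemma Kills.mulShift (h : S.Kills R Λ) (c : O) : S.Kills R (Λ.mulShift c) := fun x => by
  rw [AddChar.mulShift_apply, mul_left_comm]
  exact h _

/-- Galois acts on the values of a killing character through the determinant. -/
lemma Kills.smul_eq (h : S.Kills R Λ) (σ : GQ) (x : O) : σ (Λ x) = Λ ((S.ρ σ).det * x) := by
  obtain ⟨a, ha, hζ⟩ := S.det_cyclotomic σ R
  rw [hζ _ (h.pow_eq_one x), ← AddChar.map_nsmul_eq_pow, nsmul_eq_mul]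
  have h1 : Λ (((S.ρ σ).det - a) * x) = 1 := h.apply_of_dvd (ha.mul_right x)
  rw [show (S.ρ σ).det * x = (a : O) * x + ((S.ρ σ).det - a) * x by ring,
    AddChar.map_add_eq_mul, h1, mul_one]

/-- Galois acts on residual characters through the residual cyclotomic character. -/
lemma residue_char_smul (ψ : AddChar (ResidueField O) Qbar) (σ : GQ) (x : ResidueField O) :
    σ (ψ x) = ψ (S.χ σ * x) := by
  obtain ⟨a, hres, ha⟩ := S.exists_χ_eq_natCast σ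
  have hpow : ψ x ^ S.ℓ = 1 := by
    rw [← AddChar.map_nsmul_eq_pow, nsmul_eq_mul, natCast_eq_zero_residue S.ℓ_mem, zero_mul,
      AddChar.map_zero_eq_one]
  rw [ha _ hpow, hres, ← AddChar.map_nsmul_eq_pow, nsmul_eq_mul]

variable (S)

lemma ℓ_ndvd_of_inertia : ¬ S.N ∣ S.ℓ := fun h =>
  S.ℓ_ne_N ((Nat.prime_dvd_prime_iff_eq S.N_prime S.ℓ_prime).mp h).symm

lemma N_ndvd_pow (R : ℕ) : ¬ S.N ∣ S.ℓ ^ R := fun h =>
  S.ℓ_ndvd_of_inertia (S.N_prime.dvd_of_dvd_pow h)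

/-- A Frobenius element at `AN`. -/
def FN : GQ := (exists_isFrobeniusAt S.N_prime S.AN_over).choose

lemma FN_spec : S.AN.IsFrobeniusAt S.FN S.N :=
  (exists_isFrobeniusAt S.N_prime S.AN_over).choose_spec

lemma FN_mem : S.FN ∈ S.AN.decompositionSubgroup ℚ := by
  obtain ⟨h, -⟩ := S.FN_spec
  exact h

/-- Frobenius normalises inertia at `N`. -/
lemma conj_FN_mem {σ : GQ} (hσ : σ ∈ S.AN.inertiaSubgroupIn ℚ) :
    S.FN * σ * S.FN⁻¹ ∈ S.AN.inertiaSubgroupIn ℚ :=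
  conj_mem_inertiaSubgroupIn_of_mem S.N_prime S.AN_over hσ S.FN_mem

/-- The determinant at Frobenius is `N`. -/
lemma det_FN : (S.ρ S.FN).det = (S.N : O) := by
  rw [← sub_eq_zero]
  refine eq_zero_of_forall_pow_dvd S.ℓ_mem fun r => ?_
  obtain ⟨a, ha, hζ⟩ := S.det_cyclotomic S.FN r
  obtain ⟨ζ, hz⟩ := exists_primitiveRoot_qbar (pow_ne_zero r S.ℓ_prime.ne_zero)
  have h1 : ζ ^ a = ζ ^ S.N := by
    rw [← hζ ζ hz.pow_eq_one]
    exact frobenius_rootsOfUnity S.N_prime S.AN_over (S.N_ndvd_pow r)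
      (pow_ne_zero r S.ℓ_prime.ne_zero) S.FN_spec hz.pow_eq_one
  have h2 := modEq_of_pow_eq (pow_ne_zero r S.ℓ_prime.ne_zero) hz h1
  have h3 : (S.ℓ : O) ^ r ∣ (a : O) - (S.N : O) := by
    obtain ⟨c, hc⟩ := Nat.modEq_iff_dvd.mp h2.symm
    refine ⟨(c : O), ?_⟩
    have := congrArg (Int.cast : ℤ → O) hc
    push_cast at this
    exact this
  have h4 := dvd_add ha h3
  rwa [sub_add_sub_cancel] at h4

/-- An additive homomorphism on the inertia group at `AN`, continuous modulo every power of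
`ℓ`. -/
def IsInertiaHom (f : GQ → O) : Prop :=
  (∀ σ ∈ S.AN.inertiaSubgroupIn ℚ, ∀ τ ∈ S.AN.inertiaSubgroupIn ℚ, f (σ * τ) = f σ + f τ) ∧
  ∀ r : ℕ, ∃ U : Subgroup GQ, IsOpen (U : Set GQ) ∧
    ∀ σ ∈ U, σ ∈ S.AN.inertiaSubgroupIn ℚ → (S.ℓ : O) ^ r ∣ f σ

/-- The unipotent parameter at `AN`. -/
def u (σ : GQ) : O := S.ρ σ 0 1

/-- The unipotent parameter is a homomorphism on inertia. -/
lemma isInertiaHom_u : S.IsInertiaHom S.u := by
  refine ⟨fun σ hσ τ hτ => ?_, fun r => ?_⟩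
  · rw [u, S.ρ_mul_apply, (S.unip σ hσ).1, (S.unip τ hτ).2.2, one_mul, mul_one, add_comm]
    rfl
  · obtain ⟨U, hU, h⟩ := S.continuous r
    exact ⟨U, hU, fun σ hσ _ => by simpa [u] using h σ hσ 0 1⟩

variable {S}

lemma IsInertiaHom.exists_zpow {f : GQ → O} (hf : S.IsInertiaHom f)
    (hΛ : S.Kills R Λ) {κ : GQ → Qbar}
    (hκ : ∀ φ : GQ → Qbar,
        (∀ σ ∈ S.AN.inertiaSubgroupIn ℚ, ∀ τ ∈ S.AN.inertiaSubgroupIn ℚ,
          φ (σ * τ) = φ σ * φ τ) →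
        (∀ σ ∈ S.AN.inertiaSubgroupIn ℚ, φ σ ^ S.ℓ ^ R = 1) →
        ∀ U : Subgroup GQ, IsOpen (U : Set GQ) →
          (∀ σ ∈ S.AN.inertiaSubgroupIn ℚ, σ ∈ U → φ σ = 1) →
          ∃ n : ℤ, ∀ σ ∈ S.AN.inertiaSubgroupIn ℚ, φ σ = κ σ ^ n) :
    ∃ n : ℤ, ∀ σ ∈ S.AN.inertiaSubgroupIn ℚ, Λ (f σ) = κ σ ^ n := by
  obtain ⟨U, hU, h⟩ := hf.2 R
  exact hκ (fun σ => Λ (f σ)) (fun σ hσ τ hτ => by rw [hf.1 σ hσ τ hτ, AddChar.map_add_eq_mul])
    (fun σ _ => hΛ.pow_eq_one _) U hU fun σ hσ hσU => hΛ.apply_of_dvd (h σ hσU hσ)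

/-- Conjugation by Frobenius multiplies a homomorphism on inertia by `N`. -/
lemma IsInertiaHom.map_conj {f : GQ → O} (hf : S.IsInertiaHom f) {σ : GQ}
    (hσ : σ ∈ S.AN.inertiaSubgroupIn ℚ) : f (S.FN * σ * S.FN⁻¹) = (S.N : O) * f σ := by
  rw [← sub_eq_zero]
  by_contra hne
  obtain ⟨ψ, hψ⟩ := exists_residue_char S.ℓ_prime S.ℓ_mem (one_ne_zero (α := ResidueField O))
  obtain ⟨R, Λ, hΛ, hext⟩ := exists_char S.ℓ_mem hne ψ
  have hΛ : S.Kills R Λ := hΛ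
  obtain ⟨κ, -, hκF, hκ⟩ := exists_tame_char S.N_prime S.AN_over (S.N_ndvd_pow R)
    (pow_ne_zero R S.ℓ_prime.ne_zero) S.FN_spec
  obtain ⟨n, hn⟩ := hf.exists_zpow hΛ hκ
  have h1 := hext 1
  rw [mul_one, map_one, AddChar.map_sub_eq_div, ← nsmul_eq_mul, AddChar.map_nsmul_eq_pow,
    hn _ (S.conj_FN_mem hσ), hn _ hσ, hκF σ hσ] at h1
  apply hψ
  rw [← h1, ← zpow_natCast, ← zpow_natCast, ← zpow_mul, ← zpow_mul, mul_comm n, div_self]
  have hne0 : Λ (f σ) ≠ 0 := (Λ.val_isUnit _).ne_zero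
  rw [hn _ hσ] at hne0
  rw [mul_comm, zpow_mul]
  exact zpow_ne_zero _ hne0

/-- A homomorphism on inertia vanishing at the generator is zero. -/
lemma IsInertiaHom.eq_zero [CharZero O] {f : GQ → O} (hf : S.IsInertiaHom f)
    (h0 : f S.σN = 0) {σ : GQ} (hσ : σ ∈ S.AN.inertiaSubgroupIn ℚ) : f σ = 0 := by
  by_contra hne
  obtain ⟨ψ, hψ⟩ := exists_residue_char S.ℓ_prime S.ℓ_mem (one_ne_zero (α := ResidueField O))
  obtain ⟨R, Λ, hΛ, hext⟩ := exists_char S.ℓ_mem hne ψ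
  have hΛ : S.Kills R Λ := hΛ
  have hΛσ : Λ (f σ) ≠ 1 := by
    have := hext 1
    rw [mul_one, map_one] at this
    rw [this]
    exact hψ
  obtain ⟨R₀, rfl⟩ : ∃ R₀, R = R₀ + 1 := by
    rcases Nat.eq_zero_or_pos R with rfl | hR
    · exact absurd (hΛ.apply_of_dvd ((pow_zero (S.ℓ : O)).symm ▸ one_dvd _)) hΛσ
    · exact ⟨R - 1, by omega⟩
  obtain ⟨ψ', hψ'⟩ := exists_residue_char S.ℓ_prime S.ℓ_mem S.σN_ne
  obtain ⟨R', Λ', -, hext'⟩ :=
    exists_char S.ℓ_mem (s := (S.ℓ : O) ^ R₀)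
      (pow_ne_zero _ (Nat.cast_ne_zero.mpr S.ℓ_prime.ne_zero)) ψ'
  have hΛ' : S.Kills (R₀ + 1) Λ' := fun x => by
    rw [pow_succ, mul_assoc, hext', map_mul, (residue_eq_zero_iff _).mpr S.ℓ_mem, zero_mul,
      AddChar.map_zero_eq_one]
  set m := S.ℓ ^ (R₀ + 1) with hm
  obtain ⟨κ, hκm, -, hκ⟩ := exists_tame_char S.N_prime S.AN_over (S.N_ndvd_pow (R₀ + 1))
    (pow_ne_zero _ S.ℓ_prime.ne_zero) S.FN_spec
  obtain ⟨n, hn⟩ := hf.exists_zpow hΛ hκ
  obtain ⟨b, hb⟩ := S.isInertiaHom_u.exists_zpow hΛ' hκ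
  have hκ0 : κ S.σN ≠ 0 := fun h => by
    simpa [h, zero_pow (pow_ne_zero (R₀ + 1) S.ℓ_prime.ne_zero)] using hκm S.σN
  set k : Qbarˣ := Units.mk0 (κ S.σN) hκ0 with hk
  have hkm : k ^ (m : ℕ) = 1 := Units.ext (by simpa [hk] using hκm S.σN)
  -- the value of the tame character at `σN` has exact order `m`
  have hord : orderOf k = m := by
    have : Fact S.ℓ.Prime := ⟨S.ℓ_prime⟩
    refine orderOf_eq_prime_pow (fun h => ?_) hkm
    have h1 : Λ' (S.u S.σN) ^ S.ℓ ^ R₀ = 1 := by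
      rw [hb _ S.σN_mem, ← zpow_natCast, ← zpow_mul, mul_comm, zpow_mul, zpow_natCast]
      have h' := congrArg (fun z : Qbarˣ => (z : Qbar)) h
      simp only [hk, Units.val_pow_eq_pow_val, Units.val_mk0, Units.val_one] at h'
      rw [h', one_zpow]
    rw [← AddChar.map_nsmul_eq_pow, nsmul_eq_mul, Nat.cast_pow, hext'] at h1
    exact hψ' h1
  have hdvd : (m : ℤ) ∣ n := by
    rw [← hord, orderOf_dvd_iff_zpow_eq_one]
    refine Units.ext ?_
    rw [Units.val_zpow_eq_zpow_val, hk, Units.val_mk0, Units.val_one, ← hn _ S.σN_mem, h0,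
      AddChar.map_zero_eq_one]
  obtain ⟨n', rfl⟩ := hdvd
  exact hΛσ (by rw [hn _ hσ, zpow_mul, zpow_natCast, hm, hκm, one_zpow])

end DescentSetting

end FermatAgent.Mazur

end
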