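import Fermat.Agent.Mazur.EigenFrame
import Fermat.Agent.Mazur.TwoDim
import Fermat.Agent.Mazur.DescentSetting
import Fermat.Agent.CFT.Radicand
import Fermat.Agent.BAD.GalMat

/-!
# The descent setting of an Eisenstein eigensystem

A suitable sublattice of the eigenlattice satisfies the hypotheses of the Eisenstein descent.
-/

set_option autoImplicit false

noncomputable section

open scoped Matrix MatrixGroups Classical Pointwise
open IsLocalRing
open CongruenceSubgroup (Gamma0)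
open FermatAgent.Period (parRank)
open FermatAgent.ES (eigLat eigEnd galMat padCyclo)
open FermatAgent.GaloisBasic
open FermatAgent.CFT (cyc KummerCocycle zetaQ zetaQ_spec apply_root)

namespace FermatAgent.Mazur

attribute [local instance] embAlg

lemma zmod_two_eq_one : ∀ x : ZMod 2, x ≠ 0 → x = 1 := by decide

variable {ℓ : ℕ} [hℓ : Fact ℓ.Prime]

/-! ### The mod `ℓ` cyclotomic character -/

lemma cyc_eq_one_of_fix {g : GQ} (h : g (zetaQ ℓ) = zetaQ ℓ) : cyc ℓ g = 1 := by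
  rw [apply_root ℓ g (zetaQ_spec ℓ).pow_eq_one] at h
  have h1 := (zetaQ_spec ℓ).pow_inj (ZMod.val_lt (cyc ℓ g)) hℓ.out.one_lt (by rw [h, pow_one])
  rw [← ZMod.natCast_zmod_val (cyc ℓ g), h1, Nat.cast_one]

lemma cyc_eq_one_of_mem_inertia {q : ℕ} (hq : q.Prime) (hne : q ≠ ℓ) {A : ValuationSubring Qbar}
    (hA : A.LiesOverPrime q) {g : GQ} (hg : g ∈ A.inertiaSubgroupIn ℚ) : cyc ℓ g = 1 :=
  cyc_eq_one_of_fix (inertia_fixes_rootsOfUnity hq hA
    (fun h => hne ((Nat.prime_dvd_prime_iff_eq hq hℓ.out).1 h)) hℓ.out.ne_zero hg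
    (zetaQ_spec ℓ).pow_eq_one)

lemma exists_cyc_ne_one (ι : Qbar →+* ℂ_[ℓ]) (h2 : ℓ ≠ 2) :
    ∃ g ∈ (padVal ι).inertiaSubgroupIn ℚ, cyc ℓ g ≠ 1 := by
  obtain ⟨g, hg, ζ, hζ, hne⟩ := exists_inertia_moving_root ι 0 (by
    rw [zero_add, pow_one, Nat.totient_prime hℓ.out]
    have := hℓ.out.two_le
    omega)
  refine ⟨g, hg, fun h => hne ?_⟩
  rw [zero_add, pow_one] at hζ
  rw [apply_root ℓ g hζ, h, ZMod.val_one, pow_one]

/-- The mod `2` cyclotomic character is trivial. -/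
lemma cyc_eq_one_of_two (h2 : ℓ = 2) (g : GQ) : cyc ℓ g = 1 := by
  subst h2
  exact zmod_two_eq_one _ (CFT.cyc_ne_zero 2 g)

/-- An additive cocycle for the inverse cyclotomic character, trivial at `ℓ` and not zero, is
ramified at `N`. -/
theorem exists_ne_zero_inertia {N : ℕ} (ι : Qbar →+* ℂ_[ℓ]) {k : Type} [Field k] [CharP k ℓ]
    (η : GQ → k) (hmul : ∀ σ τ, η (σ * τ) = η τ + η σ * ((cyc ℓ τ).val : k))
    (hopen : ∃ L : IntermediateField ℚ Qbar, FiniteDimensional ℚ L ∧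
      ∀ g ∈ L.fixingSubgroup, η g = 0)
    (hunr : ∀ q : ℕ, q.Prime → q ≠ ℓ → q ≠ N → ∀ A : ValuationSubring Qbar, A.LiesOverPrime q →
      ∀ σ ∈ A.inertiaSubgroupIn ℚ, η σ = 0)
    (hD : ∀ σ ∈ (padVal ι).decompositionSubgroup ℚ, η σ = 0) (hne : ∃ g, η g ≠ 0)
    (hN : N.Prime) (hℓN : ℓ ≠ N) {AN : ValuationSubring Qbar} (hAN : AN.LiesOverPrime N) :
    ∃ σ ∈ AN.inertiaSubgroupIn ℚ, η σ ≠ 0 := by
  by_contra hcon
  push Not at hcon
  have h1 : η 1 = 0 := by
    have h := hmul 1 1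
    rw [mul_one, CFT.cyc_one, ZMod.val_one, Nat.cast_one, mul_one, left_eq_add] at h
    exact h
  have hconj : ∀ g σ, cyc ℓ σ = 1 → η σ = 0 → η (g * σ * g⁻¹) = 0 := by
    intro g σ hσ hησ
    have e1 := hmul g g⁻¹
    rw [mul_inv_cancel, h1] at e1
    rw [hmul (g * σ) g⁻¹, hmul g σ, hσ, ZMod.val_one, Nat.cast_one, mul_one, hησ, zero_add, ← e1]
  have hplace : ∀ {q : ℕ}, q.Prime → q ≠ ℓ → ∀ A : ValuationSubring Qbar, A.LiesOverPrime q →
      ∀ σ ∈ A.inertiaSubgroupIn ℚ, η σ = 0 := by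
    intro q hq hqℓ A hA σ hσ
    by_cases hqN : q = N
    swap
    · exact hunr q hq hqℓ hqN A hA σ hσ
    subst hqN
    obtain ⟨τ, hτ⟩ := exists_smul_eq hq hAN hA
    have h := conj_mem_inertiaSubgroupIn hq hA hσ τ⁻¹
    rw [← hτ, inv_smul_smul] at h
    have h2 := hconj τ _ (cyc_eq_one_of_mem_inertia hq hqℓ hAN h) (hcon _ h)
    rwa [inv_inv, show τ * (τ⁻¹ * σ * τ) * τ⁻¹ = σ by group] at h2
  obtain ⟨g₁, hg₁⟩ := hne
  obtain ⟨L, hL, hLη⟩ := hopen
  have := hL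
  by_cases h2 : ℓ = 2
  · have hc := cyc_eq_one_of_two h2
    let f : GQ →* Multiplicative k :=
      { toFun := fun g => Multiplicative.ofAdd (η g)
        map_one' := by rw [h1]; rfl
        map_mul' := fun σ τ => by
          rw [hmul, hc, ZMod.val_one, Nat.cast_one, mul_one, add_comm, ofAdd_add] }
    refine hg₁ (Multiplicative.ofAdd.injective (DFunLike.congr_fun
      (monoidHom_eq_one_of_unramified f ?_ fun q hq A hA σ hσ => ?_) g₁ :))
    · exact Subgroup.isOpen_mono (fun g hg => MonoidHom.mem_ker.2 (by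
        show Multiplicative.ofAdd (η g) = 1
        rw [hLη g hg]; rfl)) (IntermediateField.fixingSubgroup_isOpen L)
    · show Multiplicative.ofAdd (η σ) = 1
      suffices h0 : η σ = 0 by rw [h0]; rfl
      by_cases hqℓ : q = ℓ
      swap
      · exact hplace hq hqℓ A hA σ hσ
      subst hqℓ
      obtain ⟨τ, hτ⟩ := exists_smul_eq hq (padVal_liesOverPrime (ι := ι)) hA
      have h := conj_mem_inertiaSubgroupIn hq hA hσ τ⁻¹
      rw [← hτ, inv_smul_smul] at h
      have h2 := hconj τ _ (hc _) (hD _ (inertiaSubgroupIn_le_decompositionSubgroup _ h))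
      rwa [inv_inv, show τ * (τ⁻¹ * σ * τ) * τ⁻¹ = σ by group] at h2
  · have h3 : 3 ≤ ℓ := by have := hℓ.out.two_le; omega
    let : Algebra (ZMod ℓ) k := ZMod.algebra k ℓ
    obtain ⟨φ, hφ⟩ : ∃ φ : Module.Dual (ZMod ℓ) k, φ (η g₁) ≠ 0 := by
      by_contra h
      push Not at h
      exact hg₁ ((Module.forall_dual_apply_eq_zero_iff (ZMod ℓ) _).1 h)
    let U := (L ⊔ CFT.CycField ℓ).fixingSubgroup
    have : FiniteDimensional ℚ (CFT.CycField ℓ) :=
      IntermediateField.adjoin.finiteDimensional (Algebra.IsIntegral.isIntegral _)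
    have hU : ∀ g ∈ U, η g = 0 ∧ cyc ℓ g = 1 := fun g hg =>
      ⟨hLη g (IntermediateField.fixingSubgroup_antitone le_sup_left hg),
        CFT.cyc_eq_one_of_mem_fixingSubgroup ℓ
          (IntermediateField.fixingSubgroup_antitone le_sup_right hg)⟩
    have hamul : ∀ σ τ, φ (η (σ * τ)) = cyc ℓ τ * φ (η σ) + φ (η τ) := fun σ τ => by
      rw [hmul, map_add, mul_comm (η σ), ← nsmul_eq_mul, map_nsmul, nsmul_eq_mul,
        ZMod.natCast_zmod_val, add_comm]
    let D : KummerCocycle ℓ :=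
      { a := fun σ => φ (η σ)
        map_mul' := hamul
        isOpen' := by
          refine isOpen_iff_forall_mem_open.2 fun σ hσ => ⟨σ • (U : Set GQ), ?_,
            (IntermediateField.fixingSubgroup_isOpen _).smul σ, ⟨1, U.one_mem, mul_one σ⟩⟩
          rintro _ ⟨u, hu, rfl⟩
          obtain ⟨hu1, hu2⟩ := hU u hu
          refine ⟨?_, ?_⟩
          · show cyc ℓ (σ * u) = 1
            rw [CFT.cyc_mul, hσ.1, hu2, mul_one]
          · show φ (η (σ * u)) = 0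
            rw [hamul, hσ.2, hu1, map_zero, mul_zero, add_zero]
        unramified' := fun q hq hqℓ A hA σ hσ =>
          ⟨cyc_eq_one_of_mem_inertia hq hqℓ hA hσ, by rw [hplace hq hqℓ A hA σ hσ, map_zero]⟩
        A₀ := padVal ι
        liesOver' := padVal_liesOverPrime
        split' := fun σ hσ => by rw [hD σ hσ, map_zero] }
    obtain ⟨κ, hκ⟩ := D.exists_coboundary h3
    obtain ⟨σ, hσ, hσ1⟩ := exists_cyc_ne_one ι h2
    have h0 := hκ σ
    rw [show D.a σ = φ (η σ) from rfl, hD σ (inertiaSubgroupIn_le_decompositionSubgroup _ hσ),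
      map_zero, eq_comm, mul_eq_zero] at h0
    refine hφ ?_
    rw [show φ (η g₁) = D.a g₁ from rfl, hκ, h0.resolve_right (sub_ne_zero.2 hσ1), zero_mul]

variable {N : ℕ} [NeZero N] {O : Type} [CommRing O] [IsDomain O] [IsDiscreteValuationRing O]
  [CharZero O] [Algebra ℤ_[ℓ] O] [Module.Finite ℤ_[ℓ] O] [Algebra (AlgebraicClosure ℚ) ℂ_[ℓ]]
  {χ : CuspForm.heckeAlgebra N 2 ∅ →+* O}

local notation "ιO" => (algebraMap ℤ_[ℓ] O : ℤ_[ℓ] →+* O)
local notation "ιA" => (algebraMap (AlgebraicClosure ℚ) ℂ_[ℓ] : AlgebraicClosure ℚ →+* ℂ_[ℓ])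

omit [CharZero O] [Module.Finite ℤ_[ℓ] O] [Algebra (AlgebraicClosure ℚ) ℂ_[ℓ]] in
/-- The cyclotomic character reduces to the mod `ℓ` one. -/
lemma residue_padCyclo (hm : (ℓ : O) ∈ maximalIdeal O) (g : GQ) :
    residue O (ιO (padCyclo ℓ g)) = ((cyc ℓ g).val : ResidueField O) := by
  exact (FermatAgent.ES.map_padCyclo_eq ℓ ((residue O).comp ιO) (natCast_eq_zero_residue hm)
    (zetaQ_spec ℓ) (apply_root ℓ g (zetaQ_spec ℓ).pow_eq_one) :)

omit [Algebra (AlgebraicClosure ℚ) ℂ_[ℓ]] in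
lemma exists_inertia_padCyclo_ne_one (ι : Qbar →+* ℂ_[ℓ]) :
    ∃ g ∈ (padVal ι).inertiaSubgroupIn ℚ, padCyclo ℓ g ≠ 1 := by
  obtain ⟨g, hg, k, ζ, hζ, hne⟩ := exists_inertia_moving ι
  refine ⟨g, hg, fun h3 => hne ?_⟩
  rw [FermatAgent.ES.padCyclo_spec ℓ g k hζ, h3, map_one]
  rcases eq_or_ne k 0 with rfl | hk
  · simp [show ζ = 1 by simpa using hζ]
  · have : Fact (1 < ℓ ^ k) := ⟨Nat.one_lt_pow hk hℓ.out.one_lt⟩
    rw [ZMod.val_one, pow_one]

omit [CharZero O] in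
/-- A high power of the maximal ideal is divisible by a given nonzero element. -/
lemma exists_pow_le_dvd {a : O} (ha : a ≠ 0) : ∃ k : ℕ, ∀ x ∈ maximalIdeal O ^ k, a ∣ x := by
  obtain ⟨π, hπ⟩ := IsDiscreteValuationRing.exists_irreducible O
  obtain ⟨k, u, rfl⟩ := IsDiscreteValuationRing.eq_unit_mul_pow_irreducible ha hπ
  refine ⟨k, fun x hx => ?_⟩
  rw [hπ.maximalIdeal_eq, Ideal.span_singleton_pow, Ideal.mem_span_singleton] at hx
  exact Units.mul_left_dvd.2 hx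

variable (ℓ) in
/-- A frame `E` of the eigenlattice adapted to a descent setting `S` at `(ℓ, N)`: the determinant is
cyclotomic, `S.ρ` is the Galois action in `E`, the line `W` is spanned by `E 1`, and `E` spans
a sublattice of full rank. -/
structure IsDescentFrame (S : DescentSetting O) (E : Fin 2 → eigLat χ) : Prop where
  ℓ_eq : S.ℓ = ℓ
  N_eq : S.N = N
  Aℓ_eq : S.Aℓ = padVal ιA
  det_eq : ∀ g, (S.ρ g).det = ιO (padCyclo ℓ g)
  eigEnd_eq : ∀ g j, eigEnd ιO χ g (E j) = S.ρ g 0 j • E 0 + S.ρ g 1 j • E 1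
  mem_wLat : E 1 ∈ wLat ℓ χ
  linearIndependent : LinearIndependent O E
  line : ∀ v ∈ wLat ℓ χ, ∃ a : O, v = a • E 1
  exists_span : ∃ d : O, d ≠ 0 ∧ ∀ v, ∃ a b : O, d • v = a • E 0 + b • E 1

variable (h : IsEisSystem ℓ N χ) {e : Module.Basis (Fin 2) O (eigLat χ)}
  (he1 : e 1 ∈ wLat ℓ χ) (he0 : ∀ v ∈ wLat ℓ χ, e.repr v 0 = 0)

include h

omit [CharZero O] [Module.Finite ℤ_[ℓ] O] [Algebra (AlgebraicClosure ℚ) ℂ_[ℓ]] in
/-- Inertia at `N` is unipotent. -/
lemma IsEisSystem.frameMat_unipotent {A : ValuationSubring Qbar} (hA : A.LiesOverPrime N) {g : GQ}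
    (hg : g ∈ A.inertiaSubgroupIn ℚ) : (frameMat (ℓ := ℓ) e g - 1) ^ 2 = 0 :=
  frameMat_sub_one_sq e (BAD.galMat_unipotent ℓ h.prime dvd_rfl (fun hd => by
    have := Nat.le_of_dvd h.prime.pos hd
    nlinarith [h.prime.two_le]) h.ne.symm hA hg)

include he1 he0

/-- The upper right entry is not identically zero. -/
theorem IsEisSystem.exists_frameMat_ne_zero : ∃ g, frameMat (ℓ := ℓ) e g 0 1 ≠ 0 := by
  by_contra hcon
  push Not at hcon
  obtain ⟨F, hF⟩ := exists_isFrobeniusAt hℓ.out (padVal_liesOverPrime (ι := ιA))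
  refine h.frameMat_frobenius he1 he0 hF ?_
  suffices h1 : frameMat (ℓ := ℓ) e F 0 0 - 1 = 0 by rw [sub_eq_zero.1 h1, one_pow]
  obtain ⟨π, hπ⟩ := IsDiscreteValuationRing.exists_irreducible O
  refine eq_zero_of_forall_pow_dvd (a := π) (by
    rw [hπ.maximalIdeal_eq]; exact Ideal.mem_span_singleton_self π) fun k => ?_
  rw [← Ideal.mem_span_singleton, ← Ideal.span_singleton_pow, ← hπ.maximalIdeal_eq,
    ← Ideal.Quotient.eq_zero_iff_mem, map_sub, sub_eq_zero]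
  set R := frameMat (ℓ := ℓ) e
  let f : GQ →* O ⧸ maximalIdeal O ^ k :=
    { toFun := fun g => Ideal.Quotient.mk _ (R g 0 0)
      map_one' := by rw [map_one, Matrix.one_apply_eq, map_one]
      map_mul' := fun σ τ => by
        rw [map_mul, Matrix.mul_apply, Fin.sum_univ_two, hcon, zero_mul, add_zero, map_mul] }
  obtain ⟨L, hL, hfix⟩ := h.frameMat_continuous e k
  have := hL
  refine DFunLike.congr_fun (monoidHom_eq_one_of_unramified f ?_ fun q hq A hA σ hσ => ?_) F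
  · refine Subgroup.isOpen_mono (fun g hg => MonoidHom.mem_ker.2 ?_)
      (IntermediateField.fixingSubgroup_isOpen L)
    show Ideal.Quotient.mk _ (R g 0 0) = 1
    rw [← map_one (Ideal.Quotient.mk (maximalIdeal O ^ k)), Ideal.Quotient.eq]
    simpa using hfix g hg 0 0
  · show Ideal.Quotient.mk _ (R σ 0 0) = 1
    suffices h0 : R σ 0 0 = 1 by rw [h0, map_one]
    by_cases hqℓ : q = ℓ
    · rw [hqℓ] at hA
      obtain ⟨τ, hτ⟩ := exists_smul_eq hℓ.out (padVal_liesOverPrime (ι := ιA)) hA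
      have h1 := conj_mem_inertiaSubgroupIn hℓ.out hA hσ τ⁻¹
      rw [← hτ, inv_smul_smul] at h1
      have h2 := h.frameMat_inertia he0 h1
      have h3 : R (τ⁻¹ * τ) 0 0 = 1 := by rw [inv_mul_cancel, map_one, Matrix.one_apply_eq]
      rw [inv_inv] at h2
      simp only [← show R = frameMat (ℓ := ℓ) e from rfl, map_mul, Matrix.mul_apply,
        Fin.sum_univ_two, hcon, zero_mul, add_zero] at h2 h3
      linear_combination h2 - R σ 0 0 * h3
    by_cases hqN : q = N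
    · have h2 := h.frameMat_unipotent (e := e) (hqN ▸ hA) hσ
      have h3 := congrFun (congrFun h2 0) 0
      rw [sq, Matrix.mul_apply, Fin.sum_univ_two] at h3
      simp only [← show R = frameMat (ℓ := ℓ) e from rfl, Matrix.sub_apply, hcon,
        Matrix.one_apply_eq, Matrix.one_apply_ne (show (0 : Fin 2) ≠ 1 by decide), sub_zero,
        zero_mul, add_zero, Matrix.zero_apply, mul_self_eq_zero, sub_eq_zero] at h3
      exact h3
    · have h4 : R σ = 1 := h.frameMat_unramified e hq hqℓ hqN hA hσ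
      rw [h4, Matrix.one_apply_eq]

/-- The representation with the upper right entry made primitive. -/
theorem IsEisSystem.exists_scaled :
    ∃ (d : O) (R : GQ →* Matrix (Fin 2) (Fin 2) O), d ≠ 0 ∧
      (∀ g, R g 0 0 = frameMat (ℓ := ℓ) e g 0 0 ∧ R g 1 1 = frameMat (ℓ := ℓ) e g 1 1 ∧
        d * R g 0 1 = frameMat (ℓ := ℓ) e g 0 1 ∧ R g 1 0 = d * frameMat (ℓ := ℓ) e g 1 0) ∧
      ∃ g, residue O (R g 0 1) ≠ 0 := by
  obtain ⟨π, hπ⟩ := IsDiscreteValuationRing.exists_irreducible O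
  set M := frameMat (ℓ := ℓ) e
  obtain ⟨g₁, hg₁⟩ := h.exists_frameMat_ne_zero he1 he0
  have hex : ∃ n, ∃ g, ¬ π ^ (n + 1) ∣ M g 0 1 := by
    by_contra hc
    push Not at hc
    refine hg₁ (eq_zero_of_forall_pow_dvd (a := π) (by
      rw [hπ.maximalIdeal_eq]; exact Ideal.mem_span_singleton_self π) fun n => ?_)
    exact (pow_dvd_pow π n.le_succ).trans (hc n g₁)
  set n := Nat.find hex with hn
  obtain ⟨g₀, hg₀⟩ := Nat.find_spec hex
  have hdvd : ∀ g, π ^ n ∣ M g 0 1 := by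
    intro g
    rcases Nat.eq_zero_or_pos n with h0 | hpos
    · rw [h0, pow_zero]; exact one_dvd _
    · have hmin := Nat.find_min hex (show n - 1 < n by omega)
      push Not at hmin
      have := hmin g
      rwa [Nat.sub_add_cancel hpos] at this
  choose b hb using hdvd
  have hd : π ^ n ≠ 0 := pow_ne_zero _ hπ.ne_zero
  have hmul : ∀ σ τ i j, M (σ * τ) i j = M σ i 0 * M τ 0 j + M σ i 1 * M τ 1 j := fun σ τ i j => by
    rw [map_mul, Matrix.mul_apply, Fin.sum_univ_two]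
  let R : GQ →* Matrix (Fin 2) (Fin 2) O :=
    { toFun := fun g => !![M g 0 0, b g; π ^ n * M g 1 0, M g 1 1]
      map_one' := by
        have h1 := hb 1
        rw [map_one, Matrix.one_apply_ne (show (0 : Fin 2) ≠ 1 by decide), eq_comm,
          mul_eq_zero] at h1
        ext i j
        fin_cases i <;> fin_cases j <;> simp [h1.resolve_left hd]
      map_mul' := fun σ τ => by
        ext i j
        fin_cases i <;> fin_cases j <;>
          simp only [Matrix.mul_apply, Fin.sum_univ_two, Matrix.of_apply, Matrix.cons_val',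
            Matrix.cons_val_zero, Matrix.cons_val_one, Matrix.cons_val_fin_one, Fin.zero_eta,
            Fin.mk_one]
        · linear_combination hmul σ τ 0 0 + M τ 1 0 * hb σ
        · refine mul_left_cancel₀ hd ?_
          linear_combination -hb (σ * τ) + hmul σ τ 0 1 + M σ 0 0 * hb τ + M τ 1 1 * hb σ
        · linear_combination π ^ n * hmul σ τ 1 0
        · linear_combination hmul σ τ 1 1 + M σ 1 0 * hb τ }
  refine ⟨π ^ n, R, hd, fun g => ⟨rfl, rfl, (hb g).symm, rfl⟩, g₀, fun h0 => hg₀ ?_⟩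
  rw [residue_eq_zero_iff, hπ.maximalIdeal_eq, Ideal.mem_span_singleton] at h0
  rw [hb g₀, pow_succ]
  exact mul_dvd_mul_left _ h0

omit he1 he0

/-- A representation obtained from the frame by making the upper right entry primitive. -/
structure IsScaled (e : Module.Basis (Fin 2) O (eigLat χ)) (d : O)
    (R : GQ →* Matrix (Fin 2) (Fin 2) O) : Prop where
  ne : d ≠ 0
  entries : ∀ g, R g 0 0 = frameMat (ℓ := ℓ) e g 0 0 ∧ R g 1 1 = frameMat (ℓ := ℓ) e g 1 1 ∧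
    d * R g 0 1 = frameMat (ℓ := ℓ) e g 0 1 ∧ R g 1 0 = d * frameMat (ℓ := ℓ) e g 1 0
  primitive : ∃ g, residue O (R g 0 1) ≠ 0

variable {d : O} {R : GQ →* Matrix (Fin 2) (Fin 2) O} (hS : IsScaled (ℓ := ℓ) e d R)

include hS

section

omit [Module.Finite ℤ_[ℓ] O] [Algebra (AlgebraicClosure ℚ) ℂ_[ℓ]]

omit h [CharZero O] in
lemma IsScaled.bc (g : GQ) :
    R g 0 1 * R g 1 0 = frameMat (ℓ := ℓ) e g 0 1 * frameMat (ℓ := ℓ) e g 1 0 := by
  obtain ⟨-, -, h01, h10⟩ := hS.entries g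
  rw [h10, ← h01]; ring

lemma IsScaled.det (g : GQ) : (R g).det = ιO (padCyclo ℓ g) := by
  rw [← h.det_frameMat e g, Matrix.det_fin_two, Matrix.det_fin_two, hS.bc, (hS.entries g).1,
    (hS.entries g).2.1]

lemma IsScaled.continuous (r : ℕ) :
    ∃ L : IntermediateField ℚ Qbar, FiniteDimensional ℚ L ∧
      ∀ g ∈ L.fixingSubgroup, ∀ i j, (ℓ : O) ^ r ∣ (R g - 1) i j := by
  obtain ⟨k, hk⟩ := exists_pow_le_dvd (mul_ne_zero hS.ne
    (pow_ne_zero r (Nat.cast_ne_zero.2 hℓ.out.ne_zero : (ℓ : O) ≠ 0)))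
  obtain ⟨L, hL, hfix⟩ := h.frameMat_continuous e k
  refine ⟨L, hL, fun g hg i j => ?_⟩
  obtain ⟨h00, h11, h01, h10⟩ := hS.entries g
  have h2 := hk _ (hfix g hg i j)
  fin_cases i <;> fin_cases j <;> simp at h2 ⊢
  · rw [h00]; exact dvd_of_mul_left_dvd h2
  · rw [← h01] at h2; exact (mul_dvd_mul_iff_left hS.ne).1 h2
  · rw [h10]; exact (dvd_of_mul_left_dvd h2).mul_left d
  · rw [h11]; exact dvd_of_mul_left_dvd h2

omit [CharZero O] in
lemma IsScaled.unramified {q : ℕ} (hq : q.Prime) (hqℓ : q ≠ ℓ) (hqN : q ≠ N)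
    {A : ValuationSubring Qbar} (hA : A.LiesOverPrime q) {σ : GQ}
    (hσ : σ ∈ A.inertiaSubgroupIn ℚ) : R σ = 1 := by
  have h1 : frameMat (ℓ := ℓ) e σ = 1 := h.frameMat_unramified e hq hqℓ hqN hA hσ
  obtain ⟨h00, h11, h01, h10⟩ := hS.entries σ
  rw [h1] at h00 h11 h01 h10
  ext i j
  fin_cases i <;> fin_cases j <;> simp at h00 h11 h01 h10 ⊢
  · exact h00
  · exact h01.resolve_left hS.ne
  · exact h10
  · exact h11

omit [CharZero O] in
lemma IsScaled.unipotent {A : ValuationSubring Qbar} (hA : A.LiesOverPrime N) {σ : GQ}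
    (hσ : σ ∈ A.inertiaSubgroupIn ℚ) : (R σ 0 0 - 1) + (R σ 1 1 - 1) = 0 ∧
      (R σ 0 0 - 1) * (R σ 0 0 - 1) + R σ 0 1 * R σ 1 0 = 0 := by
  have h2 : (frameMat (ℓ := ℓ) e σ - 1) ^ 2 = 0 := h.frameMat_unipotent hA hσ
  have h3 := trace_eq_zero_of_sq h2
  have h4 := congrFun (congrFun h2 0) 0
  rw [sq, Matrix.mul_apply, Fin.sum_univ_two] at h4
  simp at h3 h4
  rw [hS.bc, (hS.entries σ).1, (hS.entries σ).2.1]
  exact ⟨h3, h4⟩

end

include he1 he0

omit [CharZero O] [Module.Finite ℤ_[ℓ] O] h in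
lemma IsScaled.decomposition {σ : GQ} (hσ : σ ∈ (padVal ιA).decompositionSubgroup ℚ) :
    R σ 0 1 = 0 := by
  have h1 := (hS.entries σ).2.2.1
  rw [frameMat_decomposition he1 he0 hσ, mul_eq_zero] at h1
  exact h1.resolve_left hS.ne

omit [CharZero O] he1 in
lemma IsScaled.inertia {σ : GQ} (hσ : σ ∈ (padVal ιA).inertiaSubgroupIn ℚ) : R σ 0 0 = 1 := by
  rw [(hS.entries σ).1, h.frameMat_inertia he0 hσ]

/-- A residual fixed vector off the line, and the residual ramification at `N`. -/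
theorem IsScaled.residual {AN : ValuationSubring Qbar} (hAN : AN.LiesOverPrime N) :
    ∃ c : ResidueField O,
      (∀ g, residue O (R g 0 0) + residue O (R g 0 1) * c = 1 ∧
        residue O (R g 1 0) + residue O (R g 1 1) * c = c) ∧
      ∃ σN ∈ AN.inertiaSubgroupIn ℚ, residue O (R σN 0 1) ≠ 0 := by
  obtain ⟨g₀, hg₀⟩ := hS.primitive
  have hdet : ∀ g, (R g).det = ιO (padCyclo ℓ g) := fun g => hS.det h g
  have hRD : ∀ σ ∈ (padVal ιA).decompositionSubgroup ℚ, R σ 0 1 = 0 :=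
    fun σ hσ => hS.decomposition he1 he0 hσ
  have hRI : ∀ σ ∈ (padVal ιA).inertiaSubgroupIn ℚ, R σ 0 0 = 1 :=
    fun σ hσ => hS.inertia h he0 hσ
  -- residual analysis
  set k := ResidueField O
  have : CharP k ℓ := (CharP.charP_iff_prime_eq_zero hℓ.out).2 (natCast_eq_zero_residue h.mem)
  set rb : GQ →* Matrix (Fin 2) (Fin 2) k := (residue O).mapMatrix.toMonoidHom.comp R with hrb
  have hrb1 : ∀ g, (rb g - 1).det = 0 := fun g => by
    have h1 : (rb g - 1).det = residue O (R g - 1).det := by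
      rw [RingHom.map_det, map_sub, map_one]; rfl
    rw [h1, ← h.det_frameMat_sub_one e g]
    congr 1
    obtain ⟨h00, h11, -, -⟩ := hS.entries g
    simp only [Matrix.det_fin_two, Matrix.sub_apply, Matrix.one_apply_eq,
      Matrix.one_apply_ne (show (0 : Fin 2) ≠ 1 by decide),
      Matrix.one_apply_ne (show (1 : Fin 2) ≠ 0 by decide), sub_zero, hS.bc, h00, h11]
  have hg₀' : rb g₀ 0 1 ≠ 0 := hg₀
  obtain ⟨v, hv, hfix⟩ : ∃ v ≠ 0, ∀ g, rb g *ᵥ v = v := by
    refine (common_fixed rb hrb1).elim id ?_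
    rintro ⟨w, hw, hwfix⟩
    have hw1 : w 1 ≠ 0 := by
      intro h1
      have h01 := congrFun (hwfix g₀) 1
      simp [Matrix.vecMul, dotProduct, Fin.sum_univ_two, h1] at h01
      exact hw (funext fun i => by fin_cases i <;> simp [h01.resolve_right hg₀', h1])
    have h2 : ℓ = 2 := by
      by_contra h2
      obtain ⟨σ, hσ, hσ1⟩ := exists_cyc_ne_one ιA h2
      refine hσ1 ?_
      have h01 := congrFun (hwfix σ) 1
      have hr01 : rb σ 0 1 = 0 := by
        show residue O (R σ 0 1) = 0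
        rw [hRD σ (inertiaSubgroupIn_le_decompositionSubgroup _ hσ), map_zero]
      simp [Matrix.vecMul, dotProduct, Fin.sum_univ_two, hr01, hw1] at h01
      have h3 : residue O (ιO (padCyclo ℓ σ)) = 1 := by
        rw [← hdet, Matrix.det_fin_two, hRI σ hσ,
          hRD σ (inertiaSubgroupIn_le_decompositionSubgroup _ hσ), one_mul, zero_mul, sub_zero]
        exact h01
      rw [residue_padCyclo h.mem, ← Nat.cast_one, CharP.natCast_eq_natCast k ℓ] at h3
      rw [← ZMod.natCast_zmod_val (cyc ℓ σ), ← Nat.cast_one]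
      exact (ZMod.natCast_eq_natCast_iff _ _ _).2 h3
    refine ⟨![-w 1, w 0], fun h0 => hw1 (by simpa using congrFun h0 0), fun g => ?_⟩
    have h4 : (rb g).det = 1 := by
      rw [show (rb g).det = residue O (R g).det from (RingHom.map_det _ _).symm, hdet,
        residue_padCyclo h.mem, cyc_eq_one_of_two h2, ZMod.val_one, Nat.cast_one]
    have h5 := hrb1 g
    have h6 : (rb g - 1) *ᵥ ![-w 1, w 0] = 0 := by
      refine mulVec_eq_zero_of_vecMul (by
        rw [Matrix.vecMul_sub, hwfix, Matrix.vecMul_one, sub_self]) ?_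
      simp only [Matrix.det_fin_two, Matrix.sub_apply, Matrix.one_apply_eq,
        Matrix.one_apply_ne (show (0 : Fin 2) ≠ 1 by decide),
        Matrix.one_apply_ne (show (1 : Fin 2) ≠ 0 by decide), sub_zero] at h4 h5 ⊢
      linear_combination h4 - h5
    rwa [Matrix.sub_mulVec, Matrix.one_mulVec, sub_eq_zero] at h6
  have hv0 : v 0 ≠ 0 := by
    intro h0
    have h1 := congrFun (hfix g₀) 0
    simp [Matrix.mulVec, dotProduct, Fin.sum_univ_two, h0] at h1
    exact hv (funext fun i => by fin_cases i <;> simp [h0, h1.resolve_left hg₀'])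
  set c := v 1 / v 0
  have hv1 : v 1 = c * v 0 := (div_mul_cancel₀ _ hv0).symm
  have hc : ∀ g, rb g 0 0 + rb g 0 1 * c = 1 ∧ rb g 1 0 + rb g 1 1 * c = c := fun g => by
    have h1 := congrFun (hfix g) 0
    have h2 := congrFun (hfix g) 1
    simp [Matrix.mulVec, dotProduct, Fin.sum_univ_two, hv1] at h1 h2
    exact ⟨mul_right_cancel₀ hv0 (by linear_combination h1),
      mul_right_cancel₀ hv0 (by linear_combination h2)⟩
  have hχ : ∀ g, ((cyc ℓ g).val : k) = rb g 1 1 - c * rb g 0 1 := fun g => by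
    rw [← residue_padCyclo h.mem, ← hdet, RingHom.map_det, Matrix.det_fin_two]
    show rb g 0 0 * rb g 1 1 - rb g 0 1 * rb g 1 0 = _
    linear_combination rb g 1 1 * (hc g).1 - rb g 0 1 * (hc g).2
  obtain ⟨σN, hσN, hηN⟩ := exists_ne_zero_inertia (N := N) ιA (fun g => rb g 0 1)
    (fun σ τ => by
      show rb (σ * τ) 0 1 = rb τ 0 1 + rb σ 0 1 * _
      rw [hχ, map_mul, Matrix.mul_apply, Fin.sum_univ_two]
      linear_combination rb τ 0 1 * (hc σ).1)
    (by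
      obtain ⟨L, hL, hfix'⟩ := hS.continuous h 1
      refine ⟨L, hL, fun g hg => ?_⟩
      obtain ⟨x, hx⟩ := hfix' g hg 0 1
      simp at hx
      show residue O (R g 0 1) = 0
      rw [hx, map_mul, map_natCast, natCast_eq_zero_residue h.mem, zero_mul])
    (fun q hq hqℓ hqN A hA σ hσ => by
      show residue O (R σ 0 1) = 0
      rw [hS.unramified h hq hqℓ hqN hA hσ, Matrix.one_apply_ne (by decide), map_zero])
    (fun σ hσ => by
      show residue O (R σ 0 1) = 0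
      rw [hRD σ hσ, map_zero])
    ⟨g₀, hg₀'⟩ h.prime h.ne hAN
  exact ⟨c, hc, σN, hσN, hηN⟩

omit he1 he0 hS

section

omit h [CharZero O]

omit [IsDomain O] [IsDiscreteValuationRing O] [Module.Finite ℤ_[ℓ] O]
    [Algebra (AlgebraicClosure ℚ) ℂ_[ℓ]] in
lemma eigEnd_shear (e : Module.Basis (Fin 2) O (eigLat χ)) {d s : O}
    {R ρ : GQ →* Matrix (Fin 2) (Fin 2) O}
    (hR : ∀ g, R g 0 0 = frameMat (ℓ := ℓ) e g 0 0 ∧ R g 1 1 = frameMat (ℓ := ℓ) e g 1 1 ∧
      d * R g 0 1 = frameMat (ℓ := ℓ) e g 0 1 ∧ R g 1 0 = d * frameMat (ℓ := ℓ) e g 1 0)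
    (hρ : ∀ g, ρ g 0 0 = R g 0 0 + s * R g 0 1 ∧ ρ g 0 1 = R g 0 1 ∧
      ρ g 1 0 = R g 1 0 + s * R g 1 1 - s * ρ g 0 0 ∧ ρ g 1 1 = R g 1 1 - s * R g 0 1)
    (g : GQ) (j : Fin 2) : eigEnd ιO χ g (![d • e 0 + s • e 1, e 1] j) =
      ρ g 0 j • (d • e 0 + s • e 1) + ρ g 1 j • e 1 := by
  obtain ⟨h00, h11, h01, h10⟩ := hR g
  obtain ⟨r00, r01, r10, r11⟩ := hρ g
  fin_cases j
  · show eigEnd ιO χ g (d • e 0 + s • e 1) = _
    rw [map_add, map_smul, map_smul, eigEnd_basis e g, eigEnd_basis e g, ← h01, ← h00, ← h11]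
    show _ = ρ g 0 0 • _ + ρ g 1 0 • _
    rw [r10, r00, h10]
    module
  · show eigEnd ιO χ g (e 1) = ρ g 0 1 • _ + ρ g 1 1 • _
    rw [eigEnd_basis e g, ← h01, ← h11, r11, r01]
    module

omit [IsDiscreteValuationRing O] in
lemma shear_linearIndependent (e : Module.Basis (Fin 2) O (eigLat χ)) {d : O} (hd : d ≠ 0) (s : O) :
    LinearIndependent O ![d • e 0 + s • e 1, e 1] := by
  refine LinearIndependent.pair_iff.2 fun x y hxy => ?_
  have h := Fintype.linearIndependent_iff.1 e.linearIndependent ![x * d, x * s + y] (by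
    rw [Fin.sum_univ_two, ← hxy]
    simp only [Matrix.cons_val_zero, Matrix.cons_val_one, smul_add, smul_smul, add_smul, add_assoc])
  have hx : x = 0 := (mul_eq_zero.1 (h 0)).resolve_right hd
  have h1 : x * s + y = 0 := h 1
  rw [hx, zero_mul, zero_add] at h1
  exact ⟨hx, h1⟩

omit [IsDomain O] [IsDiscreteValuationRing O] [Module.Finite ℤ_[ℓ] O] in
lemma shear_line (e : Module.Basis (Fin 2) O (eigLat χ))
    (he0 : ∀ v ∈ wLat ℓ χ, e.repr v 0 = 0) (s d : O) (u : eigLat χ) (hu : u ∈ wLat ℓ χ) :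
    ∃ a : O, u = a • ![d • e 0 + s • e 1, e 1] 1 := by
  refine ⟨e.repr u 1, ?_⟩
  conv_lhs => rw [← e.sum_repr u, Fin.sum_univ_two, he0 u hu, zero_smul, zero_add]
  rfl

omit [IsDomain O] [IsDiscreteValuationRing O] in
lemma shear_span (e : Module.Basis (Fin 2) O (eigLat χ)) (s d : O) (v : eigLat χ) :
    ∃ a b : O, d • v = a • ![d • e 0 + s • e 1, e 1] 0 + b • ![d • e 0 + s • e 1, e 1] 1 := by
  refine ⟨e.repr v 0, d * e.repr v 1 - e.repr v 0 * s, ?_⟩
  conv_lhs => rw [← e.sum_repr v, Fin.sum_univ_two]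
  simp only [Matrix.cons_val_zero, Matrix.cons_val_one]
  module

omit [IsDomain O] [IsDiscreteValuationRing O] [Algebra ℤ_[ℓ] O] [Module.Finite ℤ_[ℓ] O]
    [Algebra (AlgebraicClosure ℚ) ℂ_[ℓ]] in
/-- Conjugation of a representation by a lower unipotent matrix. -/
private lemma exists_shear (R : GQ →* Matrix (Fin 2) (Fin 2) O) (s : O) :
    ∃ ρ : GQ →* Matrix (Fin 2) (Fin 2) O, ∀ g, ρ g 0 0 = R g 0 0 + s * R g 0 1 ∧
      ρ g 0 1 = R g 0 1 ∧ ρ g 1 0 = R g 1 0 + s * R g 1 1 - s * ρ g 0 0 ∧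
      ρ g 1 1 = R g 1 1 - s * R g 0 1 := by
  have hRmul : ∀ σ τ i j, R (σ * τ) i j = R σ i 0 * R τ 0 j + R σ i 1 * R τ 1 j := fun σ τ i j => by
    rw [map_mul, Matrix.mul_apply, Fin.sum_univ_two]
  refine ⟨{
    toFun := fun g => !![R g 0 0 + s * R g 0 1, R g 0 1;
      R g 1 0 + s * R g 1 1 - s * (R g 0 0 + s * R g 0 1), R g 1 1 - s * R g 0 1]
    map_one' := by
      ext i j
      fin_cases i <;> fin_cases j <;> simp
    map_mul' := fun σ τ => by
      ext i j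
      fin_cases i <;> fin_cases j <;>
        simp only [Matrix.mul_apply, Fin.sum_univ_two, Matrix.of_apply, Matrix.cons_val',
          Matrix.cons_val_zero, Matrix.cons_val_one, Matrix.cons_val_fin_one, Fin.zero_eta,
          Fin.mk_one, hRmul] <;>
        ring }, fun g => ⟨rfl, rfl, rfl, rfl⟩⟩

omit [IsDomain O] [IsDiscreteValuationRing O] [Algebra ℤ_[ℓ] O] [Module.Finite ℤ_[ℓ] O]
    [Algebra (AlgebraicClosure ℚ) ℂ_[ℓ]] in
/-- Shearing preserves congruences to the identity. -/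
private lemma shear_dvd_sub_one {R ρ : GQ →* Matrix (Fin 2) (Fin 2) O} {s : O}
    (hρ : ∀ g, ρ g 0 0 = R g 0 0 + s * R g 0 1 ∧ ρ g 0 1 = R g 0 1 ∧
      ρ g 1 0 = R g 1 0 + s * R g 1 1 - s * ρ g 0 0 ∧ ρ g 1 1 = R g 1 1 - s * R g 0 1)
    {g : GQ} {a : O}
    (ha : ∀ i j, a ∣ (R g - 1) i j) (i j : Fin 2) : a ∣ (ρ g - 1) i j := by
  have e00 := ha 0 0
  have e01 := ha 0 1
  have e10 := ha 1 0
  have e11 := ha 1 1
  simp at e00 e01 e10 e11
  fin_cases i <;> fin_cases j <;>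
    simp [(hρ g).1, (hρ g).2.1, (hρ g).2.2.1, (hρ g).2.2.2]
  · exact (dvd_add e00 (e01.mul_left s)).trans (dvd_of_eq (by ring))
  · exact e01
  · exact (dvd_add e10 (dvd_sub (e11.mul_left s)
      ((dvd_add e00 (e01.mul_left s)).mul_left s))).trans (dvd_of_eq (by ring))
  · exact (dvd_sub e11 (e01.mul_left s)).trans (dvd_of_eq (by ring))

omit [IsDiscreteValuationRing O] [Algebra ℤ_[ℓ] O] [Module.Finite ℤ_[ℓ] O]
    [Algebra (AlgebraicClosure ℚ) ℂ_[ℓ]] in
/-- If a member `σN` of the group has nonzero upper right entry and is sheared to be unipotent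
upper triangular, so is every member. -/
private lemma shear_unipotent {R ρ : GQ →* Matrix (Fin 2) (Fin 2) O} {s : O}
    (hρ : ∀ g, ρ g 0 0 = R g 0 0 + s * R g 0 1 ∧ ρ g 0 1 = R g 0 1 ∧
      ρ g 1 0 = R g 1 0 + s * R g 1 1 - s * ρ g 0 0 ∧ ρ g 1 1 = R g 1 1 - s * R g 0 1)
    {I : Subgroup GQ} (hR : ∀ σ ∈ I, (R σ 0 0 - 1) + (R σ 1 1 - 1) = 0 ∧
      (R σ 0 0 - 1) * (R σ 0 0 - 1) + R σ 0 1 * R σ 1 0 = 0)
    {σN : GQ} (hσN : σN ∈ I) (hb : R σN 0 1 ≠ 0) (hsb : s * R σN 0 1 = -(R σN 0 0 - 1))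
    {σ : GQ} (hσ : σ ∈ I) : ρ σ 0 0 = 1 ∧ ρ σ 1 0 = 0 ∧ ρ σ 1 1 = 1 := by
  have huρ : ∀ σ ∈ I, (ρ σ 0 0 - 1) + (ρ σ 1 1 - 1) = 0 ∧
      (ρ σ 0 0 - 1) * (ρ σ 0 0 - 1) + ρ σ 0 1 * ρ σ 1 0 = 0 := by
    intro σ hσ
    obtain ⟨h1, h2⟩ := hR σ hσ
    rw [(hρ σ).2.2.1, (hρ σ).2.2.2, (hρ σ).2.1, (hρ σ).1]
    exact ⟨by linear_combination h1, by linear_combination h2 + s * R σ 0 1 * h1⟩
  have hσN0 : ρ σN 0 0 = 1 := by rw [(hρ σN).1, hsb]; ring
  have hσN1 : ρ σN 1 0 = 0 := by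
    have h2 := (huρ σN hσN).2
    rw [hσN0, sub_self, zero_mul, zero_add, (hρ σN).2.1, mul_eq_zero] at h2
    exact h2.resolve_left hb
  obtain ⟨h1, h2⟩ := huρ σ hσ
  have h3 := (huρ (σN * σ) (mul_mem hσN hσ)).1
  rw [map_mul, Matrix.mul_apply, Matrix.mul_apply, Fin.sum_univ_two, Fin.sum_univ_two,
    hσN0, hσN1] at h3
  have h4 : R σN 0 1 * ρ σ 1 0 = 0 := by
    rw [← (hρ σN).2.1]
    linear_combination h3 - h1 - ρ σ 1 1 * (huρ σN hσN).1 + ρ σ 1 1 * hσN0
  have h5 : ρ σ 1 0 = 0 := (mul_eq_zero.1 h4).resolve_left hb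
  rw [h5, mul_zero, add_zero, mul_self_eq_zero, sub_eq_zero] at h2
  exact ⟨h2, h5, by linear_combination h1 - h2⟩

omit [IsDomain O] [IsDiscreteValuationRing O] [Module.Finite ℤ_[ℓ] O]
    [Algebra (AlgebraicClosure ℚ) ℂ_[ℓ]] in
/-- Modulo `ℓ ^ r` the cyclotomic character is the exponent on the roots of unity. -/
private lemma exists_dvd_sub_padCyclo (σ : GQ) (r : ℕ) :
    ∃ a : ℕ, (ℓ : O) ^ r ∣ ιO (padCyclo ℓ σ) - (a : O) ∧
      ∀ ζ : Qbar, ζ ^ ℓ ^ r = 1 → σ ζ = ζ ^ a := by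
  refine ⟨(PadicInt.toZModPow r (padCyclo ℓ σ)).val, ?_,
    fun ζ hζ => FermatAgent.ES.padCyclo_spec ℓ σ r hζ⟩
  have h1 : padCyclo ℓ σ - ((PadicInt.toZModPow r (padCyclo ℓ σ)).val : ℤ_[ℓ]) ∈
      Ideal.span {(ℓ : ℤ_[ℓ]) ^ r} := by
    rw [← PadicInt.ker_toZModPow, RingHom.mem_ker, map_sub, map_natCast,
      ZMod.natCast_zmod_val, sub_self]
  obtain ⟨x, hx⟩ := Ideal.mem_span_singleton.1 h1
  refine ⟨ιO x, ?_⟩
  rw [← map_natCast ιO, ← map_sub, hx, map_mul, map_pow, map_natCast]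

end

omit h [IsDiscreteValuationRing O] [Module.Finite ℤ_[ℓ] O] in
/-- No nonzero vector is fixed when the Frobenius eigenvalue is not one and inertia at `ℓ` acts
through the cyclotomic character. -/
private lemma fixed_eq_zero {ρ : GQ →* Matrix (Fin 2) (Fin 2) O} {F : GQ}
    (hF : ρ F 0 0 ≠ 1 ∧ ρ F 0 1 = 0) (hdet : ∀ g, (ρ g).det = ιO (padCyclo ℓ g))
    (hI : ∀ σ ∈ (padVal ιA).inertiaSubgroupIn ℚ, ρ σ 0 1 = 0 ∧ ρ σ 0 0 = 1)
    {u : Fin 2 → O} (hu : ∀ σ, ρ σ *ᵥ u = u) : u = 0 := by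
  have hF0 := congrFun (hu F) 0
  simp [Matrix.mulVec, dotProduct, Fin.sum_univ_two, hF.2] at hF0
  have hu0 : u 0 = 0 := by
    by_contra h0
    exact hF.1 ((mul_eq_right₀ h0).1 hF0)
  obtain ⟨σ, hσ, hne⟩ := exists_inertia_padCyclo_ne_one ιA
  have hσ1 := congrFun (hu σ) 1
  simp [Matrix.mulVec, dotProduct, Fin.sum_univ_two, hu0] at hσ1
  funext i
  fin_cases i
  · exact hu0
  · by_contra h0
    refine hne (algebraMap_padicInt_injective (O := O) ?_)
    rw [map_one, ← hdet, Matrix.det_fin_two, (hI σ hσ).1, (hI σ hσ).2, one_mul, zero_mul, sub_zero]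
    exact (mul_eq_right₀ h0).1 hσ1

/-- **The descent setting.** The Galois action on a full rank sublattice of the eigenlattice of an
Eisenstein system with non-vanishing `δ₁` satisfies the hypotheses of the descent. -/
theorem IsEisSystem.exists_descentSetting
    (hnz : ∃ (lam : O →ₗ[ℤ_[ℓ]] ℤ_[ℓ]) (v : eigLat χ),
      PowerSeries.coeff 1 (delt (eigPsi lam (v : Fin (parRank (Gamma0 N)) → O))) ≠ 0) :
    ∃ (D : DescentSetting O) (E : Fin 2 → eigLat χ), IsDescentFrame ℓ D E := by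
  obtain ⟨e, he1, he0⟩ := h.exists_frame hnz
  obtain ⟨d, R, hd, hR, hg₀⟩ := h.exists_scaled he1 he0
  have hS : IsScaled (ℓ := ℓ) e d R := ⟨hd, hR, hg₀⟩
  obtain ⟨F, hF⟩ := exists_isFrobeniusAt hℓ.out (padVal_liesOverPrime (ι := ιA))
  obtain ⟨hFD, -⟩ := id hF
  obtain ⟨AN, hAN⟩ := exists_liesOverPrime h.prime
  obtain ⟨c, hc, σN, hσN, hηN⟩ := hS.residual h he1 he0 hAN
  obtain ⟨bu, hbu⟩ : IsUnit (R σN 0 1) := (residue_ne_zero_iff_isUnit _).1 hηN
  set s : O := -((R σN 0 0 - 1) * ↑bu⁻¹) with hs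
  have hsb : s * R σN 0 1 = -(R σN 0 0 - 1) := by
    rw [hs, ← hbu, neg_mul, mul_assoc, Units.inv_mul, mul_one]
  have hsc : residue O s = c := by
    refine mul_right_cancel₀ hηN ?_
    show residue O s * residue O (R σN 0 1) = c * residue O (R σN 0 1)
    rw [← map_mul, hsb, map_neg, map_sub, map_one]
    linear_combination -(hc σN).1
  -- the sheared representation
  obtain ⟨ρ, hρ⟩ := exists_shear R s
  have hρdet : ∀ g, (ρ g).det = ιO (padCyclo ℓ g) := fun g => by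
    rw [← hS.det h g, Matrix.det_fin_two, Matrix.det_fin_two, (hρ g).2.1, (hρ g).2.2.1,
      (hρ g).2.2.2, (hρ g).1]
    ring
  have hρD : ∀ σ ∈ (padVal ιA).decompositionSubgroup ℚ,
      ρ σ 0 1 = 0 ∧ ρ σ 0 0 = R σ 0 0 := fun σ hσ => by
    rw [(hρ σ).1, (hρ σ).2.1, hS.decomposition he1 he0 hσ, mul_zero, add_zero]
    exact ⟨rfl, rfl⟩
  have hFsq : ρ F 0 0 ^ 2 ≠ 1 := by
    rw [(hρD F hFD).2, (hR F).1]
    exact h.frameMat_frobenius he1 he0 hF
  have hρI : ∀ σ ∈ (padVal ιA).inertiaSubgroupIn ℚ, ρ σ 0 1 = 0 ∧ ρ σ 0 0 = 1 := fun σ hσ => by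
    obtain ⟨h1, h2⟩ := hρD σ (inertiaSubgroupIn_le_decompositionSubgroup _ hσ)
    exact ⟨h1, h2.trans (hS.inertia h he0 hσ)⟩
  let D : DescentSetting O :=
    { ρ := ρ
      ℓ := ℓ
      N := N
      ℓ_prime := hℓ.out
      N_prime := h.prime
      ℓ_ne_N := h.ne
      ℓ_mem := h.mem
      continuous := fun r => by
        obtain ⟨L, hL, hfix'⟩ := hS.continuous h r
        have := hL
        exact ⟨L.fixingSubgroup, IntermediateField.fixingSubgroup_isOpen L,
          fun σ hσ => shear_dvd_sub_one hρ (hfix' σ hσ)⟩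
      unramified := fun q hq hqℓ hqN A hA σ hσ => by
        have h1 := hS.unramified h hq hqℓ hqN hA hσ
        ext i j
        fin_cases i <;> fin_cases j <;>
          simp [(hρ σ).1, (hρ σ).2.1, (hρ σ).2.2.1, (hρ σ).2.2.2, h1]
      det_cyclotomic := fun σ r => by
        rw [hρdet]
        exact exists_dvd_sub_padCyclo σ r
      res00 := fun σ => by
        rw [(hρ σ).1, map_add, map_mul, hsc, mul_comm]
        exact (hc σ).1
      res10 := fun σ => by
        rw [(hρ σ).2.2.1, (hρ σ).1, map_sub, map_add, map_mul, map_mul, map_add, map_mul, hsc]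
        linear_combination (hc σ).2 - c * (hc σ).1
      Aℓ := padVal ιA
      Aℓ_over := padVal_liesOverPrime
      ord01 := fun σ hσ => (hρD σ hσ).1
      ord00 := fun σ hσ => (hρI σ hσ).2
      F := F
      F_mem := hFD
      F_sq_ne := hFsq
      AN := AN
      AN_over := hAN
      unip := fun σ hσ => shear_unipotent hρ (fun τ hτ => hS.unipotent h hAN hτ) hσN
        (hbu ▸ bu.ne_zero) hsb hσ
      σN := σN
      σN_mem := hσN
      σN_ne := by rwa [(hρ σN).2.1]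
      fixed_zero := fun u hu =>
        fixed_eq_zero ⟨fun h1 => hFsq (by rw [h1, one_pow]), (hρD F hFD).1⟩ hρdet hρI hu }
  exact ⟨D, ![d • e 0 + s • e 1, e 1], rfl, rfl, rfl, hρdet,
    eigEnd_shear e (fun g => hR g) (fun g => hρ g), he1, shear_linearIndependent e hd s,
    fun u hu => shear_line e he0 s d u hu, d, hd, shear_span e s d⟩

end FermatAgent.Mazur

end
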