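import Fermat.Agent.Mazur.RootValue
import Fermat.Agent.Mazur.EigenSetting
import Fermat.Agent.Mazur.Descent
import Mathlib.Algebra.CharP.Lemmas

/-!
# No fixed point in a small disc around the cusp

An Eisenstein eigensystem at `ℓ` with non-vanishing `δ₁`, and a Galois-fixed point of the disc
close to the cusp, contradict each other: the Kummer class of the point is torsion by the descent,
so a power of `gInf ψ` would take the value `1` there.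
-/

set_option autoImplicit false

noncomputable section

open scoped Matrix MatrixGroups Classical
open IsLocalRing PowerSeries
open CongruenceSubgroup (Gamma0)
open ModularCurve.Period
open FermatAgent.Period (parRank)
open FermatAgent.ES (eigLat eigEnd galLin galPad padCyclo)
open FermatAgent.GaloisBasic

namespace FermatAgent.Mazur

attribute [-instance] IsScalarTower.of_algHom

attribute [local instance] embAlg

local notation "Qbar" => AlgebraicClosure ℚ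

variable {ℓ : ℕ} [hℓ : Fact ℓ.Prime]

/-! ### One-units of `ℂ_ℓ` -/

lemma norm_sum_pow_le {z : ℂ_[ℓ]} (hz : ‖z‖ ≤ 1) :
    ‖∑ k ∈ Finset.Ioo 0 ℓ, z ^ (k - 1) * (1 : ℂ_[ℓ]) ^ (ℓ - k - 1) * ((ℓ.choose k / ℓ : ℕ) : ℂ_[ℓ])‖
      ≤ 1 := by
  refine IsUltrametricDist.norm_sum_le_of_forall_le_of_nonneg zero_le_one fun k _ => ?_
  rw [one_pow, mul_one, norm_mul, norm_pow]
  exact mul_le_one₀ (pow_le_one₀ (norm_nonneg _) hz) (norm_nonneg _)
    (IsUltrametricDist.norm_natCast_le_one _ _)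

lemma norm_sub_one_lt_of_pow {V : ℂ_[ℓ]} (hV : ‖V‖ ≤ 1) (h : ‖V ^ ℓ - 1‖ < 1) : ‖V - 1‖ < 1 := by
  set z := V - 1 with hzdef
  have hz : ‖z‖ ≤ 1 := (norm_sub_le_max_field _ _).trans (max_le hV norm_one.le)
  have he := add_pow_prime_eq hℓ.out z (1 : ℂ_[ℓ])
  rw [show z + 1 = V by rw [hzdef, sub_add_cancel], one_pow] at he
  have h1 : z ^ ℓ = (V ^ ℓ - 1) + -((ℓ : ℂ_[ℓ]) * (z * 1 * ∑ k ∈ Finset.Ioo 0 ℓ,
      z ^ (k - 1) * 1 ^ (ℓ - k - 1) * ((ℓ.choose k / ℓ : ℕ) : ℂ_[ℓ]))) := by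
    rw [he]; ring
  have h2 : ‖z‖ ^ ℓ < 1 := by
    rw [← norm_pow, h1]
    refine (IsUltrametricDist.norm_add_le_max _ _).trans_lt (max_lt h ?_)
    rw [norm_neg, norm_mul, norm_mul, norm_mul, norm_one, mul_one]
    exact mul_lt_one_of_nonneg_of_lt_one_left (norm_nonneg _) norm_prime_cp_lt_one
      (mul_le_one₀ hz (norm_nonneg _) (norm_sum_pow_le hz))
  exact (pow_lt_one_iff_of_nonneg (norm_nonneg _) hℓ.out.ne_zero).1 h2

lemma norm_pow_sub_one_le {z : ℂ_[ℓ]} (hz : ‖z‖ ≤ ‖(ℓ : ℂ_[ℓ])‖) :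
    ‖(z + 1) ^ ℓ - 1‖ ≤ ‖(ℓ : ℂ_[ℓ])‖ * ‖z‖ := by
  have hz1 : ‖z‖ ≤ 1 := hz.trans norm_prime_cp_lt_one.le
  rw [add_pow_prime_eq hℓ.out z (1 : ℂ_[ℓ]), one_pow, add_sub_right_comm, add_sub_cancel_right]
  refine (IsUltrametricDist.norm_add_le_max _ _).trans (max_le ?_ ?_)
  · rw [norm_pow]
    refine (pow_le_pow_of_le_one (norm_nonneg _) hz1 hℓ.out.two_le).trans ?_
    rw [pow_two]
    exact mul_le_mul_of_nonneg_right hz (norm_nonneg _)
  · rw [norm_mul, norm_mul, norm_mul, norm_one, mul_one]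
    exact mul_le_of_le_one_right (by positivity) (norm_sum_pow_le hz1)

lemma norm_pow_prime_pow_sub_one_le {V : ℂ_[ℓ]} (h : ‖V - 1‖ ≤ ‖(ℓ : ℂ_[ℓ])‖) (k : ℕ) :
    ‖V ^ ℓ ^ k - 1‖ ≤ ‖(ℓ : ℂ_[ℓ])‖ ^ (k + 1) := by
  induction k with
  | zero => simpa using h
  | succ k ih =>
    have h1 : ‖V ^ ℓ ^ k - 1‖ ≤ ‖(ℓ : ℂ_[ℓ])‖ := ih.trans
      (pow_le_of_le_one (norm_nonneg _) norm_prime_cp_lt_one.le k.succ_ne_zero)
    have h2 := norm_pow_sub_one_le h1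
    rw [sub_add_cancel, ← pow_mul, ← pow_succ] at h2
    exact h2.trans ((mul_le_mul_of_nonneg_left ih (norm_nonneg _)).trans_eq (by ring))

variable [Algebra Qbar ℂ_[ℓ]]

local notation "ιA" => (algebraMap (AlgebraicClosure ℚ) ℂ_[ℓ] : AlgebraicClosure ℚ →+* ℂ_[ℓ])

/-- A one-unit which has compatible roots of every order fixed by inertia is `1`. -/
theorem eq_one_of_fixed_roots {g : ℂ_[ℓ]} (hg : ‖g - 1‖ < 1) (V : ℕ → ℂ_[ℓ])
    (hV : ∀ k, V k ^ ℓ ^ k = g)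
    (hfix : ∀ k, ∀ τ : (padVal ιA).decompositionSubgroup ℚ,
      (τ : GQ) ∈ (padVal ιA).inertiaSubgroupIn ℚ → galExt ιA τ (V k) = V k) : g = 1 := by
  have hg1 : ‖g‖ ≤ 1 := by
    rw [show g = (g - 1) + 1 by rw [sub_add_cancel]]
    exact (IsUltrametricDist.norm_add_le_max _ _).trans (max_le hg.le norm_one.le)
  have hk : ∀ k, ‖g - 1‖ ≤ ‖(ℓ : ℂ_[ℓ])‖ ^ (k + 1) := by
    intro k
    have hVn : ‖V k‖ ≤ 1 := by
      have h := congrArg (‖·‖) (hV k)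
      simp only [norm_pow] at h
      exact (pow_le_one_iff_of_nonneg (norm_nonneg _) (pow_ne_zero _ hℓ.out.ne_zero)).1 (h ▸ hg1)
    have hind : ∀ i, ∀ W : ℂ_[ℓ], ‖W‖ ≤ 1 → ‖W ^ ℓ ^ i - 1‖ < 1 → ‖W - 1‖ < 1 := by
      intro i
      induction i with
      | zero => intro W _ h; simpa using h
      | succ i ih =>
        intro W hW h
        rw [pow_succ', pow_mul] at h
        exact norm_sub_one_lt_of_pow hW
          (ih _ (by rw [norm_pow]; exact pow_le_one₀ (norm_nonneg _) hW) h)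
    have h1 : ‖V k - 1‖ < 1 := hind k _ hVn (by rwa [hV])
    have h2 := norm_le_prime_of_fixed (ι := ιA) h1 fun τ hτ => by
      rw [map_sub, map_one, hfix k τ hτ]
    rw [← hV k]
    exact norm_pow_prime_pow_sub_one_le h2 k
  exact sub_eq_zero.1 (norm_le_zero_iff.1 (ge_of_tendsto'
    ((tendsto_pow_atTop_nhds_zero_of_lt_one (norm_nonneg _) norm_prime_cp_lt_one).comp
      (Filter.tendsto_add_atTop_nat 1)) hk))

variable {N : ℕ} [NeZero N]

local notation "V" => parabolicHoms ℤ_[ℓ] (Gamma0 N) ℤ_[ℓ]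

/-! ### Roots on the kernel of `δ` -/

variable (ℓ N) in
/-- The kernel of `δ`. -/
def delKer : Submodule ℤ_[ℓ] V where
  carrier := {ψ | delt ψ = 0}
  zero_mem' := delt_zero
  add_mem' {ψ ψ'} h h' := by
    show delt (ψ + ψ') = 0
    rw [delt_add, show delt ψ = 0 from h, show delt ψ' = 0 from h', add_zero]
  smul_mem' a ψ h := by
    show delt (a • ψ) = 0
    refine PowerSeries.ext fun m => ?_
    rw [coeff_delt_smul, show delt ψ = 0 from h, map_zero, mul_zero]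

/-- The kernel of `δ` consists of the homomorphisms with `δ = 0`. -/
lemma mem_delKer {ψ : V} : ψ ∈ delKer ℓ N ↔ delt ψ = 0 := Iff.rfl

attribute [irreducible] delKer

lemma galLin_mem_delKer (g : (padVal ιA).decompositionSubgroup ℚ) {ψ : V}
    (h : ψ ∈ delKer ℓ N) : galLin ℓ (g : GQ) ψ ∈ delKer ℓ N := by
  refine mem_delKer.2 (PowerSeries.ext fun m => ?_)
  rw [FermatAgent.ES.galLin_apply, delt_galPad, mem_delKer.1 h, map_zero, map_zero]

namespace DiscPt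

variable (D : DiscPt ℓ N)

lemma exists_rootW_delKer (ψ : delKer ℓ N) :
    ∃ x : ℤ_[ℓ], ∀ k, algebraMap Qbar ℂ_[ℓ] (zp ℓ k x) = D.rootU k (ψ : V) := by
  refine exists_zp_map _ (fun k => ?_) fun k => D.rootU_succ k ψ
  rw [D.rootU_pow,
    serVal_congr D.hr (gInf_eq_one_of_delt (mem_delKer.1 ψ.2)) _ (intSer ℓ).one_mem, serVal_one]

/-- On the kernel of `δ` the roots are roots of unity. -/
def uHom : delKer ℓ N →+ ℤ_[ℓ] where
  toFun ψ := (D.exists_rootW_delKer ψ).choose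
  map_zero' := by
    refine zp_inj fun k => (algebraMap Qbar ℂ_[ℓ]).injective ?_
    have h := D.rootU_add k 0 0
    rw [add_zero, left_eq_mul₀] at h
    · rw [(D.exists_rootW_delKer _).choose_spec, Submodule.coe_zero, h, AddChar.map_zero_eq_one,
        map_one]
    · intro h0
      have h1 := D.rootU_pow k 0
      rw [h0, zero_pow (pow_ne_zero _ hℓ.out.ne_zero),
        serVal_congr D.hr gInf_zero _ (intSer ℓ).one_mem, serVal_one] at h1
      exact zero_ne_one h1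
  map_add' ψ ψ' := by
    refine zp_inj fun k => (algebraMap Qbar ℂ_[ℓ]).injective ?_
    rw [AddChar.map_add_eq_mul, map_mul, (D.exists_rootW_delKer _).choose_spec,
      (D.exists_rootW_delKer _).choose_spec, (D.exists_rootW_delKer _).choose_spec,
      Submodule.coe_add, D.rootU_add]

/-- The logarithms of the roots on the kernel of `δ`, as a linear form. -/
def uLin : delKer ℓ N →ₗ[ℤ_[ℓ]] ℤ_[ℓ] :=
  LinearMap.mk ⟨D.uHom, fun ψ ψ' => D.uHom.map_add ψ ψ'⟩ fun a ψ =>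
    map_smul_of_additive (M := delKer ℓ N) D.uHom a ψ

/-- On the kernel of `δ` the roots are the powers of the roots of unity by the linear form. -/
lemma uLin_spec (ψ : delKer ℓ N) (k : ℕ) :
    algebraMap Qbar ℂ_[ℓ] (zp ℓ k (D.uLin ψ)) = D.rootU k (ψ : V) :=
  (D.exists_rootW_delKer ψ).choose_spec k

/-- On the kernel of `δ` the cocycle is a coboundary on the decomposition group. -/
theorem kumLin_delKer (g : (padVal ιA).decompositionSubgroup ℚ) (ψ : delKer ℓ N) :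
    D.kumLin ℓ (g : GQ) (ψ : V) = padCyclo ℓ (g : GQ) *
      D.uLin ⟨galLin ℓ (g : GQ)⁻¹ (ψ : V), galLin_mem_delKer g⁻¹ ψ.2⟩ - D.uLin ψ := by
  rw [eq_sub_iff_add_eq]
  refine zp_inj fun k => (algebraMap Qbar ℂ_[ℓ]).injective ?_
  rw [AddChar.map_add_eq_mul, map_mul, D.uLin_spec, ← D.galExt_rootU g k, ← apply_zp,
    ← galExt_apply (ι := ιA) g, D.uLin_spec]

end DiscPt

/-! ### The forms attached to vectors of the eigenlattice -/

section Lift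

variable {O : Type} [CommRing O] [Algebra ℤ_[ℓ] O]
  [Module.Free ℤ_[ℓ] O] [Module.Finite ℤ_[ℓ] O]
  (χ : CuspForm.heckeAlgebra N 2 ∅ →+* O)

omit [Algebra Qbar ℂ_[ℓ]]

omit [Module.Free ℤ_[ℓ] O] [Module.Finite ℤ_[ℓ] O] in
lemma eigPsi_sum {ι : Type} (s : Finset ι) (lam : ι → O →ₗ[ℤ_[ℓ]] ℤ_[ℓ]) (a : ι → ℤ_[ℓ])
    (v : Fin (parRank (Gamma0 N)) → O) :
    eigPsi (∑ i ∈ s, a i • lam i) v = ∑ i ∈ s, a i • eigPsi (lam i) v := by
  refine (FermatAgent.Period.parabolicCoords (Gamma0 N) ℤ_[ℓ] ℤ_[ℓ]).injective (funext fun k => ?_)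
  simp only [coords_eigPsi, map_sum, map_smul, Function.comp_apply, Finset.sum_apply,
    Pi.smul_apply, LinearMap.coe_sum, LinearMap.smul_apply]

omit [Module.Free ℤ_[ℓ] O] [Module.Finite ℤ_[ℓ] O] in
/-- A functional is linear over the `ℓ`-adic integers. -/
lemma lam_algebraMap_mul (lam : O →ₗ[ℤ_[ℓ]] ℤ_[ℓ]) (a : ℤ_[ℓ]) (y : O) :
    lam (algebraMap ℤ_[ℓ] O a * y) = a * lam y := by
  rw [← Algebra.smul_def, map_smul, smul_eq_mul]

omit [Module.Finite ℤ_[ℓ] O] in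
/-- The functionals separate the points of `O`. -/
lemma eq_of_forall_lam {x y : O} (h : ∀ lam : O →ₗ[ℤ_[ℓ]] ℤ_[ℓ], lam x = lam y) : x = y := by
  rw [← sub_eq_zero, ← Module.forall_dual_apply_eq_zero_iff ℤ_[ℓ]]
  exact fun lam => by rw [map_sub, h, sub_self]

/-- The element of `O` representing a family of forms. -/
def liftO (f : V →ₗ[ℤ_[ℓ]] ℤ_[ℓ]) (v : Fin (parRank (Gamma0 N)) → O) : O :=
  ∑ s, f (eigPsi ((Module.Free.chooseBasis ℤ_[ℓ] O).coord s) v) • Module.Free.chooseBasis ℤ_[ℓ] O s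

lemma lam_liftO (f : V →ₗ[ℤ_[ℓ]] ℤ_[ℓ]) (lam : O →ₗ[ℤ_[ℓ]] ℤ_[ℓ])
    (v : Fin (parRank (Gamma0 N)) → O) : lam (liftO f v) = f (eigPsi lam v) := by
  set o := Module.Free.chooseBasis ℤ_[ℓ] O
  have hlam : lam = ∑ s, lam (o s) • o.coord s := o.ext fun t => by
    simp
  conv_rhs => rw [hlam, eigPsi_sum, map_sum]
  rw [liftO, map_sum]
  refine Finset.sum_congr rfl fun s _ => ?_
  rw [map_smul, map_smul, smul_eq_mul, smul_eq_mul, mul_comm]

lemma liftO_add (f : V →ₗ[ℤ_[ℓ]] ℤ_[ℓ]) (v w : Fin (parRank (Gamma0 N)) → O) :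
    liftO f (v + w) = liftO f v + liftO f w :=
  eq_of_forall_lam (ℓ := ℓ) fun lam => by simp only [lam_liftO, map_add]

lemma liftO_smul (f : V →ₗ[ℤ_[ℓ]] ℤ_[ℓ]) (a : O) (v : Fin (parRank (Gamma0 N)) → O) :
    liftO f (a • v) = a * liftO f v := by
  refine eq_of_forall_lam (ℓ := ℓ) fun lam => ?_
  rw [lam_liftO, eigPsi_smul, ← lam_liftO]
  rfl

/-- `liftO` as a linear map on the eigenlattice. -/
def liftLin {χ : CuspForm.heckeAlgebra N 2 ∅ →+* O} (f : V →ₗ[ℤ_[ℓ]] ℤ_[ℓ]) :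
    eigLat χ →ₗ[O] O where
  toFun v := liftO f (v : Fin (parRank (Gamma0 N)) → O)
  map_add' v w := by rw [Submodule.coe_add, liftO_add]
  map_smul' a v := by rw [Submodule.coe_smul, liftO_smul]; rfl

/-- The lifted map composed with a functional is the form at the vector cut out by it. -/
lemma lam_liftLin {χ : CuspForm.heckeAlgebra N 2 ∅ →+* O} (f : V →ₗ[ℤ_[ℓ]] ℤ_[ℓ])
    (lam : O →ₗ[ℤ_[ℓ]] ℤ_[ℓ]) (v : eigLat χ) :
    lam (liftLin f v) = f (eigPsi lam (v : Fin (parRank (Gamma0 N)) → O)) := lam_liftO _ _ _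

end Lift

namespace DiscPt

variable (D : DiscPt ℓ N) {O : Type} [CommRing O] [IsDomain O]
  [IsDiscreteValuationRing O] [CharZero O] [Algebra ℤ_[ℓ] O] [Module.Free ℤ_[ℓ] O]
  [Module.Finite ℤ_[ℓ] O] (χ : CuspForm.heckeAlgebra N 2 ∅ →+* O)

/-- The cocycle on the eigenlattice. -/
def kumO (g : GQ) : eigLat χ →ₗ[O] O := liftLin (D.kumLin ℓ g)

section

omit [IsDomain O] [IsDiscreteValuationRing O] [CharZero O]

/-- The cocycle composed with a functional is the Kummer form at the vector cut out by it. -/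
lemma lam_kumO (g : GQ) (lam : O →ₗ[ℤ_[ℓ]] ℤ_[ℓ]) (v : eigLat χ) :
    lam (D.kumO χ g v) = D.kumLin ℓ g (eigPsi lam (v : Fin (parRank (Gamma0 N)) → O)) :=
  lam_liftO _ _ _

lemma kumO_mul (g h : GQ) (v : eigLat χ) :
    D.kumO χ (g * h) v =
      (algebraMap ℤ_[ℓ] O : ℤ_[ℓ] →+* O) (padCyclo ℓ g) *
        D.kumO χ h (eigEnd (algebraMap ℤ_[ℓ] O : ℤ_[ℓ] →+* O) χ g⁻¹ v) + D.kumO χ g v := by
  refine eq_of_forall_lam (ℓ := ℓ) fun lam => ?_
  rw [map_add, lam_algebraMap_mul, D.lam_kumO, D.lam_kumO, D.lam_kumO, eigPsi_eigEnd,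
    D.kumLin_mul]

lemma exists_kumO_dvd (E : Fin 2 → eigLat χ) (r : ℕ) : ∃ U : Subgroup GQ,
    IsOpen (U : Set GQ) ∧ ∀ g ∈ U, ∀ j, (ℓ : O) ^ r ∣ D.kumO χ g (E j) := by
  set o := Module.Free.chooseBasis ℤ_[ℓ] O
  choose U hU hUd using fun p : Fin 2 × Module.Free.ChooseBasisIndex ℤ_[ℓ] O =>
    D.exists_kumLin_dvd r (eigPsi (o.coord p.2) (E p.1 : Fin (parRank (Gamma0 N)) → O))
  refine ⟨⨅ p, U p, ?_, fun g hg j => Finset.dvd_sum fun s _ => ?_⟩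
  · rw [Subgroup.coe_iInf]
    exact isOpen_iInter_of_finite hU
  · obtain ⟨b, hb⟩ := hUd (j, s) g (Subgroup.mem_iInf.1 hg (j, s))
    refine ⟨(algebraMap ℤ_[ℓ] O : ℤ_[ℓ] →+* O) b * o s, ?_⟩
    rw [show D.kumLin ℓ g (eigPsi (o.coord s) (E j : Fin (parRank (Gamma0 N)) → O)) =
      (ℓ : ℤ_[ℓ]) ^ r * b from hb, Algebra.smul_def, map_mul, map_pow, map_natCast, mul_assoc]

/-- The element representing `uLin` on a vector killed by `δ`. -/
lemma exists_uO {v : eigLat χ} (hv : v ∈ wLat ℓ χ) : ∃ u : O,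
    ∀ (lam : O →ₗ[ℤ_[ℓ]] ℤ_[ℓ]) (hm : eigPsi lam (v : Fin (parRank (Gamma0 N)) → O) ∈ delKer ℓ N),
      lam u = D.uLin ⟨_, hm⟩ := by
  set o := Module.Free.chooseBasis ℤ_[ℓ] O
  have hmem : ∀ lam : O →ₗ[ℤ_[ℓ]] ℤ_[ℓ],
      eigPsi lam (v : Fin (parRank (Gamma0 N)) → O) ∈ delKer ℓ N := fun lam =>
    mem_delKer.2 (PowerSeries.ext fun m => by rw [hv lam m, map_zero])
  refine ⟨∑ s, D.uLin ⟨_, hmem (o.coord s)⟩ • o s, fun lam hm => ?_⟩
  have hlam : lam = ∑ s, lam (o s) • o.coord s := o.ext fun t => by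
    simp
  rw [show (⟨_, hm⟩ : delKer ℓ N) = ∑ s, lam (o s) • (⟨_, hmem (o.coord s)⟩ : delKer ℓ N) from
    Subtype.ext (by
      rw [Submodule.coe_sum]
      simp only [Submodule.coe_smul]
      conv_lhs => rw [hlam, eigPsi_sum]), map_sum, map_sum]
  refine Finset.sum_congr rfl fun s _ => ?_
  rw [map_smul, map_smul, smul_eq_mul, smul_eq_mul, mul_comm]

end

omit [IsDiscreteValuationRing O] in
lemma kumO_inertia (hN : N.Prime) {q : ℕ} (hq : q.Prime) (hqℓ : q ≠ ℓ) (hqN : q ≠ N)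
    {A : ValuationSubring Qbar} (hA : A.LiesOverPrime q) {σ : GQ}
    (hσ : σ ∈ A.inertiaSubgroupIn ℚ) : D.kumO χ σ = 0 := by
  have hd : ¬ q ∣ N := fun h => hqN ((Nat.prime_dvd_prime_iff_eq hq hN).1 h)
  have := Fact.mk hq
  refine LinearMap.ext fun v => ?_
  have h : (χ (hop N hq) - (1 + (q : O))) * D.kumO χ σ v = 0 := by
    refine eq_of_forall_lam (ℓ := ℓ) fun lam => ?_
    rw [sub_mul, map_sub, map_zero, ← smul_eq_mul, ← map_smul, D.lam_kumO, Submodule.coe_smul,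
      ← tV_eigPsi χ hq lam v.2, D.kumLin_inertia hq hd hqℓ hA hσ, ← D.lam_kumO χ σ lam v,
      show (1 + (q : O)) = (algebraMap ℤ_[ℓ] O : ℤ_[ℓ] →+* O) (1 + (q : ℤ_[ℓ])) by
        rw [map_add, map_one, map_natCast],
      lam_algebraMap_mul, sub_self]
  refine (mul_eq_zero.1 h).resolve_left (sub_ne_zero.2 fun h0 => ?_)
  refine FermatAgent.MF.Petersson.heckeT_value_ne (q := q) hd χ (s := 1) (Or.inl rfl) (h0.trans ?_)
  push_cast
  ring

end DiscPt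

/-! ### The class of the point -/

variable {O : Type} [CommRing O] [IsDomain O] [IsDiscreteValuationRing O] [CharZero O]
  [Algebra ℤ_[ℓ] O] [Module.Finite ℤ_[ℓ] O]
  {χ : CuspForm.heckeAlgebra N 2 ∅ →+* O}

omit [IsDomain O] [IsDiscreteValuationRing O] [CharZero O] [Module.Finite ℤ_[ℓ] O]
    [Algebra Qbar ℂ_[ℓ]] in
lemma adjugate_entries (ρ : GQ →* Matrix (Fin 2) (Fin 2) O)
    (hdet : ∀ g, (ρ g).det = (algebraMap ℤ_[ℓ] O : ℤ_[ℓ] →+* O) (padCyclo ℓ g)) (g : GQ) :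
    (algebraMap ℤ_[ℓ] O : ℤ_[ℓ] →+* O) (padCyclo ℓ g) * ρ g⁻¹ 0 0 = ρ g 1 1 ∧
      (algebraMap ℤ_[ℓ] O : ℤ_[ℓ] →+* O) (padCyclo ℓ g) * ρ g⁻¹ 0 1 = -ρ g 0 1 ∧
      (algebraMap ℤ_[ℓ] O : ℤ_[ℓ] →+* O) (padCyclo ℓ g) * ρ g⁻¹ 1 0 = -ρ g 1 0 ∧
      (algebraMap ℤ_[ℓ] O : ℤ_[ℓ] →+* O) (padCyclo ℓ g) * ρ g⁻¹ 1 1 = ρ g 0 0 := by
  have h1 : (ρ g).adjugate = (algebraMap ℤ_[ℓ] O : ℤ_[ℓ] →+* O) (padCyclo ℓ g) • ρ g⁻¹ := by
    rw [← mul_one (ρ g).adjugate, ← map_one ρ, ← mul_inv_cancel g, map_mul, ← mul_assoc,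
      Matrix.adjugate_mul, hdet, Matrix.smul_mul, one_mul]
  refine ⟨?_, ?_, ?_, ?_⟩ <;>
    [have h2 := congrFun (congrFun h1 0) 0; have h2 := congrFun (congrFun h1 0) 1;
     have h2 := congrFun (congrFun h1 1) 0; have h2 := congrFun (congrFun h1 1) 1] <;>
    simpa [Matrix.adjugate_fin_two] using h2.symm

omit [IsDomain O] [IsDiscreteValuationRing O] [CharZero O] [Module.Finite ℤ_[ℓ] O] in
/-- The vectors killed by `δ` are cut out into the kernel of `δ`. -/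
lemma mem_delKer_of_mem_wLat {v : eigLat χ} (hv : v ∈ wLat ℓ χ) (lam : O →ₗ[ℤ_[ℓ]] ℤ_[ℓ]) :
    eigPsi lam (v : Fin (parRank (Gamma0 N)) → O) ∈ delKer ℓ N :=
  mem_delKer.2 (PowerSeries.ext fun m => by rw [hv lam m, map_zero])

variable [Module.Free ℤ_[ℓ] O]

namespace DiscPt

variable (D : DiscPt ℓ N)

omit [IsDomain O] [IsDiscreteValuationRing O] [CharZero O] in
/-- The cocycle on a vector of `W` moved through a line. -/
theorem exists_kumO_wLat {e : eigLat χ} (he : e ∈ wLat ℓ χ) : ∃ uO : O,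
    (∀ (g : (padVal ιA).decompositionSubgroup ℚ) (a : O),
      eigEnd (algebraMap ℤ_[ℓ] O : ℤ_[ℓ] →+* O) χ (g : GQ)⁻¹ e = a • e →
        D.kumO χ (g : GQ) e =
          ((algebraMap ℤ_[ℓ] O : ℤ_[ℓ] →+* O) (padCyclo ℓ (g : GQ)) * a - 1) * uO) ∧
    ∀ (lam : O →ₗ[ℤ_[ℓ]] ℤ_[ℓ]) (b : O) (v : eigLat χ), v = b • e →
      ∀ hm : eigPsi lam (v : Fin (parRank (Gamma0 N)) → O) ∈ delKer ℓ N,
        D.uLin ⟨_, hm⟩ = lam (b * uO) := by
  obtain ⟨uO, huO⟩ := D.exists_uO χ he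
  have huO' : ∀ (lam : O →ₗ[ℤ_[ℓ]] ℤ_[ℓ]) (b : O) (v : eigLat χ) (hv : v = b • e)
      (hm : eigPsi lam (v : Fin (parRank (Gamma0 N)) → O) ∈ delKer ℓ N),
      D.uLin ⟨_, hm⟩ = lam (b * uO) := by
    intro lam b v hv hm
    subst hv
    exact ((huO (lam ∘ₗ LinearMap.mulLeft ℤ_[ℓ] b) (by rwa [← eigPsi_smul])).trans
      (congrArg D.uLin (Subtype.ext (eigPsi_smul _ _ _).symm))).symm
  refine ⟨uO, fun g a ha => eq_of_forall_lam (ℓ := ℓ) fun lam => ?_, huO'⟩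
  have hm := mem_delKer_of_mem_wLat (χ := χ) ((wLat ℓ χ).smul_mem a he) lam
  rw [D.lam_kumO, D.kumLin_delKer g ⟨_, mem_delKer_of_mem_wLat he lam⟩, sub_mul, one_mul, map_sub,
    mul_assoc, lam_algebraMap_mul, ← huO' lam a _ rfl hm, ← huO lam (mem_delKer_of_mem_wLat he lam)]
  congr 3
  refine Subtype.ext ?_
  show galLin ℓ ((g : GQ)⁻¹) _ = eigPsi lam ((a • e : eigLat χ) : Fin (parRank (Gamma0 N)) → O)
  rw [← eigPsi_eigEnd, ha]

omit [CharZero O] in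
lemma kumO_mul_basis {S : DescentSetting O} {E : Fin 2 → eigLat χ} (hS : IsDescentFrame ℓ S E)
    (g h : GQ) (j : Fin 2) :
    D.kumO χ (g * h) (E j) = (algebraMap ℤ_[ℓ] O : ℤ_[ℓ] →+* O) (padCyclo ℓ g) *
      (S.ρ g⁻¹ 0 j * D.kumO χ h (E 0) + S.ρ g⁻¹ 1 j * D.kumO χ h (E 1)) + D.kumO χ g (E j) := by
  rw [D.kumO_mul, hS.eigEnd_eq, map_add, map_smul, map_smul, smul_eq_mul, smul_eq_mul]

/-- The class of the point satisfies the local conditions of the descent. -/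
theorem isCls {S : DescentSetting O} {E : Fin 2 → eigLat χ} (hS : IsDescentFrame ℓ S E)
    (hN : N.Prime) :
    S.IsCls fun g => ![D.kumO χ g (E 1), -D.kumO χ g (E 0)] := by
  obtain ⟨hSℓ, hSN, hSA, hdet, hE, hE1, -⟩ := id hS
  refine ⟨fun σ τ => ?_, fun r => ?_, fun q hq h1 h2 A hA σ hσ => ?_, fun σ hσ => ?_⟩
  · obtain ⟨a00, a01, a10, a11⟩ := adjugate_entries S.ρ hdet σ
    ext i
    fin_cases i
    · simp only [Fin.zero_eta, Pi.add_apply, DescentSetting.mulVec0, Matrix.cons_val_zero,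
        Matrix.cons_val_one]
      rw [D.kumO_mul_basis hS σ τ 1]
      linear_combination D.kumO χ τ (E 0) * a01 + D.kumO χ τ (E 1) * a11
    · simp only [Fin.mk_one, Pi.add_apply, DescentSetting.mulVec1, Matrix.cons_val_zero,
        Matrix.cons_val_one]
      rw [D.kumO_mul_basis hS σ τ 0]
      linear_combination -D.kumO χ τ (E 0) * a00 - D.kumO χ τ (E 1) * a10
  · obtain ⟨U, hU, hUd⟩ := D.exists_kumO_dvd χ E r
    refine ⟨U, hU, fun σ hσ i => ?_⟩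
    rw [hSℓ]
    fin_cases i <;> simp only [Fin.zero_eta, Fin.mk_one, Matrix.cons_val_zero,
      Matrix.cons_val_one]
    · exact hUd σ hσ 1
    · exact (hUd σ hσ 0).neg_right
  · rw [hSℓ] at h1
    rw [hSN] at h2
    have h0 := D.kumO_inertia χ hN hq h1 h2 hA hσ
    ext i
    fin_cases i <;> simp [h0]
  · rw [hSA] at hσ
    have hσ' := inv_mem hσ
    have e00 : S.ρ σ⁻¹ 0 0 = 1 := S.ord00 _ (by rw [hSA]; exact hσ')
    have e01 : S.ρ σ⁻¹ 0 1 = 0 := S.ord01 _ (by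
      rw [hSA]; exact inertiaSubgroupIn_le_decompositionSubgroup _ hσ')
    have e11 : S.ρ σ⁻¹ 1 1 = (algebraMap ℤ_[ℓ] O : ℤ_[ℓ] →+* O) (padCyclo ℓ σ⁻¹) := by
      rw [← hdet, Matrix.det_fin_two, e00, e01, one_mul, zero_mul, sub_zero]
    obtain ⟨uO, huO, -⟩ := D.exists_kumO_wLat hE1
    have he : eigEnd (algebraMap ℤ_[ℓ] O : ℤ_[ℓ] →+* O) χ σ⁻¹ (E 1) = S.ρ σ⁻¹ 1 1 • E 1 := by
      rw [hE, e01, zero_smul, zero_add]
    have hk := huO ⟨σ, inertiaSubgroupIn_le_decompositionSubgroup _ hσ⟩ (S.ρ σ⁻¹ 1 1) he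
    show D.kumO χ σ (E 1) = 0
    refine hk.trans ?_
    rw [e11, ← map_mul, ← map_mul, mul_inv_cancel, map_one, map_one, sub_self, zero_mul]

variable [IsAdicComplete (maximalIdeal O) O]

/-- A multiple of the class is the coboundary of a linear form which on `W` gives the roots of
unity. -/
theorem exists_potential {S : DescentSetting O} {E : Fin 2 → eigLat χ} (hS : IsDescentFrame ℓ S E)
    (hN : N.Prime) (hm : (ℓ : O) ∈ maximalIdeal O) :
    ∃ (m : ℕ) (X : eigLat χ →ₗ[O] O),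
      (∀ (g : GQ) (w : eigLat χ), ((ℓ ^ m : ℕ) : O) * D.kumO χ g w =
        (algebraMap ℤ_[ℓ] O : ℤ_[ℓ] →+* O) (padCyclo ℓ g) *
          X (eigEnd (algebraMap ℤ_[ℓ] O : ℤ_[ℓ] →+* O) χ g⁻¹ w) - X w) ∧
      ∀ (lam : O →ₗ[ℤ_[ℓ]] ℤ_[ℓ]) (v : eigLat χ) (_ : v ∈ wLat ℓ χ)
        (hv : eigPsi lam (v : Fin (parRank (Gamma0 N)) → O) ∈ delKer ℓ N),
        ((ℓ ^ m : ℕ) : ℤ_[ℓ]) * D.uLin ⟨_, hv⟩ = lam (X v) := by
  obtain ⟨-, -, hSA, hdet, hE, hE1, hli, hW, d, hd, hspan⟩ := id hS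
  obtain ⟨a, x, ha, hax⟩ := S.exists_smul_eq_cob (D.isCls hS hN)
  obtain ⟨m, a', ha'⟩ := exists_mul_eq_prime_pow (ℓ := ℓ) hm (mul_ne_zero ha hd)
  set B := Module.Basis.span hli
  have hB : ∀ w : eigLat χ, d • w ∈ Submodule.span O (Set.range E) := fun w => by
    obtain ⟨α, β, hw⟩ := hspan w
    rw [hw]
    exact add_mem (Submodule.smul_mem _ _ (Submodule.subset_span ⟨0, rfl⟩))
      (Submodule.smul_mem _ _ (Submodule.subset_span ⟨1, rfl⟩))
  set X : eigLat χ →ₗ[O] O := a' • ((B.constr O ![-x 1, x 0]).comp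
    (LinearMap.codRestrict _ (d • LinearMap.id) hB)) with hXdef
  have hX : ∀ (w : eigLat χ) (α β : O), d • w = α • E 0 + β • E 1 →
      X w = a' * (-(α * x 1) + β * x 0) := fun w α β hw => by
    have he : LinearMap.codRestrict (Submodule.span O (Set.range E)) (d • LinearMap.id) hB w =
        α • B 0 + β • B 1 := by
      refine Subtype.ext ?_
      rw [Submodule.coe_add, Submodule.coe_smul, Submodule.coe_smul, Module.Basis.span_apply,
        Module.Basis.span_apply, ← hw]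
      rfl
    rw [hXdef, LinearMap.smul_apply, LinearMap.comp_apply, he, map_add, map_smul, map_smul,
      Module.Basis.constr_basis, Module.Basis.constr_basis, smul_eq_mul]
    simp
  have hmain : ∀ (g : GQ) (w : eigLat χ), ((ℓ ^ m : ℕ) : O) * D.kumO χ g w =
      (algebraMap ℤ_[ℓ] O : ℤ_[ℓ] →+* O) (padCyclo ℓ g) *
        X (eigEnd (algebraMap ℤ_[ℓ] O : ℤ_[ℓ] →+* O) χ g⁻¹ w) - X w := by
    intro g w
    obtain ⟨α, β, hw⟩ := hspan w
    have hg : d • eigEnd (algebraMap ℤ_[ℓ] O : ℤ_[ℓ] →+* O) χ g⁻¹ w =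
        (α * S.ρ g⁻¹ 0 0 + β * S.ρ g⁻¹ 0 1) • E 0 +
        (α * S.ρ g⁻¹ 1 0 + β * S.ρ g⁻¹ 1 1) • E 1 := by
      rw [← map_smul, hw, map_add, map_smul, map_smul, hE, hE]
      module
    rw [hX _ _ _ hw, hX _ _ _ hg]
    have hK := congrArg (D.kumO χ g) hw
    rw [map_smul, map_add, map_smul, map_smul, smul_eq_mul, smul_eq_mul, smul_eq_mul] at hK
    have c0 := congrFun (hax g) 0
    have c1 := congrFun (hax g) 1
    simp only [Pi.smul_apply, smul_eq_mul, Matrix.cons_val_zero, Matrix.cons_val_one,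
      DescentSetting.cob_apply0, DescentSetting.cob_apply1] at c0 c1
    obtain ⟨a00, a01, a10, a11⟩ := adjugate_entries S.ρ hdet g
    rw [Nat.cast_pow, ← ha']
    linear_combination (a' * a) * hK + (a' * β) * c0 - (a' * α) * c1 +
      (a' * α * x 1) * a00 + (a' * β * x 1) * a01 - (a' * α * x 0) * a10 - (a' * β * x 0) * a11
  obtain ⟨uO, huO, huO'⟩ := D.exists_kumO_wLat hE1
  have hz : ((ℓ ^ m : ℕ) : O) * uO = X (E 1) := by
    have hF : S.F ∈ (padVal ιA).decompositionSubgroup ℚ := by rw [← hSA]; exact S.F_mem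
    have hb : S.ρ S.F⁻¹ 0 1 = 0 := S.ord01 _ (inv_mem S.F_mem)
    have he : eigEnd (algebraMap ℤ_[ℓ] O : ℤ_[ℓ] →+* O) χ S.F⁻¹ (E 1) = S.ρ S.F⁻¹ 1 1 • E 1 := by
      rw [hE, hb, zero_smul, zero_add]
    have e0 := hmain S.F (E 1)
    have hk : D.kumO χ S.F (E 1) =
        ((algebraMap ℤ_[ℓ] O : ℤ_[ℓ] →+* O) (padCyclo ℓ S.F) * S.ρ S.F⁻¹ 1 1 - 1) * uO :=
      huO ⟨S.F, hF⟩ _ he
    rw [hk, he, map_smul, smul_eq_mul] at e0
    have e11 : (algebraMap ℤ_[ℓ] O : ℤ_[ℓ] →+* O) (padCyclo ℓ S.F) * S.ρ S.F⁻¹ 1 1 = S.ρ S.F 0 0 :=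
      (adjugate_entries S.ρ hdet S.F).2.2.2
    have hne : S.ρ S.F 0 0 - 1 ≠ 0 := fun h0 => S.F_sq_ne (by
      rw [sub_eq_zero.1 h0, one_pow])
    refine mul_left_cancel₀ hne ?_
    linear_combination e0 - (((ℓ ^ m : ℕ) : O) * uO - X (E 1)) * e11
  refine ⟨m, X, hmain, fun lam v hv hv' => ?_⟩
  obtain ⟨b, hb⟩ := hW v hv
  rw [huO' lam b v hb hv', hb, map_smul, smul_eq_mul, ← hz, ← nsmul_eq_mul, ← map_nsmul,
    nsmul_eq_mul]
  congr 1
  ring

end DiscPt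

/-! ### The contradiction -/

variable [IsAdicComplete (maximalIdeal O) O]

omit [Module.Free ℤ_[ℓ] O] in
/-- **No fixed point close to the cusp**: an Eisenstein system on which `δ₁` does not vanish leaves
no rational point in the disc of radius `|ℓ|` (of `|ℓ| ²` for `ℓ = 2`) around the cusp. -/
theorem IsEisSystem.no_discPt (h : IsEisSystem ℓ N χ)
    (hnz : ∃ (lam : O →ₗ[ℤ_[ℓ]] ℤ_[ℓ]) (v : eigLat χ),
      coeff 1 (delt (eigPsi lam (v : Fin (parRank (Gamma0 N)) → O))) ≠ 0)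
    (D : DiscPt ℓ N)
    (hsmall : if ℓ = 2 then ‖D.r‖ ≤ ‖(ℓ : ℂ_[ℓ])‖ ^ 2 else ‖D.r‖ ≤ ‖(ℓ : ℂ_[ℓ])‖) : False := by
  have := isTorsionFree_padicInt (ℓ := ℓ) (O := O)
  have : Module.Free ℤ_[ℓ] O := Module.free_of_finite_type_torsion_free'
  obtain ⟨lam₁, v₁, h₁⟩ := hnz
  obtain ⟨lam₀, v₀, h₀, hmax⟩ := exists_delt_max χ h₁
  obtain ⟨S, E, hS⟩ := h.exists_descentSetting ⟨lam₁, v₁, h₁⟩
  obtain ⟨m, X, hmain, hu'⟩ := D.exists_potential hS h.prime h.mem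
  set M := ℓ ^ m with hMdef
  -- the corrected roots
  set ψ₀ := eigPsi lam₀ (v₀ : Fin (parRank (Gamma0 N)) → O) with hψ₀
  set g₀ := serVal D.hr (gInf ψ₀) (isP1_gInf ψ₀).2 with hg₀
  have hg : g₀ ^ M = 1 := by
    refine eq_one_of_fixed_roots ?_
      (fun k => D.rootU k ψ₀ ^ M * algebraMap Qbar ℂ_[ℓ] (zp ℓ k (-lam₀ (X v₀)))) (fun k => ?_)
      (fun k τ hτ => ?_)
    · rw [hg₀, ← serVal_pow D.hr (isP1_gInf ψ₀).2]
      exact (norm_serVal_sub_one_le D.hr ((isP1_gInf ψ₀).pow M)).trans_lt D.hr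
    · rw [mul_pow, ← pow_mul, mul_comm M, pow_mul, D.rootU_pow, ← map_pow, zp_pow_eq_one, map_one,
        mul_one]
    · have hτ' : ((τ⁻¹ : (padVal ιA).decompositionSubgroup ℚ) : GQ) ∈
          (padVal ιA).inertiaSubgroupIn ℚ := inv_mem hτ
      set w := eigEnd (algebraMap ℤ_[ℓ] O : ℤ_[ℓ] →+* O) χ ((τ : GQ)⁻¹) v₀ - v₀ with hwdef
      have hwW : w ∈ wLat ℓ χ := eigEnd_inertia_sub_mem χ h.not_dvd h.isUnit_hop τ⁻¹ hτ' v₀
      have hψw := mem_delKer_of_mem_wLat hwW lam₀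
      have hsplit : galLin ℓ (τ : GQ)⁻¹ ψ₀ =
          ψ₀ + eigPsi lam₀ (w : Fin (parRank (Gamma0 N)) → O) := by
        rw [hψ₀, ← eigPsi_eigEnd, ← map_add, ← Submodule.coe_add, hwdef, add_sub_cancel]
      have hu := hu' lam₀ w hwW hψw
      have hL : (M : ℤ_[ℓ]) * D.kumLin ℓ (τ : GQ) ψ₀ =
          padCyclo ℓ (τ : GQ) * (lam₀ (X v₀) + lam₀ (X w)) - lam₀ (X v₀) := by
        have e := congrArg lam₀ (hmain (τ : GQ) v₀)
        rw [← nsmul_eq_mul, map_nsmul, nsmul_eq_mul, D.lam_kumO, map_sub, lam_algebraMap_mul,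
          show eigEnd (algebraMap ℤ_[ℓ] O : ℤ_[ℓ] →+* O) χ (τ : GQ)⁻¹ v₀ = v₀ + w by
            rw [hwdef, add_sub_cancel], map_add,
          map_add] at e
        exact e
      have key := D.galExt_rootU τ k ψ₀
      rw [hsplit, D.rootU_add, map_mul, ← D.uLin_spec ⟨_, hψw⟩, galExt_apply, apply_zp] at key
      have key2 := congrArg (· ^ M) key
      simp only [mul_pow, ← map_pow (algebraMap Qbar ℂ_[ℓ]), ← zp_natCast_mul] at key2
      rw [hL, mul_left_comm (M : ℤ_[ℓ]), hu] at key2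
      rw [map_mul, map_pow, galExt_apply, apply_zp]
      refine mul_right_cancel₀ (b := algebraMap Qbar ℂ_[ℓ]
        (zp ℓ k (padCyclo ℓ (τ : GQ) * lam₀ (X w)))) ((_root_.map_ne_zero _).2
          (AddChar.val_isUnit _ _).ne_zero) ?_
      rw [mul_right_comm, key2]
      have e : ∀ p q : ℤ_[ℓ], algebraMap Qbar ℂ_[ℓ] (zp ℓ k p) * algebraMap Qbar ℂ_[ℓ] (zp ℓ k q) =
          algebraMap Qbar ℂ_[ℓ] (zp ℓ k (p + q)) := fun p q => by
        rw [AddChar.map_add_eq_mul, map_mul]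
      rw [mul_right_comm, e, mul_assoc, e, mul_comm (D.rootU k ψ₀ ^ M)]
      congr 3
      ring
  -- the value at the point
  have hM : (M : ℂ_[ℓ]) ≠ 0 := Nat.cast_ne_zero.2 (pow_ne_zero _ hℓ.out.ne_zero)
  have hcoeff : ∀ j, coeff j (delt (M • ψ₀)) = (M : ℂ_[ℓ]) * coeff j (delt ψ₀) :=
    fun j => coeff_delt_nsmul M ψ₀ j
  have hn := norm_serVal_sub_one D.hr (d := delt (M • ψ₀)) (isP1_gInf (M • ψ₀))
    (coeff_zero_delt _) (fun j => by
      rw [hcoeff, hcoeff, norm_mul, norm_mul]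
      exact mul_le_mul_of_nonneg_left (hmax lam₀ v₀ j) (norm_nonneg _))
    (bdBy_delt _ 1) (theta_gInf _) hsmall
  rw [serVal_congr D.hr (gInf_nsmul M ψ₀) _ ((intSer ℓ).pow_mem (isP1_gInf ψ₀).2 M),
    serVal_pow D.hr (isP1_gInf ψ₀).2, ← hg₀, hg, sub_self, norm_zero, hcoeff, eq_comm] at hn
  exact mul_ne_zero (norm_ne_zero_iff.2 (mul_ne_zero hM h₀)) (norm_ne_zero_iff.2 D.hr0) hn

end FermatAgent.Mazur

end
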