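import Fermat.Agent.Mazur.DiscPlace
import Fermat.Agent.Mazur.Coords

/-!
# At prime level the disc places are the places with `‖j(Nτ)‖ = ‖j‖ ^ N > 1`
-/

set_option autoImplicit false

noncomputable section

open scoped IntermediateField MatrixGroups

namespace FermatAgent.Mazur

attribute [-instance] IsScalarTower.of_algHom

open FermatAgent.Curve HahnSeries
open AlgebraicCurve (Place)
open CongruenceSubgroup (Gamma0)

lemma dedekindPsi_prime {N : ℕ} (hN : N.Prime) : ModularCurve.dedekindPsi N = N + 1 := by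
  rw [ModularCurve.dedekindPsi, Nat.Prime.divisors hN, Finset.filter_true_of_mem ?_,
    Finset.sum_pair hN.ne_one.symm, Nat.div_one, Nat.div_self hN.pos]
  intro d hd
  rw [Finset.mem_insert, Finset.mem_singleton] at hd
  rcases hd with rfl | rfl
  · exact squarefree_one
  · exact hN.squarefree

variable {L : Type*} [Field L] [CharZero L] [IsAlgClosed L] [Algebra L ℂ]
  {K : Type*} [NormedField K] [IsUltrametricDist K] [CompleteSpace K] [Algebra L K]
  (N : ℕ) [NeZero N]

section

omit [CharZero L] [IsAlgClosed L]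

lemma jElt_sub_ne_zero (a : L) : jElt L N - algebraMap L (jField L N) a ≠ 0 := fun h =>
  transcendental_jElt (K := L) (N := N) (by
    rw [sub_eq_zero.1 h]; exact isAlgebraic_algebraMap a)

lemma transcendental_jElt_sub (a : L) :
    Transcendental L (jElt L N - algebraMap L (jField L N) a) := fun h =>
  transcendental_jElt (K := L) (N := N) (by
    have := h.add (isAlgebraic_algebraMap (R := L) (A := jField L N) a)
    rwa [sub_add_cancel] at this)

omit [Algebra L ℂ] in
lemma adjoin_jElt_sub (a : L) :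
    L⟮jElt L N - algebraMap L (jField L N) a⟯ = L⟮jElt L N⟯ := by
  refine le_antisymm ?_ ?_ <;> rw [IntermediateField.adjoin_simple_le_iff]
  · exact sub_mem (IntermediateField.mem_adjoin_simple_self _ _)
      (IntermediateField.algebraMap_mem _ _)
  · have h := add_mem (IntermediateField.mem_adjoin_simple_self L
      (jElt L N - algebraMap L (jField L N) a))
      (IntermediateField.algebraMap_mem L⟮jElt L N - algebraMap L (jField L N) a⟯ a)
    rwa [sub_add_cancel] at h

end

/-- At most `N + 1` places lie over a value of `j`. -/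
lemma card_zeros_le (hN : N.Prime) (a : L) (S : Finset (Place L (jField L N)))
    (hS : ∀ P ∈ S, 0 < P.ord (jElt L N - algebraMap L (jField L N) a)) : S.card ≤ N + 1 := by
  classical
  set x := jElt L N - algebraMap L (jField L N) a
  have hsum := sum_zeros_eq_finrank (transcendental_jElt_sub N a)
  rw [adjoin_jElt_sub N a] at hsum
  have hle : Module.finrank L⟮jElt L N⟯ (jField L N) ≤ N + 1 := by
    refine (finite_and_finrank_jField_le L N).2.trans_eq ?_
    rw [card_cosets, dedekindPsi_prime hN]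
  have h1 : (S.card : ℤ) ≤ ∑ P ∈ (finite_ord_pos (K := L) x).toFinset, P.ord x * P.deg := by
    rw [Finset.card_eq_sum_ones, Nat.cast_sum]
    refine (Finset.sum_le_sum fun P hP => ?_).trans
      (Finset.sum_le_sum_of_subset_of_nonneg (fun P hP => by simpa using hS P hP) fun P hP _ => ?_)
    · rw [deg_eq_one, Nat.cast_one, mul_one]
      exact hS P hP
    · rw [deg_eq_one, Nat.cast_one, mul_one]
      exact (by simpa using hP : 0 < P.ord x).le
  rw [hsum] at h1
  exact_mod_cast h1.trans (Int.ofNat_le.2 hle)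

variable [IsAlgClosed K] {r : K} (hr : ‖r‖ < 1) (hr0 : r ≠ 0)

include hr hr0 in
omit [IsAlgClosed K] in
/-- The places at the other `N` points over `jDisc r`, with their value of `j(Nτ)`. -/
lemma exists_flip_place {a : L} (ha : algebraMap L K a = jDisc r hr) {t : K}
    (ht : t ^ N = r) :
    ∃ (Q : Place L (jField L N)) (c : L) (ht1 : ‖t‖ < 1),
      0 < Q.ord (jElt L N - algebraMap L (jField L N) a) ∧
      algebraMap L K c = jDisc t ht1 ∧
      OrdGE Q 1 (jFld N L (JIdx.top N) - algebraMap L (jField L N) c) := by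
  have ht1 : ‖t‖ < 1 := by
    by_contra h
    rw [← ht, norm_pow] at hr
    exact absurd hr (not_lt.2 (one_le_pow₀ (not_lt.1 h)))
  have ht0 : t ≠ 0 := fun h => hr0 (by rw [← ht, h, zero_pow (NeZero.ne N)])
  set σ : jField L N →ₐ[L] LaurentSeries K := (discEmb N ht1 ht0).comp (alHom N L) with hσ
  have hone : σ (jFld N L (JIdx.one N)) = taylorLS ht1 (jB (N : ℕ)) := by
    rw [hσ, AlgHom.comp_apply, jFld, alHom_toJField, MvPolynomial.rename_X, ← jFld, discEmb_jFld]
    congr 2
    exact Nat.div_one N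
  have htop : σ (jFld N L (JIdx.top N)) = taylorLS ht1 (jB 1) := by
    rw [hσ, AlgHom.comp_apply, jFld, alHom_toJField, MvPolynomial.rename_X, ← jFld, discEmb_jFld]
    congr 2
    exact Nat.div_self (NeZero.pos N)
  set x := jElt L N - algebraMap L (jField L N) a with hx
  have hσx : σ x = taylorLS ht1 (jB (N : ℕ)) - algebraMap K (LaurentSeries K) (jDisc r hr) := by
    rw [hx, map_sub, jElt_eq_jFld, hone, AlgHom.commutes, laurent_algebraMap_tower, ha]
  have hσx0 : σ x ≠ 0 := fun h => jElt_sub_ne_zero N a (σ.toRingHom.injective (by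
    rw [map_zero]; exact h))
  have hpos : 0 < (σ x).order := by
    by_contra hle
    obtain ⟨T, hT⟩ := taylorLS_eq_ofPowerSeries ht1 ht0 (jB (K := K) (N : ℕ))
    have hneg : ∀ k : ℤ, k ≤ 0 → (σ x).coeff k = 0 := by
      intro k hk
      rw [hσx, HahnSeries.coeff_sub, ModularCurve.algebraMap_laurentSeries_eq_single]
      rcases hk.lt_or_eq with hk | rfl
      · rw [hT, coeff_ofPowerSeries_eq, if_neg (by omega), HahnSeries.coeff_single_of_ne hk.ne,
          sub_zero]
      · rw [HahnSeries.coeff_single_same]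
        change evalLS ht1 (jB (K := K) (N : ℕ)) - jDisc r hr = 0
        rw [evalLS_jB ht1 ht0, sub_eq_zero]
        simp only [jDisc]
        rw [evalDisc_congr ht (norm_pow_lt_one N ht1) hr, ht]
    exact HahnSeries.leadingCoeff_ne_zero.2 hσx0
      (by rw [HahnSeries.leadingCoeff_eq]; exact hneg _ (not_lt.1 hle))
  set Q := centre σ hpos with hQ
  have hmem : jFld N L (JIdx.top N) ∈ Q.toValuationSubring := by
    rw [hQ, mem_centre, htop]
    intro k hk
    obtain ⟨T, hT⟩ := taylorLS_eq_ofPowerSeries ht1 ht0 (jB (K := K) 1)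
    rw [hT, coeff_ofPowerSeries_eq, if_neg (by omega)]
  set c := evalAt Q ⟨_, hmem⟩
  have hc : OrdGE Q 1 (jFld N L (JIdx.top N) - algebraMap L (jField L N) c) :=
    evalAt_spec Q ⟨_, hmem⟩
  refine ⟨Q, c, ht1, centre_ord_pos _ _, ?_, hc⟩
  obtain ⟨u, -, hu⟩ := exists_ord_eq_one (v := Q)
  have h1 := sge_apply σ hpos hu (n := 1) hc 0 zero_lt_one
  rw [map_sub, htop, AlgHom.commutes, laurent_algebraMap_tower, HahnSeries.coeff_sub,
    ModularCurve.algebraMap_laurentSeries_eq_single, HahnSeries.coeff_single_same] at h1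
  change evalLS ht1 (jB (K := K) 1) - algebraMap L K c = 0 at h1
  rw [evalLS_jB ht1 ht0, sub_eq_zero] at h1
  rw [← h1]
  simp only [jDisc]
  rw [evalDisc_congr (pow_one t) (norm_pow_lt_one 1 ht1) ht1, pow_one]

/-- Over a value of `j` outside the unit disc a place is the disc place, or one of the other `N`. -/
theorem fibre_cases (hN : N.Prime) (P : Place L (jField L N)) {a b : L}
    (hP : HasCoords P a b)
    (hav : 1 < ‖algebraMap L K a‖) :
    ∃ (r : K) (hr : ‖r‖ < 1) (hr0 : r ≠ 0) (ha : algebraMap L K a = jDisc r hr),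
      P = discPlace hr hr0 ha ∨ ‖algebraMap L K b‖ ^ N = ‖algebraMap L K a‖ := by
  classical
  obtain ⟨r, hr, hr0, hj⟩ := exists_jDisc_eq hav
  have ha : algebraMap L K a = jDisc r hr := hj.symm
  refine ⟨r, hr, hr0, ha, ?_⟩
  have : CharZero K := (RingHom.charZero_iff (algebraMap L K).injective).1 inferInstance
  obtain ⟨t₀, ht₀⟩ := IsAlgClosed.exists_pow_nat_eq r hN.pos
  have : NeZero (N : K) := ⟨Nat.cast_ne_zero.2 hN.ne_zero⟩
  obtain ⟨ζ, hζ⟩ := HasEnoughRootsOfUnity.exists_primitiveRoot K N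
  have ht : ∀ i : Fin N, (t₀ * ζ ^ (i : ℕ)) ^ N = r := fun i => by
    rw [mul_pow, ht₀, ← pow_mul, mul_comm (i : ℕ) N, pow_mul, hζ.pow_eq_one, one_pow, mul_one]
  choose Q c ht1 hQx hQc hQv using fun i => exists_flip_place N hr hr0 ha (ht i)
  obtain ⟨b₀, hb₀, hPb₀⟩ := exists_value_jFld (N := N) hr hr0 ha (JIdx.top N)
  set P₀ := discPlace (N := N) hr hr0 ha with hP₀
  have ht00 : t₀ ≠ 0 := fun h => hr0 (by rw [← ht₀, h, zero_pow hN.ne_zero])
  have hnormt : ∀ i : Fin N, ‖t₀ * ζ ^ (i : ℕ)‖ ^ N = ‖r‖ := fun i => by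
    rw [← norm_pow, ht i]
  have hr1 : 0 < ‖r‖ := norm_pos_iff.2 hr0
  have hpow : ∀ {m n : ℕ}, ‖r‖ ^ m = ‖r‖ ^ n → m = n := fun h =>
    (pow_right_injective₀ hr1 hr.ne) h
  -- the values of `j(Nτ)` separate the places
  have hne : ∀ i, Q i ≠ P₀ := fun i h => by
    have hcb : c i = b₀ := Curve.eq_of_ordGE_one_sub (h ▸ hQv i) hPb₀
    have h1 := congrArg (fun z => ‖algebraMap L K z‖⁻¹ ^ N) hcb
    simp only [hQc, hb₀, norm_jDisc, inv_inv] at h1
    have h2 : ‖r‖ ^ 1 = ‖r‖ ^ (N * N) := by
      rw [pow_one, pow_mul]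
      conv_lhs => rw [← hnormt i, h1, norm_pow]
      rfl
    have := hpow h2
    nlinarith [hN.two_le]
  have hinj : Function.Injective Q := fun i k h => by
    have hcc : c i = c k := Curve.eq_of_ordGE_one_sub (h ▸ hQv i) (hQv k)
    have h1 := jDisc_injective (ht1 i) (ht1 k) (by rw [← hQc, ← hQc, hcc])
    exact Fin.ext (hζ.pow_inj i.2 k.2 (mul_left_cancel₀ ht00 h1))
  set S := insert P₀ (Finset.univ.image Q) with hS
  have hScard : S.card = N + 1 := by
    rw [hS, Finset.card_insert_of_notMem ?_, Finset.card_image_of_injective _ hinj,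
      Finset.card_univ, Fintype.card_fin]
    simp only [Finset.mem_image, Finset.mem_univ, true_and, not_exists]
    exact hne
  have hPpos : 0 < P.ord (jElt L N - algebraMap L (jField L N) a) :=
    (ordGE_iff_le (jElt_sub_ne_zero N a)).1 hP.ordGE_j
  have hmem : P ∈ S := by
    by_contra hPS
    have := card_zeros_le N hN a (insert P S) fun R hR => by
      rcases Finset.mem_insert.1 hR with rfl | hR
      · exact hPpos
      rcases Finset.mem_insert.1 hR with rfl | hR
      · rw [ord_discPlace_jElt_sub hr hr0 ha]; exact one_pos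
      · obtain ⟨i, -, rfl⟩ := Finset.mem_image.1 hR
        exact hQx i
    rw [Finset.card_insert_of_notMem hPS, hScard] at this
    omega
  rcases Finset.mem_insert.1 hmem with h | h
  · exact Or.inl h
  · right
    obtain ⟨i, -, rfl⟩ := Finset.mem_image.1 h
    have hcb : c i = b := Curve.eq_of_ordGE_one_sub (hQv i) hP.ordGE_jN
    rw [← hcb, hQc, ha, norm_jDisc, norm_jDisc, inv_pow, inv_inj, hnormt i]

/-- **Completeness of the disc**: a place with `|j| > 1` and `|j_N| = |j| ^ N` is the place at a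
point of the punctured disc. -/
theorem eq_discPlace (hN : N.Prime) (P : Place L (jField L N)) {a b : L}
    (hP : HasCoords P a b)
    (hav : 1 < ‖algebraMap L K a‖) (hbv : ‖algebraMap L K b‖ = ‖algebraMap L K a‖ ^ N) :
    ∃ (r : K) (hr : ‖r‖ < 1) (hr0 : r ≠ 0) (ha : algebraMap L K a = jDisc r hr),
      P = discPlace hr hr0 ha := by
  obtain ⟨r, hr, hr0, ha, h | h⟩ := fibre_cases N hN P hP hav
  · exact ⟨r, hr, hr0, ha, h⟩
  · exfalso
    rw [hbv, ← pow_mul] at h
    have : N * N = 1 := (pow_right_injective₀ (lt_trans one_pos hav) (ne_of_gt hav))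
      (h.trans (pow_one _).symm)
    nlinarith [hN.two_le]

/-- Outside the unit disc `j(Nτ)` has absolute value `‖j‖ ^ N` or `‖j‖ ^ (1/N)`. -/
theorem value_dichotomy (hN : N.Prime) (P : Place L (jField L N)) {a b : L}
    (hP : HasCoords P a b)
    (hav : 1 < ‖algebraMap L K a‖) :
    ‖algebraMap L K b‖ = ‖algebraMap L K a‖ ^ N ∨ ‖algebraMap L K b‖ ^ N = ‖algebraMap L K a‖ := by
  obtain ⟨r, hr, hr0, ha, rfl | h⟩ := fibre_cases N hN P hP hav
  · left
    obtain ⟨c, hc, hPc⟩ := exists_value_jFld (N := N) hr hr0 ha (JIdx.top N)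
    rw [← Curve.eq_of_ordGE_one_sub hPc hP.ordGE_jN, hc, ha, norm_jDisc, norm_jDisc, norm_pow,
      inv_pow]
    rfl
  · exact Or.inr h

/-- Two places with the same large values of `j` and `j(Nτ)` coincide. -/
theorem place_eq_of_values (hN : N.Prime) {P P' : Place L (jField L N)} {a b : L}
    (hP : HasCoords P a b)
    (hP' : HasCoords P' a b)
    (hav : 1 < ‖algebraMap L K a‖) (hbv : ‖algebraMap L K b‖ = ‖algebraMap L K a‖ ^ N) :
    P = P' := by
  obtain ⟨r, hr, hr0, ha, rfl⟩ := eq_discPlace N hN P hP hav hbv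
  obtain ⟨r', hr', hr0', ha', rfl⟩ := eq_discPlace N hN P' hP' hav hbv
  obtain rfl : r = r' := jDisc_injective hr hr' (ha.symm.trans ha')
  rfl

end FermatAgent.Mazur

end
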