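import Fermat.Agent.Mazur.TorsionLocal
import Fermat.Agent.Mazur.CurvePlace
import Fermat.Agent.Mazur.DiscFibre
import Fermat.Agent.Mazur.Radicand

/-!
# A rational cyclic subgroup gives a rational point of `X₀(N)` near a cusp at `2` and `3`

A Galois stable cyclic subgroup of prime order `N` of an elliptic curve gives two places of
`X₀(N)` with rational coordinates `(j, j')` and `(j', j)`, `j'` being the invariant of the
quotient, and a relation between the two discriminants (`exists_rat_place`). At a prime `ℓ ∣ 6`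
of multiplicative reduction the valuation of `j` is negative, and that of `j'` is `N` times it
exactly when the point generating the subgroup has nonsingular reduction (`padicValRat_values`).
-/

set_option autoImplicit false

noncomputable section

open scoped WeierstrassCurve.Affine Classical

namespace FermatAgent.Mazur

open WeierstrassCurve FermatAgent.ECLocal
open FermatAgent.Curve (jField)
open AlgebraicCurve (Place)

local notation "Qbar" => AlgebraicClosure ℚ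

variable {W : WeierstrassCurve ℤ} {N : ℕ} {Q : ((W.map (Int.castRingHom ℚ))⁄Qbar).Point}

/-! ### Rationality -/

lemma xAbs_nsmul_mod (hQ : N • Q = 0) (k : ℕ) : xAbs W ((k % N) • Q) = xAbs W (k • Q) := by
  conv_rhs => rw [← Nat.mod_add_div k N, add_nsmul, mul_nsmul, hQ, nsmul_zero, add_zero]

lemma sum_galois (hN : N.Prime) (hQ : N • Q = 0) (hQ0 : Q ≠ 0) (σ : Qbar ≃ₐ[ℚ] Qbar) {m : ℕ}
    (hm : σ • Q = m • Q) (f : Qbar → Qbar) (hf : ∀ x, σ (f x) = f (σ x)) :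
    σ (∑ k ∈ Finset.Ioo 0 N, f (xAbs W (k • Q))) = ∑ k ∈ Finset.Ioo 0 N, f (xAbs W (k • Q)) := by
  have := Fact.mk hN
  have hm0 : (m : ZMod N) ≠ 0 := fun h => by
    obtain ⟨c, rfl⟩ := (ZMod.natCast_eq_zero_iff _ _).1 h
    rw [mul_nsmul, hQ, nsmul_zero] at hm
    exact hQ0 (MulAction.injective σ (hm.trans (galois_smul_zero W σ).symm))
  rw [map_sum]
  have hterm : ∀ k : ℕ, σ (f (xAbs W (k • Q))) = f (xAbs W ((((m : ZMod N) * k).val) • Q)) := by
    intro k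
    rw [hf, ← xAbs_smul, galois_smul_nsmul, hm, ← Nat.cast_mul, ZMod.val_natCast,
      xAbs_nsmul_mod hQ, mul_comm m k, mul_nsmul']
  simp only [hterm]
  refine Finset.sum_bij' (fun k _ => ((m : ZMod N) * k).val) (fun k _ => ((m : ZMod N)⁻¹ * k).val)
    ?_ ?_ ?_ ?_ ?_
  · intro k hk
    obtain ⟨hk0, hkN⟩ := Finset.mem_Ioo.1 hk
    refine Finset.mem_Ioo.2 ⟨?_, ZMod.val_lt _⟩
    rw [pos_iff_ne_zero, ne_eq, ZMod.val_eq_zero, mul_eq_zero, not_or]
    exact ⟨hm0, fun h => absurd (Nat.le_of_dvd hk0 ((ZMod.natCast_eq_zero_iff _ _).1 h)) (by omega)⟩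
  · intro k hk
    obtain ⟨hk0, hkN⟩ := Finset.mem_Ioo.1 hk
    refine Finset.mem_Ioo.2 ⟨?_, ZMod.val_lt _⟩
    rw [pos_iff_ne_zero, ne_eq, ZMod.val_eq_zero, mul_eq_zero, not_or]
    exact ⟨inv_ne_zero hm0,
      fun h => absurd (Nat.le_of_dvd hk0 ((ZMod.natCast_eq_zero_iff _ _).1 h)) (by omega)⟩
  · intro k hk
    simp only [ZMod.natCast_val, ZMod.cast_id', id_eq, ← mul_assoc, inv_mul_cancel₀ hm0, one_mul]
    exact ZMod.val_cast_of_lt (Finset.mem_Ioo.1 hk).2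
  · intro k hk
    simp only [ZMod.natCast_val, ZMod.cast_id', id_eq, ← mul_assoc, mul_inv_cancel₀ hm0, one_mul]
    exact ZMod.val_cast_of_lt (Finset.mem_Ioo.1 hk).2
  · intro k hk
    rfl

/-- `ι κ = ratioConst N` makes `κ` an `ℓ`-adic unit for `ℓ ≠ N`. -/
lemma valuation_eq_one_of_ratioConst (hN : N.Prime) (h5 : 5 ≤ N) [NeZero N] (ι : Qbar →+* ℂ)
    {κ : Qbar} (hκ : ι κ = ratioConst N) {A : ValuationSubring Qbar} {ℓ : ℕ} (hℓ : ℓ.Prime)
    (hA : A.LiesOverPrime ℓ) (hℓN : ℓ ≠ N) : A.valuation κ = 1 := by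
  obtain ⟨ζ, hζ⟩ : ∃ ζ : Qbar, ι ζ = ES.zetaC N := by
    have : NeZero (N : Qbar) := ⟨Nat.cast_ne_zero.2 (NeZero.ne N)⟩
    obtain ⟨z, hz⟩ := HasEnoughRootsOfUnity.exists_primitiveRoot Qbar N
    obtain ⟨i, -, hi⟩ := (hz.map_of_injective ι.injective).eq_pow_of_pow_eq_one
      (ES.zetaC_isPrimitiveRoot N).pow_eq_one
    exact ⟨z ^ i, by rw [map_pow, hi]⟩
  have hprim : IsPrimitiveRoot ζ N :=
    IsPrimitiveRoot.of_map_of_injective (hζ ▸ ES.zetaC_isPrimitiveRoot N) ι.injective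
  have hζA : ζ ∈ A := by
    rw [← A.valuation_le_one_iff]
    have h := congrArg A.valuation hprim.pow_eq_one
    rw [map_pow, map_one] at h
    exact (pow_eq_one_iff.1 h).resolve_right (NeZero.ne N) |>.le
  have hu : ∀ i : ℕ, ¬N ∣ i → A.valuation (1 - ζ ^ i) = 1 := by
    intro i hi
    have hmem : 1 - ζ ^ i ∈ A := sub_mem A.one_mem (pow_mem hζA i)
    refine le_antisymm ((A.valuation_le_one_iff _).2 hmem) (not_lt.1 fun hlt => ?_)
    set z : A := ⟨ζ ^ i, pow_mem hζA i⟩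
    have hz1 : IsLocalRing.residue A z = 1 := by
      rw [← map_one (IsLocalRing.residue A), residue_eq_residue_iff, ← Valuation.map_neg]
      simpa [z] using hlt
    have hsum : ∑ j ∈ Finset.range N, z ^ j = 0 := by
      refine Subtype.ext ?_
      push_cast
      exact ((hprim.pow_of_coprime i ((hN.coprime_iff_not_dvd.2 hi).symm)).geom_sum_eq_zero
        hN.one_lt)
    have h := congrArg (IsLocalRing.residue A) hsum
    simp only [map_sum, map_pow, hz1, one_pow, map_zero, Finset.sum_const, Finset.card_range,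
      nsmul_eq_mul, mul_one] at h
    exact natCast_residue_ne_zero hℓ hA
      (fun hd => hℓN ((Nat.prime_dvd_prime_iff_eq hℓ hN).1 hd)) h
  have hG : ES.GoodRoot N (A.toSubring.map ι) (ES.zetaC N) := by
    refine ⟨ES.zetaC_isPrimitiveRoot N, ⟨ζ, hζA, hζ⟩, fun i hi => ⟨?_, ?_, ?_⟩⟩
    · exact sub_ne_zero.2 fun h => hi ((ES.zetaC_isPrimitiveRoot N).dvd_of_pow_eq_one i h.symm)
    · exact ⟨1 - ζ ^ i, sub_mem A.one_mem (pow_mem hζA i), by rw [map_sub, map_one, map_pow, hζ]⟩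
    · refine ⟨(1 - ζ ^ i)⁻¹, ?_, by rw [map_inv₀, map_sub, map_one, map_pow, hζ]⟩
      show (1 - ζ ^ i)⁻¹ ∈ A
      rw [← A.valuation_le_one_iff, map_inv₀, hu i hi, inv_one]
  obtain ⟨hne, ⟨x, hxA, hx⟩, ⟨y, hyA, hy⟩⟩ := unitIn_ratioConst hN h5 hG
  have hxκ : x = κ := ι.injective (hx.trans hκ.symm)
  have hyκ : y = κ⁻¹ := ι.injective (by rw [hy, map_inv₀, hκ])
  subst hxκ hyκ
  refine le_antisymm ((A.valuation_le_one_iff _).2 hxA) ?_
  have h := (A.valuation_le_one_iff _).2 hyA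
  have hk0 : A.valuation x ≠ 0 := (Valuation.ne_zero_iff _).2 fun h0 =>
    hne (by rw [← hx, h0, map_zero])
  rwa [map_inv₀, inv_le_one₀ (zero_lt_iff.2 hk0)] at h

variable [NeZero N] [Algebra Qbar ℂ]

/-- A stable cyclic subgroup of order `N` gives places of `X₀(N)` with rational coordinates
`(j(E), j(E/C))`, with the relation between the two discriminants. -/
theorem exists_rat_place (hN : N.Prime) (h5 : 5 ≤ N) (hc4 : W.c₄ ≠ 0) (hc6 : W.c₆ ≠ 0)
    (hΔ : W.Δ ≠ 0) (hQ : N • Q = 0) (hQ0 : Q ≠ 0)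
    (hstab : ∀ σ : Qbar ≃ₐ[ℚ] Qbar, ∃ m : ℕ, σ • Q = m • Q) :
    ∃ (P P' : Place Qbar (jField Qbar N)) (a b : ℚ) (κ : Qbar),
      HasCoords P (a : Qbar) b ∧ HasCoords P' (b : Qbar) a ∧
      (a : Qbar) = (W.c₄ : Qbar) ^ 3 / W.Δ ∧
      (b : Qbar) = quotC4 W N Q ^ 3 / quotDelta W N Q ∧
      algebraMap Qbar ℂ κ = ratioConst N ∧ quotDelta W N Q ≠ 0 ∧
      diffProd W N Q ^ 6 * quotDelta W N Q = κ * (N : Qbar) ^ 12 * (W.Δ : Qbar) ^ N := by
  obtain ⟨τ, hj, hd0, hjN, hid⟩ := exists_tau (algebraMap Qbar ℂ) hc4 hc6 hΔ hN h5 hQ0 hQ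
  have hfix : ∀ σ : Qbar ≃ₐ[ℚ] Qbar,
      σ (quotC4 W N Q) = quotC4 W N Q ∧ σ (quotC6 W N Q) = quotC6 W N Q := by
    intro σ
    obtain ⟨m, hm⟩ := hstab σ
    constructor
    · simp only [quotC4, map_add, map_intCast, uAbs]
      rw [sum_galois hN hQ hQ0 σ hm (fun x => 5 * (12 * x + (W.b₂ : Qbar)) ^ 2 - 5 * (W.c₄ : Qbar))
        (fun x => by simp [map_ofNat])]
    · simp only [quotC6, map_add, map_intCast, uAbs]
      rw [sum_galois hN hQ hQ0 σ hm (fun x => 35 / 2 * (12 * x + (W.b₂ : Qbar)) ^ 3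
        - 63 / 2 * (W.c₄ : Qbar) * (12 * x + (W.b₂ : Qbar)) - 14 * (W.c₆ : Qbar))
        (fun x => by simp [map_ofNat])]
  obtain ⟨b, hb⟩ := exists_rat_of_fixed (x := quotC4 W N Q ^ 3 / quotDelta W N Q) fun σ => by
    simp only [quotDelta, map_div₀, map_sub, map_pow, map_ofNat, (hfix σ).1, (hfix σ).2]
  set a : ℚ := (W.c₄ : ℚ) ^ 3 / W.Δ
  have ha : (a : Qbar) = (W.c₄ : Qbar) ^ 3 / W.Δ := by simp [a]
  have hja : algebraMap Qbar ℂ (a : Qbar) = Curve.jFun τ := by rw [ha, hj]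
  have hjb : algebraMap Qbar ℂ (b : Qbar) = Curve.jFun (mulPt N τ) := by rw [hb, hjN]
  obtain ⟨P, hP⟩ := exists_place_of_point N τ hja hjb
  obtain ⟨P', hP'⟩ := exists_place_flip (N := N) τ hja hjb
  have hN0 : (N : Qbar) ≠ 0 := Nat.cast_ne_zero.2 (NeZero.ne N)
  have hΔ' : (W.Δ : Qbar) ≠ 0 := by exact_mod_cast hΔ
  refine ⟨P, P', a, b, diffProd W N Q ^ 6 * quotDelta W N Q / ((N : Qbar) ^ 12 * (W.Δ : Qbar) ^ N),
    hP, hP', ha, hb, ?_, hd0, ?_⟩
  · rw [map_div₀, map_mul, map_pow, hid, map_mul, map_pow, map_pow, map_natCast, map_intCast,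
      div_eq_iff (mul_ne_zero (pow_ne_zero _ (Nat.cast_ne_zero.2 (NeZero.ne N)))
        (pow_ne_zero _ (by exact_mod_cast hΔ)))]
    ring
  · rw [mul_assoc, div_mul_cancel₀ _ (mul_ne_zero (pow_ne_zero _ hN0) (pow_ne_zero _ hΔ'))]

/-! ### Valuations -/

section Local

variable {A : ValuationSubring Qbar} {ℓ : ℕ} (hℓ : ℓ.Prime) (hA : A.LiesOverPrime ℓ)
  (hℓ6 : ℓ ∣ 6) (hN : N.Prime) (hℓN : ℓ ≠ N) (hQ : N • Q = 0) (hQ0 : Q ≠ 0)

omit [Algebra Qbar ℂ] [NeZero N]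

include hN hQ hQ0 in
lemma nsmul_ne_zero_of_mem {k : ℕ} (hk : ¬N ∣ k) : k • Q ≠ 0 := fun h => by
  have := Fact.mk hN
  have := addOrderOf_eq_prime_iff.2 ⟨hQ, hQ0⟩
  exact hk (this ▸ addOrderOf_dvd_of_nsmul_eq_zero h)

include hQ in
/-- The multiples of `Q` are killed by `N`. -/
lemma nsmul_nsmul_eq_zero (k : ℕ) : N • (k • Q) = 0 := by
  rw [← mul_nsmul, mul_nsmul', hQ, nsmul_zero]

include hN hQ in
/-- A multiple of `Q` prime to `N` has nonsingular reduction iff `Q` has. -/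
lemma isE0_iff_nsmul {k : ℕ} (hk : ¬N ∣ k) :
    IsE0 (toGen W A (k • Q)) ↔ IsE0 (toGen W A Q) := by
  refine ⟨fun h => ?_, fun h => by rw [map_nsmul]; exact (h.nsmul k).1⟩
  obtain ⟨j, -, hj⟩ := Nat.exists_mul_mod_eq_one_of_coprime
    ((hN.coprime_iff_not_dvd.2 hk).symm) hN.one_lt
  have : j • k • Q = Q := by
    rw [← mul_nsmul, ← Nat.mod_add_div (k * j) N, hj, add_nsmul, one_nsmul, mul_nsmul, hQ,
      nsmul_zero, add_zero]
  rw [← this, map_nsmul]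
  exact (h.nsmul j).1

include hℓ hA hℓ6 hN hℓN hQ in
lemma valuation_quotC4 (hc4 : ¬(ℓ : ℤ) ∣ W.c₄) : A.valuation (quotC4 W N Q) = 1 := by
  have h1 : A.valuation (W.c₄ : Qbar) = 1 := valuation_intCast_eq_one hℓ hA hc4
  have hsum : A.valuation (∑ k ∈ Finset.Ioo 0 N, (5 * uAbs W Q k ^ 2 - 5 * (W.c₄ : Qbar))) < 1 := by
    refine A.valuation.map_sum_lt one_ne_zero fun k _ => ?_
    set x := xAbs W (k • Q) with hxdef
    have hx : x ∈ A := xAbs_mem hℓ hA hN hℓN (nsmul_nsmul_eq_zero hQ k)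
    have e : 5 * uAbs W Q k ^ 2 - 5 * (W.c₄ : Qbar)
        = ((6 : ℤ) : Qbar) * (20 * (6 * x ^ 2 + x * W.b₂ + W.b₄)) := by
      rw [uAbs, ← hxdef, WeierstrassCurve.c₄]
      push_cast
      ring
    rw [e, map_mul]
    refine mul_lt_one_of_nonneg_of_lt_one_left zero_le
      ((valuation_intCast_lt_one_iff hℓ hA 6).2 (by exact_mod_cast hℓ6)) ?_
    rw [A.valuation_le_one_iff]
    have h20 : (20 : Qbar) ∈ A := by exact_mod_cast natCast_mem A 20
    have h6 : (6 : Qbar) ∈ A := by exact_mod_cast natCast_mem A 6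
    exact A.mul_mem _ _ h20 (A.add_mem _ _ (A.add_mem _ _ (A.mul_mem _ _ h6 (pow_mem hx 2))
      (A.mul_mem _ _ hx (intCast_mem A _))) (intCast_mem A _))
  rw [quotC4, A.valuation.map_add_eq_of_lt_left (by rw [h1]; exact hsum), h1]

include hℓ hA hN hℓN hQ hQ0 in
lemma valuation_diffProd_toric (h5 : 5 ≤ N) (h : IsE0 (toGen W A Q)) :
    A.valuation (diffProd W N Q) = 1 := by
  rw [diffProd, map_prod]
  refine Finset.prod_eq_one fun k hk => ?_
  obtain ⟨hk0, hkN⟩ := Finset.mem_Ioo.1 hk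
  have hnd : ∀ m : ℕ, 0 < m → m < 5 → ¬N ∣ m * k := fun m hm hm5 hd => by
    rcases hN.dvd_mul.1 hd with hd | hd
    · have := Nat.le_of_dvd hm hd; omega
    · have := Nat.le_of_dvd hk0 hd; omega
  refine le_antisymm ((A.valuation_le_one_iff _).2 (sub_mem
    (xAbs_mem hℓ hA hN hℓN (nsmul_nsmul_eq_zero hQ k))
    (xAbs_mem hℓ hA hN hℓN (nsmul_nsmul_eq_zero hQ _)))) (not_lt.1 fun hlt => ?_)
  have hE : ∀ j : ℕ, IsE0 (toGen W A (j • Q)) := fun j => by rw [map_nsmul]; exact (h.nsmul j).1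
  rcases eq_or_eq_neg_of_residue hℓ hA hN hℓN (nsmul_nsmul_eq_zero hQ k) (nsmul_nsmul_eq_zero hQ _)
      (nsmul_ne_zero_of_mem hN hQ hQ0 (by simpa using hnd 1 one_pos (by norm_num)))
      (nsmul_ne_zero_of_mem hN hQ hQ0 (hnd 2 two_pos (by norm_num))) (hE _) (hE _) hlt with e | e
  · rw [two_mul, add_nsmul] at e
    exact nsmul_ne_zero_of_mem hN hQ hQ0 (k := k) (by simpa using hnd 1 one_pos (by norm_num))
      (left_eq_add.1 e)
  · exact nsmul_ne_zero_of_mem hN hQ hQ0 (k := 3 * k) (hnd 3 (by norm_num) (by norm_num))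
      (by rw [show 3 * k = k + 2 * k by ring, add_nsmul, e, neg_add_cancel])

include hℓ hA hN hQ hQ0 in
lemma valuation_diffProd_nontoric (h5 : 5 ≤ N) (hΔ0 : W.Δ ≠ 0) (hΔ : (ℓ : ℤ) ∣ W.Δ)
    (hc4 : ¬(ℓ : ℤ) ∣ W.c₄) (h : ¬IsE0 (toGen W A Q)) :
    A.valuation (diffProd W N Q) < 1 := by
  obtain ⟨r, hr⟩ := exists_node hℓ hA hΔ0 hΔ hc4
  have hv : ∀ k : ℕ, ¬N ∣ k → A.valuation (xAbs W (k • Q) - r) < 1 := fun k hk => by
    by_contra hc
    exact h ((isE0_iff_nsmul hN hQ hk).1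
      ((hr _ (nsmul_nsmul_eq_zero hQ k) (nsmul_ne_zero_of_mem hN hQ hQ0 hk)).2 hc))
  have hlt : ∀ k ∈ Finset.Ioo 0 N,
      A.valuation (xAbs W (k • Q) - xAbs W ((2 * k) • Q)) < 1 := by
    intro k hk
    obtain ⟨hk0, hkN⟩ := Finset.mem_Ioo.1 hk
    rw [show xAbs W (k • Q) - xAbs W ((2 * k) • Q)
      = (xAbs W (k • Q) - r) - (xAbs W ((2 * k) • Q) - r) by ring]
    refine (A.valuation.map_sub _ _).trans_lt (max_lt (hv k fun hd => ?_) (hv _ fun hd => ?_))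
    · have := Nat.le_of_dvd hk0 hd; omega
    · rcases hN.dvd_mul.1 hd with hd | hd
      · have := Nat.le_of_dvd two_pos hd; omega
      · have := Nat.le_of_dvd hk0 hd; omega
  rw [diffProd, map_prod, ← Finset.mul_prod_erase _ _ (Finset.mem_Ioo.2 ⟨one_pos, by omega⟩ :
    (1 : ℕ) ∈ Finset.Ioo 0 N)]
  refine mul_lt_one_of_nonneg_of_lt_one_left zero_le
    (hlt 1 (Finset.mem_Ioo.2 ⟨one_pos, by omega⟩)) ?_
  exact Finset.prod_le_one' fun k hk => (hlt k (Finset.mem_of_mem_erase hk)).le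

end Local

omit [Algebra Qbar ℂ] in
lemma zpow_valuation_inj {A : ValuationSubring Qbar} {ℓ : ℕ} (hℓ : ℓ.Prime)
    (hA : A.LiesOverPrime ℓ) {x : ℚ} (hx : x ≠ 0) {y : ℚ} (hy : y ≠ 0) (n : ℕ)
    (h : A.valuation (x : Qbar) = A.valuation (y : Qbar) ^ n) :
    padicValRat ℓ x = n * padicValRat ℓ y := by
  rw [valuation_ratCast_eq_zpow hℓ hA hx, valuation_ratCast_eq_zpow hℓ hA hy, ← zpow_natCast,
    ← zpow_mul] at h
  have h0 : 0 < A.valuation (ℓ : Qbar) := zero_lt_iff.2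
    ((Valuation.ne_zero_iff _).2 (Nat.cast_ne_zero.2 hℓ.ne_zero))
  rw [(zpow_right_strictAnti₀ h0 (valuation_natCast_lt_one hA)).injective h, mul_comm]

/-- The valuations of the two values at a multiplicative prime dividing `6`. -/
theorem padicValRat_values (hN : N.Prime) (h5 : 5 ≤ N) {ℓ : ℕ} (hℓ : ℓ.Prime) (hℓ6 : ℓ ∣ 6)
    {A : ValuationSubring Qbar} (hA : A.LiesOverPrime ℓ) (hΔ0 : W.Δ ≠ 0)
    (hΔ : (ℓ : ℤ) ∣ W.Δ) (hc4 : ¬(ℓ : ℤ) ∣ W.c₄) (hQ : N • Q = 0) (hQ0 : Q ≠ 0)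
    {a b : ℚ} {κ : Qbar} (ha : (a : Qbar) = (W.c₄ : Qbar) ^ 3 / W.Δ)
    (hb : (b : Qbar) = quotC4 W N Q ^ 3 / quotDelta W N Q)
    (hκ : algebraMap Qbar ℂ κ = ratioConst N) (hd0 : quotDelta W N Q ≠ 0)
    (hid : diffProd W N Q ^ 6 * quotDelta W N Q = κ * (N : Qbar) ^ 12 * (W.Δ : Qbar) ^ N) :
    padicValRat ℓ a < 0 ∧
      (IsE0 (toGen W A Q) → padicValRat ℓ b = N * padicValRat ℓ a) ∧
      (¬IsE0 (toGen W A Q) → padicValRat ℓ b ≠ N * padicValRat ℓ a) := by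
  have hℓN : ℓ ≠ N := fun h => by
    subst h
    rcases (Nat.Prime.dvd_mul hℓ (m := 2) (n := 3)).1 hℓ6 with h | h
    · have := Nat.le_of_dvd two_pos h; omega
    · have := Nat.le_of_dvd three_pos h; omega
  set v := A.valuation
  have hc : v (W.c₄ : Qbar) = 1 := valuation_intCast_eq_one hℓ hA hc4
  have hc' : v (quotC4 W N Q) = 1 := valuation_quotC4 hℓ hA hℓ6 hN hℓN hQ hc4
  have hΔlt : v (W.Δ : Qbar) < 1 := (valuation_intCast_lt_one_iff hℓ hA _).2 hΔ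
  have hΔne : v (W.Δ : Qbar) ≠ 0 := (Valuation.ne_zero_iff _).2 (by exact_mod_cast hΔ0)
  have hva : v (a : Qbar) = (v (W.Δ : Qbar))⁻¹ := by
    rw [ha, map_div₀, map_pow, hc, one_pow, one_div]
  have hvb : v (b : Qbar) = (v (quotDelta W N Q))⁻¹ := by
    rw [hb, map_div₀, map_pow, hc', one_pow, one_div]
  have hvN : v (N : Qbar) = 1 := by
    have := valuation_intCast_eq_one hℓ hA (n := (N : ℤ))
      (fun h => hℓN ((Nat.prime_dvd_prime_iff_eq hℓ hN).1 (Int.natCast_dvd_natCast.1 h)))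
    simpa using this
  have hkey : v (diffProd W N Q) ^ 6 * v (quotDelta W N Q) = v (W.Δ : Qbar) ^ N := by
    have := congrArg v hid
    rwa [map_mul, map_pow, map_mul, map_mul, map_pow, map_pow, hvN, one_pow, mul_one,
      valuation_eq_one_of_ratioConst hN h5 (algebraMap Qbar ℂ) hκ hℓ hA hℓN, one_mul] at this
  have ha0 : a ≠ 0 := fun h => by
    rw [h, Rat.cast_zero, map_zero, eq_comm, inv_eq_zero] at hva
    exact hΔne hva
  have hb0 : b ≠ 0 := fun h => by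
    rw [h, Rat.cast_zero, map_zero, eq_comm, inv_eq_zero] at hvb
    exact (Valuation.ne_zero_iff _).2 hd0 hvb
  refine ⟨?_, fun h => ?_, fun h => ?_⟩
  · by_contra hneg
    have h1 : 1 < v (a : Qbar) := by rw [hva]; exact (one_lt_inv₀ (zero_lt_iff.2 hΔne)).2 hΔlt
    rw [valuation_ratCast_eq_zpow hℓ hA ha0] at h1
    exact absurd ((zpow_le_one_iff_right_of_lt_one₀ (zero_lt_iff.2 ((Valuation.ne_zero_iff _).2
      (Nat.cast_ne_zero.2 hℓ.ne_zero))) (valuation_natCast_lt_one hA)).2 (not_lt.1 hneg))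
      (not_le.2 h1)
  · refine zpow_valuation_inj hℓ hA hb0 ha0 N ?_
    rw [hva, hvb, inv_pow, ← hkey, valuation_diffProd_toric hℓ hA hN hℓN hQ hQ0 h5 h, one_pow,
      one_mul]
  · intro heq
    have hlt := valuation_diffProd_nontoric hℓ hA hN hQ hQ0 h5 hΔ0 hΔ hc4 h
    have h1 : v (b : Qbar) = v (a : Qbar) ^ N := by
      rw [valuation_ratCast_eq_zpow hℓ hA hb0, valuation_ratCast_eq_zpow hℓ hA ha0, heq,
        ← zpow_natCast, ← zpow_mul, mul_comm (N : ℤ)]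
    rw [hva, hvb, inv_pow, inv_inj] at h1
    rw [h1] at hkey
    have : v (diffProd W N Q) ^ 6 = 1 :=
      mul_right_cancel₀ (pow_ne_zero N hΔne) (hkey.trans (one_mul _).symm)
    exact absurd ((pow_eq_one_iff.1 this).resolve_right (by norm_num)) hlt.ne

end FermatAgent.Mazur

end
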