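import Fermat.Agent.Mazur.JDisc
import Fermat.Agent.Curve.ModularEmb
import Fermat.Agent.Curve.Embeddings

/-!
# The expansion of modular functions at a point of the punctured `q`-disc

For an algebraic closed or not field `L` mapped into the complete nonarchimedean field `K`, every
non-zero `r` in the open disc gives an embedding of `jField L N` into Laurent series over `K`:
the Taylor expansion of the `q`-expansions at `r`.
-/

set_option autoImplicit false

noncomputable section

namespace FermatAgent.Mazur

open FermatAgent.Curve HahnSeries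
open ModularCurve (qExpand jqModC coeffMap)
open AlgebraicCurve (Place)

section Bounded

variable {K : Type*} [NormedField K] [IsUltrametricDist K]

lemma norm_coeff_jqModC_le (k : ℤ) : ‖(jqModC K).coeff k‖ ≤ 1 := by
  rw [ModularCurve.jqModC_eq_map_intCast, HahnSeries.map_coeff]
  exact IsUltrametricDist.norm_intCast_le_one K _

lemma norm_coeff_qExpand_jqModC_le (d : ℕ) [NeZero d] (k : ℤ) :
    ‖(qExpand K d (jqModC K)).coeff k‖ ≤ 1 := by
  by_cases h : (d : ℤ) ∣ k
  · obtain ⟨i, rfl⟩ := h
    rw [ModularCurve.qExpand_coeff_mul]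
    exact norm_coeff_jqModC_le i
  · rw [ModularCurve.qExpand_coeff_of_not_dvd _ _ h, norm_zero]
    exact zero_le_one

/-- `j(dτ)` as a bounded Laurent series. -/
def jB (d : ℕ) [NeZero d] : boundedLS K :=
  ⟨qExpand K d (jqModC K), mem_boundedLS_iff.mpr ⟨1, norm_coeff_qExpand_jqModC_le d⟩⟩

lemma expand_mem_boundedPS (d : ℕ) (f : PowerSeries ℤ) :
    PowerSeries.mk (fun n => if d ∣ n then ((PowerSeries.coeff (n / d) f : ℤ) : K) else 0)
      ∈ boundedPS K :=
  ⟨1, fun n => by
    rw [PowerSeries.coeff_mk]
    split_ifs
    · exact IsUltrametricDist.norm_intCast_le_one K _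
    · simp⟩

variable [CompleteSpace K] {r : K} (hr : ‖r‖ < 1) (hr0 : r ≠ 0)

omit [IsUltrametricDist K] [CompleteSpace K] hr0 in
/-- Powers of a point of the disc lie in the disc. -/
lemma norm_pow_lt_one (d : ℕ) [NeZero d] (hr : ‖r‖ < 1) : ‖r ^ d‖ < 1 := by
  rw [norm_pow]
  exact pow_lt_one₀ (norm_nonneg r) hr (NeZero.ne d)

include hr0 in
/-- The value of `j(dτ)` at `r` is `j(r ^ d)`. -/
lemma evalLS_jB (d : ℕ) [NeZero d] :
    evalLS hr (jB (K := K) d) = jDisc (r ^ d) (norm_pow_lt_one d hr) := by
  classical
  rw [evalLS_eq hr hr0 (jB d) (M := d) (F := ⟨_, expand_mem_boundedPS d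
    ModularCurve.jNum⟩) ?_]
  · rw [jDisc, evalDisc_apply, evalDisc_apply]
    congr 1
    have hinj : Function.Injective fun n : ℕ => d * n :=
      fun a b h => Nat.eq_of_mul_eq_mul_left (NeZero.pos d) h
    rw [← hinj.tsum_eq (f := fun n => PowerSeries.coeff n (PowerSeries.mk fun n =>
      if d ∣ n then ((PowerSeries.coeff (n / d) ModularCurve.jNum : ℤ) : K) else 0) * r ^ n)]
    · refine tsum_congr fun n => ?_
      rw [PowerSeries.coeff_mk, if_pos (dvd_mul_right d n),
        Nat.mul_div_cancel_left n (NeZero.pos d), pow_mul, intPS, PowerSeries.coeff_map]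
      rfl
    · intro n hn
      rw [Function.mem_support] at hn
      by_cases hdn : d ∣ n
      · obtain ⟨m, rfl⟩ := hdn
        exact ⟨m, rfl⟩
      · exact absurd (by rw [PowerSeries.coeff_mk, if_neg hdn, zero_mul]) hn
  · ext k
    rw [coeff_mul_ofPowerSeries_X_pow, coeff_ofPowerSeries_eq]
    change (qExpand K d (jqModC K)).coeff (k - d) = _
    by_cases hdk : (d : ℤ) ∣ k
    · obtain ⟨i, rfl⟩ := hdk
      rw [show (d : ℤ) * i - d = (d : ℤ) * (i - 1) by ring, ModularCurve.qExpand_coeff_mul,
        jqModC, HahnSeries.coeff_single_mul, one_mul, sub_neg_eq_add, sub_add_cancel,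
        coeff_ofPowerSeries_eq]
      have hd : (0 : ℤ) < d := by exact_mod_cast NeZero.pos d
      by_cases hi : 0 ≤ i
      · lift i to ℕ using hi
        rw [if_pos (Int.natCast_nonneg i), if_pos (by positivity), ← Nat.cast_mul,
          Int.toNat_natCast, Int.toNat_natCast, PowerSeries.coeff_mk, if_pos (dvd_mul_right d i),
          Nat.mul_div_cancel_left i (NeZero.pos d), PowerSeries.coeff_map]
        rfl
      · rw [if_neg hi, if_neg (by nlinarith)]
    · rw [ModularCurve.qExpand_coeff_of_not_dvd _ _ (fun h => hdk (by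
        simpa using dvd_add h (dvd_refl (d : ℤ))))]
      split_ifs with hk
      · rw [PowerSeries.coeff_mk, if_neg]
        intro h
        exact hdk (by rw [← Int.toNat_of_nonneg hk]; exact_mod_cast h)
      · rfl

end Bounded

/-! ### The embedding -/

section Emb

variable {L : Type*} [Field L] {K : Type*} [NormedField K] [IsUltrametricDist K] [CompleteSpace K]
  [Algebra L K] (N : ℕ) {r : K} (hr : ‖r‖ < 1) (hr0 : r ≠ 0)

/-- Change of coefficients. -/
def lsMap : LaurentSeries L →+* LaurentSeries K := coeffMap (algebraMap L K)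

omit [IsUltrametricDist K] [CompleteSpace K] in
/-- The change of coefficients fixes constants. -/
lemma lsMap_algebraMap (a : L) :
    lsMap (K := K) (algebraMap L (LaurentSeries L) a)
      = algebraMap K (LaurentSeries K) (algebraMap L K a) := by
  rw [lsMap, ModularCurve.algebraMap_laurentSeries_eq_single, ModularCurve.coeffMap_single,
    ModularCurve.algebraMap_laurentSeries_eq_single]

/-- Polynomials in the generators, as bounded series. -/
def evB : JPoly L N →+* boundedLS K :=
  MvPolynomial.eval₂Hom ((algebraMap K (boundedLS K)).comp (algebraMap L K))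
    fun d => jB (d : ℕ)

omit [CompleteSpace K] in
/-- Bounded polynomials in the generators are the images of the formal ones. -/
lemma coe_evB (P : JPoly L N) : (evB (K := K) N P : LaurentSeries K) = lsMap (evL L N P) := by
  refine RingHom.congr_fun (f := (boundedLS K).val.toRingHom.comp (evB N))
    (g := lsMap.comp (evL L N).toRingHom) (MvPolynomial.ringHom_ext (fun a => ?_) fun d => ?_) P
  · change ((evB (K := K) N (MvPolynomial.C a) : boundedLS K) : LaurentSeries K)
      = lsMap (evL L N (MvPolynomial.C a))
    rw [evB, MvPolynomial.eval₂Hom_C, evL, MvPolynomial.aeval_C, lsMap_algebraMap]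
    rfl
  · change ((evB (K := K) N (MvPolynomial.X d) : boundedLS K) : LaurentSeries K)
      = lsMap (evL L N (MvPolynomial.X d))
    rw [evB, MvPolynomial.eval₂Hom_X', evL, MvPolynomial.aeval_X, lsMap, jGenL,
      ModularCurve.coeffMap_qExpand]
    exact congrArg (qExpand K (d : ℕ)) (ModularCurve.map_jqModC (algebraMap L K)).symm

omit [IsUltrametricDist K] [CompleteSpace K] in
/-- The constants of `L` pass through `K`. -/
lemma laurent_algebraMap_tower (a : L) :
    algebraMap L (LaurentSeries K) a = algebraMap K (LaurentSeries K) (algebraMap L K a) := by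
  rw [FermatAgent.Curve.algebraMap_laurent, ModularCurve.algebraMap_laurentSeries_eq_single]

/-- The expansion of a polynomial in the generators at `r`. -/
def discPhi : JPoly L N →ₐ[L] LaurentSeries K :=
  { (taylorLS hr).toRingHom.comp (evB N) with
    commutes' := fun a => by
      show taylorLS hr (evB N (MvPolynomial.C a)) = _
      rw [evB, MvPolynomial.eval₂Hom_C, RingHom.comp_apply, AlgHom.commutes]
      exact (laurent_algebraMap_tower a).symm }

/-- The expansion at `r` is the Taylor expansion of the series at infinity. -/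
lemma discPhi_apply (P : JPoly L N) : discPhi N hr P = taylorLS hr (evB N P) := rfl

include hr0 in
/-- The expansion at `r` kills only the relations among the generators. -/
lemma discPhi_eq_zero_iff (P : JPoly L N) : discPhi N hr P = 0 ↔ evL L N P = 0 := by
  have h1 : discPhi N hr P = 0 ↔ evB (K := K) N P = 0 := by
    rw [discPhi_apply]
    exact map_eq_zero_iff _ (taylorLS_injective hr hr0)
  rw [h1]
  constructor
  · intro h
    have h2 : lsMap (K := K) (evL L N P) = 0 := by rw [← coe_evB, h]; rfl
    exact (map_eq_zero_iff _ (lsMap (L := L) (K := K)).injective).mp h2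
  · intro h
    exact Subtype.ext (by rw [coe_evB, h, map_zero]; rfl)

/-- The embedding attached to `r`. -/
def discEmb : jField L N →ₐ[L] LaurentSeries K :=
  jLift (discPhi N hr) (discPhi_eq_zero_iff N hr hr0)

/-- The embedding at `r` is the expansion at `r` on polynomials in the generators. -/
lemma discEmb_toJField (P : JPoly L N) :
    discEmb N hr hr0 (toJField L N P) = discPhi N hr P :=
  jLift_toJField _ _ P

/-- The embedding is the Taylor expansion on every function with bounded coefficients. -/
theorem discEmb_eq_taylor (f : jField L N)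
    (hf : lsMap (K := K) (f : LaurentSeries L) ∈ boundedLS K) :
    discEmb N hr hr0 f = taylorLS hr ⟨_, hf⟩ := by
  obtain ⟨P, Q, rfl⟩ := exists_eq_div L N f
  by_cases hQ : toJField L N Q = 0
  · have hz : (toJField L N P / toJField L N Q) = 0 := by rw [hQ, div_zero]
    rw [show discEmb N hr hr0 (toJField L N P / toJField L N Q) = 0 by rw [hz, map_zero],
      ← map_zero (taylorLS hr)]
    refine congrArg _ (Subtype.ext ?_)
    show (0 : LaurentSeries K) = lsMap _
    rw [hz]
    simp
  · rw [map_div₀, discEmb_toJField, discEmb_toJField, div_eq_iff, discPhi_apply, discPhi_apply,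
      ← map_mul]
    · refine congrArg _ (Subtype.ext ?_)
      rw [MulMemClass.coe_mul, coe_evB, coe_evB, ← map_mul, ← coe_toJField, ← coe_toJField,
        ← IntermediateField.coe_mul, div_mul_cancel₀ _ hQ]
    · rw [Ne, discPhi_eq_zero_iff N hr hr0, ← coe_toJField]
      exact fun h => hQ (Subtype.ext h)

/-- The value of a bounded function at `r`. -/
theorem coeff_zero_discEmb (f : jField L N)
    (hf : lsMap (K := K) (f : LaurentSeries L) ∈ boundedLS K) :
    (discEmb N hr hr0 f).coeff 0 = evalLS hr ⟨_, hf⟩ := by
  rw [discEmb_eq_taylor N hr hr0 f hf]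
  rfl

/-- Functions with bounded coefficients have no pole at `r`. -/
theorem sge_discEmb (f : jField L N)
    (hf : lsMap (K := K) (f : LaurentSeries L) ∈ boundedLS K) :
    ∀ k : ℤ, k < 0 → (discEmb N hr hr0 f).coeff k = 0 := by
  intro k hk
  obtain ⟨T, hT⟩ := taylorLS_eq_ofPowerSeries hr hr0 ⟨_, hf⟩
  rw [discEmb_eq_taylor N hr hr0 f hf, hT, coeff_ofPowerSeries_eq, if_neg (by omega)]

end Emb

end FermatAgent.Mazur

end
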