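import Fermat.Agent.Mazur.SeriesRoot
import Fermat.Agent.Mazur.DiscEmb
import Fermat.Agent.Curve.ModularDegree
import Fermat.Agent.Mazur.LocalGal

/-!
# Decomposition of modular functions on the open `q`-disc

A non-zero element of the field of modular functions is, as an `ℓ`-adic `q`-series,
`c q^e G ∏ (q - ρ)^{Z ρ}` with `G` an integral one-unit.
-/

set_option autoImplicit false

noncomputable section

open HahnSeries (ofPowerSeries)
open scoped Classical

namespace FermatAgent.Mazur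

variable {ℓ : ℕ} [hℓ : Fact ℓ.Prime]

local notation "LS" => LaurentSeries ℂ_[ℓ]
local notation "PS" => PowerSeries ℂ_[ℓ]

/-- `q - ρ`. -/
def linS (ρ : ℂ_[ℓ]) : LS := ofPowerSeries ℤ ℂ_[ℓ] (PowerSeries.X - PowerSeries.C ρ)

lemma X_sub_C_ne_zero_ps (ρ : ℂ_[ℓ]) : (PowerSeries.X - PowerSeries.C ρ : PS) ≠ 0 := fun h => by
  simpa using congrArg (PowerSeries.coeff 1) h

/-- `q - ρ` is nonzero. -/
lemma linS_ne_zero (ρ : ℂ_[ℓ]) : linS ρ ≠ 0 := fun h => X_sub_C_ne_zero_ps ρ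
  (HahnSeries.ofPowerSeries_injective (h.trans (map_zero _).symm))

/-- `∏ (q - ρ)^{Z ρ}`. -/
def linProdS (Z : ℂ_[ℓ] →₀ ℤ) : LS := Z.prod fun ρ k => linS ρ ^ k

/-- The empty product is one. -/
lemma linProdS_zero : linProdS (0 : ℂ_[ℓ] →₀ ℤ) = 1 := Finsupp.prod_zero_index

lemma linProdS_add (Z W : ℂ_[ℓ] →₀ ℤ) : linProdS (Z + W) = linProdS Z * linProdS W :=
  Finsupp.prod_add_index' (fun _ => zpow_zero _) fun ρ _ _ => zpow_add₀ (linS_ne_zero ρ) _ _

/-- The product over a single point is a power of `q - ρ`. -/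
lemma linProdS_single (ρ : ℂ_[ℓ]) (k : ℤ) : linProdS (Finsupp.single ρ k) = linS ρ ^ k :=
  Finsupp.prod_single_index (zpow_zero _)

/-- The product is nonzero. -/
lemma linProdS_ne_zero (Z : ℂ_[ℓ] →₀ ℤ) : linProdS Z ≠ 0 :=
  Finset.prod_ne_zero_iff.2 fun ρ _ => zpow_ne_zero _ (linS_ne_zero ρ)

/-- `c q^e G ∏ (q - ρ)^{Z ρ}`. -/
def decS (c : ℂ_[ℓ]) (e : ℤ) (G : PS) (Z : ℂ_[ℓ] →₀ ℤ) : LS :=
  HahnSeries.single e c * ofPowerSeries ℤ ℂ_[ℓ] G * linProdS Z

/-- `F` has the decomposition `(c, e, G, Z)`. -/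
structure HasDec (F : LS) (c : ℂ_[ℓ]) (e : ℤ) (G : PS) (Z : ℂ_[ℓ] →₀ ℤ) : Prop where
  eq : F = decS c e G Z
  ne : c ≠ 0
  unit : IsP1 G
  disc : ∀ ρ ∈ Z.support, ρ ≠ 0 ∧ ‖ρ‖ < 1

lemma decS_mul (c c' : ℂ_[ℓ]) (e e' : ℤ) (G G' : PS) (Z Z' : ℂ_[ℓ] →₀ ℤ) :
    decS c e G Z * decS c' e' G' Z' = decS (c * c') (e + e') (G * G') (Z + Z') := by
  rw [decS, decS, decS, linProdS_add, map_mul (ofPowerSeries ℤ ℂ_[ℓ]) G G',
    ← HahnSeries.single_mul_single]
  ring

namespace HasDec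

variable {F F' : LaurentSeries ℂ_[ℓ]} {c c' : ℂ_[ℓ]} {e e' : ℤ} {G G' : PowerSeries ℂ_[ℓ]}
    {Z Z' : ℂ_[ℓ] →₀ ℤ}

/-- `1` has the trivial decomposition. -/
lemma one : HasDec (1 : LS) 1 0 1 0 :=
  ⟨by simp [decS, linProdS_zero], one_ne_zero, IsP1.one, by simp⟩

/-- Decompositions multiply. -/
lemma mul (h : HasDec F c e G Z) (h' : HasDec F' c' e' G' Z') :
    HasDec (F * F') (c * c') (e + e') (G * G') (Z + Z') where
  eq := by rw [h.eq, h'.eq, decS_mul]
  ne := mul_ne_zero h.ne h'.ne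
  unit := h.unit.mul h'.unit
  disc ρ hρ := (Finset.mem_union.1 (Finsupp.support_add hρ)).elim (h.disc ρ) (h'.disc ρ)

/-- The decomposition of an inverse. -/
lemma inv (h : HasDec F c e G Z) : HasDec F⁻¹ c⁻¹ (-e) G⁻¹ (-Z) where
  eq := by
    refine inv_eq_of_mul_eq_one_right ?_
    rw [h.eq, decS_mul, mul_inv_cancel₀ h.ne, add_neg_cancel, h.unit.mul_inv, add_neg_cancel,
      decS, linProdS_zero, map_one (ofPowerSeries ℤ ℂ_[ℓ]), mul_one, mul_one]
    rfl
  ne := inv_ne_zero h.ne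
  unit := h.unit.inv
  disc ρ hρ := h.disc ρ (by rwa [Finsupp.support_neg] at hρ)

/-- The decomposition of a power. -/
lemma pow (h : HasDec F c e G Z) (n : ℕ) : HasDec (F ^ n) (c ^ n) (n * e) (G ^ n) (n • Z) := by
  induction n with
  | zero => simpa using HasDec.one (ℓ := ℓ)
  | succ n ih =>
    have := ih.mul h
    rw [← pow_succ, ← pow_succ, ← pow_succ, ← succ_nsmul] at this
    convert this using 1
    push_cast
    ring

/-- A nonzero constant has the constant decomposition. -/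
lemma const {a : ℂ_[ℓ]} (ha : a ≠ 0) : HasDec (HahnSeries.C a : LS) a 0 1 0 :=
  ⟨by simp [decS, linProdS_zero, HahnSeries.C_apply], ha, IsP1.one, by simp⟩

/-- A decomposed series is nonzero. -/
lemma ne_zero (h : HasDec F c e G Z) : F ≠ 0 := by
  rw [h.eq, decS]
  refine mul_ne_zero (mul_ne_zero ?_ ?_) (linProdS_ne_zero Z)
  · simp [h.ne]
  · exact fun h0 => h.unit.ne_zero (by
      rw [HahnSeries.ofPowerSeries_injective (h0.trans (map_zero _).symm), map_zero])

end HasDec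

/-! ### Uniqueness -/

lemma ofPowerSeries_mem_bounded {G : PS} (hG : BdBy G 1) : (G : PS) ∈ boundedPS ℂ_[ℓ] := ⟨1, hG⟩

/-- The value of `q - ρ` at `r`. -/
lemma evalDisc_linear {r : ℂ_[ℓ]} (hr : ‖r‖ < 1) (ρ : ℂ_[ℓ]) :
    evalDisc r hr (discX - algebraMap ℂ_[ℓ] _ ρ) = r - ρ := by
  rw [map_sub, evalDisc_X, AlgHom.commutes]
  rfl

lemma coe_linear (ρ : ℂ_[ℓ]) :
    ((discX - algebraMap ℂ_[ℓ] (boundedPS ℂ_[ℓ]) ρ : boundedPS ℂ_[ℓ]) : PS) =
      PowerSeries.X - PowerSeries.C ρ := rfl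

/-- The positive part of the exponents, as a bounded series. -/
def posPart (Z : ℂ_[ℓ] →₀ ℤ) : boundedPS ℂ_[ℓ] :=
  ∏ ρ ∈ Z.support, (discX - algebraMap ℂ_[ℓ] _ ρ) ^ (Z ρ).toNat

lemma ofPowerSeries_posPart (Z : ℂ_[ℓ] →₀ ℤ) :
    ofPowerSeries ℤ ℂ_[ℓ] (posPart Z : PS) = ∏ ρ ∈ Z.support, linS ρ ^ (Z ρ).toNat := by
  rw [posPart, SubmonoidClass.coe_finsetProd, map_prod]
  refine Finset.prod_congr rfl fun ρ _ => ?_
  rw [SubmonoidClass.coe_pow, map_pow, coe_linear]
  rfl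

/-- The product times its negative part is its positive part. -/
lemma linProdS_mul_posPart_neg (Z : ℂ_[ℓ] →₀ ℤ) :
    linProdS Z * ofPowerSeries ℤ ℂ_[ℓ] (posPart (-Z) : PS) =
      ofPowerSeries ℤ ℂ_[ℓ] (posPart Z : PS) := by
  rw [ofPowerSeries_posPart, ofPowerSeries_posPart, Finsupp.support_neg, linProdS, Finsupp.prod,
    ← Finset.prod_mul_distrib]
  refine Finset.prod_congr rfl fun ρ _ => ?_
  rw [← zpow_natCast, ← zpow_natCast, ← zpow_add₀ (linS_ne_zero ρ), Finsupp.neg_apply]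
  congr 1
  omega

theorem HasDec.eq_of_one {c : ℂ_[ℓ]} {e : ℤ} {G : PS} {Z : ℂ_[ℓ] →₀ ℤ}
    (h : HasDec (1 : LS) c e G Z) : c = 1 ∧ e = 0 ∧ G = 1 ∧ Z = 0 := by
  have hZ : Z = 0 := by
    ext ρ
    by_contra hne
    obtain ⟨hρ0, hρ⟩ := h.disc ρ (Finsupp.mem_support_iff.2 hne)
    set a := e.toNat with ha
    set b := (-e).toNat with hb
    have heq : ofPowerSeries ℤ ℂ_[ℓ] (PowerSeries.X ^ b * (posPart (-Z) : PS)) =
        ofPowerSeries ℤ ℂ_[ℓ] (PowerSeries.C c * PowerSeries.X ^ a * G * (posPart Z : PS)) := by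
      have h1 : (HahnSeries.single (b : ℤ) (1 : ℂ_[ℓ]) : LS) * HahnSeries.single e c =
          HahnSeries.C c * HahnSeries.single (a : ℤ) 1 := by
        rw [HahnSeries.single_mul_single, HahnSeries.C_apply, HahnSeries.single_mul_single, one_mul,
          mul_one, zero_add]
        rw [show (b : ℤ) + e = a by omega]
      have h2 := h.eq
      rw [decS] at h2
      rw [map_mul, map_mul, map_mul, map_mul, HahnSeries.ofPowerSeries_X_pow,
        HahnSeries.ofPowerSeries_X_pow,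
        HahnSeries.ofPowerSeries_C, ← linProdS_mul_posPart_neg Z, ← h1]
      linear_combination (HahnSeries.single (b : ℤ) (1 : ℂ_[ℓ]) *
        ofPowerSeries ℤ ℂ_[ℓ] (posPart (-Z) : PS)) * h2
    have hP : discX ^ b * posPart (-Z) =
        algebraMap ℂ_[ℓ] (boundedPS ℂ_[ℓ]) c * discX ^ a * toBdd G h.unit.2 * posPart Z :=
      Subtype.ext (HahnSeries.ofPowerSeries_injective heq)
    have h3 := congrArg (evalDisc ρ hρ) hP
    simp only [map_mul, map_pow, map_prod, posPart, evalDisc_X, evalDisc_linear,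
      AlgHom.commutes, Finsupp.support_neg] at h3
    have hG : evalDisc ρ hρ (toBdd G h.unit.2) ≠ 0 := by
      intro h0
      have h4 := norm_serVal_sub_one_le hρ h.unit
      rw [serVal, h0, zero_sub, norm_neg, norm_one] at h4
      linarith
    have hoff : ∀ W : ℂ_[ℓ] →₀ ℤ, W.support = Z.support → W ρ < 0 →
        ∏ σ ∈ Z.support, (ρ - σ) ^ (W σ).toNat ≠ 0 := by
      intro W _ hW
      refine Finset.prod_ne_zero_iff.2 fun σ _ => ?_
      rcases eq_or_ne σ ρ with rfl | hσ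
      · rw [Int.toNat_of_nonpos hW.le]; simp
      · exact pow_ne_zero _ (sub_ne_zero.2 hσ.symm)
    have hon : ∀ W : ℂ_[ℓ] →₀ ℤ, 0 < W ρ → ∏ σ ∈ Z.support, (ρ - σ) ^ (W σ).toNat = 0 := by
      intro W hW
      refine Finset.prod_eq_zero (Finsupp.mem_support_iff.2 hne) ?_
      rw [sub_self, zero_pow (by omega)]
    have hc : algebraMap ℂ_[ℓ] ℂ_[ℓ] c ≠ 0 := by simpa using h.ne
    simp only [Finsupp.coe_zero, Pi.zero_apply] at hne
    rcases lt_or_gt_of_ne hne with hneg | hpos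
    · rw [hon (-Z) (by rw [Finsupp.neg_apply]; omega), mul_zero] at h3
      exact mul_ne_zero (mul_ne_zero (mul_ne_zero hc (pow_ne_zero _ hρ0)) hG)
        (hoff Z rfl hneg) h3.symm
    · rw [hon Z hpos, mul_zero] at h3
      exact mul_ne_zero (pow_ne_zero _ hρ0)
        (hoff (-Z) (Finsupp.support_neg Z) (by rw [Finsupp.neg_apply]; omega)) h3
  subst hZ
  have h2 := h.eq
  rw [decS, linProdS_zero, mul_one] at h2
  have hG0 : (ofPowerSeries ℤ ℂ_[ℓ] G).coeff 0 = 1 := by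
    rw [show (0 : ℤ) = ((0 : ℕ) : ℤ) from rfl, HahnSeries.ofPowerSeries_apply_coeff,
      PowerSeries.coeff_zero_eq_constantCoeff, h.unit.1]
  have he : e = 0 := by
    by_contra he
    have h3 := congrArg (fun F : LS => F.coeff e) h2
    simp only [HahnSeries.coeff_single_mul, sub_self, hG0, mul_one,
      HahnSeries.coeff_one, if_neg he] at h3
    exact h.ne h3.symm
  subst he
  have hc : c = 1 := by
    have h3 := congrArg (fun F : LS => F.coeff 0) h2
    simp only [HahnSeries.coeff_single_mul, sub_self, hG0, mul_one,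
      HahnSeries.coeff_one, if_true] at h3
    exact h3.symm
  subst hc
  refine ⟨rfl, rfl, HahnSeries.ofPowerSeries_injective (Γ := ℤ) (R := ℂ_[ℓ]) ?_, rfl⟩
  rw [map_one]
  simpa using h2.symm

/-- Decompositions are unique. -/
theorem HasDec.unique {F : LS} {c c' : ℂ_[ℓ]} {e e' : ℤ} {G G' : PS} {Z Z' : ℂ_[ℓ] →₀ ℤ}
    (h : HasDec F c e G Z) (h' : HasDec F c' e' G' Z') :
    c = c' ∧ e = e' ∧ G = G' ∧ Z = Z' := by
  have h2 := h.mul h'.inv
  rw [mul_inv_cancel₀ h.ne_zero] at h2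
  obtain ⟨hc, he, hG, hZ⟩ := h2.eq_of_one
  refine ⟨?_, by omega, ?_, eq_of_sub_eq_zero (by rwa [sub_eq_add_neg])⟩
  · rwa [← div_eq_mul_inv, div_eq_one_iff_eq h'.ne] at hc
  · calc G = (G * G'⁻¹) * G' := by rw [mul_assoc, mul_comm _ G', h'.unit.mul_inv, mul_one]
      _ = G' := by rw [hG, one_mul]

/-- `F` has some decomposition. -/
def IsDec (F : LS) : Prop := ∃ c e G Z, HasDec F c e G Z

/-- Decomposable series are closed under products. -/
lemma IsDec.mul {F F' : LS} (h : IsDec F) (h' : IsDec F') : IsDec (F * F') := by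
  obtain ⟨c, e, G, Z, hd⟩ := h
  obtain ⟨c', e', G', Z', hd'⟩ := h'
  exact ⟨_, _, _, _, hd.mul hd'⟩

/-- Decomposable series are closed under inverses. -/
lemma IsDec.inv {F : LS} (h : IsDec F) : IsDec F⁻¹ := by
  obtain ⟨c, e, G, Z, hd⟩ := h
  exact ⟨_, _, _, _, hd.inv⟩

lemma IsDec.single (e : ℤ) {a : ℂ_[ℓ]} (ha : a ≠ 0) : IsDec (HahnSeries.single e a : LS) :=
  ⟨a, e, 1, 0, by simp [decS, linProdS_zero], ha, IsP1.one, by simp⟩

/-- An integral one-unit is decomposable. -/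
lemma IsDec.ofP1 {G : PS} (hG : IsP1 G) : IsDec (ofPowerSeries ℤ ℂ_[ℓ] G) :=
  ⟨1, 0, G, 0, by simp [decS, linProdS_zero], one_ne_zero, hG, by simp⟩

lemma IsDec.lin {ρ : ℂ_[ℓ]} (h0 : ρ ≠ 0) (h1 : ‖ρ‖ < 1) : IsDec (linS ρ) :=
  ⟨1, 0, 1, Finsupp.single ρ 1, by simp [decS, linProdS_single], one_ne_zero, IsP1.one,
    fun σ hσ => by
      rw [Finset.mem_singleton.1 (Finsupp.support_single_subset hσ)]
      exact ⟨h0, h1⟩⟩

lemma IsDec.ofPS_const_mul {G : PS} (hG : IsP1 G) {a : ℂ_[ℓ]} (ha : a ≠ 0) :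
    IsDec (ofPowerSeries ℤ ℂ_[ℓ] (PowerSeries.C a * G)) := by
  rw [map_mul, HahnSeries.ofPowerSeries_C, HahnSeries.C_apply]
  exact (IsDec.single 0 ha).mul (IsDec.ofP1 hG)

/-! ### `j - a` -/

lemma isDec_jqModC_sub (a : ℂ_[ℓ]) :
    IsDec (ModularCurve.jqModC ℂ_[ℓ] - HahnSeries.C a : LS) := by
  set u : PS := ModularCurve.jNum.map (Int.castRingHom ℂ_[ℓ]) - PowerSeries.C a * PowerSeries.X
  have hu : ModularCurve.jqModC ℂ_[ℓ] - HahnSeries.C a =
      HahnSeries.single (-1 : ℤ) 1 * ofPowerSeries ℤ ℂ_[ℓ] u := by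
    rw [map_sub, mul_sub, map_mul, HahnSeries.ofPowerSeries_C, HahnSeries.ofPowerSeries_X,
      mul_left_comm, HahnSeries.single_mul_single]
    simp [ModularCurve.jqModC]
  rw [hu]
  refine (IsDec.single _ one_ne_zero).mul ?_
  have hu0 : PowerSeries.constantCoeff u = 1 := by
    rw [← PowerSeries.coeff_zero_eq_constantCoeff_apply, map_sub, PowerSeries.coeff_map,
      PowerSeries.coeff_C_mul, PowerSeries.coeff_zero_X, mul_zero, sub_zero,
      PowerSeries.coeff_zero_eq_constantCoeff_apply, ModularCurve.constantCoeff_jNum, map_one]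
  have hbd : ∀ m, ‖PowerSeries.coeff m u‖ ≤ max 1 ‖a‖ := fun m => by
    rw [map_sub, PowerSeries.coeff_map, PowerSeries.coeff_C_mul, sub_eq_add_neg]
    refine (IsUltrametricDist.norm_add_le_max _ _).trans (max_le_max ?_ ?_)
    · exact IsUltrametricDist.norm_intCast_le_one ℂ_[ℓ] _
    · rw [norm_neg, norm_mul, PowerSeries.coeff_X]
      split_ifs <;> simp
  by_cases ha : ‖a‖ ≤ 1
  · exact IsDec.ofP1 ⟨hu0, fun m => (hbd m).trans (max_le le_rfl ha)⟩
  push Not at ha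
  obtain ⟨ρ, hρ, hρ0, hja⟩ := exists_jDisc_eq ha
  have hρa : ‖a‖ = ‖ρ‖⁻¹ := by rw [← hja, norm_jDisc]
  set U : boundedPS ℂ_[ℓ] := ⟨u, max 1 ‖a‖, hbd⟩
  have hU : U = intPS ℂ_[ℓ] ModularCurve.jNum - algebraMap ℂ_[ℓ] _ a * discX := rfl
  have hev : evalDisc ρ hρ U = 0 := by
    rw [hU, map_sub, map_mul, AlgHom.commutes, evalDisc_X, ← hja, jDisc]
    simp [hρ0]
  have hfac := sub_evalDisc_eq hρ U
  rw [hev, map_zero, sub_zero] at hfac
  set W : PS := (discQuot ρ hρ U : PS)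
  have hfac' : u = (PowerSeries.X - PowerSeries.C ρ) * W := congrArg Subtype.val hfac
  have hW0 : PowerSeries.constantCoeff W = -ρ⁻¹ := by
    have h := congrArg PowerSeries.constantCoeff hfac'
    rw [hu0, map_mul, map_sub, PowerSeries.constantCoeff_X, PowerSeries.constantCoeff_C, zero_sub]
      at h
    field_simp
    linear_combination h
  have hWb : ∀ m, ‖PowerSeries.coeff m W‖ ≤ ‖a‖ := fun m =>
    norm_coeff_discQuot_le hρ (fun k => (hbd k).trans (max_le ha.le le_rfl)) m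
  rw [hfac', map_mul]
  refine (IsDec.lin hρ0 hρ).mul ?_
  have h0 : -ρ⁻¹ ≠ 0 := neg_ne_zero.2 (inv_ne_zero hρ0)
  rw [show W = PowerSeries.C (-ρ⁻¹) * (PowerSeries.C (-ρ⁻¹)⁻¹ * W) by
    rw [← mul_assoc, ← map_mul, mul_inv_cancel₀ h0, map_one, one_mul]]
  refine IsDec.ofPS_const_mul
    ⟨by rw [map_mul, PowerSeries.constantCoeff_C, hW0, inv_mul_cancel₀ h0],
    fun m => ?_⟩ h0
  rw [PowerSeries.coeff_C_mul, norm_mul, norm_inv, norm_neg, norm_inv, inv_inv]
  calc ‖ρ‖ * ‖PowerSeries.coeff m W‖ ≤ ‖ρ‖ * ‖a‖ :=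
        mul_le_mul_of_nonneg_left (hWb m) (norm_nonneg _)
    _ = 1 := by rw [hρa, mul_inv_cancel₀ (norm_ne_zero_iff.2 hρ0)]

lemma isDec_eval_jqModC {p : Polynomial ℂ_[ℓ]} (hp : p ≠ 0) :
    IsDec (p.eval₂ HahnSeries.C (ModularCurve.jqModC ℂ_[ℓ]) : LS) := by
  rw [← Polynomial.C_leadingCoeff_mul_prod_multiset_X_sub_C (p := p)
    (Polynomial.splits_iff_card_roots.1 (IsAlgClosed.splits p)), Polynomial.eval₂_mul,
    Polynomial.eval₂_C, HahnSeries.C_apply]
  refine (IsDec.single 0 (Polynomial.leadingCoeff_ne_zero.2 hp)).mul ?_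
  induction p.roots using Multiset.induction_on with
  | empty => simpa using IsDec.ofP1 (ℓ := ℓ) IsP1.one
  | cons a s ih =>
    rw [Multiset.map_cons, Multiset.prod_cons, Polynomial.eval₂_mul, Polynomial.eval₂_sub,
      Polynomial.eval₂_X, Polynomial.eval₂_C]
    exact (isDec_jqModC_sub a).mul ih

/-! ### Divisors of decomposable series -/

/-- Gauss' lemma: a bounded unit of bounded series is a constant times an integral unit. -/
lemma norm_coeff_le_of_mul_eq_one {U V : PS} (hU : U ∈ boundedPS ℂ_[ℓ]) (hV : V ∈ boundedPS ℂ_[ℓ])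
    (h : U * V = 1) (m : ℕ) : ‖PowerSeries.coeff m U‖ ≤ ‖PowerSeries.coeff 0 U‖ := by
  by_contra! hlt
  rcases eq_or_ne m 0 with rfl | hm
  · exact lt_irrefl _ hlt
  obtain ⟨C₁, hC₁⟩ := hU
  obtain ⟨C₂, hC₂⟩ := hV
  -- weights `t ^ k` with `t < 1` close to `1`
  obtain ⟨t, ht0, ht1, htm⟩ : ∃ t : ℝ, 0 < t ∧ t < 1 ∧
      ‖PowerSeries.coeff 0 U‖ < ‖PowerSeries.coeff m U‖ * t ^ m := by
    have hev : ∀ᶠ t : ℝ in nhdsWithin 1 (Set.Iio 1),
        0 < t ∧ ‖PowerSeries.coeff 0 U‖ < ‖PowerSeries.coeff m U‖ * t ^ m := by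
      refine Filter.Eventually.filter_mono nhdsWithin_le_nhds ((eventually_gt_nhds one_pos).and ?_)
      refine Filter.Tendsto.eventually_const_lt (by simpa using hlt)
        ((continuous_const.mul (continuous_pow m)).tendsto' 1 _ rfl)
    obtain ⟨t, ⟨h1, h2⟩, h3⟩ := (hev.and self_mem_nhdsWithin).exists
    exact ⟨t, h1, h3, h2⟩
  have hmax : ∀ (W : PS) (C : ℝ), (∀ k, ‖PowerSeries.coeff k W‖ ≤ C) → W ≠ 0 →
      ∃ I, 0 < ‖PowerSeries.coeff I W‖ * t ^ I ∧
        (∀ k, ‖PowerSeries.coeff k W‖ * t ^ k ≤ ‖PowerSeries.coeff I W‖ * t ^ I) ∧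
        ∀ k, I < k → ‖PowerSeries.coeff k W‖ * t ^ k < ‖PowerSeries.coeff I W‖ * t ^ I := by
    intro W C hC hW
    obtain ⟨i₀, hi₀⟩ : ∃ i, PowerSeries.coeff i W ≠ 0 := by
      by_contra! hall
      exact hW (PowerSeries.ext fun k => by rw [hall k, map_zero])
    set f : ℕ → ℝ := fun k => ‖PowerSeries.coeff k W‖ * t ^ k
    have hf0 : 0 < f i₀ := mul_pos (norm_pos_iff.2 hi₀) (pow_pos ht0 _)
    obtain ⟨K, hK⟩ : ∃ K, ∀ k, K ≤ k → f k < f i₀ := by
      have hlim : Filter.Tendsto f Filter.atTop (nhds 0) :=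
        squeeze_zero (fun k => by positivity)
          (fun k => mul_le_mul_of_nonneg_right (hC k) (pow_nonneg ht0.le k))
          (by simpa using (tendsto_pow_atTop_nhds_zero_of_lt_one ht0.le ht1).const_mul C)
      exact Filter.eventually_atTop.1 (hlim.eventually_lt_const hf0)
    have hi₀K : i₀ < K := by
      by_contra! hle
      exact lt_irrefl _ (hK i₀ hle)
    set S := (Finset.range K).filter fun k => ∀ k' ∈ Finset.range K, f k' ≤ f k
    have hSne : S.Nonempty := by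
      obtain ⟨k, hk, hk'⟩ :=
        Finset.exists_max_image (Finset.range K) f ⟨i₀, Finset.mem_range.2 hi₀K⟩
      exact ⟨k, Finset.mem_filter.2 ⟨hk, hk'⟩⟩
    obtain ⟨hIK, hI⟩ := Finset.mem_filter.1 (S.max'_mem hSne)
    have hI0 : f i₀ ≤ f (S.max' hSne) := hI i₀ (Finset.mem_range.2 hi₀K)
    have hall : ∀ k, f k ≤ f (S.max' hSne) := fun k => by
      by_cases hk : k < K
      · exact hI k (Finset.mem_range.2 hk)
      · exact (hK k (by omega)).le.trans hI0
    refine ⟨S.max' hSne, hf0.trans_le hI0, hall, fun k hk => ?_⟩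
    by_cases hkK : k < K
    · refine lt_of_le_of_ne (hall k) fun heq => ?_
      have : k ∈ S := Finset.mem_filter.2 ⟨Finset.mem_range.2 hkK,
        fun k' _ => (hall k').trans_eq heq.symm⟩
      exact absurd (S.le_max' k this) (by omega)
    · exact (hK k (by omega)).trans_le hI0
  obtain ⟨I, hI0, hI, hI'⟩ := hmax U C₁ hC₁ (left_ne_zero_of_mul_eq_one h)
  obtain ⟨J, hJ0, hJ, hJ'⟩ := hmax V C₂ hC₂ (right_ne_zero_of_mul_eq_one h)
  have hIpos : I ≠ 0 := by
    rintro rfl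
    have := hI m
    simp only [pow_zero, mul_one] at this
    linarith
  have hcoeff := congrArg (PowerSeries.coeff (I + J)) h
  rw [PowerSeries.coeff_mul, PowerSeries.coeff_one, if_neg (by omega),
    ← Finset.add_sum_erase _ _ (Finset.HasAntidiagonal.mem_antidiagonal.2
      (rfl : (I, J).1 + (I, J).2 = I + J))] at hcoeff
  have hIJ : 0 < ‖PowerSeries.coeff I U * PowerSeries.coeff J V‖ * t ^ (I + J) := by
    rw [norm_mul, pow_add]
    calc (0 : ℝ) < (‖PowerSeries.coeff I U‖ * t ^ I) * (‖PowerSeries.coeff J V‖ * t ^ J) :=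
          mul_pos hI0 hJ0
      _ = _ := by ring
  have hlt2 : ‖∑ x ∈ (Finset.HasAntidiagonal.antidiagonal (I + J)).erase (I, J),
      PowerSeries.coeff x.1 U * PowerSeries.coeff x.2 V‖ <
        ‖PowerSeries.coeff I U * PowerSeries.coeff J V‖ := by
    refine lt_of_mul_lt_mul_right ?_ (pow_nonneg ht0.le (I + J))
    rcases ((Finset.HasAntidiagonal.antidiagonal (I + J)).erase (I, J)).eq_empty_or_nonempty
      with hemp | hne
    · rw [hemp, Finset.sum_empty, norm_zero, zero_mul]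
      exact hIJ
    obtain ⟨x, hx, hxmax⟩ := IsUltrametricDist.exists_norm_finsetSum_le_of_nonempty hne
      (fun x : ℕ × ℕ => PowerSeries.coeff x.1 U * PowerSeries.coeff x.2 V)
    refine (mul_le_mul_of_nonneg_right hxmax (pow_nonneg ht0.le _)).trans_lt ?_
    obtain ⟨hxne, hxs⟩ := Finset.mem_erase.1 hx
    rw [Finset.HasAntidiagonal.mem_antidiagonal] at hxs
    rw [norm_mul, norm_mul]
    calc ‖PowerSeries.coeff x.1 U‖ * ‖PowerSeries.coeff x.2 V‖ * t ^ (I + J)
        = (‖PowerSeries.coeff x.1 U‖ * t ^ x.1) * (‖PowerSeries.coeff x.2 V‖ * t ^ x.2) := by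
          rw [← hxs, pow_add]; ring
      _ < (‖PowerSeries.coeff I U‖ * t ^ I) * (‖PowerSeries.coeff J V‖ * t ^ J) := by
          rcases lt_trichotomy I x.1 with hlt' | heq | hgt
          · exact mul_lt_mul_of_nonneg_of_pos (hI' _ hlt') (hJ _) (by positivity) hJ0
          · exact absurd (Prod.ext heq.symm (show x.2 = J by omega)) hxne
          · exact mul_lt_mul' (hI _) (hJ' _ (by omega)) (by positivity) hI0
      _ = _ := by rw [pow_add]; ring
  have h0 := (norm_eq_zero.2 hcoeff)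
  rw [IsUltrametricDist.norm_add_eq_max_of_norm_ne_norm hlt2.ne', max_eq_left hlt2.le] at h0
  rw [h0, zero_mul] at hIJ
  exact lt_irrefl _ hIJ

lemma isDec_of_mul_eq_const_P1 {U V : boundedPS ℂ_[ℓ]} {a : ℂ_[ℓ]} (ha : a ≠ 0) {G : PS}
    (hG : IsP1 G) (h : (U : PS) * V = PowerSeries.C a * G) :
    IsDec (ofPowerSeries ℤ ℂ_[ℓ] (U : PS)) := by
  set V' : PS := V * PowerSeries.C a⁻¹ * G⁻¹
  have hV' : V' ∈ boundedPS ℂ_[ℓ] :=
    mul_mem (mul_mem V.2 ((boundedPS ℂ_[ℓ]).algebraMap_mem a⁻¹))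
      (ofPowerSeries_mem_bounded hG.inv.2)
  have h1 : (U : PS) * V' = 1 := by
    rw [show (U : PS) * V' = (U * V) * PowerSeries.C a⁻¹ * G⁻¹ by simp only [V']; ring, h,
      mul_comm (PowerSeries.C a) G, mul_assoc G, ← map_mul, mul_inv_cancel₀ ha, map_one, mul_one,
      hG.mul_inv]
  have hU0 : PowerSeries.constantCoeff (U : PS) ≠ 0 := fun h0 => by
    have := congrArg PowerSeries.constantCoeff h1
    rw [map_mul, h0, zero_mul, map_one] at this
    exact zero_ne_one this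
  rw [show (U : PS) = PowerSeries.C (PowerSeries.constantCoeff (U : PS)) *
    (PowerSeries.C (PowerSeries.constantCoeff (U : PS))⁻¹ * U) by
    rw [← mul_assoc, ← map_mul, mul_inv_cancel₀ hU0, map_one, one_mul]]
  refine IsDec.ofPS_const_mul ⟨by rw [map_mul, PowerSeries.constantCoeff_C, inv_mul_cancel₀ hU0],
    fun m => ?_⟩ hU0
  rw [PowerSeries.coeff_C_mul, norm_mul, norm_inv,
    inv_mul_le_iff₀ (norm_pos_iff.2 hU0), mul_one, ← PowerSeries.coeff_zero_eq_constantCoeff_apply]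
  exact norm_coeff_le_of_mul_eq_one U.2 hV' h1 m

/-- Stripping disc zeros off a bounded divisor. -/
lemma isDec_of_mul_eq : ∀ (s : Multiset ℂ_[ℓ]), (∀ ρ ∈ s, ρ ≠ 0 ∧ ‖ρ‖ < 1) →
    ∀ {U V : boundedPS ℂ_[ℓ]} {a : ℂ_[ℓ]} {G : PS}, a ≠ 0 → IsP1 G →
      (U : PS) * V = PowerSeries.C a * G *
        (s.map fun ρ => PowerSeries.X - PowerSeries.C ρ).prod →
      IsDec (ofPowerSeries ℤ ℂ_[ℓ] (U : PS)) := by
  intro s
  induction s using Multiset.induction_on with
  | empty =>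
    intro _ U V a G ha hG h
    exact isDec_of_mul_eq_const_P1 ha hG (by simpa using h)
  | cons ρ s ih =>
    intro hs U V a G ha hG h
    obtain ⟨hρ0, hρ⟩ := hs ρ (Multiset.mem_cons_self ρ s)
    have hs' : ∀ σ ∈ s, σ ≠ 0 ∧ ‖σ‖ < 1 := fun σ hσ => hs σ (Multiset.mem_cons_of_mem hσ)
    rw [Multiset.map_cons, Multiset.prod_cons] at h
    set L : boundedPS ℂ_[ℓ] := discX - algebraMap ℂ_[ℓ] _ ρ
    have hR : ∃ R : boundedPS ℂ_[ℓ],
        (R : PS) = (s.map fun ρ => PowerSeries.X - PowerSeries.C ρ).prod := by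
      refine ⟨(s.map fun ρ => discX - algebraMap ℂ_[ℓ] _ ρ).prod, ?_⟩
      rw [SubmonoidClass.coe_multiset_prod, Multiset.map_map]
      rfl
    obtain ⟨R, hR⟩ := hR
    have hUV : U * V = L * (algebraMap ℂ_[ℓ] _ a * toBdd G hG.2 * R) := Subtype.ext (by
      show (U : PS) * (V : PS) =
        (PowerSeries.X - PowerSeries.C ρ) * (PowerSeries.C a * G * (R : PS))
      rw [h, hR]; ring)
    have hev : evalDisc ρ hρ U * evalDisc ρ hρ V = 0 := by
      rw [← map_mul, hUV, map_mul, evalDisc_linear, sub_self, zero_mul]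
    have hL : (L : PS) ≠ 0 := X_sub_C_ne_zero_ps ρ
    rcases mul_eq_zero.1 hev with hU | hV
    · have hf := sub_evalDisc_eq hρ U
      rw [hU, map_zero, sub_zero] at hf
      have h1 : IsDec (ofPowerSeries ℤ ℂ_[ℓ] (discQuot ρ hρ U : PS)) := by
        refine ih hs' (V := V) ha hG (mul_left_cancel₀ hL ?_)
        rw [← hR, ← mul_assoc, show (L : PS) * (discQuot ρ hρ U : PS) = U from
          (congrArg Subtype.val hf).symm]
        exact congrArg Subtype.val hUV
      rw [show (U : PS) = (L : PS) * (discQuot ρ hρ U : PS) from congrArg Subtype.val hf, map_mul]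
      exact (IsDec.lin hρ0 hρ).mul h1
    · have hf := sub_evalDisc_eq hρ V
      rw [hV, map_zero, sub_zero] at hf
      refine ih hs' (V := discQuot ρ hρ V) ha hG (mul_left_cancel₀ hL ?_)
      rw [← hR, mul_left_comm, show (L : PS) * (discQuot ρ hρ V : PS) = V from
        (congrArg Subtype.val hf).symm]
      exact congrArg Subtype.val hUV

lemma exists_single_mul_bounded {F : LS} (hF : F ∈ boundedLS ℂ_[ℓ]) (hF0 : F ≠ 0) :
    ∃ (x : ℤ) (U : boundedPS ℂ_[ℓ]), PowerSeries.constantCoeff (U : PS) ≠ 0 ∧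
      F = HahnSeries.single x 1 * ofPowerSeries ℤ ℂ_[ℓ] (U : PS) := by
  obtain ⟨C, hC⟩ := mem_boundedLS_iff.1 hF
  refine ⟨F.order, ⟨F.powerSeriesPart, C, fun m => ?_⟩, ?_, ?_⟩
  · rw [LaurentSeries.powerSeriesPart_coeff]; exact hC _
  · rw [← PowerSeries.coeff_zero_eq_constantCoeff_apply, LaurentSeries.powerSeriesPart_coeff]
    simpa [HahnSeries.leadingCoeff_eq] using HahnSeries.leadingCoeff_ne_zero.2 hF0
  · exact (LaurentSeries.single_order_mul_powerSeriesPart F).symm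

/-- A bounded divisor of a decomposable series with nonnegative exponents decomposes. -/
theorem isDec_of_mul_mem {A S R : LS} (hA : A ∈ boundedLS ℂ_[ℓ]) (hS : S ∈ boundedLS ℂ_[ℓ])
    (hR : IsDec R) (h : A * S = R) : IsDec A := by
  obtain ⟨c, e, G, Z, hd⟩ := hR
  have hR0 := hd.ne_zero
  rw [← h, mul_ne_zero_iff] at hR0
  obtain ⟨x, U, hU, rfl⟩ := exists_single_mul_bounded hA hR0.1
  obtain ⟨y, V, hV, rfl⟩ := exists_single_mul_bounded hS hR0.2
  refine (IsDec.single x one_ne_zero).mul ?_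
  set P : boundedPS ℂ_[ℓ] := V * posPart (-Z)
  have heq : HahnSeries.single (x + y) (1 : ℂ_[ℓ]) * ofPowerSeries ℤ ℂ_[ℓ] ((U : PS) * (P : PS)) =
      HahnSeries.single e c * ofPowerSeries ℤ ℂ_[ℓ] (G * (posPart Z : PS)) := by
    have h2 := h.trans hd.eq
    rw [decS] at h2
    rw [map_mul, map_mul (ofPowerSeries ℤ ℂ_[ℓ]) G, ← linProdS_mul_posPart_neg Z,
      show (P : PS) = (V : PS) * (posPart (-Z) : PS) from rfl, map_mul,
      ← mul_one (1 : ℂ_[ℓ]), ← HahnSeries.single_mul_single]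
    linear_combination (ofPowerSeries ℤ ℂ_[ℓ] (posPart (-Z) : PS)) * h2
  have hne : ∀ W : ℂ_[ℓ] →₀ ℤ, (∀ ρ ∈ W.support, ρ ≠ 0) →
      PowerSeries.constantCoeff (posPart W : PS) ≠ 0 := by
    intro W hW
    simp only [posPart, SubmonoidClass.coe_finsetProd, SubmonoidClass.coe_pow, coe_linear, map_prod,
      map_pow, map_sub, PowerSeries.constantCoeff_X, PowerSeries.constantCoeff_C, zero_sub]
    exact Finset.prod_ne_zero_iff.2 fun ρ hρ => pow_ne_zero _ (neg_ne_zero.2 (hW ρ hρ))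
  have hZ : ∀ ρ ∈ Z.support, ρ ≠ 0 := fun ρ hρ => (hd.disc ρ hρ).1
  have hl : PowerSeries.constantCoeff ((U : PS) * (P : PS)) ≠ 0 := by
    rw [show (P : PS) = (V : PS) * (posPart (-Z) : PS) from rfl, map_mul, map_mul]
    exact mul_ne_zero hU (mul_ne_zero hV (hne _ (by rwa [Finsupp.support_neg])))
  have hr : PowerSeries.constantCoeff (G * (posPart Z : PS)) ≠ 0 := by
    rw [map_mul, hd.unit.1, one_mul]; exact hne Z hZ
  have hxy : x + y = e := by
    have key : ∀ (k : ℤ) {a : ℂ_[ℓ]} {W : PS}, a ≠ 0 → PowerSeries.constantCoeff W ≠ 0 →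
        (HahnSeries.single k a * ofPowerSeries ℤ ℂ_[ℓ] W).order = k := by
      intro k a W ha hW
      have hW' : ofPowerSeries ℤ ℂ_[ℓ] W ≠ 0 := fun h0 => hW (by
        rw [HahnSeries.ofPowerSeries_injective (h0.trans (map_zero _).symm), map_zero])
      rw [HahnSeries.order_mul (HahnSeries.single_ne_zero ha) hW', HahnSeries.order_single ha]
      have : (ofPowerSeries ℤ ℂ_[ℓ] W).order = 0 := by
        refine le_antisymm (HahnSeries.order_le_of_coeff_ne_zero ?_) ?_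
        · rwa [show (0 : ℤ) = ((0 : ℕ) : ℤ) from rfl, HahnSeries.ofPowerSeries_apply_coeff,
            PowerSeries.coeff_zero_eq_constantCoeff]
        · refine (HahnSeries.le_order_iff_forall hW').2 fun j hj => ?_
          exact ModularCurve.ofPowerSeries_coeff_of_neg _ hj
      rw [this, add_zero]
    rw [← key (x + y) one_ne_zero hl, heq, key e hd.ne hr]
  have hps : (U : PS) * (P : PS) = PowerSeries.C c * G * (posPart Z : PS) := by
    refine HahnSeries.ofPowerSeries_injective (mul_left_cancel₀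
      (HahnSeries.single_ne_zero one_ne_zero : (HahnSeries.single e (1 : ℂ_[ℓ]) : LS) ≠ 0) ?_)
    rw [← hxy] at heq ⊢
    rw [heq, mul_assoc (PowerSeries.C c), map_mul (ofPowerSeries ℤ ℂ_[ℓ]) (PowerSeries.C c),
      ← mul_assoc, HahnSeries.ofPowerSeries_C, HahnSeries.C_apply, HahnSeries.single_mul_single,
      one_mul, add_zero]
  refine isDec_of_mul_eq (Z.support.val.bind fun ρ => Multiset.replicate (Z ρ).toNat ρ)
    (fun ρ hρ => ?_) (V := P) hd.ne hd.unit ?_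
  · obtain ⟨σ, hσ, hρσ⟩ := Multiset.mem_bind.1 hρ
    rw [Multiset.eq_of_mem_replicate hρσ]
    exact hd.disc σ hσ
  · rw [hps, posPart, SubmonoidClass.coe_finsetProd, Multiset.map_bind, Multiset.prod_bind]
    congr 1
    refine congrArg Multiset.prod (Multiset.map_congr rfl fun ρ _ => ?_)
    rw [SubmonoidClass.coe_pow, coe_linear, Multiset.map_replicate, Multiset.prod_replicate]

/-! ### The modular function field -/

open FermatAgent.Curve (jField jElt toJField JPoly evL JIdx)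

variable {L : Type*} [Field L] [CharZero L] [Algebra L ℂ] [Algebra L ℂ_[ℓ]] (N : ℕ) [NeZero N]

omit [CharZero L] in
lemma isDec_evB {P : JPoly L N} (hP : toJField L N P ≠ 0) :
    IsDec (evB (K := ℂ_[ℓ]) N P : LS) := by
  obtain ⟨Ψ, hm, -, h0⟩ := Curve.exists_relation_base P
  obtain ⟨r, R, hr, hR⟩ := Curve.exists_mul_eq_aeval Curve.transcendental_jElt hP _ Ψ le_rfl
    hm.ne_zero h0
  set Rj : JPoly L N := R.eval₂ (Polynomial.aeval (MvPolynomial.X (JIdx.one N))).toRingHom P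
  have h1 : toJField L N Rj = R.eval₂ (Polynomial.aeval (R := L) (jElt L N)).toRingHom
      (toJField L N P) := by
    show (toJField L N).toRingHom (R.eval₂ _ P) = _
    rw [Polynomial.hom_eval₂]
    congr 1
    refine Polynomial.ringHom_ext (fun a => ?_) ?_ <;> simp [Curve.jElt]
  have h2 : lsMap (K := ℂ_[ℓ]) (evL L N P) * lsMap (K := ℂ_[ℓ]) (evL L N Rj) =
      (r.map (algebraMap L ℂ_[ℓ])).eval₂ HahnSeries.C (ModularCurve.jqModC ℂ_[ℓ]) := by
    rw [← map_mul, ← map_mul, ← Curve.coe_toJField, map_mul, h1, hR, Curve.coe_aeval_jElt,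
      Curve.evalJ_eq_aeval, Polynomial.aeval_def, Polynomial.hom_eval₂, Polynomial.eval₂_map]
    congr 1
    · refine RingHom.ext fun a => ?_
      simp only [RingHom.comp_apply, lsMap_algebraMap]
      rw [ModularCurve.algebraMap_laurentSeries_eq_single, HahnSeries.C_apply]
    · exact ModularCurve.map_jqModC _
  refine isDec_of_mul_mem (evB (K := ℂ_[ℓ]) N P).2 (evB (K := ℂ_[ℓ]) N Rj).2
    (isDec_eval_jqModC ((Polynomial.map_ne_zero_iff (algebraMap L ℂ_[ℓ]).injective).2 hr)) ?_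
  rw [coe_evB, coe_evB]
  exact h2

omit [CharZero L] in
/-- Every non-zero modular function decomposes on the disc. -/
theorem isDec_jField {f : jField L N} (hf : f ≠ 0) :
    IsDec (lsMap (K := ℂ_[ℓ]) (f : LaurentSeries L)) := by
  obtain ⟨P, Q, rfl⟩ := Curve.exists_eq_div L N f
  obtain ⟨hP, hQ⟩ := div_ne_zero_iff.1 hf
  rw [IntermediateField.coe_div, map_div₀, Curve.coe_toJField, Curve.coe_toJField, ← coe_evB,
    ← coe_evB, div_eq_mul_inv]
  exact (isDec_evB N hP).mul (isDec_evB N hQ).inv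

end FermatAgent.Mazur

end
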