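import Fermat.Agent.Mazur.WeierLattice
import Fermat.Agent.ES.Ring.Cusps
import Fermat.Agent.Curve.ModularEmb

/-!
# `∏ (℘(k/N) - ℘(2k/N))` and the discriminants of the two lattices

The product `∏_k (℘(k/N) - ℘(2k/N))^6 Δ(Nτ)` is a constant multiple of `Δ(τ)^N`, and the constant is
a unit wherever the cyclotomic differences are.
-/

set_option autoImplicit false

noncomputable section

open Filter Topology UpperHalfPlane Complex CongruenceSubgroup
open scoped PeriodPair Real MatrixGroups ModularForm Manifold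

namespace FermatAgent.Mazur

open FermatAgent.ES (dif vmul qm zetaC act HasExp HasLExp NonnegSer BSub GoodRoot UnitIn)

lemma delta_vadd (n : ℤ) (τ : ℍ) :
    ModularForm.discriminant ((n : ℝ) +ᵥ τ) = ModularForm.discriminant τ := by
  rw [← modular_T_zpow_smul, Curve.discriminant_smul]
  rw [ModularGroup.denom_apply]; simp [ModularGroup.coe_T_zpow]

/-- `Δ(τ) / q` tends to one at infinity. -/
lemma tendsto_delta_div_q :
    Tendsto (fun τ => ModularForm.discriminant τ / Curve.qw 1 τ) atImInfty (𝓝 1) := by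
  have hE := Curve.tendsto_E (k := 4) (by norm_num) (by decide)
  have h := (hE.pow 3).div Curve.tendsto_qjFun one_ne_zero
  rw [one_pow, div_one] at h
  refine h.congr' ?_
  filter_upwards [hE.eventually_ne one_ne_zero] with τ h4
  have hΔ := ModularForm.discriminant_ne_zero τ
  have hq := Curve.qw_ne_zero 1 τ
  simp only [Pi.div_apply, Curve.qjFun, Curve.jFun]
  field_simp

variable (N : ℕ) [NeZero N]

/-- `(0, k)`. -/
def cVec (k : ℕ) : Fin 2 → ZMod N := ![0, (k : ZMod N)]

/-- `∏_k (℘(k/N) - ℘(2k/N))`, normalised. -/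
def difProd (τ : ℍ) : ℂ := ∏ k ∈ Finset.Ioo 0 N, dif N (cVec N k) (cVec N (2 * k)) τ

/-- The modular unit. -/
def deltaRatio (τ : ℍ) : ℂ :=
  difProd N τ ^ 6 * ModularForm.discriminant (mulPt N τ) / ModularForm.discriminant τ ^ N

/-- Its value at `∞`. -/
def ratioConst : ℂ :=
  (∏ k ∈ Finset.Ioo 0 N,
    PowerSeries.constantCoeff (ES.difSeries N (zetaC N) (cVec N k) (cVec N (2 * k)))) ^ 6

variable {N}

omit [NeZero N] in
/-- The pairs of division points `k/N`, `2k/N` are admissible. -/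
lemma adm_cVec (hN : N.Prime) (h5 : 5 ≤ N) {k : ℕ} (hk : k ∈ Finset.Ioo 0 N) :
    ES.Adm N (cVec N k) (cVec N (2 * k)) := by
  obtain ⟨hk0, hkN⟩ := Finset.mem_Ioo.1 hk
  have hne : ∀ m : ℕ, 0 < m → m < 4 → ((m * k : ℕ) : ZMod N) ≠ 0 := fun m hm hm4 h => by
    rcases hN.dvd_mul.1 ((ZMod.natCast_eq_zero_iff _ _).1 h) with h' | h'
    · exact absurd (Nat.le_of_dvd hm h') (by omega)
    · exact absurd (Nat.le_of_dvd hk0 h') (by omega)
  refine ⟨fun h => hne 1 one_pos (by norm_num) ?_, fun h => hne 2 two_pos (by norm_num) ?_,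
    fun h => hne 1 one_pos (by norm_num) ?_, fun h => hne 3 (by norm_num) (by norm_num) ?_⟩ <;>
    · have h1 := congrFun h 1
      simp only [cVec, Matrix.cons_val_one, Matrix.cons_val_zero, Pi.zero_apply, Pi.neg_apply] at h1
      push_cast at h1 ⊢
      first | linear_combination h1 | linear_combination -h1

/-- The product of differences vanishes nowhere. -/
lemma difProd_ne_zero (hN : N.Prime) (h5 : 5 ≤ N) (τ : ℍ) : difProd N τ ≠ 0 :=
  Finset.prod_ne_zero_iff.2 fun _ hk => (adm_cVec hN h5 hk).dif_ne_zero τ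

/-- The modular unit vanishes nowhere. -/
lemma deltaRatio_ne_zero (hN : N.Prime) (h5 : 5 ≤ N) (τ : ℍ) : deltaRatio N τ ≠ 0 :=
  div_ne_zero (mul_ne_zero (pow_ne_zero _ (difProd_ne_zero hN h5 τ))
    (ModularForm.discriminant_ne_zero _)) (pow_ne_zero _ (ModularForm.discriminant_ne_zero _))

/-- The product of differences has weight `2 (N - 1)` for `Γ₀(N)`. -/
lemma difProd_smul (hN : N.Prime) {γ : SL(2, ℤ)} (hγ : γ ∈ Gamma0 N) (τ : ℍ) :
    difProd N (γ • τ) = UpperHalfPlane.denom γ τ ^ (2 * (N - 1)) * difProd N τ := by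
  have hc : ((γ 1 0 : ℤ) : ZMod N) = 0 := Gamma0_mem.1 hγ
  set d : ZMod N := ((γ 1 1 : ℤ) : ZMod N) with hd
  have hd0 : d ≠ 0 := fun h => by
    have hdet : ((γ 0 0 * γ 1 1 - γ 0 1 * γ 1 0 : ℤ) : ZMod N) = 1 := by
      rw [← Matrix.det_fin_two, γ.2]; simp
    push_cast at hdet
    rw [hc, ← hd, h] at hdet
    have := hN.one_lt
    have : Fact (1 < N) := ⟨this⟩
    simp at hdet
  have hv : ∀ k : ℕ, vmul N (cVec N k) γ = cVec N ((d * k).val) := fun k => by
    funext i
    fin_cases i <;>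
      simp [vmul, cVec, Matrix.vecMul, dotProduct, Fin.sum_univ_two, ES.modMat, hc, ← hd, mul_comm]
  have hv2 : ∀ k : ℕ, vmul N (cVec N (2 * k)) γ = cVec N (2 * (d * k).val) := fun k => by
    rw [hv]
    funext i
    fin_cases i <;> simp [cVec]
    ring
  simp only [difProd, ES.dif_smul, hv2, hv, Finset.prod_mul_distrib, Finset.prod_const,
    Nat.card_Ioo, Nat.sub_zero, ← pow_mul]
  congr 1
  have := Fact.mk hN
  refine Finset.prod_bij' (fun k _ => (d * k).val) (fun k _ => (d⁻¹ * k).val) ?_ ?_ ?_ ?_ ?_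
  · intro k hk
    obtain ⟨hk0, hkN⟩ := Finset.mem_Ioo.1 hk
    refine Finset.mem_Ioo.2 ⟨?_, ZMod.val_lt _⟩
    rw [pos_iff_ne_zero, ne_eq, ZMod.val_eq_zero, mul_eq_zero, not_or]
    exact ⟨hd0, fun h => absurd (Nat.le_of_dvd hk0 ((ZMod.natCast_eq_zero_iff _ _).1 h)) (by omega)⟩
  · intro k hk
    obtain ⟨hk0, hkN⟩ := Finset.mem_Ioo.1 hk
    refine Finset.mem_Ioo.2 ⟨?_, ZMod.val_lt _⟩
    rw [pos_iff_ne_zero, ne_eq, ZMod.val_eq_zero, mul_eq_zero, not_or]
    exact ⟨inv_ne_zero hd0,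
      fun h => absurd (Nat.le_of_dvd hk0 ((ZMod.natCast_eq_zero_iff _ _).1 h)) (by omega)⟩
  · intro k hk
    simp only [ZMod.natCast_val, ZMod.cast_id', id_eq, ← mul_assoc, inv_mul_cancel₀ hd0, one_mul]
    exact ZMod.val_cast_of_lt (Finset.mem_Ioo.1 hk).2
  · intro k hk
    simp only [ZMod.natCast_val, ZMod.cast_id', id_eq, ← mul_assoc, mul_inv_cancel₀ hd0, one_mul]
    exact ZMod.val_cast_of_lt (Finset.mem_Ioo.1 hk).2
  · intro k hk
    rfl

lemma delta_mulPt_smul {γ : SL(2, ℤ)} (hγ : γ ∈ Gamma0 N) (τ : ℍ) :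
    ModularForm.discriminant (mulPt N (γ • τ))
      = UpperHalfPlane.denom γ τ ^ (12 : ℕ) * ModularForm.discriminant (mulPt N τ) := by
  obtain ⟨e, he⟩ := (ZMod.intCast_zmod_eq_zero_iff_dvd _ N).1 (Gamma0_mem.1 hγ)
  let γ' : SL(2, ℤ) := ⟨!![γ 0 0, N * γ 0 1; e, γ 1 1], by
    have h := γ.2
    rw [Matrix.det_fin_two, he] at h
    rw [Matrix.det_fin_two_of]
    linear_combination h⟩
  have hden : UpperHalfPlane.denom γ' (mulPt N τ) = UpperHalfPlane.denom γ τ := by
    rw [ModularGroup.denom_apply, ModularGroup.denom_apply]; simp [γ', he]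
    ring
  have hpt : γ' • mulPt N τ = mulPt N (γ • τ) := by
    ext
    rw [Curve.coe_sl_smul, coe_mulPt, coe_mulPt, Curve.coe_sl_smul]
    simp only [γ', he]
    simp
    ring
  rw [← hpt, Curve.discriminant_smul, hden]

lemma act_deltaRatio (hN : N.Prime) {γ : SL(2, ℤ)} (hγ : γ ∈ Gamma0 N) :
    act γ (deltaRatio N) = deltaRatio N := by
  funext τ
  simp only [ES.act, deltaRatio, difProd_smul hN hγ, delta_mulPt_smul hγ, Curve.discriminant_smul]
  have hd := UpperHalfPlane.denom_ne_zero (γ : GL (Fin 2) ℝ) τ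
  have hΔ := ModularForm.discriminant_ne_zero τ
  have hN1 : 2 * (N - 1) * 6 + 12 = 12 * N := by have := NeZero.pos N; omega
  rw [mul_pow, mul_pow, ← pow_mul, ← pow_mul,
    show ∀ a b : ℂ, UpperHalfPlane.denom γ τ ^ (2 * (N - 1) * 6) * a *
        (UpperHalfPlane.denom γ τ ^ 12 * b) = UpperHalfPlane.denom γ τ ^ (12 * N) * (a * b) from
      fun a b => by rw [← hN1, pow_add]; ring, mul_div_mul_left _ _ (pow_ne_zero _ hd)]

/-! ### At `∞` -/

/-- The product of differences has the product of the difference series as expansion. -/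
lemma hasExp_difProd (hN : N.Prime) (h5 : 5 ≤ N) :
    HasExp N (difProd N)
      (∏ k ∈ Finset.Ioo 0 N, ES.difSeries N (zetaC N) (cVec N k) (cVec N (2 * k))) :=
  (HasExp.prod (M := N) _ fun k hk => ES.hasExp_dif N (adm_cVec hN h5 hk).left
    (adm_cVec hN h5 hk).right).congr_fun fun τ => by simp [difProd]

lemma tendsto_mulPt : Tendsto (mulPt N) atImInfty atImInfty := by
  rw [UpperHalfPlane.atImInfty, Filter.tendsto_comap_iff]
  have h : (UpperHalfPlane.im ∘ mulPt N) = fun τ : ℍ => (N : ℝ) * τ.im := by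
    funext τ
    change ((mulPt N τ : ℍ) : ℂ).im = _
    rw [coe_mulPt]
    simp
  rw [h]
  exact Tendsto.const_mul_atTop (Nat.cast_pos.2 (NeZero.pos N)) tendsto_comap

lemma tendsto_deltaRatio (hN : N.Prime) (h5 : 5 ≤ N) :
    Tendsto (deltaRatio N) atImInfty (𝓝 (ratioConst N)) := by
  have h1 := (hasExp_difProd hN h5).tendsto_atImInfty.pow 6
  rw [map_prod] at h1
  have h2 := (tendsto_delta_div_q.comp (tendsto_mulPt (N := N))).div (tendsto_delta_div_q.pow N)
    (by simp)
  rw [one_pow, div_one] at h2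
  have h := h1.mul h2
  rw [mul_one] at h
  refine h.congr fun τ => ?_
  have hq : Curve.qw 1 (mulPt N τ) = Curve.qw 1 τ ^ N := by
    simp only [Curve.qw, Function.Periodic.qParam, coe_mulPt, ← Complex.exp_nat_mul]
    congr 1
    ring
  have := Curve.qw_ne_zero 1 τ
  have := ModularForm.discriminant_ne_zero τ
  simp only [Function.comp_apply, Pi.div_apply, deltaRatio, hq, div_pow]
  field_simp

/-! ### At `0` -/

/-- The automorphy factor of `S` at `τ / N`. -/
lemma denom_S_affinePt (τ : ℍ) :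
    UpperHalfPlane.denom ModularGroup.S (Curve.affinePt 1 N 0 τ) = (τ : ℂ) / N := by
  rw [ModularGroup.denom_S, Curve.coe_affinePt]; simp

/-- `N (S τ) = S (τ / N)`. -/
lemma mulPt_S_smul (τ : ℍ) :
    mulPt N (ModularGroup.S • τ) = ModularGroup.S • Curve.affinePt 1 N 0 τ := by
  ext
  rw [coe_mulPt, Curve.coe_sl_smul, Curve.coe_sl_smul, Curve.coe_affinePt]
  simp [ModularGroup.S]
  field_simp

/-- `τ / N` tends to infinity with `τ`. -/
lemma tendsto_affinePt_one :
    Tendsto (fun τ : ℍ => Curve.affinePt 1 N 0 τ) atImInfty atImInfty := by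
  rw [UpperHalfPlane.atImInfty, Filter.tendsto_comap_iff]
  have h : (UpperHalfPlane.im ∘ fun τ : ℍ => Curve.affinePt 1 N 0 τ)
      = fun τ : ℍ => τ.im / N := by
    funext τ
    change ((Curve.affinePt 1 N 0 τ : ℍ) : ℂ).im = _
    simp [Curve.coe_affinePt, Complex.div_natCast_im]
  rw [h]
  exact Tendsto.atTop_div_const (Nat.cast_pos.2 (NeZero.pos N)) tendsto_comap

/-- The expansion at the other cusp, up to the constant `N ^ 12`. -/
def ratioAtZero (τ : ℍ) : ℂ :=
  (∏ k ∈ Finset.Ioo 0 N, dif N (vmul N (cVec N k) ModularGroup.S)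
      (vmul N (cVec N (2 * k)) ModularGroup.S) τ) ^ 6
    * ModularForm.discriminant (Curve.affinePt 1 N 0 τ) / ModularForm.discriminant τ ^ N

lemma act_S_deltaRatio (τ : ℍ) :
    act ModularGroup.S (deltaRatio N) τ = ((N : ℂ) ^ 12)⁻¹ * ratioAtZero (N := N) τ := by
  simp only [ES.act, deltaRatio, difProd, ratioAtZero, ES.dif_smul, mulPt_S_smul,
    Curve.discriminant_smul,
    Finset.prod_mul_distrib, Finset.prod_const, Nat.card_Ioo, Nat.sub_zero]
  have hτ := UpperHalfPlane.ne_zero τ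
  have hN0 : (N : ℂ) ≠ 0 := NeZero.ne _
  have := ModularForm.discriminant_ne_zero τ
  have he : ((τ : ℂ) ^ 12) ^ N = (((τ : ℂ) ^ 2) ^ (N - 1)) ^ 6 * (τ : ℂ) ^ 12 := by
    rw [← pow_mul, ← pow_mul, ← pow_mul, ← pow_add]
    congr 1
    have := NeZero.pos N
    omega
  rw [denom_S_affinePt, ModularGroup.denom_S]
  rw [mul_pow, mul_pow, he, div_pow]
  field_simp

lemma exists_hasExp_delta :
    ∃ c, HasExp N ModularForm.discriminant c := by
  refine ⟨_, HasExp.exists_of_bounded ?_ ?_ ?_⟩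
  · refine Curve.periodic_comp_ofComplex_of_vadd fun τ => ?_
    simpa using delta_vadd (N : ℤ) τ
  · exact CuspForm.discriminant.holo'
  · exact ModularForm.discriminant_isZeroAtImInfty.isBoundedAtImInfty

lemma exists_hasExp_delta_div :
    ∃ c, HasExp N (fun τ => ModularForm.discriminant (Curve.affinePt 1 N 0 τ)) c := by
  refine ⟨_, HasExp.exists_of_bounded ?_ ?_ ?_⟩
  · refine Curve.periodic_comp_ofComplex_of_vadd fun τ => ?_
    rw [← delta_vadd 1 (Curve.affinePt 1 N 0 τ)]
    congr 1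
    ext
    have hN0 : (N : ℂ) ≠ 0 := NeZero.ne _
    simp [Curve.coe_affinePt, UpperHalfPlane.coe_vadd]
    field_simp
  · exact Curve.mdiff_comp_affinePt CuspForm.discriminant.holo' _ _ _
  · exact Filter.ZeroAtFilter.boundedAtFilter
      (ModularForm.discriminant_isZeroAtImInfty.comp tendsto_affinePt_one)

lemma exists_exp_ratioAtZero (hN : N.Prime) (h5 : 5 ≤ N) :
    ∃ s, HasLExp N (act ModularGroup.S (deltaRatio N)) s ∧ s ≠ 0 := by
  obtain ⟨c, hc⟩ := exists_hasExp_delta (N := N)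
  obtain ⟨d, hd⟩ := exists_hasExp_delta_div (N := N)
  have hc0 : (HahnSeries.ofPowerSeries ℤ ℂ c) ^ N ≠ 0 := by
    refine pow_ne_zero _ fun h => ModularForm.discriminant_ne_zero UpperHalfPlane.I ?_
    have : c = 0 := HahnSeries.ofPowerSeries_injective (h.trans (map_zero _).symm)
    exact congrFun (hc.eq_of_series (this ▸ HasExp.zero (M := N))) _
  have hne : ∀ τ, ((ModularForm.discriminant : ℍ → ℂ) ^ N) τ ≠ 0 := fun τ =>
    pow_ne_zero _ (ModularForm.discriminant_ne_zero τ)
  have h := (((HasLExp.prod (M := N) (Finset.Ioo 0 N) fun k hk => ES.hasLExp_dif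
      ((adm_cVec hN h5 hk).mul ModularGroup.S).left
      ((adm_cVec hN h5 hk).mul ModularGroup.S).right).pow 6).mul (HasLExp.of_exp hd)).mul
    (((HasLExp.of_exp hc).pow N).inv hne hc0)
  have hs := (HasLExp.const (M := N) (((N : ℂ) ^ 12)⁻¹)).mul h
  have hfun : HasLExp N (act ModularGroup.S (deltaRatio N)) _ := hs.congr_fun fun τ => by
    rw [act_S_deltaRatio]
    simp [ratioAtZero, div_eq_mul_inv, Finset.prod_apply]
  refine ⟨_, hfun, fun h0 => ?_⟩
  rw [h0] at hfun
  exact deltaRatio_ne_zero hN h5 (ModularGroup.S • UpperHalfPlane.I)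
    (congrFun (hfun.eq_of_series HasLExp.zero) UpperHalfPlane.I)

/-- Every element of `SL(2, ℤ)` lies in `Γ₀(N)` or is one of `Γ₀(N)` times `S T ^ j`. -/
lemma exists_cusp_form (hN : N.Prime) (γ : SL(2, ℤ)) :
    ∃ g ∈ Gamma0 N, γ = g ∨ ∃ j : ℕ, γ = g * (ModularGroup.S * ModularGroup.T ^ j) := by
  by_cases hc : ((γ 1 0 : ℤ) : ZMod N) = 0
  · exact ⟨γ, Gamma0_mem.2 hc, Or.inl rfl⟩
  have := Fact.mk hN
  set x : ZMod N := ((γ 1 1 : ℤ) : ZMod N) * ((γ 1 0 : ℤ) : ZMod N)⁻¹ with hx
  refine ⟨γ * (ModularGroup.S * ModularGroup.T ^ x.val)⁻¹, ?_, Or.inr ⟨x.val, by group⟩⟩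
  rw [Gamma0_mem]
  have hcoe : (((ModularGroup.S * ModularGroup.T ^ x.val)⁻¹ : SL(2, ℤ)) : Matrix (Fin 2) (Fin 2) ℤ)
      = !![(x.val : ℤ), 1; -1, 0] := by
    rw [Matrix.SpecialLinearGroup.coe_inv, Matrix.SpecialLinearGroup.coe_mul, ES.T_pow_coe]
    simp [ModularGroup.S, Matrix.adjugate_fin_two]
  rw [Matrix.SpecialLinearGroup.coe_mul, hcoe]
  simp [Matrix.mul_apply, Fin.sum_univ_two, hx, mul_comm ((γ 1 1 : ℤ) : ZMod N), ← mul_assoc,
    mul_inv_cancel₀ hc]

/-- A unit without zeros and poles, with a non-zero limit at `∞`, is constant. -/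
lemma eq_const_of_unit (hNp : N.Prime) {R : ℍ → ℂ} (hinv : ∀ γ ∈ Gamma0 N, act γ R = R)
    (hexp : ∀ γ, ∃ s, HasLExp N (act γ R) s) (hne : ∀ τ, R τ ≠ 0) {L : ℂ} (hL : L ≠ 0)
    (hlim : Tendsto R atImInfty (𝓝 L)) : ∃ c, c ≠ 0 ∧ ∀ τ, R τ = c := by
  have key : ∀ f : ℍ → ℂ, f ∈ BSub N → (∀ γ ∈ Gamma0 N, act γ f = f) →
      IsBoundedAtImInfty f → IsBoundedAtImInfty (act ModularGroup.S f) →
      ∃ c, f = fun _ => c := fun f hf hinv hinf hS => ES.eq_const_of_bounded hf fun γ => by
    obtain ⟨g, hg, hγ | ⟨j, rfl⟩⟩ := exists_cusp_form hNp γ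
    · rw [hγ, hinv g hg]; exact hinf
    · rw [ES.act_mul, hinv g hg, ES.act_mul, ES.act_T_pow]
      exact hS.comp_tendsto (tendsto_comap_iff.2 (tendsto_comap.congr fun τ => by simp))
  have hΓ : ∀ γ ∈ CongruenceSubgroup.Gamma N, γ ∈ Gamma0 N := fun γ hγ => by
    rw [CongruenceSubgroup.Gamma0_mem]
    exact (CongruenceSubgroup.Gamma_mem.1 hγ).2.2.1
  obtain ⟨s, hs⟩ := hexp ModularGroup.S
  have hs0 : s ≠ 0 := fun h0 => by
    rw [h0] at hs
    exact hne (ModularGroup.S • UpperHalfPlane.I)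
      (congrFun (hs.eq_of_series HasLExp.zero) UpperHalfPlane.I)
  suffices h : ∃ c, R = fun _ => c by
    obtain ⟨c, hc⟩ := h
    exact ⟨c, fun h0 => hne UpperHalfPlane.I (by rw [hc, h0]), fun τ => congrFun hc τ⟩
  by_cases hnn : NonnegSer s
  · exact key R (ES.mem_BSub.2 ⟨fun γ hγ => hinv γ (hΓ γ hγ), hexp⟩) hinv
      (Tendsto.isBigO_one ℝ hlim) (ES.isBounded_of_nonneg hs hnn)
  · have hinvS : NonnegSer s⁻¹ := by
      intro n hn
      refine HahnSeries.coeff_eq_zero_of_lt_order ?_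
      have hord : s.order < 0 := by
        by_contra h
        exact hnn fun m hm => HahnSeries.coeff_eq_zero_of_lt_order (by omega)
      have := HahnSeries.order_mul hs0 (inv_ne_zero hs0)
      rw [mul_inv_cancel₀ hs0, HahnSeries.order_one] at this
      omega
    obtain ⟨c, hc⟩ := key R⁻¹ (ES.mem_BSub.2 ⟨fun γ hγ => by
        rw [ES.act_inv, hinv γ (hΓ γ hγ)], fun γ => by
        obtain ⟨u, hu⟩ := hexp γ
        refine ⟨u⁻¹, ?_⟩
        rw [ES.act_inv]
        refine hu.inv (fun τ => hne _) fun h0 => ?_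
        rw [h0] at hu
        exact hne (γ • UpperHalfPlane.I)
          (congrFun (hu.eq_of_series HasLExp.zero) UpperHalfPlane.I)⟩)
      (fun γ hγ => by rw [ES.act_inv, hinv γ hγ])
      (Tendsto.isBigO_one ℝ (hlim.inv₀ hL))
      (by
        rw [ES.act_inv]
        exact ES.isBounded_of_nonneg (hs.inv (fun τ => hne _) hs0) hinvS)
    exact ⟨c⁻¹, funext fun τ => by
      have := congrFun hc τ
      simp only [Pi.inv_apply] at this
      rw [← this, inv_inv]⟩

lemma mem_BSub_deltaRatio (hN : N.Prime) (h5 : 5 ≤ N) : deltaRatio N ∈ BSub N := by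
  refine ES.mem_BSub.2 ⟨fun γ hγ => act_deltaRatio hN ?_, fun γ => ?_⟩
  · rw [Gamma0_mem]
    exact (Gamma_mem.1 hγ).2.2.1
  obtain ⟨g, hg, hγg | ⟨j, rfl⟩⟩ := exists_cusp_form hN γ
  · rw [hγg]
    obtain ⟨s, hs, -⟩ : ∃ s, HasLExp N (deltaRatio N) s ∧ True := by
      obtain ⟨c, hc⟩ := exists_hasExp_delta (N := N)
      have hper : Function.Periodic (deltaRatio N ∘ ofComplex) (N : ℝ) := by
        refine Curve.periodic_comp_ofComplex_of_vadd fun τ => ?_
        have := congrFun (act_deltaRatio hN (γ := ModularGroup.T ^ (N : ℤ)) (by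
          rw [Gamma0_mem, ModularGroup.coe_T_zpow]; simp)) τ
        simp only [ES.act, modular_T_zpow_smul, Int.cast_natCast] at this
        exact this
      have hd : MDiff (deltaRatio N) := by
        have hrepr : deltaRatio N = (fun τ => difProd N τ ^ 6 *
            ModularForm.discriminant (mulPt N τ)) * (ModularForm.discriminant ^ N)⁻¹ := by
          funext τ
          simp [deltaRatio, div_eq_mul_inv]
        have h1 : MDiff (fun τ => difProd N τ ^ 6 * ModularForm.discriminant (mulPt N τ)) := by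
          have ha : MDiff (difProd N) := (hasExp_difProd hN h5).mdifferentiable
          have hb : MDiff (fun τ => ModularForm.discriminant (mulPt N τ)) := by
            have := Curve.mdiff_comp_affinePt CuspForm.discriminant.holo' N 1 0
            convert this using 2 with τ
            change ModularForm.discriminant (mulPt N τ)
              = ModularForm.discriminant (Curve.affinePt N 1 0 τ)
            congr 1
            ext
            simp [Curve.coe_affinePt]
          exact (ha.pow 6).mul hb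
        rw [hrepr]
        exact h1.mul ((MDifferentiable.pow CuspForm.discriminant.holo' N).inv
            fun τ => pow_ne_zero _ (ModularForm.discriminant_ne_zero τ))
      exact ⟨_, HasLExp.of_exp (HasExp.exists_of_bounded hper hd
        (Tendsto.isBigO_one ℝ (tendsto_deltaRatio hN h5))), trivial⟩
    exact ⟨s, by rw [act_deltaRatio hN hg]; exact hs⟩
  · obtain ⟨s, hs, -⟩ := exists_exp_ratioAtZero hN h5
    refine ⟨ES.twistSer (zetaC N ^ j) s, ?_⟩
    rw [ES.act_mul, act_deltaRatio hN hg, ES.act_mul]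
    exact ES.hasLExp_act_T_pow hs j

/-- **The identity**: the modular unit built from the differences of division values and the
discriminants at `τ` and `N τ` is constant. -/
theorem deltaRatio_eq (hN : N.Prime) (h5 : 5 ≤ N) (τ : ℍ) : deltaRatio N τ = ratioConst N := by
  have hconst : ratioConst N ≠ 0 := by
    refine pow_ne_zero _ (Finset.prod_ne_zero_iff.2 fun k hk => ?_)
    have ha := adm_cVec hN h5 hk
    have h := (ES.difSeries_lead (ES.zetaC_goodRoot_top (M := N)) ha.left ha.right ha.ne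
      ha.ne_neg).2.2.1
    rwa [show min (ES.leadIdx (cVec N k)) (ES.leadIdx (cVec N (2 * k))) = 0 by
      simp [ES.leadIdx, cVec], PowerSeries.coeff_zero_eq_constantCoeff] at h
  obtain ⟨c, -, hc'⟩ := eq_const_of_unit hN (fun γ hγ => act_deltaRatio hN hγ)
    (ES.mem_BSub.1 (mem_BSub_deltaRatio hN h5)).2 (deltaRatio_ne_zero hN h5) hconst
    (tendsto_deltaRatio hN h5)
  have hc : deltaRatio N = fun _ => c := funext hc'
  have h := tendsto_deltaRatio hN h5
  rw [hc] at h
  rw [hc]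
  exact tendsto_nhds_unique tendsto_const_nhds h

/-- The constant is a unit where the cyclotomic units are. -/
theorem unitIn_ratioConst (hN : N.Prime) (h5 : 5 ≤ N) {A : Subring ℂ}
    (hA : GoodRoot N A (zetaC N)) : UnitIn A (ratioConst N) := by
  refine UnitIn.pow ?_ 6
  refine Finset.prod_induction _ (UnitIn A) (fun _ _ => UnitIn.mul) UnitIn.one fun k hk => ?_
  have ha := adm_cVec hN h5 hk
  have h := (ES.difSeries_lead hA ha.left ha.right ha.ne ha.ne_neg).2.2
  rwa [show min (ES.leadIdx (cVec N k)) (ES.leadIdx (cVec N (2 * k))) = 0 by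
    simp [ES.leadIdx, cVec], PowerSeries.coeff_zero_eq_constantCoeff] at h

end FermatAgent.Mazur

end
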