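import Fermat.Agent.Mazur.DescentSetting

/-!
# Eisenstein descent: the local shape of a cocycle at `N` and at `ℓ`

`IsCls`: cocycles of the representation of the descent, unramified outside `ℓ` and `N`, with
first coordinate zero on inertia at `ℓ`; coboundaries are examples (`isCls_cob`). On inertia at
`N` a cocycle is the coboundary of a multiple of the second basis vector
(`IsCls.exists_eq_on_AN`), by comparing with a conjugate under Frobenius. At `ℓ` the second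
coordinate is a twisted cocycle on inertia, and a fixed multiple of it gives, composed with a
character, the Kummer cocycle of a unit (`IsCls.isUnitKummer`).
-/

set_option autoImplicit false

noncomputable section

open scoped Pointwise Matrix

namespace FermatAgent.Mazur

open FermatAgent.GaloisBasic IsLocalRing

namespace DescentSetting

variable {O : Type} [CommRing O] [IsDomain O] [IsDiscreteValuationRing O] (S : DescentSetting O)

/-- The coboundary `σ ↦ ρ(σ) x - x` of a vector. -/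
def cob (x : Fin 2 → O) (σ : GQ) : Fin 2 → O := S.ρ σ *ᵥ x - x

/-- The classes of the descent: continuous cocycles of `ρ`, unramified outside `ℓ` and `N`, whose
first coordinate vanishes on inertia at `ℓ`. -/
structure IsCls (c : GQ → Fin 2 → O) : Prop where
  cocycle : ∀ σ τ, c (σ * τ) = c σ + S.ρ σ *ᵥ c τ
  cts : ∀ r : ℕ, ∃ U : Subgroup GQ, IsOpen (U : Set GQ) ∧ ∀ σ ∈ U, ∀ i, (S.ℓ : O) ^ r ∣ c σ i
  unramified : ∀ q : ℕ, q.Prime → q ≠ S.ℓ → q ≠ S.N → ∀ A : ValuationSubring Qbar,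
    A.LiesOverPrime q → ∀ σ ∈ A.inertiaSubgroupIn ℚ, c σ = 0
  ord : ∀ σ ∈ S.Aℓ.inertiaSubgroupIn ℚ, c σ 0 = 0

variable {S} {c d : GQ → Fin 2 → O}

/-- The first coordinate of a coboundary. -/
lemma cob_apply0 (x : Fin 2 → O) (σ : GQ) :
    S.cob x σ 0 = (S.ρ σ 0 0 - 1) * x 0 + S.ρ σ 0 1 * x 1 := by
  rw [cob, Pi.sub_apply, mulVec0]; ring

/-- The second coordinate of a coboundary. -/
lemma cob_apply1 (x : Fin 2 → O) (σ : GQ) :
    S.cob x σ 1 = S.ρ σ 1 0 * x 0 + (S.ρ σ 1 1 - 1) * x 1 := by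
  rw [cob, Pi.sub_apply, mulVec1]; ring

/-- Coboundaries are additive in the vector. -/
lemma cob_add (x y : Fin 2 → O) (σ : GQ) : S.cob (x + y) σ = S.cob x σ + S.cob y σ := by
  simp only [cob, Matrix.mulVec_add]
  abel

/-- Coboundaries commute with differences. -/
lemma cob_sub (x y : Fin 2 → O) (σ : GQ) : S.cob (x - y) σ = S.cob x σ - S.cob y σ := by
  simp only [cob, Matrix.mulVec_sub]
  abel

/-- Coboundaries are linear in the vector. -/
lemma cob_smul (a : O) (x : Fin 2 → O) (σ : GQ) : S.cob (a • x) σ = a • S.cob x σ := by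
  rw [cob, cob, Matrix.mulVec_smul, smul_sub]

/-- A coboundary of a divisible vector is divisible. -/
lemma dvd_cob {a : O} {x : Fin 2 → O} (h : ∀ i, a ∣ x i) (σ : GQ) (i : Fin 2) :
    a ∣ S.cob x σ i := by
  choose y hy using h
  rw [show x = a • y from funext hy, cob_smul]
  exact dvd_mul_right _ _

/-- Coboundaries are classes of the descent. -/
lemma isCls_cob (x : Fin 2 → O) : S.IsCls (S.cob x) where
  cocycle σ τ := by
    simp only [cob, map_mul, Matrix.mulVec_sub, Matrix.mulVec_mulVec]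
    abel
  cts r := by
    obtain ⟨U, hU, h⟩ := S.continuous r
    refine ⟨U, hU, fun σ hσ i => ?_⟩
    have : S.cob x σ i = (S.ρ σ - 1) i 0 * x 0 + (S.ρ σ - 1) i 1 * x 1 := by
      fin_cases i <;> simp [cob_apply0, cob_apply1]
    rw [this]
    exact dvd_add ((h σ hσ i 0).mul_right _) ((h σ hσ i 1).mul_right _)
  unramified q hq h1 h2 A hA σ hσ := by
    rw [cob, S.unramified q hq h1 h2 A hA σ hσ, Matrix.one_mulVec, sub_self]
  ord σ hσ := by
    rw [cob_apply0, S.ord00 σ hσ, S.ord01 σ (inertiaSubgroupIn_le_decompositionSubgroup _ hσ),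
      sub_self, zero_mul, zero_mul, add_zero]

/-- Classes of the descent are closed under differences. -/
lemma IsCls.sub (hc : S.IsCls c) (hd : S.IsCls d) : S.IsCls (fun σ => c σ - d σ) where
  cocycle σ τ := by
    show c (σ * τ) - d (σ * τ) = _
    rw [hc.cocycle, hd.cocycle, Matrix.mulVec_sub]
    abel
  cts r := by
    obtain ⟨U, hU, h⟩ := hc.cts r
    obtain ⟨V, hV, h'⟩ := hd.cts r
    exact ⟨U ⊓ V, hU.inter hV, fun σ hσ i => dvd_sub (h σ hσ.1 i) (h' σ hσ.2 i)⟩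
  unramified q hq h1 h2 A hA σ hσ := by
    show c σ - d σ = 0
    rw [hc.unramified q hq h1 h2 A hA σ hσ, hd.unramified q hq h1 h2 A hA σ hσ, sub_self]
  ord σ hσ := by rw [Pi.sub_apply, hc.ord σ hσ, hd.ord σ hσ, sub_self]

/-- Classes of the descent are closed under multiples. -/
lemma IsCls.smul (hc : S.IsCls c) (a : O) : S.IsCls (fun σ => a • c σ) where
  cocycle σ τ := by
    show a • c (σ * τ) = _
    rw [hc.cocycle, Matrix.mulVec_smul, smul_add]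
  cts r := by
    obtain ⟨U, hU, h⟩ := hc.cts r
    exact ⟨U, hU, fun σ hσ i => (h σ hσ i).mul_left a⟩
  unramified q hq h1 h2 A hA σ hσ := by
    show a • c σ = 0
    rw [hc.unramified q hq h1 h2 A hA σ hσ, smul_zero]
  ord σ hσ := by rw [Pi.smul_apply, hc.ord σ hσ, smul_zero]

/-- A function having a class as multiple by a divisor of a power of `ℓ` is a class. -/
lemma IsCls.of_smul {a : O} (ha : a ≠ 0) {k : ℕ} (hak : a ∣ (S.ℓ : O) ^ k)
    (h : S.IsCls fun σ => a • c σ) : S.IsCls c where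
  cocycle σ τ := by
    refine smul_right_injective (Fin 2 → O) ha ?_
    show a • c (σ * τ) = a • (c σ + S.ρ σ *ᵥ c τ)
    rw [smul_add, ← Matrix.mulVec_smul]
    exact h.cocycle σ τ
  cts r := by
    obtain ⟨U, hU, hUc⟩ := h.cts (r + k)
    refine ⟨U, hU, fun σ hσ i => ?_⟩
    obtain ⟨y, hy⟩ := hUc σ hσ i
    obtain ⟨w, hw⟩ := hak
    refine ⟨w * y, mul_left_cancel₀ ha ?_⟩
    rw [Pi.smul_apply, smul_eq_mul, pow_add, hw] at hy
    linear_combination hy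
  unramified q hq h1 h2 A hA σ hσ := by
    simpa [ha] using h.unramified q hq h1 h2 A hA σ hσ
  ord σ hσ := by simpa [ha] using h.ord σ hσ

/-- A class vanishes at the identity. -/
lemma IsCls.map_one (hc : S.IsCls c) : c 1 = 0 := by
  have h := hc.cocycle 1 1
  rwa [one_mul, _root_.map_one, Matrix.one_mulVec, left_eq_add] at h

/-! ### At `N` -/

/-- On inertia at `AN` a cocycle is the coboundary of a multiple of the second basis vector. -/
theorem IsCls.exists_eq_on_AN [CharZero O] (hc : S.IsCls c) :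
    ∃ r : O, ∀ σ ∈ S.AN.inertiaSubgroupIn ℚ, c σ 0 = r * S.u σ ∧ c σ 1 = 0 := by
  have hcts : ∀ i, ∀ r : ℕ, ∃ U : Subgroup GQ, IsOpen (U : Set GQ) ∧
      ∀ σ ∈ U, σ ∈ S.AN.inertiaSubgroupIn ℚ → (S.ℓ : O) ^ r ∣ c σ i := fun i r => by
    obtain ⟨U, hU, h⟩ := hc.cts r
    exact ⟨U, hU, fun σ hσ _ => h σ hσ i⟩
  have hb : S.IsInertiaHom fun σ => c σ 1 := ⟨fun σ hσ τ _ => by
    show c (σ * τ) 1 = _
    rw [hc.cocycle, Pi.add_apply, mulVec1, (S.unip σ hσ).2.1, (S.unip σ hσ).2.2, zero_mul,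
      one_mul, zero_add], hcts 1⟩
  -- the entries of a Frobenius element
  have hF10 : ∀ σ ∈ S.AN.inertiaSubgroupIn ℚ, S.u σ * S.ρ S.FN 1 0 = 0 ∧
      S.ρ S.FN 0 0 * S.u σ = (S.N : O) * S.u σ * S.ρ S.FN 1 1 := by
    intro σ hσ
    have hσ' := S.conj_FN_mem hσ
    have hmul : S.ρ (S.FN * σ * S.FN⁻¹ * S.FN) = S.ρ (S.FN * σ) := by rw [inv_mul_cancel_right]
    have hu : S.u (S.FN * σ * S.FN⁻¹) = (S.N : O) * S.u σ := S.isInertiaHom_u.map_conj hσ
    have h00 := congrFun (congrFun hmul 0) 0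
    have h01 := congrFun (congrFun hmul 0) 1
    rw [S.ρ_mul_apply (S.FN * σ * S.FN⁻¹), S.ρ_mul_apply S.FN σ, (S.unip _ hσ').1, (S.unip σ hσ).1,
      (S.unip σ hσ).2.1,
      show S.ρ (S.FN * σ * S.FN⁻¹) 0 1 = _ from hu] at h00
    rw [S.ρ_mul_apply (S.FN * σ * S.FN⁻¹), S.ρ_mul_apply S.FN σ, (S.unip _ hσ').1,
      (S.unip σ hσ).2.2,
      show S.ρ (S.FN * σ * S.FN⁻¹) 0 1 = _ from hu] at h01
    have hN : (S.N : O) ≠ 0 := Nat.cast_ne_zero.mpr S.N_prime.ne_zero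
    refine ⟨?_, ?_⟩
    · exact mul_left_cancel₀ hN (by linear_combination h00)
    · simp only [u] at h01 ⊢
      linear_combination -h01
  have hu0 : S.u S.σN ≠ 0 := fun h => S.σN_ne (by rw [← u, h, _root_.map_zero])
  have hFc : S.ρ S.FN 1 0 = 0 := (mul_eq_zero.mp (hF10 _ S.σN_mem).1).resolve_left hu0
  have hFa : S.ρ S.FN 0 0 = (S.N : O) * S.ρ S.FN 1 1 :=
    mul_right_cancel₀ hu0 (by linear_combination (hF10 _ S.σN_mem).2)
  have hFd : S.ρ S.FN 1 1 ^ 2 = 1 := by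
    have h := S.det_FN
    rw [Matrix.det_fin_two, hFc, hFa, mul_zero, sub_zero] at h
    exact mul_left_cancel₀ (Nat.cast_ne_zero.mpr S.N_prime.ne_zero : (S.N : O) ≠ 0)
      (by linear_combination h)
  have hb0 : ∀ σ ∈ S.AN.inertiaSubgroupIn ℚ, c σ 1 = 0 := by
    intro σ hσ
    have hσ' := S.conj_FN_mem hσ
    have h := hc.cocycle (S.FN * σ * S.FN⁻¹) S.FN
    rw [inv_mul_cancel_right, hc.cocycle S.FN σ] at h
    have h1 := congrFun h 1
    rw [Pi.add_apply, Pi.add_apply, mulVec1, mulVec1, hFc, (S.unip _ hσ').2.1,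
      (S.unip _ hσ').2.2, hb.map_conj hσ] at h1
    have hne : S.ρ S.FN 1 1 - (S.N : O) ≠ 0 := fun h0 => by
      rw [sub_eq_zero.mp h0, ← Nat.cast_pow, ← Nat.cast_one, Nat.cast_inj] at hFd
      exact S.N_prime.ne_one ((pow_eq_one_iff.mp hFd).resolve_right two_ne_zero)
    exact (mul_eq_zero.mp (show (S.ρ S.FN 1 1 - (S.N : O)) * c σ 1 = 0 by
      linear_combination h1)).resolve_left hne
  have ha : S.IsInertiaHom fun σ => c σ 0 := ⟨fun σ hσ τ hτ => by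
    show c (σ * τ) 0 = _
    rw [hc.cocycle, Pi.add_apply, mulVec0, (S.unip σ hσ).1, hb0 τ hτ, one_mul, mul_zero,
      add_zero], hcts 0⟩
  -- the unit `u σN`
  obtain ⟨v, hv⟩ : IsUnit (S.u S.σN) := by
    by_contra hn
    exact S.σN_ne ((residue_eq_zero_iff _).mpr ((IsLocalRing.mem_maximalIdeal _).mpr hn))
  refine ⟨c S.σN 0 * ↑v⁻¹, fun σ hσ => ⟨?_, hb0 σ hσ⟩⟩
  rw [← sub_eq_zero]
  refine IsInertiaHom.eq_zero (f := fun σ => c σ 0 - c S.σN 0 * ↑v⁻¹ * S.u σ) ⟨?_, ?_⟩ ?_ hσ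
  · intro σ hσ τ hτ
    have e : c (σ * τ) 0 = c σ 0 + c τ 0 := ha.1 σ hσ τ hτ
    show c (σ * τ) 0 - _ = _
    rw [e, S.isInertiaHom_u.1 σ hσ τ hτ]
    ring
  · intro r
    obtain ⟨U, hU, h⟩ := ha.2 r
    obtain ⟨V, hV, h'⟩ := S.isInertiaHom_u.2 r
    exact ⟨U ⊓ V, hU.inter hV,
      fun σ hσ hI => dvd_sub (h σ hσ.1 hI) ((h' σ hσ.2 hI).mul_left _)⟩
  · show c S.σN 0 - c S.σN 0 * ↑v⁻¹ * S.u S.σN = 0
    rw [← hv, mul_assoc, Units.inv_mul, mul_one, sub_self]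

/-! ### At `ℓ` -/

lemma mem_inertia_conjF {σ : GQ} (hσ : σ ∈ S.Aℓ.inertiaSubgroupIn ℚ) :
    S.F⁻¹ * σ * S.F ∈ S.Aℓ.inertiaSubgroupIn ℚ := by
  have := conj_mem_inertiaSubgroupIn_of_mem S.ℓ_prime S.Aℓ_over hσ (Subgroup.inv_mem _ S.F_mem)
  rwa [inv_inv] at this

lemma det_of_mem_inertia {σ : GQ} (hσ : σ ∈ S.Aℓ.inertiaSubgroupIn ℚ) :
    (S.ρ σ).det = S.ρ σ 1 1 := by
  rw [Matrix.det_fin_two, S.ord01 σ (inertiaSubgroupIn_le_decompositionSubgroup _ hσ),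
    S.ord00 σ hσ]
  ring

lemma det_F : (S.ρ S.F).det = S.ρ S.F 0 0 * S.ρ S.F 1 1 := by
  rw [Matrix.det_fin_two, S.ord01 S.F S.F_mem, zero_mul, sub_zero]

/-- Twisted cocycles on inertia at `Aℓ`. -/
def IsTwistedCocycle (S : DescentSetting O) (f : GQ → O) : Prop :=
  (∀ σ ∈ S.Aℓ.inertiaSubgroupIn ℚ, ∀ τ ∈ S.Aℓ.inertiaSubgroupIn ℚ,
    f (σ * τ) = f σ + S.ρ σ 1 1 * f τ) ∧
  ∀ r : ℕ, ∃ U : Subgroup GQ, IsOpen (U : Set GQ) ∧ ∀ σ ∈ U, (S.ℓ : O) ^ r ∣ f σ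

variable {R : ℕ} {Λ : AddChar O Qbar}

lemma IsTwistedCocycle.isUnitKummer {f : GQ → O} (hf : S.IsTwistedCocycle f)
    (hΛ : S.Kills R Λ) (y : O) :
    IsUnitKummer S.Aℓ fun σ =>
      Λ ((S.ρ S.F).det * f (S.F⁻¹ * σ * S.F) - f σ - y * (S.ρ σ 1 1 - 1)) := by
  obtain ⟨U, hU, h⟩ := hf.2 R
  have h1 := isUnitKummer_conj_div S.ℓ_prime S.Aℓ_over (pow_ne_zero R S.ℓ_prime.ne_zero) S.F_mem
    (fun σ => Λ (f σ))
    (fun σ hσ τ hτ => by
      rw [hf.1 σ hσ τ hτ, AddChar.map_add_eq_mul, hΛ.smul_eq, det_of_mem_inertia hσ])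
    (fun σ _ => hΛ.pow_eq_one _) U hU (fun σ _ hσ => hΛ.apply_of_dvd (h σ hσ))
  have h2 := isUnitKummer_coboundary (A := S.Aℓ) (pow_ne_zero R S.ℓ_prime.ne_zero)
    (hΛ.pow_eq_one y)
  refine (h1.div h2).congr fun σ hσ => ?_
  rw [hΛ.smul_eq, hΛ.smul_eq, det_of_mem_inertia hσ, ← AddChar.map_sub_eq_div,
    ← AddChar.map_sub_eq_div, ← AddChar.map_sub_eq_div]
  congr 1
  ring

lemma IsTwistedCocycle.isUnitKummer' {f : GQ → O} (hf : S.IsTwistedCocycle f)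
    (hΛ : S.Kills R Λ) (y : O) {g : GQ → O}
    (hg : ∀ σ ∈ S.Aℓ.inertiaSubgroupIn ℚ,
      (S.ρ S.F).det * f (S.F⁻¹ * σ * S.F) - f σ - y * (S.ρ σ 1 1 - 1) = g σ) :
    IsUnitKummer S.Aℓ fun σ => Λ (g σ) :=
  (hf.isUnitKummer hΛ y).congr fun σ hσ => by rw [hg σ hσ]

lemma isTwistedCocycle_e : S.IsTwistedCocycle fun σ => S.ρ σ 1 0 := by
  refine ⟨fun σ _ τ hτ => ?_, fun r => ?_⟩
  · show S.ρ (σ * τ) 1 0 = _
    rw [S.ρ_mul_apply, S.ord00 τ hτ, mul_one]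
  · obtain ⟨U, hU, h⟩ := S.continuous r
    exact ⟨U, hU, fun σ hσ => by simpa using h σ hσ 1 0⟩

lemma IsCls.isTwistedCocycle (hc : S.IsCls c) : S.IsTwistedCocycle fun σ => c σ 1 := by
  refine ⟨fun σ _ τ hτ => ?_, fun r => ?_⟩
  · show c (σ * τ) 1 = _
    rw [hc.cocycle, Pi.add_apply, mulVec1, hc.ord τ hτ, mul_zero, zero_add]
  · obtain ⟨U, hU, h⟩ := hc.cts r
    exact ⟨U, hU, fun σ hσ => h σ hσ 1⟩

lemma isUnitKummer_e (hΛ : S.Kills R Λ) :
    IsUnitKummer S.Aℓ fun σ => Λ ((S.ρ S.F 0 0 ^ 2 - 1) * S.ρ σ 1 0) := by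
  refine isTwistedCocycle_e.isUnitKummer' hΛ (S.ρ S.F 0 0 * S.ρ S.F 1 0) fun σ hσ => ?_
  have hτ := mem_inertia_conjF hσ
  have h10 := congrFun (congrFun (congrArg S.ρ
    (show S.F * (S.F⁻¹ * σ * S.F) = σ * S.F by group)) 1) 0
  rw [S.ρ_mul_apply S.F, S.ρ_mul_apply σ S.F, S.ord00 _ hτ] at h10
  rw [det_F]
  linear_combination S.ρ S.F 0 0 * h10

/-- A fixed non-zero multiple of the second coordinate of a cocycle is a unit cocycle at `ℓ`. -/
theorem IsCls.isUnitKummer (hc : S.IsCls c) (hΛ : S.Kills R Λ) :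
    IsUnitKummer S.Aℓ fun σ =>
      Λ ((S.ρ S.F 0 0 ^ 2 - 1) * (S.ρ S.F 0 0 - 1) * c σ 1) := by
  set α := S.ρ S.F 0 0 with hα
  have hw : IsUnitKummer S.Aℓ fun σ => Λ.mulShift (α ^ 2 - 1)
      ((α - 1) * c σ 1 + α * c S.F 0 * S.ρ σ 1 0) := by
    refine hc.isTwistedCocycle.isUnitKummer' (hΛ.mulShift _) (α * c S.F 1) fun σ hσ => ?_
    have hτ := mem_inertia_conjF hσ
    have h := congrArg c (show S.F * (S.F⁻¹ * σ * S.F) = σ * S.F by group)
    rw [hc.cocycle S.F, hc.cocycle σ S.F] at h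
    have h1 := congrFun h 1
    rw [Pi.add_apply, Pi.add_apply, mulVec1, mulVec1, hc.ord _ hτ] at h1
    rw [det_F, ← hα]
    linear_combination α * h1
  refine (hw.div (isUnitKummer_e (hΛ.mulShift (α * c S.F 0)))).congr fun σ _ => ?_
  simp only [AddChar.mulShift_apply, ← AddChar.map_sub_eq_div, ← hα]
  congr 1
  ring

end DescentSetting

end FermatAgent.Mazur

end
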