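import Mathlib

/-!
# Bounded power series and their evaluation on the open unit disc

`boundedPS K` is the ring of power series with bounded coefficients over a nonarchimedean field
`K`.  For complete `K` they can be evaluated at `‖r‖ < 1`, the kernel of evaluation is generated by
`X - r`, and this gives the Taylor expansion at `r`.
-/

set_option autoImplicit false

noncomputable section

namespace FermatAgent.Mazur

open PowerSeries Finset

variable (K : Type*) [NormedField K] [IsUltrametricDist K]

/-- Power series with bounded coefficients. -/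
def boundedPS : Subalgebra K (PowerSeries K) where
  carrier := {f | ∃ C : ℝ, ∀ n, ‖coeff n f‖ ≤ C}
  zero_mem' := ⟨0, by simp⟩
  one_mem' := ⟨1, fun n => by
    rw [coeff_one]
    split_ifs <;> simp⟩
  add_mem' := by
    rintro f g ⟨C, hC⟩ ⟨D, hD⟩
    exact ⟨max C D, fun n => (map_add (coeff n) f g) ▸
      (IsUltrametricDist.norm_add_le_max _ _).trans (max_le_max (hC n) (hD n))⟩
  mul_mem' := by
    rintro f g ⟨C, hC⟩ ⟨D, hD⟩
    have hC0 : 0 ≤ C := (norm_nonneg _).trans (hC 0)
    have hD0 : 0 ≤ D := (norm_nonneg _).trans (hD 0)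
    refine ⟨C * D, fun n => ?_⟩
    rw [PowerSeries.coeff_mul]
    refine IsUltrametricDist.norm_sum_le_of_forall_le_of_nonneg (mul_nonneg hC0 hD0) fun p _ => ?_
    rw [norm_mul]
    exact mul_le_mul (hC _) (hD _) (norm_nonneg _) hC0
  algebraMap_mem' c := ⟨‖c‖, fun n => by
    rw [show algebraMap K (PowerSeries K) c = PowerSeries.C c from rfl, coeff_C]
    split_ifs <;> simp⟩

variable {K}

/-- The variable has bounded coefficients. -/
lemma X_mem_boundedPS : (X : PowerSeries K) ∈ boundedPS K :=
  ⟨1, fun n => by
    rw [coeff_X]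
    split_ifs <;> simp⟩

/-- An integral series has bounded coefficients. -/
lemma map_intCast_mem_boundedPS (f : PowerSeries ℤ) :
    f.map (Int.castRingHom K) ∈ boundedPS K :=
  ⟨1, fun n => by
    rw [coeff_map, eq_intCast]
    exact IsUltrametricDist.norm_intCast_le_one K _⟩

/-! ### Evaluation -/

variable [CompleteSpace K] {r : K}

omit [CompleteSpace K] in
/-- A bounded series converges absolutely on the open disc. -/
lemma summable_norm_coeff_mul_pow (hr : ‖r‖ < 1) {f : PowerSeries K} (hf : f ∈ boundedPS K) :
    Summable fun n => ‖coeff n f * r ^ n‖ := by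
  obtain ⟨C, hC⟩ := hf
  refine Summable.of_nonneg_of_le (fun n => norm_nonneg _) (fun n => ?_)
    ((summable_geometric_of_lt_one (norm_nonneg r) hr).mul_left C)
  rw [norm_mul, norm_pow]
  exact mul_le_mul_of_nonneg_right (hC n) (pow_nonneg (norm_nonneg r) n)

/-- Evaluation at a point of the open unit disc. -/
def evalDisc (r : K) (hr : ‖r‖ < 1) : boundedPS K →ₐ[K] K where
  toFun f := ∑' n, coeff n (f : PowerSeries K) * r ^ n
  map_one' := by
    refine (tsum_eq_single 0 fun n hn => ?_).trans ?_
    · simp [coeff_one, hn]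
    · simp
  map_mul' f g := by
    rw [tsum_mul_tsum_eq_tsum_sum_antidiagonal_of_summable_norm
      (summable_norm_coeff_mul_pow hr f.2) (summable_norm_coeff_mul_pow hr g.2)]
    refine tsum_congr fun n => ?_
    rw [MulMemClass.coe_mul, PowerSeries.coeff_mul, Finset.sum_mul]
    refine Finset.sum_congr rfl fun p hp => ?_
    rw [Finset.HasAntidiagonal.mem_antidiagonal] at hp
    rw [← hp, pow_add]
    ring
  map_zero' := by simp
  map_add' f g := by
    rw [← Summable.tsum_add (summable_norm_coeff_mul_pow hr f.2).of_norm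
      (summable_norm_coeff_mul_pow hr g.2).of_norm]
    exact tsum_congr fun n => by rw [AddMemClass.coe_add, map_add, add_mul]
  commutes' c := by
    refine (tsum_eq_single 0 fun n hn => ?_).trans ?_
    · change coeff n (PowerSeries.C c) * r ^ n = 0
      simp [coeff_C, hn]
    · change coeff 0 (PowerSeries.C c) * r ^ 0 = c
      simp

/-- The evaluation is the sum of the series. -/
lemma evalDisc_apply (hr : ‖r‖ < 1) (f : boundedPS K) :
    evalDisc r hr f = ∑' n, coeff n (f : PowerSeries K) * r ^ n := rfl

/-- The variable, as a bounded series. -/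
def discX : boundedPS K := ⟨X, X_mem_boundedPS⟩

/-- The variable takes the value `r`. -/
lemma evalDisc_X (hr : ‖r‖ < 1) : evalDisc r hr discX = r := by
  rw [evalDisc_apply]
  refine (tsum_eq_single 1 fun n hn => ?_).trans ?_
  · simp [discX, coeff_X, hn]
  · simp [discX]

/-- The quotient of `f - f(r)` by `X - r`. -/
def discQuot (r : K) (hr : ‖r‖ < 1) (f : boundedPS K) : boundedPS K :=
  ⟨PowerSeries.mk fun k => ∑' n, coeff (k + 1 + n) (f : PowerSeries K) * r ^ n, by
    obtain ⟨C, hC⟩ := f.2
    refine ⟨C, fun k => ?_⟩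
    rw [coeff_mk]
    refine IsUltrametricDist.norm_tsum_le_of_forall_le_of_nonneg
      ((norm_nonneg _).trans (hC 0)) fun n => ?_
    rw [norm_mul, norm_pow]
    exact (mul_le_of_le_one_right (norm_nonneg _)
      (pow_le_one₀ (norm_nonneg _) hr.le)).trans (hC _)⟩

/-- The tails of a bounded series are summable. -/
lemma summable_shift (hr : ‖r‖ < 1) (f : boundedPS K) (k : ℕ) :
    Summable fun n => coeff (k + n) (f : PowerSeries K) * r ^ n := by
  obtain ⟨C, hC⟩ := f.2
  refine Summable.of_norm (Summable.of_nonneg_of_le (fun n => norm_nonneg _) (fun n => ?_)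
    ((summable_geometric_of_lt_one (norm_nonneg r) hr).mul_left C))
  rw [norm_mul, norm_pow]
  exact mul_le_mul_of_nonneg_right (hC _) (pow_nonneg (norm_nonneg r) n)

/-- `f - f(r) = (X - r) g` with `g` the bounded quotient. -/
lemma sub_evalDisc_eq (hr : ‖r‖ < 1) (f : boundedPS K) :
    f - algebraMap K _ (evalDisc r hr f) = (discX - algebraMap K _ r) * discQuot r hr f := by
  refine Subtype.ext (PowerSeries.ext fun k => ?_)
  change coeff k ((f : PowerSeries K) - PowerSeries.C (evalDisc r hr f))
    = coeff k ((X - PowerSeries.C r) * (discQuot r hr f : PowerSeries K))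
  have hsplit : ∀ k, (∑' n, coeff (k + n) (f : PowerSeries K) * r ^ n)
      = coeff k (f : PowerSeries K)
        + r * ∑' n, coeff (k + 1 + n) (f : PowerSeries K) * r ^ n := by
    intro k
    rw [(summable_shift hr f k).tsum_eq_zero_add, ← tsum_mul_left]
    congr 1
    · simp
    · refine tsum_congr fun n => ?_
      rw [pow_succ, show k + (n + 1) = k + 1 + n by omega]
      ring
  rw [map_sub, sub_mul, map_sub, coeff_C_mul]
  cases k with
  | zero =>
    have h := hsplit 0
    simp only [Nat.zero_add] at h
    rw [coeff_zero_X_mul, coeff_C, if_pos rfl, evalDisc_apply, h]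
    simp [discQuot]
  | succ k =>
    rw [coeff_succ_X_mul, coeff_C, if_neg (Nat.succ_ne_zero k), sub_zero]
    have h := hsplit (k + 1)
    simp only [discQuot, coeff_mk]
    rw [h]
    ring

/-! ### Taylor expansion -/

/-- The coefficients of the Taylor expansion at `r`. -/
def taylorCoeff (r : K) (hr : ‖r‖ < 1) (f : boundedPS K) (n : ℕ) : K :=
  evalDisc r hr ((discQuot r hr)^[n] f)

lemma sub_taylor_eq (hr : ‖r‖ < 1) (n : ℕ) (f : boundedPS K) :
    f - ∑ i ∈ range n, algebraMap K _ (taylorCoeff r hr f i) * (discX - algebraMap K _ r) ^ i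
      = (discX - algebraMap K _ r) ^ n * (discQuot r hr)^[n] f := by
  induction n with
  | zero => simp
  | succ n ih =>
    rw [Finset.sum_range_succ, ← sub_sub, ih, taylorCoeff, Function.iterate_succ_apply',
      pow_succ, mul_assoc, ← sub_evalDisc_eq]
    ring

omit [CompleteSpace K] in
lemma discX_sub_ne_zero : (discX - algebraMap K (boundedPS K) r) ≠ 0 := fun h => by
  have := congrArg (fun f : boundedPS K => coeff 1 (f : PowerSeries K)) h
  change coeff 1 (X - PowerSeries.C r) = coeff 1 (0 : PowerSeries K) at this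
  simp at this

lemma coeff_eq_of_dvd_sum (hr : ‖r‖ < 1) : ∀ (n : ℕ) (a : ℕ → K),
    (discX - algebraMap K (boundedPS K) r) ^ n ∣
      ∑ i ∈ range n, algebraMap K _ (a i) * (discX - algebraMap K _ r) ^ i →
    ∀ i < n, a i = 0 := by
  intro n
  induction n with
  | zero => intro a _ i hi; omega
  | succ n ih =>
    intro a ⟨g, hg⟩
    set t := discX - algebraMap K (boundedPS K) r
    have hev : evalDisc r hr t = 0 := by simp [t, evalDisc_X]
    have h0 : a 0 = 0 := by
      have h := congrArg (evalDisc r hr) hg
      rw [map_mul (evalDisc r hr) (t ^ (n + 1)), map_pow (evalDisc r hr) t, hev,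
        zero_pow (Nat.succ_ne_zero n), zero_mul, Finset.sum_range_succ'] at h
      simpa [hev] using h
    intro i hi
    cases i with
    | zero => exact h0
    | succ i =>
      refine ih (fun j => a (j + 1)) ⟨g, ?_⟩ i (by omega)
      rw [Finset.sum_range_succ', h0, map_zero, zero_mul, add_zero] at hg
      refine mul_left_cancel₀ (discX_sub_ne_zero (r := r)) ?_
      rw [Finset.mul_sum]
      calc ∑ j ∈ range n, t * (algebraMap K _ (a (j + 1)) * t ^ j)
          = ∑ j ∈ range n, algebraMap K _ (a (j + 1)) * t ^ (j + 1) :=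
            Finset.sum_congr rfl fun j _ => by ring
        _ = t ^ (n + 1) * g := hg
        _ = t * (t ^ n * g) := by ring

lemma taylorCoeff_eq (hr : ‖r‖ < 1) {f : boundedPS K} {n : ℕ} {a : ℕ → K}
    (h : (discX - algebraMap K _ r) ^ n ∣
      f - ∑ i ∈ range n, algebraMap K _ (a i) * (discX - algebraMap K _ r) ^ i)
    {i : ℕ} (hi : i < n) : taylorCoeff r hr f i = a i := by
  have hd := dvd_sub h (⟨_, sub_taylor_eq hr n f⟩ :
    (discX - algebraMap K _ r) ^ n ∣ f - ∑ i ∈ range n,
      algebraMap K _ (taylorCoeff r hr f i) * (discX - algebraMap K _ r) ^ i)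
  rw [sub_sub_sub_cancel_left, ← Finset.sum_sub_distrib] at hd
  simp_rw [← sub_mul, ← map_sub] at hd
  exact sub_eq_zero.mp (coeff_eq_of_dvd_sum hr n _ hd i hi)

/-- The sum of a polynomial in `X - r` congruent to a bounded series. -/
lemma dvd_sub_sum_of (hr : ‖r‖ < 1) (n : ℕ) (f : boundedPS K) :
    (discX - algebraMap K _ r) ^ n ∣ f - ∑ i ∈ range n,
      algebraMap K _ (taylorCoeff r hr f i) * (discX - algebraMap K _ r) ^ i :=
  ⟨_, sub_taylor_eq hr n f⟩

/-- The Taylor expansion at a point of the disc. -/
def taylorDisc (r : K) (hr : ‖r‖ < 1) : boundedPS K →ₐ[K] PowerSeries K where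
  toFun f := PowerSeries.mk (taylorCoeff r hr f)
  map_one' := by
    ext n
    rw [coeff_mk, taylorCoeff_eq hr (n := n + 1) (a := fun i => if i = 0 then 1 else 0) ?_
      (Nat.lt_succ_self n), coeff_one]
    rw [Finset.sum_range_succ']
    simp
  map_mul' f g := by
    ext n
    rw [coeff_mk, PowerSeries.coeff_mul]
    simp only [coeff_mk]
    refine taylorCoeff_eq hr (n := n + 1) (a := fun m =>
      ∑ p ∈ Finset.HasAntidiagonal.antidiagonal m,
        taylorCoeff r hr f p.1 * taylorCoeff r hr g p.2) ?_
      (Nat.lt_succ_self n)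
    set t := discX - algebraMap K (boundedPS K) r
    set F := ∑ i ∈ range (n + 1), algebraMap K (boundedPS K) (taylorCoeff r hr f i) * t ^ i
    set G := ∑ i ∈ range (n + 1), algebraMap K (boundedPS K) (taylorCoeff r hr g i) * t ^ i
    have h1 : t ^ (n + 1) ∣ f * g - F * G := by
      rw [show f * g - F * G = (f - F) * g + F * (g - G) by ring]
      exact dvd_add ((dvd_sub_sum_of hr _ f).mul_right g) ((dvd_sub_sum_of hr _ g).mul_left F)
    have h2 : t ^ (n + 1) ∣ F * G - ∑ m ∈ range (n + 1),
        algebraMap K (boundedPS K) (∑ p ∈ Finset.HasAntidiagonal.antidiagonal m,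
          taylorCoeff r hr f p.1 * taylorCoeff r hr g p.2) * t ^ m := by
      let φ : Polynomial K →ₐ[K] boundedPS K := Polynomial.aeval t
      let trunc := fun (a : ℕ → K) => ∑ i ∈ range (n + 1), Polynomial.monomial i (a i)
      have hφ : ∀ a : ℕ → K, φ (trunc a) = ∑ i ∈ range (n + 1), algebraMap K _ (a i) * t ^ i :=
        fun a => by simp [φ, trunc, Polynomial.aeval_monomial]
      simp only [F, G, ← hφ]
      rw [← map_mul, ← map_sub,
        show t ^ (n + 1) = φ (Polynomial.X ^ (n + 1)) by simp [φ]]
      refine map_dvd φ (Polynomial.X_pow_dvd_iff.mpr fun d hd => ?_)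
      simp only [Polynomial.coeff_sub, Polynomial.coeff_mul, trunc, Polynomial.finsetSum_coeff,
        Polynomial.coeff_monomial, Finset.sum_ite_eq', Finset.mem_range, hd, if_true]
      rw [sub_eq_zero]
      refine Finset.sum_congr rfl fun p hp => ?_
      rw [Finset.HasAntidiagonal.mem_antidiagonal] at hp
      rw [if_pos (by omega), if_pos (by omega)]
    have := dvd_add h1 h2
    rwa [sub_add_sub_cancel] at this
  map_zero' := by
    ext n
    rw [coeff_mk, taylorCoeff_eq hr (n := n + 1) (a := fun _ => 0) ?_ (Nat.lt_succ_self n),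
      map_zero]
    simp
  map_add' f g := by
    ext n
    rw [map_add, coeff_mk, coeff_mk, coeff_mk]
    refine taylorCoeff_eq hr (n := n + 1)
      (a := fun i => taylorCoeff r hr f i + taylorCoeff r hr g i) ?_ (Nat.lt_succ_self n)
    simp only [map_add, add_mul, Finset.sum_add_distrib]
    rw [add_sub_add_comm]
    exact dvd_add (dvd_sub_sum_of hr _ f) (dvd_sub_sum_of hr _ g)
  commutes' c := by
    ext n
    rw [coeff_mk, taylorCoeff_eq hr (n := n + 1) (a := fun i => if i = 0 then c else 0) ?_
      (Nat.lt_succ_self n), show algebraMap K (PowerSeries K) c = PowerSeries.C c from rfl, coeff_C]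
    rw [Finset.sum_range_succ']
    simp

/-- The coefficients of the Taylor expansion. -/
lemma coeff_taylorDisc (hr : ‖r‖ < 1) (f : boundedPS K) (n : ℕ) :
    coeff n (taylorDisc r hr f) = taylorCoeff r hr f n :=
  coeff_mk n (taylorCoeff r hr f)

/-- The variable expands as `X + r`. -/
lemma taylorDisc_discX (hr : ‖r‖ < 1) :
    taylorDisc r hr discX = X + PowerSeries.C r := by
  ext n
  rw [coeff_taylorDisc, taylorCoeff_eq hr (n := n + 2)
    (a := fun i => if i = 0 then r else if i = 1 then 1 else 0) ?_ (by omega), map_add, coeff_X,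
    coeff_C]
  · by_cases h0 : n = 0
    · simp [h0]
    · by_cases h1 : n = 1 <;> simp [h0, h1]
  · rw [Finset.sum_range_succ', Finset.sum_range_succ']
    simp

/-- The identity principle. -/
lemma taylorDisc_injective (hr : ‖r‖ < 1) (hr0 : r ≠ 0) : Function.Injective (taylorDisc r hr) := by
  rw [injective_iff_map_eq_zero]
  classical
  intro f hf
  by_contra hne
  have hdvd : ∀ n, (discX - algebraMap K (boundedPS K) r) ^ n ∣ f := fun n => by
    have := dvd_sub_sum_of hr n f
    rwa [Finset.sum_eq_zero (fun i _ => by
      rw [← coeff_taylorDisc, hf, map_zero, map_zero, zero_mul]), sub_zero] at this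
  obtain ⟨m, hm, hmin⟩ : ∃ m, coeff m (f : PowerSeries K) ≠ 0 ∧
      ∀ i < m, coeff i (f : PowerSeries K) = 0 := by
    have hex : ∃ i, coeff i (f : PowerSeries K) ≠ 0 := by
      by_contra hall
      simp only [ne_eq, not_exists, not_not] at hall
      exact hne (Subtype.ext (PowerSeries.ext fun i => by simp [hall i]))
    exact ⟨Nat.find hex, Nat.find_spec hex, fun i hi => not_not.mp (Nat.find_min hex hi)⟩
  obtain ⟨C, hC⟩ := f.2
  -- a bounded quotient by `X - r` keeps the bound
  have hq : ∀ n, ∀ g : boundedPS K,
      f = (discX - algebraMap K (boundedPS K) r) ^ n * g →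
      ∀ i, ‖coeff i (g : PowerSeries K)‖ ≤ C := by
    intro n g hg
    have hiter : g = (discQuot r hr)^[n] f := by
      refine mul_left_cancel₀ (pow_ne_zero n (discX_sub_ne_zero (r := r))) ?_
      rw [← hg, ← sub_taylor_eq hr n f, Finset.sum_eq_zero (fun i _ => by
        rw [← coeff_taylorDisc, hf, map_zero, map_zero, zero_mul]), sub_zero]
    rw [hiter]
    clear hiter hg g
    induction n with
    | zero => exact hC
    | succ n ihn =>
      intro i
      rw [Function.iterate_succ_apply']
      simp only [discQuot, coeff_mk]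
      refine IsUltrametricDist.norm_tsum_le_of_forall_le_of_nonneg
        ((norm_nonneg _).trans (hC 0)) fun j => ?_
      rw [norm_mul, norm_pow]
      exact (mul_le_of_le_one_right (norm_nonneg _)
        (pow_le_one₀ (norm_nonneg _) hr.le)).trans (ihn _)
  have hval : ∀ n, ‖coeff m (f : PowerSeries K)‖ ≤ ‖r‖ ^ n * C := by
    intro n
    obtain ⟨g, hg⟩ := hdvd n
    have key : ∀ (n : ℕ) (g : PowerSeries K) (i : ℕ),
        (∀ j < i, coeff j ((X - PowerSeries.C r) ^ n * g) = 0) →
        ‖coeff i ((X - PowerSeries.C r) ^ n * g)‖ = ‖r‖ ^ n * ‖coeff i g‖ ∧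
          ∀ j < i, coeff j g = 0 := by
      intro n
      induction n with
      | zero => intro g i h; simpa using fun j hj => by simpa using h j hj
      | succ n ihn =>
        intro g i h
        rw [pow_succ, mul_assoc] at h ⊢
        obtain ⟨h1, h2⟩ := ihn ((X - PowerSeries.C r) * g) i h
        have hzero : ∀ j < i, coeff j g = 0 := by
          intro j
          induction j using Nat.strong_induction_on with
          | _ j ihj =>
            intro hj
            have := h2 j hj
            rw [sub_mul, map_sub, coeff_C_mul] at this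
            cases j with
            | zero =>
              rw [coeff_zero_X_mul, zero_sub, neg_eq_zero, mul_eq_zero] at this
              exact this.resolve_left hr0
            | succ j =>
              rw [coeff_succ_X_mul, ihj j (Nat.lt_succ_self j) (by omega), zero_sub, neg_eq_zero,
                mul_eq_zero] at this
              exact this.resolve_left hr0
        refine ⟨?_, hzero⟩
        rw [h1, sub_mul, map_sub, coeff_C_mul]
        cases i with
        | zero => simp [pow_succ, mul_assoc]
        | succ i =>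
          rw [coeff_succ_X_mul, hzero i (Nat.lt_succ_self i), zero_sub, norm_neg, norm_mul]
          ring
    have hval' : (f : PowerSeries K) = (X - PowerSeries.C r) ^ n * (g : PowerSeries K) :=
      congrArg Subtype.val hg
    rw [hval', (key n g m fun j hj => by rw [← hval']; exact hmin j hj).1]
    exact mul_le_mul_of_nonneg_left (hq n g hg m) (pow_nonneg (norm_nonneg r) n)
  have hlim : Filter.Tendsto (fun n => ‖r‖ ^ n * C) Filter.atTop (nhds 0) := by
    simpa using (tendsto_pow_atTop_nhds_zero_of_lt_one (norm_nonneg r) hr).mul_const C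
  exact hm (norm_eq_zero.mp (le_antisymm (ge_of_tendsto' hlim hval) (norm_nonneg _)))

end FermatAgent.Mazur

end
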