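import Fermat.Agent.Mazur.DiscBounded

/-!
# Taylor expansion of bounded Laurent series at a non-zero point of the unit disc
-/

set_option autoImplicit false

noncomputable section

namespace FermatAgent.Mazur

open HahnSeries

variable (K : Type*) [NormedField K] [IsUltrametricDist K]

omit [IsUltrametricDist K] in
/-- The constants as Laurent series. -/
lemma laurent_algebraMap_eq (c : K) :
    algebraMap K (LaurentSeries K) c = HahnSeries.ofPowerSeries ℤ K (PowerSeries.C c) := by
  rw [HahnSeries.algebraMap_apply', PowerSeries.algebraMap_apply]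
  rfl

/-- Laurent series with bounded coefficients. -/
def boundedLS : Subalgebra K (LaurentSeries K) where
  carrier := {f | ∃ M : ℕ, ∃ F ∈ boundedPS K,
    f * ofPowerSeries ℤ K (PowerSeries.X ^ M) = ofPowerSeries ℤ K F}
  zero_mem' := ⟨0, 0, zero_mem _, by simp⟩
  one_mem' := ⟨0, 1, one_mem _, by simp⟩
  add_mem' := by
    rintro f g ⟨M, F, hF, hf⟩ ⟨M', G, hG, hg⟩
    refine ⟨M + M', F * PowerSeries.X ^ M' + G * PowerSeries.X ^ M,
      add_mem (mul_mem hF (pow_mem X_mem_boundedPS M'))
        (mul_mem hG (pow_mem X_mem_boundedPS M)), ?_⟩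
    rw [map_add (ofPowerSeries ℤ K), map_mul (ofPowerSeries ℤ K), map_mul (ofPowerSeries ℤ K),
      ← hf, ← hg, _root_.pow_add, map_mul (ofPowerSeries ℤ K)]
    ring
  mul_mem' := by
    rintro f g ⟨M, F, hF, hf⟩ ⟨M', G, hG, hg⟩
    refine ⟨M + M', F * G, mul_mem hF hG, ?_⟩
    rw [map_mul (ofPowerSeries ℤ K), ← hf, ← hg, _root_.pow_add, map_mul (ofPowerSeries ℤ K)]
    ring
  algebraMap_mem' c := ⟨0, PowerSeries.C c, (boundedPS K).algebraMap_mem c, by
    rw [pow_zero, map_one, mul_one, laurent_algebraMap_eq]⟩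

variable {K}

omit [IsUltrametricDist K] in
/-- Multiplication by `X ^ M` shifts coefficients. -/
lemma coeff_mul_ofPowerSeries_X_pow (f : LaurentSeries K) (M : ℕ) (k : ℤ) :
    (f * ofPowerSeries ℤ K (PowerSeries.X ^ M)).coeff k = f.coeff (k - M) := by
  rw [map_pow, HahnSeries.ofPowerSeries_X, HahnSeries.single_pow, one_pow, mul_comm,
    HahnSeries.coeff_single_mul, one_mul]
  simp

omit [IsUltrametricDist K] in
/-- The coefficients of a power series as a Laurent series. -/
lemma coeff_ofPowerSeries_eq (F : PowerSeries K) (k : ℤ) :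
    (ofPowerSeries ℤ K F).coeff k = if 0 ≤ k then PowerSeries.coeff k.toNat F else 0 := by
  split_ifs with hk
  · lift k to ℕ using hk
    rw [HahnSeries.ofPowerSeries_apply_coeff, Int.toNat_natCast]
  · rw [HahnSeries.ofPowerSeries_apply]
    refine HahnSeries.embDomain_of_notMem_range ?_
    rintro ⟨m, rfl⟩
    exact hk (Int.natCast_nonneg m)

/-- A Laurent series is bounded iff its coefficients are. -/
lemma mem_boundedLS_iff {f : LaurentSeries K} :
    f ∈ boundedLS K ↔ ∃ C : ℝ, ∀ k, ‖f.coeff k‖ ≤ C := by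
  constructor
  · rintro ⟨M, F, ⟨C, hC⟩, hf⟩
    refine ⟨C, fun k => ?_⟩
    have h := congrArg (fun g : LaurentSeries K => g.coeff (k + M)) hf
    simp only [coeff_mul_ofPowerSeries_X_pow, add_sub_cancel_right, coeff_ofPowerSeries_eq] at h
    rw [h]
    split_ifs
    · exact hC _
    · rw [norm_zero]; exact (norm_nonneg _).trans (hC 0)
  · rintro ⟨C, hC⟩
    obtain ⟨M, hM⟩ : ∃ M : ℕ, ∀ k : ℤ, k < -(M : ℤ) → f.coeff k = 0 :=
      ⟨(-f.order).toNat, fun k hk => HahnSeries.coeff_eq_zero_of_lt_order (by omega)⟩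
    refine ⟨M, PowerSeries.mk fun n => f.coeff ((n : ℤ) - M), ⟨C, fun n => ?_⟩, ?_⟩
    · rw [PowerSeries.coeff_mk]; exact hC _
    · ext k
      rw [coeff_mul_ofPowerSeries_X_pow, coeff_ofPowerSeries_eq]
      split_ifs with hk
      · rw [PowerSeries.coeff_mk, Int.toNat_of_nonneg hk]
      · exact hM _ (by omega)

variable [CompleteSpace K] {r : K} (hr : ‖r‖ < 1) (hr0 : r ≠ 0)

lemma taylorDisc_X_ne_zero : taylorDisc r hr discX ≠ 0 := by
  rw [taylorDisc_discX]
  intro h
  have := congrArg (PowerSeries.coeff 1) h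
  simp at this

/-- The Taylor expansion of a bounded Laurent series, as a Laurent series in the new coordinate. -/
def taylorFun (f : boundedLS K) : LaurentSeries K :=
  ofPowerSeries ℤ K (taylorDisc r hr ⟨f.2.choose_spec.choose, f.2.choose_spec.choose_spec.1⟩) /
    ofPowerSeries ℤ K (taylorDisc r hr discX) ^ f.2.choose

lemma taylorFun_eq (f : boundedLS K) {M : ℕ} {F : boundedPS K}
    (h : (f : LaurentSeries K) * ofPowerSeries ℤ K (PowerSeries.X ^ M)
      = ofPowerSeries ℤ K (F : PowerSeries K)) :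
    taylorFun hr f = ofPowerSeries ℤ K (taylorDisc r hr F) /
      ofPowerSeries ℤ K (taylorDisc r hr discX) ^ M := by
  have hX : ofPowerSeries ℤ K (taylorDisc r hr discX) ≠ (0 : LaurentSeries K) := fun h =>
    taylorDisc_X_ne_zero hr
      (HahnSeries.ofPowerSeries_injective (h.trans (map_zero (ofPowerSeries ℤ K)).symm))
  set M₀ := f.2.choose
  set F₀ : boundedPS K := ⟨f.2.choose_spec.choose, f.2.choose_spec.choose_spec.1⟩
  have h₀ : (f : LaurentSeries K) * ofPowerSeries ℤ K (PowerSeries.X ^ M₀)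
      = ofPowerSeries ℤ K (F₀ : PowerSeries K) := f.2.choose_spec.choose_spec.2
  have heq : F₀ * discX ^ M = F * discX ^ M₀ := by
    refine Subtype.ext (HahnSeries.ofPowerSeries_injective (Γ := ℤ) ?_)
    change ofPowerSeries ℤ K ((F₀ : PowerSeries K) * PowerSeries.X ^ M)
      = ofPowerSeries ℤ K ((F : PowerSeries K) * PowerSeries.X ^ M₀)
    rw [map_mul, map_mul, ← h₀, ← h]
    ring
  rw [taylorFun, div_eq_div_iff (pow_ne_zero _ hX) (pow_ne_zero _ hX)]
  have := congrArg (fun G => ofPowerSeries ℤ K (taylorDisc r hr G)) heq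
  simp only [map_mul, map_pow] at this
  exact this

/-- The Taylor expansion at a non-zero point, as an algebra map. -/
def taylorLS : boundedLS K →ₐ[K] LaurentSeries K where
  toFun := taylorFun hr
  map_one' := by rw [taylorFun_eq hr 1 (M := 0) (F := 1) (by simp)]; simp
  map_zero' := by rw [taylorFun_eq hr 0 (M := 0) (F := 0) (by simp)]; simp
  map_mul' f g := by
    obtain ⟨M, F, hF, hf⟩ := f.2
    obtain ⟨M', G, hG, hg⟩ := g.2
    rw [taylorFun_eq hr f (F := ⟨F, hF⟩) hf, taylorFun_eq hr g (F := ⟨G, hG⟩) hg,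
      taylorFun_eq hr (f * g) (M := M + M') (F := ⟨F, hF⟩ * ⟨G, hG⟩) (by
        rw [MulMemClass.coe_mul, MulMemClass.coe_mul, map_mul (ofPowerSeries ℤ K), ← hf, ← hg,
          _root_.pow_add, map_mul (ofPowerSeries ℤ K)]
        ring),
      div_mul_div_comm, ← _root_.pow_add, map_mul (taylorDisc r hr), map_mul (ofPowerSeries ℤ K)]
  map_add' f g := by
    obtain ⟨M, F, hF, hf⟩ := f.2
    obtain ⟨M', G, hG, hg⟩ := g.2
    have hX : ofPowerSeries ℤ K (taylorDisc r hr discX) ≠ (0 : LaurentSeries K) := fun h =>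
      taylorDisc_X_ne_zero hr
        (HahnSeries.ofPowerSeries_injective (h.trans (map_zero (ofPowerSeries ℤ K)).symm))
    rw [taylorFun_eq hr f (F := ⟨F, hF⟩) hf, taylorFun_eq hr g (F := ⟨G, hG⟩) hg,
      taylorFun_eq hr (f + g) (M := M + M')
        (F := ⟨F, hF⟩ * discX ^ M' + ⟨G, hG⟩ * discX ^ M) (by
        change ((f : LaurentSeries K) + g) * ofPowerSeries ℤ K (PowerSeries.X ^ (M + M'))
          = ofPowerSeries ℤ K (F * PowerSeries.X ^ M' + G * PowerSeries.X ^ M)
        rw [map_add (ofPowerSeries ℤ K), map_mul (ofPowerSeries ℤ K),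
          map_mul (ofPowerSeries ℤ K), ← hf, ← hg, _root_.pow_add, map_mul (ofPowerSeries ℤ K)]
        ring),
      div_add_div _ _ (pow_ne_zero _ hX) (pow_ne_zero _ hX), ← _root_.pow_add]
    simp only [map_add, map_mul, map_pow]
    ring
  commutes' c := by
    rw [taylorFun_eq hr _ (M := 0) (F := algebraMap K _ c) (by
      rw [pow_zero, map_one, mul_one]
      exact laurent_algebraMap_eq K c), AlgHom.commutes, pow_zero, div_one,
      laurent_algebraMap_eq]
    rfl

/-- The Taylor expansion through a power series with cleared denominators. -/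
lemma taylorLS_eq (f : boundedLS K) {M : ℕ} {F : boundedPS K}
    (h : (f : LaurentSeries K) * ofPowerSeries ℤ K (PowerSeries.X ^ M)
      = ofPowerSeries ℤ K (F : PowerSeries K)) :
    taylorLS hr f = ofPowerSeries ℤ K (taylorDisc r hr F) /
      ofPowerSeries ℤ K (taylorDisc r hr discX) ^ M :=
  taylorFun_eq hr f h

include hr0 in
/-- The Taylor expansion is injective. -/
lemma taylorLS_injective : Function.Injective (taylorLS hr) := by
  rw [injective_iff_map_eq_zero]
  intro f hf
  obtain ⟨M, F, hF, h⟩ := f.2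
  rw [taylorLS_eq hr f (F := ⟨F, hF⟩) h, div_eq_zero_iff] at hf
  have hX : ofPowerSeries ℤ K (taylorDisc r hr discX) ≠ (0 : LaurentSeries K) := fun h =>
    taylorDisc_X_ne_zero hr
      (HahnSeries.ofPowerSeries_injective (h.trans (map_zero (ofPowerSeries ℤ K)).symm))
  have hF0 := taylorDisc_injective hr hr0
    ((HahnSeries.ofPowerSeries_injective ((hf.resolve_right (pow_ne_zero _ hX)).trans
      (map_zero (ofPowerSeries ℤ K)).symm)).trans (map_zero (taylorDisc r hr)).symm)
  rw [show F = 0 from congrArg Subtype.val hF0, map_zero, mul_eq_zero] at h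
  refine Subtype.ext (h.resolve_right fun h' => ?_)
  exact pow_ne_zero M PowerSeries.X_ne_zero
    (HahnSeries.ofPowerSeries_injective (h'.trans (map_zero (ofPowerSeries ℤ K)).symm))

lemma coeff_zero_taylorDisc_discX :
    PowerSeries.constantCoeff (taylorDisc r hr discX) = r := by
  rw [taylorDisc_discX]
  simp

include hr0 in
/-- Taylor expansions have no negative terms, as `r ≠ 0`. -/
lemma taylorLS_eq_ofPowerSeries (f : boundedLS K) :
    ∃ T : PowerSeries K, taylorLS hr f = ofPowerSeries ℤ K T := by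
  obtain ⟨M, F, hF, h⟩ := f.2
  refine ⟨taylorDisc r hr ⟨F, hF⟩ * ((taylorDisc r hr discX)⁻¹) ^ M, ?_⟩
  rw [taylorLS_eq hr f (F := ⟨F, hF⟩) h, map_mul, map_pow, div_eq_mul_inv, ← inv_pow]
  congr 2
  refine inv_eq_of_mul_eq_one_right ?_
  rw [← map_mul, PowerSeries.mul_inv_cancel _ (by
    rw [coeff_zero_taylorDisc_discX hr]; exact hr0), map_one]

/-- Evaluation of a bounded Laurent series at a non-zero point of the disc. -/
def evalLS : boundedLS K → K := fun f => (taylorLS hr f).coeff 0

include hr0 in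
/-- Evaluation is multiplicative. -/
lemma evalLS_mul (f g : boundedLS K) : evalLS hr (f * g) = evalLS hr f * evalLS hr g := by
  obtain ⟨S, hS⟩ := taylorLS_eq_ofPowerSeries hr hr0 f
  obtain ⟨T, hT⟩ := taylorLS_eq_ofPowerSeries hr hr0 g
  simp only [evalLS, map_mul, hS, hT]
  rw [← map_mul, coeff_ofPowerSeries_eq, coeff_ofPowerSeries_eq, coeff_ofPowerSeries_eq]
  simp [PowerSeries.coeff_zero_eq_constantCoeff]

include hr0 in
/-- Evaluation through a power series with cleared denominators. -/
lemma evalLS_eq (f : boundedLS K) {M : ℕ} {F : boundedPS K}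
    (h : (f : LaurentSeries K) * ofPowerSeries ℤ K (PowerSeries.X ^ M)
      = ofPowerSeries ℤ K (F : PowerSeries K)) :
    evalLS hr f = evalDisc r hr F / r ^ M := by
  have hT : taylorLS hr f = ofPowerSeries ℤ K
      (taylorDisc r hr F * ((taylorDisc r hr discX)⁻¹) ^ M) := by
    rw [taylorLS_eq hr f h, map_mul, map_pow, div_eq_mul_inv, ← inv_pow]
    congr 2
    refine inv_eq_of_mul_eq_one_right ?_
    rw [← map_mul, PowerSeries.mul_inv_cancel _ (by
      rw [coeff_zero_taylorDisc_discX hr]; exact hr0), map_one]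
  rw [evalLS, hT, coeff_ofPowerSeries_eq, if_pos le_rfl, Int.toNat_zero,
    PowerSeries.coeff_zero_eq_constantCoeff, map_mul, map_pow, PowerSeries.constantCoeff_inv,
    coeff_zero_taylorDisc_discX hr, ← PowerSeries.coeff_zero_eq_constantCoeff, coeff_taylorDisc,
    inv_pow, div_eq_mul_inv]
  rfl

end FermatAgent.Mazur

end
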