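import Fermat.Agent.Mazur.DiscEmb
import Fermat.Agent.Mazur.AtkinLehnerField
import Fermat.Agent.Curve.ModularGenus

/-!
# Places centred in the `q`-disc

A non-zero point `r` of the disc with `jDisc r` in the constant field gives a place, at which
`j(dτ)` takes the value `jDisc (r ^ d)` (`exists_value_jFld`).
-/

set_option autoImplicit false

noncomputable section

namespace FermatAgent.Mazur

attribute [-instance] IsScalarTower.of_algHom

open FermatAgent.Curve HahnSeries
open AlgebraicCurve (Place)

variable {L : Type*} [Field L] [CharZero L] [IsAlgClosed L] [Algebra L ℂ]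
  {K : Type*} [NormedField K] [IsUltrametricDist K] [CompleteSpace K] [Algebra L K]
  (N : ℕ) [NeZero N]

/-- `j(dτ)` in the field. -/
def jFld (L : Type*) [Field L] (d : JIdx N) : jField L N := toJField L N (MvPolynomial.X d)

variable {r : K} (hr : ‖r‖ < 1) (hr0 : r ≠ 0)

section

omit [CharZero L] [IsAlgClosed L] [Algebra L ℂ]

/-- `j` is the generator with index one. -/
lemma jElt_eq_jFld : jElt L N = jFld N L (JIdx.one N) := rfl

omit [NeZero N] [CompleteSpace K] in
lemma lsMap_jFld_mem (d : JIdx N) :
    lsMap (K := K) ((jFld N L d : jField L N) : LaurentSeries L) ∈ boundedLS K := by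
  rw [jFld, coe_toJField, ← coe_evB]
  exact Subtype.mem _

omit [NeZero N] in
/-- The embedding sends `j(dτ)` to its Taylor expansion. -/
lemma discEmb_jFld (d : JIdx N) :
    discEmb (L := L) N hr hr0 (jFld N L d) = taylorLS hr (jB (d : ℕ)) := by
  rw [jFld, discEmb_toJField, discPhi_apply, evB, MvPolynomial.eval₂Hom_X']

omit [NeZero N] in
lemma coeff_zero_discEmb_jFld (d : JIdx N) :
    (discEmb (L := L) N hr hr0 (jFld N L d)).coeff 0
      = jDisc (r ^ (d : ℕ)) (norm_pow_lt_one (d : ℕ) hr) := by
  rw [discEmb_jFld]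
  exact evalLS_jB hr hr0 _

end

omit [NeZero N] in
lemma taylorCoeff_one_jInv_ne_zero :
    PowerSeries.coeff 1 (taylorDisc r hr (intPS K jInvSeries)) ≠ 0 := by
  rw [coeff_taylorDisc, taylorCoeff, Function.iterate_one]
  have hC := norm_coeff_intPS_le (K := K) jInvSeries
  have h1 := norm_evalDisc_sub_le hr (norm_coeff_discQuot_le hr hC)
  have h0 : ‖PowerSeries.coeff 0 (discQuot r hr (intPS K jInvSeries) : PowerSeries K)
      - PowerSeries.coeff 1 (intPS K jInvSeries : PowerSeries K)‖ ≤ 1 * ‖r‖ := by
    rw [discQuot, PowerSeries.coeff_mk, (summable_shift hr _ (0 + 1)).tsum_eq_zero_add, pow_zero,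
      mul_one, add_sub_cancel_left]
    refine IsUltrametricDist.norm_tsum_le_of_forall_le_of_nonneg
      (by rw [one_mul]; exact norm_nonneg r) fun n => ?_
    rw [norm_mul, norm_pow, pow_succ, ← mul_assoc]
    exact mul_le_mul_of_nonneg_right
      ((mul_le_of_le_one_right (norm_nonneg _) (pow_le_one₀ (norm_nonneg _) hr.le)).trans (hC _))
      (norm_nonneg r)
  intro h
  have h2 := IsUltrametricDist.norm_add_le_max
    (evalDisc r hr (discQuot r hr (intPS K jInvSeries))
      - PowerSeries.coeff 0 (discQuot r hr (intPS K jInvSeries) : PowerSeries K))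
    (PowerSeries.coeff 0 (discQuot r hr (intPS K jInvSeries) : PowerSeries K)
      - PowerSeries.coeff 1 (intPS K jInvSeries : PowerSeries K))
  have h12 := h2.trans (max_le h1 h0)
  rw [sub_add_sub_cancel, h, zero_sub, norm_neg, intPS, PowerSeries.coeff_map,
    coeff_one_jInvSeries, map_one, norm_one, one_mul] at h12
  linarith

omit [NeZero N] in
include hr0 in
lemma taylor_jB_one (a : K) (ha : jDisc r hr = a) :
    (taylorLS hr (jB (K := K) 1) - algebraMap K (LaurentSeries K) a).order = 1 ∧
      taylorLS hr (jB (K := K) 1) - algebraMap K (LaurentSeries K) a ≠ 0 := by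
  set S := taylorDisc r hr (intPS K jInvSeries) with hS
  have hS0 : PowerSeries.constantCoeff S = a⁻¹ := by
    rw [hS, ← PowerSeries.coeff_zero_eq_constantCoeff, coeff_taylorDisc, taylorCoeff,
      Function.iterate_zero, id_eq, evalDisc_jInvSeries, ha]
  have ha0 : a ≠ 0 := fun h => by
    have h' := norm_jDisc (K := K) hr
    rw [ha, h, norm_zero, eq_comm, _root_.inv_eq_zero, norm_eq_zero] at h'
    exact hr0 h'
  have hW : HahnSeries.ofPowerSeries ℤ K (intPS K jInvSeries : PowerSeries K) ∈ boundedLS K :=
    ⟨0, _, (intPS K jInvSeries).2, by simp⟩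
  have hTW : taylorLS hr ⟨_, hW⟩ = HahnSeries.ofPowerSeries ℤ K S := by
    rw [taylorLS_eq hr ⟨_, hW⟩ (M := 0) (F := intPS K jInvSeries) (by simp), pow_zero, div_one]
  have hmul : jB (K := K) 1 * ⟨_, hW⟩ = 1 := by
    refine Subtype.ext ?_
    change ModularCurve.qExpand K 1 (ModularCurve.jqModC K)
      * HahnSeries.ofPowerSeries ℤ K (jInvSeries.map (Int.castRingHom K)) = 1
    rw [ModularCurve.qExpand_one_apply, ModularCurve.jqModC, mul_assoc, ← map_mul, ← map_mul,
      jInvSeries, mul_left_comm, PowerSeries.mul_invOfUnit _ _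
        (by rw [ModularCurve.constantCoeff_jNum]; rfl),
      mul_one, PowerSeries.map_X, HahnSeries.ofPowerSeries_X, HahnSeries.single_mul_single]
    simp
  have hT := congrArg (taylorLS hr) hmul
  rw [map_mul, map_one, hTW] at hT
  have hSne : HahnSeries.ofPowerSeries ℤ K S ≠ (0 : LaurentSeries K) := fun h => by
    rw [h, mul_zero] at hT
    exact zero_ne_one hT
  set E := S - PowerSeries.C a⁻¹ with hE
  have hE1 : PowerSeries.coeff 1 E ≠ 0 := by
    rw [hE, map_sub, PowerSeries.coeff_C, if_neg one_ne_zero, sub_zero]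
    exact taylorCoeff_one_jInv_ne_zero hr
  have hE0 : PowerSeries.coeff 0 E = 0 := by
    rw [hE, map_sub, PowerSeries.coeff_zero_eq_constantCoeff, hS0, PowerSeries.constantCoeff_C,
      sub_self]
  have hEne : HahnSeries.ofPowerSeries ℤ K E ≠ (0 : LaurentSeries K) := fun h => hE1 (by
    rw [HahnSeries.ofPowerSeries_injective (h.trans (map_zero (ofPowerSeries ℤ K)).symm), map_zero])
  have horder : (HahnSeries.ofPowerSeries ℤ K E).order = 1 := by
    refine le_antisymm (HahnSeries.order_le_of_coeff_ne_zero ?_)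
      ((HahnSeries.le_order_iff_forall hEne).2 fun k hk => ?_)
    · rw [coeff_ofPowerSeries_eq, if_pos zero_le_one]
      exact hE1
    · rw [coeff_ofPowerSeries_eq]
      split_ifs with hk0
      · rw [show k.toNat = 0 by omega, hE0]
      · rfl
  have hSorder : (HahnSeries.ofPowerSeries ℤ K S).order = 0 := by
    have hc : (HahnSeries.ofPowerSeries ℤ K S).coeff 0 ≠ 0 := by
      rw [coeff_ofPowerSeries_eq, if_pos le_rfl, Int.toNat_zero,
        PowerSeries.coeff_zero_eq_constantCoeff, hS0]
      exact inv_ne_zero ha0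
    refine le_antisymm (HahnSeries.order_le_of_coeff_ne_zero hc)
      ((HahnSeries.le_order_iff_forall hSne).2 fun k hk => ?_)
    rw [coeff_ofPowerSeries_eq, if_neg (by omega)]
  set T := taylorLS hr (jB (K := K) 1) - algebraMap K (LaurentSeries K) a
  have hprod : T * HahnSeries.ofPowerSeries ℤ K S
      = HahnSeries.ofPowerSeries ℤ K (PowerSeries.C (-a)) * HahnSeries.ofPowerSeries ℤ K E := by
    rw [sub_mul, hT, laurent_algebraMap_eq, hE, ← map_mul, ← map_mul, mul_sub, ← map_mul,
      map_neg, neg_mul, neg_mul, mul_inv_cancel₀ ha0, map_neg (PowerSeries.C (R := K)), map_one,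
      sub_neg_eq_add, map_add, map_neg, map_one]
    ring
  have hC : (HahnSeries.ofPowerSeries ℤ K (PowerSeries.C (-a))) ≠ 0
      ∧ (HahnSeries.ofPowerSeries ℤ K (PowerSeries.C (-a))).order = 0 := by
    rw [HahnSeries.ofPowerSeries_C, HahnSeries.C_apply]
    exact ⟨HahnSeries.single_ne_zero (neg_ne_zero.2 ha0),
      HahnSeries.order_single (neg_ne_zero.2 ha0)⟩
  have hTne : T ≠ 0 := fun h => by
    rw [h, zero_mul, eq_comm, mul_eq_zero] at hprod
    exact hprod.elim hC.1 hEne
  refine ⟨?_, hTne⟩
  have h := congrArg HahnSeries.order hprod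
  rw [HahnSeries.order_mul hTne hSne, HahnSeries.order_mul hC.1 hEne, hC.2, hSorder, horder,
    add_zero, zero_add] at h
  exact h

variable {N}

omit [CharZero L] [IsAlgClosed L] [Algebra L ℂ] in
include hr0 in
lemma order_discEmb_sub {a : L} (ha : algebraMap L K a = jDisc r hr) :
    (discEmb (L := L) N hr hr0 (jElt L N - algebraMap L (jField L N) a)).order = 1 := by
  rw [map_sub, jElt_eq_jFld, discEmb_jFld, AlgHom.commutes, laurent_algebraMap_tower]
  have h : jB (K := K) ((JIdx.one N : JIdx N) : ℕ) = jB 1 := rfl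
  rw [h]
  exact (taylor_jB_one hr hr0 _ ha.symm).1

/-- The place at `r`. -/
def discPlace {a : L} (ha : algebraMap L K a = jDisc r hr) : Place L (jField L N) :=
  centre (discEmb (L := L) N hr hr0) (x := jElt L N - algebraMap L (jField L N) a)
    (by rw [order_discEmb_sub hr hr0 ha]; exact one_pos)

variable {a : L} (ha : algebraMap L K a = jDisc r hr)

section

omit [IsAlgClosed L]

/-- The order at the place is the order of vanishing at `r`. -/
theorem ord_discPlace (f : jField L N) :
    (discPlace hr hr0 ha).ord f = (discEmb (L := L) N hr hr0 f).order := by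
  have hx : 0 < (discEmb (L := L) N hr hr0 (jElt L N - algebraMap L (jField L N) a)).order := by
    rw [order_discEmb_sub hr hr0 ha]; exact one_pos
  obtain ⟨t, -, ht⟩ := exists_ord_eq_one (v := discPlace (N := N) hr hr0 ha)
  have h1 := order_apply (discEmb (L := L) N hr hr0) hx ht (jElt L N - algebraMap L (jField L N) a)
  rw [order_discEmb_sub hr hr0 ha] at h1
  have h2 := order_uniformizer_pos (discEmb (L := L) N hr hr0) hx ht
  have h3 : (discEmb (L := L) N hr hr0 t).order = 1 := by
    rcases Int.eq_one_or_neg_one_of_mul_eq_one h1.symm with h | h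
    · exact h
    · omega
  rw [discPlace, order_apply (discEmb (L := L) N hr hr0) hx ht f, h3, one_mul]

/-- `j - a` is a uniformizer at the place at `r`. -/
lemma ord_discPlace_jElt_sub :
    (discPlace hr hr0 ha).ord (jElt L N - algebraMap L (jField L N) a) = 1 := by
  rw [ord_discPlace, order_discEmb_sub hr hr0 ha]

lemma mem_discPlace {f : jField L N} (hf : lsMap (K := K) (f : LaurentSeries L) ∈ boundedLS K) :
    f ∈ (discPlace hr hr0 ha).toValuationSubring :=
  (mem_centre (discEmb (L := L) N hr hr0) _).2 fun k hk => sge_discEmb N hr hr0 f hf k hk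

end

/-- Bounded functions take values in the constants at `r`. -/
theorem exists_value {f : jField L N} (hf : lsMap (K := K) (f : LaurentSeries L) ∈ boundedLS K) :
    ∃ c : L, algebraMap L K c = evalLS hr ⟨_, hf⟩ ∧
      OrdGE (discPlace hr hr0 ha) 1 (f - algebraMap L (jField L N) c) := by
  set v := discPlace (N := N) hr hr0 ha
  set c := evalAt v ⟨f, mem_discPlace hr hr0 ha hf⟩
  have hc : OrdGE v 1 (f - algebraMap L (jField L N) c) :=
    evalAt_spec v ⟨f, mem_discPlace hr hr0 ha hf⟩
  refine ⟨c, ?_, hc⟩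
  have hz : (discEmb (L := L) N hr hr0 (f - algebraMap L (jField L N) c)).coeff 0 = 0 := by
    rcases hc with h | h
    · simp [h]
    · rw [ord_discPlace] at h
      exact HahnSeries.coeff_eq_zero_of_lt_order (by omega)
  rw [map_sub, AlgHom.commutes, HahnSeries.coeff_sub, coeff_zero_discEmb N hr hr0 f hf,
    laurent_algebraMap_tower, ModularCurve.algebraMap_laurentSeries_eq_single,
    HahnSeries.coeff_single_same, sub_eq_zero] at hz
  exact hz.symm

/-- At the place at `r` the value of `j(dτ)` is that of the disc function at `r ^ d`. -/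
theorem exists_value_jFld (d : JIdx N) :
    ∃ c : L, algebraMap L K c = jDisc (r ^ (d : ℕ)) (norm_pow_lt_one (d : ℕ) hr) ∧
      OrdGE (discPlace hr hr0 ha) 1 (jFld N L d - algebraMap L (jField L N) c) := by
  obtain ⟨c, hc, hc'⟩ := exists_value hr hr0 ha (lsMap_jFld_mem (K := K) N d)
  refine ⟨c, ?_, hc'⟩
  rw [hc, ← coeff_zero_discEmb N hr hr0 (jFld N L d) (lsMap_jFld_mem (K := K) N d),
    coeff_zero_discEmb_jFld]

end FermatAgent.Mazur

end
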