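import Fermat.Agent.Mazur.Decomp
import Fermat.Prelude.Def_ModularCurve_X0ModL
import Fermat.Agent.Mazur.DiscPlace
import Fermat.Prelude.Def_ModularCurve_X0ModL

/-!
# Orders and values of decomposed functions at points of the disc

For a function with a decomposition `HasDec` as constant, power of `q`, one-unit series and finite
product of linear factors, the expansion at a point `r` of the punctured disc is the product of the
expansions of the factors (`discEmb_eq_of_hasDec`), so the order at `r` is the exponent of `r`,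
and if that is zero the value is the product (`discEmb_order_of_hasDec`). If the value of `j` at
`r` is not algebraic, all orders there vanish (`discEmb_order_eq_zero`). Decompositions are
transported by isometric endomorphisms (`HasDec.map`).
-/

set_option autoImplicit false

noncomputable section

open HahnSeries (ofPowerSeries)
open scoped Classical

namespace FermatAgent.Mazur

attribute [-instance] IsScalarTower.of_algHom

open FermatAgent.Curve (jField jElt toJField JPoly evL JIdx)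
open AlgebraicCurve (Place)

variable {ℓ : ℕ} [hℓ : Fact ℓ.Prime]

local notation "LS" => LaurentSeries ℂ_[ℓ]
local notation "PS" => PowerSeries ℂ_[ℓ]

variable {r : ℂ_[ℓ]} (hr : ‖r‖ < 1) (hr0 : r ≠ 0)

/-- Taylor expansion at `r` of a bounded power series, as a Laurent series. -/
def taylorPSL : boundedPS ℂ_[ℓ] →+* LS :=
  (ofPowerSeries ℤ ℂ_[ℓ]).comp (taylorDisc r hr).toRingHom

/-- A bounded power series as a bounded Laurent series. -/
def toBLS (F : boundedPS ℂ_[ℓ]) : boundedLS ℂ_[ℓ] :=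
  ⟨ofPowerSeries ℤ ℂ_[ℓ] (F : PS), 0, F, F.2, by simp⟩

lemma taylorLS_toBLS (F : boundedPS ℂ_[ℓ]) : taylorLS hr (toBLS F) = taylorPSL hr F := by
  rw [taylorLS_eq hr (toBLS F) (M := 0) (F := F) (by simp [toBLS]), pow_zero, div_one]
  rfl

lemma coeff_zero_taylorPSL (F : boundedPS ℂ_[ℓ]) :
    (taylorPSL hr F).coeff 0 = evalDisc r hr F := by
  show (ofPowerSeries ℤ ℂ_[ℓ] (taylorDisc r hr F)).coeff 0 = _
  rw [coeff_ofPowerSeries_eq, if_pos le_rfl, Int.toNat_zero, coeff_taylorDisc, taylorCoeff,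
    Function.iterate_zero, id_eq]

lemma order_taylorPSL_of_ne {F : boundedPS ℂ_[ℓ]} (h : evalDisc r hr F ≠ 0) :
    (taylorPSL hr F).order = 0 ∧ (taylorPSL hr F).leadingCoeff = evalDisc r hr F ∧
      taylorPSL hr F ≠ 0 := by
  rw [← coeff_zero_taylorPSL] at h
  have hne : taylorPSL hr F ≠ 0 := fun h0 => h (by rw [h0, HahnSeries.coeff_zero])
  have ho : (taylorPSL hr F).order = 0 := by
    refine le_antisymm (HahnSeries.order_le_of_coeff_ne_zero h)
      ((HahnSeries.le_order_iff_forall hne).2 fun k hk => ?_)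
    show (ofPowerSeries ℤ ℂ_[ℓ] (taylorDisc r hr F)).coeff k = 0
    rw [coeff_ofPowerSeries_eq, if_neg (by omega)]
  exact ⟨ho, by rw [HahnSeries.leadingCoeff_eq, ho, coeff_zero_taylorPSL], hne⟩

lemma order_taylorPSL_lin (ρ : ℂ_[ℓ]) :
    (taylorPSL hr (discX - algebraMap ℂ_[ℓ] _ ρ)).order = (if ρ = r then 1 else 0) ∧
      taylorPSL hr (discX - algebraMap ℂ_[ℓ] _ ρ) ≠ 0 := by
  by_cases h : ρ = r
  · subst h
    have he : taylorPSL hr (discX - algebraMap ℂ_[ℓ] _ ρ) = HahnSeries.single (1 : ℤ) 1 := by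
      show ofPowerSeries ℤ ℂ_[ℓ] (taylorDisc ρ hr (discX - algebraMap ℂ_[ℓ] _ ρ)) = _
      rw [map_sub, taylorDisc_discX, AlgHom.commutes, ← HahnSeries.ofPowerSeries_X (Γ := ℤ)]
      congr 1
      simp
    rw [he, if_pos rfl]
    exact ⟨HahnSeries.order_single one_ne_zero, HahnSeries.single_ne_zero one_ne_zero⟩
  · obtain ⟨h1, -, h2⟩ := order_taylorPSL_of_ne hr (F := discX - algebraMap ℂ_[ℓ] _ ρ)
      (by rw [evalDisc_linear]; exact sub_ne_zero.2 (Ne.symm h))
    exact ⟨by rw [h1, if_neg h], h2⟩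

/-! ### Products -/

/-- The order of a product of powers. -/
lemma order_prod_zpow {ι : Type*} (s : Finset ι) (F : ι → LS) (k : ι → ℤ)
    (h : ∀ i ∈ s, F i ≠ 0) :
    (∏ i ∈ s, F i ^ k i).order = ∑ i ∈ s, k i * (F i).order := by
  induction s using Finset.induction_on with
  | empty => simp
  | insert a s ha ih =>
    have h' : ∀ i ∈ s, F i ≠ 0 := fun i hi => h i (Finset.mem_insert_of_mem hi)
    have hprod : ∏ i ∈ s, F i ^ k i ≠ 0 :=
      Finset.prod_ne_zero_iff.2 fun i hi => zpow_ne_zero _ (h' i hi)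
    rw [Finset.prod_insert ha, Finset.sum_insert ha,
      HahnSeries.order_mul (zpow_ne_zero _ (h a (Finset.mem_insert_self a s))) hprod, ih h',
      Curve.order_zpow (h a (Finset.mem_insert_self a s))]

/-- The leading coefficient, as a hom. -/
def leadHom : LS →*₀ ℂ_[ℓ] where
  toFun F := F.leadingCoeff
  map_zero' := HahnSeries.leadingCoeff_zero
  map_one' := HahnSeries.leadingCoeff_one
  map_mul' _ _ := HahnSeries.leadingCoeff_mul _ _

/-! ### Decomposed functions -/

variable {L : Type*} [Field L] [CharZero L] [IsAlgClosed L] [Algebra L ℂ] [Algebra L ℂ_[ℓ]]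
  (N : ℕ) [NeZero N]

omit [CharZero L] [IsAlgClosed L] [Algebra L ℂ] [NeZero N] in
include hr0 in
/-- The expansion at `r` of a decomposed function. -/
theorem discEmb_eq_of_hasDec {f : jField L N} {c : ℂ_[ℓ]} {e : ℤ} {G : PS} {Z : ℂ_[ℓ] →₀ ℤ}
    (h : HasDec (lsMap (K := ℂ_[ℓ]) (f : LaurentSeries L)) c e G Z) :
    discEmb (L := L) N hr hr0 f = taylorPSL hr (algebraMap ℂ_[ℓ] _ c) * taylorPSL hr discX ^ e *
      taylorPSL hr (toBdd G h.unit.2) *
      ∏ ρ ∈ Z.support, taylorPSL hr (discX - algebraMap ℂ_[ℓ] _ ρ) ^ Z ρ := by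
  set a := e.toNat with ha
  set b := (-e).toNat with hb
  obtain ⟨P, Q, hf⟩ := Curve.exists_eq_div L N f
  have hf0 : f ≠ 0 := fun h0 => h.ne_zero (by rw [h0]; exact map_zero _)
  rw [hf] at hf0
  obtain ⟨hP, hQ⟩ := div_ne_zero_iff.1 hf0
  set num := algebraMap ℂ_[ℓ] (boundedPS ℂ_[ℓ]) c * discX ^ a * toBdd G h.unit.2 * posPart Z
  set den := discX ^ b * posPart (-Z)
  have hl : lsMap (K := ℂ_[ℓ]) (evL L N P) =
      decS c e G Z * lsMap (K := ℂ_[ℓ]) (evL L N Q) := by
    rw [← h.eq, hf, IntermediateField.coe_div, map_div₀, Curve.coe_toJField, Curve.coe_toJField,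
      div_mul_cancel₀]
    intro h0
    exact hQ (Subtype.ext (by
      rw [Curve.coe_toJField, (map_eq_zero _).1 h0]; rfl))
  have h1 : (HahnSeries.single (b : ℤ) (1 : ℂ_[ℓ]) : LS) * HahnSeries.single e c =
      HahnSeries.C c * HahnSeries.single (a : ℤ) 1 := by
    rw [HahnSeries.single_mul_single, HahnSeries.C_apply, HahnSeries.single_mul_single, one_mul,
      mul_one, zero_add, show (b : ℤ) + e = a by omega]
  have hid : evB (K := ℂ_[ℓ]) N P * toBLS den = evB (K := ℂ_[ℓ]) N Q * toBLS num := by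
    refine Subtype.ext ?_
    show (evB (K := ℂ_[ℓ]) N P : LS) * ofPowerSeries ℤ ℂ_[ℓ] (den : PS) =
      (evB (K := ℂ_[ℓ]) N Q : LS) * ofPowerSeries ℤ ℂ_[ℓ] (num : PS)
    rw [coe_evB, coe_evB, hl, decS,
      show (den : PS) = PowerSeries.X ^ b * (posPart (-Z) : PS) from rfl,
      show (num : PS) = PowerSeries.C c * PowerSeries.X ^ a * G * (posPart Z : PS) from rfl,
      map_mul, map_mul, map_mul, map_mul, HahnSeries.ofPowerSeries_X_pow,
        HahnSeries.ofPowerSeries_X_pow,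
      HahnSeries.ofPowerSeries_C, ← linProdS_mul_posPart_neg Z, ← h1]
    ring
  have hT := congrArg (taylorLS hr) hid
  rw [map_mul, map_mul, taylorLS_toBLS, taylorLS_toBLS] at hT
  have hX : taylorPSL hr discX ≠ 0 :=
    (order_taylorPSL_of_ne hr (by rw [evalDisc_X]; exact hr0)).2.2
  have hlin : ∀ ρ, taylorPSL hr (discX - algebraMap ℂ_[ℓ] _ ρ) ≠ 0 :=
    fun ρ => (order_taylorPSL_lin hr ρ).2
  have hden : taylorPSL hr den ≠ 0 := by
    simp only [den, map_mul, map_pow, posPart, map_prod]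
    exact mul_ne_zero (pow_ne_zero _ hX) (Finset.prod_ne_zero_iff.2 fun ρ _ =>
      pow_ne_zero _ (hlin ρ))
  have hQT : taylorLS hr (evB N Q) ≠ 0 := by
    rw [← discPhi_apply, Ne, discPhi_eq_zero_iff N hr hr0, ← Curve.coe_toJField]
    exact fun h0 => hQ (Subtype.ext h0)
  have hff : discEmb (L := L) N hr hr0 f = taylorPSL hr num / taylorPSL hr den := by
    rw [congrArg (discEmb (L := L) N hr hr0) hf, map_div₀, discEmb_toJField, discEmb_toJField,
      discPhi_apply, discPhi_apply]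
    exact (div_eq_div_iff hQT hden).2 (hT.trans (mul_comm _ _))
  rw [hff]
  simp only [num, den, map_mul, map_pow, posPart, map_prod, Finsupp.support_neg,
    Finsupp.neg_apply]
  rw [show ∏ ρ ∈ Z.support, taylorPSL hr (discX - algebraMap ℂ_[ℓ] _ ρ) ^ Z ρ =
      (∏ ρ ∈ Z.support, taylorPSL hr (discX - algebraMap ℂ_[ℓ] _ ρ) ^ (Z ρ).toNat) /
      ∏ ρ ∈ Z.support, taylorPSL hr (discX - algebraMap ℂ_[ℓ] _ ρ) ^ (-Z ρ).toNat by
    rw [← Finset.prod_div_distrib]
    refine Finset.prod_congr rfl fun ρ _ => ?_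
    rw [← zpow_natCast, ← zpow_natCast, ← zpow_sub₀ (hlin ρ)]
    congr 1
    omega]
  have hXe : taylorPSL hr discX ^ e = taylorPSL hr discX ^ a / taylorPSL hr discX ^ b := by
    rw [← zpow_natCast, ← zpow_natCast, ← zpow_sub₀ hX]
    congr 1
    omega
  rw [hXe, ← mul_div_assoc (taylorPSL hr (algebraMap ℂ_[ℓ] _ c)), div_mul_eq_mul_div,
    div_mul_div_comm]

omit [CharZero L] [IsAlgClosed L] [Algebra L ℂ] [NeZero N] in
include hr0 in
/-- The order at `r` is the exponent of `r`, and the value is the product. -/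
theorem discEmb_order_of_hasDec {f : jField L N} {c : ℂ_[ℓ]} {e : ℤ} {G : PS} {Z : ℂ_[ℓ] →₀ ℤ}
    (h : HasDec (lsMap (K := ℂ_[ℓ]) (f : LaurentSeries L)) c e G Z) :
    (discEmb (L := L) N hr hr0 f).order = Z r ∧
      (Z r = 0 → (discEmb (L := L) N hr hr0 f).coeff 0 =
        c * r ^ e * serVal hr G h.unit.2 * Z.prod fun ρ k => (r - ρ) ^ k) := by
  obtain ⟨hc1, hc2, hc3⟩ := order_taylorPSL_of_ne hr (F := algebraMap ℂ_[ℓ] _ c)
    (by rw [AlgHom.commutes]; simpa using h.ne)
  rw [AlgHom.commutes, Algebra.algebraMap_self, RingHom.id_apply] at hc2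
  obtain ⟨hx1, hx2, hx3⟩ := order_taylorPSL_of_ne hr (F := discX)
    (by rw [evalDisc_X]; exact hr0)
  rw [evalDisc_X] at hx2
  have hGv : evalDisc r hr (toBdd G h.unit.2) ≠ 0 := by
    intro h0
    have h4 := norm_serVal_sub_one_le hr h.unit
    rw [serVal, h0, zero_sub, norm_neg, norm_one] at h4
    linarith
  obtain ⟨hg1, hg2, hg3⟩ := order_taylorPSL_of_ne hr hGv
  have hlin : ∀ ρ ∈ Z.support, taylorPSL hr (discX - algebraMap ℂ_[ℓ] _ ρ) ≠ 0 :=
    fun ρ _ => (order_taylorPSL_lin hr ρ).2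
  have hprod : ∏ ρ ∈ Z.support, taylorPSL hr (discX - algebraMap ℂ_[ℓ] _ ρ) ^ Z ρ ≠ 0 :=
    Finset.prod_ne_zero_iff.2 fun ρ hρ => zpow_ne_zero _ (hlin ρ hρ)
  have hord : (discEmb (L := L) N hr hr0 f).order = Z r := by
    rw [discEmb_eq_of_hasDec hr hr0 N h,
      HahnSeries.order_mul (mul_ne_zero (mul_ne_zero hc3 (zpow_ne_zero _ hx3)) hg3) hprod,
      HahnSeries.order_mul (mul_ne_zero hc3 (zpow_ne_zero _ hx3)) hg3,
      HahnSeries.order_mul hc3 (zpow_ne_zero _ hx3), hc1, Curve.order_zpow hx3, hx1, hg1,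
      order_prod_zpow _ _ _ hlin,
      Finset.sum_congr rfl fun ρ _ => by rw [(order_taylorPSL_lin hr ρ).1]]
    simp
    exact fun h0 => h0.symm
  refine ⟨hord, fun hZ => ?_⟩
  have h1 : (discEmb (L := L) N hr hr0 f).coeff 0 = leadHom (discEmb (L := L) N hr hr0 f) := by
    show _ = HahnSeries.leadingCoeff _
    rw [HahnSeries.leadingCoeff_eq, hord, hZ]
  rw [h1, discEmb_eq_of_hasDec hr hr0 N h, map_mul, map_mul, map_mul, map_zpow₀, map_prod]
  show (taylorPSL hr _).leadingCoeff * (taylorPSL hr discX).leadingCoeff ^ e *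
    (taylorPSL hr _).leadingCoeff * _ = _
  rw [hc2, hx2, hg2, Finsupp.prod]
  congr 1
  refine Finset.prod_congr rfl fun ρ hρ => ?_
  have hne : ρ ≠ r := fun h0 => Finsupp.mem_support_iff.1 hρ (h0 ▸ hZ)
  rw [map_zpow₀]
  show (taylorPSL hr _).leadingCoeff ^ _ = _
  rw [(order_taylorPSL_of_ne hr (F := discX - algebraMap ℂ_[ℓ] _ ρ)
    (by rw [evalDisc_linear]; exact sub_ne_zero.2 (Ne.symm hne))).2.1, evalDisc_linear]

omit [CharZero L] in
include hr0 in
/-- Off the algebraic points all orders vanish. -/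
theorem discEmb_order_eq_zero (ha : ∀ a : L, algebraMap L ℂ_[ℓ] a ≠ jDisc r hr) (f : jField L N) :
    (discEmb (L := L) N hr hr0 f).order = 0 := by
  rcases eq_or_ne f 0 with rfl | hf
  · simp
  suffices key : ∀ P : JPoly L N, toJField L N P ≠ 0 →
      (discEmb (L := L) N hr hr0 (toJField L N P)).order = 0 by
    obtain ⟨P, Q, rfl⟩ := Curve.exists_eq_div L N f
    obtain ⟨hP, hQ⟩ := div_ne_zero_iff.1 hf
    rw [map_div₀, div_eq_mul_inv, HahnSeries.order_mul ((_root_.map_ne_zero _).2 hP)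
      (inv_ne_zero ((_root_.map_ne_zero _).2 hQ)), Curve.order_inv ((_root_.map_ne_zero _).2 hQ),
      key P hP, key Q hQ, neg_zero, add_zero]
  intro P hP
  obtain ⟨Ψ, hm, -, h0⟩ := Curve.exists_relation_base P
  obtain ⟨p, R, hp, hR⟩ := Curve.exists_mul_eq_aeval Curve.transcendental_jElt hP _ Ψ le_rfl
    hm.ne_zero h0
  set Rj : JPoly L N := R.eval₂ (Polynomial.aeval (MvPolynomial.X (JIdx.one N))).toRingHom P
  have h1 : toJField L N Rj = R.eval₂ (Polynomial.aeval (R := L) (jElt L N)).toRingHom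
      (toJField L N P) := by
    show (toJField L N).toRingHom (R.eval₂ _ P) = _
    rw [Polynomial.hom_eval₂]
    congr 1
    refine Polynomial.ringHom_ext (fun a => ?_) ?_ <;> simp [Curve.jElt]
  rw [← h1] at hR
  have hnn : ∀ P : JPoly L N, toJField L N P ≠ 0 →
      0 ≤ (discEmb (L := L) N hr hr0 (toJField L N P)).order := fun P hP => by
    refine (HahnSeries.le_order_iff_forall ((_root_.map_ne_zero _).2 hP)).2 fun k hk => ?_
    refine sge_discEmb (L := L) N hr hr0 _ ?_ k hk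
    rw [Curve.coe_toJField, ← coe_evB]
    exact Subtype.mem _
  have hev : (discEmb (L := L) N hr hr0 (Polynomial.aeval (jElt L N) p)).coeff 0 =
      p.eval₂ (algebraMap L ℂ_[ℓ]) (jDisc r hr) := by
    set PJ : JPoly L N := Polynomial.aeval (MvPolynomial.X (JIdx.one N)) p
    have hPJ : toJField L N PJ = Polynomial.aeval (jElt L N) p := by
      rw [← Polynomial.aeval_algHom_apply]; rfl
    have hmem : lsMap (K := ℂ_[ℓ]) ((toJField L N PJ : jField L N) : LaurentSeries L) ∈
        boundedLS ℂ_[ℓ] := by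
      rw [Curve.coe_toJField, ← coe_evB]
      exact Subtype.mem _
    rw [← hPJ, discEmb_toJField, discPhi_apply]
    show evalLS hr (evB N PJ) = _
    let φ : boundedLS ℂ_[ℓ] →+* ℂ_[ℓ] :=
      { toFun := evalLS hr
        map_one' := by simp [evalLS]
        map_mul' := evalLS_mul hr hr0
        map_zero' := by simp [evalLS]
        map_add' := fun F F' => by simp [evalLS] }
    show φ (evB N PJ) = _
    simp only [PJ, Polynomial.aeval_def, Polynomial.hom_eval₂]
    congr 1
    · refine RingHom.ext fun x => ?_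
      show evalLS hr (evB N (algebraMap L (JPoly L N) x)) = _
      rw [MvPolynomial.algebraMap_eq, evB, MvPolynomial.eval₂Hom_C, RingHom.comp_apply]
      simp [evalLS, HahnSeries.algebraMap_apply']
    · show evalLS hr (evB N (MvPolynomial.X (JIdx.one N))) = _
      rw [evB, MvPolynomial.eval₂Hom_X', evalLS_jB hr hr0]
      simp [JIdx.one]
  have hne : p.eval₂ (algebraMap L ℂ_[ℓ]) (jDisc r hr) ≠ 0 := by
    intro h0
    have hsp := (IsAlgClosed.splits p).roots_map (algebraMap L ℂ_[ℓ])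
    have hmem : jDisc r hr ∈ (p.map (algebraMap L ℂ_[ℓ])).roots := by
      rw [Polynomial.mem_roots (Polynomial.map_ne_zero hp), Polynomial.IsRoot.def,
        Polynomial.eval_map]
      exact h0
    rw [hsp, Multiset.mem_map] at hmem
    obtain ⟨x, -, hx⟩ := hmem
    exact ha x hx
  have hR0 : toJField L N Rj ≠ 0 := fun hz => hne (by
    rw [← hev, ← hR, hz, mul_zero, map_zero, HahnSeries.coeff_zero])
  have hsum : (discEmb (L := L) N hr hr0 (toJField L N P)).order +
      (discEmb (L := L) N hr hr0 (toJField L N Rj)).order ≤ 0 := by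
    rw [← HahnSeries.order_mul ((_root_.map_ne_zero _).2 hP) ((_root_.map_ne_zero _).2 hR0),
      ← map_mul, hR]
    exact HahnSeries.order_le_of_coeff_ne_zero (hev ▸ hne)
  have := hnn P hP
  have := hnn Rj hR0
  omega

/-! ### Isometric automorphisms -/

lemma lsMap_linS (σ : ℂ_[ℓ] →+* ℂ_[ℓ]) (ρ : ℂ_[ℓ]) :
    ModularCurve.coeffMap σ (linS ρ) = linS (σ ρ) := by
  simp only [linS, map_sub, HahnSeries.ofPowerSeries_X, HahnSeries.ofPowerSeries_C,
    HahnSeries.C_apply, ModularCurve.coeffMap_single, map_one]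

/-- An isometry preserves integral one-units. -/
lemma IsP1.map {G : PS} (hG : IsP1 G) {σ : ℂ_[ℓ] →+* ℂ_[ℓ]} (hσ : ∀ x, ‖σ x‖ = ‖x‖) :
    IsP1 (G.map σ) := by
  refine ⟨?_, fun m => ?_⟩
  · rw [← PowerSeries.coeff_zero_eq_constantCoeff_apply, PowerSeries.coeff_map,
      PowerSeries.coeff_zero_eq_constantCoeff_apply, hG.1, map_one]
  · rw [PowerSeries.coeff_map, hσ]
    exact hG.2 m

/-- Transport of a decomposition by an isometric endomorphism. -/
theorem HasDec.map {F : LS} {c : ℂ_[ℓ]} {e : ℤ} {G : PS} {Z : ℂ_[ℓ] →₀ ℤ} (h : HasDec F c e G Z)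
    {σ : ℂ_[ℓ] →+* ℂ_[ℓ]} (hσ : ∀ x, ‖σ x‖ = ‖x‖) :
    HasDec (ModularCurve.coeffMap σ F) (σ c) e (G.map σ) (Z.mapDomain σ) where
  eq := by
    rw [h.eq, decS, decS, map_mul, map_mul, ModularCurve.coeffMap_single,
      ModularCurve.coeffMap_ofPowerSeries]
    congr 1
    rw [linProdS, linProdS, Finsupp.prod_mapDomain_index_inj σ.injective, Finsupp.prod,
      map_prod, Finsupp.prod]
    exact Finset.prod_congr rfl fun ρ _ => by rw [map_zpow₀, lsMap_linS]
  ne := (_root_.map_ne_zero σ).2 h.ne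
  unit := h.unit.map hσ
  disc ρ hρ := by
    obtain ⟨ρ', hρ', rfl⟩ := Finset.mem_image.1 (Finsupp.mapDomain_support hρ)
    exact ⟨(_root_.map_ne_zero σ).2 (h.disc ρ' hρ').1, by rw [hσ]; exact (h.disc ρ' hρ').2⟩

end FermatAgent.Mazur

end
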