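import Fermat.Agent.Mazur.EdgeFourth
import Fermat.Agent.Flat.ModularCoords

/-!
# Coordinate systems of classes reducing to zero are connected
-/

set_option autoImplicit false

noncomputable section

open scoped Classical Pointwise
open AlgebraicCurve Module FermatAgent.Curve
open ModularCurve (coeffMap jqModC modularFunctionFieldBar modularFunctionFieldFull
  modularFunctionFieldFullC arithmeticGalois)
open FermatAgent.GaloisBasic

namespace FermatAgent.Mazur.Edge

attribute [-instance] IsScalarTower.of_algHom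

open FermatAgent.Flat

local notation "Qbar" => AlgebraicClosure ℚ

section Frame

variable {K : Type*} [Field K] {A : ValuationSubring K} {k : Type*} [Field k] {ρ : A →+* k}
  {F Fb : Type*} [Field F] [Algebra K F] [Field Fb] [Algebra k Fb] [IsFF K F] [IsFF k Fb]
  [IsAlgClosed K] [IsAlgClosed k] {S : ConstRed A ρ F Fb} {Θ : Coef S}
  {M : Type*} [AddCommGroup M]

/-- Coordinates at a class with trivial reduction are congruent to those at the origin. -/
theorem coords_congr (P : Frame Θ M) {x : M}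
    (hx : ∀ y ∈ ({x, 0} : Set M), ∃ D : Divisor.degZero (K := K) (F := F), Pic0.mk D = P.cls y ∧
      Divisor.IsPrincipal (Finsupp.mapDomain S.r (D : Divisor K F)))
    {φ : M → K} (hφ : φ ∈ P.coords) (hρ : ∀ a : A, ρ a = 0 → (a : K) ∈ A.nonunits) :
    φ x - φ 0 ∈ A.nonunits := by
  have hzero : ∀ y ∈ ({x, 0} : Set M),
      Divisor.IsPrincipal (Finsupp.mapDomain S.r (P.pt y - P.O)) := by
    intro y hy
    obtain ⟨D, hD, hprin⟩ := hx y hy
    obtain ⟨-, h0, he⟩ := P.isPt_pt y
    obtain ⟨g, hg, eg⟩ := isPrincipal_iff.1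
      (isPrincipal_mapDomain S (Jac.pic0_mk_eq_iff.1 (he.trans hD.symm)))
    obtain ⟨g', hg', eg'⟩ := isPrincipal_iff.1 hprin
    refine isPrincipal_iff.2 ⟨g * g', mul_ne_zero hg hg', ?_⟩
    rw [divisorOf_mul hg hg', ← eg, ← eg', ← Finsupp.mapDomain_add, sub_add_cancel]
  have hone : rrDim (Finsupp.mapDomain S.r (P.pt 0)) = 1 := by
    obtain ⟨-, h0, he⟩ := P.isPt_pt 0
    have := P.exactO 0 ⟨_, h0⟩ he
    simpa using this
  have hpt : Finsupp.mapDomain S.r (P.pt x) = Finsupp.mapDomain S.r (P.pt 0) := by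
    refine eq_of_isPrincipal_sub (Finsupp.mapDomain_nonneg (P.isPt_pt x).1)
      (Finsupp.mapDomain_nonneg (P.isPt_pt 0).1) hone ?_
    obtain ⟨g, hg, eg⟩ := isPrincipal_iff.1 (hzero x (Or.inl rfl))
    obtain ⟨g', hg', eg'⟩ := isPrincipal_iff.1 (hzero 0 (Or.inr rfl))
    refine isPrincipal_iff.2 ⟨g * g'⁻¹, mul_ne_zero hg (inv_ne_zero hg'), Finsupp.ext fun v => ?_⟩
    have e1 := DFunLike.congr_fun eg v
    have e2 := DFunLike.congr_fun eg' v
    simp only [Finsupp.mapDomain_sub, Finsupp.sub_apply, divisorOf_apply] at e1 e2 ⊢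
    rw [v.ord_mul hg (inv_ne_zero hg'), Place.ord_inv, ← e1, ← e2]
    ring
  obtain ⟨m, i, e, rfl⟩ := hφ
  have hfam : Finsupp.mapDomain S.r (P.fam m x) = Finsupp.mapDomain S.r (P.fam m 0) := by
    rw [Frame.fam, Frame.fam, Finsupp.mapDomain_sub, Finsupp.mapDomain_sub, hpt]
  have hred : S.red (P.nb m i x) = S.red (P.nb m i 0) := by
    have hz : S.red (P.nb m i x) ∈ riemannRochSpace (Finsupp.mapDomain S.r (P.fam m 0)) :=
      hfam ▸ S.red_mem (Frame.nb_mem m i x)
    rw [red_eq_sum_normalised (C := P.C m) Θ (Frame.low_fam m 0) (Frame.bij_fam m 0)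
      (fun j => Frame.nb_mem m j 0) (fun j j' => Frame.nb_delta m j j' 0) hz]
    have hd : ∀ j, (P.C m).appb Θ j (S.red (P.nb m i x)) = if j = i then 1 else 0 := fun j => by
      rw [← (P.C m).rho_appA Θ j ((Frame.low_fam m x).reg (Frame.nb_mem m i x)),
        show (P.C m).appA Θ j (P.nb m i x) = if j = i then 1 else 0 from Subtype.ext (by
        rw [(P.C m).coe_appA Θ j ((Frame.low_fam m x).reg (Frame.nb_mem m i x)), Frame.nb_delta]
        split_ifs <;> rfl)]
      split_ifs <;> simp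
    simp [hd]
  have hrx := (Frame.low_fam m x).reg (Frame.nb_mem m i x)
  have hr0 := (Frame.low_fam m 0).reg (Frame.nb_mem m i (0 : M))
  have := hρ (Θ.cfA e (P.nb m i x) - Θ.cfA e (P.nb m i 0)) (by
    rw [map_sub, Θ.rho_cfA e hrx, Θ.rho_cfA e hr0, hred, sub_self])
  rwa [AddSubgroupClass.coe_sub, Θ.coe_cfA e hrx, Θ.coe_cfA e hr0] at this

end Frame

theorem map_mem_nonunits {A : ValuationSubring Qbar} {σ : GQ} (hσ : σ ∈ A.decompositionSubgroup ℚ)
    {a : Qbar} (ha : a ∈ A.nonunits) : σ a ∈ A.nonunits := by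
  rw [ValuationSubring.mem_nonunits_iff] at ha ⊢
  by_contra hge
  push Not at hge
  rcases eq_or_ne a 0 with rfl | ha0
  · rw [map_zero, map_zero] at hge
    exact absurd hge (not_le.2 zero_lt_one)
  have h1 : (σ a)⁻¹ ∈ A := by
    rw [← A.valuation_le_one_iff, map_inv₀]
    exact inv_le_one_of_one_le₀ hge
  have h2 := Mazur.map_mem_of_mem_decomposition (inv_mem hσ) h1
  rw [← map_inv₀, show σ⁻¹ (σ a⁻¹) = a⁻¹ from σ.symm_apply_apply _, ← A.valuation_le_one_iff,
    map_inv₀, inv_le_one₀ (zero_lt_iff.2 ((Valuation.ne_zero_iff _).2 ha0))] at h2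
  exact absurd ha h2.not_gt

variable [Algebra Qbar ℂ_[2]] {N : ℕ} [NeZero N]

local notation "ιA" => (algebraMap (AlgebraicClosure ℚ) ℂ_[2] : AlgebraicClosure ℚ →+* ℂ_[2])
local notation "lsI" => lsMap (L := AlgebraicClosure ℚ) (K := ℂ_[2])

/-- **Connected coordinate systems**: a finite Galois submodule of `J₀(N)` whose classes come from
fourth powers at the cusp has a coordinate system congruent to the origin at every point. -/
theorem exists_isCoordSystem_conn {M : Type} [AddCommGroup M] [Finite M] [DistribMulAction GQ M]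
    [IsFF Qbar (modularFunctionFieldBar N)] (hN : ¬ 2 ∣ N) (cls : M →+ ModularCurve.JZero N)
    (hcls : Function.Injective cls) (hequiv : ∀ (σ : GQ) (x : M), cls (σ • x) = σ • cls x)
    (h4 : ∀ x : M, ∃ (D : Divisor.degZero (K := Qbar) (F := modularFunctionFieldBar N))
      (f : modularFunctionFieldBar N), Pic0.mk D = cls x ∧ f ≠ 0 ∧
        divisorOf f = 4 • (D : Divisor Qbar (modularFunctionFieldBar N)) ∧
        IsFourth (lsI (f : LaurentSeries Qbar))) :
    ∃ (L : IntermediateField ℚ Qbar) (Φ : Set (M → Qbar)),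
      FiniteDimensional ℚ L ∧ IsGalois ℚ L ∧ IsCoordSystem L (padVal ιA) Φ ∧
        ∀ φ ∈ Φ, ∀ x, φ x - φ 0 ∈ (padVal ιA).nonunits := by
  classical
  have : Fact (Nat.Prime 2) := ⟨Nat.prime_two⟩
  let : Algebra Qbar (modularFunctionFieldBar N) := SubalgebraClass.toAlgebra _
  set A := padVal ιA with hAdef
  have hA : A.LiesOverPrime 2 := padVal_liesOverPrime
  have := isAlgClosed_residueField A
  let : Algebra (IsLocalRing.ResidueField A)
      (modularFunctionFieldFullC (IsLocalRing.ResidueField A) N) := SubalgebraClass.toAlgebra _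
  have := Red.isFF_fullC hA (N := N) hN
  have : CharP (IsLocalRing.ResidueField A) 2 := (CharP.charP_iff_prime_eq_zero Nat.prime_two).2 (by
    rw [← map_natCast (IsLocalRing.residue A), IsLocalRing.residue_eq_zero_iff,
      ← ValuationSubring.coe_mem_nonunits_iff, mem_nonunits_padVal]
    show ‖ιA ((2 : ℕ) : Qbar)‖ < 1
    rw [map_natCast]
    exact norm_prime_cp_lt_one (ℓ := 2))
  obtain ⟨S, Θ, x, hx, hB, hBdeg, hser, hgen⟩ := exists_constRed_coef hA hN
    (modularFunctionFieldBar N) (modularFunctionFieldBar_eq_jField N)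
  have hprin : ∀ y : M, ∃ D : Divisor.degZero (K := Qbar) (F := modularFunctionFieldBar N),
      Pic0.mk D = cls y ∧ Divisor.IsPrincipal (Finsupp.mapDomain S.r
        (D : Divisor Qbar (modularFunctionFieldBar N))) := fun y => by
    obtain ⟨D, f, hD, hf, hdiv, hfour⟩ := h4 y
    refine ⟨D, hD, isPrincipal_red Θ hBdeg (x := x) ?_ ?_ hf hdiv (by rwa [hser])⟩
    · rw [hB]
      exact mem_riemannRochSpace.2 fun v => Or.inr (by rw [poleDivisor_apply]; omega)
    · refine ⟨jqModC A, ?_, ModularCurve.coeff_jqModC_neg_one _⟩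
      rw [hser, hx, ModularCurve.coeffMap_jqModC]
  obtain ⟨P, L, hPcls, hL, hG, hC⟩ :=
    exists_frame_isCoordSystem hA hser hx hB hBdeg hgen cls hcls hequiv
  refine ⟨L, _, hL, hG, hC, ?_⟩
  rintro _ ⟨d, hd, φ, hφ, rfl⟩ y
  rw [tw_apply, tw_apply, smul_zero, ← map_sub]
  exact map_mem_nonunits hd (coords_congr P (fun z _ => hPcls ▸ hprin z) hφ (fun a ha =>
    ValuationSubring.coe_mem_nonunits_iff.2 ((IsLocalRing.residue_eq_zero_iff a).1 ha)))

end FermatAgent.Mazur.Edge

end
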