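import Fermat.Agent.Mazur.EdgeFormsA
import Fermat.Agent.Period.Eisenstein.LevelOne

/-!
# An integral class with `δ ≡ σ'` modulo the maximal ideal at `2`

For a prime `N` with `16 ∣ N - 1` the sixteenth root of `Δ(τ)/Δ(Nτ)`, corrected by a form with a
multiplier of order four, has a multiplier of order two; the lift of that multiplier is a parabolic
homomorphism to `ℤ₂` whose `δ` has the coefficients of `σ'` modulo the maximal ideal.
-/

set_option autoImplicit false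

noncomputable section

open UpperHalfPlane hiding I
open Filter Topology
open scoped Classical MatrixGroups ModularForm Manifold
open CongruenceSubgroup (Gamma0)

namespace FermatAgent.Mazur.Edge

open FermatAgent.ES (HasExp IsTwist IsParChar zetaC divCoeff difSeries hasExp_one_twist
  goodLevel_Gamma0)
open ModularCurve ModularCurve.Period

local notation "Qbar" => AlgebraicClosure ℚ
local notation "psQ" => HahnSeries.ofPowerSeries ℤ (AlgebraicClosure ℚ)
local notation "Δ" => ModularForm.discriminant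

attribute [local instance] embAlg

variable {N : ℕ} [NeZero N]

/-! ### Forms of level one -/

/-- The series of `E₆`. -/
def eisSer6 : PowerSeries Qbar := FermatAgent.Period.Eis.e6Ser.map (Int.castRingHom Qbar)

lemma hasExp_E6 : HasExp 1 (ModularForm.E₆ : ℍ → ℂ) (psC eisSer6) := by
  have h : psC eisSer6 = UpperHalfPlane.qExpansion ((1 : ℕ) : ℝ) (ModularForm.E₆ : ℍ → ℂ) := by
    rw [Nat.cast_one]
    refine Eq.trans ?_ FermatAgent.Period.Eis.qS_e6.symm
    ext k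
    simp [eisSer6, PowerSeries.coeff_map]
  rw [h]
  refine HasExp.exists_of_bounded ?_ (ModularFormClass.holo _)
    (ModularFormClass.bdd_at_infty _)
  simpa using SlashInvariantFormClass.periodic_comp_ofComplex ModularForm.E₆
    (one_mem_strictPeriods_SL)

omit [NeZero N] in
lemma isTwist_E6 : IsTwist (Gamma0 N) ((2 * 3 : ℕ) : ℤ) 1 (ModularForm.E₆ : ℍ → ℂ) :=
  ⟨ModularFormClass.holo _, fun γ => by
    rw [show ((2 * 3 : ℕ) : ℤ) = 6 from rfl, FermatAgent.Curve.slash_E]; simp,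
    fun γ => by
      rw [show ((2 * 3 : ℕ) : ℤ) = 6 from rfl, FermatAgent.Curve.slash_E]
      exact ModularFormClass.bdd_at_infty _⟩

lemma constantCoeff_eisSer6 : PowerSeries.constantCoeff eisSer6 = 1 := by
  have h := FermatAgent.Period.Eis.coeff_zero_mono 0 1
  rw [pow_zero, one_mul, pow_one] at h
  rw [← PowerSeries.coeff_zero_eq_constantCoeff_apply, eisSer6, PowerSeries.coeff_map, h, map_one]

variable [hN : Fact N.Prime]

omit [NeZero N] in
lemma chi_apply_pow_four (D : QData N) (γ : Gamma0 N) : D.chi γ ^ 4 = 1 := by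
  rw [← MonoidHom.pow_apply, D.chi_pow_four, MonoidHom.one_apply]

/-! ### The multiplier of the sixteenth root -/

/-- The relation between the functions. -/
lemma exists_pow_relation (D : QData N) {φ : Gamma0 N →* ℂˣ} {S : LaurentSeries Qbar} {a : Qbar}
    (ha : a ≠ 0) (hS : IsMult N φ S)
    (hSn : S ^ 16 * (HahnSeries.single ((N : ℤ) - 1) 1 *
      psQ (PowerSeries.expand N hN.out.ne_zero etaQ)) = HahnSeries.single 0 a * psQ etaQ) :
    ∃ (i : ℕ) (v u : ℍ → ℂ) (κ : ℂ),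
      IsTwist (Gamma0 N) ((2 * i : ℕ) : ℤ) φ v ∧ v ≠ 0 ∧
      IsTwist (Gamma0 N) ((2 * i : ℕ) : ℤ) 1 u ∧ u ≠ 0 ∧ κ ≠ 0 ∧
      ∀ τ, (v τ * Δ τ ^ D.m) ^ 16 = κ * u τ ^ 16 * difProd N τ ^ 6 := by
  obtain ⟨i, v, u, c, d, hv, hv0, hu, hu0, hc, hd, he⟩ := hS
  have hNp := hN.out
  have h5 := D.five_le
  have hN0 : N ≠ 0 := hNp.ne_zero
  refine ⟨i, v, u, algebraMap Qbar ℂ a / ratioConst N, hv, hv0, hu, hu0,
    div_ne_zero ((map_ne_zero _).2 ha) (ratioConst_ne_zero hNp h5), ?_⟩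
  -- the identity of the series
  have hser : c ^ 16 * PowerSeries.expand N hN0 deltaSer =
      PowerSeries.C a * deltaSer * d ^ 16 := by
    refine HahnSeries.ofPowerSeries_injective (Γ := ℤ) ?_
    rw [deltaSer_eq, map_mul (PowerSeries.expand N hN0), PowerSeries.expand_X]
    simp only [map_mul, map_pow, HahnSeries.ofPowerSeries_C, HahnSeries.ofPowerSeries_X,
      HahnSeries.C_apply, ← he, HahnSeries.single_pow, one_pow, nsmul_eq_mul, mul_one]
    have h1 : (HahnSeries.single ((N : ℕ) : ℤ) (1 : Qbar) : LaurentSeries Qbar) =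
        HahnSeries.single ((N : ℤ) - 1) 1 * HahnSeries.single 1 1 := by
      rw [HahnSeries.single_mul_single, one_mul, sub_add_cancel]
    rw [h1]
    linear_combination (HahnSeries.single (1 : ℤ) (1 : Qbar) * psQ d ^ 16) * hSn
  have hdN : HasExp 1 (fun τ => Δ (mulPt N τ)) (psC (PowerSeries.expand N hN0 deltaSer)) := by
    rw [show psC (PowerSeries.expand N hN0 deltaSer) = PowerSeries.expand N hN0 (psC deltaSer)
      from PowerSeries.map_expand _ _ _ _]
    refine (FermatAgent.ES.hasExp_diag hN0 hasExp_discriminant).congr_fun fun τ => ?_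
    congr 1
    ext
    rw [coe_mulPt, ModularForm.coe_heckeDiagMatrix_smul hN0]
  have h1 : HasExp 1 (v ^ 16 * fun τ => Δ (mulPt N τ))
      (psC (c ^ 16 * PowerSeries.expand N hN0 deltaSer)) := by
    rw [map_mul, map_pow]; exact (hc.pow 16).mul hdN
  have h2 : HasExp 1 (((fun _ => algebraMap Qbar ℂ a) * Δ) * u ^ 16)
      (psC (PowerSeries.C a * deltaSer * d ^ 16)) := by
    rw [map_mul, map_mul, map_pow, PowerSeries.map_C]
    exact ((HasExp.const _).mul hasExp_discriminant).mul (hd.pow 16)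
  have hfun := h1.eq_of_series (hser ▸ h2)
  intro τ
  have e1 := congrFun hfun τ
  have e2 := difProd_pow_mul hNp h5 τ
  simp only [Pi.mul_apply, Pi.pow_apply] at e1
  have hΔ := ModularForm.discriminant_ne_zero τ
  have hK := ratioConst_ne_zero hNp h5
  refine mul_left_cancel₀ (mul_ne_zero hK hΔ) ?_
  rw [mul_pow, ← pow_mul, mul_comm D.m]
  rw [show Δ τ ^ N = Δ τ ^ (16 * D.m) * Δ τ by rw [← pow_succ, ← D.hm]] at e2
  field_simp
  refine mul_left_cancel₀ hΔ ?_
  linear_combination (difProd N τ ^ 6) * e1 - v τ ^ 16 * e2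

/-- `φ² = χ²`. -/
lemma sq_eq_chi_sq (D : QData N) {φ : Gamma0 N →* ℂˣ} {S : LaurentSeries Qbar} {a : Qbar}
    (ha : a ≠ 0) (hS : IsMult N φ S)
    (hSn : S ^ 16 * (HahnSeries.single ((N : ℤ) - 1) 1 *
      psQ (PowerSeries.expand N hN.out.ne_zero etaQ)) = HahnSeries.single 0 a * psQ etaQ) :
    φ ^ 2 = D.chi ^ 2 := by
  obtain ⟨i, v, u, κ, hv, hv0, hu, hu0, hκ, hrel⟩ := exists_pow_relation D ha hS hSn
  obtain ⟨c, hc, hP⟩ := D.pProd_pow_four
  set k : ℤ := ((2 * (2 * i + 12 * D.m) : ℕ) : ℤ) with hk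
  set f : ℍ → ℂ := (v * Δ ^ D.m) ^ 2 with hf
  set g : ℍ → ℂ := D.pProd 0 ^ 3 * u ^ 2 with hg
  have hft : IsTwist (Gamma0 N) k (φ ^ 2) f := by
    have h1 := (hv.mul (isTwist_discriminant.pow D.m)).pow 2
    rw [one_char_pow, mul_one φ] at h1
    convert h1 using 1
    rw [hk]; push_cast; ring
  have hgt : IsTwist (Gamma0 N) k (D.chi ^ 2) g := by
    have h1 := (D.isTwist_pProd.pow 3).mul (hu.pow 2)
    have e : (D.chi ^ 2) ^ 3 = D.chi ^ 2 := MonoidHom.ext fun γ => by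
      simp only [MonoidHom.pow_apply, ← pow_mul]
      rw [show 2 * 3 = 4 + 2 from rfl, pow_add, chi_apply_pow_four, one_mul]
    rw [one_char_pow, mul_one ((D.chi ^ 2) ^ 3), e] at h1
    convert h1 using 1
    rw [hk, QData.q]; push_cast; ring
  obtain ⟨b, hb⟩ := IsAlgClosed.exists_pow_nat_eq (κ / c ^ 6) (show 0 < 8 by norm_num)
  have hb0 : b ≠ 0 := by
    rintro rfl
    rw [zero_pow (by norm_num)] at hb
    exact div_ne_zero hκ (pow_ne_zero _ hc) hb.symm
  have hu2 : u ^ 2 ≠ 0 := by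
    rw [pow_two]
    exact FermatAgent.ES.mul_ne_zero_of_mdiff hu.mdiff hu.mdiff hu0 hu0
  have hg0 : g ≠ 0 := by
    obtain ⟨τ, hτ⟩ := Function.ne_iff.1 hu2
    exact fun h => mul_ne_zero (pow_ne_zero 3 (D.pProd_ne_zero 0 τ)) hτ (congrFun h τ)
  have hgb : IsTwist (Gamma0 N) k (D.chi ^ 2) (b • g) := hgt.smul b
  have hgb0 : b • g ≠ 0 := smul_ne_zero hb0 hg0
  have hpow : f ^ 8 = (b • g) ^ 8 := by
    funext τ
    simp only [hf, hg, Pi.pow_apply, Pi.mul_apply, Pi.smul_apply, smul_eq_mul, mul_pow b, hb]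
    rw [← pow_mul, hrel, mul_pow, ← pow_mul, ← pow_mul, show 3 * 8 = 4 * 6 from rfl,
      pow_mul (D.pProd 0 τ), hP, mul_pow]
    field_simp
    ring
  obtain ⟨ω, -, hω⟩ :=
    FermatAgent.ES.exists_eq_const_mul_of_pow_eq hft.mdiff hgb.mdiff (by norm_num) hgb0 hpow
  have hfe : f = (ω : ℂ) • b • g := funext hω
  exact hft.mult_unique (hfe ▸ hgb.smul (ω : ℂ)) (hfe ▸ smul_ne_zero ω.ne_zero hgb0)

/-! ### The form with the multiplier of order four -/

/-- The period-one coefficients of `vQuart`. -/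
def cQuart (D : QData N) (z : Qbar) : PowerSeries Qbar :=
  PowerSeries.mk fun n => ∑ u : (ZMod N)ˣ, (D.psi u : Qbar) *
    (divCoeff N z (uVec u) (N * n) - divCoeff N z (uVec (u * D.g)) (N * n))

lemma hasExp_cQuart (D : QData N) {z : Qbar} (hz : algebraMap Qbar ℂ z = zetaC N) :
    HasExp 1 D.vQuart (psC (cQuart D z)) := by
  have h1 := hasExp_one_twist (goodLevel_Gamma0 N).T_mem D.chi_isParChar D.isTwist_vQuart
  have h2 := h1.expand (NeZero.ne N)
  rw [mul_one] at h2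
  have h3 := h2.series_unique D.hasExp_vQuart
  convert h1 using 1
  refine PowerSeries.ext fun n => ?_
  have h4 := congrArg (PowerSeries.coeff (N * n)) h3
  rw [PowerSeries.coeff_expand_mul] at h4
  rw [h4, PowerSeries.coeff_map, cQuart, PowerSeries.coeff_mk, QData.vQuartSer, map_sum, map_sum]
  refine Finset.sum_congr rfl fun u _ => ?_
  rw [PowerSeries.coeff_C_mul, FermatAgent.ES.difSeries, PowerSeries.coeff_mk, map_mul, map_sub,
    FermatAgent.ES.map_divCoeff, FermatAgent.ES.map_divCoeff, hz, QData.coe_psiC]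

lemma isMult_quart (D : QData N) {z : Qbar} (hz : algebraMap Qbar ℂ z = zetaC N) :
    IsMult N (D.chi ^ 3) (psQ (cQuart D z ^ 3) / psQ eisSer6) := by
  have hv : IsTwist (Gamma0 N) ((2 * 3 : ℕ) : ℤ) (D.chi ^ 3) (D.vQuart ^ 3) := by
    have h := D.isTwist_vQuart.pow 3
    convert h using 1
    norm_num
  have hv0 : D.vQuart ^ 3 ≠ 0 := fun h => D.vQuart_ne_zero (funext fun τ =>
    pow_eq_zero_iff (n := 3) (by norm_num) |>.1 (congrFun h τ))
  have hE0 : (ModularForm.E₆ : ℍ → ℂ) ≠ 0 := fun h => by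
    have h1 := hasExp_E6
    rw [h] at h1
    have h2 := congrArg PowerSeries.constantCoeff (h1.series_unique HasExp.zero)
    rw [map_zero, ← PowerSeries.coeff_zero_eq_constantCoeff_apply, PowerSeries.coeff_map,
      PowerSeries.coeff_zero_eq_constantCoeff_apply, constantCoeff_eisSer6, map_one] at h2
    exact one_ne_zero h2
  refine ⟨3, _, _, cQuart D z ^ 3, eisSer6, hv, hv0, isTwist_E6, hE0, ?_, hasExp_E6,
    div_mul_cancel₀ _ (psQ_ne_zero_of_exp hasExp_E6 hE0)⟩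
  rw [map_pow]
  exact (hasExp_cQuart D hz).pow 3

/-! ### On the `2`-adic disc -/

section Padic

variable [Algebra Qbar ℂ_[2]]

local notation "lsI" => lsMap (L := AlgebraicClosure ℚ) (K := ℂ_[2])
local notation "LS" => LaurentSeries ℂ_[2]

omit [NeZero N] hN in
lemma lsI_psQ (F : PowerSeries Qbar) :
    lsI (psQ F) = HahnSeries.ofPowerSeries ℤ ℂ_[2] (F.map (algebraMap Qbar ℂ_[2])) :=
  ModularCurve.coeffMap_ofPowerSeries _ F

omit [Algebra Qbar ℂ_[2]] [NeZero N] hN in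
lemma norm_le_one_of_pow {x : ℂ_[2]} {n : ℕ} (hn : n ≠ 0) (h : x ^ n = 1) : ‖x‖ ≤ 1 := by
  have h1 := congrArg norm h
  rw [norm_pow, norm_one] at h1
  exact (pow_le_one_iff_of_nonneg (norm_nonneg _) hn).1 h1.le

lemma bounded_cQuart (D : QData N) {z : Qbar} (hz : IsPrimitiveRoot z N) :
    lsI (psQ (cQuart D z)) ∈ boundedLS ℂ_[2] := by
  set ι := algebraMap Qbar ℂ_[2]
  refine mem_boundedLS_iff.2 ⟨max 1 ‖ι (PowerSeries.coeff 0 (cQuart D z))‖, fun k => ?_⟩
  rw [lsI_psQ, coeff_ofPowerSeries_eq]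
  split_ifs with hk
  swap
  · rw [norm_zero]; exact le_max_of_le_left zero_le_one
  rcases eq_or_ne k.toNat 0 with h0 | h0
  · rw [h0, PowerSeries.coeff_map]; exact le_max_right _ _
  refine le_max_of_le_left ?_
  have hζ : ∀ j : ℕ, ‖ι z ^ j‖ ≤ 1 := fun j => by
    rw [norm_pow]
    refine pow_le_one₀ (norm_nonneg _) (norm_le_one_of_pow (NeZero.ne N) ?_)
    rw [← map_pow, hz.pow_eq_one, map_one]
  have hite : ∀ (P : Prop) [Decidable P] (j : ℕ),
      ‖(if P then ι z ^ j else 0)‖ ≤ 1 := fun P _ j => by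
    split_ifs
    · exact hζ j
    · simp
  have hdc : ∀ v, ‖ι (divCoeff N z v (N * k.toNat))‖ ≤ 1 := fun v => by
    rw [FermatAgent.ES.map_divCoeff, divCoeff, if_neg (mul_ne_zero (NeZero.ne N) h0)]
    refine IsUltrametricDist.norm_sum_le_of_forall_le_of_nonneg zero_le_one fun r _ => ?_
    rw [norm_mul]
    exact mul_le_one₀ (IsUltrametricDist.norm_natCast_le_one _ r) (norm_nonneg _)
      ((IsUltrametricDist.norm_add_le_max _ _).trans (max_le (hite _ _) (hite _ _)))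
  rw [PowerSeries.coeff_map, cQuart, PowerSeries.coeff_mk, map_sum]
  refine IsUltrametricDist.norm_sum_le_of_forall_le_of_nonneg zero_le_one fun u _ => ?_
  rw [map_mul, map_sub, norm_mul]
  refine mul_le_one₀ (norm_le_one_of_pow (n := 4) (by norm_num) ?_) (norm_nonneg _) ?_
  · rw [← map_pow, ← Units.val_pow_eq_pow_val, D.psi_pow_four, Units.val_one, map_one]
  · rw [sub_eq_add_neg]
    exact (IsUltrametricDist.norm_add_le_max _ _).trans
      (max_le (hdc _) (by rw [norm_neg]; exact hdc _))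

omit [NeZero N] hN in
lemma isP1_map_eisSer6 : IsP1 (eisSer6.map (algebraMap Qbar ℂ_[2])) := by
  refine ⟨?_, fun j => ?_⟩
  · rw [← PowerSeries.coeff_zero_eq_constantCoeff_apply, PowerSeries.coeff_map,
      PowerSeries.coeff_zero_eq_constantCoeff_apply, constantCoeff_eisSer6, map_one]
  · rw [PowerSeries.coeff_map, eisSer6, PowerSeries.coeff_map, eq_intCast, map_intCast]
    exact IsUltrametricDist.norm_intCast_le_one _ _

lemma isDec_quart (D : QData N) {z : Qbar} (hz : algebraMap Qbar ℂ z = zetaC N)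
    (hz' : IsPrimitiveRoot z N) : IsDec (lsI (psQ (cQuart D z ^ 3) / psQ eisSer6)) := by
  have hT := isMult_quart D hz
  have hE : IsDec (lsI (psQ eisSer6)) := by
    rw [lsI_psQ]; exact IsDec.ofP1 isP1_map_eisSer6
  have h4 : (D.chi ^ 3) ^ 4 = 1 := by
    refine MonoidHom.ext fun γ => ?_
    rw [MonoidHom.pow_apply, MonoidHom.pow_apply, ← pow_mul, show 3 * 4 = 4 * 3 from rfl, pow_mul,
      chi_apply_pow_four, one_pow, MonoidHom.one_apply]
  have hA4 : IsDec (lsI (psQ (cQuart D z ^ 3)) ^ 4) := by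
    have hne : lsI (psQ eisSer6) ≠ 0 := by
      obtain ⟨c, e, G, Z, hd⟩ := hE
      exact hd.ne_zero
    rw [← div_mul_cancel₀ (lsI (psQ (cQuart D z ^ 3))) hne, ← map_div₀, mul_pow]
    exact (isDec_lsI_pow hT h4).mul (hE.pow 4)
  have hb : lsI (psQ (cQuart D z ^ 3)) ∈ boundedLS ℂ_[2] := by
    rw [map_pow, map_pow]; exact pow_mem (bounded_cQuart D hz') 3
  rw [map_div₀, div_eq_mul_inv]
  exact (isDec_of_mul_mem hb (pow_mem hb 3) hA4 (by rw [← pow_succ'])).mul hE.inv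

omit [Algebra Qbar ℂ_[2]] [NeZero N] hN in
/-- An eighth root of a power differs from the base by a constant. -/
lemma exists_eq_C_mul_of_pow_eq {X Y : LS} (hY : Y ≠ 0) (h : X ^ 8 = Y ^ 8) :
    ∃ ω : ℂ_[2], ω ≠ 0 ∧ X = HahnSeries.C ω * Y := by
  obtain ⟨ζ, hζ⟩ := IsAlgClosed.exists_root (Polynomial.cyclotomic 8 ℂ_[2])
    (Polynomial.degree_cyclotomic_pos 8 ℂ_[2] (by norm_num)).ne'
  have hζ' : IsPrimitiveRoot ζ 8 := Polynomial.isRoot_cyclotomic_iff.1 hζ
  have hC : IsPrimitiveRoot (HahnSeries.C ζ : LS) 8 :=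
    hζ'.map_of_injective (f := (HahnSeries.C : ℂ_[2] →+* LS))
      (HahnSeries.C : ℂ_[2] →+* LS).injective
  obtain ⟨i, -, hi⟩ := hC.eq_pow_of_pow_eq_one (ξ := X / Y)
    (by rw [div_pow, h, div_self (pow_ne_zero _ hY)])
  exact ⟨ζ ^ i, pow_ne_zero _ (hζ'.ne_zero (by norm_num)),
    by rw [map_pow, hi, div_mul_cancel₀ _ hY]⟩

/-- The unit part of `Δ(τ)^{1/24}` over `ℂ₂`. -/
def etaHalf : PowerSeries ℂ_[2] := etaProd.map (Int.castRingHom ℂ_[2])

omit [Algebra Qbar ℂ_[2]] [NeZero N] hN in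
lemma isP1_etaHalf : IsP1 etaHalf := by
  refine ⟨?_, fun i => ?_⟩
  · rw [← PowerSeries.coeff_zero_eq_constantCoeff_apply, etaHalf, PowerSeries.coeff_map,
      PowerSeries.coeff_zero_eq_constantCoeff_apply, constantCoeff_etaProd, map_one]
  · rw [etaHalf, PowerSeries.coeff_map, eq_intCast]; exact IsUltrametricDist.norm_intCast_le_one _ _

/-- `u = A / A(q^N)`. -/
def uUnit (N : ℕ) [Fact N.Prime] : PowerSeries ℂ_[2] :=
  etaHalf * (PowerSeries.expand N (Fact.out : N.Prime).ne_zero etaHalf)⁻¹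

section

omit [NeZero N] [Algebra Qbar ℂ_[2]]

lemma isP1_uUnit : IsP1 (uUnit N) :=
  isP1_etaHalf.mul (isP1_etaHalf.expand _).inv

lemma uUnit_pow : uUnit N ^ 24 =
    etaCp 2 * (PowerSeries.expand N hN.out.ne_zero (etaCp 2))⁻¹ := by
  have he : etaCp 2 = etaHalf ^ 24 := map_pow _ _ _
  rw [uUnit, mul_pow, ← (isP1_etaHalf.expand _).pow_inv, ← map_pow, he]

lemma coeff_dlog_uUnit (j : ℕ) :
    PowerSeries.coeff j (dlog (uUnit N)) = -(Period.Eis.sigP N j : ℂ_[2]) := by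
  have h := coeff_dlog_eisUnit (ℓ := 2) hN.out j
  rw [← uUnit_pow, dlog_pow isP1_uUnit, map_nsmul, nsmul_eq_mul] at h
  refine mul_left_cancel₀ (show (24 : ℂ_[2]) ≠ 0 by norm_num) ?_
  rw [Nat.cast_ofNat] at h
  rw [h]; ring

end

omit [NeZero N] in
lemma hasDec_root (D : QData N) {S : LaurentSeries Qbar} {a : Qbar} (ha : a ≠ 0)
    (hSn : S ^ 16 * (HahnSeries.single ((N : ℤ) - 1) 1 *
      psQ (PowerSeries.expand N hN.out.ne_zero etaQ)) = HahnSeries.single 0 a * psQ etaQ) :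
    ∃ c, HasDec (lsI S ^ 2) c (-(2 * D.m : ℤ)) (uUnit N ^ 3) 0 := by
  have hE := isP1_etaCp (ℓ := 2)
  have hmap : ∀ F : PowerSeries Qbar, lsI (psQ F) =
      HahnSeries.ofPowerSeries ℤ ℂ_[2] (F.map (algebraMap Qbar ℂ_[2])) := lsI_psQ
  have heta : etaQ.map (algebraMap Qbar ℂ_[2]) = etaCp 2 := by
    ext i
    simp [etaQ, etaCp, PowerSeries.coeff_map]
  set a' := algebraMap Qbar ℂ_[2] a
  set X := lsI S ^ 2
  have h1 := congrArg (lsMap (L := Qbar) (K := ℂ_[2])) hSn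
  simp only [map_mul, map_pow, hmap, PowerSeries.map_expand, heta] at h1
  simp only [lsMap, coeffMap_single, map_one] at h1
  have h2 : HahnSeries.ofPowerSeries ℤ ℂ_[2] (PowerSeries.expand N hN.out.ne_zero (etaCp 2)) *
      HahnSeries.ofPowerSeries ℤ ℂ_[2] (PowerSeries.expand N hN.out.ne_zero (etaCp 2))⁻¹ = 1 := by
    rw [← map_mul, (hE.expand _).mul_inv, map_one]
  have h3 : (HahnSeries.single ((N : ℤ) - 1) (1 : ℂ_[2]) : LS) *
      HahnSeries.single (1 - (N : ℤ)) 1 = 1 := by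
    rw [HahnSeries.single_mul_single, one_mul, show (N : ℤ) - 1 + (1 - N) = 0 by ring]
    rfl
  have h4 : (HahnSeries.single 0 a' : LS) * HahnSeries.single (1 - (N : ℤ)) 1 =
      HahnSeries.single (1 - (N : ℤ)) a' := by
    rw [HahnSeries.single_mul_single, zero_add, mul_one]
  have hX : X ^ 8 = decS a' (1 - (N : ℤ)) (uUnit N ^ 24) 0 := by
    rw [decS, linProdS_zero, mul_one, uUnit_pow, map_mul, ← h4, ← pow_mul]
    simp only [lsMap]
    set B := coeffMap (algebraMap Qbar ℂ_[2]) S ^ (2 * 8)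
    linear_combination (HahnSeries.single (1 - (N : ℤ)) (1 : ℂ_[2]) *
        HahnSeries.ofPowerSeries ℤ ℂ_[2] (PowerSeries.expand N hN.out.ne_zero (etaCp 2))⁻¹) * h1 -
      B * (HahnSeries.ofPowerSeries ℤ ℂ_[2] (PowerSeries.expand N hN.out.ne_zero (etaCp 2)) *
        HahnSeries.ofPowerSeries ℤ ℂ_[2] (PowerSeries.expand N hN.out.ne_zero (etaCp 2))⁻¹) * h3 -
      B * h2
  obtain ⟨b, hb⟩ := IsAlgClosed.exists_pow_nat_eq a' (show 0 < 8 by norm_num)
  have hb0 : b ≠ 0 := by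
    rintro rfl
    rw [zero_pow (by norm_num)] at hb
    exact ((map_ne_zero _).2 ha) hb.symm
  set Y := decS b (-(2 * D.m : ℤ)) (uUnit N ^ 3) 0
  have hY : HasDec Y b (-(2 * D.m : ℤ)) (uUnit N ^ 3) 0 :=
    ⟨rfl, hb0, isP1_uUnit.pow 3, by simp⟩
  have hY8 := (hY.pow 8).eq
  rw [hb, smul_zero, ← pow_mul, show ((8 : ℕ) : ℤ) * -(2 * D.m : ℤ) = 1 - (N : ℤ) by
    have e : (N : ℤ) = 16 * D.m + 1 := by exact_mod_cast D.hm
    rw [e]; push_cast; ring] at hY8
  obtain ⟨ω, hω, hXY⟩ := exists_eq_C_mul_of_pow_eq hY.ne_zero (hX.trans hY8.symm)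
  refine ⟨ω * b, ?_⟩
  rw [hXY]
  simpa using (HasDec.const hω).mul hY

/-! ### The class -/

omit hN in
/-- **An integral class congruent to `σ'` modulo the maximal ideal at `2`.** -/
theorem exists_half_class (hNp : N.Prime) (h16 : 16 ∣ N - 1) :
    ∃ z : parabolicHoms ℤ_[2] (Gamma0 N) ℤ_[2],
      ∀ j, ‖PowerSeries.coeff j (delt z) - (Period.Eis.sigP N j : ℂ_[2])‖ < 1 := by
  have : Fact N.Prime := ⟨hNp⟩
  obtain ⟨D⟩ := exists_qData (N := N) h16
  obtain ⟨φ, S, a, ha, hS, hSn, hell⟩ := exists_eis_series hNp D.five_le (n := 16) (m := D.m)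
    (by norm_num) (by have := D.hm; omega)
  obtain ⟨ζ, hζ, hζ'⟩ := exists_qbar_zeta N
  set T := psQ (cQuart D ζ ^ 3) / psQ eisSer6
  have hT : IsMult N (D.chi ^ 3) T := isMult_quart D hζ
  set et : Gamma0 N →* ℂˣ := (φ : Gamma0 N →* ℂˣ) * D.chi ^ 3
  have het : et ^ 2 ^ 1 = 1 := MonoidHom.ext fun γ => by
    have h2 := DFunLike.congr_fun (sq_eq_chi_sq D ha hS hSn) γ
    simp only [MonoidHom.pow_apply] at h2
    rw [pow_one, MonoidHom.pow_apply, MonoidHom.mul_apply, mul_pow, MonoidHom.pow_apply, h2,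
      ← pow_mul, ← pow_add, show 2 + 3 * 2 = 4 * 2 from rfl, pow_mul, chi_apply_pow_four, one_pow,
      MonoidHom.one_apply]
  obtain ⟨z, hz⟩ := exists_lift hNp (ℓ := 2) 1 het (fun γ hγ => by
      rw [MonoidHom.mul_apply, φ.2.2 γ hγ, MonoidHom.pow_apply, D.chi_isParChar γ hγ, one_pow,
        one_mul])
    (fun γ τ₀ hfix => by
      rw [MonoidHom.mul_apply, hell γ τ₀ hfix, MonoidHom.pow_apply,
        D.chi_eq_one (trace_sq_le_four_of_fixed hfix), one_pow, one_mul])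
  refine ⟨z, fun j => ?_⟩
  have hST : IsMult N et (S * T) := hS.mul hT
  rw [← hz] at hST
  have hcong := pcong_gInf_of_isMult hST
  obtain ⟨c, hdS⟩ := hasDec_root D ha hSn
  have hdT : IsDec (lsI T) := isDec_quart D hζ hζ'
  rw [pow_one, map_mul, mul_pow, decG_mul ⟨_, _, _, _, hdS⟩ (hdT.pow 2), decG_eq hdS,
    decG_pow hdT] at hcong
  have h := norm_coeff_dlog_sub_le hcong (isP1_gInf z) j
  have hH := isP1_decG (lsI T)
  rw [dlog_mul (isP1_uUnit.pow 3) (hH.pow 2), dlog_pow isP1_uUnit, dlog_pow hH, map_add,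
    map_nsmul, map_nsmul, nsmul_eq_mul, nsmul_eq_mul, coeff_dlog_uUnit, Nat.cast_ofNat,
    Nat.cast_ofNat, ← delt] at h
  set d := PowerSeries.coeff j (delt z)
  set w := PowerSeries.coeff j (dlog (decG (lsI T))) with hw
  set s : ℂ_[2] := (Period.Eis.sigP N j : ℂ_[2]) with hs
  have hw1 : ‖w‖ ≤ 1 := bdBy_dlog hH j
  have hs1 : ‖s‖ ≤ 1 := IsUltrametricDist.norm_natCast_le_one _ _
  have h2 : ‖(2 : ℂ_[2])‖ < 1 := by
    have := norm_prime_cp_lt_one (ℓ := 2)
    rwa [Nat.cast_ofNat] at this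
  rw [show d - s = -((3 * -s + 2 * w) - d) + 2 * (w - (s + s)) by ring]
  refine lt_of_le_of_lt ((IsUltrametricDist.norm_add_le_max _ _).trans (max_le ?_ ?_)) h2
  · rw [norm_neg]; exact h
  · rw [norm_mul]
    refine mul_le_of_le_one_right (norm_nonneg _) ?_
    rw [sub_eq_add_neg]
    refine (IsUltrametricDist.norm_add_le_max _ _).trans (max_le hw1 ?_)
    rw [norm_neg]
    exact (IsUltrametricDist.norm_add_le_max _ _).trans (max_le hs1 hs1)

end Padic

end FermatAgent.Mazur.Edge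

end
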