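import Fermat.Agent.Mazur.EdgeEnd
import Fermat.Agent.Mazur.EdgeForms
import Fermat.Agent.Mazur.CuspAt

/-!
# No rational point at the edge of the cusp

For a prime `N ≡ 1 mod 16` there is an integral parabolic class congruent to `σ'` at `2`. It rules
out a rational point of `X₀(N)` lying at distance exactly `1/2` from the cusp `∞` at `2` and
close to it at `3`.
-/

set_option autoImplicit false

noncomputable section

open scoped Classical

namespace FermatAgent.Mazur.Edge

open FermatAgent.GaloisBasic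
open FermatAgent.Curve (jField)
open AlgebraicCurve (Place)

attribute [local instance] Mazur.embAlg

local notation "Qbar" => AlgebraicClosure ℚ

variable {ℓ : ℕ} [hℓ : Fact ℓ.Prime] [Algebra Qbar ℂ_[ℓ]] {N : ℕ} [NeZero N]

omit hℓ [Algebra Qbar ℂ_[ℓ]] in
lemma fixPt_ext {F F' : FixPt N} (hP : F.P = F'.P) (ha : F.a = F'.a) : F = F' := by
  cases F; cases F'; cases hP; cases ha; rfl

/-- **No rational point at the edge of the cusp.** If `N` is a prime with `16 ∣ N - 1`, no rational
point of `X₀(N)` with coordinates `(a, b)` has `v₂(a) = -1`, `v₂(b) = -N`, `v₃(a) < 0` and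
`v₃(b) = N v₃(a)`. -/
theorem cuspEdge (hN : N.Prime) :
    16 ∣ N - 1 →
    ∀ (P : Place Qbar (jField Qbar N)) (a b : ℚ), HasCoords P (a : Qbar) b →
      padicValRat 2 a = -1 → padicValRat 2 b = -N →
      padicValRat 3 a < 0 → padicValRat 3 b = N * padicValRat 3 a → False := by
  intro h16 P a b hP ha2 hb2 ha3 hb3
  have : Fact (Nat.Prime 2) := ⟨Nat.prime_two⟩
  have : Fact (Nat.Prime 3) := ⟨Nat.prime_three⟩
  let : Algebra Qbar ℂ_[2] :=
    (IsAlgClosed.lift (R := ℚ) (S := Qbar) (M := ℂ_[2])).toRingHom.toAlgebra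
  let : Algebra Qbar ℂ_[3] :=
    (IsAlgClosed.lift (R := ℚ) (S := Qbar) (M := ℂ_[3])).toRingHom.toAlgebra
  obtain ⟨z, hz⟩ := exists_half_class hN h16
  have h2N : 2 ≠ N := by rintro rfl; norm_num at h16
  have h3N : N ≠ 3 := by rintro rfl; norm_num at h16
  obtain ⟨D, hDP, hDa⟩ := exists_discPt (ℓ := 2) hN hP (by omega) (by rw [hb2, ha2]; ring)
  obtain ⟨D3, h3P, h3a⟩ := exists_discPt (ℓ := 3) hN hP ha3 hb3
  exact no_discPt_pair hN h2N h3N hz D D3
    (fixPt_ext (h3P.trans hDP.symm) (h3a.trans hDa.symm))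

end FermatAgent.Mazur.Edge

end
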