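import Fermat.Agent.Mazur.EigenLocal
import Fermat.Agent.Mazur.Chars
import Fermat.Agent.MF.WeightBound

/-!
# A basis of the eigenlattice adapted to the line at `ℓ`

`IsEisSystem`: an eigensystem of level `N` congruent to `1 + q` modulo the maximal ideal; its
`T_ℓ` is a unit. If some series `delt` of an eigenlattice vector has nonzero linear term, a basis
has second vector spanning the line `wLat` (`IsEisSystem.exists_frame`). In such a basis the
matrices `frameMat` have cyclotomic determinant, are continuous and unramified outside `ℓ` and `N`,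
have residual eigenvalue one (`IsEisSystem.det_frameMat_sub_one`), are triangular on the
decomposition group at `ℓ`, and have the known inertia and Frobenius on the quotient.
-/

set_option autoImplicit false

noncomputable section

open scoped Matrix MatrixGroups Classical
open IsLocalRing
open CongruenceSubgroup (Gamma0)
open FermatAgent.Period (parRank)
open FermatAgent.ES (eigLat eigEnd eigMat eigBasis galMat padCyclo)
open FermatAgent.GaloisBasic

namespace FermatAgent.Mazur

attribute [local instance] embAlg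

variable {ℓ : ℕ} [hℓ : Fact ℓ.Prime] {N : ℕ} [NeZero N]
  {O : Type} [CommRing O] [IsDomain O] [IsDiscreteValuationRing O]
  (χ : CuspForm.heckeAlgebra N 2 ∅ →+* O)

local notation "ιO" => (algebraMap ℤ_[ℓ] O : ℤ_[ℓ] →+* O)
local notation "ιA" => (algebraMap (AlgebraicClosure ℚ) ℂ_[ℓ] : AlgebraicClosure ℚ →+* ℂ_[ℓ])

/-- The hypotheses on an eigensystem. -/
structure IsEisSystem (ℓ N : ℕ) [NeZero N] {O : Type} [CommRing O] [IsLocalRing O]
    (χ : CuspForm.heckeAlgebra N 2 ∅ →+* O) : Prop where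
  prime : N.Prime
  ne : ℓ ≠ N
  mem : (ℓ : O) ∈ maximalIdeal O
  eis : ∀ (q : ℕ) (hq : q.Prime), q ≠ N → χ (hop N hq) - (1 + (q : O)) ∈ maximalIdeal O

variable {χ} (h : IsEisSystem ℓ N χ)

include h

/-- `ℓ` does not divide the level. -/
lemma IsEisSystem.not_dvd : ¬ ℓ ∣ N := fun hd =>
  h.ne ((Nat.prime_dvd_prime_iff_eq hℓ.out h.prime).1 hd)

lemma IsEisSystem.residue_hop : residue O (χ (hop N hℓ.out)) = 1 := by
  have h1 := (residue_eq_zero_iff _).2 (h.eis ℓ hℓ.out h.ne)
  rw [map_sub, map_add, map_one, map_natCast, natCast_eq_zero_residue h.mem, add_zero,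
    sub_eq_zero] at h1
  exact h1

/-- `T_ℓ` is a unit at the eigensystem: it is ordinary. -/
lemma IsEisSystem.isUnit_hop : IsUnit (χ (hop N hℓ.out)) := by
  refine (residue_ne_zero_iff_isUnit _).1 ?_
  rw [h.residue_hop]
  exact one_ne_zero

variable [CharZero O] [Algebra ℤ_[ℓ] O] [Module.Finite ℤ_[ℓ] O] [Algebra (AlgebraicClosure ℚ) ℂ_[ℓ]]

omit h in
lemma exists_basis_line (W : Submodule O (eigLat χ))
    (hsat : ∀ a : O, a ≠ 0 → ∀ v, a • v ∈ W → v ∈ W) (hbot : W ≠ ⊥) (htop : W ≠ ⊤) :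
    ∃ e : Module.Basis (Fin 2) O (eigLat χ), e 1 ∈ W ∧ ∀ v ∈ W, e.repr v 0 = 0 := by
  obtain ⟨w, hw, hw0⟩ := Submodule.exists_mem_ne_zero_of_ne_bot hbot
  obtain ⟨B, c, hBc⟩ : ∃ (B : Module.Basis (Fin 2) O (eigLat χ)) (c : O), c • B 0 + B 1 ∈ W := by
    set b := eigBasis χ
    have hrepr : w = b.repr w 0 • b 0 + b.repr w 1 • b 1 := by
      conv_lhs => rw [← b.sum_repr w]
      rw [Fin.sum_univ_two]
    obtain ⟨c, hc⟩ | ⟨c, hc⟩ := ValuationRing.dvd_total (b.repr w 1) (b.repr w 0)
    · refine ⟨b, c, hsat (b.repr w 1) (fun h0 => hw0 ?_) _ ?_⟩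
      · rw [hrepr, hc, h0, zero_mul, zero_smul, zero_smul, add_zero]
      · rwa [smul_add, smul_smul, ← hc, ← hrepr]
    · refine ⟨b.reindex (Equiv.swap 0 1), c, hsat (b.repr w 0) (fun h0 => hw0 ?_) _ ?_⟩
      · rw [hrepr, hc, h0, zero_mul, zero_smul, zero_smul, add_zero]
      · simp only [Module.Basis.reindex_apply, Equiv.symm_swap, Equiv.swap_apply_left,
          Equiv.swap_apply_right]
        rwa [smul_add, smul_smul, ← hc, add_comm, ← hrepr]
  set f : Fin 2 → eigLat χ := ![B 0, c • B 0 + B 1] with hf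
  have hli : LinearIndependent O f := by
    refine LinearIndependent.pair_iff.2 fun s t hst => ?_
    rw [smul_add, smul_smul, ← add_assoc, ← add_smul] at hst
    obtain ⟨h1, h2⟩ := LinearIndependent.pair_iff.1
      (show LinearIndependent O ![B 0, B 1] by
        convert B.linearIndependent using 1
        funext i; fin_cases i <;> rfl) _ _ hst
    exact ⟨by simpa [h2] using h1, h2⟩
  have hsp : ⊤ ≤ Submodule.span O (Set.range f) := fun v _ => by
    rw [← B.sum_repr v, Fin.sum_univ_two,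
      show B.repr v 0 • B 0 + B.repr v 1 • B 1 =
        (B.repr v 0 - B.repr v 1 * c) • f 0 + B.repr v 1 • f 1 by
        simp only [hf, Matrix.cons_val_zero, Matrix.cons_val_one, smul_add, smul_smul]
        rw [← add_assoc, ← add_smul, sub_add_cancel]]
    exact add_mem (Submodule.smul_mem _ _ (Submodule.subset_span ⟨0, rfl⟩))
      (Submodule.smul_mem _ _ (Submodule.subset_span ⟨1, rfl⟩))
  set e := Module.Basis.mk hli hsp with he
  have he1 : e 1 ∈ W := by rw [he, Module.Basis.mk_apply]; simpa [hf] using hBc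
  refine ⟨e, he1, fun v hv => ?_⟩
  by_contra hne
  have h0 : e 0 ∈ W := hsat _ hne _ (by
    have hv' : e.repr v 0 • e 0 = v - e.repr v 1 • e 1 := by
      rw [eq_sub_iff_add_eq]
      conv_rhs => rw [← e.sum_repr v]
      rw [Fin.sum_univ_two]
    rw [hv']
    exact sub_mem hv (W.smul_mem _ he1))
  refine htop (eq_top_iff.2 fun u _ => ?_)
  rw [← e.sum_repr u, Fin.sum_univ_two]
  exact add_mem (W.smul_mem _ h0) (W.smul_mem _ he1)

/-- The adapted basis: its second vector spans the line killed by `δ`. -/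
theorem IsEisSystem.exists_frame
    (hnz : ∃ (lam : O →ₗ[ℤ_[ℓ]] ℤ_[ℓ]) (v : eigLat χ),
      PowerSeries.coeff 1 (delt (eigPsi lam (v : Fin (parRank (Gamma0 N)) → O))) ≠ 0) :
    ∃ e : Module.Basis (Fin 2) O (eigLat χ), e 1 ∈ wLat ℓ χ ∧ ∀ v ∈ wLat ℓ χ, e.repr v 0 = 0 := by
  obtain ⟨lam, v, hv⟩ := hnz
  refine exists_basis_line (wLat ℓ χ) (fun a ha v => wLat_saturated χ h.mem ha)
    (wLat_ne_bot χ h.mem h.not_dvd h.isUnit_hop) fun htop => hv ?_
  exact (mem_wLat χ).1 (htop ▸ Submodule.mem_top : v ∈ wLat ℓ χ) lam 1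

variable (e : Module.Basis (Fin 2) O (eigLat χ))

omit h in
/-- The representation in a basis. -/
def frameMat : GQ →* Matrix (Fin 2) (Fin 2) O :=
  ((LinearMap.toMatrixAlgEquiv e).toAlgHom.toRingHom.toMonoidHom).comp (eigEnd ιO χ)

section

omit h [IsDomain O] [IsDiscreteValuationRing O] [CharZero O] [Module.Finite ℤ_[ℓ] O]
    [Algebra (AlgebraicClosure ℚ) ℂ_[ℓ]]

/-- The entries of the matrix in the basis. -/
lemma frameMat_apply (g : GQ) (i j : Fin 2) :
    frameMat (ℓ := ℓ) e g i j = e.repr (eigEnd ιO χ g (e j)) i :=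
  LinearMap.toMatrixAlgEquiv_apply _ _ _ _

/-- The image of a basis vector. -/
lemma eigEnd_basis (g : GQ) (j : Fin 2) :
    eigEnd ιO χ g (e j) = frameMat (ℓ := ℓ) e g 0 j • e 0 + frameMat (ℓ := ℓ) e g 1 j • e 1 := by
  conv_lhs => rw [← e.sum_repr (eigEnd ιO χ g (e j))]
  rw [Fin.sum_univ_two, frameMat_apply, frameMat_apply]

lemma frameMat_eq_one {g : GQ} (hg : galMat ℓ N g = 1) : frameMat (ℓ := ℓ) e g = 1 := by
  have h1 : eigEnd ιO χ g = 1 := LinearMap.ext fun v => Subtype.ext (by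
    rw [FermatAgent.ES.coe_eigEnd, hg, Matrix.map_one _ (map_zero ιO) (map_one ιO),
      Matrix.one_mulVec]; rfl)
  show LinearMap.toMatrixAlgEquiv e (eigEnd ιO χ g) = 1
  rw [h1, map_one]

/-- An element unipotent on the lattice is unipotent in the basis. -/
lemma frameMat_sub_one_sq {g : GQ} (hg : (galMat ℓ N g - 1) ^ 2 = 0) :
    (frameMat (ℓ := ℓ) e g - 1) ^ 2 = 0 := by
  have h1 : (eigEnd ιO χ g - 1) ^ 2 = 0 := LinearMap.ext fun v => Subtype.ext (by
    have hd : ∀ u : eigLat χ, (((eigEnd ιO χ g - 1) u : eigLat χ) : Fin (parRank (Gamma0 N)) → O) =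
        (galMat ℓ N g - 1).map ιO *ᵥ (u : Fin (parRank (Gamma0 N)) → O) := fun u => by
      rw [Matrix.map_sub ιO (map_sub ιO), Matrix.map_one _ (map_zero ιO) (map_one ιO),
        Matrix.sub_mulVec, Matrix.one_mulVec]
      rfl
    rw [sq, Module.End.mul_apply, hd, hd, Matrix.mulVec_mulVec, ← Matrix.map_mul, ← sq, hg,
      Matrix.map_zero _ (map_zero ιO), Matrix.zero_mulVec]
    rfl)
  show (LinearMap.toMatrixAlgEquiv e (eigEnd ιO χ g) - 1) ^ 2 = 0
  rw [← map_one (LinearMap.toMatrixAlgEquiv e), ← map_sub, ← map_pow, h1, map_zero]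

end

section

omit [Module.Finite ℤ_[ℓ] O] [Algebra (AlgebraicClosure ℚ) ℂ_[ℓ]]

/-- The determinant is the cyclotomic character. -/
lemma IsEisSystem.det_frameMat (g : GQ) : (frameMat (ℓ := ℓ) e g).det = ιO (padCyclo ℓ g) := by
  rw [← FermatAgent.ES.det_eigMat ιO χ h.mem g, FermatAgent.ES.eigMat_apply, LinearMap.det_toMatrix]
  exact LinearMap.det_toMatrix e (eigEnd ιO χ g)

omit [CharZero O] in
/-- The matrices are continuous modulo every power of the maximal ideal. -/
lemma IsEisSystem.frameMat_continuous (k : ℕ) :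
    ∃ L : IntermediateField ℚ (AlgebraicClosure ℚ), FiniteDimensional ℚ L ∧
      ∀ g ∈ L.fixingSubgroup, ∀ i j, (frameMat (ℓ := ℓ) e g - 1) i j ∈ maximalIdeal O ^ k := by
  obtain ⟨L, hL, hc⟩ := FermatAgent.ES.eigEnd_isAdicContinuous ιO χ h.mem k
  refine ⟨L, hL, fun g hg i j => ?_⟩
  have hmem : ∀ u ∈ (maximalIdeal O ^ k) • (⊤ : Submodule O (eigLat χ)),
      e.repr u i ∈ maximalIdeal O ^ k := fun u hu => by
    refine Submodule.smul_induction_on hu (fun a ha w _ => ?_) fun x y hx hy => ?_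
    · rw [map_smul, Finsupp.smul_apply, smul_eq_mul]; exact Ideal.mul_mem_right _ _ ha
    · rw [map_add, Finsupp.add_apply]; exact Ideal.add_mem _ hx hy
  have h1 := hmem _
    (hc g (fun x hx => (IntermediateField.mem_fixingSubgroup_iff _ _).mp hg x hx) (e j))
  rw [map_sub, Finsupp.sub_apply, ← frameMat_apply, Module.Basis.repr_self,
    Finsupp.single_apply] at h1
  rw [Matrix.sub_apply, Matrix.one_apply]
  convert h1 using 2
  simp [eq_comm]

omit [CharZero O] in
/-- The matrices are unramified outside `ℓ` and `N`. -/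
lemma IsEisSystem.frameMat_unramified {q : ℕ} (hq : q.Prime) (hqℓ : q ≠ ℓ) (hqN : q ≠ N)
    {A : ValuationSubring (AlgebraicClosure ℚ)} (hA : A.LiesOverPrime q) {g : GQ}
    (hg : g ∈ A.inertiaSubgroupIn ℚ) : frameMat (ℓ := ℓ) e g = 1 :=
  frameMat_eq_one e (FermatAgent.ES.galMat_inertia ℓ hq
    (fun hd => hqN ((Nat.prime_dvd_prime_iff_eq hq h.prime).1 hd)) hqℓ hA hg)

/-- Every element has eigenvalue `1` residually. -/
theorem IsEisSystem.det_frameMat_sub_one (g : GQ) :
    residue O (frameMat (ℓ := ℓ) e g - 1).det = 0 := by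
  obtain ⟨L, hL, hfix⟩ := h.frameMat_continuous e 1
  obtain ⟨q, A, σ, j, -, hq, hqS, hA, hσ, -, hgσ, -⟩ :=
    exists_frobenius_pow_congr L g {ℓ, N}
  simp only [Finset.mem_insert, Finset.mem_singleton, not_or] at hqS
  set R := frameMat (ℓ := ℓ) e
  set rb := (residue O).mapMatrix.toMonoidHom.comp R
  have hrb : ∀ x, (rb x - 1).det = residue O (R x - 1).det := fun x => by
    rw [RingHom.map_det, map_sub, map_one]; rfl
  have hτ : rb ((σ ^ j)⁻¹ * g) = 1 := by
    refine Matrix.ext fun a b => ?_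
    have h1 := hfix _ hgσ a b
    rw [pow_one, ← residue_eq_zero_iff, Matrix.sub_apply, map_sub, sub_eq_zero] at h1
    show residue O (R _ a b) = _
    rw [h1, Matrix.one_apply, Matrix.one_apply]
    split_ifs <;> simp
  have hd : (R σ).det = (q : O) := by
    rw [h.det_frameMat, FermatAgent.ES.padCyclo_frobenius ℓ hq hqS.1 hA hσ, map_natCast]
  have hquad : R σ * R σ - χ (hop N hq) • R σ + (q : O) • 1 = 0 := by
    have h2 : eigEnd ιO χ σ * eigEnd ιO χ σ + (q : O) • 1 = χ (hop N hq) • eigEnd ιO χ σ :=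
      LinearMap.ext fun v => by
        have hv := LinearMap.congr_fun (FermatAgent.ES.eigEnd_congruence ιO χ hq
          (fun hd => hqS.2 ((Nat.prime_dvd_prime_iff_eq hq h.prime).1 hd)) hqS.1 hA hσ) v
        simp only [LinearMap.add_apply, LinearMap.sub_apply, LinearMap.zero_apply] at hv
        rw [sub_add_eq_add_sub, sub_eq_zero] at hv
        simp only [LinearMap.add_apply]
        exact hv
    have h3 := congrArg (LinearMap.toMatrixAlgEquiv e) h2
    rw [map_add, map_mul, map_smul, map_one, map_smul] at h3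
    rw [sub_add_eq_add_sub, sub_eq_zero]
    exact h3
  have htr := FermatAgent.ES.trace_eq_of_quadratic (R σ) (Nat.cast_ne_zero.2 hq.ne_zero) hd hquad
  rw [← hrb, show rb g = rb σ ^ j by
    rw [show g = σ ^ j * ((σ ^ j)⁻¹ * g) by group, map_mul, hτ, mul_one, map_pow],
    ← geom_sum_mul, Matrix.det_mul, hrb]
  have h0 : residue O (R σ - 1).det = 0 := by
    rw [residue_eq_zero_iff]
    rw [Matrix.trace_fin_two] at htr
    rw [Matrix.det_fin_two] at hd
    convert neg_mem (h.eis q hq hqS.2) using 1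
    simp [Matrix.det_fin_two, Matrix.sub_apply]
    linear_combination hd - htr
  rw [h0, mul_zero]

end

variable {e} (he1 : e 1 ∈ wLat ℓ χ) (he0 : ∀ v ∈ wLat ℓ χ, e.repr v 0 = 0)

include he1 he0

omit h [IsDomain O] [IsDiscreteValuationRing O] [CharZero O] [Module.Finite ℤ_[ℓ] O] in
/-- Triangular on the decomposition group. -/
lemma frameMat_decomposition {g : GQ}
    (hg : g ∈ (padVal ιA).decompositionSubgroup ℚ) : frameMat (ℓ := ℓ) e g 0 1 = 0 := by
  rw [frameMat_apply]
  exact he0 _ (eigEnd_mem_wLat χ ⟨g, hg⟩ he1)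

omit he1 [CharZero O] in
/-- Inertia is trivial on the quotient. -/
lemma IsEisSystem.frameMat_inertia {g : GQ} (hg : g ∈ (padVal ιA).inertiaSubgroupIn ℚ) :
    frameMat (ℓ := ℓ) e g 0 0 = 1 := by
  have h1 := he0 _ (eigEnd_inertia_sub_mem χ h.not_dvd h.isUnit_hop
    ⟨g, inertiaSubgroupIn_le_decompositionSubgroup _ hg⟩ hg (e 0))
  rw [map_sub, Finsupp.sub_apply, ← frameMat_apply, Module.Basis.repr_self,
    Finsupp.single_eq_same, sub_eq_zero] at h1
  exact h1

/-- The quotient eigenvalue of Frobenius. -/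
lemma IsEisSystem.frameMat_frobenius {g : GQ} (hg : (padVal ιA).IsFrobeniusAt g ℓ) :
    frameMat (ℓ := ℓ) e g 0 0 ^ 2 ≠ 1 := by
  obtain ⟨hd, -⟩ := id hg
  have h1 := he0 _ (eigEnd_frobenius_mem χ h.not_dvd h.isUnit_hop ⟨g, hd⟩ hg (e 0))
  rw [map_sub, map_add, map_smul, map_smul, eigEnd_basis e g 0, map_add, map_smul, map_smul] at h1
  simp only [map_add, map_smul, Finsupp.sub_apply, Finsupp.add_apply, Finsupp.smul_apply,
    smul_eq_mul, Module.Basis.repr_self, Finsupp.single_eq_same, ← frameMat_apply,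
    frameMat_decomposition he1 he0 hd, Finsupp.single_eq_of_ne (show (0 : Fin 2) ≠ 1 by decide)]
    at h1
  intro hsq
  set α := frameMat (ℓ := ℓ) e g 0 0
  have hroot : α * α + (ℓ : O) - χ (hop N hℓ.out) * α = 0 := by linear_combination h1
  rcases sq_eq_one_iff.1 hsq with hα | hα <;> rw [hα] at hroot
  · refine MF.Petersson.heckeT_value_ne (q := ℓ) h.not_dvd χ (s := 1) (Or.inl rfl) ?_
    show χ (hop N hℓ.out) = _
    push_cast
    linear_combination -hroot
  · refine MF.Petersson.heckeT_value_ne (q := ℓ) h.not_dvd χ (s := -1) (Or.inr rfl) ?_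
    show χ (hop N hℓ.out) = _
    push_cast
    linear_combination hroot

end FermatAgent.Mazur

end
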