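import Fermat.Agent.MF.Reduced
import Fermat.Agent.Mazur.EigenFrame
import Fermat.Agent.Mazur.EigenSetting
import Fermat.Agent.Mazur.CoeffRing
import Mathlib.LinearAlgebra.Matrix.Charpoly.Coeff

/-!
# Projection to the Eisenstein eigensystems at `2`

Polynomials in the Hecke operators kill the eigensystems which are not congruent to the Eisenstein
one and multiply a class congruent to the Eisenstein series by a unit.
-/

set_option autoImplicit false

noncomputable section

open scoped Classical MatrixGroups Matrix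
open IsLocalRing
open CongruenceSubgroup (Gamma0)
open ModularCurve.Period
open FermatAgent.Period (parRank parabolicCoords parAction)
open FermatAgent.ES (intMat eigLat mem_eigLat eigBasis)
open Polynomial (aeval)

namespace FermatAgent.Mazur.Edge

attribute [local instance] Mazur.embAlg

local notation "Qbar" => AlgebraicClosure ℚ

variable {N : ℕ} [NeZero N]

local notation "V" => parabolicHoms ℤ_[2] (Gamma0 N) ℤ_[2]
local notation "T" => CuspForm.heckeAlgebra N 2 ∅

/-- The coordinates in `ℂ_2`. -/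
def castV : V →ₛₗ[(zCp (ℓ := 2))] (Fin (parRank (Gamma0 N)) → ℂ_[2]) where
  toFun ψ j := zCp (parabolicCoords (Gamma0 N) ℤ_[2] ℤ_[2] ψ j)
  map_add' ψ ψ' := funext fun j => by rw [map_add, Pi.add_apply, map_add]; rfl
  map_smul' a ψ := funext fun j => by
    rw [map_smul, Pi.smul_apply, smul_eq_mul, map_mul]; rfl

lemma castV_tV [Algebra Qbar ℂ_[2]] {q : ℕ} (hq : q.Prime) (ψ : V) :
    castV (tV hq ψ) = intMat ℂ_[2] (hop N hq) *ᵥ castV ψ := by
  funext i
  show zCp (parabolicCoords (Gamma0 N) ℤ_[2] ℤ_[2] (tV hq ψ) i) = _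
  rw [tV_apply, ← parAction_hop hq, ← FermatAgent.ES.heckePadMat_mulVec, RingHom.map_mulVec]
  rw [show (FermatAgent.ES.heckePadMat 2 (hop N hq)).map (zCp (ℓ := 2)) =
    intMat ℂ_[2] (hop N hq) from FermatAgent.ES.intMat_map _ _]
  rfl

/-- The linear extension of a semilinear form. -/
def extV (f : V →ₛₗ[(zCp (ℓ := 2))] ℂ_[2]) :
    (Fin (parRank (Gamma0 N)) → ℂ_[2]) →ₗ[ℂ_[2]] ℂ_[2] :=
  ∑ j, f (basisV j) • LinearMap.proj j

lemma extV_castV (f : V →ₛₗ[(zCp (ℓ := 2))] ℂ_[2]) (ψ : V) : extV f (castV ψ) = f ψ := by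
  set c := parabolicCoords (Gamma0 N) ℤ_[2] ℤ_[2] ψ with hc
  have hψ := eq_sum_smul_basisV (ℓ := 2) ψ
  conv_rhs => rw [hψ, map_sum]
  rw [extV, LinearMap.sum_apply]
  refine Finset.sum_congr rfl fun j _ => ?_
  rw [map_smulₛₗ, LinearMap.smul_apply, smul_eq_mul, smul_eq_mul, mul_comm]
  rfl

/-- Forms vanishing on all Eisenstein eigenlattices. -/
def KillsEis (f : V → ℂ_[2]) : Prop :=
  ∀ (O : Type) [CommRing O] [IsDomain O] [IsDiscreteValuationRing O] [CharZero O]
    [Algebra ℤ_[2] O] [Module.Finite ℤ_[2] O] [Module.Free ℤ_[2] O]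
    [IsAdicComplete (maximalIdeal O) O] (χ : CuspForm.heckeAlgebra N 2 ∅ →+* O),
    IsEisSystem 2 N χ → ∀ (lam : O →ₗ[ℤ_[2]] ℤ_[2]) (v : eigLat χ),
      f (eigPsi lam (v : Fin (parRank (Gamma0 N)) → O)) = 0

/-- A class in the span of the Eisenstein eigenlattices. -/
def IsEisVec (x : V) : Prop :=
  ∀ f : V →ₛₗ[(zCp (ℓ := 2))] ℂ_[2], KillsEis (fun ψ => f ψ) → f x = 0

/-- Congruent to the Eisenstein eigensystem. -/
def IsEisVal (θ : CuspForm.heckeAlgebra N 2 ∅ →+* ℂ_[2]) : Prop :=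
  ∀ (q : ℕ) (hq : q.Prime), q ≠ N → ‖θ (hop N hq) - (1 + (q : ℂ_[2]))‖ < 1

lemma norm_map_lt_one {O : Type} [CommRing O] [IsDomain O] [IsDiscreteValuationRing O] [CharZero O]
    (j : O →+* ℂ_[2]) (hjn : ∀ x, ‖j x‖ ≤ 1) {x : O} (hx : x ∈ maximalIdeal O) : ‖j x‖ < 1 := by
  obtain ⟨k, hk⟩ := exists_pow_le_dvd (show (2 : O) ≠ 0 from two_ne_zero)
  obtain ⟨c, hc⟩ := hk _ (Ideal.pow_mem_pow hx k)
  refine lt_of_not_ge fun h1 => ?_
  have he : ‖j x‖ = 1 := le_antisymm (hjn x) h1
  have h2 := congrArg (fun y => ‖j y‖) hc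
  simp only [map_pow, map_mul, norm_pow, norm_mul, he, one_pow, map_ofNat] at h2
  have h3 : ‖(2 : ℂ_[2])‖ < 1 := by exact_mod_cast norm_prime_cp_lt_one (ℓ := 2)
  nlinarith [norm_nonneg (2 : ℂ_[2]), norm_nonneg (j c), hjn c]

/-- A polynomial killing a value off the Eisenstein class, a unit at the Eisenstein value. -/
theorem exists_poly {θ : T →+* ℂ_[2]} {q : ℕ} (hq : q.Prime)
    (h : ¬ ‖θ (hop N hq) - (1 + (q : ℂ_[2]))‖ < 1) :
    ∃ p : Polynomial ℤ_[2], p.eval₂ zCp (θ (hop N hq)) = 0 ∧ IsUnit (p.eval (1 + (q : ℤ_[2]))) := by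
  obtain ⟨O, iO1, iO2, iO3, iO4, iO5, ι, j, χ, hfin, hjinj, hjι, hjχ, hjn⟩ := exists_coeffRing θ
  let : Algebra ℤ_[2] O := ι.toAlgebra
  have : Module.Finite ℤ_[2] O := hfin
  have := isTorsionFree_padicInt (ℓ := 2) (O := O)
  have : Module.Free ℤ_[2] O := Module.free_of_finite_type_torsion_free'
  set a := χ (hop N hq)
  set e : ℤ_[2] := 1 + (q : ℤ_[2])
  set o := Module.Free.chooseBasis ℤ_[2] O
  set L := Algebra.leftMulMatrix o
  refine ⟨(L a).charpoly, ?_, ?_⟩
  · have h0 : aeval a (L a).charpoly = 0 := Algebra.leftMulMatrix_injective o (by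
      rw [map_zero, ← Polynomial.aeval_algHom_apply]; exact Matrix.aeval_self_charpoly _)
    have h1 := congrArg j h0
    rw [map_zero, Polynomial.aeval_def, Polynomial.hom_eval₂, ← RingHom.comp_apply j χ, hjχ] at h1
    rwa [show j.comp (algebraMap ℤ_[2] O) = zCp from hjι] at h1
  · rw [Matrix.eval_charpoly, show Matrix.scalar _ e - L a = L (algebraMap ℤ_[2] O e - a) from by
      rw [map_sub, AlgHom.commutes]; rfl, ← Matrix.isUnit_iff_isUnit_det]
    refine IsUnit.map L (by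
      by_contra hu
      apply h
      have h1 := norm_map_lt_one j hjn (x := algebraMap ℤ_[2] O e - a) hu
      rw [map_sub, ← RingHom.comp_apply j χ, hjχ, map_add, map_one, map_natCast, map_add, map_one,
        map_natCast, ← norm_neg, neg_sub] at h1
      exact h1)

/-- `δ` is congruent to a multiple of the Eisenstein series. -/
def Near [Algebra Qbar ℂ_[2]] (x : V) (c : ℤ_[2]) : Prop :=
  ∀ j, ‖PowerSeries.coeff j (delt x) - zCp c * (Period.Eis.sigP N j : ℂ_[2])‖ < 1

variable [Algebra Qbar ℂ_[2]]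

lemma Near.tV {x : V} {c : ℤ_[2]} (hN : N.Prime) {q : ℕ} (hq : q.Prime) (hqN : q ≠ N)
    (h : Near x c) : Near (Mazur.tV hq x) (c * (1 + (q : ℤ_[2]))) := by
  intro m
  have := Fact.mk hq
  rcases eq_or_ne m 0 with rfl | hm
  · simp [coeff_zero_delt, Period.Eis.sigP]
  have hs := congrArg (Nat.cast (R := ℂ_[2])) (sigP_hecke (N := N) hN hq hm)
  simp only [Nat.cast_add, Nat.cast_mul, apply_ite (Nat.cast (R := ℂ_[2])), Nat.cast_zero,
    Nat.cast_one, if_neg hqN] at hs
  rw [tV_apply, coeff_delt_heckeV, map_mul, map_add, map_one, map_natCast, mul_assoc, ← hs]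
  split_ifs with hc
  · rw [show ∀ A B C D : ℂ_[2], A + (q : ℂ_[2]) * B - zCp c * (C + (q : ℂ_[2]) * D) =
      (A - zCp c * C) + (q : ℂ_[2]) * (B - zCp c * D) from fun A B C D => by ring]
    refine (IsUltrametricDist.norm_add_le_max _ _).trans_lt (max_lt (h _) ?_)
    rw [norm_mul]
    exact (mul_le_of_le_one_left (norm_nonneg _)
      (IsUltrametricDist.norm_natCast_le_one _ q)).trans_lt (h _)
  · rw [add_zero, add_zero]
    exact h _

lemma Near.aeval {x : V} {c : ℤ_[2]} (hN : N.Prime) {q : ℕ} (hq : q.Prime) (hqN : q ≠ N)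
    (h : Near x c) (p : Polynomial ℤ_[2]) :
    Near (Polynomial.aeval (Mazur.tV hq) p x) (c * p.eval (1 + (q : ℤ_[2]))) := by
  induction p using Polynomial.induction_on generalizing x c with
  | C a =>
    intro j
    rw [Polynomial.aeval_C, Module.algebraMap_end_apply, coeff_delt_smul, Polynomial.eval_C,
      map_mul, mul_comm (zCp c), mul_assoc, ← mul_sub, norm_mul, norm_zCp]
    exact (mul_le_of_le_one_left (norm_nonneg _) (PadicInt.norm_le_one a)).trans_lt (h j)
  | add p p' hp hp' =>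
    intro j
    rw [map_add, LinearMap.add_apply, delt_add, map_add, Polynomial.eval_add, mul_add, map_add,
      add_mul, add_sub_add_comm]
    exact (IsUltrametricDist.norm_add_le_max _ _).trans_lt (max_lt (hp h j) (hp' h j))
  | monomial n a ih =>
    rw [pow_succ, ← mul_assoc, map_mul, Module.End.mul_apply, Polynomial.aeval_X,
      Polynomial.eval_mul, Polynomial.eval_X,
      show ∀ u v : ℤ_[2], c * (u * v) = c * v * u from fun u v => by ring]
    exact ih (h.tV hN hq hqN)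

lemma castV_aeval {q : ℕ} (hq : q.Prime) {s : Finset (T →+* ℂ_[2])}
    {w : (T →+* ℂ_[2]) → Fin (parRank (Gamma0 N)) → ℂ_[2]} (hw : ∀ θ ∈ s, w θ ∈ eigLat θ)
    (p : Polynomial ℤ_[2]) {x : V} {μ : (T →+* ℂ_[2]) → ℂ_[2]}
    (hx : castV x = ∑ θ ∈ s, μ θ • w θ) :
    castV (aeval (tV hq) p x) = ∑ θ ∈ s, (μ θ * p.eval₂ zCp (θ (hop N hq))) • w θ := by
  induction p using Polynomial.induction_on generalizing x μ with
  | C a =>
    rw [Polynomial.aeval_C, Module.algebraMap_end_apply, map_smulₛₗ, hx, Finset.smul_sum]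
    refine Finset.sum_congr rfl fun θ _ => ?_
    rw [Polynomial.eval₂_C, smul_smul, mul_comm]
  | add p p' hp hp' =>
    rw [map_add, LinearMap.add_apply, map_add, hp hx, hp' hx, ← Finset.sum_add_distrib]
    refine Finset.sum_congr rfl fun θ _ => ?_
    rw [Polynomial.eval₂_add, mul_add, add_smul]
  | monomial n a ih =>
    have h1 : castV (tV hq x) = ∑ θ ∈ s, (μ θ * θ (hop N hq)) • w θ := by
      rw [castV_tV, hx, Matrix.mulVec_sum]
      exact Finset.sum_congr rfl fun θ hθ => by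
        rw [Matrix.mulVec_smul, (mem_eigLat θ).1 (hw θ hθ), smul_smul]
    rw [pow_succ, ← mul_assoc, map_mul, Module.End.mul_apply, Polynomial.aeval_X, ih h1]
    refine Finset.sum_congr rfl fun θ _ => ?_
    simp only [Polynomial.eval₂_mul, Polynomial.eval₂_X]
    rw [mul_assoc, mul_comm (θ (hop N hq))]

omit [Algebra Qbar ℂ_[2]] in
/-- A form killing the Eisenstein eigenlattices kills the Eisenstein eigenvectors. -/
theorem extV_eq_zero (hN : N.Prime) (h2N : 2 ≠ N) {f : V →ₛₗ[(zCp (ℓ := 2))] ℂ_[2]}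
    (hf : KillsEis (fun ψ => f ψ)) {θ : T →+* ℂ_[2]} (hθ : IsEisVal θ)
    {w : Fin (parRank (Gamma0 N)) → ℂ_[2]} (hw : w ∈ eigLat θ) : extV f w = 0 := by
  obtain ⟨O, iO1, iO2, iO3, iO4, iO5, ι, j, χ, hfin, hjinj, hjι, hjχ, hjn⟩ := exists_coeffRing θ
  let : Algebra ℤ_[2] O := ι.toAlgebra
  have : Module.Finite ℤ_[2] O := hfin
  have := isTorsionFree_padicInt (ℓ := 2) (O := O)
  have : Module.Free ℤ_[2] O := Module.free_of_finite_type_torsion_free'
  have h : IsEisSystem 2 N χ :=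
    { prime := hN
      ne := h2N
      mem := mem_maximalIdeal_of_norm j hjn _ (by
        rw [map_natCast]; exact norm_prime_cp_lt_one)
      eis := fun q hq hqN => mem_maximalIdeal_of_norm j hjn _ (by
        rw [map_sub, map_add, map_one, map_natCast, ← RingHom.comp_apply j χ, hjχ]
        exact hθ q hq hqN) }
  subst hjχ
  exact eq_zero_of_eigPsi χ hjinj hjι (extV f)
    (fun lam v => (extV_castV f _).trans (hf O χ h lam v)) hw

/-- **The Eisenstein part of a class with Eisenstein `δ`**: some vector of the Eisenstein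
eigenlattices has a unit first coefficient of `δ`. -/
theorem exists_isEisVec (hN : N.Prime) (h2N : 2 ≠ N) {z : V}
    (hz : ∀ j, ‖PowerSeries.coeff j (delt z) - (Period.Eis.sigP N j : ℂ_[2])‖ < 1) :
    ∃ x : V, IsEisVec x ∧ ‖PowerSeries.coeff 1 (delt x)‖ = 1 := by
  obtain ⟨s, w, hw, hvw⟩ := exists_eigen_sum (F := ℂ_[2])
    (FermatAgent.MF.Petersson.isReduced_heckeAlgebra hN) (castV z)
  have key : ∀ S : Finset (T →+* ℂ_[2]), S ⊆ s.filter (fun θ => ¬ IsEisVal θ) →
      ∃ (x : V) (μ : (T →+* ℂ_[2]) → ℂ_[2]) (c : ℤ_[2]), IsUnit c ∧ Near x c ∧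
        castV x = ∑ θ ∈ s, μ θ • w θ ∧ ∀ θ ∈ S, μ θ = 0 := by
    intro S
    induction S using Finset.induction_on with
    | empty =>
      exact fun _ => ⟨z, fun _ => 1, 1, isUnit_one, fun j => by rw [map_one, one_mul]; exact hz j,
        by simpa using hvw, by simp⟩
    | insert a S ha ih =>
      intro hS
      obtain ⟨x, μ, c, hc, hn, hx, hμ⟩ := ih (subset_trans (Finset.subset_insert _ _) hS)
      obtain ⟨-, hna⟩ := Finset.mem_filter.1 (hS (Finset.mem_insert_self _ _))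
      simp only [IsEisVal, not_forall] at hna
      obtain ⟨q, hq, hqN, hqa⟩ := hna
      obtain ⟨p, hp0, hpu⟩ := exists_poly hq hqa
      refine ⟨aeval (tV hq) p x, _, _, hc.mul hpu, hn.aeval hN hq hqN p,
        castV_aeval hq hw p hx, fun θ hθ => ?_⟩
      rcases Finset.mem_insert.1 hθ with rfl | hθ
      · rw [hp0, mul_zero]
      · rw [hμ θ hθ, zero_mul]
  obtain ⟨x, μ, c, hc, hn, hx, hμ⟩ := key _ subset_rfl
  refine ⟨x, fun f hf => ?_, ?_⟩
  · rw [← extV_castV f, hx, map_sum]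
    refine Finset.sum_eq_zero fun θ hθ => ?_
    rw [map_smul]
    by_cases he : IsEisVal θ
    · rw [extV_eq_zero hN h2N hf he (hw θ hθ), smul_zero]
    · rw [hμ θ (Finset.mem_filter.2 ⟨hθ, he⟩), zero_smul]
  · have h1 := hn 1
    rw [show Period.Eis.sigP N 1 = 1 by simp [Period.Eis.sigP], Nat.cast_one, mul_one] at h1
    have hc1 : ‖zCp c‖ = 1 := by rw [norm_zCp, ← PadicInt.isUnit_iff.1 hc]
    rw [show PowerSeries.coeff 1 (delt x) = zCp c + (PowerSeries.coeff 1 (delt x) - zCp c) from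
      (add_sub_cancel _ _).symm, IsUltrametricDist.norm_add_eq_max_of_norm_ne_norm (by
        rw [hc1]; exact h1.ne'), hc1, max_eq_left h1.le]

end FermatAgent.Mazur.Edge

end
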