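import Fermat.Agent.Mazur.RootValue

/-!
# The Kummer cocycle of a disc point at a prime different from the residue characteristic

At residue characteristic `ℓ` an integral one-unit series has a single `p ^ k`-th root which is one.
The values of the series with multiplier thus have canonical roots, and the Kummer cocycle for `p`
of a point on the `ℓ`-adic disc is a coboundary on the decomposition group.
-/

set_option autoImplicit false

noncomputable section

open scoped Classical MatrixGroups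
open CongruenceSubgroup (Gamma0)
open ModularCurve.Period

namespace FermatAgent.Mazur.Edge

open FermatAgent.GaloisBasic
open FermatAgent.ES (padChar galPad galLin padCyclo)

attribute [local instance] Mazur.embAlg

local notation "Qbar" => AlgebraicClosure ℚ

variable {ℓ : ℕ} [hℓ : Fact ℓ.Prime] {N : ℕ} [NeZero N]

local notation "PS" => PowerSeries ℂ_[ℓ]
local notation "ιA" => (algebraMap (AlgebraicClosure ℚ) ℂ_[ℓ] : AlgebraicClosure ℚ →+* ℂ_[ℓ])

/-- An integral one-unit has a root of order prime to the residue characteristic. -/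
theorem exists_pow_eq_isP1 {n : ℕ} (hn : ℓ.Coprime n) {G : PS} (hG : IsP1 G) :
    ∃ H, IsP1 H ∧ H ^ n = G := by
  have hn0 : n ≠ 0 := fun h => by
    rw [h, Nat.coprime_zero_right] at hn
    exact hℓ.out.ne_one hn
  refine exists_root_of_tendsto (fun i => hG.pow (n ^ ((ℓ ^ i).totient - 1))) hn0 fun m =>
    tendsto_coeff_of_pcong hG (fun i => ?_) m
  obtain ⟨t, ht⟩ := (Nat.modEq_iff_dvd' (Nat.one_le_pow _ n (Nat.pos_of_ne_zero hn0))).1
    (Nat.ModEq.pow_totient (hn.pow_left i).symm).symm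
  refine ⟨G ^ t, hG.pow t, ?_⟩
  rw [← pow_mul, ← pow_mul, ← pow_succ', ← pow_succ,
    Nat.sub_add_cancel (Nat.totient_pos.2 (pow_pos hℓ.out.pos i)), mul_comm t, ← ht,
    Nat.sub_add_cancel (Nat.one_le_pow _ n (Nat.pos_of_ne_zero hn0))]

variable [Algebra Qbar ℂ_[ℓ]]

/-- A series with multiplier of order prime to the residue characteristic decomposes over the
constant series. -/
theorem exists_rootDec_coprime {n : ℕ} (hn : ℓ.Coprime n) (hn0 : n ≠ 0) {φ : Gamma0 N →* ℂˣ}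
    {S : LaurentSeries Qbar} (hS : IsMult N φ S) (hφ : φ ^ n = 1) :
    ∃ (c : ℂ_[ℓ]) (e : ℤ) (H : PS) (Z : ℂ_[ℓ] →₀ ℤ), RootDec n 1 S c e H Z := by
  obtain ⟨c, e, G, Z, h⟩ := exists_powDec (ℓ := ℓ) hn0 hS hφ
  obtain ⟨H, hH, rfl⟩ := exists_pow_eq_isP1 hn h.dec.unit
  exact ⟨c, e, H, Z, by rw [one_mul]; exact h, hH⟩

/-! ### The canonical roots of unity -/

variable {p : ℕ} [hp : Fact p.Prime]

local notation "V" => parabolicHoms ℤ_[p] (Gamma0 N) ℤ_[p]

section Point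

variable (D : DiscPt ℓ N)

/-- **The Kummer cocycle of a disc point is a coboundary on the decomposition group.** -/
theorem exists_uPrime (hpℓ : p ≠ ℓ) :
    ∃ U : V →ₗ[ℤ_[p]] ℤ_[p],
      ∀ g ∈ (padVal ιA).decompositionSubgroup ℚ, ∀ ψ,
        D.toFixPt.kumLin p g ψ = padCyclo p g * U (galLin p g⁻¹ ψ) - U ψ := by
  have hn0 : ∀ k, p ^ k ≠ 0 := fun k => pow_ne_zero _ hp.out.ne_zero
  have hψ : ∀ k (ψ : V), (padChar p k ψ : Gamma0 N →* ℂˣ) ^ p ^ k = 1 := fun k ψ =>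
    (padChar p k ψ).2.1
  have hdec : ∀ k {ψ : V} {S : LaurentSeries Qbar},
      IsMult N (padChar p k ψ : Gamma0 N →* ℂˣ) S →
        ∃ (c : ℂ_[ℓ]) (e : ℤ) (H : PS) (Z : ℂ_[ℓ] →₀ ℤ), RootDec (p ^ k) 1 S c e H Z :=
    fun k {ψ} {_} hS => exists_rootDec_coprime
      (((Nat.coprime_primes hℓ.out hp.out).2 (Ne.symm hpℓ)).pow_right k) (hn0 k) hS (hψ k ψ)
  set ρ : ℕ → V → ℂ_[ℓ] := fun k ψ => D.ratio (p ^ k) 1 (D.goodU k ψ) with hρ
  have heq : ∀ k {ψ : V} {u : (LaurentSeries Qbar)ˣ},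
      D.toFixPt.IsGood (p ^ k) (padChar p k ψ : Gamma0 N →* ℂˣ) u →
        D.ratio (p ^ k) 1 u = ρ k ψ := fun k {ψ} {_} hu => by
    obtain ⟨c, e, H, Z, h⟩ := hdec k hu.1
    exact D.ratio_eq (hn0 k) IsP1.one (hψ k ψ) hu (D.isGood_goodU k ψ) h
  choose U hU using fun ψ : V => exists_zp_map (ℓ := p) (fun k => ρ k ψ)
    (fun k => by
      obtain ⟨c, e, H, Z, h⟩ := hdec k (D.isGood_goodU k ψ).1
      exact (D.ratio_pow (hn0 k) IsP1.one (D.isGood_goodU k ψ).2 h).trans (serVal_one D.hr))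
    fun k => by
      have hu := D.isGood_goodU (k + 1) ψ
      have hg := hu.pow_succ
      rw [FermatAgent.ES.padChar_succ] at hg
      obtain ⟨c, e, H, Z, h⟩ := hdec (k + 1) hu.1
      rw [pow_succ p k] at h
      rw [← heq k hg, D.ratio_pow_eq (mul_ne_zero (hn0 k) hp.out.ne_zero) IsP1.one h, hρ,
        ← pow_succ p k]
  have hadd : ∀ ψ ψ' : V, U (ψ + ψ') = U ψ + U ψ' := fun ψ ψ' => by
    refine zp_inj fun k => (algebraMap Qbar ℂ_[ℓ]).injective ?_
    have hu := D.isGood_goodU k ψ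
    have hv := D.isGood_goodU k ψ'
    have hg := hu.mul hv
    rw [← Subgroup.coe_mul, ← FermatAgent.ES.padChar_add] at hg
    obtain ⟨c, e, H, Z, h⟩ := hdec k hu.1
    obtain ⟨c', e', H', Z', h'⟩ := hdec k hv.1
    rw [AddChar.map_add_eq_mul, map_mul, hU, hU, hU, ← heq k hg]
    exact (congrArg (fun G => D.ratio (p ^ k) G _) (one_mul 1).symm).trans
      (D.ratio_mul (hn0 k) IsP1.one IsP1.one hu.2 hv.2 h h')
  refine ⟨{ toFun := U
            map_add' := hadd
            map_smul' := fun a ψ => map_smul_of_additive (AddMonoidHom.mk' U hadd) a ψ },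
    fun g hg ψ => ?_⟩
  show D.kumLin p g ψ = padCyclo p g * U (galLin p g⁻¹ ψ) - U ψ
  rw [eq_sub_iff_add_eq]
  refine zp_inj fun k => (algebraMap Qbar ℂ_[ℓ]).injective ?_
  have hu := D.isGood_goodU k ψ
  have hu' := hu.galois g⁻¹
  rw [← FermatAgent.ES.padChar_galPad, ← FermatAgent.ES.galLin_apply] at hu'
  obtain ⟨c, e, H, Z, h⟩ := hdec k hu'.1
  rw [AddChar.map_add_eq_mul, map_mul, ← apply_zp, hU, ← galExt_apply ⟨g, hg⟩, hU,
    ← heq k hu', D.galExt_ratio (hn0 k) IsP1.one ⟨g, hg⟩ h, map_one, FixPt.kumLin_apply,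
    hu.zp_kum]

end Point

/-- The Kummer cocycle at `2` of a point on the `3`-adic disc. -/
theorem exists_uThree [Algebra (AlgebraicClosure ℚ) ℂ_[3]] (D : DiscPt 3 N) :
    ∃ U : parabolicHoms ℤ_[2] (Gamma0 N) ℤ_[2] →ₗ[ℤ_[2]] ℤ_[2],
      ∀ g ∈ (padVal (algebraMap (AlgebraicClosure ℚ) ℂ_[3])).decompositionSubgroup ℚ, ∀ ψ,
        D.toFixPt.kumLin 2 g ψ = padCyclo 2 g * U (galLin 2 g⁻¹ ψ) - U ψ :=
  exists_uPrime D (by norm_num)

end FermatAgent.Mazur.Edge

end
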