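import Fermat.Agent.Mazur.EdgeExact
import Fermat.Agent.Mazur.EdgeProj
import Fermat.Agent.Mazur.EdgeThree
import Mathlib.Algebra.Module.Projective

/-!
# No point close to the cusp at `2` and `3` with Eisenstein class at `2`

An Eisenstein class with odd `δ₁` has Kummer class at such a point the coboundary of the potential
at `3`, so the value of its series at the point has roots fixed by inertia and is `1`; but its
distance from `1` is that of the point from the cusp.
-/

set_option autoImplicit false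

noncomputable section

open scoped Classical MatrixGroups Matrix
open IsLocalRing PowerSeries
open CongruenceSubgroup (Gamma0)
open ModularCurve.Period
open FermatAgent.Period (parRank parabolicCoords)
open FermatAgent.ES (eigLat eigEnd galLin padCyclo)
open FermatAgent.GaloisBasic

namespace FermatAgent.Mazur.Edge

attribute [local instance] Mazur.embAlg

local notation "Qbar" => AlgebraicClosure ℚ

/-- The value of a series with unit linear term is as far from `1` as the point from `0`. -/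
lemma norm_serVal_sub_one_eq {ℓ : ℕ} [Fact ℓ.Prime] {r : ℂ_[ℓ]} (hr : ‖r‖ < 1) (hr0 : r ≠ 0)
    {G : PowerSeries ℂ_[ℓ]} (hG : IsP1 G) (h1 : ‖coeff 1 G‖ = 1) :
    ‖serVal hr G hG.2 - 1‖ = ‖r‖ := by
  set f : ℕ → ℂ_[ℓ] := fun m => coeff m G * r ^ m
  have hs : Summable f := (summable_norm_coeff_mul_pow hr ⟨1, hG.2⟩).of_norm
  have hval : serVal hr G hG.2 = ∑' m, f m := evalDisc_apply hr _
  have htail : ‖∑' m, f (m + 2)‖ ≤ ‖r‖ * ‖r‖ := by
    refine IsUltrametricDist.norm_tsum_le_of_forall_le_of_nonneg (by positivity) fun m => ?_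
    show ‖coeff (m + 2) G * r ^ (m + 2)‖ ≤ _
    rw [norm_mul, norm_pow, pow_add, pow_two]
    exact (mul_le_of_le_one_left (by positivity) (hG.2 _)).trans
      (mul_le_of_le_one_left (by positivity) (pow_le_one₀ (norm_nonneg _) hr.le))
  have hlt : ‖∑' m, f (m + 2)‖ < ‖coeff 1 G * r‖ := by
    rw [norm_mul, h1, one_mul]
    exact htail.trans_lt (mul_lt_of_lt_one_left (norm_pos_iff.2 hr0) hr)
  rw [hval, ← hs.sum_add_tsum_nat_add 2, Finset.sum_range_succ, Finset.sum_range_one]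
  simp only [f, pow_zero, mul_one, pow_one, coeff_zero_eq_constantCoeff, hG.1]
  rw [show ∀ a b : ℂ_[ℓ], 1 + a + b - 1 = a + b from fun a b => by ring,
    IsUltrametricDist.norm_add_eq_max_of_norm_ne_norm hlt.ne', max_eq_left hlt.le, norm_mul, h1,
    one_mul]

variable {N : ℕ} [NeZero N]

local notation "V" => parabolicHoms ℤ_[2] (Gamma0 N) ℤ_[2]

/-- An integral form as a `ℂ_2`-valued one. -/
def castLin (L : V →ₗ[ℤ_[2]] ℤ_[2]) : V →ₛₗ[(zCp (ℓ := 2))] ℂ_[2] where
  toFun ψ := zCp (L ψ)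
  map_add' ψ ψ' := by rw [map_add, map_add]
  map_smul' a ψ := by rw [map_smul, smul_eq_mul, map_mul, smul_eq_mul]

lemma IsEisVec.apply_eq_zero [Algebra Qbar ℂ_[2]] {x : V} (hx : IsEisVec x) (L : V →ₗ[ℤ_[2]] ℤ_[2])
    (hL : KillsEis fun ψ => zCp (L ψ)) : L x = 0 := by
  have h := hx (castLin L) hL
  rw [← norm_eq_zero, ← norm_zCp (L x)]
  exact norm_eq_zero.2 h

variable [Algebra Qbar ℂ_[2]]

local notation "ιA" => (algebraMap (AlgebraicClosure ℚ) ℂ_[2] : AlgebraicClosure ℚ →+* ℂ_[2])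

/-- Inertia moves an Eisenstein class within the kernel of `δ`. -/
lemma IsEisVec.galLin_sub_mem {x : V} (hx : IsEisVec x) (g : (padVal ιA).decompositionSubgroup ℚ)
    (hg : (g : GQ) ∈ (padVal ιA).inertiaSubgroupIn ℚ) : galLin 2 (g : GQ) x - x ∈ delKer 2 N := by
  refine mem_delKer.2 (PowerSeries.ext fun m => ?_)
  rw [map_zero]
  let f : V →ₛₗ[(zCp (ℓ := 2))] ℂ_[2] :=
    { toFun := fun ψ => coeff m (delt (galLin 2 (g : GQ) ψ - ψ))
      map_add' := fun ψ ψ' => by rw [map_add, add_sub_add_comm, delt_add, map_add]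
      map_smul' := fun a ψ => by
        rw [map_smul, show a • galLin 2 (g : GQ) ψ - a • ψ = a • (galLin 2 (g : GQ) ψ - ψ) from
          (smul_sub a _ _).symm, coeff_delt_smul, smul_eq_mul] }
  refine hx f ?_
  intro O _ _ _ _ _ _ _ _ χ h lam v
  obtain ⟨w, hw, he⟩ := galLin_sub_eigPsi h g hg lam v
  show coeff m (delt (galLin 2 (g : GQ) _ - _)) = 0
  rw [he]
  exact hw lam m

/-- The logarithms of the roots extend to all homomorphisms. -/
lemma exists_uLin_ext (D : DiscPt 2 N) :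
    ∃ u : V →ₗ[ℤ_[2]] ℤ_[2], ∀ ψ : delKer 2 N, u ψ = D.uLin ψ := by
  have : Module.Finite ℤ_[2] V :=
    Module.Finite.equiv (parabolicCoords (Gamma0 N) ℤ_[2] ℤ_[2]).symm
  have hsat : ∀ (a : ℤ_[2]) (ψ : V), a ≠ 0 → a • ψ ∈ delKer 2 N → ψ ∈ delKer 2 N := by
    intro a ψ ha h
    refine mem_delKer.2 (PowerSeries.ext fun m => ?_)
    have h1 := congrArg (coeff m) (mem_delKer.1 h)
    rw [coeff_delt_smul, map_zero, mul_eq_zero] at h1
    rw [map_zero]
    exact h1.resolve_left (fun h0 => ha (by rw [← norm_eq_zero, ← norm_zCp a, h0, norm_zero]))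
  have : Module.IsTorsionFree ℤ_[2] (V ⧸ delKer 2 N) := by
    refine .of_smul_eq_zero fun a q h => ?_
    obtain ⟨ψ, rfl⟩ := Submodule.mkQ_surjective _ q
    rw [← map_smul, Submodule.mkQ_apply, Submodule.Quotient.mk_eq_zero] at h
    by_cases ha : a = 0
    · exact Or.inl ha
    · exact Or.inr (by
        rw [Submodule.mkQ_apply, Submodule.Quotient.mk_eq_zero]; exact hsat a ψ ha h)
  have : Module.Free ℤ_[2] (V ⧸ delKer 2 N) := Module.free_of_finite_type_torsion_free'
  obtain ⟨s, hs⟩ := Module.projective_lifting_property (delKer 2 N).mkQ LinearMap.id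
    (Submodule.mkQ_surjective _)
  have hmem : ∀ ψ : V, (LinearMap.id - s.comp (delKer 2 N).mkQ : V →ₗ[ℤ_[2]] V) ψ ∈ delKer 2 N :=
    fun ψ => by
      rw [← Submodule.Quotient.mk_eq_zero, ← Submodule.mkQ_apply, LinearMap.sub_apply, map_sub,
        LinearMap.id_apply, LinearMap.comp_apply, ← LinearMap.comp_apply (delKer 2 N).mkQ s, hs,
        LinearMap.id_apply, sub_self]
  refine ⟨D.uLin.comp (LinearMap.codRestrict _ _ hmem), fun ψ => ?_⟩
  rw [LinearMap.comp_apply]
  congr 1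
  refine Subtype.ext ?_
  show (ψ : V) - s ((delKer 2 N).mkQ (ψ : V)) = (ψ : V)
  rw [Submodule.mkQ_apply, (Submodule.Quotient.mk_eq_zero _).2 ψ.2, map_zero, sub_zero]

variable [Algebra Qbar ℂ_[3]]

local notation "ιB" => (algebraMap (AlgebraicClosure ℚ) ℂ_[3] : AlgebraicClosure ℚ →+* ℂ_[3])

/-- **No point on both discs**: with a class whose `δ` is congruent to the Eisenstein series no
rational point lies in both the `2`-adic and the `3`-adic disc around the cusp. -/
theorem no_discPt_pair (hN : N.Prime) (h2N : 2 ≠ N) (hN3 : N ≠ 3) {z : V}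
    (hz : ∀ j, ‖coeff j (delt z) - (Period.Eis.sigP N j : ℂ_[2])‖ < 1)
    (D : DiscPt 2 N) (D3 : DiscPt 3 N) (hD : D3.toFixPt = D.toFixPt) : False := by
  obtain ⟨x, hx, hx1⟩ := exists_isEisVec hN h2N hz
  obtain ⟨U, hU⟩ := exists_uThree D3
  rw [hD] at hU
  have hA : (padVal ιB).LiesOverPrime 3 := padVal_liesOverPrime
  have hkum : ∀ g : GQ, D.kumLin 2 g x = padCyclo 2 g * U (galLin 2 g⁻¹ x) - U x := fun g => by
    refine sub_eq_zero.1 (hx.apply_eq_zero
      (D.kumLin 2 g - (padCyclo 2 g • U.comp (galLin 2 g⁻¹) - U)) ?_)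
    intro O _ _ _ _ _ _ _ _ χ h lam v
    simp only [LinearMap.sub_apply, LinearMap.smul_apply, LinearMap.comp_apply, smul_eq_mul]
    rw [(exact_eigPsi h hN3 D hA U hU).1 g lam v, sub_self, map_zero]
  obtain ⟨u, hu⟩ := exists_uLin_ext D
  have hd : ∀ (g : (padVal ιA).decompositionSubgroup ℚ)
      (hg : (g : GQ) ∈ (padVal ιA).inertiaSubgroupIn ℚ),
      D.uLin ⟨_, hx.galLin_sub_mem g hg⟩ = U (galLin 2 (g : GQ) x - x) := fun g hg => by
    rw [← hu]
    refine sub_eq_zero.1 (hx.apply_eq_zero ((u - U).comp (galLin 2 (g : GQ) - LinearMap.id)) ?_)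
    intro O _ _ _ _ _ _ _ _ χ h lam v
    obtain ⟨w, hw, he⟩ := galLin_sub_eigPsi h g hg lam v
    simp only [LinearMap.comp_apply, LinearMap.sub_apply, LinearMap.id_apply]
    rw [he, hu ⟨_, mem_delKer_of_mem_wLat hw lam⟩,
      (exact_eigPsi h hN3 D hA U hU).2 lam w hw, sub_self, map_zero]
  set g₀ := serVal D.hr (gInf x) (isP1_gInf x).2 with hg₀
  have e : ∀ k (p q : ℤ_[2]), algebraMap Qbar ℂ_[2] (zp 2 k p) * algebraMap Qbar ℂ_[2] (zp 2 k q) =
      algebraMap Qbar ℂ_[2] (zp 2 k (p + q)) := fun k p q => by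
    rw [AddChar.map_add_eq_mul, map_mul]
  have hg : g₀ = 1 := by
    refine eq_one_of_fixed_roots ((norm_serVal_sub_one_le D.hr (isP1_gInf x)).trans_lt D.hr)
      (fun k => D.rootU k x * algebraMap Qbar ℂ_[2] (zp 2 k (-U x))) (fun k => ?_)
        (fun k τ hτ => ?_)
    · rw [mul_pow, D.rootU_pow, ← map_pow, zp_pow_eq_one, map_one, mul_one]
    · have hτ' : ((τ⁻¹ : (padVal ιA).decompositionSubgroup ℚ) : GQ) ∈
          (padVal ιA).inertiaSubgroupIn ℚ := inv_mem hτ
      set d := galLin 2 (τ : GQ)⁻¹ x - x with hddef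
      have hdU : D.uLin ⟨d, hx.galLin_sub_mem τ⁻¹ hτ'⟩ = U d := hd τ⁻¹ hτ'
      have hsplit : galLin 2 (τ : GQ)⁻¹ x = x + d := (add_sub_cancel _ _).symm
      have key := D.galExt_rootU τ k x
      rw [hkum, hsplit, D.rootU_add, map_mul, ← D.uLin_spec ⟨d, hx.galLin_sub_mem τ⁻¹ hτ'⟩, hdU,
        galExt_apply, apply_zp] at key
      rw [map_mul, galExt_apply, apply_zp]
      refine mul_right_cancel₀ (b := algebraMap Qbar ℂ_[2]
        (zp 2 k (padCyclo 2 (τ : GQ) * U d))) ((_root_.map_ne_zero _).2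
          (AddChar.val_isUnit _ _).ne_zero) ?_
      rw [mul_right_comm, key, mul_right_comm, e, mul_assoc, e, mul_comm (D.rootU k x)]
      congr 3
      rw [map_add]
      ring
  have h1 : ‖coeff 1 (gInf x)‖ = 1 := by
    have h' := congrArg (coeff 1) (theta_gInf x)
    rw [coeff_theta, Nat.cast_one, one_mul, coeff_one_mul] at h'
    rw [show coeff 1 (gInf x) = coeff 1 (delt x) by
      simpa [← coeff_zero_eq_constantCoeff_apply, coeff_zero_delt,
        (coeff_zero_eq_constantCoeff_apply _).trans (isP1_gInf x).1] using h', hx1]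
  have hn := norm_serVal_sub_one_eq D.hr D.hr0 (isP1_gInf x) h1
  rw [← hg₀, hg, sub_self, norm_zero] at hn
  exact norm_ne_zero_iff.2 D.hr0 hn.symm

end FermatAgent.Mazur.Edge

end
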