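import Fermat.Agent.Mazur.EdgeMult
import Fermat.Agent.Mazur.EdgeConn
import Fermat.Agent.Mazur.EigenSetting
import Fermat.Agent.Flat.Kummer.Galois
import Fermat.Agent.Flat.Hecke.FlatModule

/-!
# `δ₁` does not vanish on an Eisenstein eigenlattice at `2`

Otherwise inertia would act on the lattice modulo `4` by the cyclotomic character, against the
determinant.
-/

set_option autoImplicit false

noncomputable section

open scoped Classical MatrixGroups Matrix ModularForm
open IsLocalRing AlgebraicCurve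
open CongruenceSubgroup (Gamma0)
open ModularCurve (coeffMap qExpand)
open ModularCurve.Period
open FermatAgent.Curve FermatAgent.GaloisBasic
open FermatAgent.Period (parRank parElt parabolicCoords)
open FermatAgent.ES (parGroup padChar galChar IsTwist HasExp hasExp_one_twist goodLevel_Gamma0
  eigLat eigEnd eigBasis galLin padCyclo)

namespace FermatAgent.Mazur.Edge

attribute [-instance] IsScalarTower.of_algHom
attribute [local instance 10000] SubalgebraClass.toAlgebra

attribute [local instance] Mazur.embAlg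

local notation "Qbar" => AlgebraicClosure ℚ
local notation "psQ" => HahnSeries.ofPowerSeries ℤ (AlgebraicClosure ℚ)

variable [Algebra Qbar ℂ_[2]] {N : ℕ} [NeZero N]

local notation "ιA" => (algebraMap (AlgebraicClosure ℚ) ℂ_[2] : AlgebraicClosure ℚ →+* ℂ_[2])
local notation "lsI" => lsMap (L := AlgebraicClosure ℚ) (K := ℂ_[2])
local notation "V" => parabolicHoms ℤ_[2] (Gamma0 N) ℤ_[2]

variable {O : Type} [CommRing O] [IsDomain O] [IsDiscreteValuationRing O] [CharZero O]
  [Algebra ℤ_[2] O] [Module.Finite ℤ_[2] O] {χ : CuspForm.heckeAlgebra N 2 ∅ →+* O}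

local notation "ιO" => (algebraMap ℤ_[2] O : ℤ_[2] →+* O)

/-! ### Kummer classes with trivial limit series -/

omit [Algebra Qbar ℂ_[2]] in
theorem psC_deltaSer :
    Flat.Kummer.deltaSer 1 = lsC (psQ (Mazur.deltaSer : PowerSeries Qbar)) := by
  rw [ModularCurve.coeffMap_ofPowerSeries, Flat.Kummer.deltaSer, ModularCurve.qExpand_one_apply,
    Mazur.deltaSer]
  congr 1
  rw [map_mul psC,
    show psC (PowerSeries.X : PowerSeries Qbar) = PowerSeries.X from PowerSeries.map_X _]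
  congr 1
  ext j
  simp [psC]

/-- Classes with trivial limit series are fourth powers on the disc. -/
theorem exists_fourth {ψ : V} (hψ : delt ψ = 0) {c : Pic0 Qbar (jField Qbar N)}
    (hc : Flat.Kummer.IsKummer (2 ^ 2) (padChar 2 2 ψ : Gamma0 N →* ℂˣ) c) :
    ∃ (D : Divisor.degZero (K := Qbar) (F := jField Qbar N)) (f : jField Qbar N),
      Pic0.mk D = c ∧ f ≠ 0 ∧ divisorOf f = 4 • (D : Divisor Qbar (jField Qbar N)) ∧
        IsFourth (lsI (f : LaurentSeries Qbar)) := by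
  set φ := padChar 2 2 ψ
  have hn : 0 < 2 ^ 2 := by norm_num
  obtain ⟨w, cw, D, f, hw, hw0, hwc, hf, hD, hl⟩ := Flat.Kummer.exists_isKummer_form hn φ
    fun δ hδ => Flat.Hecke.padRange_torsion 2 N 2 (Flat.Hecke.padChar_mem 2 N 2 ψ) hδ
  refine ⟨D, f, (hc.class_unique hn (Flat.Kummer.isKummer_of_form hw hw0 hf hD hl)).symm, hf,
    by simpa using hD, ?_⟩
  -- the series of the root
  set c₁ := UpperHalfPlane.qExpansion ((1 : ℕ) : ℝ) w
  have hc1 : HasExp 1 w c₁ := hasExp_one_twist (goodLevel_Gamma0 N).T_mem φ.2.2 hw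
  have hser := Flat.Kummer.kumRoot_series (M := 1) (2 ^ 2) hc1 hl
  rw [ModularCurve.qExpand_one_apply, psC_deltaSer, ← map_pow, ← map_mul] at hser
  set d : PowerSeries Qbar := Mazur.deltaSer
  have hd0 : psQ d ≠ 0 := psQ_ne_zero_of_exp hasExp_discriminant fun h =>
    ModularForm.discriminant_ne_zero UpperHalfPlane.I (congrFun h _)
  have hs0 : (f : LaurentSeries Qbar) * psQ d ^ 2 ^ 2 ≠ 0 :=
    mul_ne_zero (fun h => hf (Subtype.ext h)) (pow_ne_zero _ hd0)
  obtain ⟨t, ht, ht4⟩ := Flat.Kummer.exists_descend_root hn hs0 hser.symm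
  set c : PowerSeries Qbar := PowerSeries.mk fun i => t.coeff (i : ℤ)
  have hct : psC c = c₁ := PowerSeries.ext fun i => by
    have e := congrArg (fun z : LaurentSeries ℂ => z.coeff (i : ℤ)) ht
    simp only [ModularCurve.coeffMap_coeff, HahnSeries.ofPowerSeries_apply_coeff] at e
    rw [PowerSeries.coeff_map, PowerSeries.coeff_mk, e]
  have hcq : psQ c = t :=
    Flat.Kummer.lsC_injective (by rw [ModularCurve.coeffMap_ofPowerSeries, hct, ht])
  have hS : IsMult N (φ : Gamma0 N →* ℂˣ) (psQ c / psQ d) :=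
    ⟨6, w, ModularForm.discriminant, c, d, by exact_mod_cast hw, hw0,
      by exact_mod_cast (isTwist_discriminant (N := N)),
      fun h => ModularForm.discriminant_ne_zero UpperHalfPlane.I (congrFun h _), hct ▸ hc1,
      hasExp_discriminant, div_mul_cancel₀ _ hd0⟩
  have hSf : (psQ c / psQ d) ^ 2 ^ 2 = (f : LaurentSeries Qbar) := by
    rw [div_pow, hcq, ht4, mul_div_assoc, div_self (pow_ne_zero _ hd0), mul_one]
  rw [← hSf, map_pow]
  obtain ⟨c', e, G, Z, hdec⟩ := isDec_lsI_pow (ℓ := 2) hS (padChar_pow_eq_one 2 ψ)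
  obtain ⟨he, hZ⟩ := hS.dvd_exp (padChar_pow_eq_one 2 ψ) hdec
  obtain ⟨H, hH, hGH⟩ := pcong_gInf_of_isMult (ℓ := 2) (k := 2) (ψ := ψ) hS
  rw [decG_eq hdec, gInf_eq_one_of_delt hψ, one_mul] at hGH
  exact isFourth_of_hasDec hdec (by simpa using he) (fun ρ => by simpa using hZ ρ) hH
    (by simpa using hGH)

/-- The classes of the characters of an unramified Galois module. -/
theorem exists_hom_fourth (M : Subgroup (parGroup (Gamma0 N) (2 ^ 2)))
    (hM : ∀ φ ∈ M, ∃ ψ : V, delt ψ = 0 ∧ padChar 2 2 ψ = φ)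
    (hgal : ∀ (σ : GQ), ∀ φ ∈ M, galChar (goodLevel_Gamma0 N) (2 ^ 2) σ φ ∈ M)
    (E : IntermediateField Qbar (LaurentSeries Qbar)) (hE : E = jField Qbar N) [IsFF Qbar E]
    (g : GQ → SemilinearAut Qbar E)
    (hg : ∀ σ (x : E), ((g σ • x : E) : LaurentSeries Qbar) =
      coeffMap (σ : Qbar →+* Qbar) (x : LaurentSeries Qbar)) :
    ∃ cls : Additive M →+ Pic0 Qbar E, Function.Injective cls ∧
      (∀ (σ : GQ) (φ : M),
        cls (Additive.ofMul ⟨_, hgal σ φ φ.2⟩) = g σ • cls (Additive.ofMul φ)) ∧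
      ∀ x, ∃ (D : Divisor.degZero (K := Qbar) (F := E)) (f : E), Pic0.mk D = cls x ∧ f ≠ 0 ∧
        divisorOf f = 4 • (D : Divisor Qbar E) ∧ IsFourth (lsI (f : LaurentSeries Qbar)) := by
  subst hE
  have hfin : ∀ φ ∈ M, ∀ δ : Gamma0 N, IsOfFinOrder δ → (φ : Gamma0 N →* ℂˣ) δ = 1 := by
    intro φ hφ δ hδ
    obtain ⟨ψ, -, rfl⟩ := hM φ hφ
    exact Flat.Hecke.padRange_torsion 2 N 2 (Flat.Hecke.padChar_mem 2 N 2 ψ) hδ
  obtain ⟨cls, hinj, hequiv, hkum⟩ := Flat.Kummer.exists_hom_isKummer (2 ^ 2) M hfin hgal g hg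
  refine ⟨cls, hinj, hequiv, fun x => ?_⟩
  obtain ⟨ψ, hψ, e⟩ := hM (x.toMul : parGroup (Gamma0 N) (2 ^ 2)) x.toMul.2
  exact exists_fourth hψ (e.symm ▸ hkum x.toMul)

omit [Algebra Qbar ℂ_[2]] in
/-- Characters detect multiplication by `a` when `σ` raises fourth roots of unity to that power. -/
theorem eq_nsmul_of_char {X : Type} [AddCommGroup X] [Finite X] {σ : GQ} {a : ℕ}
    (ha : ∀ ζ : Qbar, ζ ^ 2 ^ 2 = 1 → σ ζ = ζ ^ a) {u x : X} (hx : 2 ^ 2 • x = 0)
    (h : ∀ χ : Multiplicative X →* Qbarˣ, σ (χ (.ofAdd x) : Qbar) = χ (.ofAdd u)) : u = a • x := by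
  by_contra hne
  have : NeZero (Monoid.exponent (Multiplicative X) : Qbar) :=
    ⟨Nat.cast_ne_zero.2 Monoid.ExponentExists.of_finite.exponent_ne_zero⟩
  obtain ⟨χ, hχ⟩ := CommGroup.exists_apply_ne_one_of_hasEnoughRootsOfUnity
    (Multiplicative X) Qbar (a := Multiplicative.ofAdd (u - a • x))
    (fun h' => hne (sub_eq_zero.1 (Multiplicative.ofAdd.injective h')))
  refine hχ ?_
  have h4' : (χ (.ofAdd x) : Qbar) ^ 2 ^ 2 = 1 := by
    rw [← Units.val_pow_eq_pow_val, ← map_pow, ← ofAdd_nsmul, hx, ofAdd_zero, map_one,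
      Units.val_one]
  have h' := h χ
  rw [ha _ h4', ← Units.val_pow_eq_pow_val, ← map_pow, ← ofAdd_nsmul] at h'
  rw [ofAdd_sub, map_div, Units.ext h', div_self']

/-- **Inertia acts through the cyclotomic character on homomorphisms killed by `δ`.** -/
theorem padChar_galLin_inertia (hN : ¬ 2 ∣ N) (L' : AddSubgroup V)
    (hstab : ∀ (σ : GQ), ∀ ψ ∈ L', galLin 2 σ ψ ∈ L') (hzero : ∀ ψ ∈ L', delt ψ = 0)
    (hP : ∀ σ : GQ, ∃ j : ℕ, ∀ ψ ∈ L', padChar 2 2 (galLin 2 (σ ^ 2 ^ j) ψ) = padChar 2 2 ψ)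
    {σ : GQ} (hσ : σ ∈ (padVal ιA).inertiaSubgroupIn ℚ) {a : ℕ}
    (ha : ∀ ζ : Qbar, ζ ^ 2 ^ 2 = 1 → σ ζ = ζ ^ a) {ψ : V} (hψ : ψ ∈ L') :
    padChar 2 2 (galLin 2 σ ψ) = padChar 2 2 ψ ^ a := by
  have := ES.finite_parGroup (goodLevel_Gamma0 N) (2 ^ 2)
  let M : Subgroup (parGroup (Gamma0 N) (2 ^ 2)) :=
    (MonoidHom.mk' (fun χ : Multiplicative L' => padChar 2 2 (χ.toAdd : V))
      fun u v => ES.padChar_add 2 2 _ _).range
  have hgal : ∀ (σ : GQ), ∀ φ ∈ M, galChar (goodLevel_Gamma0 N) (2 ^ 2) σ φ ∈ M := by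
    rintro σ _ ⟨χ, rfl⟩
    exact ⟨Multiplicative.ofAdd ⟨_, hstab σ _ χ.toAdd.2⟩, ES.padChar_galPad 2 σ _ 2⟩
  let : DistribMulAction GQ (Additive M) :=
    { smul := fun σ x => Additive.ofMul ⟨galChar (goodLevel_Gamma0 N) (2 ^ 2) σ (x.toMul : _),
        hgal σ x.toMul x.toMul.2⟩
      one_smul := fun x => Additive.toMul.injective (Subtype.ext (by
        show galChar _ _ (1 : GQ) _ = _
        rw [map_one]; rfl))
      mul_smul := fun σ τ x => Additive.toMul.injective (Subtype.ext (by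
        show galChar _ _ (σ * τ) _ = galChar _ _ σ (galChar _ _ τ _)
        rw [map_mul]; rfl))
      smul_zero := fun σ => Additive.toMul.injective (Subtype.ext (map_one _))
      smul_add := fun σ x y => Additive.toMul.injective (Subtype.ext (map_mul _ _ _)) }
  have := Fact.mk Nat.prime_two
  have hFF := Curve.Red.isFF_bar N
  obtain ⟨cls, hcls, hequiv, h4⟩ := exists_hom_fourth M
    (fun φ hφ => by
      obtain ⟨χ, rfl⟩ := hφ
      exact ⟨χ.toAdd, hzero _ χ.toAdd.2, rfl⟩)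
    hgal _ (modularFunctionFieldBar_eq_jField N)
    (fun σ => ModularCurve.arithmeticGalois (ModularCurve.modularFunctionFieldFull N) σ)
    fun σ x => ModularCurve.coe_arithmeticGalois_smul _ σ x
  obtain ⟨L, Φ, hL, hLG, hsys, hconn⟩ := exists_isCoordSystem_conn hN cls hcls
    (fun σ x => hequiv σ x.toMul) h4
  let x : Additive M := Additive.ofMul ⟨padChar 2 2 ψ, Multiplicative.ofAdd ⟨ψ, hψ⟩, rfl⟩
  have hpow : ∀ y : Additive M, 2 ^ 2 • y = 0 := fun y => Additive.toMul.injective (Subtype.ext (by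
    rw [toMul_nsmul, toMul_zero, SubmonoidClass.coe_pow, OneMemClass.coe_one]
    exact Subtype.ext
      (by rw [SubgroupClass.coe_pow]; exact (y.toMul : parGroup (Gamma0 N) (2 ^ 2)).2.1)))
  have key : σ • x = a • x := by
    have : Finite (Additive M) := inferInstanceAs (Finite M)
    exact eq_nsmul_of_char ha (hpow x) fun χ =>
      char_inertia (padVal_liesOverPrime (ι := ιA)) hsys hconn
      (fun τ => by
        obtain ⟨j, hj⟩ := hP τ
        refine ⟨j, fun y => Additive.toMul.injective (Subtype.ext ?_)⟩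
        obtain ⟨χ', hχ'⟩ := y.toMul.2
        show galChar _ _ (τ ^ 2 ^ j) (y.toMul : parGroup (Gamma0 N) (2 ^ 2)) = y.toMul
        rw [← hχ']
        show galChar _ _ (τ ^ 2 ^ j) (padChar 2 2 (χ'.toAdd : V)) = padChar 2 2 (χ'.toAdd : V)
        rw [← ES.padChar_galPad]
        exact hj _ χ'.toAdd.2)
      (fun y => ⟨2, hpow y⟩) hσ χ x
  have h1 := congrArg (fun y : Additive M => (y.toMul : parGroup (Gamma0 N) (2 ^ 2))) key
  simp only [toMul_nsmul, SubmonoidClass.coe_pow] at h1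
  rw [show padChar 2 2 ψ ^ a = ((x.toMul : M) : parGroup (Gamma0 N) (2 ^ 2)) ^ a from rfl, ← h1,
    ES.galLin_apply, ES.padChar_galPad]
  rfl

/-! ### The eigenlattice -/

omit [Algebra Qbar ℂ_[2]] [CharZero O] [Algebra ℤ_[2] O] [Module.Finite ℤ_[2] O] in
/-- Powers of a residually unipotent matrix tend to the identity. -/
theorem pow_two_pow_congr (R : Matrix (Fin 2) (Fin 2) O) (h2 : (2 : O) ∈ maximalIdeal O)
    (h1 : ∀ i j : Fin 2, (R ^ 2 - 1 : Matrix (Fin 2) (Fin 2) O) i j ∈ maximalIdeal O) :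
    ∀ (m : ℕ) (i j : Fin 2), (R ^ 2 ^ (m + 1) - 1 : Matrix (Fin 2) (Fin 2) O) i j ∈
      maximalIdeal O ^ (m + 1) := by
  intro m
  induction m with
  | zero =>
    rw [show 2 ^ (0 + 1) = 2 from rfl, pow_one]
    exact h1
  | succ m ih =>
    intro i j
    set X := R ^ 2 ^ (m + 1) - 1
    have hX : R ^ 2 ^ (m + 1) = X + 1 := (sub_add_cancel _ _).symm
    rw [show R ^ 2 ^ (m + 1 + 1) - 1 = X * X + (X + X) by
      rw [pow_succ 2 (m + 1), pow_mul, hX, sq]; noncomm_ring,
      Matrix.add_apply, Matrix.add_apply, Matrix.mul_apply, Fin.sum_univ_two]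
    refine Ideal.add_mem _ (Ideal.add_mem _ ?_ ?_) ?_
    · rw [pow_succ _ (m + 1)]
      exact Ideal.mul_mem_mul (ih _ _) (Ideal.pow_le_self (Nat.succ_ne_zero m) (ih _ _))
    · rw [pow_succ _ (m + 1)]
      exact Ideal.mul_mem_mul (ih _ _) (Ideal.pow_le_self (Nat.succ_ne_zero m) (ih _ _))
    · rw [pow_succ _ (m + 1), ← mul_two]
      exact Ideal.mul_mem_mul (ih _ _) h2

variable (h : IsEisSystem 2 N χ)

include h

omit [Algebra Qbar ℂ_[2]] [Module.Finite ℤ_[2] O] in
/-- Galois acts on the eigenlattice modulo `4` through a `2`-group. -/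
theorem exists_pow_trivial (g : GQ) :
    ∃ j : ℕ, ∀ v : eigLat χ, ∃ w : eigLat χ, eigEnd ιO χ (g ^ 2 ^ j) v = v + (4 : O) • w := by
  have : Fact (Nat.Prime 2) := ⟨Nat.prime_two⟩
  have h2 : (2 : O) ∈ maximalIdeal O := by exact_mod_cast h.mem
  set e := eigBasis χ
  set R := frameMat (ℓ := 2) e g
  have hd : residue O R.det = 1 := by
    rw [h.det_frameMat, residue_padCyclo h.mem, cyc_eq_one_of_two rfl, ZMod.val_one, Nat.cast_one]
  have hd1 := h.det_frameMat_sub_one e g
  have hdm : R.det - 1 ∈ maximalIdeal O := by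
    rw [← IsLocalRing.residue_eq_zero_iff, map_sub, hd, map_one, sub_self]
  rw [IsLocalRing.residue_eq_zero_iff] at hd1
  have hsq : ∀ i j : Fin 2, (R ^ 2 - 1 : Matrix (Fin 2) (Fin 2) O) i j ∈ maximalIdeal O := by
    intro i j
    have he : (R ^ 2 - 1 : Matrix (Fin 2) (Fin 2) O) i j =
        ((R.det - 1) - (R - 1).det) * R i j - (R.det - 1) * (1 : Matrix _ _ O) i j
        + 2 * (R i j - (1 : Matrix _ _ O) i j) := by
      rw [sq]
      fin_cases i <;> fin_cases j <;>
        simp [Matrix.det_fin_two, Matrix.mul_apply, Fin.sum_univ_two] <;> ring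
    rw [he]
    exact Ideal.add_mem _ (Ideal.sub_mem _ (Ideal.mul_mem_right _ _ (Ideal.sub_mem _ hdm hd1))
      (Ideal.mul_mem_right _ _ hdm)) (Ideal.mul_mem_right _ _ h2)
  obtain ⟨k, hk⟩ := exists_pow_le_dvd (show (4 : O) ≠ 0 by norm_num)
  refine ⟨k + 1, fun v => ?_⟩
  set P := frameMat (ℓ := 2) e (g ^ 2 ^ (k + 1))
  have hP : ∀ i j, ∃ c : O, P i j = (1 : Matrix _ _ O) i j + 4 * c := fun i j => by
    obtain ⟨c, hc⟩ := hk _ (Ideal.pow_le_pow_right k.le_succ (pow_two_pow_congr R h2 hsq k i j))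
    refine ⟨c, ?_⟩
    rw [show P = R ^ 2 ^ (k + 1) from map_pow _ _ _, ← hc, Matrix.sub_apply, add_sub_cancel]
  choose c hc using hP
  refine ⟨e.repr v 0 • (c 0 0 • e 0 + c 1 0 • e 1) + e.repr v 1 • (c 0 1 • e 0 + c 1 1 • e 1), ?_⟩
  have hv := e.sum_repr v
  rw [Fin.sum_univ_two] at hv
  conv_lhs => rw [← hv]
  conv_rhs => arg 1; rw [← hv]
  rw [map_add, map_smul, map_smul, eigEnd_basis e, eigEnd_basis e]
  simp only [show frameMat (ℓ := 2) e (g ^ 2 ^ (k + 1)) = P from rfl, hc]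
  rw [Matrix.one_apply_eq, Matrix.one_apply_eq, Matrix.one_apply_ne (show (0 : Fin 2) ≠ 1 by simp),
    Matrix.one_apply_ne (show (1 : Fin 2) ≠ 0 by simp)]
  module

omit [Algebra Qbar ℂ_[2]] [Module.Finite ℤ_[2] O] in
/-- A power of `σ` fixes the characters of the eigenlattice modulo `4`. -/
theorem exists_pow_padChar (σ : GQ) :
    ∃ j : ℕ, ∀ ψ ∈ AddSubgroup.closure {ψ : V | ∃ (lam : O →ₗ[ℤ_[2]] ℤ_[2]) (v : eigLat χ),
        ψ = eigPsi lam (v : Fin (parRank (Gamma0 N)) → O)},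
      padChar 2 2 (galLin 2 (σ ^ 2 ^ j) ψ) = padChar 2 2 ψ := by
  have : Fact (Nat.Prime 2) := ⟨Nat.prime_two⟩
  have h4 : ∀ ψ : V, padChar 2 2 ((4 : ℤ_[2]) • ψ) = 1 := fun ψ => by
    rw [ES.padChar_smul, show PadicInt.toZModPow 2 (4 : ℤ_[2]) = 0 from by
      rw [map_ofNat]; decide, ZMod.val_zero, pow_zero]
  obtain ⟨j, hj⟩ := exists_pow_trivial h σ
  refine ⟨j, fun ψ hψ => ?_⟩
  induction hψ using AddSubgroup.closure_induction with
  | mem ψ hψ =>
    obtain ⟨lam, v, rfl⟩ := hψ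
    obtain ⟨w, hw⟩ := hj v
    rw [← eigPsi_eigEnd, hw, Submodule.coe_add, map_add, Submodule.coe_smul,
      show (4 : O) = ((4 : ℕ) : O) by norm_num, Nat.cast_smul_eq_nsmul, map_nsmul,
      ← Nat.cast_smul_eq_nsmul ℤ_[2], Nat.cast_ofNat, ES.padChar_add, h4, mul_one]
  | zero => rw [map_zero]
  | add a b _ _ ha hb => rw [map_add, ES.padChar_add, ES.padChar_add, ha, hb]
  | neg a _ ha =>
    rw [map_neg]
    have e1 := ES.padChar_add 2 2 (-(galLin 2 (σ ^ 2 ^ j) a)) (galLin 2 (σ ^ 2 ^ j) a)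
    have e2 := ES.padChar_add 2 2 (-a) a
    rw [neg_add_cancel] at e1 e2
    rw [e2, ha] at e1
    exact (mul_right_cancel e1).symm

omit h in
/-- An element of inertia cubing the fourth roots of unity. -/
theorem exists_inertia_cube :
    ∃ σ : GQ, σ ∈ (padVal ιA).inertiaSubgroupIn ℚ ∧ (∀ z : Qbar, z ^ 2 ^ 2 = 1 → σ z = z ^ 3) ∧
      PadicInt.toZModPow 2 (padCyclo 2 σ) = 3 := by
  have : Fact (Nat.Prime 2) := ⟨Nat.prime_two⟩
  obtain ⟨σ, hσ, ζ, hζ, hne⟩ := exists_inertia_moving_root ιA 1 (by decide)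
  norm_num at hζ
  have hroots : ∀ z : Qbar, z ^ 2 ^ 2 = 1 → σ z = z ^ 3 := by
    have hsplit : ∀ z : Qbar, z ^ 4 = 1 → z = 1 ∨ z = -1 ∨ z ^ 2 = -1 := fun z hz => by
      have : (z - 1) * (z + 1) * (z ^ 2 + 1) = 0 := by linear_combination hz
      rcases mul_eq_zero.1 this with h' | h'
      · rcases mul_eq_zero.1 h' with h'' | h''
        · exact Or.inl (sub_eq_zero.1 h'')
        · exact Or.inr (Or.inl (eq_neg_of_add_eq_zero_left h''))
      · exact Or.inr (Or.inr (eq_neg_of_add_eq_zero_left h'))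
    have hi : ζ ^ 2 = -1 := by
      rcases hsplit ζ hζ with rfl | rfl | h'
      · exact absurd (map_one σ) hne
      · exact absurd (by rw [map_neg, map_one]) hne
      · exact h'
    have hσi : σ ζ = -ζ := by
      have h' : σ ζ ^ 2 = ζ ^ 2 := by rw [← map_pow, hi, map_neg, map_one]
      exact (sq_eq_sq_iff_eq_or_eq_neg.1 h').resolve_left hne
    intro z hz
    norm_num at hz
    rcases hsplit z hz with rfl | rfl | h'
    · simp
    · rw [map_neg, map_one]; norm_num
    · have hz2 : z = ζ ∨ z = -ζ := sq_eq_sq_iff_eq_or_eq_neg.1 (h'.trans hi.symm)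
      rcases hz2 with hz2 | hz2 <;> subst z
      · rw [hσi]; linear_combination -ζ * hi
      · rw [map_neg, hσi]; linear_combination ζ * hi
  have hcyc : PadicInt.toZModPow 2 (padCyclo 2 σ) = 3 := by
    have : NeZero ((2 : ℕ) ^ 2) := ⟨by norm_num⟩
    obtain ⟨z, hz⟩ := FermatAgent.ES.exists_primitive_qbar 2 2
    have h1 := FermatAgent.ES.padCyclo_spec 2 σ 2 hz.pow_eq_one
    rw [hroots z hz.pow_eq_one] at h1
    have := hz.pow_inj (by norm_num) (ZMod.val_lt _) h1
    refine (ZMod.val_injective (2 ^ 2)) ?_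
    rw [← this]
    rfl
  exact ⟨σ, hσ, hroots, hcyc⟩

omit [Algebra Qbar ℂ_[2]] [Module.Finite ℤ_[2] O] in
/-- Inertia is not the scalar `3` on the eigenlattice modulo `4`. -/
theorem not_scalar_three {σ : GQ} (hcyc : PadicInt.toZModPow 2 (padCyclo 2 σ) = 3)
    (hscal : ∀ v : eigLat χ, ∃ w : eigLat χ,
      eigEnd ιO χ σ v = (3 : O) • v + (4 : O) • w) : False := by
  have : Fact (Nat.Prime 2) := ⟨Nat.prime_two⟩
  set e := eigBasis χ
  choose w hw using fun j => hscal (e j)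
  have hM : ∀ i j, frameMat (ℓ := 2) e σ i j =
      3 * (1 : Matrix (Fin 2) (Fin 2) O) i j + 4 * e.repr (w j) i := fun i j => by
    rw [frameMat_apply, hw, map_add, map_smul, map_smul, Finsupp.add_apply, Finsupp.smul_apply,
      Finsupp.smul_apply, Module.Basis.repr_self, smul_eq_mul, smul_eq_mul, Matrix.one_apply,
      Finsupp.single_apply]
    simp [eq_comm]
  have hdet := h.det_frameMat e σ
  rw [Matrix.det_fin_two, hM, hM, hM, hM] at hdet
  have hc : padCyclo 2 σ - 3 ∈ RingHom.ker (PadicInt.toZModPow (p := 2) 2) := by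
    rw [RingHom.mem_ker, map_sub, hcyc, map_ofNat, sub_self]
  rw [PadicInt.ker_toZModPow, Ideal.mem_span_singleton] at hc
  obtain ⟨t, ht⟩ := hc
  rw [sub_eq_iff_eq_add.1 ht, map_add, map_mul, map_pow, map_ofNat, map_natCast] at hdet
  norm_num at hdet
  have hone : IsUnit (2 : O) := by
    set W : Fin 2 → Fin 2 → O := fun i j => e.repr (w j) i
    refine isUnit_iff_exists_inv.2
      ⟨ιO t - 1 - 3 * W 1 1 - 3 * W 0 0 - 4 * W 0 0 * W 1 1 + 4 * W 0 1 * W 1 0, ?_⟩
    refine mul_left_cancel₀ (show (2 : O) ≠ 0 by norm_num) ?_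
    linear_combination -hdet
  exact (IsLocalRing.mem_maximalIdeal _).1 (by exact_mod_cast h.mem) hone

/-- **`δ₁` does not vanish on the eigenlattice.** -/
theorem exists_coeff_one_ne_zero (hN : ¬ 2 ∣ N) :
    ∃ (lam : O →ₗ[ℤ_[2]] ℤ_[2]) (v : eigLat χ),
      PowerSeries.coeff 1 (delt (eigPsi lam (v : Fin (parRank (Gamma0 N)) → O))) ≠ 0 := by
  by_contra hcon
  push Not at hcon
  have : Fact (Nat.Prime 2) := ⟨Nat.prime_two⟩
  have hall : ∀ (m : ℕ) (lam : O →ₗ[ℤ_[2]] ℤ_[2]) (v : eigLat χ),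
      PowerSeries.coeff m (delt (eigPsi lam (v : Fin (parRank (Gamma0 N)) → O))) = 0 := by
    intro m
    induction m using Nat.strong_induction_on with
    | _ m ih =>
      intro lam v
      rcases Nat.lt_or_ge m 2 with hm | hm
      · interval_cases m
        · exact coeff_zero_delt _
        · exact hcon lam v
      obtain ⟨q, hq, k, rfl⟩ : ∃ q, q.Prime ∧ ∃ k, m = q * k :=
        ⟨m.minFac, Nat.minFac_prime (by omega), _, (Nat.mul_div_cancel' (Nat.minFac_dvd m)).symm⟩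
      have := Fact.mk hq
      have hlt : k < q * k :=
        lt_mul_left (Nat.pos_of_ne_zero fun hk => by simp [hk] at hm) hq.one_lt
      have he := coeff_delt_heckeV (q := q) (eigPsi lam (v : Fin (parRank (Gamma0 N)) → O)) k
      rw [← tV_apply, tV_eigPsi χ hq lam v.2, show PowerSeries.coeff k
        (delt (eigPsi lam (χ (hop N hq) • (v : Fin (parRank (Gamma0 N)) → O)))) = 0 from
          ih k hlt lam (χ (hop N hq) • v)] at he
      split_ifs at he
      · rw [ih _ ((Nat.div_le_self k q).trans_lt hlt) lam v, mul_zero, add_zero] at he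
        exact he.symm
      · rw [add_zero] at he
        exact he.symm
  let gens : Set V := {ψ | ∃ (lam : O →ₗ[ℤ_[2]] ℤ_[2]) (v : eigLat χ),
    ψ = eigPsi lam (v : Fin (parRank (Gamma0 N)) → O)}
  set L' := AddSubgroup.closure gens
  have hzero : ∀ ψ ∈ L', delt ψ = 0 := fun ψ hψ => by
    induction hψ using AddSubgroup.closure_induction with
    | mem ψ hψ =>
      obtain ⟨lam, v, rfl⟩ := hψ
      exact PowerSeries.ext fun m => (hall m lam v).trans (map_zero _).symm
    | zero => exact delt_zero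
    | add a b _ _ ha hb => rw [delt_add, ha, hb, add_zero]
    | neg a _ ha =>
      have h1 := delt_add a (-a)
      rw [add_neg_cancel, delt_zero, ha, zero_add] at h1
      exact h1.symm
  have hstab : ∀ (σ : GQ), ∀ ψ ∈ L', galLin 2 σ ψ ∈ L' := fun σ ψ hψ => by
    induction hψ using AddSubgroup.closure_induction with
    | mem ψ hψ =>
      obtain ⟨lam, v, rfl⟩ := hψ
      rw [← eigPsi_eigEnd]
      exact AddSubgroup.subset_closure ⟨lam, _, rfl⟩
    | zero => rw [map_zero]; exact L'.zero_mem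
    | add a b _ _ ha hb => rw [map_add]; exact L'.add_mem ha hb
    | neg a _ ha => rw [map_neg]; exact L'.neg_mem ha
  have hP := fun σ => exists_pow_padChar h σ
  obtain ⟨σ, hσ, hroots, hcyc⟩ := exists_inertia_cube
  -- the matrix of `σ` is scalar modulo `4`
  have := isTorsionFree_padicInt (ℓ := 2) (O := O)
  have : Module.Free ℤ_[2] O := Module.free_of_finite_type_torsion_free'
  have hscal : ∀ v : eigLat χ, ∃ w : eigLat χ, eigEnd ιO χ σ v = (3 : O) • v + (4 : O) • w := by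
    intro v
    set y : eigLat χ := eigEnd ιO χ σ v - (3 : O) • v
    have hdiv : ∀ k, ∃ z : O, (y : Fin (parRank (Gamma0 N)) → O) k = 4 * z := by
      intro k
      set o := Module.Free.chooseBasis ℤ_[2] O
      have hs : ∀ s, (4 : ℤ_[2]) ∣ o.coord s ((y : Fin (parRank (Gamma0 N)) → O) k) := fun s => by
        set ψ := eigPsi (o.coord s) (v : Fin (parRank (Gamma0 N)) → O) with hψdef
        have h1 := padChar_galLin_inertia hN L' hstab hzero hP hσ hroots
          (AddSubgroup.subset_closure ⟨o.coord s, v, rfl⟩ : ψ ∈ L')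
        have h2 : padChar 2 2 ψ ^ 3 = padChar 2 2 (3 • ψ) := by
          rw [show 3 • ψ = ψ + (ψ + ψ) by abel, ES.padChar_add, ES.padChar_add, pow_three]
        rw [h2, hψdef, ← eigPsi_eigEnd, ← map_nsmul] at h1
        have h4' := ES.dvd_of_padChar_eq 2 h1 (parElt (Gamma0 N) k)
        have hc : ∀ u : Fin (parRank (Gamma0 N)) → O,
            (eigPsi (o.coord s) u).1 (Additive.ofMul (parElt (Gamma0 N) k)) = o.coord s (u k) :=
          fun u => congrFun (coords_eigPsi (o.coord s) u) k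
        rw [hc, hc, ← map_sub] at h4'
        have hy : (y : Fin (parRank (Gamma0 N)) → O) k =
            (eigEnd ιO χ σ v : Fin (parRank (Gamma0 N)) → O) k -
              (3 • (v : Fin (parRank (Gamma0 N)) → O)) k := by
          rw [Submodule.coe_sub, Submodule.coe_smul, Pi.sub_apply, Pi.smul_apply, Pi.smul_apply,
            smul_eq_mul, nsmul_eq_mul, Nat.cast_ofNat]
        rw [hy]
        norm_num [map_sub] at h4' ⊢
        exact h4'
      choose z hz using hs
      refine ⟨∑ s, z s • o s, ?_⟩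
      conv_lhs => rw [← o.sum_repr ((y : Fin (parRank (Gamma0 N)) → O) k)]
      rw [Finset.mul_sum]
      refine Finset.sum_congr rfl fun s _ => ?_
      rw [show o.repr ((y : Fin (parRank (Gamma0 N)) → O) k) s = 4 * z s from hz s, mul_smul,
        Algebra.smul_def, map_ofNat]
    choose z hz using hdiv
    have hzm : z ∈ eigLat χ := by
      rw [FermatAgent.ES.mem_eigLat]
      intro t
      have h1 := (FermatAgent.ES.mem_eigLat χ).1 y.2 t
      rw [show (y : Fin (parRank (Gamma0 N)) → O) = (4 : O) • z from funext hz, Matrix.mulVec_smul,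
        smul_comm] at h1
      exact smul_right_injective _ (show (4 : O) ≠ 0 by norm_num) h1
    refine ⟨⟨z, hzm⟩, ?_⟩
    have : y = (4 : O) • (⟨z, hzm⟩ : eigLat χ) := Subtype.ext (funext hz)
    rw [← this, add_sub_cancel]
  exact not_scalar_three h hcyc hscal

end FermatAgent.Mazur.Edge

end
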