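import Fermat.Agent.Mazur.CuspLocal
import Fermat.Agent.Mazur.EdgeHnz

/-!
# Exactness of the Kummer class of a point near the cusp at `3`

On an Eisenstein eigenlattice at `2` the Kummer cocycle of a fixed point is the coboundary of the
integral potential `U` which it has on a decomposition group at `3`, and `U` gives the roots of
unity on the line killed by `δ`.
-/

set_option autoImplicit false

noncomputable section

open scoped Classical MatrixGroups Matrix
open IsLocalRing
open CongruenceSubgroup (Gamma0)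
open ModularCurve.Period
open FermatAgent.Period (parRank)
open FermatAgent.ES (eigLat eigEnd galLin padCyclo)
open FermatAgent.GaloisBasic

namespace FermatAgent.Mazur.Edge

attribute [local instance] Mazur.embAlg

local notation "Qbar" => AlgebraicClosure ℚ

variable [Algebra Qbar ℂ_[2]] {N : ℕ} [NeZero N]

local notation "V" => parabolicHoms ℤ_[2] (Gamma0 N) ℤ_[2]
local notation "ιA" => (algebraMap (AlgebraicClosure ℚ) ℂ_[2] : AlgebraicClosure ℚ →+* ℂ_[2])

variable {O : Type} [CommRing O] [IsDomain O] [IsDiscreteValuationRing O] [CharZero O]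
  [Algebra ℤ_[2] O] [Module.Finite ℤ_[2] O] [Module.Free ℤ_[2] O]
  {χ : CuspForm.heckeAlgebra N 2 ∅ →+* O}

local notation "ιO" => (algebraMap ℤ_[2] O : ℤ_[2] →+* O)

section

omit [IsDomain O] [IsDiscreteValuationRing O] [CharZero O]

omit [Algebra Qbar ℂ_[2]] [Module.Finite ℤ_[2] O] in
/-- A vector all of whose homomorphisms vanish is zero. -/
theorem eq_zero_of_eigPsi {v : eigLat χ}
    (h : ∀ lam : O →ₗ[ℤ_[2]] ℤ_[2], eigPsi lam (v : Fin (parRank (Gamma0 N)) → O) = 0) :
    v = 0 := by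
  refine Subtype.ext (funext fun k => eq_of_forall_lam (ℓ := 2) fun lam => ?_)
  have := congrFun (coords_eigPsi lam (v : Fin (parRank (Gamma0 N)) → O)) k
  rw [h, map_zero] at this
  simpa using this.symm

omit [Module.Finite ℤ_[2] O] in
/-- The congruence relation on the eigenlattice. -/
theorem eigEnd_congruence {q : ℕ} (hq : q.Prime) (hqN : ¬ q ∣ N) (hq2 : q ≠ 2)
    {A : ValuationSubring Qbar} (hA : A.LiesOverPrime q) {F : GQ} (hF : A.IsFrobeniusAt F q)
    (v : eigLat χ) :
    eigEnd ιO χ F (eigEnd ιO χ F v) - χ (hop N hq) • eigEnd ιO χ F v + (q : O) • v = 0 := by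
  refine eq_zero_of_eigPsi fun lam => ?_
  rw [Submodule.coe_add, Submodule.coe_sub, map_add, map_sub, Submodule.coe_smul,
    Submodule.coe_smul, Nat.cast_smul_eq_nsmul, map_nsmul,
    ← tV_eigPsi χ hq lam (eigEnd ιO χ F v).2, eigPsi_eigEnd, eigPsi_eigEnd]
  exact FixPt.galLin_congruence hq hqN hq2 hA hF _

end

variable [IsAdicComplete (maximalIdeal O) O]

/-- **Exactness on an Eisenstein eigenlattice**: a Kummer cocycle which is a coboundary on a
decomposition group at `3` is one globally on the lattice, and agrees there with the logarithms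
of the roots on the kernel of `δ`. -/
theorem exact_eigPsi (h : IsEisSystem 2 N χ) (hN3 : N ≠ 3) (D : DiscPt 2 N)
    {A : ValuationSubring Qbar} (hA : A.LiesOverPrime 3) (U : V →ₗ[ℤ_[2]] ℤ_[2])
    (hU : ∀ g ∈ A.decompositionSubgroup ℚ, ∀ ψ : V,
      D.toFixPt.kumLin 2 g ψ = padCyclo 2 g * U (galLin 2 g⁻¹ ψ) - U ψ) :
    (∀ (g : GQ) (lam : O →ₗ[ℤ_[2]] ℤ_[2]) (v : eigLat χ),
      D.toFixPt.kumLin 2 g (eigPsi lam (v : Fin (parRank (Gamma0 N)) → O)) =
        padCyclo 2 g * U (galLin 2 g⁻¹ (eigPsi lam (v : Fin (parRank (Gamma0 N)) → O))) -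
          U (eigPsi lam (v : Fin (parRank (Gamma0 N)) → O))) ∧
    ∀ (lam : O →ₗ[ℤ_[2]] ℤ_[2]) (v : eigLat χ) (_ : v ∈ wLat 2 χ)
      (hv : eigPsi lam (v : Fin (parRank (Gamma0 N)) → O) ∈ delKer 2 N),
      D.uLin ⟨_, hv⟩ = U (eigPsi lam (v : Fin (parRank (Gamma0 N)) → O)) := by
  have h2N : ¬ 2 ∣ N := h.not_dvd
  obtain ⟨S, E, hS⟩ := h.exists_descentSetting (exists_coeff_one_ne_zero h h2N)
  obtain ⟨m, X, hmain, hu⟩ := D.exists_potential hS h.prime h.mem
  set UO : eigLat χ →ₗ[O] O := liftLin U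
  set Y : eigLat χ →ₗ[O] O := X - ((2 ^ m : ℕ) : O) • UO with hY
  have hcob : ∀ g ∈ A.decompositionSubgroup ℚ, ∀ v : eigLat χ,
      ιO (padCyclo 2 g) * Y (eigEnd ιO χ g⁻¹ v) = Y v := by
    intro g hg v
    have h1 : D.kumO χ g v = ιO (padCyclo 2 g) * UO (eigEnd ιO χ g⁻¹ v) - UO v := by
      refine eq_of_forall_lam (ℓ := 2) fun lam => ?_
      rw [D.lam_kumO, map_sub, lam_algebraMap_mul, lam_liftLin, lam_liftLin, eigPsi_eigEnd]
      exact hU g hg _
    have h2 := hmain g v
    rw [h1] at h2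
    simp only [hY, LinearMap.sub_apply, LinearMap.smul_apply, smul_eq_mul]
    linear_combination -h2
  obtain ⟨F, hF⟩ := exists_isFrobeniusAt Nat.prime_three hA
  obtain ⟨hFD, -⟩ := id hF
  have : Fact (Nat.Prime 3) := ⟨Nat.prime_three⟩
  have h3 : ¬ 3 ∣ N :=
    fun hd => hN3 ((Nat.prime_dvd_prime_iff_eq Nat.prime_three h.prime).1 hd).symm
  have hcyc : ιO (padCyclo 2 F) = 3 := by
    rw [FermatAgent.ES.padCyclo_frobenius 2 Nat.prime_three (by norm_num) hA hF, map_natCast]
    norm_num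
  have hYF : ∀ v : eigLat χ, Y (eigEnd ιO χ F v) = 3 * Y v := fun v => by
    have h1 := hcob F hFD (eigEnd ιO χ F v)
    rw [← Module.End.mul_apply, ← map_mul, inv_mul_cancel, map_one,
      Module.End.one_apply, hcyc] at h1
    exact h1.symm
  have hY0 : ∀ v, Y v = 0 := fun v => by
    have h1 := congrArg Y (eigEnd_congruence Nat.prime_three h3 (by norm_num) hA hF v)
    rw [map_zero, map_add, map_sub, map_smul, map_smul, hYF, hYF, smul_eq_mul, smul_eq_mul] at h1
    have hne : χ (hop N Nat.prime_three) - 4 ≠ 0 := fun h0 => by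
      refine FermatAgent.MF.Petersson.heckeT_value_ne (q := 3) h3 χ (s := 1) (Or.inl rfl)
        ((sub_eq_zero.1 h0).trans ?_)
      push_cast
      ring
    refine ((mul_eq_zero.1 (show (3 * (χ (hop N Nat.prime_three) - 4)) * Y v = 0 by
      push_cast at h1
      linear_combination -h1)).resolve_left (mul_ne_zero (by norm_num) hne))
  have hX : ∀ v, X v = ((2 ^ m : ℕ) : O) * UO v := fun v => by
    have := hY0 v
    simpa [hY, sub_eq_zero] using this
  have h2m : ((2 ^ m : ℕ) : O) ≠ 0 := Nat.cast_ne_zero.2 (pow_ne_zero _ two_ne_zero)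
  refine ⟨fun g lam v => ?_, fun lam v hv hv' => ?_⟩
  · have h1 : D.kumO χ g v = ιO (padCyclo 2 g) * UO (eigEnd ιO χ g⁻¹ v) - UO v := by
      refine mul_left_cancel₀ h2m ?_
      rw [hmain, hX, hX]
      ring
    have h2 := congrArg lam h1
    rwa [D.lam_kumO, map_sub, lam_algebraMap_mul, lam_liftLin, lam_liftLin, eigPsi_eigEnd] at h2
  · have h1 := hu lam v hv hv'
    rw [hX, ← nsmul_eq_mul, ← nsmul_eq_mul, map_nsmul, lam_liftLin, nsmul_eq_mul,
      nsmul_eq_mul] at h1
    exact mul_left_cancel₀ (Nat.cast_ne_zero.2 (pow_ne_zero _ two_ne_zero)) h1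

omit [IsAdicComplete (maximalIdeal O) O] [Module.Free ℤ_[2] O] [CharZero O] in
/-- Inertia moves the homomorphisms of the eigenlattice within the kernel of `δ`. -/
theorem galLin_sub_eigPsi (h : IsEisSystem 2 N χ) (g : (padVal ιA).decompositionSubgroup ℚ)
    (hg : (g : GQ) ∈ (padVal ιA).inertiaSubgroupIn ℚ) (lam : O →ₗ[ℤ_[2]] ℤ_[2]) (v : eigLat χ) :
    ∃ w ∈ wLat 2 χ,
      galLin 2 (g : GQ) (eigPsi lam (v : Fin (parRank (Gamma0 N)) → O)) -
          eigPsi lam (v : Fin (parRank (Gamma0 N)) → O) =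
        eigPsi lam (w : Fin (parRank (Gamma0 N)) → O) :=
  ⟨_, eigEnd_inertia_sub_mem χ h.not_dvd h.isUnit_hop g hg v, by
    rw [Submodule.coe_sub, map_sub, eigPsi_eigEnd]⟩

end FermatAgent.Mazur.Edge

end
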