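import Fermat.Agent.Mazur.EisClass

/-!
# A character of order four modulo `N` and two forms attached to it

For a prime `N` with `16 ∣ N - 1` let `ψ` send a generator of `(ℤ/N)ˣ` to a primitive fourth root
of unity and `χ(γ) = ψ(d)⁻¹`.  The product `P` of `(N-1)/4` differences of division values has
multiplier `χ²`, its fourth power is a multiple of `difProd`, and the twisted sum `vQuart` is a
non-zero form of weight two with multiplier `χ`.
-/

set_option autoImplicit false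

noncomputable section

open UpperHalfPlane hiding I
open Filter Topology
open scoped MatrixGroups ModularForm Manifold
open CongruenceSubgroup (Gamma0)

namespace FermatAgent.Mazur.Edge

open FermatAgent.ES (dif vmul act HasExp HasLExp IsTwist IsParChar qm zetaC BSub NonnegSer divCoeff
  difSeries Adm)

local notation "Qbar" => AlgebraicClosure ℚ

attribute [local instance] embAlg

variable {N : ℕ}

/-- `(0, u)`. -/
def uVec (u : (ZMod N)ˣ) : Fin 2 → ZMod N := ![0, (u : ZMod N)]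

/-- `γ ↦ d mod N`. -/
def dUnit (N : ℕ) : Gamma0 N →* (ZMod N)ˣ := (CongruenceSubgroup.Gamma0Map N).toHomUnits

lemma coe_dUnit (γ : Gamma0 N) :
    (dUnit N γ : ZMod N) = ((γ : SL(2, ℤ)) 1 1 : ZMod N) := rfl

lemma uVec_neg (u : (ZMod N)ˣ) : uVec (-u) = -uVec u := by
  funext i
  fin_cases i <;> simp [uVec]

lemma vmul_uVec (γ : Gamma0 N) (u : (ZMod N)ˣ) :
    vmul N (uVec u) (γ : SL(2, ℤ)) = uVec (u * dUnit N γ) := by
  have hc : (((γ : SL(2, ℤ)) 1 0 : ℤ) : ZMod N) = 0 := CongruenceSubgroup.Gamma0_mem.1 γ.2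
  funext i
  fin_cases i <;>
    simp [vmul, uVec, Matrix.vecMul, dotProduct, Fin.sum_univ_two, ES.modMat, hc]
  exact (coe_dUnit γ).symm

variable [hN : Fact N.Prime]

lemma uVec_ne_zero (u : (ZMod N)ˣ) : uVec u ≠ 0 := fun h => u.ne_zero (by
  simpa [uVec] using congrFun h 1)

lemma adm_uVec {a b : (ZMod N)ˣ} (h1 : a ≠ b) (h2 : a ≠ -b) : Adm N (uVec a) (uVec b) :=
  ⟨uVec_ne_zero a, uVec_ne_zero b,
    fun h => h1 (Units.ext (by simpa [uVec] using congrFun h 1)),
    fun h => h2 (Units.ext (by simpa [uVec] using congrFun h 1))⟩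

lemma dif_uVec_smul (γ : Gamma0 N) (a b : (ZMod N)ˣ) (τ : ℍ) :
    dif N (uVec a) (uVec b) ((γ : SL(2, ℤ)) • τ) = UpperHalfPlane.denom (γ : SL(2, ℤ)) τ ^ 2 *
      dif N (uVec (a * dUnit N γ)) (uVec (b * dUnit N γ)) τ := by
  rw [ES.dif_smul, vmul_uVec, vmul_uVec]

/-! ### The character -/

/-- The data: a generator of `(ℤ/N)ˣ`, a character of order four and `N - 1 = 16 m`. -/
structure QData (N : ℕ) where
  /-- the quotient `(N - 1) / 16` -/
  m : ℕ
  /-- a generator of the unit group -/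
  g : (ZMod N)ˣ
  /-- the character of order four -/
  psi : (ZMod N)ˣ →* Qbarˣ
  hm : N = 16 * m + 1
  gen : ∀ x, x ∈ Subgroup.zpowers g
  sq : psi g ^ 2 = -1

/-- For `16 ∣ N - 1` a generator and a character of order four exist. -/
theorem exists_qData (h16 : 16 ∣ N - 1) : Nonempty (QData N) := by
  obtain ⟨m, hm⟩ := h16
  obtain ⟨g, hg⟩ := IsCyclic.exists_generator (α := (ZMod N)ˣ)
  obtain ⟨y, hy⟩ := IsAlgClosed.exists_pow_nat_eq (-1 : Qbar) two_pos
  have hy0 : y ≠ 0 := by rintro rfl; simp at hy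
  set i : Qbarˣ := Units.mk0 y hy0
  have hi : i ^ 2 = -1 := Units.ext (by simpa [i] using hy)
  have hg' : orderOf g = N - 1 := by
    rw [orderOf_eq_card_of_forall_mem_zpowers hg, Nat.card_eq_fintype_card, ZMod.card_units]
  have hdvd : orderOf i ∣ orderOf g := by
    rw [hg', hm]
    refine (orderOf_dvd_of_pow_eq_one (n := 4) ?_).trans (dvd_mul_of_dvd_left (by norm_num) m)
    rw [show 4 = 2 * 2 from rfl, pow_mul, hi, neg_one_sq]
  exact ⟨⟨m, g, monoidHomOfForallMemZpowers hg hdvd,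
    by have := hN.out.pos; omega, hg, by rw [monoidHomOfForallMemZpowers_apply_gen]; exact hi⟩⟩

namespace QData

variable (D : QData N)

include D in
lemma m_pos : 0 < D.m := by
  have := hN.out.two_le
  have := D.hm
  omega

include D in
/-- `N` is at least five. -/
lemma five_le : 5 ≤ N := by have := D.m_pos; have := D.hm; omega

/-- `(N - 1) / 4`. -/
def q (D : QData N) : ℕ := 4 * D.m

lemma exists_pow_eq (x : (ZMod N)ˣ) : ∃ s : ℕ, D.g ^ s = x :=
  (isOfFinOrder_of_finite D.g).mem_powers_iff_mem_zpowers.2 (D.gen x)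

/-- The character has order dividing four. -/
lemma psi_pow_four (x : (ZMod N)ˣ) : D.psi x ^ 4 = 1 := by
  obtain ⟨s, rfl⟩ := D.exists_pow_eq x
  rw [map_pow, ← pow_mul, mul_comm, pow_mul, show (4 : ℕ) = 2 * 2 from rfl, pow_mul, D.sq,
    neg_one_sq, one_pow]

/-- `ψ` with complex values. -/
def psiC (D : QData N) : (ZMod N)ˣ →* ℂˣ :=
  (Units.map (algebraMap Qbar ℂ).toMonoidHom).comp D.psi

/-- The complex character is the image of the algebraic one. -/
lemma coe_psiC (x : (ZMod N)ˣ) : (D.psiC x : ℂ) = algebraMap Qbar ℂ (D.psi x : Qbar) := rfl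

lemma psiC_sq_g : D.psiC D.g ^ 2 = -1 := by
  refine Units.ext ?_
  rw [Units.val_pow_eq_pow_val, coe_psiC, ← map_pow, ← Units.val_pow_eq_pow_val, D.sq]
  simp

lemma psiC_g_ne_one : D.psiC D.g ≠ 1 := fun h => by
  have h1 := D.psiC_sq_g
  rw [h, one_pow] at h1
  have h2 := congrArg Units.val h1
  norm_num at h2

/-- The multiplier `ψ(d)⁻¹`. -/
def chi (D : QData N) : Gamma0 N →* ℂˣ := (D.psiC.comp (dUnit N))⁻¹

lemma chi_apply (γ : Gamma0 N) : D.chi γ = (D.psiC (dUnit N γ))⁻¹ := rfl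

/-- The multiplier has order dividing four. -/
lemma chi_pow_four : D.chi ^ 4 = 1 := MonoidHom.ext fun γ => by
  rw [MonoidHom.pow_apply, chi_apply, inv_pow, MonoidHom.one_apply, inv_eq_one, psiC,
    MonoidHom.comp_apply, ← map_pow, D.psi_pow_four, map_one]

variable [NeZero N]

lemma orderOf_g : orderOf D.g = 16 * D.m := by
  rw [orderOf_eq_card_of_forall_mem_zpowers D.gen, Nat.card_eq_fintype_card, ZMod.card_units]
  have := D.hm; omega

lemma pow_ne_one {t : ℕ} (h0 : 0 < t) (ht : t < 16 * D.m) : D.g ^ t ≠ 1 :=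
  pow_ne_one_of_lt_orderOf h0.ne' (by rwa [D.orderOf_g])

lemma g_pow_half : D.g ^ (D.q + D.q) = -1 := by
  have h1 : (D.g ^ (D.q + D.q)) ^ 2 = 1 := by
    rw [← pow_mul, show (D.q + D.q) * 2 = orderOf D.g by rw [D.orderOf_g, q]; ring,
      pow_orderOf_eq_one]
  have hm := D.m_pos
  have h2 : D.g ^ (D.q + D.q) ≠ 1 := D.pow_ne_one (by rw [q]; omega) (by rw [q]; omega)
  have h3 : ((D.g ^ (D.q + D.q) : (ZMod N)ˣ) : ZMod N) ^ 2 = 1 := by
    rw [← Units.val_pow_eq_pow_val, h1, Units.val_one]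
  rcases sq_eq_one_iff.1 h3 with h | h
  · exact absurd (Units.ext h) h2
  · exact Units.ext (by rw [h, Units.val_neg, Units.val_one])

lemma psi_neg_one : D.psi (-1) = 1 := by
  rw [← D.g_pow_half, map_pow, q, show 4 * D.m + 4 * D.m = 4 * (2 * D.m) by ring, pow_mul,
    D.psi_pow_four, one_pow]

lemma psi_eq_one_of_pow_twelve {x : (ZMod N)ˣ} (h : x ^ 12 = 1) : D.psi x = 1 := by
  obtain ⟨s, rfl⟩ := D.exists_pow_eq x
  rw [← pow_mul] at h
  have h1 := orderOf_dvd_of_pow_eq_one h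
  rw [D.orderOf_g] at h1
  obtain ⟨r, rfl⟩ : 4 ∣ s := by
    have h2 : 16 ∣ s * 12 := (dvd_mul_right 16 D.m).trans h1
    omega
  rw [map_pow, pow_mul, D.psi_pow_four, one_pow]

/-- `χ` is trivial where the trace lies in `[-2, 2]`. -/
lemma chi_eq_one {γ : Gamma0 N}
    (h : ((γ : SL(2, ℤ)) : Matrix (Fin 2) (Fin 2) ℤ).trace ^ 2 ≤ 4) : D.chi γ = 1 := by
  rw [chi_apply, inv_eq_one, psiC, MonoidHom.comp_apply]
  suffices h1 : D.psi (dUnit N γ) = 1 by rw [h1, map_one]
  refine D.psi_eq_one_of_pow_twelve (Units.ext ?_)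
  rw [Units.val_pow_eq_pow_val, Units.val_one, coe_dUnit]
  set A : ℤ := (γ : SL(2, ℤ)) 0 0 with hA
  set E : ℤ := (γ : SL(2, ℤ)) 1 1 with hE
  have hc : (((γ : SL(2, ℤ)) 1 0 : ℤ) : ZMod N) = 0 := CongruenceSubgroup.Gamma0_mem.1 γ.2
  have hdet := congrArg (Int.cast : ℤ → ZMod N) (γ : SL(2, ℤ)).2
  rw [Matrix.det_fin_two] at hdet
  push_cast at hdet
  rw [hc, mul_zero, sub_zero, ← hA, ← hE] at hdet
  rw [Matrix.trace_fin_two, ← hA, ← hE] at h
  have h1 : A + E ≤ 2 := by nlinarith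
  have h2 : -2 ≤ A + E := by nlinarith
  obtain ht | ht | ht | ht | ht :
      A + E = -2 ∨ A + E = -1 ∨ A + E = 0 ∨ A + E = 1 ∨ A + E = 2 := by omega
  · have ht' := congrArg (Int.cast : ℤ → ZMod N) ht
    push_cast at ht'
    have hd : ((E : ZMod N) + 1) ^ 2 = 0 := by linear_combination (E : ZMod N) * ht' - hdet
    rw [eq_neg_of_add_eq_zero_left (pow_eq_zero_iff two_ne_zero |>.1 hd)]
    norm_num
  · have ht' := congrArg (Int.cast : ℤ → ZMod N) ht
    push_cast at ht'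
    have hd : (E : ZMod N) ^ 3 = 1 := by
      linear_combination ((E : ZMod N) - 1) * ((E : ZMod N) * ht' - hdet)
    rw [show (12 : ℕ) = 3 * 4 from rfl, pow_mul, hd, one_pow]
  · have ht' := congrArg (Int.cast : ℤ → ZMod N) ht
    push_cast at ht'
    have hd : (E : ZMod N) ^ 2 = -1 := by linear_combination (E : ZMod N) * ht' - hdet
    rw [show (12 : ℕ) = 2 * 6 from rfl, pow_mul, hd]
    norm_num
  · have ht' := congrArg (Int.cast : ℤ → ZMod N) ht
    push_cast at ht'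
    have hd : (E : ZMod N) ^ 3 = -1 := by
      linear_combination ((E : ZMod N) + 1) * ((E : ZMod N) * ht' - hdet)
    rw [show (12 : ℕ) = 3 * 4 from rfl, pow_mul, hd]
    norm_num
  · have ht' := congrArg (Int.cast : ℤ → ZMod N) ht
    push_cast at ht'
    have hd : ((E : ZMod N) - 1) ^ 2 = 0 := by linear_combination (E : ZMod N) * ht' - hdet
    rw [sub_eq_zero.1 (pow_eq_zero_iff two_ne_zero |>.1 hd), one_pow]

/-- The multiplier is trivial on parabolic elements. -/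
lemma chi_isParChar : IsParChar (Gamma0 N) D.chi := fun _ h => D.chi_eq_one h.le

end QData

/-- An element fixing a point has trace in `[-2, 2]`. -/
lemma trace_sq_le_four_of_fixed {γ : SL(2, ℤ)} {τ₀ : ℍ} (h : γ • τ₀ = τ₀) :
    (γ : Matrix (Fin 2) (Fin 2) ℤ).trace ^ 2 ≤ 4 := by
  have hdet := γ.2
  rw [Matrix.det_fin_two] at hdet
  rw [Matrix.trace_fin_two]
  by_cases hc : γ 1 0 = 0
  · rw [hc, mul_zero, sub_zero] at hdet
    rcases Int.eq_one_or_neg_one_of_mul_eq_one' hdet with ⟨h1, h2⟩ | ⟨h1, h2⟩ <;> simp [h1, h2]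
  have he := congrArg (fun z : ℍ => (z : ℂ)) h
  rw [FermatAgent.Curve.coe_sl_smul] at he
  have hden : ((γ 1 0 : ℤ) : ℂ) * (τ₀ : ℂ) + ((γ 1 1 : ℤ) : ℂ) ≠ 0 := by
    intro h0
    have := congrArg Complex.im h0
    simp [hc] at this
    exact τ₀.im_pos.ne' this
  rw [div_eq_iff hden] at he
  set δ : ℂ := ((γ 1 0 : ℤ) : ℂ) * (τ₀ : ℂ) + ((γ 1 1 : ℤ) : ℂ) with hδ
  have hdet' : ((γ 0 0 : ℤ) : ℂ) * ((γ 1 1 : ℤ) : ℂ) -
      ((γ 0 1 : ℤ) : ℂ) * ((γ 1 0 : ℤ) : ℂ) = 1 := by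
    exact_mod_cast hdet
  have hq : δ ^ 2 - ((γ 0 0 + γ 1 1 : ℤ) : ℂ) * δ + 1 = 0 := by
    push_cast
    linear_combination -((γ 1 0 : ℤ) : ℂ) * he - hdet'
  have hre := congrArg Complex.re hq
  have him := congrArg Complex.im hq
  simp only [pow_two, Complex.add_re, Complex.sub_re, Complex.mul_re, Complex.intCast_re,
    Complex.intCast_im, Complex.one_re, Complex.add_im, Complex.sub_im, Complex.mul_im,
    Complex.one_im, Complex.zero_re, Complex.zero_im, zero_mul, sub_zero, add_zero] at hre him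
  have him0 : δ.im ≠ 0 := by
    rw [hδ]
    simpa [hc] using τ₀.im_pos.ne'
  have h2re : 2 * δ.re = ((γ 0 0 + γ 1 1 : ℤ) : ℝ) :=
    mul_right_cancel₀ him0 (by linear_combination him)
  have h4 : (((γ 0 0 + γ 1 1) ^ 2 : ℤ) : ℝ) ≤ (4 : ℤ) := by
    push_cast at h2re hre ⊢
    rw [← h2re] at hre ⊢
    nlinarith [mul_self_nonneg δ.im]
  exact_mod_cast h4

variable [NeZero N]

/-! ### The product -/

namespace QData

variable (D : QData N)

/-- A factor. -/
def fPair (D : QData N) (t : ℕ) : ℍ → ℂ := dif N (uVec (D.g ^ t)) (uVec (D.g ^ (t + D.q)))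

/-- The product. -/
def pProd (D : QData N) (s : ℕ) (τ : ℍ) : ℂ := ∏ t ∈ Finset.range D.q, D.fPair (t + s) τ

lemma fPair_add_q (t : ℕ) (τ : ℍ) : D.fPair (t + D.q) τ = -D.fPair t τ := by
  rw [fPair, fPair, add_assoc, pow_add D.g t (D.q + D.q), D.g_pow_half, mul_neg, mul_one, uVec_neg,
    ES.dif_neg_right, ES.dif_swap N (uVec (D.g ^ t)) (uVec (D.g ^ (t + D.q))), Pi.neg_apply]

lemma adm_fPair (t : ℕ) : Adm N (uVec (D.g ^ t)) (uVec (D.g ^ (t + D.q))) := by
  have hm := D.m_pos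
  refine adm_uVec (fun h => ?_) fun h => ?_
  · rw [pow_add, left_eq_mul] at h
    exact D.pow_ne_one (by rw [q]; omega) (by rw [q]; omega) h
  · rw [pow_add, ← mul_neg, left_eq_mul, ← neg_one_mul, ← D.g_pow_half, ← pow_add] at h
    exact D.pow_ne_one (by rw [q]; omega) (by rw [q]; omega) h

lemma fPair_ne_zero (t : ℕ) (τ : ℍ) : D.fPair t τ ≠ 0 := (D.adm_fPair t).dif_ne_zero τ

lemma pProd_succ (s : ℕ) (τ : ℍ) : D.pProd (s + 1) τ = -D.pProd s τ := by
  have h1 : D.pProd s τ * D.fPair (D.q + s) τ = D.fPair s τ * D.pProd (s + 1) τ := by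
    rw [pProd, ← Finset.prod_range_succ (fun t => D.fPair (t + s) τ), Finset.prod_range_succ',
      mul_comm (D.fPair s τ), pProd, zero_add]
    simp only [add_assoc, add_comm 1 s]
  rw [add_comm D.q s, fPair_add_q] at h1
  refine mul_left_cancel₀ (D.fPair_ne_zero s τ) ?_
  rw [← h1]; ring

lemma pProd_eq (s : ℕ) (τ : ℍ) : D.pProd s τ = (-1) ^ s * D.pProd 0 τ := by
  induction s with
  | zero => simp
  | succ s ih => rw [pProd_succ, ih, pow_succ]; ring

/-- The product vanishes nowhere. -/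
lemma pProd_ne_zero (s : ℕ) (τ : ℍ) : D.pProd s τ ≠ 0 :=
  Finset.prod_ne_zero_iff.2 fun _ _ => D.fPair_ne_zero _ _

omit hN in
lemma pProd_smul (γ : SL(2, ℤ)) (τ : ℍ) :
    D.pProd 0 (γ • τ) = UpperHalfPlane.denom γ τ ^ (2 * D.q) *
      ∏ t ∈ Finset.range D.q,
        dif N (vmul N (uVec (D.g ^ t)) γ) (vmul N (uVec (D.g ^ (t + D.q))) γ) τ := by
  simp only [pProd, add_zero, fPair, ES.dif_smul, Finset.prod_mul_distrib, Finset.prod_const,
    Finset.card_range, ← pow_mul]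

lemma pProd_smul_mem (γ : Gamma0 N) (τ : ℍ) :
    D.pProd 0 ((γ : SL(2, ℤ)) • τ) = UpperHalfPlane.denom (γ : SL(2, ℤ)) τ ^ (2 * D.q) *
      ((D.chi ^ 2) γ : ℂ) * D.pProd 0 τ := by
  obtain ⟨s, hs⟩ := D.exists_pow_eq (dUnit N γ)
  have hchi : ((D.chi ^ 2) γ : ℂ) = (-1) ^ s := by
    rw [MonoidHom.pow_apply, chi_apply, ← hs, map_pow, inv_pow, ← pow_mul, mul_comm, pow_mul,
      D.psiC_sq_g, Units.val_inv_eq_inv_val, Units.val_pow_eq_pow_val, Units.val_neg, Units.val_one,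
      ← inv_pow, inv_neg, inv_one]
  rw [pProd_smul, hchi, mul_assoc, ← pProd_eq]
  congr 1
  refine Finset.prod_congr rfl fun t _ => ?_
  rw [vmul_uVec, vmul_uVec, ← hs, ← pow_add, ← pow_add, fPair, add_right_comm t D.q s]

/-- The product is a form with multiplier the square of the character. -/
lemma isTwist_pProd :
    IsTwist (Gamma0 N) ((2 * D.q : ℕ) : ℤ) (D.chi ^ 2) (D.pProd 0) := by
  have hexp : ∀ γ : SL(2, ℤ), ∃ c, HasExp N (D.pProd 0 ∣[((2 * D.q : ℕ) : ℤ)] γ) c := fun γ =>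
    ⟨_, (HasExp.prod (M := N) _ fun t _ => ES.hasExp_dif N ((D.adm_fPair t).mul γ).left
      ((D.adm_fPair t).mul γ).right).congr_fun fun τ => by
        rw [ModularForm.SL_slash_apply, pProd_smul, zpow_neg, zpow_natCast, Finset.prod_apply]
        field_simp [UpperHalfPlane.denom_ne_zero]⟩
  refine ⟨?_, fun γ => funext fun τ => ?_, fun γ => ?_⟩
  · obtain ⟨c, hc⟩ := hexp 1
    simpa using hc.mdifferentiable
  · rw [ModularForm.SL_slash_apply, pProd_smul_mem, zpow_neg, zpow_natCast]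
    field_simp [UpperHalfPlane.denom_ne_zero]
  · obtain ⟨c, hc⟩ := hexp γ
    exact hc.isBounded

/-- `P⁴` is a multiple of `difProd`. -/
theorem pProd_pow_four : ∃ c, c ≠ 0 ∧ ∀ τ, D.pProd 0 τ ^ 4 = c * difProd N τ := by
  have hNp := hN.out
  have h5 := D.five_le
  have hd : ∀ τ, difProd N τ ≠ 0 := fun τ => difProd_ne_zero hNp h5 τ
  have hw : 2 * (N - 1) = 2 * D.q * 4 := by have := D.hm; rw [q]; omega
  set R : ℍ → ℂ := fun τ => D.pProd 0 τ ^ 4 / difProd N τ with hR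
  have hinv : ∀ γ ∈ Gamma0 N, act γ R = R := fun γ hγ => funext fun τ => by
    have h4 : ((D.chi ^ 2) ⟨γ, hγ⟩ : ℂ) ^ 4 = 1 := by
      rw [← Units.val_pow_eq_pow_val, ← MonoidHom.pow_apply, ← pow_mul, show 2 * 4 = 4 * 2 from rfl,
        pow_mul, D.chi_pow_four]
      simp
    rw [ES.act_apply, hR]
    simp only [D.pProd_smul_mem ⟨γ, hγ⟩, difProd_smul hNp hγ, hw, mul_pow, ← pow_mul, h4, mul_one]
    rw [mul_div_mul_left _ _ (pow_ne_zero _ (UpperHalfPlane.denom_ne_zero _ _))]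
  have hadm : ∀ γ : SL(2, ℤ), ∀ k ∈ Finset.Ioo 0 N,
      Adm N (vmul N (cVec N k) γ) (vmul N (cVec N (2 * k)) γ) := fun γ k hk =>
    (adm_cVec hNp h5 hk).mul γ
  have hexp : ∀ γ, ∃ s, HasLExp N (act γ R) s := fun γ => by
    have hA := HasLExp.of_exp (HasExp.prod (M := N) (Finset.range D.q) fun t _ =>
      ES.hasExp_dif N ((D.adm_fPair t).mul γ).left ((D.adm_fPair t).mul γ).right)
    have hB := HasLExp.of_exp (HasExp.prod (M := N) (Finset.Ioo 0 N) fun k hk =>
      ES.hasExp_dif N (hadm γ k hk).left (hadm γ k hk).right)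
    have hBne : ∀ τ, (∏ k ∈ Finset.Ioo 0 N,
        dif N (vmul N (cVec N k) γ) (vmul N (cVec N (2 * k)) γ)) τ ≠ 0 := fun τ => by
      rw [Finset.prod_apply]
      exact Finset.prod_ne_zero_iff.2 fun k hk => (hadm γ k hk).dif_ne_zero τ
    refine ⟨_, ((hA.pow 4).mul (hB.inv hBne ?_)).congr_fun fun τ => ?_⟩
    · intro h0
      rw [h0] at hB
      exact hBne UpperHalfPlane.I (congrFun (hB.eq_of_series HasLExp.zero) UpperHalfPlane.I)
    · simp only [ES.act_apply, hR, difProd, pProd_smul, ES.dif_smul, Finset.prod_mul_distrib,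
        Finset.prod_const, Nat.card_Ioo, Nat.sub_zero, ← pow_mul, hw, mul_pow, Pi.mul_apply,
        Pi.pow_apply, Pi.inv_apply, Finset.prod_apply, div_eq_mul_inv, mul_inv]
      field_simp [UpperHalfPlane.denom_ne_zero]
  -- the value at `∞`
  have hc : ∀ v w : Fin 2 → ZMod N, Adm N v w → v 0 = 0 → w 0 = 0 →
      PowerSeries.constantCoeff (difSeries N (zetaC N) v w) ≠ 0 := fun v w ha hv hw => by
    have h := (ES.difSeries_lead (ES.zetaC_goodRoot_top (M := N)) ha.left ha.right ha.ne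
      ha.ne_neg).2.2.1
    rwa [show min (ES.leadIdx v) (ES.leadIdx w) = 0 by simp [ES.leadIdx, hv],
      PowerSeries.coeff_zero_eq_constantCoeff] at h
  have hP := (HasExp.prod (M := N) (Finset.range D.q) fun t _ =>
      ES.hasExp_dif N (D.adm_fPair t).left (D.adm_fPair t).right).tendsto_atImInfty
  rw [map_prod] at hP
  have hD := (hasExp_difProd hNp h5).tendsto_atImInfty
  rw [map_prod] at hD
  have hD0 : (∏ k ∈ Finset.Ioo 0 N,
      PowerSeries.constantCoeff (difSeries N (zetaC N) (cVec N k) (cVec N (2 * k)))) ≠ 0 :=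
    Finset.prod_ne_zero_iff.2 fun k hk => hc _ _ (adm_cVec hNp h5 hk) rfl rfl
  have hlim := (hP.pow 4).div hD hD0
  have hlim' : Tendsto R atImInfty (𝓝 _) := hlim.congr fun τ => by
    simp [hR, pProd, fPair, Finset.prod_apply]
  obtain ⟨c, hc0, hcR⟩ := eq_const_of_unit hNp hinv hexp
    (fun τ => div_ne_zero (pow_ne_zero _ (D.pProd_ne_zero 0 τ)) (hd τ))
    (div_ne_zero (pow_ne_zero _ (Finset.prod_ne_zero_iff.2 fun t _ =>
      hc _ _ (D.adm_fPair t) rfl rfl)) hD0) hlim'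
  exact ⟨c, hc0, fun τ => by rw [← hcR τ, hR, div_mul_cancel₀ _ (hd τ)]⟩

/-! ### The twisted sum -/

/-- `∑ ψ(u) dif((0,u), (0,ug))`. -/
def vQuart (D : QData N) : ℍ → ℂ := fun τ =>
  ∑ u : (ZMod N)ˣ, (D.psiC u : ℂ) * dif N (uVec u) (uVec (u * D.g)) τ

/-- The expansion in period `N`. -/
def vQuartSer (D : QData N) : PowerSeries ℂ :=
  ∑ u : (ZMod N)ˣ, PowerSeries.C (D.psiC u : ℂ) *
    difSeries N (zetaC N) (uVec u) (uVec (u * D.g))

/-- The quartic form has its series as expansion. -/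
lemma hasExp_vQuart : HasExp N D.vQuart D.vQuartSer :=
  (HasExp.sum (M := N) _ fun (u : (ZMod N)ˣ) _ => (ES.hasExp_dif N (uVec_ne_zero u)
    (uVec_ne_zero (u * D.g))).smul (D.psiC u : ℂ)).congr_fun fun τ => by simp [vQuart]

/-- The quartic form has weight two and multiplier the character. -/
lemma isTwist_vQuart : IsTwist (Gamma0 N) ((2 * 1 : ℕ) : ℤ) D.chi D.vQuart := by
  refine ⟨D.hasExp_vQuart.mdifferentiable, fun γ => funext fun τ => ?_, fun γ => ?_⟩
  · rw [ModularForm.SL_slash_apply, vQuart]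
    simp only [dif_uVec_smul, Finset.sum_mul]
    rw [vQuart, Finset.mul_sum, ← Equiv.sum_comp (Equiv.mulRight (dUnit N γ))
      (fun u => (D.chi γ : ℂ) * ((D.psiC u : ℂ) * dif N (uVec u) (uVec (u * D.g)) τ))]
    refine Finset.sum_congr rfl fun u _ => ?_
    rw [Equiv.coe_mulRight, mul_right_comm u (dUnit N γ) D.g, map_mul, chi_apply, Units.val_mul,
      Units.val_inv_eq_inv_val, zpow_neg, zpow_natCast, mul_one]
    field_simp [UpperHalfPlane.denom_ne_zero, Units.ne_zero]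
  · refine HasExp.isBounded (M := N) ((HasExp.sum (M := N) Finset.univ fun (u : (ZMod N)ˣ) _ =>
      (ES.hasExp_dif N
        (fun h => uVec_ne_zero u (ES.vmul_injective γ (h.trans (ES.vmul_zero γ).symm)))
        (fun h => uVec_ne_zero (u * D.g)
          (ES.vmul_injective γ (h.trans (ES.vmul_zero γ).symm)))).smul
          (D.psiC u : ℂ)).congr_fun fun τ => ?_)
    rw [ModularForm.SL_slash_apply, vQuart]
    simp only [ES.dif_smul, Finset.sum_mul, Finset.sum_apply, zpow_neg, zpow_natCast, mul_one]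
    exact Finset.sum_congr rfl fun u _ => by field_simp [UpperHalfPlane.denom_ne_zero]

omit [NeZero N] in
lemma divCoeff_uVec_self {ζ : ℂ} (hNp : N.Prime) (u : (ZMod N)ˣ) :
    divCoeff N ζ (uVec u) N = ζ ^ (u : ZMod N).val + ζ ^ (-(u : ZMod N)).val := by
  rw [divCoeff, if_neg hNp.ne_zero, hNp.divisors, Finset.sum_pair hNp.ne_one.symm,
    Nat.div_one, Nat.div_self hNp.pos]
  simp [uVec]

/-- The Gauss sum of `ψ`. -/
lemma psiC_gauss_ne_zero :
    (∑ u : (ZMod N)ˣ, (D.psiC u : ℂ) * zetaC N ^ (u : ZMod N).val) ≠ 0 := by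
  set e : AddChar (ZMod N) ℂ := AddChar.zmodChar N (ES.zetaC_isPrimitiveRoot N).pow_eq_one
  set χ : MulChar (ZMod N) ℂ := MulChar.ofUnitHom D.psiC
  have hχ : χ ≠ 1 := fun h => D.psiC_g_ne_one (Units.ext (by
    rw [← MulChar.ofUnitHom_coe, show MulChar.ofUnitHom D.psiC = 1 from h, MulChar.one_apply_coe,
      Units.val_one]))
  have hG : gaussSum χ e ≠ 0 := fun h0 => by
    have h := gaussSum_mul_gaussSum_eq_card hχ
      (AddChar.zmodChar_primitive_of_primitive_root N (ES.zetaC_isPrimitiveRoot N))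
    rw [h0, zero_mul, ZMod.card] at h
    exact NeZero.ne N (by exact_mod_cast h.symm)
  convert hG using 1
  rw [gaussSum]
  refine Finset.sum_of_injOn (fun u : (ZMod N)ˣ => (u : ZMod N)) Units.val_injective.injOn
    (fun _ _ => Finset.mem_coe.2 (Finset.mem_univ _)) (fun a _ ha => ?_) fun u _ => ?_
  · rw [MulChar.map_nonunit χ fun hu => ha ⟨hu.unit, by simp, hu.unit_spec⟩, zero_mul]
  · rw [MulChar.ofUnitHom_coe, AddChar.zmodChar_apply]

lemma coeff_vQuartSer_self : PowerSeries.coeff N D.vQuartSer ≠ 0 := by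
  set ζ := zetaC N
  set G := ∑ u : (ZMod N)ˣ, (D.psiC u : ℂ) * ζ ^ (u : ZMod N).val with hG
  have hsh : ∀ h : (ZMod N)ˣ,
      ∑ u : (ZMod N)ˣ, (D.psiC u : ℂ) * ζ ^ ((u * h : (ZMod N)ˣ) : ZMod N).val
      = ((D.psiC h : ℂ))⁻¹ * G := fun h => by
    rw [hG, Finset.mul_sum, ← Equiv.sum_comp (Equiv.mulRight h)
      (fun u => ((D.psiC h : ℂ))⁻¹ * ((D.psiC u : ℂ) * ζ ^ (u : ZMod N).val))]
    refine Finset.sum_congr rfl fun u _ => ?_
    simp only [Equiv.coe_mulRight, map_mul, Units.val_mul]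
    field_simp [Units.ne_zero]
  have hneg : (D.psiC (-1) : ℂ) = 1 := by rw [coe_psiC, D.psi_neg_one]; simp
  have key : PowerSeries.coeff N D.vQuartSer =
      2 * (1 - ((D.psiC D.g : ℂ))⁻¹) * G := by
    rw [vQuartSer, map_sum]
    simp only [PowerSeries.coeff_C_mul, difSeries, PowerSeries.coeff_mk,
      divCoeff_uVec_self hN.out, mul_sub, mul_add, Finset.sum_sub_distrib, Finset.sum_add_distrib]
    have e1 := hsh 1
    have e2 := hsh (-1)
    have e3 := hsh D.g
    have e4 := hsh (-D.g)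
    simp only [mul_one, map_one, Units.val_one, inv_one, one_mul, mul_neg,
      Units.val_neg] at e1 e2 e3 e4
    rw [e1, e2, e3, e4, hneg, show (D.psiC (-D.g) : ℂ) = D.psiC D.g by
      rw [← neg_one_mul, map_mul, Units.val_mul, hneg, one_mul]]
    ring
  rw [key]
  refine mul_ne_zero (mul_ne_zero two_ne_zero (sub_ne_zero.2 fun h => D.psiC_g_ne_one ?_))
    D.psiC_gauss_ne_zero
  exact Units.ext (by rw [Units.val_one, ← inv_inv (D.psiC D.g : ℂ), ← h, inv_one])

/-- The quartic form is nonzero. -/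
lemma vQuart_ne_zero : D.vQuart ≠ 0 := fun h => D.coeff_vQuartSer_self (by
  rw [(D.hasExp_vQuart).series_unique (h ▸ HasExp.zero), map_zero])

end QData

end FermatAgent.Mazur.Edge

end
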