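import Fermat.Agent.Flat.Kummer.OfChar
import Fermat.Agent.Mazur.Delta

/-!
# Classes of functions which are fourth powers on the disc reduce to zero

If the expansion at `∞` of `f`, with `div f = 4 D`, is a constant times the fourth power of a
quotient of integral series with nonzero reductions, then `D` is principal on the special fibre.
-/

set_option autoImplicit false

noncomputable section

open scoped Classical MatrixGroups
open CongruenceSubgroup (Gamma0)
open AlgebraicCurve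
open IntermediateField
open HahnSeries (ofPowerSeries)

namespace FermatAgent.Mazur.Edge

attribute [-instance] IsScalarTower.of_algHom

open FermatAgent.Curve FermatAgent.GaloisBasic
open FermatAgent.ES (parGroup padChar IsTwist HasExp hasExp_one_twist goodLevel_Gamma0)
open ModularCurve (coeffMap coeffMap_coeff)
open ModularCurve.Period

local notation "Qbar" => AlgebraicClosure ℚ

attribute [local instance] Mazur.embAlg

/-! ### Integral series and their reductions -/

section Disc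

variable {ℓ : ℕ} [hℓ : Fact ℓ.Prime] [Algebra Qbar ℂ_[ℓ]]

local notation "LS" => LaurentSeries ℂ_[ℓ]
local notation "ιA" => (algebraMap (AlgebraicClosure ℚ) ℂ_[ℓ] : AlgebraicClosure ℚ →+* ℂ_[ℓ])
local notation "lsI" => lsMap (L := AlgebraicClosure ℚ) (K := ℂ_[ℓ])
local notation "kA" => IsLocalRing.ResidueField (padVal (algebraMap (AlgebraicClosure ℚ) ℂ_[ℓ]))

variable (ℓ) in
/-- The integers of `ℂ_ℓ`. -/
def intCp : Subring ℂ_[ℓ] where
  carrier := {x | ‖x‖ ≤ 1}
  mul_mem' {a b} ha hb := by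
    rw [Set.mem_ofPred_eq, norm_mul]; exact mul_le_one₀ ha (norm_nonneg _) hb
  one_mem' := norm_one.le
  add_mem' {a b} ha hb := (IsUltrametricDist.norm_add_le_max a b).trans (max_le ha hb)
  zero_mem' := by simp
  neg_mem' {a} ha := by rwa [Set.mem_ofPred_eq, norm_neg]

/-- An algebraic approximation of an integer of `ℂ_ℓ`. -/
def approxA (x : intCp ℓ) : padVal ιA :=
  ⟨(exists_approx x.2).choose, (exists_approx x.2).choose_spec.1⟩

lemma residue_approxA (x : intCp ℓ) (y : padVal ιA) (h : ‖(x : ℂ_[ℓ]) - ιA y‖ < 1) :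
    IsLocalRing.residue (padVal ιA) (approxA x) = IsLocalRing.residue (padVal ιA) y := by
  rw [← sub_eq_zero, ← map_sub, IsLocalRing.residue_eq_zero_iff,
    ← ValuationSubring.coe_mem_nonunits_iff, mem_nonunits_padVal]
  have h1 : ‖(x : ℂ_[ℓ]) - ιA (approxA x : Qbar)‖ < 1 := (exists_approx x.2).choose_spec.2
  show ‖ιA ((approxA x : Qbar) - (y : Qbar))‖ < 1
  rw [map_sub, show ιA (approxA x : Qbar) - ιA y =
    ((x : ℂ_[ℓ]) - ιA y) + -((x : ℂ_[ℓ]) - ιA (approxA x : Qbar)) by ring]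
  exact (IsUltrametricDist.norm_add_le_max _ _).trans_lt (max_lt h (by rwa [norm_neg]))

lemma norm_sub_approxA (x : intCp ℓ) : ‖(x : ℂ_[ℓ]) - ιA (approxA x : Qbar)‖ < 1 :=
  (exists_approx x.2).choose_spec.2

/-- Reduction of the integers of `ℂ_ℓ` into the residue field of the place. -/
def resCp : intCp ℓ →+* kA where
  toFun x := IsLocalRing.residue (padVal ιA) (approxA x)
  map_one' := by
    rw [residue_approxA 1 1 (by simp), map_one]
  map_zero' := by
    rw [residue_approxA 0 0 (by simp), map_zero]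
  map_add' x y := by
    rw [residue_approxA (x + y) (approxA x + approxA y) ?_, map_add]
    rw [AddMemClass.coe_add, AddMemClass.coe_add, map_add, add_sub_add_comm]
    exact (IsUltrametricDist.norm_add_le_max _ _).trans_lt
      (max_lt (norm_sub_approxA x) (norm_sub_approxA y))
  map_mul' x y := by
    rw [residue_approxA (x * y) (approxA x * approxA y) ?_, map_mul]
    rw [MulMemClass.coe_mul, MulMemClass.coe_mul, map_mul,
      show (x : ℂ_[ℓ]) * y - ιA (approxA x : Qbar) * ιA (approxA y : Qbar) =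
        ((x : ℂ_[ℓ]) - ιA (approxA x : Qbar)) * y +
          ιA (approxA x : Qbar) * ((y : ℂ_[ℓ]) - ιA (approxA y : Qbar)) by ring]
    refine (IsUltrametricDist.norm_add_le_max _ _).trans_lt (max_lt ?_ ?_) <;> rw [norm_mul]
    · exact (mul_le_of_le_one_right (norm_nonneg _) y.2).trans_lt (norm_sub_approxA x)
    · exact (mul_le_of_le_one_left (norm_nonneg _) (approxA x).2).trans_lt (norm_sub_approxA y)

lemma resCp_eq (x : intCp ℓ) (y : padVal ιA) (h : (x : ℂ_[ℓ]) = ιA y) :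
    resCp x = IsLocalRing.residue (padVal ιA) y :=
  residue_approxA x y (by rw [h, sub_self, norm_zero]; exact one_pos)

lemma resCp_eq_zero {x : intCp ℓ} (h : ‖(x : ℂ_[ℓ])‖ < 1) : resCp x = 0 := by
  rw [show resCp x = IsLocalRing.residue (padVal ιA) 0 from residue_approxA x 0 (by simpa using h),
    map_zero]

/-- An integral series with nonzero reduction. -/
def IsUnitSer (W : LS) : Prop :=
  ∃ w : LaurentSeries (intCp ℓ), coeffMap (intCp ℓ).subtype w = W ∧ coeffMap resCp w ≠ 0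

lemma IsUnitSer.one : IsUnitSer (1 : LS) := ⟨1, map_one _, by rw [map_one]; exact one_ne_zero⟩

lemma IsUnitSer.mul {W W' : LS} (h : IsUnitSer W) (h' : IsUnitSer W') : IsUnitSer (W * W') := by
  obtain ⟨w, rfl, hw⟩ := h
  obtain ⟨w', rfl, hw'⟩ := h'
  exact ⟨w * w', map_mul _ _ _, by rw [map_mul]; exact mul_ne_zero hw hw'⟩

lemma IsUnitSer.pow {W : LS} (h : IsUnitSer W) (n : ℕ) : IsUnitSer (W ^ n) := by
  induction n with
  | zero => rw [pow_zero]; exact .one
  | succ n ih => rw [pow_succ]; exact ih.mul h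

/-- A constant times the fourth power of a quotient of integral series. -/
def IsFourth (F : LS) : Prop :=
  ∃ (c : ℂ_[ℓ]) (U W : LS), c ≠ 0 ∧ IsUnitSer U ∧ IsUnitSer W ∧ F * W ^ 4 = HahnSeries.C c * U ^ 4

lemma IsFourth.mul {F F' : LS} (h : IsFourth F) (h' : IsFourth F') : IsFourth (F * F') := by
  obtain ⟨c, U, W, hc, hU, hW, e⟩ := h
  obtain ⟨c', U', W', hc', hU', hW', e'⟩ := h'
  refine ⟨c * c', U * U', W * W', mul_ne_zero hc hc', hU.mul hU', hW.mul hW', ?_⟩
  rw [map_mul, mul_pow, mul_pow, mul_mul_mul_comm, e, e']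
  ring

lemma IsFourth.const {c : ℂ_[ℓ]} (hc : c ≠ 0) : IsFourth (HahnSeries.C c : LS) :=
  ⟨c, 1, 1, hc, .one, .one, by ring⟩

lemma IsFourth.of_unitSer {U : LS} (hU : IsUnitSer U) : IsFourth (U ^ 4) :=
  ⟨1, U, 1, one_ne_zero, hU, .one, by simp⟩

lemma IsFourth.zpow_unitSer {U : LS} (hU : IsUnitSer U) (hU0 : U ≠ 0) {k : ℤ} (hk : (4 : ℤ) ∣ k) :
    IsFourth (U ^ k) := by
  obtain ⟨m, rfl⟩ := hk
  obtain ⟨n, rfl | rfl⟩ := Int.eq_nat_or_neg m
  · rw [show (4 : ℤ) * n = ((n * 4 : ℕ) : ℤ) by push_cast; ring, zpow_natCast, pow_mul]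
    exact .of_unitSer (hU.pow n)
  · refine ⟨1, 1, U ^ n, one_ne_zero, .one, hU.pow n, ?_⟩
    rw [map_one, one_pow, mul_one, show (4 : ℤ) * -(n : ℤ) = -((n * 4 : ℕ) : ℤ) by push_cast; ring,
      zpow_neg, zpow_natCast, ← pow_mul, inv_mul_cancel₀ (pow_ne_zero _ hU0)]

lemma isUnitSer_ofPowerSeries {G : PowerSeries ℂ_[ℓ]} (hG : ∀ m, ‖PowerSeries.coeff m G‖ ≤ 1)
    {i : ℕ} (hi : ‖PowerSeries.coeff i G - 1‖ < 1) : IsUnitSer (ofPowerSeries ℤ ℂ_[ℓ] G) := by
  set g : PowerSeries (intCp ℓ) := PowerSeries.mk fun m => ⟨PowerSeries.coeff m G, hG m⟩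
  refine ⟨ofPowerSeries ℤ (intCp ℓ) g, ?_, fun h => ?_⟩
  · rw [ModularCurve.coeffMap_ofPowerSeries]
    congr 1
    ext m
    simp [g]
  · have h1 := congrArg (fun s : LaurentSeries kA => s.coeff ((i : ℕ) : ℤ)) h
    rw [ModularCurve.coeffMap_ofPowerSeries] at h1
    simp only [HahnSeries.ofPowerSeries_apply_coeff, PowerSeries.coeff_map,
      HahnSeries.coeff_zero] at h1
    have h2 : resCp (PowerSeries.coeff i g) = 1 := by
      rw [show resCp (PowerSeries.coeff i g) = IsLocalRing.residue (padVal ιA) 1 from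
        residue_approxA _ 1 (by simpa [g] using hi), map_one]
    rw [h2] at h1
    exact one_ne_zero h1

lemma isUnitSer_X : IsUnitSer (HahnSeries.single (1 : ℤ) (1 : ℂ_[ℓ])) := by
  rw [← HahnSeries.ofPowerSeries_X]
  exact isUnitSer_ofPowerSeries (fun m => by rw [PowerSeries.coeff_X]; split_ifs <;> simp)
    (i := 1) (by simp)

/-- **The fourth power criterion**: a decomposed series whose exponents are divisible by four and
whose one-unit is a fourth power is a constant times a fourth power. -/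
theorem isFourth_of_hasDec {F : LS} {c : ℂ_[ℓ]} {e : ℤ} {G H : PowerSeries ℂ_[ℓ]}
    {Z : ℂ_[ℓ] →₀ ℤ} (h : HasDec F c e G Z) (he : (4 : ℤ) ∣ e) (hZ : ∀ ρ, (4 : ℤ) ∣ Z ρ)
    (hH : IsP1 H) (hGH : G = H ^ 4) : IsFourth F := by
  rw [h.eq, decS, hGH, map_pow]
  have hX : HahnSeries.single e c = HahnSeries.C c * HahnSeries.single (1 : ℤ) (1 : ℂ_[ℓ]) ^ e := by
    rw [← RatFunc.single_zpow, HahnSeries.C_apply, HahnSeries.single_mul_single, zero_add, mul_one]
  rw [hX]
  refine (((IsFourth.const h.ne).mul (.zpow_unitSer isUnitSer_X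
    (HahnSeries.single_ne_zero one_ne_zero) he)).mul (.of_unitSer ?_)).mul ?_
  · exact isUnitSer_ofPowerSeries hH.2 (i := 0) (by simp [hH.1])
  · rw [linProdS, Finsupp.prod]
    refine Finset.prod_induction _ IsFourth (fun _ _ => IsFourth.mul) ?_ fun ρ hρ => ?_
    · exact ⟨1, 1, 1, one_ne_zero, .one, .one, by simp⟩
    · refine .zpow_unitSer ?_ (linS_ne_zero ρ) (hZ ρ)
      refine isUnitSer_ofPowerSeries (i := 1) (fun m => ?_) (by simp)
      rw [map_sub, PowerSeries.coeff_X, PowerSeries.coeff_C]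
      have := (h.disc ρ hρ).2.le
      split_ifs <;> first | omega | simp [*]

/-! ### Squares -/

section Square

variable {k : Type*} [Field k] [CharP k 2]

/-- Odd coefficients of a square vanish. -/
theorem coeff_sq_neg_one (w : LaurentSeries k) : (w ^ 2).coeff (-1) = 0 := by
  rw [sq, HahnSeries.coeff_mul]
  refine Finset.sum_involution (fun p _ => (p.2, p.1)) (fun p hp => ?_) (fun p hp hne h => ?_)
    (fun p hp => ?_) (fun p hp => rfl)
  · rw [mul_comm (w.coeff p.2)]
    exact CharTwo.add_self_eq_zero _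
  · rw [Finset.mem_antidiagonal] at hp
    have h1 := congrArg Prod.fst h
    simp only at h1
    have := hp.2.2
    omega
  · rw [Finset.mem_antidiagonal] at hp ⊢
    exact ⟨hp.2.1, hp.1, by rw [add_comm]; exact hp.2.2⟩

variable [IsAlgClosed k] {F : Type*} [Field F] [Algebra k F] [IsFF k F]
  (e : F →+* LaurentSeries k) (he : ∀ a : k, e (algebraMap k F a) = HahnSeries.C a) {x : F}
  (hx : (e x).coeff (-1) ≠ 0)

include e he hx

omit [IsAlgClosed k] [Algebra k F] [IsFF k F] he in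
theorem eq_zero_of_sq_eq {a c : F} (h : a ^ 2 = x * c ^ 2) : c = 0 := by
  by_contra hc
  refine hx ?_
  have hx' : x = (a / c) ^ 2 := by
    rw [div_pow, h, mul_div_assoc, div_self (pow_ne_zero 2 hc), mul_one]
  rw [hx', map_pow]
  exact coeff_sq_neg_one _

omit [CharP k 2] [IsFF k F] in
theorem transcendental_of_coeff : Transcendental k x := fun halg => by
  obtain ⟨c, hc⟩ : x ∈ (algebraMap k F).range := by
    have hd := IsAlgClosed.degree_eq_one_of_irreducible k (minpoly.irreducible halg.isIntegral)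
    exact minpoly.mem_range_of_degree_eq_one _ _ hd
  refine hx ?_
  rw [← hc, he, HahnSeries.C_apply, HahnSeries.coeff_single_of_ne (by norm_num)]

/-- `F = F² + x F²`. -/
theorem exists_sq_decomp (z : F) : ∃ a c : F, z = a ^ 2 + x * c ^ 2 := by
  have : CharP F 2 := charP_of_injective_algebraMap (algebraMap k F).injective 2
  set K := k⟮x⟯
  let xK : K := ⟨x, mem_adjoin_simple_self k x⟩
  have : CharP K 2 := charP_of_injective_algebraMap (algebraMap k K).injective 2
  let P : K → Prop := fun z => ∃ a c : K, z = a ^ 2 + xK * c ^ 2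
  have hadd : ∀ u v, P u → P v → P (u + v) := by
    rintro _ _ ⟨a, c, rfl⟩ ⟨b, d, rfl⟩
    exact ⟨a + b, c + d, by rw [CharTwo.add_sq, CharTwo.add_sq]; ring⟩
  have hmul : ∀ u v, P u → P v → P (u * v) := by
    rintro _ _ ⟨a, c, rfl⟩ ⟨b, d, rfl⟩
    exact ⟨a * b + xK * (c * d), a * d + c * b, by rw [CharTwo.add_sq, CharTwo.add_sq]; ring⟩
  have hsq : ∀ u, P (u ^ 2) := fun u => ⟨u, 0, by simp⟩
  have hpoly : ∀ p : Polynomial k, P (Polynomial.aeval xK p) := fun p => by
    induction p using Polynomial.induction_on' with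
    | add p q hp hq => rw [map_add]; exact hadd _ _ hp hq
    | monomial n r =>
      obtain ⟨s, hs⟩ := IsAlgClosed.exists_pow_nat_eq r two_pos
      rw [Polynomial.aeval_monomial, ← hs, map_pow]
      refine hmul _ _ (hsq _) ?_
      induction n with
      | zero => rw [pow_zero]; exact ⟨1, 0, by simp⟩
      | succ n ih => rw [pow_succ]; exact hmul _ _ ih ⟨0, 1, by simp⟩
  have hK : ∀ μ : K, P μ := fun μ => by
    obtain ⟨p, q, hpq⟩ := (mem_adjoin_simple_iff k (μ : F)).1 μ.2
    have hμ : μ = Polynomial.aeval xK p / Polynomial.aeval xK q := Subtype.ext (by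
      show (μ : F) = K.val (Polynomial.aeval xK p / Polynomial.aeval xK q)
      rw [hpq, map_div₀, ← Polynomial.aeval_algHom_apply, ← Polynomial.aeval_algHom_apply]
      rfl)
    rcases eq_or_ne (Polynomial.aeval xK q) 0 with h0 | h0
    · rw [hμ, h0, div_zero]; exact ⟨0, 0, by simp⟩
    rw [hμ, show Polynomial.aeval xK p / Polynomial.aeval xK q =
      Polynomial.aeval xK p * Polynomial.aeval xK q * ((Polynomial.aeval xK q)⁻¹) ^ 2 by field_simp]
    exact hmul _ _ (hmul _ _ (hpoly p) (hpoly q)) (hsq _)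
  have := IsFF.finite_adjoin (transcendental_of_coeff e he hx)
  let b := Module.finBasis K F
  choose α β hαβ using hK
  have hcomb : ∀ μ : Fin (Module.finrank K F) → K, ∑ i, μ i • b i ^ 2 =
      (∑ i, α (μ i) • b i) ^ 2 + x * (∑ i, β (μ i) • b i) ^ 2 := fun μ => by
    rw [CharTwo.sum_sq, CharTwo.sum_sq, Finset.mul_sum, ← Finset.sum_add_distrib]
    refine Finset.sum_congr rfl fun i _ => ?_
    rw [smul_pow, smul_pow]
    conv_lhs => rw [hαβ (μ i)]
    simp only [Algebra.smul_def, map_add, map_mul, map_pow]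
    rw [show algebraMap K F xK = x from rfl]
    ring
  have hli : LinearIndependent K fun i => b i ^ 2 := by
    rw [Fintype.linearIndependent_iff]
    intro μ hμ i
    rw [hcomb] at hμ
    have h' : (∑ i, α (μ i) • b i) ^ 2 = x * (∑ i, β (μ i) • b i) ^ 2 := CharTwo.add_eq_zero.1 hμ
    have hv := eq_zero_of_sq_eq e hx h'
    rw [hv, zero_pow two_ne_zero, mul_zero, sq_eq_zero_iff] at h'
    have ha := Fintype.linearIndependent_iff.1 b.linearIndependent _ h' i
    have hb := Fintype.linearIndependent_iff.1 b.linearIndependent _ hv i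
    rw [hαβ (μ i), ha, hb]
    simp
  have htop := hli.span_eq_top_of_card_eq_finrank' (by rw [Fintype.card_fin])
  obtain ⟨μ, hμ⟩ := (Submodule.mem_span_range_iff_exists_fun K).1 (htop.ge (x := z) trivial)
  exact ⟨_, _, hμ ▸ hcomb μ⟩

/-- A square in the series is a square in the field. -/
theorem exists_sq_of_series {z : F} {w : LaurentSeries k} (h : e z = w ^ 2) :
    ∃ s : F, z = s ^ 2 ∧ e s = w := by
  have : CharP F 2 := charP_of_injective_algebraMap (algebraMap k F).injective 2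
  have : CharP (LaurentSeries k) 2 := charP_of_injective_ringHom HahnSeries.C_injective 2
  obtain ⟨a, c, rfl⟩ := exists_sq_decomp e he hx z
  rw [map_add, map_mul, map_pow, map_pow] at h
  have hc : c = 0 := by
    by_contra hc
    refine hx ?_
    have hx' : e x = ((w + e a) / e c) ^ 2 := by
      rw [div_pow, CharTwo.add_sq, eq_div_iff (pow_ne_zero _ ((_root_.map_ne_zero e).2 hc)), ← h,
        add_comm (e a ^ 2), add_assoc, CharTwo.add_self_eq_zero, add_zero]
    rw [hx']
    exact coeff_sq_neg_one _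
  subst hc
  refine ⟨a, by simp, CharTwo.sq_injective (show e a ^ 2 = w ^ 2 from ?_)⟩
  simpa using h

end Square

lemma reg_of_eq_smul {E Fb : Type*} [Field E] [Algebra Qbar E] [IsFF Qbar E] [Field Fb]
    [Algebra kA Fb] [IsFF kA Fb]
    {S : ConstRed (padVal ιA) (IsLocalRing.residue (padVal ιA)) E Fb} (Θ : Flat.Coef S)
    {g g' : E} {l : Qbar} (hl : l ≠ 0) (e : g = algebraMap Qbar E l * g') (hg : Θ.Reg g) :
    Θ.Reg g' := by
  have : g' = l⁻¹ • g := by
    rw [e, Algebra.smul_def, ← mul_assoc, ← map_mul, inv_mul_cancel₀ hl, map_one, one_mul]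
  exact this ▸ hg.smul _

/-- Reductions of regular integral elements. -/
lemma exists_intCp_lift {E Fb : Type*} [Field E] [Algebra Qbar E] [IsFF Qbar E] [Field Fb]
    [Algebra kA Fb] [IsFF kA Fb]
    {S : ConstRed (padVal ιA) (IsLocalRing.residue (padVal ιA)) E Fb} (Θ : Flat.Coef S)
    (g : S.O) (hg : Θ.Reg (g : E)) : ∃ y : LaurentSeries (intCp ℓ),
      coeffMap (intCp ℓ).subtype y = lsI (Θ.ser g) ∧ coeffMap resCp y = Θ.serb (S.red g) := by
  obtain ⟨n, hn⟩ := hg
  choose a ha hb using fun j => Θ.compat g n hn j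
  let y : LaurentSeries (intCp ℓ) := ⟨fun j => ⟨ιA (a j : Qbar), (a j).2⟩,
    (Θ.ser g).isPWO_support.mono fun j hj h0 => hj (Subtype.ext (by
      show ιA (a j : Qbar) = 0
      rw [ha, h0, map_zero]))⟩
  refine ⟨y, ?_, ?_⟩ <;> ext j <;> rw [coeffMap_coeff]
  · show ιA (a j : Qbar) = (lsI (Θ.ser g)).coeff j
    rw [lsMap, coeffMap_coeff, ha]
  · rw [resCp_eq (y.coeff j) (a j) rfl, hb]

/-- A regular denominator. -/
lemma exists_reg_denominator {E Fb : Type*} [Field E] [Algebra Qbar E] [IsFF Qbar E] [Field Fb]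
    [Algebra kA Fb] [IsFF kA Fb]
    {S : ConstRed (padVal ιA) (IsLocalRing.residue (padVal ιA)) E Fb} (Θ : Flat.Coef S)
    (hBdeg : 0 < Divisor.degree Θ.B) {f : E} (hf : f ≠ 0) :
    ∃ q, Θ.Reg q ∧ Θ.Reg (f * q) ∧ q ≠ 0 := by
  set Z : Divisor Qbar E := (divisorOf f).mapRange (fun z => max 0 (-z)) (by simp)
  obtain ⟨n, hn⟩ : ∃ n : ℕ, rGenus Qbar E + Divisor.degree Z ≤ Divisor.degree (n • Θ.B) := by
    refine ⟨(rGenus Qbar E + Divisor.degree Z).toNat, ?_⟩
    rw [map_nsmul, nsmul_eq_mul]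
    exact (Int.self_le_toNat _).trans (le_mul_of_one_le_right (Int.natCast_nonneg _) hBdeg)
  have hdim : 1 ≤ rrDim (n • Θ.B - Z) := Curve.one_le_rrDim (by rw [map_sub]; linarith)
  obtain ⟨⟨q, hq⟩, hq0⟩ := Module.finrank_pos_iff_exists_ne_zero.1 hdim
  have hq0' : q ≠ 0 := fun h => hq0 (Subtype.ext h)
  have hv := (mem_riemannRochSpace_iff_ne_zero hq0').1 hq
  refine ⟨q, ⟨n, riemannRochSpace_le_of_le (fun v => ?_) hq⟩, ⟨n, ?_⟩, hq0'⟩
  · have : 0 ≤ Z v := by simp [Z]
    simp only [Finsupp.sub_apply]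
    omega
  · rw [mem_riemannRochSpace_iff_ne_zero (mul_ne_zero hf hq0')]
    intro v
    have h1 := hv v
    have : -(v.ord f) ≤ Z v := by simp [Z, divisorOf_apply]
    simp only [Finsupp.sub_apply] at h1
    rw [v.ord_mul hf hq0']
    omega

/-- The reduction of the coordinate has a simple pole. -/
lemma exists_red_coeff_ne_zero {E Fb : Type*} [Field E] [Algebra Qbar E] [IsFF Qbar E] [Field Fb]
    [Algebra kA Fb] [IsFF kA Fb]
    {S : ConstRed (padVal ιA) (IsLocalRing.residue (padVal ιA)) E Fb} (Θ : Flat.Coef S)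
    {x : E} (hxB : x ∈ riemannRochSpace Θ.B)
    (hx : ∃ y : LaurentSeries (padVal ιA),
      Θ.ser x = coeffMap (padVal ιA).subtype y ∧ y.coeff (-1) = 1) :
    ∃ xb : Fb, (Θ.serb xb).coeff (-1) ≠ 0 := by
  obtain ⟨y, hy, hy1⟩ := hx
  have hx0 : x ≠ 0 := fun h => by
    have := congrArg (fun z : LaurentSeries Qbar => z.coeff (-1)) hy
    simp [h, coeffMap_coeff, hy1] at this
  obtain ⟨l, g, hl, eg, hg⟩ := S.exists_normal hx0
  refine ⟨S.red g,
    fun h0 => hg ((_root_.map_eq_zero Θ.serb).1 (HahnSeries.ext (funext fun j => ?_)))⟩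
  have hgR : Θ.Reg (g : E) := reg_of_eq_smul Θ hl eg ⟨1, by rwa [one_smul]⟩
  obtain ⟨yg, hyg, hyg'⟩ := exists_intCp_lift Θ g hgR
  have e : HahnSeries.C (ιA l) * coeffMap (intCp ℓ).subtype yg = lsI (Θ.ser x) := by
    rw [hyg, eg, map_mul, map_mul, Θ.ser_algebraMap]
    congr 1
    rw [HahnSeries.C_apply, HahnSeries.C_apply, lsMap, ModularCurve.coeffMap_single]
  have ej : ∀ i, ιA l * (yg.coeff i : ℂ_[ℓ]) = ιA (y.coeff i : Qbar) := fun i => by
    have e' := congrArg (fun z : LS => z.coeff i) e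
    simp only [HahnSeries.C_mul_eq_smul, HahnSeries.coeff_smul, lsMap, hy, coeffMap_coeff] at e'
    exact e'
  rw [← hyg', coeffMap_coeff] at h0 ⊢
  rw [HahnSeries.coeff_zero]
  refine resCp_eq_zero ?_
  by_contra hge
  push Not at hge
  have h1 : ‖(yg.coeff (-1) : ℂ_[ℓ])‖ < 1 := by
    by_contra hlt
    push Not at hlt
    set v : intCp ℓ := yg.coeff (-1)
    have hv0 : (v : ℂ_[ℓ]) ≠ 0 := fun h => by rw [h, norm_zero] at hlt; linarith
    have : IsUnit v := isUnit_iff_exists_inv.2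
      ⟨⟨(v : ℂ_[ℓ])⁻¹, by show ‖_‖ ≤ 1; rw [norm_inv]; exact inv_le_one_of_one_le₀ hlt⟩,
        Subtype.ext (mul_inv_cancel₀ hv0)⟩
    exact (this.map resCp).ne_zero h0
  have h2 : ‖ιA l‖ ≤ 1 := by
    have := congrArg norm (ej j)
    rw [norm_mul] at this
    exact (le_mul_of_one_le_right (norm_nonneg _) hge).trans (this.le.trans (y.coeff j).2)
  have := congrArg norm (ej (-1))
  rw [hy1, norm_mul, OneMemClass.coe_one, map_one, norm_one] at this
  exact absurd this ((mul_le_of_le_one_left (norm_nonneg _) h2).trans_lt h1).ne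

lemma one_le_norm_of_series_eq {s t : LaurentSeries (intCp ℓ)} {a : ℂ_[ℓ]}
    (hs : coeffMap resCp s ≠ 0)
    (e : coeffMap (intCp ℓ).subtype s = HahnSeries.C a * coeffMap (intCp ℓ).subtype t) :
    1 ≤ ‖a‖ := by
  by_contra hlt
  push Not at hlt
  refine hs (HahnSeries.ext (funext fun j => ?_))
  rw [coeffMap_coeff, HahnSeries.coeff_zero]
  refine resCp_eq_zero ?_
  have e' := congrArg (fun z : LS => z.coeff j) e
  simp only [HahnSeries.C_mul_eq_smul, HahnSeries.coeff_smul, coeffMap_coeff] at e'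
  rw [show ((s.coeff j : intCp ℓ) : ℂ_[ℓ]) = a * (t.coeff j : ℂ_[ℓ]) from e', norm_mul]
  exact (mul_le_of_le_one_right (norm_nonneg _) (t.coeff j).2).trans_lt hlt

lemma map_cross_eq {L R : Type*} [Field L] [CommRing R] (φ : R →+* L) {yh yq w u : R}
    {h q Q U W F C₁ C₂ K C : L} (eh : φ yh = h) (eq : φ yq = q) (hu : φ u = U) (hw : φ w = W)
    (hC₂ : C₂ ≠ 0) (hK : C₂ * K = C * C₁) (e₁ : Q = C₁ * q) (e₂ : F * Q = C₂ * h)
    (hUW : F * W ^ 4 = C * U ^ 4) : φ (yh * w ^ 4) = K * φ (yq * u ^ 4) := by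
  rw [map_mul, map_mul, map_pow, map_pow, eh, eq, hu, hw]
  refine mul_left_cancel₀ hC₂ ?_
  rw [← mul_assoc C₂ K, hK, ← mul_assoc, ← e₂]
  linear_combination Q * hUW + C * U ^ 4 * e₁

/-- **Reduction of a fourth power**: a divisor `D` with `4 D = div f`, where `f` is a fourth power
at the cusp, reduces to a principal divisor in characteristic two. -/
theorem isPrincipal_red {E Fb : Type*} [Field E] [Algebra Qbar E] [IsFF Qbar E] [Field Fb]
    [Algebra kA Fb] [IsFF kA Fb] [IsAlgClosed kA] [CharP kA 2]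
    {S : ConstRed (padVal ιA) (IsLocalRing.residue (padVal ιA)) E Fb} (Θ : Flat.Coef S)
    (hBdeg : 0 < Divisor.degree Θ.B) {x : E} (hxB : x ∈ riemannRochSpace Θ.B)
    (hx : ∃ y : LaurentSeries (padVal ιA),
      Θ.ser x = coeffMap (padVal ιA).subtype y ∧ y.coeff (-1) = 1)
    {D : Divisor Qbar E} {f : E} (hf : f ≠ 0) (hD : divisorOf f = 4 • D)
    (h4 : IsFourth (lsI (Θ.ser f))) : Divisor.IsPrincipal (Finsupp.mapDomain S.r D) := by
  obtain ⟨c, U, W, hc, ⟨u, hu, hu0⟩, ⟨w, hw, hw0⟩, hUW⟩ := h4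
  have hred := exists_intCp_lift Θ
  obtain ⟨q, hq, hqf, hq0⟩ := exists_reg_denominator Θ hBdeg hf
  obtain ⟨l₁, q', hl₁, eq1, hq'⟩ := S.exists_normal hq0
  obtain ⟨l₂, h', hl₂, eq2, hh'⟩ := S.exists_normal (mul_ne_zero hf hq0)
  have hreg := fun {g g' : E} {l : Qbar} => reg_of_eq_smul Θ (g := g) (g' := g') (l := l)
  obtain ⟨yq, hyq, hyq'⟩ := hred q' (hreg hl₁ eq1 hq)
  obtain ⟨yh, hyh, hyh'⟩ := hred h' (hreg hl₂ eq2 hqf)
  have hyq0 : coeffMap resCp yq ≠ 0 := by rw [hyq']; exact (_root_.map_ne_zero _).2 hq'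
  have hyh0 : coeffMap resCp yh ≠ 0 := by rw [hyh']; exact (_root_.map_ne_zero _).2 hh'
  set κ : ℂ_[ℓ] := c * ιA l₁ / ιA l₂
  have hl1' : ιA l₁ ≠ 0 := (_root_.map_ne_zero _).2 hl₁
  have hl2' : ιA l₂ ≠ 0 := (_root_.map_ne_zero _).2 hl₂
  have hκ : coeffMap (intCp ℓ).subtype (yh * w ^ 4) =
      HahnSeries.C κ * coeffMap (intCp ℓ).subtype (yq * u ^ 4) := by
    have e1 := congrArg (fun z : E => lsI (Θ.ser z)) eq1
    have e2 := congrArg (fun z : E => lsI (Θ.ser z)) eq2
    have hC : ∀ a : Qbar,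
        lsI (HahnSeries.C a : LaurentSeries Qbar) = HahnSeries.C (ιA a) := fun a => by
      rw [HahnSeries.C_apply, HahnSeries.C_apply, lsMap, ModularCurve.coeffMap_single]
    simp only [map_mul, Θ.ser_algebraMap, hC] at e1 e2
    have hC2 : (HahnSeries.C (ιA l₂) : LS) ≠ 0 := (map_ne_zero_iff _ HahnSeries.C_injective).2 hl2'
    refine map_cross_eq _ hyh hyq hu hw hC2 ?_ e1 e2 hUW
    rw [← map_mul, ← map_mul, show κ = c * ιA l₁ / ιA l₂ from rfl]
    congr 1
    field_simp
  -- the constant is a unit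
  have hκ1 : ‖κ‖ = 1 := by
    have hpos := fun (s t : LaurentSeries (intCp ℓ)) (a : ℂ_[ℓ]) =>
      one_le_norm_of_series_eq (s := s) (t := t) (a := a)
    have h1 := hpos _ (yq * u ^ 4) κ (by
      rw [map_mul, map_pow]; exact mul_ne_zero hyh0 (pow_ne_zero _ hw0)) hκ
    have hκ0 : κ ≠ 0 := fun h0 => by rw [h0, norm_zero] at h1; linarith
    have h2 := hpos (yq * u ^ 4) (yh * w ^ 4) κ⁻¹ (by
      rw [map_mul, map_pow]; exact mul_ne_zero hyq0 (pow_ne_zero _ hu0)) (by
      rw [hκ, ← mul_assoc, ← map_mul, inv_mul_cancel₀ hκ0, map_one, one_mul])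
    rw [norm_inv, one_le_inv₀ (by linarith)] at h2
    linarith
  have hbar : Θ.serb (S.red h') * (coeffMap resCp w) ^ 4 =
      HahnSeries.C (resCp ⟨κ, hκ1.le⟩) * (Θ.serb (S.red q') * (coeffMap resCp u) ^ 4) := by
    have hlift : yh * w ^ 4 = HahnSeries.C ⟨κ, hκ1.le⟩ * (yq * u ^ 4) := by
      refine HahnSeries.ext (funext fun j => Subtype.ext ?_)
      have e' := congrArg (fun z : LS => z.coeff j) hκ
      simp only [HahnSeries.C_mul_eq_smul, HahnSeries.coeff_smul, coeffMap_coeff] at e' ⊢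
      exact e'
    have := congrArg (coeffMap resCp) hlift
    simpa only [map_mul, map_pow, hyh', hyq', HahnSeries.C_apply,
      ModularCurve.coeffMap_single] using this
  obtain ⟨r, hr⟩ := IsAlgClosed.exists_pow_nat_eq (resCp ⟨κ, hκ1.le⟩) (show 0 < 4 by norm_num)
  set z : Fb := S.red h' / S.red q'
  have hz : Θ.serb z = ((HahnSeries.C r * coeffMap resCp u / coeffMap resCp w) ^ 2) ^ 2 := by
    have hqb : Θ.serb (S.red q') ≠ 0 := (_root_.map_ne_zero _).2 hq'
    rw [← pow_mul, div_pow, mul_pow, ← map_pow, hr, map_div₀,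
      div_eq_div_iff hqb (pow_ne_zero _ hw0)]
    linear_combination hbar
  obtain ⟨xb, hxb⟩ := exists_red_coeff_ne_zero Θ hxB hx
  obtain ⟨s, hs, hs'⟩ := exists_sq_of_series Θ.serb Θ.serb_algebraMap hxb hz
  obtain ⟨t, ht, -⟩ := exists_sq_of_series Θ.serb Θ.serb_algebraMap hxb hs'
  have ht4 : z = t ^ 4 := by rw [hs, ht, ← pow_mul]
  have hz0 : z ≠ 0 := div_ne_zero hh' hq'
  have ht0 : t ≠ 0 := fun h => hz0 (by rw [ht4, h, zero_pow (by norm_num)])
  refine Curve.isPrincipal_iff.2 ⟨t, ht0, ?_⟩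
  have hsplit : divisorOf (h' : E) - divisorOf (q' : E) = 4 • D := by
    rw [← hD]
    refine Finsupp.ext fun v => ?_
    simp only [Finsupp.sub_apply, divisorOf_apply]
    have hh0 : (h' : E) ≠ 0 := fun h => mul_ne_zero hf hq0 (by rw [eq2, h, mul_zero])
    have hqq : (q' : E) ≠ 0 := fun h => hq0 (by rw [eq1, h, mul_zero])
    have o1 := congrArg v.ord eq1
    have o2 := congrArg v.ord eq2
    rw [v.ord_mul ((_root_.map_ne_zero _).2 hl₁) hqq, ord_algebraMap hl₁] at o1
    rw [v.ord_mul ((_root_.map_ne_zero _).2 hl₂) hh0, ord_algebraMap hl₂, v.ord_mul hf hq0] at o2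
    omega
  have hm := congrArg (Finsupp.mapDomain S.r) hsplit
  rw [Finsupp.mapDomain_sub, S.mapDomain_r h' hh', S.mapDomain_r q' hq',
    Finsupp.mapDomain_smul] at hm
  refine Finsupp.ext fun v => ?_
  have hv := DFunLike.congr_fun hm v
  simp only [Finsupp.sub_apply, divisorOf_apply, Finsupp.smul_apply, nsmul_eq_mul] at hv
  rw [show S.red h' = z * S.red q' from (div_mul_cancel₀ _ hq').symm, v.ord_mul hz0 hq', ht4,
    ord_pow] at hv
  rw [divisorOf_apply]
  push_cast at hv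
  omega

end Disc

end FermatAgent.Mazur.Edge

end
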