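import Fermat.Agent.Flat.Model
import Fermat.Agent.Mazur.Kummer
import Mathlib.GroupTheory.PGroup

/-!
# Connected two-power finite flat modules with unipotent action are multiplicative

If every coordinate is congruent to its value at the origin and Galois acts through a `2`-group,
then inertia commutes with all characters into the roots of unity.
-/

set_option autoImplicit false

noncomputable section

open Module FermatAgent.GaloisBasic
open scoped Classical

namespace FermatAgent.Mazur.Edge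

open FermatAgent.Flat

variable {M : Type} [AddCommGroup M] [DistribMulAction GQ M] [Finite M]

/-- A stable proper subgroup has a fixed coset of order two. -/
theorem exists_fixed_coset (hP : ∀ σ : GQ, ∃ j : ℕ, ∀ x : M, σ ^ 2 ^ j • x = x)
    (hM : ∀ x : M, ∃ j : ℕ, 2 ^ j • x = 0) (K : AddSubgroup M)
    (hK : ∀ (σ : GQ), ∀ x ∈ K, σ • x ∈ K) (hne : K ≠ ⊤) :
    ∃ c : M, c ∉ K ∧ c + c ∈ K ∧ ∀ σ : GQ, σ • c - c ∈ K := by
  let f : GQ → (M ⧸ K) →+ (M ⧸ K) := fun σ =>
    QuotientAddGroup.map K K (DistribSMul.toAddMonoidHom M σ) fun x hx => hK σ x hx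
  have hf : ∀ σ (x : M), f σ (QuotientAddGroup.mk x) = QuotientAddGroup.mk (σ • x) :=
    fun σ x => rfl
  let φ : GQ →* Equiv.Perm (M ⧸ K) :=
    MonoidHom.mk' (fun σ =>
      { toFun := f σ
        invFun := f σ⁻¹
        left_inv := fun y => by
          obtain ⟨x, rfl⟩ := QuotientAddGroup.mk_surjective y
          rw [hf, hf, inv_smul_smul]
        right_inv := fun y => by
          obtain ⟨x, rfl⟩ := QuotientAddGroup.mk_surjective y
          rw [hf, hf, smul_inv_smul] })
      fun σ τ => Equiv.ext fun y => by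
        obtain ⟨x, rfl⟩ := QuotientAddGroup.mk_surjective y
        show f (σ * τ) (QuotientAddGroup.mk x) = f σ (f τ (QuotientAddGroup.mk x))
        rw [hf, hf, hf, mul_smul]
  have hG : IsPGroup 2 φ.range := by
    rintro ⟨_, σ, rfl⟩
    obtain ⟨j, hj⟩ := hP σ
    refine ⟨j, Subtype.ext (Equiv.ext fun y => ?_)⟩
    obtain ⟨x, rfl⟩ := QuotientAddGroup.mk_surjective y
    show (φ σ ^ 2 ^ j) (QuotientAddGroup.mk x) = _
    rw [← map_pow]
    show f (σ ^ 2 ^ j) (QuotientAddGroup.mk x) = _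
    rw [hf, hj]
    rfl
  have : Nontrivial (M ⧸ K) := QuotientAddGroup.nontrivial_iff.2 hne
  obtain ⟨y, hy0, hy2⟩ : ∃ y : M ⧸ K, y ≠ 0 ∧ 2 • y = 0 := by
    obtain ⟨y, hy⟩ := exists_ne (0 : M ⧸ K)
    obtain ⟨x, rfl⟩ := QuotientAddGroup.mk_surjective y
    obtain ⟨j, hj⟩ := hM x
    have hex : ∃ i, 2 ^ i • (QuotientAddGroup.mk x : M ⧸ K) = 0 :=
      ⟨j, by rw [← QuotientAddGroup.mk_nsmul, hj]; rfl⟩
    have hpos : Nat.find hex ≠ 0 := fun h0 => hy (by
      have h := Nat.find_spec hex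
      rwa [h0, pow_zero, one_smul] at h)
    refine ⟨2 ^ (Nat.find hex - 1) • (QuotientAddGroup.mk x : M ⧸ K),
      Nat.find_min hex (by omega), ?_⟩
    rw [smul_smul, ← pow_succ', Nat.sub_add_cancel (Nat.pos_of_ne_zero hpos), Nat.find_spec hex]
  let T : Set (M ⧸ K) := {y | 2 • y = 0}
  let : MulAction φ.range T :=
    { smul := fun g y => ⟨(g : Equiv.Perm (M ⧸ K)) y, by
        obtain ⟨σ, hσ⟩ := g.2
        show 2 • (g : Equiv.Perm (M ⧸ K)) y.1 = 0
        rw [← hσ]
        show 2 • f σ y.1 = 0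
        rw [← map_nsmul, y.2, map_zero]⟩
      one_smul := fun _ => rfl
      mul_smul := fun _ _ _ => rfl }
  have hcard : 2 ∣ Nat.card T := by
    have e : T = (AddSubgroup.torsionBy (M ⧸ K) (2 : ℕ) : Set (M ⧸ K)) := Set.ext fun z => by
      simp [T, AddSubgroup.torsionBy, ← natCast_zsmul]
    rw [e]
    have ho : addOrderOf y = 2 := addOrderOf_eq_prime hy2 hy0
    have h2 := addOrderOf_dvd_natCard (⟨y, by rw [← SetLike.mem_coe, ← e]; exact hy2⟩ :
      AddSubgroup.torsionBy (M ⧸ K) (2 : ℕ))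
    rwa [← AddSubgroup.addOrderOf_coe, ho] at h2
  have h0fix : (⟨0, smul_zero 2⟩ : T) ∈ MulAction.fixedPoints φ.range T := fun g => Subtype.ext (by
    obtain ⟨σ, hσ⟩ := g.2
    show (g : Equiv.Perm (M ⧸ K)) 0 = 0
    rw [← hσ]
    exact map_zero (f σ))
  have : Fact (Nat.Prime 2) := ⟨Nat.prime_two⟩
  obtain ⟨⟨z, hz⟩, hzfix, hzne⟩ :=
    hG.exists_fixed_point_of_prime_dvd_card_of_fixed_point T hcard h0fix
  obtain ⟨c, rfl⟩ := QuotientAddGroup.mk_surjective z
  refine ⟨c, fun h => hzne (Subtype.ext ((QuotientAddGroup.eq_zero_iff c).2 h).symm), ?_,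
    fun σ => ?_⟩
  · rw [← QuotientAddGroup.eq_zero_iff, ← two_nsmul, QuotientAddGroup.mk_nsmul]
    exact hz
  · have h := congrArg Subtype.val (hzfix ⟨φ σ, σ, rfl⟩)
    rw [← QuotientAddGroup.eq_zero_iff, QuotientAddGroup.mk_sub, sub_eq_zero, ← hf]
    exact h

variable {L : IntermediateField ℚ Qbar} [FiniteDimensional ℚ L] [IsGalois ℚ L]
variable {A : ValuationSubring Qbar} {Φ : Set (M → Qbar)}

/-- A rational element of the maximal ideal is divisible by `2`. -/
theorem half_mem_of_rat {q : ℚ} (hA : A.LiesOverPrime 2) (hq : (q : Qbar) ∈ A.nonunits) :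
    (q : Qbar) / 2 ∈ A := by
  have : Fact (Nat.Prime 2) := ⟨Nat.prime_two⟩
  have hqA : (q : Qbar) ∈ A := A.nonunits_subset hq
  have hden : q.den.Coprime 2 := (Curve.Red.mem_ratVal_iff hA).1 hqA
  rcases eq_or_ne q 0 with rfl | h0
  · simp
  have hnum : (2 : ℤ) ∣ q.num := by
    by_contra hn
    have hinv : ((q⁻¹ : ℚ) : Qbar) ∈ A := by
      refine (Curve.Red.mem_ratVal_iff hA).2 ?_
      show q⁻¹.den.Coprime 2
      rw [Rat.den_inv, if_neg (Rat.num_ne_zero.2 h0), Nat.coprime_comm,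
        Nat.prime_two.coprime_iff_not_dvd]
      exact fun h => hn (Int.natCast_dvd.2 h)
    rw [ValuationSubring.mem_nonunits_iff] at hq
    have h1 := (A.valuation_le_one_iff _).2 hinv
    rw [Rat.cast_inv, map_inv₀, inv_le_one₀ (zero_lt_iff.2
      ((Valuation.ne_zero_iff _).2 (by exact_mod_cast h0)))] at h1
    exact absurd hq h1.not_gt
  obtain ⟨t, ht⟩ := hnum
  have e : (q : Qbar) / 2 = (((t : ℚ) / q.den : ℚ) : Qbar) := by
    conv_lhs => rw [← Rat.num_div_den q, ht]
    push_cast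
    ring
  rw [e]
  refine (Curve.Red.mem_ratVal_iff hA).2 (Nat.Coprime.coprime_dvd_left ?_ hden)
  have h := Rat.den_dvd t (q.den : ℤ)
  rw [Rat.divInt_eq_div] at h
  exact_mod_cast h

variable (hA : A.LiesOverPrime 2) (h : IsCoordSystem L A Φ)

include h in
omit [Finite M] [FiniteDimensional ℚ ↥L] [IsGalois ℚ ↥L] in
/-- Coordinates congruent to their value at the origin generate such functions. -/
theorem adjoin_sub_mem_nonunits (hconn : ∀ φ ∈ Φ, ∀ x, φ x - φ 0 ∈ A.nonunits) {f : M → Qbar}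
    (hf : f ∈ Algebra.adjoin A Φ) (x : M) : f x - f 0 ∈ A.nonunits := by
  induction hf using Algebra.adjoin_induction with
  | mem φ hφ => exact hconn φ hφ x
  | algebraMap a =>
    rw [show algebraMap A (M → Qbar) a x - algebraMap A (M → Qbar) a 0 = 0 from sub_self _,
      ValuationSubring.mem_nonunits_iff, map_zero]
    exact zero_lt_one
  | add f g _ _ hf hg =>
    rw [ValuationSubring.mem_nonunits_iff] at hf hg ⊢
    rw [Pi.add_apply, Pi.add_apply, add_sub_add_comm]
    exact A.valuation.map_add_lt hf hg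
  | mul f g hfm hgm hf hg =>
    rw [ValuationSubring.mem_nonunits_iff] at hf hg ⊢
    rw [Pi.mul_apply, Pi.mul_apply,
      show f x * g x - f 0 * g 0 = (f x - f 0) * g x + f 0 * (g x - g 0) by ring]
    refine A.valuation.map_add_lt ?_ ?_ <;> rw [map_mul]
    · exact mul_lt_one_of_nonneg_of_lt_one_left zero_le hf
        ((A.valuation_le_one_iff _).2 (h.mem_adjoin_integral hgm x))
    · exact mul_lt_one_of_nonneg_of_lt_one_right
        ((A.valuation_le_one_iff _).2 (h.mem_adjoin_integral hfm 0)) zero_le hg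

include hA h in
/-- Characters lie in the coordinate ring. -/
theorem char_mem_adjoin (ψ : Multiplicative M →* Qbarˣ) :
    (fun x => (ψ (.ofAdd x) : Qbar)) ∈ Algebra.adjoin A Φ := by
  have : Fact (Nat.Prime 2) := ⟨Nat.prime_two⟩
  have := Fintype.ofFinite M
  obtain ⟨n, b, hli, hn⟩ := exists_invAlg_basis hA h
  set F : M → Qbar := fun x => (ψ (.ofAdd x) : Qbar)
  have hspan : ⊤ ≤ Submodule.span Qbar (Set.range fun i => (b i : M → Qbar)) := by
    refine (hli.span_eq_top_of_card_eq_finrank' ?_).ge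
    rw [Fintype.card_fin, Module.finrank_pi, ← Nat.card_eq_fintype_card, hn]
  obtain ⟨ε, hε⟩ := (Submodule.mem_span_range_iff_exists_fun Qbar).1 (hspan (x := F) trivial)
  choose c hc using fun k => exists_add_eq hA h b (b k).2.1
  have hrel : ∀ i j, ε i * ε j = ∑ k, (c k (i, j) : Qbar) * ε k := by
    have hpair := linearIndependent_prod hli hli
    refine fun i j => Fintype.linearIndependent_iffₛ.1 hpair
      (fun p => ε p.1 * ε p.2) (fun p => ∑ k, (c k p : Qbar) * ε k) (funext fun ⟨x, y⟩ => ?_) (i, j)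
    have e1 : F (x + y) = F x * F y := by simp [F]
    have hF : ∀ z, F z = ∑ k, ε k * (b k : M → Qbar) z := fun z => by
      rw [← hε]; simp [Finset.sum_apply]
    simp only [Finset.sum_apply, Pi.smul_apply, smul_eq_mul]
    rw [hF, hF, hF, Finset.sum_mul_sum] at e1
    simp only [hc, Finset.mul_sum] at e1
    refine Eq.trans ?_ (e1.symm.trans ?_)
    · rw [Fintype.sum_prod_type]
      exact Finset.sum_congr rfl fun i _ => Finset.sum_congr rfl fun j _ => by ring
    · rw [Finset.sum_comm]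
      simp only [Finset.sum_mul]
      exact Finset.sum_congr rfl fun p _ => Finset.sum_congr rfl fun k _ => by ring
  have hεA : ∀ i, ε i ∈ A := by
    intro i
    let Z : Submodule A Qbar := Submodule.span A (insert 1 (Set.range ε))
    have hmul : ∀ u ∈ Z, ∀ v ∈ Z, u * v ∈ Z := by
      refine fun u hu v hv => Submodule.mul_le.1 (show Z * Z ≤ Z from ?_) u hu v hv
      rw [Submodule.span_mul_span]
      refine Submodule.span_le.2 ?_
      rintro _ ⟨u, (rfl | ⟨i, rfl⟩), v, (rfl | ⟨j, rfl⟩), rfl⟩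
      · show (1 : Qbar) * 1 ∈ Z
        rw [one_mul]; exact Submodule.subset_span (Or.inl rfl)
      · show (1 : Qbar) * ε j ∈ Z
        rw [one_mul]; exact Submodule.subset_span (Or.inr ⟨j, rfl⟩)
      · show ε i * (1 : Qbar) ∈ Z
        rw [mul_one]; exact Submodule.subset_span (Or.inr ⟨i, rfl⟩)
      · show ε i * ε j ∈ Z
        rw [hrel]
        exact Submodule.sum_mem _ fun k _ =>
          Z.smul_mem (c k (i, j)) (Submodule.subset_span (Or.inr ⟨k, rfl⟩))
    let S : Subalgebra A Qbar :=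
      Z.toSubalgebra (Submodule.subset_span (Or.inl rfl)) fun u v hu hv => hmul u hu v hv
    have hfg : S.toSubmodule.FG := by
      rw [Submodule.toSubalgebra_toSubmodule]
      exact Submodule.fg_span ((Set.finite_range ε).insert 1)
    have hint : IsIntegral A (ε i) := IsIntegral.of_mem_of_fg S hfg _
      (Submodule.subset_span (Or.inr ⟨i, rfl⟩))
    obtain ⟨a, ha⟩ := IsIntegrallyClosed.isIntegral_iff.mp hint
    exact ha ▸ a.2
  rw [← hε]
  refine Subalgebra.sum_mem _ fun i _ => ?_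
  exact Subalgebra.smul_mem _ (b i).2.1 (⟨_, hεA i⟩ : A)

/-- The average over a subgroup. -/
def avg (K : AddSubgroup M) (f : M → Qbar) : M → Qbar := fun x =>
  (Nat.card K : Qbar)⁻¹ * ∑ᶠ k : K, f (x + k)

section

omit [DistribMulAction GQ M]

omit [Finite M] in
theorem avg_eq_sum (K : AddSubgroup M) [Fintype K] (f : M → Qbar) (x : M) :
    avg K f x = (Nat.card K : Qbar)⁻¹ * ∑ k : K, f (x + k) := by
  rw [avg, finsum_eq_sum_of_fintype]

theorem avg_add_mem (K : AddSubgroup M) (f : M → Qbar) {k : M} (hk : k ∈ K) (x : M) :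
    avg K f (x + k) = avg K f x := by
  have := Fintype.ofFinite K
  rw [avg_eq_sum, avg_eq_sum]
  congr 1
  exact Fintype.sum_equiv (Equiv.addLeft (⟨k, hk⟩ : K)) _ _ fun j => by
    simp [add_assoc]

theorem avg_of_invariant (K : AddSubgroup M) {f : M → Qbar}
    (hf : ∀ x, ∀ k ∈ K, f (x + k) = f x) : avg K f = f := funext fun x => by
  have := Fintype.ofFinite K
  rw [avg_eq_sum, Finset.sum_congr rfl fun (k : K) _ => hf x k k.2, Finset.sum_const,
    Finset.card_univ, ← Nat.card_eq_fintype_card, nsmul_eq_mul, ← mul_assoc,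
    inv_mul_cancel₀ (Nat.cast_ne_zero.2 Nat.card_pos.ne'), one_mul]

theorem avg_sum {ι : Type} (K : AddSubgroup M) (s : Finset ι) (a : ι → Qbar) (f : ι → M → Qbar) :
    avg K (fun x => ∑ i ∈ s, a i * f i x) = fun x => ∑ i ∈ s, a i * avg K (f i) x :=
  funext fun x => by
    have := Fintype.ofFinite K
    simp only [avg_eq_sum]
    rw [Finset.sum_comm, Finset.mul_sum]
    refine Finset.sum_congr rfl fun i _ => ?_
    rw [← Finset.mul_sum]
    ring

/-- The subgroup generated over `K` by an element whose double lies in `K`. -/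
def adjoinTwo (K : AddSubgroup M) (c : M) (hc : c + c ∈ K) : AddSubgroup M where
  carrier := {x | x ∈ K ∨ x - c ∈ K}
  zero_mem' := Or.inl K.zero_mem
  add_mem' {x y} hx hy := by
    rcases hx with hx | hx <;> rcases hy with hy | hy
    · exact Or.inl (add_mem hx hy)
    · exact Or.inr (by rw [show x + y - c = x + (y - c) by abel]; exact add_mem hx hy)
    · exact Or.inr (by rw [show x + y - c = x - c + y by abel]; exact add_mem hx hy)
    · exact Or.inl (by
        rw [show x + y = x - c + (y - c) + (c + c) by abel]; exact add_mem (add_mem hx hy) hc)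
  neg_mem' {x} hx := by
    rcases hx with hx | hx
    · exact Or.inl (neg_mem hx)
    · exact Or.inr (by rw [show -x - c = -(x - c) - (c + c) by abel]; exact sub_mem (neg_mem hx) hc)

theorem avg_adjoinTwo (K : AddSubgroup M) (c : M) (hc : c + c ∈ K) (hcK : c ∉ K) (f : M → Qbar)
    (x : M) : avg (adjoinTwo K c hc) f x = (avg K f x + avg K f (x + c)) / 2 := by
  have := Fintype.ofFinite K
  have := Fintype.ofFinite (adjoinTwo K c hc)
  let F : K ⊕ K → adjoinTwo K c hc := Sum.elim (fun k => ⟨k, Or.inl k.2⟩)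
    (fun k => ⟨c + k, Or.inr (by rw [add_sub_cancel_left]; exact k.2)⟩)
  have hF : Function.Bijective F := by
    refine ⟨?_, fun y => ?_⟩
    · rintro (a | a) (b | b) hab <;> have h' := congrArg Subtype.val hab <;> simp [F] at h'
      · rw [h']
      · exact absurd (by rw [show c = (a : M) - b by rw [h']; abel]; exact sub_mem a.2 b.2) hcK
      · exact absurd (by rw [show c = (b : M) - a by rw [← h']; abel]; exact sub_mem b.2 a.2) hcK
      · rw [h']
    · rcases y.2 with hy | hy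
      · exact ⟨.inl ⟨y, hy⟩, rfl⟩
      · exact ⟨.inr ⟨y - c, hy⟩, Subtype.ext (add_sub_cancel _ _)⟩
  have hcard : Nat.card (adjoinTwo K c hc) = 2 * Nat.card K := by
    rw [← Nat.card_eq_of_bijective F hF, Nat.card_sum, two_mul]
  rw [avg_eq_sum, avg_eq_sum, avg_eq_sum, hcard, ← Fintype.sum_bijective F hF _ _ (fun _ => rfl),
    Fintype.sum_sum_type, Nat.cast_mul, mul_inv]
  simp only [F, Sum.elim_inl, Sum.elim_inr, add_assoc]
  push_cast
  ring

end

/-- The average over a stable subgroup of an invariant function takes a fixed value on a fixed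
coset. -/
private theorem map_avg_eq {K : AddSubgroup M} (hstab : ∀ (σ : GQ), ∀ y ∈ K, σ • y ∈ K)
    {f : M → Qbar} (hf : ∀ τ : GQ, tw τ f = f) {z : M} (hz : ∀ τ : GQ, τ • z - z ∈ K) (τ : GQ) :
    τ (avg K f z) = avg K f z := by
  have := Fintype.ofFinite K
  conv_rhs => rw [← avg_add_mem K _ (hz τ) z, add_sub_cancel]
  rw [avg_eq_sum, avg_eq_sum, map_mul, map_inv₀, map_natCast, map_sum]
  congr 1
  let T : K → K := fun k => ⟨τ • (k : M), hstab τ k k.2⟩
  have hT : Function.Bijective T := Finite.injective_iff_bijective.1 fun u v huv =>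
    Subtype.ext ((MulAction.injective τ) (congrArg Subtype.val huv))
  refine Fintype.sum_bijective T hT _ _ fun k => ?_
  have e := congrFun (hf τ) (τ • (z + (k : M)))
  rw [tw_apply, inv_smul_smul] at e
  simp only [T]
  rw [e, smul_add]

include hA h in
omit [FiniteDimensional ℚ L] [IsGalois ℚ L] in
/-- Half the jump of an averaged invariant coordinate at a fixed coset is integral. -/
private theorem avg_sub_div_two_mem (hconn : ∀ φ ∈ Φ, ∀ x, φ x - φ 0 ∈ A.nonunits)
    {K : AddSubgroup M} (hstab : ∀ (σ : GQ), ∀ y ∈ K, σ • y ∈ K)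
    (havg : ∀ f ∈ Algebra.adjoin A Φ, avg K f ∈ Algebra.adjoin A Φ) {f : M → Qbar}
    (hfA : f ∈ Algebra.adjoin A Φ) (hf : ∀ τ : GQ, tw τ f = f) {c : M}
    (hc : ∀ τ : GQ, τ • c - c ∈ K) : (avg K f c - avg K f 0) / 2 ∈ A := by
  have : Fact (Nat.Prime 2) := ⟨Nat.prime_two⟩
  have hg := havg f hfA
  obtain ⟨r, hr⟩ := exists_of_mem_of_fixed hA (h.mem_adjoin_integral hg c) (map_avg_eq hstab hf hc)
  obtain ⟨s, hs⟩ := exists_of_mem_of_fixed hA (h.mem_adjoin_integral hg 0)
    (map_avg_eq hstab hf fun τ => by rw [smul_zero, sub_zero]; exact K.zero_mem)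
  have e : avg K f c - avg K f 0 = (((r : ℚ) - s : ℚ) : Qbar) := by
    rw [Rat.cast_sub, ← hr, ← hs]; rfl
  rw [e]
  exact half_mem_of_rat hA (e ▸ adjoin_sub_mem_nonunits h hconn hg c)

omit [DistribMulAction GQ M] in
/-- A character killing `K`, congruent to one and of small coordinates, kills an element whose
double lies in `K`. -/
private theorem char_eq_one_of_avg {n : ℕ} {K : AddSubgroup M} (ψ : Multiplicative M →* Qbarˣ)
    (hker : ∀ y ∈ K, ψ (.ofAdd y) = 1) {c : M} (hcc : c + c ∈ K) {B : Fin n → M → Qbar}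
    {ε : Fin n → Qbar} (hε : ∀ i, ε i ∈ A.nonunits)
    (hψε : ∀ y, (ψ (.ofAdd y) : Qbar) - 1 = ∑ i, ε i * B i y)
    (hkc : ∀ i, (avg K (B i) c - avg K (B i) 0) / 2 ∈ A) : ψ (.ofAdd c) = 1 := by
  have hinv : ∀ y, ∀ k ∈ K, ((ψ (.ofAdd (y + k)) : Qbar) - 1) = (ψ (.ofAdd y) : Qbar) - 1 :=
    fun y k hk => by rw [ofAdd_add, map_mul, hker k hk, mul_one]
  have h1 := avg_of_invariant K (f := fun y => (ψ (.ofAdd y) : Qbar) - 1) hinv
  rw [show (fun y => (ψ (.ofAdd y) : Qbar) - 1) = fun y => ∑ i, ε i * B i y from funext hψε,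
    avg_sum] at h1
  have hd : ((ψ (.ofAdd c) : Qbar) - 1) / 2 =
      ∑ i, ε i * ((avg K (B i) c - avg K (B i) 0) / 2) := by
    have h2 : ∑ i, ε i * avg K (B i) 0 = 0 := by
      rw [congrFun h1 0, ← hψε 0, ofAdd_zero, map_one, Units.val_one, sub_self]
    rw [hψε c, ← congrFun h1 c, ← sub_zero (∑ i, ε i * avg K (B i) c), ← h2,
      ← Finset.sum_sub_distrib, Finset.sum_div]
    exact Finset.sum_congr rfl fun i _ => by ring
  have hlt : A.valuation (((ψ (.ofAdd c) : Qbar) - 1) / 2) < 1 := by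
    rw [hd]
    refine A.valuation.map_sum_lt one_ne_zero fun i _ => ?_
    rw [map_mul]
    exact mul_lt_one_of_nonneg_of_lt_one_left zero_le
      ((ValuationSubring.mem_nonunits_iff _).1 (hε i)) ((A.valuation_le_one_iff _).2 (hkc i))
  have hsq : (ψ (.ofAdd c) : Qbar) * ψ (.ofAdd c) = 1 := by
    rw [← Units.val_mul, ← map_mul, ← ofAdd_add, hker _ hcc, Units.val_one]
  rcases mul_self_eq_one_iff.1 hsq with h1 | h1
  · exact Units.ext h1
  · rw [h1, show ((-1 : Qbar) - 1) / 2 = -1 by norm_num, Valuation.map_neg, map_one] at hlt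
    exact absurd hlt (lt_irrefl _)

omit [DistribMulAction GQ M] in
/-- An averaged function expands through the averages of the second factor of its coproduct. -/
private theorem avg_add_eq_sum {n : ℕ} {K : AddSubgroup M} {f : M → Qbar}
    {B : Fin n → M → Qbar} {cg : Fin n × Fin n → A}
    (hcg : ∀ x y : M, avg K f (x + y) = ∑ p, (cg p : Qbar) * (B p.1 x * B p.2 y)) (y z : M) :
    avg K f (y + z) = ∑ p : Fin n × Fin n, (cg p : Qbar) * (B p.1 y * avg K (B p.2) z) := by
  have := Fintype.ofFinite K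
  set g := avg K f
  conv_lhs =>
    rw [show g = avg K g from (avg_of_invariant K fun x k hk => avg_add_mem K f hk x).symm]
  simp only [avg_eq_sum, add_assoc, hcg]
  rw [Finset.sum_comm, Finset.mul_sum]
  refine Finset.sum_congr rfl fun p _ => ?_
  rw [← Finset.mul_sum, ← Finset.mul_sum]
  ring

include hA h in
/-- Averaging over the subgroup generated by a fixed coset preserves the coordinate ring. -/
private theorem avg_adjoinTwo_mem {n : ℕ}
    (b : Basis (Fin n) (GaloisRep.ratLocalizedAt 2) (invAlg hA Φ))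
    {K : AddSubgroup M} (havg : ∀ f ∈ Algebra.adjoin A Φ, avg K f ∈ Algebra.adjoin A Φ) {c : M}
    (hcc : c + c ∈ K) (hcK : c ∉ K)
    (hkc : ∀ i, (avg K (b i : M → Qbar) c - avg K (b i : M → Qbar) 0) / 2 ∈ A) {f : M → Qbar}
    (hf : f ∈ Algebra.adjoin A Φ) : avg (adjoinTwo K c hcc) f ∈ Algebra.adjoin A Φ := by
  have : Fact (Nat.Prime 2) := ⟨Nat.prime_two⟩
  obtain ⟨cg, hcg⟩ := exists_add_eq hA h b (havg f hf)
  have e : avg (adjoinTwo K c hcc) f = avg K f + ∑ p : Fin n × Fin n, ((cg p : Qbar) *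
      ((avg K (b p.2 : M → Qbar) c - avg K (b p.2 : M → Qbar) 0) / 2)) • (b p.1 : M → Qbar) := by
    funext y
    rw [avg_adjoinTwo K c hcc hcK, Pi.add_apply, Finset.sum_apply,
      show avg K f y = avg K f (y + 0) by rw [add_zero],
      avg_add_eq_sum (B := fun i => (b i : M → Qbar)) hcg,
      avg_add_eq_sum (B := fun i => (b i : M → Qbar)) hcg,
      add_div, Finset.sum_div, Finset.sum_div, ← Finset.sum_add_distrib, ← Finset.sum_add_distrib]
    exact Finset.sum_congr rfl fun p _ => by simp only [Pi.smul_apply, smul_eq_mul]; ring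
  rw [e]
  refine add_mem (havg f hf) (Subalgebra.sum_mem _ fun p _ => ?_)
  exact Subalgebra.smul_mem _ (b p.1).2.1 (⟨_, mul_mem (cg p).2 (hkc p.2)⟩ : A)

include hA h in
/-- A character whose coordinates are small is trivial. -/
private theorem char_eq_one_of_small (hconn : ∀ φ ∈ Φ, ∀ x, φ x - φ 0 ∈ A.nonunits)
    (hP : ∀ σ : GQ, ∃ j : ℕ, ∀ x : M, σ ^ 2 ^ j • x = x) (hM : ∀ x : M, ∃ j : ℕ, 2 ^ j • x = 0)
    {n : ℕ} (b : Basis (Fin n) (GaloisRep.ratLocalizedAt 2) (invAlg hA Φ))
    (ψ : Multiplicative M →* Qbarˣ) {ε : Fin n → Qbar} (hε : ∀ i, ε i ∈ A.nonunits)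
    (hψε : ∀ y, (ψ (.ofAdd y) : Qbar) - 1 = ∑ i, ε i * (b i : M → Qbar) y) :
    ∀ y, ψ (.ofAdd y) = 1 := by
  let Good : AddSubgroup M → Prop := fun K => (∀ (σ : GQ), ∀ y ∈ K, σ • y ∈ K) ∧
    (∀ f ∈ Algebra.adjoin A Φ, avg K f ∈ Algebra.adjoin A Φ) ∧ ∀ y ∈ K, ψ (.ofAdd y) = 1
  have hbot : Good ⊥ := by
    refine ⟨fun σ y hy => ?_, fun f hf => ?_, fun y hy => ?_⟩
    · rw [AddSubgroup.mem_bot] at hy ⊢; rw [hy, smul_zero]
    · rwa [avg_of_invariant ⊥ fun y k hk => by rw [AddSubgroup.mem_bot.1 hk, add_zero]]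
    · rw [AddSubgroup.mem_bot.1 hy, ofAdd_zero, map_one]
  obtain ⟨K, hK, hmax⟩ := (Set.toFinite {K : AddSubgroup M | Good K}).exists_maximal ⟨⊥, hbot⟩
  obtain ⟨hstab, havg, hker⟩ := hK
  by_cases htop : K = ⊤
  · exact fun y => hker y (htop ▸ AddSubgroup.mem_top y)
  obtain ⟨c, hcK, hcc, hcfix⟩ := exists_fixed_coset hP hM K hstab htop
  have hkc : ∀ i, (avg K (b i : M → Qbar) c - avg K (b i : M → Qbar) 0) / 2 ∈ A := fun i =>
    avg_sub_div_two_mem hA h hconn hstab havg (b i).2.1 (b i).2.2 hcfix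
  have hψc : ψ (.ofAdd c) = 1 := char_eq_one_of_avg ψ hker hcc hε hψε hkc
  have hnew : Good (adjoinTwo K c hcc) := by
    refine ⟨fun τ y hy => ?_, fun f hf => avg_adjoinTwo_mem hA h b havg hcc hcK hkc hf,
      fun y hy => ?_⟩
    · rcases hy with hy | hy
      · exact Or.inl (hstab τ y hy)
      · refine Or.inr ?_
        rw [show τ • y - c = τ • (y - c) + (τ • c - c) by rw [smul_sub]; abel]
        exact add_mem (hstab τ _ hy) (hcfix τ)
    · rcases hy with hy | hy
      · exact hker y hy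
      · rw [← sub_add_cancel y c, ofAdd_add, map_mul, hker _ hy, hψc, one_mul]
  exact absurd (hmax hnew (fun y hy => Or.inl hy) (show c ∈ adjoinTwo K c hcc from
    Or.inr (by rw [sub_self]; exact K.zero_mem))) hcK

include hA h in
/-- **Inertia commutes with all characters**: on a connected `2`-group module every character is
equivariant for inertia, so the module is of multiplicative type. -/
theorem char_inertia (hconn : ∀ φ ∈ Φ, ∀ x, φ x - φ 0 ∈ A.nonunits)
    (hP : ∀ σ : GQ, ∃ j : ℕ, ∀ x : M, σ ^ 2 ^ j • x = x) (hM : ∀ x : M, ∃ j : ℕ, 2 ^ j • x = 0)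
    {σ : GQ} (hσ : σ ∈ A.inertiaSubgroupIn ℚ) (χ : Multiplicative M →* Qbarˣ) (x : M) :
    σ (χ (.ofAdd x) : Qbar) = χ (.ofAdd (σ • x)) := by
  have : Fact (Nat.Prime 2) := ⟨Nat.prime_two⟩
  obtain ⟨n, b, -, -⟩ := exists_invAlg_basis hA h
  set F : M → Qbar := fun y => (χ (.ofAdd y) : Qbar) with hFdef
  obtain ⟨a, ha⟩ := (Submodule.mem_span_range_iff_exists_fun A).1
    (mem_span_basis hA h b (char_mem_adjoin hA h χ))
  have hFy : ∀ y, F y = ∑ i, (a i : Qbar) * (b i : M → Qbar) y := fun y => by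
    rw [show F y = (∑ i, a i • (b i : M → Qbar)) y from (congrFun ha y).symm, Finset.sum_apply]
    rfl
  let χ' : Multiplicative M →* Qbarˣ :=
    MonoidHom.mk' (fun y => Units.map (σ : Qbar →* Qbar) (χ (.ofAdd (σ⁻¹ • y.toAdd))))
      fun u v => by rw [toAdd_mul, smul_add, ofAdd_add, map_mul, map_mul]
  obtain ⟨d, hd⟩ := (Submodule.mem_span_range_iff_exists_fun A).1
    (mem_span_basis hA h b (char_mem_adjoin hA h χ⁻¹))
  have hdy : ∀ y, ((χ⁻¹ (.ofAdd y) : Qbarˣ) : Qbar) = ∑ i, (d i : Qbar) * (b i : M → Qbar) y :=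
    fun y => by rw [← congrFun hd y, Finset.sum_apply]; rfl
  choose e he using fun i j => (Submodule.mem_span_range_iff_exists_fun A).1
    (mem_span_basis hA h b (mul_mem (b i).2.1 (b j).2.1 :
      (b i : M → Qbar) * (b j : M → Qbar) ∈ Algebra.adjoin A Φ))
  have e3 : ∀ i j y, (b i : M → Qbar) y * (b j : M → Qbar) y =
      ∑ k, (e i j k : Qbar) * (b k : M → Qbar) y := fun i j y => by
    rw [← Pi.mul_apply, ← congrFun (he i j) y, Finset.sum_apply]; rfl
  have hmove : ∀ i, A.valuation (σ (a i : Qbar) - a i) < 1 := fun i =>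
    valuation_map_sub_lt_one Nat.prime_two hA hσ ((A.valuation_le_one_iff _).2 (a i).2)
  have h1 := char_eq_one_of_small hA h hconn hP hM b (χ' * χ⁻¹)
    (ε := fun k => ∑ i, ∑ j, (σ (a i : Qbar) - a i) * d j * e i j k) (fun k => by
      rw [ValuationSubring.mem_nonunits_iff]
      refine A.valuation.map_sum_lt one_ne_zero fun i _ =>
        A.valuation.map_sum_lt one_ne_zero fun j _ => ?_
      rw [map_mul, map_mul, mul_assoc]
      exact mul_lt_one_of_nonneg_of_lt_one_left zero_le (hmove i) (mul_le_one'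
        ((A.valuation_le_one_iff _).2 (d j).2) ((A.valuation_le_one_iff _).2 (e i j k).2)))
    (fun y => ?_) (σ • x)
  · have h2 := congrArg (fun u : Qbarˣ => (u : Qbar)) h1
    simp only [MonoidHom.mul_apply, MonoidHom.inv_apply, Units.val_mul, Units.val_one] at h2
    rw [show (χ' (.ofAdd (σ • x)) : Qbar) = σ (χ (.ofAdd x) : Qbar) by simp [χ']] at h2
    exact eq_of_mul_inv_eq_one (by rwa [Units.val_inv_eq_inv_val] at h2)
  · have e1 : (χ' (.ofAdd y) : Qbar) = ∑ i, σ (a i : Qbar) * (b i : M → Qbar) y := by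
      show σ (F (σ⁻¹ • y)) = _
      rw [hFy, map_sum]
      refine Finset.sum_congr rfl fun i _ => ?_
      rw [map_mul, ← tw_apply σ (b i : M → Qbar), (b i).2.2]
    have e2 : ((χ' * χ⁻¹) (.ofAdd y) : Qbar) - 1 =
        ((χ' (.ofAdd y) : Qbar) - F y) * ((χ⁻¹ (.ofAdd y) : Qbarˣ) : Qbar) := by
      simp [F, sub_mul]
    rw [e2, e1, hFy, hdy, ← Finset.sum_sub_distrib, Finset.sum_mul_sum]
    simp only [← sub_mul, Finset.sum_mul]
    conv_rhs => rw [Finset.sum_comm]
    refine Finset.sum_congr rfl fun i _ => ?_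
    conv_rhs => rw [Finset.sum_comm]
    refine Finset.sum_congr rfl fun j _ => ?_
    rw [mul_mul_mul_comm, e3, Finset.mul_sum]
    exact Finset.sum_congr rfl fun k _ => by ring

end FermatAgent.Mazur.Edge

end
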