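import Fermat.Agent.Mazur.LocalGal
import Mathlib.Algebra.Polynomial.Taylor
import Mathlib.Algebra.Polynomial.HasseDeriv
import Mathlib.RingTheory.Polynomial.Vieta
import Mathlib.Data.Nat.Choose.Lucas
import Mathlib.Data.Nat.Choose.Factorization
import Mathlib.Analysis.SpecialFunctions.Pow.Real

/-!
# Almost inertia-invariant elements are close to invariant ones (Ax)

`exists_fixed_near`: an algebraic `y` moved by at most `Δ` by inertia at `ℓ` is within `ℓ ^ 2 * Δ`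
of an invariant element. By induction on the size of the inertia orbit: a Hasse derivative of the
polynomial with the orbit as roots has small value at `y` and a fixed set of roots, so it has a
root near `y` with smaller orbit. Consequently an inertia invariant element of `ℂ_ℓ` of norm less
than one has norm at most that of `ℓ` (`norm_le_prime_of_fixed`).
-/

set_option autoImplicit false

noncomputable section

open Polynomial Finset
open scoped Classical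

namespace FermatAgent.Mazur

open FermatAgent.GaloisBasic

variable {ℓ : ℕ} [hℓ : Fact ℓ.Prime] {ι : Qbar →+* ℂ_[ℓ]}

lemma norm_natCast_eq_one_padic {m : ℕ} (h : ¬ ℓ ∣ m) : ‖(m : ℂ_[ℓ])‖ = 1 := by
  rw [← map_natCast (algebraMap ℚ_[ℓ] ℂ_[ℓ]) m, norm_algebraMap', Padic.norm_natCast_eq_one_iff]
  exact (hℓ.out.coprime_iff_not_dvd).2 h

/-- The exponent used in the induction. -/
lemma exists_degree_drop {d : ℕ} (hd : 2 ≤ d) :
    ∃ q : ℕ, 0 < q ∧ q < d ∧
      (‖((d.choose (d - q) : ℕ) : ℂ_[ℓ])‖ = 1 ∨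
        (d = ℓ * q ∧ (ℓ : ℝ)⁻¹ ≤ ‖((d.choose (d - q) : ℕ) : ℂ_[ℓ])‖)) := by
  obtain ⟨s, m, hm, rfl⟩ := Nat.exists_eq_pow_mul_and_not_dvd (show d ≠ 0 by omega) ℓ hℓ.out.ne_one
  have hℓ2 := hℓ.out.two_le
  have hm0 : m ≠ 0 := fun h => hm (h ▸ dvd_zero ℓ)
  rcases eq_or_ne m 1 with rfl | hm1
  · obtain ⟨t, rfl⟩ : ∃ t, s = t + 1 := by
      rcases s with _ | t
      · simp at hd
      · exact ⟨t, rfl⟩
    have hlt : ℓ ^ t < ℓ ^ (t + 1) := Nat.pow_lt_pow_succ hℓ.out.one_lt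
    refine ⟨ℓ ^ t, pow_pos hℓ.out.pos _, by simpa using hlt, Or.inr ⟨by rw [pow_succ]; ring, ?_⟩⟩
    rw [mul_one, Nat.choose_symm hlt.le]
    have hv := Nat.factorization_choose_prime_pow hℓ.out hlt.le (pow_ne_zero t hℓ.out.ne_zero)
    rw [Nat.factorization_pow_self hℓ.out, show t + 1 - t = 1 by omega] at hv
    rw [← map_natCast (algebraMap ℚ_[ℓ] ℂ_[ℓ]), norm_algebraMap',
      Padic.norm_eq_zpow_neg_valuation (Nat.cast_ne_zero.2 (Nat.choose_pos hlt.le).ne'),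
      Padic.valuation_natCast, ← Nat.factorization_def _ hℓ.out, hv]
    simp
  · refine ⟨ℓ ^ s, pow_pos hℓ.out.pos _, lt_mul_right (pow_pos hℓ.out.pos _) (by omega), Or.inl ?_⟩
    have hle : ℓ ^ s ≤ ℓ ^ s * m := Nat.le_mul_of_pos_right _ (Nat.pos_of_ne_zero hm0)
    rw [Nat.choose_symm hle]
    refine norm_natCast_eq_one_padic fun h => hm ?_
    have := (Choose.choose_pow_mul_pow_mul_modEq_choose_nat (p := ℓ) (k := s) (a := m) (b := 1))
    rw [mul_one, Nat.choose_one_right] at this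
    exact Nat.modEq_zero_iff_dvd.1 (this.symm.trans (Nat.modEq_zero_iff_dvd.2 h))

variable (ι) in
/-- The inertia orbit. -/
def inertiaOrbit (y : Qbar) : Finset Qbar :=
  ((minpoly ℚ y).aroots Qbar).toFinset.filter fun x => ∃ g ∈ (padVal ι).inertiaSubgroupIn ℚ, g y = x

lemma mem_inertiaOrbit {y x : Qbar} :
    x ∈ inertiaOrbit ι y ↔ ∃ g ∈ (padVal ι).inertiaSubgroupIn ℚ, g y = x := by
  refine ⟨fun h => (mem_filter.1 h).2, fun h => mem_filter.2 ⟨?_, h⟩⟩
  obtain ⟨g, -, rfl⟩ := h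
  rw [Multiset.mem_toFinset, mem_aroots, aeval_algHom_apply g, minpoly.aeval, map_zero]
  exact ⟨minpoly.ne_zero (Algebra.IsIntegral.isIntegral y), rfl⟩

lemma self_mem_inertiaOrbit (y : Qbar) : y ∈ inertiaOrbit ι y :=
  mem_inertiaOrbit.2 ⟨1, one_mem _, rfl⟩

lemma image_inertiaOrbit (y : Qbar) {g : GQ} (hg : g ∈ (padVal ι).inertiaSubgroupIn ℚ) :
    (inertiaOrbit ι y).image g = inertiaOrbit ι y := by
  refine eq_of_subset_of_card_le (fun x hx => ?_)
    (card_image_of_injective _ g.injective).ge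
  obtain ⟨z, hz, rfl⟩ := mem_image.1 hx
  obtain ⟨h, hh, rfl⟩ := mem_inertiaOrbit.1 hz
  exact mem_inertiaOrbit.2 ⟨g * h, mul_mem hg hh, rfl⟩

/-- The Hasse derivatives of the polynomial with the orbit as roots are fixed by inertia. -/
private lemma map_hasseDeriv_orbit (y : Qbar) (k : ℕ) {g : GQ}
    (hg : g ∈ (padVal ι).inertiaSubgroupIn ℚ) :
    (hasseDeriv k (∏ x ∈ inertiaOrbit ι y, (X - Polynomial.C x))).map (g : Qbar →+* Qbar) =
      hasseDeriv k (∏ x ∈ inertiaOrbit ι y, (X - Polynomial.C x)) := by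
  have hP : (∏ x ∈ inertiaOrbit ι y, (X - Polynomial.C x)).map (g : Qbar →+* Qbar) =
      ∏ x ∈ inertiaOrbit ι y, (X - Polynomial.C x) := by
    simp only [Polynomial.map_prod, Polynomial.map_sub, map_X, map_C]
    conv_rhs => rw [← image_inertiaOrbit y hg]
    rw [prod_image fun a _ b _ h => g.injective h]
    rfl
  ext i
  have := congrArg (fun p : Qbar[X] => p.coeff (i + k)) hP
  simp only [coeff_map] at this
  rw [coeff_map, hasseDeriv_coeff, map_mul, map_natCast, this]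

/-- The Hasse derivative of degree `q` of the polynomial with the orbit as roots is small at `y`. -/
private lemma norm_eval_hasseDeriv_orbit_le {y : Qbar} {Δ : ℝ}
    (hΔ : ∀ g ∈ (padVal ι).inertiaSubgroupIn ℚ, ‖ι (g y) - ι y‖ ≤ Δ) {q : ℕ}
    (hq : q ≤ (inertiaOrbit ι y).card) :
    ‖ι ((hasseDeriv ((inertiaOrbit ι y).card - q)
      (∏ x ∈ inertiaOrbit ι y, (X - Polynomial.C x))).eval y)‖ ≤ Δ ^ q := by
  set S := inertiaOrbit ι y
  have hΔ0 : 0 ≤ Δ := (norm_nonneg _).trans (hΔ 1 (one_mem _))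
  have h1 : (hasseDeriv (S.card - q) (∏ x ∈ S, (X - Polynomial.C x))).eval y =
      (∏ x ∈ S, (X + Polynomial.C (y - x))).coeff (S.card - q) := by
    rw [← taylor_coeff]
    congr 1
    simp only [taylor_apply, Polynomial.prod_comp, sub_comp, X_comp, C_comp, map_sub]
    refine prod_congr rfl fun x _ => ?_
    ring
  rw [h1, Finset.prod_X_add_C_coeff _ _ (by omega), map_sum,
    show S.card - (S.card - q) = q by omega]
  refine IsUltrametricDist.norm_sum_le_of_forall_le_of_nonneg (by positivity) fun t ht => ?_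
  obtain ⟨hts, htq⟩ := mem_powersetCard.1 ht
  rw [map_prod, norm_prod, ← htq, ← prod_const]
  refine prod_le_prod (fun _ _ => norm_nonneg _) fun x hx => ?_
  obtain ⟨g, hg, rfl⟩ := mem_inertiaOrbit.1 (hts hx)
  rw [map_sub, norm_sub_rev]
  exact hΔ g hg

/-- A polynomial of degree `q` with leading coefficient `n` and a small value at `y` has a root
near `y`. -/
private lemma exists_root_near_of_leadingCoeff {Q : Qbar[X]} {y : Qbar} {Δ : ℝ} {q n : ℕ}
    (hq : 0 < q)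
    (hQd : Q.natDegree = q) (hlead : Q.leadingCoeff = n) (hn : 0 < ‖(n : ℂ_[ℓ])‖) (hΔ : 0 ≤ Δ)
    (hval : ‖ι (Q.eval y)‖ ≤ Δ ^ q) :
    ∃ β ∈ Q.roots, ‖ι y - ι β‖ ≤ (‖(n : ℂ_[ℓ])‖⁻¹) ^ ((q : ℝ)⁻¹) * Δ := by
  have hsplit : Q.Splits := IsAlgClosed.splits Q
  have hrc : Multiset.card Q.roots = q := (splits_iff_card_roots.1 hsplit).trans hQd
  obtain ⟨β, hβ, hmin⟩ := Q.roots.toFinset.exists_min_image (fun β => ‖ι y - ι β‖)
    ((Multiset.card_pos_iff_exists_mem.1 (hrc ▸ hq)).imp fun a ha => Multiset.mem_toFinset.2 ha)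
  refine ⟨β, Multiset.mem_toFinset.1 hβ, ?_⟩
  have hval' : ‖ι (Q.eval y)‖ = ‖(n : ℂ_[ℓ])‖ * (Q.roots.map fun γ => ‖ι y - ι γ‖).prod := by
    rw [hsplit.eval_eq_prod_roots, hlead, map_mul, map_natCast, norm_mul]
    congr 1
    induction Q.roots using Multiset.induction_on with
    | empty => simp
    | cons a s ihs => simp [ihs]
  refine le_of_pow_le_pow_left₀ hq.ne' (by positivity) ?_
  rw [mul_pow, Real.rpow_inv_natCast_pow (inv_nonneg.2 hn.le) hq.ne', ← div_eq_inv_mul,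
    le_div_iff₀' hn]
  refine le_trans ?_ hval
  rw [hval', ← hrc, ← Multiset.prod_replicate, ← Multiset.map_const']
  exact mul_le_mul_of_nonneg_left (Multiset.prod_map_le_prod_map₀ _ _
    (fun _ _ => norm_nonneg _) fun γ hγ => hmin γ (Multiset.mem_toFinset.2 hγ)) hn.le

/-- The orbit of a root of a polynomial fixed by inertia is no bigger than its degree. -/
private lemma card_inertiaOrbit_root_le {Q : Qbar[X]}
    (hQ : ∀ g ∈ (padVal ι).inertiaSubgroupIn ℚ, Q.map (g : Qbar →+* Qbar) = Q) {β : Qbar}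
    (hβ : β ∈ Q.roots) : (inertiaOrbit ι β).card ≤ Q.natDegree := by
  have hQ0 : Q ≠ 0 := fun h => by simp [h] at hβ
  refine le_trans (card_le_card fun x hx => ?_)
    ((Multiset.toFinset_card_le _).trans (card_roots' Q))
  obtain ⟨g, hg, rfl⟩ := mem_inertiaOrbit.1 hx
  rw [Multiset.mem_toFinset, mem_roots hQ0, IsRoot, ← hQ g hg, eval_map]
  show eval₂ (g : Qbar →+* Qbar) ((g : Qbar →+* Qbar) β) Q = 0
  rw [eval₂_at_apply, (mem_roots hQ0).1 hβ, map_zero]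

/-- The constant of one induction step is absorbed by the drop of the degree. -/
private lemma rpow_step_le {d q e : ℕ} {c : ℝ} (he : 0 < e) (heq : e ≤ q) (hqd : q < d)
    (hc : 0 < c) (hq : c = 1 ∨ (d = ℓ * q ∧ (ℓ : ℝ)⁻¹ ≤ c)) :
    (ℓ : ℝ) ^ (2 - 2 / e : ℝ) * c⁻¹ ^ ((q : ℝ)⁻¹) ≤ (ℓ : ℝ) ^ (2 - 2 / d : ℝ) := by
  have hℓ1 : (1 : ℝ) ≤ ℓ := Nat.one_le_cast.2 hℓ.out.one_le
  have hq0 : 0 < q := he.trans_le heq
  have heq' : (2 : ℝ) / q ≤ 2 / e := by gcongr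
  have hqd' : (2 : ℝ) / d ≤ 2 / q := by gcongr
  rcases hq with rfl | ⟨hdq, h1⟩
  · rw [inv_one, Real.one_rpow, mul_one]
    exact Real.rpow_le_rpow_of_exponent_le hℓ1 (by linarith)
  · have hC' : c⁻¹ ^ ((q : ℝ)⁻¹) ≤ (ℓ : ℝ) ^ ((q : ℝ)⁻¹) := by
      refine Real.rpow_le_rpow (by positivity) ?_ (by positivity)
      rw [inv_le_comm₀ hc (Nat.cast_pos.2 hℓ.out.pos)]
      exact h1
    refine (mul_le_mul_of_nonneg_left hC' (by positivity)).trans ?_
    rw [← Real.rpow_add (Nat.cast_pos.2 hℓ.out.pos)]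
    refine Real.rpow_le_rpow_of_exponent_le hℓ1 ?_
    have h2 : (2 : ℝ) / d ≤ (q : ℝ)⁻¹ := by
      rw [hdq, Nat.cast_mul, inv_eq_one_div, div_le_div_iff₀ (by positivity) (by positivity)]
      have : (2 : ℝ) ≤ ℓ := by exact_mod_cast hℓ.out.two_le
      nlinarith
    have h3 : (q : ℝ)⁻¹ + (q : ℝ)⁻¹ = 2 / q := by ring
    linarith

/-- An almost invariant algebraic element is close to an invariant one. -/
theorem exists_fixed_near {y : Qbar} {Δ : ℝ}
    (hΔ : ∀ g ∈ (padVal ι).inertiaSubgroupIn ℚ, ‖ι (g y) - ι y‖ ≤ Δ) :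
    ∃ z : Qbar, (∀ g ∈ (padVal ι).inertiaSubgroupIn ℚ, g z = z) ∧
      ‖ι z - ι y‖ ≤ (ℓ : ℝ) ^ (2 : ℝ) * Δ := by
  suffices key : ∀ (d : ℕ) (y : Qbar), (inertiaOrbit ι y).card = d → ∀ Δ : ℝ,
      (∀ g ∈ (padVal ι).inertiaSubgroupIn ℚ, ‖ι (g y) - ι y‖ ≤ Δ) →
      ∃ z : Qbar, (∀ g ∈ (padVal ι).inertiaSubgroupIn ℚ, g z = z) ∧
        ‖ι z - ι y‖ ≤ (ℓ : ℝ) ^ (2 - 2 / d : ℝ) * Δ by
    obtain ⟨z, hz, hz'⟩ := key _ y rfl Δ hΔ
    have hΔ0 : 0 ≤ Δ := (norm_nonneg _).trans (hΔ 1 (one_mem _))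
    refine ⟨z, hz, hz'.trans (mul_le_mul_of_nonneg_right ?_ hΔ0)⟩
    refine Real.rpow_le_rpow_of_exponent_le (Nat.one_le_cast.2 hℓ.out.one_le) ?_
    have : (0 : ℝ) ≤ 2 / ((inertiaOrbit ι y).card : ℝ) := by positivity
    linarith
  intro d
  induction d using Nat.strong_induction_on with
  | _ d ih =>
    intro y hy Δ hΔ
    set I := (padVal ι).inertiaSubgroupIn ℚ
    set S := inertiaOrbit ι y
    have hΔ0 : 0 ≤ Δ := (norm_nonneg _).trans (hΔ 1 (one_mem _))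
    have hℓ1 : (1 : ℝ) ≤ ℓ := Nat.one_le_cast.2 hℓ.out.one_le
    by_cases hd : d ≤ 1
    · refine ⟨y, fun g hg => card_le_one.1 (hy ▸ hd) _ (mem_inertiaOrbit.2 ⟨g, hg, rfl⟩) _
        (self_mem_inertiaOrbit y), ?_⟩
      rw [sub_self, norm_zero]
      positivity
    obtain ⟨q, hq0, hqd, hq⟩ := exists_degree_drop (ℓ := ℓ) (show 2 ≤ d by omega)
    set P : Qbar[X] := ∏ x ∈ S, (X - Polynomial.C x)
    have hPd : P.natDegree = d := by
      rw [natDegree_finsetProd_X_sub_C_eq_card, hy]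
    set Q : Qbar[X] := hasseDeriv (d - q) P
    have hQd : Q.natDegree = q := by rw [natDegree_hasseDeriv, hPd]; omega
    have hlead : Q.leadingCoeff = (d.choose (d - q) : ℕ) := by
      rw [Polynomial.leadingCoeff, hQd, hasseDeriv_coeff, show q + (d - q) = d by omega,
        ← hPd, coeff_natDegree, (monic_prod_X_sub_C _ _).leadingCoeff, mul_one, hPd]
    have hc0 : 0 < ‖((d.choose (d - q) : ℕ) : ℂ_[ℓ])‖ :=
      norm_pos_iff.2 (Nat.cast_ne_zero.2 (Nat.choose_pos (Nat.sub_le d q)).ne')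
    -- a root of `Q` near `y`
    have hval : ‖ι (Q.eval y)‖ ≤ Δ ^ q := by
      simp only [Q, P, ← hy]
      exact norm_eval_hasseDeriv_orbit_le hΔ (show q ≤ S.card by omega)
    obtain ⟨β, hβ, hβy⟩ := exists_root_near_of_leadingCoeff hq0 hQd hlead hc0 hΔ0 hval
    have hβorb : (inertiaOrbit ι β).card ≤ q :=
      (card_inertiaOrbit_root_le (fun g hg => map_hasseDeriv_orbit y _ hg) hβ).trans hQd.le
    set C := (‖((d.choose (d - q) : ℕ) : ℂ_[ℓ])‖⁻¹) ^ ((q : ℝ)⁻¹) with hC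
    have hC1 : 1 ≤ C := by
      refine Real.one_le_rpow ((one_le_inv₀ hc0).2 (IsUltrametricDist.norm_natCast_le_one _ _)) ?_
      positivity
    have hΔ' : ∀ g ∈ I, ‖ι (g β) - ι β‖ ≤ C * Δ := by
      intro g hg
      rw [show ι (g β) - ι β = -(ι (g y) - ι (g β)) + ((ι (g y) - ι y) + (ι y - ι β)) by ring]
      refine (IsUltrametricDist.norm_add_le_max _ _).trans (max_le ?_ ?_)
      · rw [norm_neg, ← map_sub, ← map_sub,
          norm_map_eq (inertiaSubgroupIn_le_decompositionSubgroup _ hg), map_sub]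
        exact hβy
      · exact (IsUltrametricDist.norm_add_le_max _ _).trans
          (max_le ((hΔ g hg).trans (le_mul_of_one_le_left hΔ0 hC1)) hβy)
    obtain ⟨z, hz, hzβ⟩ := ih _ (hβorb.trans_lt hqd) β rfl _ hΔ'
    refine ⟨z, hz, ?_⟩
    set e := (inertiaOrbit ι β).card
    have he : 0 < e := card_pos.2 ⟨β, self_mem_inertiaOrbit β⟩
    have hbound : (ℓ : ℝ) ^ (2 - 2 / e : ℝ) * C ≤ (ℓ : ℝ) ^ (2 - 2 / d : ℝ) :=
      rpow_step_le he hβorb hqd hc0 hq
    rw [show ι z - ι y = (ι z - ι β) + -(ι y - ι β) by ring]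
    refine (IsUltrametricDist.norm_add_le_max _ _).trans (max_le ?_ ?_)
    · refine hzβ.trans ?_
      rw [← mul_assoc]
      exact mul_le_mul_of_nonneg_right hbound hΔ0
    · rw [norm_neg]
      refine hβy.trans (mul_le_mul_of_nonneg_right (le_trans ?_ hbound) hΔ0)
      refine le_mul_of_one_le_left (by positivity) (Real.one_le_rpow hℓ1 ?_)
      have : (2 : ℝ) / e ≤ 2 := div_le_self two_pos.le (by exact_mod_cast he)
      linarith

/-- A small inertia invariant element of `ℂ_ℓ` has norm at most `|ℓ|`. -/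
theorem norm_le_prime_of_fixed {U : ℂ_[ℓ]} (hU1 : ‖U‖ < 1)
    (hU : ∀ g : (padVal ι).decompositionSubgroup ℚ, (g : GQ) ∈ (padVal ι).inertiaSubgroupIn ℚ →
      galExt ι g U = U) : ‖U‖ ≤ ‖(ℓ : ℂ_[ℓ])‖ := by
  rcases eq_or_ne U 0 with rfl | hU0
  · simp
  have hUpos := norm_pos_iff.2 hU0
  have hℓ1 : (1 : ℝ) ≤ (ℓ : ℝ) ^ (2 : ℝ) :=
    Real.one_le_rpow (Nat.one_le_cast.2 hℓ.out.one_le) (by norm_num)
  have hℓ0 : (0 : ℝ) < (ℓ : ℝ) ^ (2 : ℝ) := one_pos.trans_le hℓ1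
  set ε := ‖U‖ / (2 * (ℓ : ℝ) ^ (2 : ℝ))
  obtain ⟨_, ⟨y, rfl⟩, hy⟩ := Metric.mem_closure_iff.1 (denseRange_padEmb (ι := ι) U) ε
    (by positivity)
  rw [dist_eq_norm] at hy
  obtain ⟨z, hz, hzy⟩ := exists_fixed_near (ι := ι) (y := y) (Δ := ε) fun g hg => by
    set g' : (padVal ι).decompositionSubgroup ℚ :=
      ⟨g, inertiaSubgroupIn_le_decompositionSubgroup _ hg⟩
    rw [show ι (g y) - ι y = -galExt ι g' (U - ι y) + (U - ι y) by
      rw [map_sub, galExt_apply, hU g' hg]; ring]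
    refine (IsUltrametricDist.norm_add_le_max _ _).trans (max_le ?_ hy.le)
    rw [norm_neg, norm_galExt]
    exact hy.le
  have hlt : ‖ι z - U‖ < ‖U‖ := by
    rw [show ι z - U = (ι z - ι y) + -(U - ι y) by ring]
    refine (IsUltrametricDist.norm_add_le_max _ _).trans_lt (max_lt (hzy.trans_lt ?_) ?_)
    · rw [mul_div, div_lt_iff₀ (by positivity)]
      nlinarith
    · rw [norm_neg]
      refine hy.trans_le ?_
      rw [div_le_iff₀ (by positivity)]
      nlinarith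
  have hzn : ‖ι z‖ = ‖U‖ := by
    rw [show ι z = U + (ι z - U) by ring,
      IsUltrametricDist.norm_add_eq_max_of_norm_ne_norm hlt.ne', max_eq_left hlt.le]
  have hz0 : z ≠ 0 := fun h => by simp [h] at hzn; exact hU0 (norm_eq_zero.1 hzn.symm)
  obtain ⟨n, hn⟩ := exists_zpow_valuation_eq hℓ.out (padVal_liesOverPrime (ι := ι)) hz0 hz
  rw [← map_zpow₀] at hn
  have hnorm : ‖ι z‖ = ‖(ℓ : ℂ_[ℓ])‖ ^ n := by
    rw [← padEmb_natCast ι, ← norm_zpow, ← map_zpow₀]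
    have hw0 : ((ℓ : Qbar) ^ n) ≠ 0 := zpow_ne_zero _ (Nat.cast_ne_zero.2 hℓ.out.ne_zero)
    have key : ∀ a b : Qbar, b ≠ 0 → (padVal ι).valuation a ≤ (padVal ι).valuation b →
        ‖ι a‖ ≤ ‖ι b‖ := fun a b hb hab => by
      have h1 : (padVal ι).valuation (a / b) ≤ 1 := by
        rw [map_div₀]
        exact div_le_one_of_le₀ hab zero_le
      rw [ValuationSubring.valuation_le_one_iff, mem_padVal, map_div₀, norm_div,
        div_le_one (norm_pos_iff.2 (by simpa using hb))] at h1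
      exact h1
    exact le_antisymm (key _ _ hw0 hn.le) (key _ _ hz0 hn.ge)
  rw [← hzn, hnorm]
  have hp0 : 0 < ‖(ℓ : ℂ_[ℓ])‖ := by
    rw [norm_prime_cp]
    exact inv_pos.2 (Nat.cast_pos.2 hℓ.out.pos)
  have hp1 : ‖(ℓ : ℂ_[ℓ])‖ < 1 := by
    rw [norm_prime_cp]
    exact inv_lt_one_of_one_lt₀ (Nat.one_lt_cast.2 hℓ.out.one_lt)
  have hn1 : 1 ≤ n := by
    by_contra! hlt'
    have := one_le_zpow_of_nonpos₀ hp0 hp1.le (show n ≤ 0 by omega)
    rw [← hnorm, hzn] at this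
    linarith
  conv_rhs => rw [← zpow_one ‖(ℓ : ℂ_[ℓ])‖]
  exact zpow_le_zpow_right_of_le_one₀ hp0 hp1.le hn1

end FermatAgent.Mazur

end
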