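import Fermat.Agent.Mazur.CoeffRing
import Fermat.Agent.Mazur.LocalAx
import Fermat.Agent.ES.Tate.EigenRep
import Mathlib.LinearAlgebra.FreeModule.PID
import Mathlib.RingTheory.Polynomial.Cyclotomic.Eval

/-!
# The eigenlattice at `ℓ`: the line cut out by `δ`

The `ℤ_ℓ`-linear functionals on `O` turn vectors of the eigenlattice into parabolic homomorphisms;
those on which `δ` vanishes form a line, and inertia at `ℓ` is trivial on the quotient.
-/

set_option autoImplicit false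

noncomputable section

open scoped Matrix MatrixGroups Classical
open IsLocalRing PowerSeries
open CongruenceSubgroup (Gamma0)
open ModularCurve.Period
open FermatAgent.Period (parRank parabolicCoords parAction)
open FermatAgent.ES (intMat eigLat mem_eigLat eigEnd eigBasis galMat galLin padCyclo)
open FermatAgent.GaloisBasic

namespace FermatAgent.Mazur

attribute [local instance] embAlg

variable {ℓ : ℕ} [hℓ : Fact ℓ.Prime] {N : ℕ} [NeZero N]

local notation "Qbar" => AlgebraicClosure ℚ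
local notation "V" => parabolicHoms ℤ_[ℓ] (Gamma0 N) ℤ_[ℓ]

/-- An inertia element at `ℓ` moving the roots of unity of order `ℓ ^ (m + 1)`. -/
theorem exists_inertia_moving_root (ι : Qbar →+* ℂ_[ℓ]) (m : ℕ)
    (hφ : 2 ≤ (ℓ ^ (m + 1)).totient) : ∃ g ∈ (padVal ι).inertiaSubgroupIn ℚ,
    ∃ ζ : Qbar, ζ ^ ℓ ^ (m + 1) = 1 ∧ g ζ ≠ ζ := by
  have hle : ∀ {x : ℂ_[ℓ]} {n : ℕ}, n ≠ 0 → x ^ n = 1 → ‖x‖ = 1 := fun hn h =>
    (pow_eq_one_iff_of_nonneg (norm_nonneg _) hn).1 (by rw [← norm_pow, h, norm_one])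
  obtain ⟨ζ, hζ⟩ := FermatAgent.ES.exists_primitive_qbar ℓ (m + 1)
  by_contra hcon
  push Not at hcon
  set z := ι ζ
  have hz : IsPrimitiveRoot z (ℓ ^ (m + 1)) := hζ.map_of_injective ι.injective
  have hprod : ∏ w ∈ primitiveRoots (ℓ ^ (m + 1)) ℂ_[ℓ], (1 - w) = (ℓ : ℂ_[ℓ]) := by
    rw [← Polynomial.eval_one_cyclotomic_prime_pow (R := ℂ_[ℓ]) (p := ℓ) m,
      Polynomial.cyclotomic_eq_prod_X_sub_primitiveRoots hz, Polynomial.eval_prod]
    simp
  have hw : ∀ w ∈ primitiveRoots (ℓ ^ (m + 1)) ℂ_[ℓ], ‖1 - w‖ ≤ ‖1 - z‖ := by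
    intro w hw
    obtain ⟨i, -, rfl⟩ :=
      hz.eq_pow_of_pow_eq_one (isPrimitiveRoot_of_mem_primitiveRoots hw).pow_eq_one
    rw [show 1 - z ^ i = (∑ j ∈ Finset.range i, z ^ j) * (1 - z) from (geom_sum_mul_neg z i).symm,
      norm_mul]
    refine mul_le_of_le_one_left (norm_nonneg _) ?_
    exact IsUltrametricDist.norm_sum_le_of_forall_le_of_nonneg zero_le_one fun j _ => by
      rw [norm_pow, hle (pow_ne_zero _ hℓ.out.ne_zero) hz.pow_eq_one, one_pow]
  set φ := (ℓ ^ (m + 1)).totient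
  have hℓn : ‖(ℓ : ℂ_[ℓ])‖ ≤ ‖1 - z‖ ^ φ := by
    rw [← hprod, norm_prod]
    exact (Finset.prod_le_prod (fun _ _ => norm_nonneg _) hw).trans_eq
      (by rw [Finset.prod_const, hz.card_primitiveRoots])
  have hsmall : ‖1 - z‖ < 1 := by
    by_contra hge
    push Not at hge
    have h1 : ∀ w ∈ primitiveRoots (ℓ ^ (m + 1)) ℂ_[ℓ], 1 ≤ ‖1 - w‖ := by
      intro w hw'
      obtain ⟨i, -, hi⟩ := (isPrimitiveRoot_of_mem_primitiveRoots hw').eq_pow_of_pow_eq_one
        hz.pow_eq_one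
      rw [← hi, show 1 - w ^ i = (∑ j ∈ Finset.range i, w ^ j) * (1 - w) from
        (geom_sum_mul_neg w i).symm, norm_mul] at hge
      refine hge.trans (mul_le_of_le_one_left (norm_nonneg _) ?_)
      exact IsUltrametricDist.norm_sum_le_of_forall_le_of_nonneg zero_le_one fun j _ => by
        rw [norm_pow, hle (pow_ne_zero _ hℓ.out.ne_zero)
          (isPrimitiveRoot_of_mem_primitiveRoots hw').pow_eq_one, one_pow]
    have h2 := Finset.one_le_prod h1
    rw [← norm_prod, hprod] at h2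
    exact absurd h2 norm_prime_cp_lt_one.not_ge
  have h := norm_le_prime_of_fixed (ι := ι) (U := 1 - z) hsmall fun g hg => by
    rw [map_sub, map_one, galExt_apply, hcon (g : GQ) hg ζ hζ.pow_eq_one]
  have hp : 0 < ‖(ℓ : ℂ_[ℓ])‖ := norm_natCast_cp_pos hℓ.out.ne_zero
  have h3 := hℓn.trans (pow_le_pow_left₀ (norm_nonneg _) h φ)
  have h4 : ‖(ℓ : ℂ_[ℓ])‖ ^ φ ≤ ‖(ℓ : ℂ_[ℓ])‖ ^ 2 :=
    pow_le_pow_of_le_one (norm_nonneg _) norm_prime_cp_lt_one.le hφ
  nlinarith [norm_prime_cp_lt_one (ℓ := ℓ)]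

/-- An inertia element at `ℓ` moving a root of unity of `ℓ`-power order. -/
theorem exists_inertia_moving (ι : Qbar →+* ℂ_[ℓ]) : ∃ g ∈ (padVal ι).inertiaSubgroupIn ℚ,
    ∃ (k : ℕ) (ζ : Qbar), ζ ^ ℓ ^ k = 1 ∧ g ζ ≠ ζ := by
  obtain ⟨g, hg, ζ, hζ, hne⟩ := exists_inertia_moving_root ι 1 (by
    rw [Nat.totient_prime_pow_succ hℓ.out 1, pow_one]
    exact Nat.mul_le_mul hℓ.out.two_le (by have := hℓ.out.two_le; omega : 1 ≤ ℓ - 1))
  exact ⟨g, hg, 2, ζ, hζ, hne⟩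

variable {O : Type} [CommRing O] [Algebra ℤ_[ℓ] O]

/-- The parabolic homomorphism cut out of a vector by a functional. -/
def eigPsi (lam : O →ₗ[ℤ_[ℓ]] ℤ_[ℓ]) : (Fin (parRank (Gamma0 N)) → O) →ₗ[ℤ_[ℓ]] V :=
  (parabolicCoords (Gamma0 N) ℤ_[ℓ] ℤ_[ℓ]).symm.toLinearMap ∘ₗ lam.compLeft _

/-- The coordinates of the cut out homomorphism. -/
lemma coords_eigPsi (lam : O →ₗ[ℤ_[ℓ]] ℤ_[ℓ]) (v : Fin (parRank (Gamma0 N)) → O) :
    parabolicCoords (Gamma0 N) ℤ_[ℓ] ℤ_[ℓ] (eigPsi lam v) = lam ∘ v :=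
  LinearEquiv.apply_symm_apply _ _

/-- Cutting out commutes with scalars through the functional. -/
lemma eigPsi_smul (lam : O →ₗ[ℤ_[ℓ]] ℤ_[ℓ]) (a : O) (v : Fin (parRank (Gamma0 N)) → O) :
    eigPsi lam (a • v) = eigPsi (lam ∘ₗ LinearMap.mulLeft ℤ_[ℓ] a) v := rfl

lemma comp_map_mulVec {n : Type} [Fintype n] (A : Matrix n n ℤ_[ℓ]) (lam : O →ₗ[ℤ_[ℓ]] ℤ_[ℓ])
    (v : n → O) : lam ∘ (A.map (algebraMap ℤ_[ℓ] O) *ᵥ v) = A *ᵥ (lam ∘ v) := by
  funext i
  simp [Matrix.mulVec, dotProduct, ← Algebra.smul_def]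

section

variable [IsDomain O] [CharZero O]

/-- The `ℓ`-adic integers embed in `O`. -/
lemma algebraMap_padicInt_injective : Function.Injective (algebraMap ℤ_[ℓ] O) := by
  rw [injective_iff_map_eq_zero]
  intro x hx
  by_contra hx0
  rw [PadicInt.unitCoeff_spec hx0, map_mul, map_pow, map_natCast, mul_eq_zero] at hx
  rcases hx with hx | hx
  · exact ((PadicInt.unitCoeff hx0).isUnit.map (algebraMap ℤ_[ℓ] O)).ne_zero hx
  · exact pow_ne_zero _ (Nat.cast_ne_zero.2 hℓ.out.ne_zero) hx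

/-- `O` is torsion-free over the `ℓ`-adic integers. -/
lemma isTorsionFree_padicInt : Module.IsTorsionFree ℤ_[ℓ] O := by
  have : FaithfulSMul ℤ_[ℓ] O :=
    (faithfulSMul_iff_algebraMap_injective _ _).2 algebraMap_padicInt_injective
  infer_instance

end

lemma heckeV_eigPsi {q : ℕ} (hq : q.Prime) (lam : O →ₗ[ℤ_[ℓ]] ℤ_[ℓ])
    (v : Fin (parRank (Gamma0 N)) → O) :
    heckeV hq (eigPsi lam v) = eigPsi lam (intMat O (hop N hq) *ᵥ v) := by
  refine (parabolicCoords (Gamma0 N) ℤ_[ℓ] ℤ_[ℓ]).injective ?_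
  rw [coords_eigPsi, ← parAction_hop, ← FermatAgent.ES.heckePadMat_mulVec, coords_eigPsi,
    ← comp_map_mulVec, show (FermatAgent.ES.heckePadMat ℓ (hop N hq)).map (algebraMap ℤ_[ℓ] O) =
      intMat O (hop N hq) from FermatAgent.ES.intMat_map _ _]

lemma galLin_eigPsi (g : GQ) (lam : O →ₗ[ℤ_[ℓ]] ℤ_[ℓ]) (v : Fin (parRank (Gamma0 N)) → O) :
    galLin ℓ g (eigPsi lam v) = eigPsi lam ((galMat ℓ N g).map (algebraMap ℤ_[ℓ] O) *ᵥ v) := by
  refine (parabolicCoords (Gamma0 N) ℤ_[ℓ] ℤ_[ℓ]).injective ?_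
  rw [coords_eigPsi, FermatAgent.ES.galLin_apply, ← FermatAgent.ES.galMat_mulVec, coords_eigPsi,
    comp_map_mulVec]

lemma exists_pow_congr_one [Module.Finite ℤ_[ℓ] O] {u : O} (hu : IsUnit u) (K : ℕ) :
    ∃ r, 0 < r ∧ ∃ b : O, u ^ r = 1 + (ℓ ^ K : ℕ) * b := by
  obtain ⟨n, f, hf⟩ := Module.Finite.exists_fin' ℤ_[ℓ] O
  choose c hc using fun i : ℕ => hf (u ^ i)
  obtain ⟨i, j, hne, hij⟩ := Finite.exists_ne_map_eq_of_infinite
    fun i => fun k => PadicInt.toZModPow (p := ℓ) K (c i k)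
  wlog hlt : i < j generalizing i j
  · exact this j i hne.symm hij.symm (by omega)
  have hd : ∀ k, ∃ b : ℤ_[ℓ], c j k - c i k = (ℓ : ℤ_[ℓ]) ^ K * b := fun k => by
    have h : c j k - c i k ∈ Ideal.span {(ℓ : ℤ_[ℓ]) ^ K} := by
      rw [← PadicInt.ker_toZModPow, RingHom.mem_ker, map_sub, sub_eq_zero]
      exact (congrFun hij k).symm
    exact Ideal.mem_span_singleton.1 h
  choose b hb using hd
  refine ⟨j - i, by omega, ↑(hu.pow i).unit⁻¹ * f b, ?_⟩
  have h1 : u ^ j - u ^ i = (ℓ ^ K : ℕ) * f b := by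
    rw [← hc, ← hc, ← map_sub, show c j - c i = ((ℓ ^ K : ℕ) : ℤ_[ℓ]) • b from funext fun k => by
      rw [Pi.sub_apply, Pi.smul_apply, hb, Nat.cast_pow, smul_eq_mul], map_smul,
        Nat.cast_smul_eq_nsmul, nsmul_eq_mul]
  rw [show j = i + (j - i) by omega, pow_add] at h1
  have hu' : (↑(hu.pow i).unit⁻¹ : O) * u ^ i = 1 := (hu.pow i).val_inv_mul
  linear_combination (↑(hu.pow i).unit⁻¹ : O) * h1 - (u ^ (j - i) - 1) * hu'

variable [Algebra Qbar ℂ_[ℓ]] (χ : CuspForm.heckeAlgebra N 2 ∅ →+* O)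

omit [Algebra Qbar ℂ_[ℓ]] in
/-- The Hecke operators act on cut out homomorphisms by the eigenvalue. -/
lemma tV_eigPsi {q : ℕ} (hq : q.Prime) (lam : O →ₗ[ℤ_[ℓ]] ℤ_[ℓ]) {v : Fin (parRank (Gamma0 N)) → O}
    (hv : v ∈ eigLat χ) : tV hq (eigPsi lam v) = eigPsi lam (χ (hop N hq) • v) := by
  rw [tV_apply, heckeV_eigPsi, (mem_eigLat χ).1 hv]

omit [Algebra Qbar ℂ_[ℓ]] in
lemma isOrd_eigPsi [Module.Finite ℤ_[ℓ] O] (hu : IsUnit (χ (hop N hℓ.out)))
    (lam : O →ₗ[ℤ_[ℓ]] ℤ_[ℓ]) {v : Fin (parRank (Gamma0 N)) → O} (hv : v ∈ eigLat χ) :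
    IsOrd (eigPsi lam v) := by
  set u := χ (hop N hℓ.out)
  have hit : ∀ r : ℕ, (tV hℓ.out ^ r) (eigPsi lam v) = eigPsi lam (u ^ r • v) := by
    intro r
    induction r with
    | zero => simp
    | succ r ih =>
      rw [pow_succ', Module.End.mul_apply, ih, tV_eigPsi χ hℓ.out lam ((eigLat χ).smul_mem _ hv),
        smul_smul, ← pow_succ']
  intro K
  obtain ⟨r, hr, b, hb⟩ := exists_pow_congr_one (ℓ := ℓ) hu K
  refine ⟨r, hr, eigPsi lam (b • v), ?_⟩
  rw [hit, hb, add_smul, one_smul, mul_smul, Nat.cast_smul_eq_nsmul, map_add, map_nsmul]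

lemma coeff_delt_sub (ψ ψ' : V) (m : ℕ) :
    coeff m (delt (ψ - ψ')) = coeff m (delt ψ) - coeff m (delt ψ') := by
  rw [eq_sub_iff_add_eq, ← map_add, ← delt_add, sub_add_cancel]

variable (ℓ) in
/-- The vectors killed by `δ`. -/
def wLat : Submodule O (eigLat χ) where
  carrier := {v | ∀ (lam : O →ₗ[ℤ_[ℓ]] ℤ_[ℓ]) (m : ℕ),
    coeff m (delt (eigPsi lam (v : Fin (parRank (Gamma0 N)) → O))) = 0}
  zero_mem' lam m := by
    show coeff m (delt (eigPsi lam (0 : Fin (parRank (Gamma0 N)) → O))) = 0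
    rw [map_zero, delt_zero, map_zero]
  add_mem' {v w} hv hw lam m := by
    rw [Submodule.coe_add, map_add, delt_add, map_add, hv, hw, add_zero]
  smul_mem' a v hv lam m := by
    rw [Submodule.coe_smul, eigPsi_smul]
    exact hv _ m

/-- A vector is killed by `δ` iff all its cut out homomorphisms have `δ = 0`. -/
lemma mem_wLat {v : eigLat χ} : v ∈ wLat ℓ χ ↔ ∀ (lam : O →ₗ[ℤ_[ℓ]] ℤ_[ℓ]) (m : ℕ),
    coeff m (delt (eigPsi lam (v : Fin (parRank (Gamma0 N)) → O))) = 0 := Iff.rfl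

local notation "ιO" => (algebraMap ℤ_[ℓ] O : ℤ_[ℓ] →+* O)
local notation "ιA" => (algebraMap (AlgebraicClosure ℚ) ℂ_[ℓ] : AlgebraicClosure ℚ →+* ℂ_[ℓ])

omit [Algebra Qbar ℂ_[ℓ]] in
/-- Cutting out commutes with Galois. -/
lemma eigPsi_eigEnd (g : GQ) (lam : O →ₗ[ℤ_[ℓ]] ℤ_[ℓ]) (v : eigLat χ) :
    eigPsi lam ((eigEnd ιO χ g v : eigLat χ) : Fin (parRank (Gamma0 N)) → O) =
      galLin ℓ g (eigPsi lam (v : Fin (parRank (Gamma0 N)) → O)) := by
  rw [FermatAgent.ES.coe_eigEnd, galLin_eigPsi]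

/-- The decomposition group preserves `W`. -/
theorem eigEnd_mem_wLat (g : (padVal ιA).decompositionSubgroup ℚ) {v : eigLat χ}
    (hv : v ∈ wLat ℓ χ) : eigEnd ιO χ (g : GQ) v ∈ wLat ℓ χ := fun lam m => by
  rw [eigPsi_eigEnd, FermatAgent.ES.galLin_apply, delt_galPad, hv, map_zero]

section

variable [Module.Finite ℤ_[ℓ] O]

/-- Inertia is trivial modulo `W`. -/
theorem eigEnd_inertia_sub_mem (hN : ¬ ℓ ∣ N) (hu : IsUnit (χ (hop N hℓ.out)))
    (g : (padVal ιA).decompositionSubgroup ℚ) (hg : (g : GQ) ∈ (padVal ιA).inertiaSubgroupIn ℚ)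
    (v : eigLat χ) : eigEnd ιO χ (g : GQ) v - v ∈ wLat ℓ χ := fun lam m => by
  rw [Submodule.coe_sub, map_sub, coeff_delt_sub, eigPsi_eigEnd,
    coeff_delt_inertia hN (isOrd_eigPsi χ hu lam v.2) g hg, sub_self]

/-- The congruence relation modulo `W`. -/
theorem eigEnd_frobenius_mem (hN : ¬ ℓ ∣ N) (hu : IsUnit (χ (hop N hℓ.out)))
    (g : (padVal ιA).decompositionSubgroup ℚ) (hg : (padVal ιA).IsFrobeniusAt (g : GQ) ℓ)
    (v : eigLat χ) :
    eigEnd ιO χ (g : GQ) (eigEnd ιO χ (g : GQ) v) + (ℓ : O) • v -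
      χ (hop N hℓ.out) • eigEnd ιO χ (g : GQ) v ∈ wLat ℓ χ := fun lam m => by
  rw [Submodule.coe_sub, Submodule.coe_add, map_sub, coeff_delt_sub, map_add, Submodule.coe_smul,
    Submodule.coe_smul, Nat.cast_smul_eq_nsmul, map_nsmul,
    ← tV_eigPsi χ hℓ.out lam (eigEnd ιO χ (g : GQ) v).2, eigPsi_eigEnd, eigPsi_eigEnd, sub_eq_zero]
  exact congrArg (coeff m) (delt_frobenius_relation hN (isOrd_eigPsi χ hu lam v.2) g hg)

end

variable [IsDomain O] [IsDiscreteValuationRing O] [CharZero O]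

omit hℓ [Algebra ℤ_[ℓ] O] [Algebra Qbar ℂ_[ℓ]] [CharZero O] in
/-- A nonzero element divides a power of `ℓ`. -/
lemma exists_mul_eq_prime_pow (hm : (ℓ : O) ∈ maximalIdeal O) {a : O} (ha : a ≠ 0) :
    ∃ (n : ℕ) (b : O), b * a = (ℓ : O) ^ n := by
  obtain ⟨π, hπ⟩ := IsDiscreteValuationRing.exists_irreducible O
  obtain ⟨n, u, rfl⟩ := IsDiscreteValuationRing.eq_unit_mul_pow_irreducible ha hπ
  rw [hπ.maximalIdeal_eq, Ideal.mem_span_singleton] at hm
  obtain ⟨c, hc⟩ := hm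
  exact ⟨n, ↑u⁻¹ * c ^ n, by
    rw [hc, mul_pow, show (↑u⁻¹ : O) * c ^ n * (↑u * π ^ n) = (↑u⁻¹ * ↑u) * (c ^ n * π ^ n) by ring,
      Units.inv_mul, one_mul, mul_comm]⟩

omit [CharZero O] in
/-- `W` is saturated. -/
theorem wLat_saturated (hm : (ℓ : O) ∈ maximalIdeal O) {a : O} (ha : a ≠ 0) {v : eigLat χ}
    (h : a • v ∈ wLat ℓ χ) : v ∈ wLat ℓ χ := by
  obtain ⟨n, b, hb⟩ := exists_mul_eq_prime_pow hm ha
  have h1 := (wLat ℓ χ).smul_mem b h
  rw [smul_smul, hb, ← Nat.cast_pow, Nat.cast_smul_eq_nsmul] at h1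
  intro lam m
  have h2 := h1 lam m
  rw [AddSubmonoidClass.coe_nsmul, map_nsmul, coeff_delt_nsmul, mul_eq_zero] at h2
  exact h2.resolve_left (Nat.cast_ne_zero.2 (pow_ne_zero _ hℓ.out.ne_zero))

variable [Module.Finite ℤ_[ℓ] O]

/-- `W` is not zero. -/
theorem wLat_ne_bot (hm : (ℓ : O) ∈ maximalIdeal O) (hN : ¬ ℓ ∣ N)
    (hu : IsUnit (χ (hop N hℓ.out))) : wLat ℓ χ ≠ ⊥ := by
  intro hW
  obtain ⟨g, hg, k, ζ, hζ, hne⟩ := exists_inertia_moving ιA
  have h1 : eigEnd ιO χ g = 1 := LinearMap.ext fun v => by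
    have h := eigEnd_inertia_sub_mem χ hN hu
      ⟨g, inertiaSubgroupIn_le_decompositionSubgroup _ hg⟩ hg v
    rwa [hW, Submodule.mem_bot, sub_eq_zero] at h
  have h2 := FermatAgent.ES.det_eigMat ιO χ hm g
  rw [FermatAgent.ES.eigMat_apply, h1, LinearMap.toMatrix_one, Matrix.det_one] at h2
  have h3 : padCyclo ℓ g = 1 :=
    algebraMap_padicInt_injective (O := O) (by rw [map_one]; exact h2.symm)
  apply hne
  rw [FermatAgent.ES.padCyclo_spec ℓ g k hζ, h3, map_one]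
  rcases eq_or_ne k 0 with rfl | hk
  · simp [show ζ = 1 by simpa using hζ]
  · have : Fact (1 < ℓ ^ k) := ⟨Nat.one_lt_pow hk hℓ.out.one_lt⟩
    rw [ZMod.val_one, pow_one]

omit [Algebra Qbar ℂ_[ℓ]] in
/-- A linear map vanishing on the classes cut out of the eigenlattice vanishes on its extension
to `ℂ_ℓ`. -/
theorem eq_zero_of_eigPsi {M : Type*} [AddCommGroup M] [Module ℂ_[ℓ] M] {j : O →+* ℂ_[ℓ]}
    (hj : Function.Injective j) (hjι : j.comp ιO = zCp)
    (L : (Fin (parRank (Gamma0 N)) → ℂ_[ℓ]) →ₗ[ℂ_[ℓ]] M)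
    (hL : ∀ (lam : O →ₗ[ℤ_[ℓ]] ℤ_[ℓ]) (v : eigLat χ), L (fun k => zCp
      (parabolicCoords (Gamma0 N) ℤ_[ℓ] ℤ_[ℓ]
        (eigPsi lam (v : Fin (parRank (Gamma0 N)) → O)) k)) = 0)
    {w : Fin (parRank (Gamma0 N)) → ℂ_[ℓ]} (hw : w ∈ eigLat (j.comp χ)) : L w = 0 := by
  set b := eigBasis χ
  set u : Fin 2 → eigLat (j.comp χ) := fun i =>
    ⟨j ∘ (b i : Fin (parRank (Gamma0 N)) → O), FermatAgent.ES.map_mem_eigLat χ j (b i).2⟩
  let K := FractionRing O
  set f : K →+* ℂ_[ℓ] := IsFractionRing.lift hj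
  have hf : ∀ x, f (algebraMap O K x) = j x := fun x => IsFractionRing.lift_algebraMap hj x
  let e : eigLat χ →ₗ[O] (Fin (parRank (Gamma0 N)) → K) :=
    ((Algebra.linearMap O K).compLeft (Fin (parRank (Gamma0 N)))).comp (eigLat χ).subtype
  have he : Function.Injective e := fun v v' h => Subtype.ext (funext fun i =>
    IsFractionRing.injective O K (congrFun h i))
  have hK : LinearIndependent K (e ∘ b) :=
    (LinearIndependent.iff_fractionRing O K).1
      (b.linearIndependent.map' e (LinearMap.ker_eq_bot.2 he))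
  have hu : LinearIndependent ℂ_[ℓ] u := by
    refine LinearIndependent.of_comp (eigLat (j.comp χ)).subtype ?_
    set A : Matrix (Fin (parRank (Gamma0 N))) (Fin 2) K := Matrix.of fun k i => e (b i) k
    have hA : Function.Injective A.mulVec := Matrix.mulVec_injective_iff.2 hK
    obtain ⟨g, hg⟩ := A.mulVecLin.exists_leftInverse_of_injective (LinearMap.ker_eq_bot.2 hA)
    have hBA : LinearMap.toMatrix' g * A = 1 := by
      rw [← LinearMap.toMatrix'_id, ← hg, LinearMap.toMatrix'_comp, ← Matrix.toLin'_apply',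
        LinearMap.toMatrix'_toLin']
    have hBA' : (LinearMap.toMatrix' g).map f * A.map f = 1 := by
      rw [← Matrix.map_mul, hBA, Matrix.map_one _ (map_zero f) (map_one f)]
    have hinj : Function.Injective (A.map f).mulVec := fun x y hxy => by
      have := congrArg ((LinearMap.toMatrix' g).map f).mulVec hxy
      rwa [Matrix.mulVec_mulVec, Matrix.mulVec_mulVec, hBA', Matrix.one_mulVec,
        Matrix.one_mulVec] at this
    have hcol : (eigLat (j.comp χ)).subtype ∘ u = (A.map f).col :=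
      funext fun i => funext fun k => (hf _).symm
    rw [hcol]
    exact Matrix.mulVec_injective_iff.1 hinj
  have hspan : ⊤ ≤ Submodule.span ℂ_[ℓ] (Set.range u) := (hu.span_eq_top_of_card_eq_finrank
    (by rw [Fintype.card_fin, FermatAgent.ES.finrank_eigLat_field])).ge
  set B := Module.Basis.mk hu hspan
  have h2 := congrArg Subtype.val (B.sum_repr ⟨w, hw⟩)
  simp only [B, Module.Basis.coe_mk, Submodule.coe_sum, Submodule.coe_smul] at h2
  rw [← h2, map_sum]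
  refine Finset.sum_eq_zero fun i _ => ?_
  have := isTorsionFree_padicInt (ℓ := ℓ) (O := O)
  have : Module.Free ℤ_[ℓ] O := Module.free_of_finite_type_torsion_free'
  set o := Module.Free.chooseBasis ℤ_[ℓ] O
  have hsum : (u i : Fin (parRank (Gamma0 N)) → ℂ_[ℓ]) = ∑ s, j (o s) •
      fun k => zCp (parabolicCoords (Gamma0 N) ℤ_[ℓ] ℤ_[ℓ]
        (eigPsi (o.coord s) (b i : Fin (parRank (Gamma0 N)) → O)) k) := funext fun k => by
    show j ((b i : Fin (parRank (Gamma0 N)) → O) k) = _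
    conv_lhs => rw [← o.sum_repr ((b i : Fin (parRank (Gamma0 N)) → O) k)]
    rw [map_sum, Finset.sum_apply]
    refine Finset.sum_congr rfl fun s _ => ?_
    rw [Pi.smul_apply, smul_eq_mul, coords_eigPsi, Algebra.smul_def, map_mul,
      ← RingHom.comp_apply, hjι, mul_comm]
    rfl
  rw [map_smul, hsum, map_sum,
    Finset.sum_eq_zero fun s _ => by rw [map_smul, hL, smul_zero], smul_zero]

/-- A non-vanishing value of `δ₁`. -/
theorem exists_delt_ne_zero {j : O →+* ℂ_[ℓ]} (hj : Function.Injective j)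
    (hjι : j.comp ιO = zCp) {w : Fin (parRank (Gamma0 N)) → ℂ_[ℓ]} (hw : w ∈ eigLat (j.comp χ))
    (hw1 : deltC w 1 ≠ 0) : ∃ (lam : O →ₗ[ℤ_[ℓ]] ℤ_[ℓ]) (v : eigLat χ),
      coeff 1 (delt (eigPsi lam (v : Fin (parRank (Gamma0 N)) → O))) ≠ 0 := by
  by_contra h
  push Not at h
  exact hw1 (eq_zero_of_eigPsi χ hj hjι ((LinearMap.proj 1).comp deltC)
    (fun lam v => (deltC_coords _ _).trans (h lam v)) hw)

/-- All values of `δ` are bounded by one value of `δ₁`. -/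
theorem exists_delt_max {lam₁ : O →ₗ[ℤ_[ℓ]] ℤ_[ℓ]} {v₁ : eigLat χ}
    (h₁ : coeff 1 (delt (eigPsi lam₁ (v₁ : Fin (parRank (Gamma0 N)) → O))) ≠ 0) :
    ∃ (lam₀ : O →ₗ[ℤ_[ℓ]] ℤ_[ℓ]) (v₀ : eigLat χ),
      coeff 1 (delt (eigPsi lam₀ (v₀ : Fin (parRank (Gamma0 N)) → O))) ≠ 0 ∧
      ∀ (lam : O →ₗ[ℤ_[ℓ]] ℤ_[ℓ]) (v : eigLat χ),
        BdBy (delt (eigPsi lam (v : Fin (parRank (Gamma0 N)) → O)))
          ‖coeff 1 (delt (eigPsi lam₀ (v₀ : Fin (parRank (Gamma0 N)) → O)))‖ := by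
  have := isTorsionFree_padicInt (ℓ := ℓ) (O := O)
  have : Module.Free ℤ_[ℓ] O := Module.free_of_finite_type_torsion_free'
  set o := Module.Free.chooseBasis ℤ_[ℓ] O
  set b := eigBasis χ
  set g :
      Module.Free.ChooseBasisIndex ℤ_[ℓ] O × Module.Free.ChooseBasisIndex ℤ_[ℓ] O × Fin 2 → ℂ_[ℓ] :=
    fun p => coeff 1 (delt (eigPsi (o.coord p.1)
      ((o p.2.1 • b p.2.2 : eigLat χ) : Fin (parRank (Gamma0 N)) → O)))
  have : Nonempty (Module.Free.ChooseBasisIndex ℤ_[ℓ] O) := o.index_nonempty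
  obtain ⟨p₀, -, hp₀⟩ := Finset.exists_max_image Finset.univ (fun p => ‖g p‖) Finset.univ_nonempty
  have hbound : ∀ (lam : O →ₗ[ℤ_[ℓ]] ℤ_[ℓ]) (v : eigLat χ),
      ‖coeff 1 (delt (eigPsi lam (v : Fin (parRank (Gamma0 N)) → O)))‖ ≤ ‖g p₀‖ := by
    intro lam v
    have hlam : lam = ∑ s, lam (o s) • o.coord s := o.ext fun t => by
      simp
    have hv : (v : Fin (parRank (Gamma0 N)) → O) =
        ∑ q : Module.Free.ChooseBasisIndex ℤ_[ℓ] O × Fin 2, o.coord q.1 (b.repr v q.2) •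
          ((o q.1 • b q.2 : eigLat χ) : Fin (parRank (Gamma0 N)) → O) := by
      conv_lhs => rw [← b.sum_repr v, Submodule.coe_sum]
      rw [Fintype.sum_prod_type, Finset.sum_comm]
      refine Finset.sum_congr rfl fun t _ => ?_
      conv_lhs => rw [Submodule.coe_smul, ← o.sum_repr (b.repr v t), Finset.sum_smul]
      refine Finset.sum_congr rfl fun s _ => ?_
      rw [Submodule.coe_smul, smul_assoc]
      rfl
    rw [hv, map_sum, coeff_delt_sum]
    refine IsUltrametricDist.norm_sum_le_of_forall_le_of_nonneg (norm_nonneg _) fun q _ => ?_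
    rw [map_smul, coeff_delt_smul, norm_mul, norm_zCp]
    refine (mul_le_of_le_one_left (norm_nonneg _) (PadicInt.norm_le_one _)).trans ?_
    rw [hlam, show eigPsi (∑ s, lam (o s) • o.coord s)
        ((o q.1 • b q.2 : eigLat χ) : Fin (parRank (Gamma0 N)) → O) =
          ∑ s, lam (o s) • eigPsi (o.coord s)
          ((o q.1 • b q.2 : eigLat χ) : Fin (parRank (Gamma0 N)) → O) from by
      refine (parabolicCoords (Gamma0 N) ℤ_[ℓ] ℤ_[ℓ]).injective (funext fun k => ?_)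
      simp only [coords_eigPsi, map_sum, map_smul, Function.comp_apply, Finset.sum_apply,
        Pi.smul_apply, LinearMap.coe_sum, LinearMap.smul_apply], coeff_delt_sum]
    refine IsUltrametricDist.norm_sum_le_of_forall_le_of_nonneg (norm_nonneg _) fun s _ => ?_
    rw [coeff_delt_smul, norm_mul, norm_zCp]
    exact (mul_le_of_le_one_left (norm_nonneg _) (PadicInt.norm_le_one _)).trans
      (hp₀ (s, q.1, q.2) (Finset.mem_univ _))
  refine ⟨o.coord p₀.1, o p₀.2.1 • b p₀.2.2, ?_, ?_⟩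
  · exact norm_pos_iff.1 ((norm_pos_iff.2 h₁).trans_le (hbound lam₁ v₁))
  · intro lam v m
    induction m using Nat.strong_induction_on generalizing lam v with
    | _ m ih =>
      rcases Nat.lt_or_ge m 2 with h | h
      · interval_cases m
        · rw [coeff_zero_delt, norm_zero]; exact norm_nonneg _
        · exact hbound lam v
      obtain ⟨q, hq, k, rfl⟩ : ∃ q, q.Prime ∧ ∃ k, m = q * k :=
        ⟨m.minFac, Nat.minFac_prime (by omega), _, (Nat.mul_div_cancel' (Nat.minFac_dvd m)).symm⟩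
      have := Fact.mk hq
      have hk : k ≠ 0 := fun hk => by simp [hk] at h
      have hlt : k < q * k := lt_mul_left (Nat.pos_of_ne_zero hk) hq.one_lt
      have he := coeff_delt_heckeV (q := q) (eigPsi lam (v : Fin (parRank (Gamma0 N)) → O)) k
      rw [← tV_apply, tV_eigPsi χ hq lam v.2] at he
      rw [eq_sub_of_add_eq he.symm]
      refine (norm_sub_le_max_field _ _).trans (max_le (ih k hlt lam (χ (hop N hq) • v)) ?_)
      split_ifs
      · rw [norm_mul]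
        exact (mul_le_of_le_one_left (norm_nonneg _)
          (IsUltrametricDist.norm_natCast_le_one _ q)).trans
          (ih _ ((Nat.div_le_self k q).trans_lt hlt) lam v)
      · rw [norm_zero]; exact norm_nonneg _

end FermatAgent.Mazur

end
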