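import Fermat.Agent.Flat.Kummer.Functions
import Fermat.Agent.ES.Cong.Congruence
import Fermat.Agent.Curve.ModularGenus

/-!
# Laurent series of functions with multiplier

`IsMult N φ S`: the series `S` over the algebraic numbers is the expansion at `∞` of a quotient of
two forms of equal weight on `Γ₀(N)`, with multipliers `φ` and `1`.  These are the `n`-th roots of
the functions whose divisor is divisible by `n`.
-/

set_option autoImplicit false

noncomputable section

open UpperHalfPlane hiding I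
open Filter Topology
open scoped MatrixGroups ModularForm Manifold
open CongruenceSubgroup (Gamma0)

namespace FermatAgent.Mazur

open FermatAgent.Curve FermatAgent.ES
open ModularCurve (coeffMap)
open AlgebraicCurve (Place)

local notation "Qbar" => AlgebraicClosure ℚ
local notation "Δ" => ModularForm.discriminant
local notation "psQ" => HahnSeries.ofPowerSeries ℤ (AlgebraicClosure ℚ)

attribute [local instance] embAlg

/-- The coefficientwise embedding of power series. -/
abbrev psC : PowerSeries Qbar →+* PowerSeries ℂ := PowerSeries.map (algebraMap Qbar ℂ)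

variable {N : ℕ}

/-- `S` is the expansion of a quotient of forms with multipliers `φ` and `1`. -/
def IsMult (N : ℕ) (φ : Gamma0 N →* ℂˣ) (S : LaurentSeries Qbar) : Prop :=
  ∃ (i : ℕ) (v u : ℍ → ℂ) (c d : PowerSeries Qbar),
    IsTwist (Gamma0 N) ((2 * i : ℕ) : ℤ) φ v ∧ v ≠ 0 ∧
    IsTwist (Gamma0 N) ((2 * i : ℕ) : ℤ) 1 u ∧ u ≠ 0 ∧
    HasExp 1 v (psC c) ∧ HasExp 1 u (psC d) ∧ S * psQ d = psQ c

/-- The series of a nonzero form is nonzero. -/
lemma psQ_ne_zero_of_exp {v : ℍ → ℂ} {c : PowerSeries Qbar} (h : HasExp 1 v (psC c)) (hv : v ≠ 0) :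
    psQ c ≠ 0 := fun h0 => hv (by
  have hc : c = 0 := HahnSeries.ofPowerSeries_injective (h0.trans (map_zero _).symm)
  rw [hc, map_zero] at h
  exact h.eq_of_series HasExp.zero)

/-- Powers of the trivial character are trivial. -/
lemma one_char_pow (m : ℕ) : (1 : Gamma0 N →* ℂˣ) ^ m = 1 := MonoidHom.ext fun γ => by simp

/-- The series of `E₄`. -/
def eisSer4 : PowerSeries Qbar := ModularCurve.eisenstein4.map (Int.castRingHom Qbar)

lemma hasExp_E4 : HasExp 1 (ModularForm.E₄ : ℍ → ℂ) (psC eisSer4) := by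
  have h : psC eisSer4 = qExpansion ((1 : ℕ) : ℝ) (ModularForm.E₄ : ℍ → ℂ) := by
    rw [Nat.cast_one, qExpansion_E4]
    ext k
    simp [eisSer4, PowerSeries.coeff_map]
  rw [h]
  refine HasExp.exists_of_bounded ?_ (ModularFormClass.holo _) (ModularFormClass.bdd_at_infty _)
  simpa using SlashInvariantFormClass.periodic_comp_ofComplex ModularForm.E₄
    (one_mem_strictPeriods_SL)

namespace IsMult

variable {φ ψ : Gamma0 N →* ℂˣ} {S T : LaurentSeries Qbar}

/-- A series with multiplier is nonzero. -/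
lemma ne_zero (h : IsMult N φ S) : S ≠ 0 := by
  obtain ⟨i, v, u, c, d, -, hv0, -, -, hc, -, he⟩ := h
  intro h0
  rw [h0, zero_mul] at he
  exact psQ_ne_zero_of_exp hc hv0 he.symm

/-- `1` has trivial multiplier. -/
lemma one : IsMult N (1 : Gamma0 N →* ℂˣ) 1 :=
  ⟨0, 1, 1, 1, 1, by exact_mod_cast isTwist_one, one_ne_zero, by exact_mod_cast isTwist_one,
    one_ne_zero, by rw [map_one]; exact HasExp.one, by rw [map_one]; exact HasExp.one,
    by rw [map_one, one_mul]⟩

/-- Multipliers multiply. -/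
lemma mul (hS : IsMult N φ S) (hT : IsMult N ψ T) : IsMult N (φ * ψ) (S * T) := by
  obtain ⟨i, v, u, c, d, hv, hv0, hu, hu0, hc, hd, he⟩ := hS
  obtain ⟨l, v', u', c', d', hv', hv0', hu', hu0', hc', hd', he'⟩ := hT
  have hw : ((2 * (i + l) : ℕ) : ℤ) = ((2 * i : ℕ) : ℤ) + ((2 * l : ℕ) : ℤ) := by push_cast; ring
  have huu := hu.mul hu'
  rw [mul_one (1 : Gamma0 N →* ℂˣ)] at huu
  refine ⟨i + l, v * v', u * u', c * c', d * d', hw ▸ hv.mul hv',
    mul_ne_zero_of_mdiff hv'.mdiff hv.mdiff hv0 hv0', hw ▸ huu,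
    mul_ne_zero_of_mdiff hu'.mdiff hu.mdiff hu0 hu0', ?_, ?_, ?_⟩
  · rw [map_mul]; exact hc.mul hc'
  · rw [map_mul]; exact hd.mul hd'
  · rw [map_mul, map_mul, ← he, ← he']; ring

/-- Multipliers of powers are powers. -/
lemma pow (hS : IsMult N φ S) (m : ℕ) : IsMult N (φ ^ m) (S ^ m) := by
  induction m with
  | zero => rw [pow_zero φ, pow_zero S]; exact one
  | succ m ih => rw [pow_succ φ, pow_succ S]; exact ih.mul hS

/-- Inverses of series with trivial multiplier have trivial multiplier. -/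
lemma inv_of_one (hS : IsMult N 1 S) : IsMult N 1 S⁻¹ := by
  obtain ⟨i, v, u, c, d, hv, hv0, hu, hu0, hc, hd, he⟩ := hS
  refine ⟨i, u, v, d, c, hu, hu0, hv, hv0, hd, hc, ?_⟩
  have hS0 : S ≠ 0 := fun h0 => psQ_ne_zero_of_exp hc hv0 (by rw [← he, h0, zero_mul])
  rw [← he, ← mul_assoc, inv_mul_cancel₀ hS0, one_mul]

/-- The inverse has the inverse multiplier, for a character of finite order. -/
lemma inv (hS : IsMult N φ S) {n : ℕ} (hn : n ≠ 0) (hφ : φ ^ n = 1) : IsMult N φ⁻¹ S⁻¹ := by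
  have h1 := hS.pow n
  rw [hφ] at h1
  have h2 := (hS.pow (n - 1)).mul h1.inv_of_one
  have e : φ ^ (n - 1) = φ⁻¹ := by
    refine MonoidHom.ext fun γ => ?_
    have h3 := DFunLike.congr_fun hφ γ
    simp only [MonoidHom.pow_apply, MonoidHom.inv_apply, MonoidHom.one_apply] at h3 ⊢
    rw [eq_inv_iff_mul_eq_one, ← pow_succ, Nat.sub_add_cancel (Nat.one_le_iff_ne_zero.2 hn), h3]
  have hS0 := hS.ne_zero
  rw [mul_one (φ ^ (n - 1)), e] at h2
  convert h2 using 1
  rw [← div_eq_mul_inv, eq_div_iff (_root_.pow_ne_zero _ hS0),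
    show S ^ n = S * S ^ (n - 1) by
      rw [← pow_succ', Nat.sub_add_cancel (Nat.one_le_iff_ne_zero.2 hn)],
    ← mul_assoc, inv_mul_cancel₀ hS0, one_mul]

end IsMult

/-! ### Quotients of invariant forms -/

/-- The expansion of the discriminant. -/
def deltaSer : PowerSeries Qbar :=
  PowerSeries.X * ModularCurve.dedekindEtaUnit.map (Int.castRingHom Qbar)

/-- The discriminant has the series `deltaSer`. -/
lemma hasExp_discriminant : HasExp 1 (Δ : ℍ → ℂ) (psC deltaSer) := by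
  have h : psC deltaSer = qExpansion ((1 : ℕ) : ℝ) (Δ : ℍ → ℂ) := by
    rw [Nat.cast_one, qExpansion_discriminant, deltaSer, map_mul, PowerSeries.map_X]
    congr 1
    ext k
    simp [PowerSeries.coeff_map]
  rw [h]
  refine HasExp.exists_of_bounded ?_ mdiff_discriminant ?_
  · have h1 := SlashInvariantFormClass.periodic_comp_ofComplex CuspForm.discriminant
      (one_mem_strictPeriods_SL)
    simpa [CuspForm.coe_discriminant] using h1
  · simpa [CuspForm.coe_discriminant] using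
      ModularFormClass.bdd_at_infty CuspForm.discriminant

lemma deltaSer_ne_zero : psQ deltaSer ≠ 0 :=
  psQ_ne_zero_of_exp hasExp_discriminant fun h =>
    ModularForm.discriminant_ne_zero UpperHalfPlane.I (congrFun h _)

/-- An invariant form divided by a power of the discriminant. -/
lemma exists_jField_div [NeZero N] {k : ℕ} {A : ℍ → ℂ} {a : PowerSeries Qbar}
    (hA : IsTwist (Gamma0 N) ((12 * k : ℕ) : ℤ) 1 A) (ha : HasExp 1 A (psC a)) :
    ∃ F : jField Qbar N, (F : LaurentSeries Qbar) = psQ a / psQ deltaSer ^ k ∧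
      HasLoc (qw 1) (fun τ => A τ / Δ τ ^ k) (lsC (F : LaurentSeries Qbar)) := by
  have hs : HasLoc (qw 1) (fun τ => A τ / Δ τ ^ k) (lsC (psQ a / psQ deltaSer ^ k)) := by
    have h1 := (HasLExp.of_exp hasExp_discriminant).inv ModularForm.discriminant_ne_zero (by
      rw [← ModularCurve.coeffMap_ofPowerSeries]; exact (map_ne_zero _).2 deltaSer_ne_zero)
    have h2 := Red.hasLoc_of_hasLExp ((HasLExp.of_exp ha).mul (h1.pow k))
    rw [Nat.cast_one] at h2
    rw [← ModularCurve.coeffMap_ofPowerSeries, ← ModularCurve.coeffMap_ofPowerSeries, ← map_inv₀,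
      ← map_pow, ← map_mul] at h2
    rw [div_eq_mul_inv, ← inv_pow]
    exact h2.congr_fun fun τ => by simp [div_eq_mul_inv, inv_pow]
  refine ⟨⟨_, mem_jField_of_invariant (fun γ hγ τ => ?_) (fun g => ?_) hs⟩, rfl, hs⟩
  · have h1 : A ∣[((12 * k : ℕ) : ℤ)] γ = A := by
      have h := hA.slash ⟨γ, hγ⟩
      simpa using h
    rw [smul_eq_denom_zpow h1, smul_eq_denom_zpow (slash_discriminant γ), mul_pow,
      ← zpow_natCast (denom (γ : GL (Fin 2) ℝ) τ ^ (12 : ℤ)) k, ← zpow_mul,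
      show ((12 * k : ℕ) : ℤ) = 12 * (k : ℤ) by push_cast; ring]
    exact mul_div_mul_left _ _ (zpow_ne_zero _ (denom_ne_zero _ _))
  · refine mem_regSub.2 ⟨?_, k, ?_⟩
    · exact (MDifferentiable.div hA.mdiff (mdiff_discriminant.pow k) fun τ =>
        pow_ne_zero _ (ModularForm.discriminant_ne_zero τ)).comp
        (UpperHalfPlane.mdifferentiable_smul (g := (g : GL (Fin 2) ℝ)) (by simp))
    · have hp : IsBoundedAtImInfty ((fun τ : ℍ => qw 1 τ / Δ τ) ^ k) :=
        (Asymptotics.IsBigO.pow isBoundedAtImInfty_qw_div_discriminant k).congr_right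
          fun τ => one_pow k
      refine (((hA.bdd g).mul hp).congr_left
        fun τ => ?_).congr_right fun τ => by simp
      have hd := zpow_ne_zero (12 * (k : ℤ)) (denom_ne_zero (g : GL (Fin 2) ℝ) τ)
      have hΔ := ModularForm.discriminant_ne_zero τ
      rw [Pi.mul_apply, Pi.pow_apply, ModularForm.SL_slash_apply,
        smul_eq_denom_zpow (slash_discriminant g), mul_pow,
        ← zpow_natCast (denom (g : GL (Fin 2) ℝ) τ ^ (12 : ℤ)) k, ← zpow_mul,
        show ((12 * k : ℕ) : ℤ) = 12 * (k : ℤ) by push_cast; ring, zpow_neg, div_pow]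
      field_simp

/-- A series with multiplier is a quotient of two functions in the field, each an `n`-th power on
`ℍ`. -/
lemma IsMult.exists_quot [NeZero N] {φ : Gamma0 N →* ℂˣ} {S : LaurentSeries Qbar}
    (hS : IsMult N φ S) {n : ℕ} (hφ : φ ^ n = 1) :
    ∃ (F₁ F₂ : jField Qbar N) (g₁ g₂ : ℍ → ℂ), F₁ ≠ 0 ∧ F₂ ≠ 0 ∧ MDiff g₁ ∧ MDiff g₂ ∧
      HasLoc (qw 1) (g₁ ^ n) (lsC (F₁ : LaurentSeries Qbar)) ∧
      HasLoc (qw 1) (g₂ ^ n) (lsC (F₂ : LaurentSeries Qbar)) ∧
      S ^ n = (F₁ : LaurentSeries Qbar) / (F₂ : LaurentSeries Qbar) := by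
  obtain ⟨i, v, u, c, d, hv, hv0, hu, hu0, hc, hd, he⟩ := hS
  set k := 2 * i
  have hA : IsTwist (Gamma0 N) ((12 * (n * k) : ℕ) : ℤ) 1 ((v * u ^ 11) ^ n) := by
    have h := (hv.mul (hu.pow 11)).pow n
    rw [one_char_pow, mul_one φ, hφ] at h
    convert h using 1
    push_cast
    ring
  have hB : IsTwist (Gamma0 N) ((12 * (n * k) : ℕ) : ℤ) 1 ((u ^ 12) ^ n) := by
    have h := (hu.pow 12).pow n
    rw [one_char_pow, one_char_pow] at h
    convert h using 1
    push_cast
    ring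
  have ha : HasExp 1 ((v * u ^ 11) ^ n) (psC ((c * d ^ 11) ^ n)) := by
    rw [map_pow, map_mul, map_pow]; exact (hc.mul (hd.pow 11)).pow n
  have hb : HasExp 1 ((u ^ 12) ^ n) (psC ((d ^ 12) ^ n)) := by
    rw [map_pow, map_pow]; exact (hd.pow 12).pow n
  obtain ⟨F₁, hF₁, hL₁⟩ := exists_jField_div hA ha
  obtain ⟨F₂, hF₂, hL₂⟩ := exists_jField_div hB hb
  have hd0 := psQ_ne_zero_of_exp hd hu0
  have hΔ := deltaSer_ne_zero
  have hΔd : ∀ τ, Δ τ ^ k ≠ 0 := fun τ => pow_ne_zero _ (ModularForm.discriminant_ne_zero τ)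
  refine ⟨F₁, F₂, fun τ => (v * u ^ 11) τ / Δ τ ^ k, fun τ => (u ^ 12) τ / Δ τ ^ k,
    fun h => ?_, fun h => ?_,
    MDifferentiable.div (hv.mul (hu.pow 11)).mdiff (mdiff_discriminant.pow k) hΔd,
    MDifferentiable.div (hu.pow 12).mdiff (mdiff_discriminant.pow k) hΔd,
    hL₁.congr_fun fun τ => ?_, hL₂.congr_fun fun τ => ?_, ?_⟩
  · have h0 : psQ ((c * d ^ 11) ^ n) / psQ deltaSer ^ (n * k) = 0 := by rw [← hF₁, h]; rfl
    simp only [div_eq_zero_iff, pow_eq_zero_iff', hΔ, map_pow, map_mul, mul_eq_zero,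
      psQ_ne_zero_of_exp hc hv0, hd0, false_and, or_self] at h0
  · have h0 : psQ ((d ^ 12) ^ n) / psQ deltaSer ^ (n * k) = 0 := by rw [← hF₂, h]; rfl
    simp only [div_eq_zero_iff, pow_eq_zero_iff', hΔ, map_pow, hd0, false_and, or_self] at h0
  · simp [div_pow, ← pow_mul, mul_comm k n]
  · simp [div_pow, ← pow_mul, mul_comm k n]
  · rw [hF₁, hF₂, div_div_div_cancel_right₀ (pow_ne_zero _ hΔ), map_pow, map_pow, ← div_pow]
    congr 1
    rw [eq_div_iff (by rw [map_pow]; exact pow_ne_zero _ hd0), map_mul, map_pow, map_pow, ← he]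
    ring

/-- Powers with trivial multiplier lie in the field. -/
theorem IsMult.pow_mem [NeZero N] {φ : Gamma0 N →* ℂˣ} {S : LaurentSeries Qbar}
    (hS : IsMult N φ S) {n : ℕ} (hφ : φ ^ n = 1) : S ^ n ∈ jField Qbar N := by
  obtain ⟨F₁, F₂, g₁, g₂, -, -, -, -, -, -, he⟩ := hS.exists_quot hφ
  rw [he]
  exact div_mem F₁.2 F₂.2

/-- Series with trivial multiplier lie in the field. -/
theorem IsMult.mem [NeZero N] {S : LaurentSeries Qbar} (hS : IsMult N 1 S) :
    S ∈ jField Qbar N := by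
  simpa using hS.pow_mem (n := 1) (one_char_pow 1)

/-- At a non-elliptic point the order of `S ^ n` is divisible by `n`. -/
theorem IsMult.dvd_ord [NeZero N] {φ : Gamma0 N →* ℂˣ} {S : LaurentSeries Qbar}
    (hS : IsMult N φ S) {n : ℕ} (hφ : φ ^ n = 1) {F : jField Qbar N}
    (hF : (F : LaurentSeries Qbar) = S ^ n) {a : Qbar} (h0 : a ≠ 0) (h1728 : a ≠ 1728)
    {v : Place Qbar (jField Qbar N)}
    (hv : 0 < v.ord (jElt Qbar N - algebraMap Qbar (jField Qbar N) a)) :
    (n : ℤ) ∣ v.ord F := by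
  have : Nonempty (SL(2, ℤ) ⧸ Gamma0 N) := ⟨QuotientGroup.mk 1⟩
  obtain ⟨τ₀, hτ₀⟩ := exists_jFun_eq (algebraMap Qbar ℂ a)
  have ho : (jSubSeries τ₀ (algebraMap Qbar ℂ a)).order = ((1 : ℕ) : ℤ) := by
    rw [Nat.cast_one]
    refine order_jSubSeries_generic hτ₀ ((_root_.map_ne_zero _).2 h0) fun h => h1728 ?_
    exact (algebraMap Qbar ℂ).injective (h.trans (map_ofNat _ _).symm)
  set E := familyAt Qbar N τ₀ a 1 one_pos ho
  obtain ⟨x, rfl⟩ := E.exists_place_eq v hv
  obtain ⟨t, ht0, ht⟩ := exists_ord_eq_one (v := E.place x)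
  have hσ : ∀ f : jField Qbar N, (E.σ x f).order = (E.place x).ord f := by
    intro f
    have h1 := order_apply (E.σ x) (E.order_pos x) ht
      (jElt Qbar N - algebraMap Qbar (jField Qbar N) a)
    rw [E.σ_x, E.order_h] at h1
    have h2 : (E.σ x t).order = 1 := by
      have hp := order_uniformizer_pos (E.σ x) (E.order_pos x) ht
      have hm : E.m = 1 := rfl
      rw [hm, Nat.cast_one] at h1
      rcases Int.eq_one_or_neg_one_of_mul_eq_one h1.symm with h | h
      · exact h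
      · omega
    rw [order_apply (E.σ x) (E.order_pos x) ht f, h2, one_mul]
    rfl
  obtain ⟨F₁, F₂, g₁, g₂, hF₁, hF₂, hg₁, hg₂, hL₁, hL₂, he⟩ := hS.exists_quot hφ
  have hFd : F = F₁ / F₂ := Subtype.ext (by rw [hF, he, IntermediateField.coe_div])
  have hdvd : ∀ (F' : jField Qbar N) (g : ℍ → ℂ), MDiff g →
      HasLoc (qw 1) (g ^ n) (lsC (F' : LaurentSeries Qbar)) → (n : ℤ) ∣ (E.σ x F').order := by
    intro F' g hg hL
    have hg' : MDiff fun τ => g ((x.out)⁻¹ • τ) :=
      hg.comp (UpperHalfPlane.mdifferentiable_smul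
        (g := (((x.out)⁻¹ : SL(2, ℤ)) : GL (Fin 2) ℝ)) (by simp))
    rw [show E.σ x F' = _ from Flat.Kummer.emb_eq_of_hasLoc hL (genCoord_discCoord N τ₀) _
      ((hasLoc_discCoord τ₀ hg').pow n), Curve.order_pow]
    exact dvd_mul_right _ _
  rw [← hσ, hFd, map_div₀, div_eq_mul_inv, HahnSeries.order_mul ((_root_.map_ne_zero _).2 hF₁)
    (inv_ne_zero ((_root_.map_ne_zero _).2 hF₂)), Curve.order_inv ((_root_.map_ne_zero _).2 hF₂)]
  exact dvd_add (hdvd F₁ g₁ hg₁ hL₁) (dvd_neg.2 (hdvd F₂ g₂ hg₂ hL₂))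

/-! ### Existence and conjugation -/

/-- `Δ` has weight `12` and trivial multiplier. -/
theorem isTwist_discriminant : IsTwist (Gamma0 N) 12 1 (Δ : ℍ → ℂ) :=
  ⟨mdiff_discriminant, fun γ => by rw [slash_discriminant]; simp, fun γ => by
    rw [slash_discriminant]
    exact ModularForm.discriminant_isZeroAtImInfty.isBoundedAtImInfty⟩

/-- `j - a` has trivial multiplier. -/
theorem isMult_jElt_sub [NeZero N] (a : Qbar) :
    IsMult N 1 ((jElt Qbar N - algebraMap Qbar (jField Qbar N) a : jField Qbar N) :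
      LaurentSeries Qbar) := by
  set e₄ := eisSer4
  have hE := hasExp_E4
  have htw : ∀ {k : ℤ} {f : ℍ → ℂ}, MDiff f → (∀ γ : SL(2, ℤ), f ∣[k] γ = f) →
      IsBoundedAtImInfty f → IsTwist (Gamma0 N) k 1 f := fun hf hinv hb =>
    ⟨hf, fun γ => by rw [hinv]; simp, fun γ => by rw [hinv]; exact hb⟩
  have hD : IsTwist (Gamma0 N) ((2 * 6 : ℕ) : ℤ) 1 (Δ : ℍ → ℂ) :=
    isTwist_discriminant
  have hV : IsTwist (Gamma0 N) ((2 * 6 : ℕ) : ℤ) 1
      ((ModularForm.E₄ : ℍ → ℂ) ^ 3 + (-algebraMap Qbar ℂ a) • (Δ : ℍ → ℂ)) := by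
    have h1 := (htw (ModularFormClass.holo ModularForm.E₄) (fun γ => slash_E γ ModularForm.E₄)
      (ModularFormClass.bdd_at_infty _)).pow 3
    rw [one_char_pow] at h1
    exact h1.add (hD.smul _)
  refine ⟨6, _, Δ, e₄ ^ 3 - PowerSeries.C a * deltaSer, deltaSer, hV, fun h => ?_, hD,
    fun h => ModularForm.discriminant_ne_zero UpperHalfPlane.I (congrFun h _), ?_,
    hasExp_discriminant, ?_⟩
  · refine transcendental_jElt (K := Qbar) (N := N) ?_
    obtain ⟨τ, hτ⟩ := exists_jFun_eq (algebraMap Qbar ℂ a + 1)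
    have h1 := congrFun h τ
    have hΔ := ModularForm.discriminant_ne_zero τ
    rw [jFun, div_eq_iff hΔ] at hτ
    simp only [Pi.add_apply, Pi.pow_apply, Pi.smul_apply, smul_eq_mul, Pi.zero_apply] at h1
    exact absurd (show Δ τ = 0 by linear_combination h1 - hτ) hΔ
  · rw [map_sub, map_pow, map_mul, PowerSeries.map_C, sub_eq_add_neg, ← neg_mul,
      ← map_neg (PowerSeries.C (R := ℂ))]
    exact ((hE.pow 3).add (hasExp_discriminant.smul (-algebraMap Qbar ℂ a))).congr_fun
      fun τ => rfl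
  · rw [map_sub, map_mul, map_pow, HahnSeries.ofPowerSeries_C, AddSubgroupClass.coe_sub,
      jElt, coe_toJField, evL, MvPolynomial.aeval_X, jGenL]
    have hJ : ModularCurve.qExpand Qbar (JIdx.one N : ℕ) (ModularCurve.jqModC Qbar) * psQ deltaSer =
        psQ e₄ ^ 3 := by
      show ModularCurve.qExpand Qbar 1 (ModularCurve.jqModC Qbar) * _ = _
      rw [ModularCurve.qExpand_one_apply, ModularCurve.jqModC, deltaSer, map_mul,
        HahnSeries.ofPowerSeries_X, mul_mul_mul_comm, HahnSeries.single_mul_single,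
        neg_add_cancel, one_mul, HahnSeries.single_zero_one, one_mul, ← map_mul, ← map_mul,
        ← map_pow]
      congr 1
      simp only [e₄, eisSer4]
      rw [ModularCurve.jNum, mul_assoc, mul_comm ModularCurve.dedekindEtaUnitInv,
        ModularCurve.dedekindEtaUnit_mul_inv, mul_one, map_pow]
    rw [sub_mul, hJ]
    congr 2
    rw [HahnSeries.C_apply, ← ModularCurve.algebraMap_laurentSeries_eq_single]
    rfl

/-- Every parabolic character of finite order is a multiplier. -/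
theorem exists_isMult [NeZero N] {n : ℕ} [NeZero n] (φ : parGroup (Gamma0 N) n) :
    ∃ S, IsMult N (φ : Gamma0 N →* ℂˣ) S := by
  obtain ⟨v, c, hv, hv0, hc, halg⟩ := exists_algebraic_form (goodLevel_Gamma0 N) φ
  have hv' : IsTwist (Gamma0 N) ((2 * 2 : ℕ) : ℤ) (φ : Gamma0 N →* ℂˣ) v := by exact_mod_cast hv
  have h1 := hasExp_one_twist (goodLevel_Gamma0 N).T_mem φ.2.2 hv'
  set c₁ := qExpansion ((1 : ℕ) : ℝ) v
  have hexp : HasExp (12 * N) v (PowerSeries.expand (12 * N) (NeZero.ne _) c₁) := by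
    have h2 := h1.expand (NeZero.ne (12 * N))
    rwa [mul_one] at h2
  have halg' : ∀ e, ∃ y, algebraMap Qbar ℂ y = PowerSeries.coeff e c₁ := fun e => by
    refine exists_embC_eq ?_
    have h2 := halg (12 * N * e)
    rwa [hc.series_unique hexp, PowerSeries.coeff_expand_mul] at h2
  choose y hy using halg'
  have hpc : HasExp 1 v (psC (PowerSeries.mk y)) := by
    convert h1 using 1
    exact PowerSeries.ext fun e => by rw [PowerSeries.coeff_map, PowerSeries.coeff_mk, hy]
  have hE : IsTwist (Gamma0 N) ((2 * 2 : ℕ) : ℤ) 1 (ModularForm.E₄ : ℍ → ℂ) :=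
    ⟨ModularFormClass.holo _, fun γ => by
      rw [show ((2 * 2 : ℕ) : ℤ) = 4 from rfl, slash_E]; simp,
      fun γ => by
        rw [show ((2 * 2 : ℕ) : ℤ) = 4 from rfl, slash_E]
        exact ModularFormClass.bdd_at_infty _⟩
  have hE0 : (ModularForm.E₄ : ℍ → ℂ) ≠ 0 := fun h => by
    have h1 := jFun_I
    rw [jFun, congrFun h UpperHalfPlane.I] at h1
    norm_num at h1
  refine ⟨psQ (PowerSeries.mk y) / psQ eisSer4, 2, v, _, _, _, hv', hv0, hE, hE0, hpc,
    hasExp_E4, ?_⟩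
  exact div_mul_cancel₀ _ (psQ_ne_zero_of_exp hasExp_E4 hE0)

/-- Galois conjugation of multipliers. -/
theorem IsMult.galois [NeZero N] {n : ℕ} [NeZero n] {φ : parGroup (Gamma0 N) n}
    {S : LaurentSeries Qbar} (hS : IsMult N (φ : Gamma0 N →* ℂˣ) S) (g : GQ) :
    IsMult N (galChar (goodLevel_Gamma0 N) n g φ : Gamma0 N →* ℂˣ)
      (coeffMap (g.toRingEquiv.toRingHom) S) := by
  obtain ⟨i, v, u, c, d, hv, hv0, hu, hu0, hc, hd, he⟩ := hS
  set hG := goodLevel_Gamma0 N
  obtain ⟨a, ha, hσ⟩ := exists_unit_exponent (12 * N) (autC g)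
  have conv : ∀ (χ : parGroup (Gamma0 N) n) {w : ℍ → ℂ} {e : PowerSeries Qbar},
      IsTwist (Gamma0 N) ((2 * i : ℕ) : ℤ) (χ : Gamma0 N →* ℂˣ) w → w ≠ 0 →
      HasExp 1 w (psC e) →
      ∃ w', IsTwist (Gamma0 N) ((2 * i : ℕ) : ℤ) (galChar hG n g χ : Gamma0 N →* ℂˣ) w' ∧
        w' ≠ 0 ∧ HasExp 1 w' (psC (e.map g.toRingEquiv.toRingHom)) := by
    intro χ w e hw hw0 he
    obtain ⟨χ', w', hw', hw'0, hn', hp', hser⟩ := exists_conj_twist (auxLevel12 N)
      (dvd_mul_left N 12) hG.toGalStable hG.neg_mem ha hσ (NeZero.pos n) χ.2.1 χ.2.2 hw hw0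
    have he12 : HasExp (12 * N) w (PowerSeries.expand (12 * N) (NeZero.ne _) (psC e)) := by
      have := he.expand (NeZero.ne (12 * N))
      rwa [mul_one] at this
    have hχ : galChar hG n g χ = ⟨χ', hn', hp'⟩ :=
      conjChar_eq hG ⟨i, w, w', _, hw, hw0, hw', hw'0, he12, hser _ he12⟩
    refine ⟨w', by rw [hχ]; exact hw', hw'0, ?_⟩
    have h1 := hasExp_one_twist hG.T_mem hp' hw'
    have h1' : HasExp (12 * N) w' (PowerSeries.expand (12 * N) (NeZero.ne _)
        (qExpansion ((1 : ℕ) : ℝ) w')) := by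
      have := h1.expand (NeZero.ne (12 * N))
      rwa [mul_one] at this
    have heq := h1'.series_unique (hser _ he12)
    convert h1 using 1
    ext k
    have hk := congrArg (PowerSeries.coeff (12 * N * k)) heq
    rw [PowerSeries.coeff_expand_mul, PowerSeries.map_expand, PowerSeries.coeff_expand_mul] at hk
    rw [hk, PowerSeries.coeff_map, PowerSeries.coeff_map, PowerSeries.coeff_map,
      PowerSeries.coeff_map]
    exact (autC_spec g _).symm
  obtain ⟨v', hv', hv'0, hc'⟩ := conv φ hv hv0 hc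
  obtain ⟨u', hu', hu'0, hd'⟩ := conv 1 (by exact hu) hu0 hd
  rw [map_one, OneMemClass.coe_one] at hu'
  refine ⟨i, v', u', _, _, hv', hv'0, hu', hu'0, hc', hd', ?_⟩
  have h1 := congrArg (coeffMap g.toRingEquiv.toRingHom) he
  rw [map_mul] at h1
  have hps : ∀ e : PowerSeries Qbar, coeffMap g.toRingEquiv.toRingHom (psQ e) =
      psQ (e.map g.toRingEquiv.toRingHom) := fun e => by
    ext k
    rw [ModularCurve.coeffMap_coeff]
    rcases lt_or_ge k 0 with hk | hk
    · rw [ModularCurve.ofPowerSeries_coeff_of_neg _ hk,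
        ModularCurve.ofPowerSeries_coeff_of_neg _ hk, map_zero]
    · lift k to ℕ using hk
      rw [HahnSeries.ofPowerSeries_apply_coeff, HahnSeries.ofPowerSeries_apply_coeff,
        PowerSeries.coeff_map]
  rwa [hps, hps] at h1

end FermatAgent.Mazur

end
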