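import Fermat.Agent.Mazur.DeltaRatio
import Fermat.Agent.Mazur.Mult

/-!
# A form with multiplier whose power is a multiple of `Δ(τ)^N / Δ(Nτ)`

For `n m = N - 1` the function `difProd ^ 6` has a holomorphic `n`-th root `v`, a form of weight
`12 m` on `Γ₀(N)` with a parabolic multiplier of order dividing `n`, trivial on the elliptic
elements.
-/

set_option autoImplicit false

noncomputable section

open UpperHalfPlane hiding I
open Filter Topology
open scoped MatrixGroups ModularForm Manifold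
open CongruenceSubgroup (Gamma0)

namespace FermatAgent.Mazur

open FermatAgent.ES (HasExp IsTwist IsParChar qm vanishOrd hasExp_one_twist goodLevel_Gamma0)

local notation "Δ" => ModularForm.discriminant

attribute [local instance] embAlg

lemma tendsto_vadd_atImInfty (r : ℝ) :
    Tendsto (fun τ : ℍ => r +ᵥ τ) atImInfty atImInfty :=
  tendsto_comap_iff.2 (tendsto_comap.congr fun τ => (UpperHalfPlane.vadd_im r τ).symm)

variable {N : ℕ} [NeZero N]

/-- The constant at infinity is nonzero. -/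
lemma ratioConst_ne_zero (hN : N.Prime) (h5 : 5 ≤ N) : ratioConst N ≠ 0 := by
  rw [← deltaRatio_eq hN h5 UpperHalfPlane.I]
  exact deltaRatio_ne_zero hN h5 _

/-- The identity in multiplicative form: `P ^ 6 Δ(N τ) = κ Δ(τ) ^ N`. -/
lemma difProd_pow_mul (hN : N.Prime) (h5 : 5 ≤ N) (τ : ℍ) :
    difProd N τ ^ 6 * Δ (mulPt N τ) = ratioConst N * Δ τ ^ N := by
  rw [← deltaRatio_eq hN h5 τ, deltaRatio,
    div_mul_cancel₀ _ (pow_ne_zero _ (ModularForm.discriminant_ne_zero τ))]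

lemma mdiff_difProd_pow (hN : N.Prime) (h5 : 5 ≤ N) : MDiff fun τ => difProd N τ ^ 6 :=
  ((hasExp_difProd hN h5).mdifferentiable.pow 6)

lemma tendsto_difProd_pow (hN : N.Prime) (h5 : 5 ≤ N) :
    Tendsto (fun τ => difProd N τ ^ 6) atImInfty (𝓝 (ratioConst N)) := by
  have h := (hasExp_difProd hN h5).tendsto_atImInfty.pow 6
  rw [map_prod] at h
  exact h

lemma qw_mulPt_div (τ : ℍ) : Curve.qw 1 (Curve.affinePt 1 N 0 τ) = qm N τ := by
  simp only [Curve.qw, qm, Function.Periodic.qParam, Curve.coe_affinePt]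
  congr 1
  push_cast
  ring

lemma tendsto_delta_div_affinePt :
    Tendsto (fun τ : ℍ => Δ (Curve.affinePt 1 N 0 τ) / qm N τ) atImInfty (𝓝 1) :=
  ((tendsto_delta_div_q.comp (tendsto_affinePt_one (N := N))).congr fun τ => by
    simp only [Function.comp_apply, qw_mulPt_div])

/-- `difProd ^ 6` at the cusp `0`. -/
lemma difProd_pow_S (hN : N.Prime) (h5 : 5 ≤ N) (τ : ℍ) :
    difProd N (ModularGroup.S • τ) ^ 6 * Δ (Curve.affinePt 1 N 0 τ) =
      ratioConst N * (N : ℂ) ^ 12 * (τ : ℂ) ^ (12 * (N - 1)) * Δ τ ^ N := by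
  have h := difProd_pow_mul hN h5 (ModularGroup.S • τ)
  rw [mulPt_S_smul, Curve.discriminant_smul, Curve.discriminant_smul, denom_S_affinePt,
    ModularGroup.denom_S, mul_pow, ← pow_mul,
    div_pow] at h
  have hτ := UpperHalfPlane.ne_zero τ
  have hN0 : (N : ℂ) ≠ 0 := NeZero.ne _
  have e : (τ : ℂ) ^ (12 * N) = (τ : ℂ) ^ 12 * (τ : ℂ) ^ (12 * (N - 1)) := by
    rw [← pow_add]; congr 1; have := NeZero.pos N; omega
  rw [e] at h
  field_simp at h
  refine mul_left_cancel₀ (pow_ne_zero 12 hτ) ?_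
  linear_combination (τ : ℂ) ^ 12 * h

/-- The holomorphic `n`-th root of `difProd ^ 6` and its multiplier. -/
private lemma exists_root_mult (hN : N.Prime) (h5 : 5 ≤ N) {n m : ℕ} (hn : 0 < n)
    (hnm : n * m = N - 1) :
    ∃ (φ : Gamma0 N →* ℂˣ) (v : ℍ → ℂ), MDiff v ∧ (∀ τ, v τ ^ n = difProd N τ ^ 6) ∧
      (∀ τ, v τ ≠ 0) ∧ φ ^ n = 1 ∧
      ∀ γ : Gamma0 N, v ∣[((2 * (6 * m) : ℕ) : ℤ)] (γ : SL(2, ℤ)) = fun τ => (φ γ : ℂ) * v τ := by
  have hne : ∀ τ, difProd N τ ^ 6 ≠ 0 := fun τ => pow_ne_zero _ (difProd_ne_zero hN h5 τ)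
  obtain ⟨v, hv, hvn⟩ := FermatAgent.ES.exists_root (mdiff_difProd_pow hN h5)
    (fun h => hne UpperHalfPlane.I (congrFun h _)) hn fun τ => ⟨0, by
      rw [mul_zero, Nat.cast_zero, vanishOrd, analyticOrderAt_eq_zero]
      exact Or.inr (by simpa [ofComplex_apply] using hne τ)⟩
  have hvn' : ∀ τ, v τ ^ n = difProd N τ ^ 6 := fun τ => congrFun hvn τ
  have hv0 : ∀ τ, v τ ≠ 0 := fun τ h => hne τ (by rw [← hvn' τ, h, zero_pow hn.ne'])
  set k : ℤ := ((2 * (6 * m) : ℕ) : ℤ)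
  have hpow : ∀ γ : Gamma0 N, (v ∣[k] (γ : SL(2, ℤ))) ^ n = v ^ n := fun γ => by
    funext τ
    have hd := UpperHalfPlane.denom_ne_zero ((γ : SL(2, ℤ)) : GL (Fin 2) ℝ) τ
    rw [Pi.pow_apply, Pi.pow_apply, ModularForm.SL_slash_apply, zpow_neg, zpow_natCast, mul_pow,
      hvn' _, hvn' τ, difProd_smul hN γ.2, mul_pow, ← pow_mul, inv_pow, ← pow_mul,
      show 2 * (6 * m) * n = 2 * (N - 1) * 6 by rw [← hnm]; ring]
    field_simp
  have hvne : v ≠ 0 := fun h => hv0 UpperHalfPlane.I (congrFun h _)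
  have hφ : ∀ γ : Gamma0 N, ∃ c : ℂˣ, c ^ n = 1 ∧
      ∀ τ, (v ∣[k] (γ : SL(2, ℤ))) τ = c * v τ := fun γ =>
    FermatAgent.ES.exists_eq_const_mul_of_pow_eq (hv.slash _ _) hv hn hvne (hpow γ)
  choose f hfn hf using hφ
  have hfmul : ∀ γ γ', f (γ * γ') = f γ * f γ' := fun γ γ' => by
    refine Units.ext (mul_right_cancel₀ (hv0 UpperHalfPlane.I) ?_)
    rw [← hf, Subgroup.coe_mul, SlashAction.slash_mul, funext (hf γ),
      show (fun τ => (f γ : ℂ) * v τ) = (f γ : ℂ) • v from rfl, ModularForm.SL_smul_slash,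
      Pi.smul_apply, hf, smul_eq_mul, Units.val_mul, mul_assoc]
  set φ : Gamma0 N →* ℂˣ := MonoidHom.mk' f hfmul
  have hsl : ∀ γ : Gamma0 N, v ∣[k] (γ : SL(2, ℤ)) = fun τ => (φ γ : ℂ) * v τ :=
    fun γ => funext (hf γ)
  exact ⟨φ, v, hv, hvn', hv0, MonoidHom.ext fun γ => by simpa [φ] using hfn γ, hsl⟩

/-- The behaviour of the root at the cusp `0`. -/
private lemma exists_tendsto_slash_S (hN : N.Prime) (h5 : 5 ≤ N) {n m : ℕ} (hn : 0 < n)
    (hnm : n * m = N - 1) {v : ℍ → ℂ} (hv : MDiff v) (hvn' : ∀ τ, v τ ^ n = difProd N τ ^ 6) :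
    ∃ b : ℂ, b ≠ 0 ∧
      Tendsto (fun τ => (v ∣[((2 * (6 * m) : ℕ) : ℤ)] ModularGroup.S) τ / qm N τ ^ (m * (N + 1)))
        atImInfty (𝓝 b) := by
  set k : ℤ := ((2 * (6 * m) : ℕ) : ℤ)
  set w : ℍ → ℂ := v ∣[k] ModularGroup.S
  set s : ℕ := m * (N + 1)
  set F : ℍ → ℂ := fun τ => w τ / qm N τ ^ s
  have hq : ∀ τ, qm N τ ≠ 0 := fun τ => Complex.exp_ne_zero _
  have hwc : Continuous w := (hv.slash _ _).continuous
  have hFc : Continuous F := hwc.div₀
    ((FermatAgent.ES.HasExp.qm_pow (M := N) s).mdifferentiable.continuous)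
    fun τ => pow_ne_zero _ (hq τ)
  obtain ⟨b, hb, hFlim, -⟩ := ES.exists_tendsto_of_pow hFc hn
    (c := ratioConst N * (N : ℂ) ^ 12)
    (mul_ne_zero (ratioConst_ne_zero hN h5) (pow_ne_zero _ (NeZero.ne _))) (by
      have h1 := ((tendsto_delta_div_q.pow N).div (tendsto_delta_div_affinePt (N := N))
        one_ne_zero).const_mul (ratioConst N * (N : ℂ) ^ 12)
      rw [one_pow, div_one, mul_one] at h1
      refine h1.congr fun τ => ?_
      have hΔ := ModularForm.discriminant_ne_zero (Curve.affinePt 1 N 0 τ)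
      have hτ := UpperHalfPlane.ne_zero τ
      have hS := difProd_pow_S hN h5 τ
      have hden : UpperHalfPlane.denom ModularGroup.S τ = τ := by
        rw [ModularGroup.denom_apply]; simp [ModularGroup.S]
      have e1 : 2 * (6 * m) * n = 12 * (N - 1) := by rw [← hnm]; ring
      have e2 : s * n + 1 = N * N := by
        obtain ⟨N', rfl⟩ : ∃ N', N = N' + 1 := ⟨N - 1, by have := NeZero.pos N; omega⟩
        rw [show s = m * (N' + 1 + 1) from rfl]
        simp only [Nat.add_sub_cancel] at hnm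
        rw [← hnm]; ring
      simp only [F, w, Pi.div_apply, ModularForm.SL_slash_apply, hden, zpow_natCast,
        k, zpow_neg, div_pow, mul_pow, inv_pow, ← pow_mul, e1, hvn',
        show Curve.qw 1 τ = qm N τ ^ N from Curve.qw_eq_pow N τ]
      have hqN := hq τ
      rw [eq_div_iff (pow_ne_zero _ hqN)]
      field_simp
      rw [← e2, pow_succ]
      linear_combination -(qm N τ ^ (s * n) * qm N τ) * hS)
  exact ⟨b, hb, hFlim⟩

omit [NeZero N] in
/-- The multiplier of a form with nonzero limit at `∞` is trivial on `T`. -/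
private lemma mult_T {k : ℤ} {φ : Gamma0 N →* ℂˣ} {v : ℍ → ℂ}
    (hsl : ∀ γ : Gamma0 N, v ∣[k] (γ : SL(2, ℤ)) = fun τ => (φ γ : ℂ) * v τ) {a : ℂ} (ha : a ≠ 0)
    (hvlim : Tendsto v atImInfty (𝓝 a)) :
    φ ⟨ModularGroup.T, (goodLevel_Gamma0 N).T_mem⟩ = 1 := by
  refine Units.ext (mul_right_cancel₀ ha (tendsto_nhds_unique
    (hvlim.const_mul (φ ⟨ModularGroup.T, (goodLevel_Gamma0 N).T_mem⟩ : ℂ)) ?_))
  rw [Units.val_one, one_mul]
  refine (hvlim.comp (tendsto_vadd_atImInfty 1)).congr fun τ => ?_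
  rw [← congrFun (hsl _) τ]
  show v ((1 : ℝ) +ᵥ τ) = (v ∣[k] (ModularGroup.T : SL(2, ℤ))) τ
  rw [← zpow_one (ModularGroup.T : SL(2, ℤ)), FermatAgent.ES.slash_T_zpow, Int.cast_one]

omit [NeZero N] in
/-- The multiplier of a form of even weight does not see signs. -/
private lemma mult_neg {j : ℕ} {φ : Gamma0 N →* ℂˣ} {v : ℍ → ℂ} (hv0 : ∀ τ, v τ ≠ 0)
    (hsl : ∀ γ : Gamma0 N, v ∣[((2 * j : ℕ) : ℤ)] (γ : SL(2, ℤ)) = fun τ => (φ γ : ℂ) * v τ)
    {γ : SL(2, ℤ)} (h : -γ ∈ Gamma0 N) (h' : γ ∈ Gamma0 N) : φ ⟨-γ, h⟩ = φ ⟨γ, h'⟩ := by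
  refine Units.ext (mul_right_cancel₀ (hv0 UpperHalfPlane.I) ?_)
  rw [← congrFun (hsl ⟨-γ, h⟩), ← congrFun (hsl ⟨γ, h'⟩)]
  simp only [FermatAgent.ES.slash_even_neg]

/-- The multiplier is trivial on the stabiliser of the cusp `0`, the form having a nonzero limit
there after division by a power of the parameter. -/
private lemma mult_conj_S {k : ℤ} {φ : Gamma0 N →* ℂˣ} {v : ℍ → ℂ}
    (hsl : ∀ γ : Gamma0 N, v ∣[k] (γ : SL(2, ℤ)) = fun τ => (φ γ : ℂ) * v τ) {s : ℕ} {b : ℂ}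
    (hb : b ≠ 0) (hFlim : Tendsto (fun τ => (v ∣[k] ModularGroup.S) τ / qm N τ ^ s) atImInfty (𝓝 b))
    (j : ℤ) (h : ModularGroup.S * ModularGroup.T ^ j * ModularGroup.S⁻¹ ∈ Gamma0 N) :
    φ ⟨_, h⟩ = 1 := by
  set w : ℍ → ℂ := v ∣[k] ModularGroup.S
  set F : ℍ → ℂ := fun τ => w τ / qm N τ ^ s
  have hj : ((j : ℤ) : ZMod N) = 0 := by
    have := CongruenceSubgroup.Gamma0_mem.1 h
    simpa [Matrix.SpecialLinearGroup.coe_mul, Matrix.SpecialLinearGroup.coe_inv,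
      ModularGroup.coe_T_zpow, ModularGroup.coe_S, Matrix.adjugate_fin_two, Matrix.mul_apply,
      Fin.sum_univ_two] using this
  obtain ⟨i, rfl⟩ := (ZMod.intCast_zmod_eq_zero_iff_dvd _ N).1 hj
  refine Units.ext (mul_right_cancel₀ hb (tendsto_nhds_unique
    (hFlim.const_mul (φ ⟨_, h⟩ : ℂ)) ?_))
  rw [Units.val_one, one_mul]
  refine (hFlim.comp (tendsto_vadd_atImInfty (((N : ℤ) * i : ℤ) : ℝ))).congr fun τ => ?_
  have h1 : w ∣[k] (ModularGroup.T ^ ((N : ℤ) * i)) = fun τ => (φ ⟨_, h⟩ : ℂ) * w τ := by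
    simp only [w]
    have e : v ∣[k] (ModularGroup.S * ModularGroup.T ^ ((N : ℤ) * i)) =
        v ∣[k] ((ModularGroup.S * ModularGroup.T ^ ((N : ℤ) * i) * ModularGroup.S⁻¹) *
          ModularGroup.S) := congrArg (v ∣[k] ·) (by group)
    rw [← SlashAction.slash_mul, e, SlashAction.slash_mul, hsl ⟨_, h⟩,
      show (fun τ => (φ ⟨_, h⟩ : ℂ) * v τ) = (φ ⟨_, h⟩ : ℂ) • v from rfl,
      ModularForm.SL_smul_slash]
    rfl
  have h2 := congrFun h1 τ
  rw [FermatAgent.ES.slash_T_zpow] at h2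
  simp only [Function.comp_apply, F, FermatAgent.ES.qm_vadd_int]
  simp only at h2
  generalize (φ ⟨_, h⟩ : ℂ) = cφ at h2 ⊢
  rw [show w ((((N : ℤ) * i : ℤ) : ℝ) +ᵥ τ) = _ from h2, zpow_mul, zpow_natCast,
    (FermatAgent.ES.zetaC_isPrimitiveRoot N).pow_eq_one, one_zpow, one_mul, mul_div_assoc]

/-- A multiplier trivial at both cusps, up to sign, is parabolic. -/
private lemma isParChar_of_cusps (hN : N.Prime) {φ : Gamma0 N →* ℂˣ}
    (hT1 : φ ⟨ModularGroup.T, (goodLevel_Gamma0 N).T_mem⟩ = 1)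
    (hneg : ∀ (γ : SL(2, ℤ)) (h : -γ ∈ Gamma0 N) (h' : γ ∈ Gamma0 N), φ ⟨-γ, h⟩ = φ ⟨γ, h'⟩)
    (hST : ∀ (j : ℤ) (h : ModularGroup.S * ModularGroup.T ^ j * ModularGroup.S⁻¹ ∈ Gamma0 N),
      φ ⟨_, h⟩ = 1) :
    IsParChar (Gamma0 N) φ := by
  intro γ hγ
  obtain ⟨δ, j, hc | hc⟩ := FermatAgent.ES.exists_conj_T_of_trace hγ <;>
  · have key : ∀ (h : δ * ModularGroup.T ^ j * δ⁻¹ ∈ Gamma0 N), φ ⟨_, h⟩ = 1 := by
      intro h
      obtain ⟨g, hg, rfl | ⟨i, rfl⟩⟩ := exists_cusp_form hN δ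
      · have e : (⟨_, h⟩ : Gamma0 N) = ⟨δ, hg⟩ *
            (⟨ModularGroup.T, (goodLevel_Gamma0 N).T_mem⟩ : Gamma0 N) ^ j * ⟨δ, hg⟩⁻¹ :=
          Subtype.ext (by simp)
        rw [e, map_mul, map_mul, map_zpow, hT1, one_zpow, mul_one, map_inv, mul_inv_cancel]
      · have e0 : g * (ModularGroup.S * ModularGroup.T ^ i) * ModularGroup.T ^ j *
            (g * (ModularGroup.S * ModularGroup.T ^ i))⁻¹ =
            g * (ModularGroup.S * ModularGroup.T ^ j * ModularGroup.S⁻¹) * g⁻¹ := by group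
        have h' : ModularGroup.S * ModularGroup.T ^ j * ModularGroup.S⁻¹ ∈ Gamma0 N := by
          rw [e0] at h
          have := mul_mem (mul_mem (inv_mem hg) h) hg
          simpa [mul_assoc] using this
        have e : (⟨_, h⟩ : Gamma0 N) = ⟨g, hg⟩ * ⟨_, h'⟩ * ⟨g, hg⟩⁻¹ :=
          Subtype.ext (by simpa using e0)
        rw [e, map_mul, map_mul, hST j h', mul_one, map_inv, mul_inv_cancel]
    first
      | exact (congrArg φ (Subtype.ext hc)).trans (key (hc ▸ γ.2))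
      | exact ((hneg _ ((goodLevel_Gamma0 N).neg_mem |> fun h1 => by
          simpa using mul_mem h1 γ.2) γ.2).symm.trans (congrArg φ (Subtype.ext hc))).trans
          (key (hc ▸ by simpa using mul_mem (goodLevel_Gamma0 N).neg_mem γ.2))

/-- **The root and its multiplier**: for `n m = N - 1` the sixth power of the product of differences
is the `n`-th power of a form with a parabolic multiplier of order dividing `n`. -/
theorem exists_eis_twist (hN : N.Prime) (h5 : 5 ≤ N) {n m : ℕ} (hn : 0 < n) (hnm : n * m = N - 1) :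
    ∃ (φ : Gamma0 N →* ℂˣ) (v : ℍ → ℂ), φ ^ n = 1 ∧ IsParChar (Gamma0 N) φ ∧
      IsTwist (Gamma0 N) ((2 * (6 * m) : ℕ) : ℤ) φ v ∧ v ≠ 0 ∧
      (v ^ n = fun τ => difProd N τ ^ 6) ∧
      ∀ (γ : Gamma0 N) (τ₀ : ℍ), (γ : SL(2, ℤ)) • τ₀ = τ₀ → φ γ = 1 := by
  obtain ⟨φ, v, hv, hvn', hv0, hφn, hsl⟩ := exists_root_mult hN h5 hn hnm
  set k : ℤ := ((2 * (6 * m) : ℕ) : ℤ)
  have hvne : v ≠ 0 := fun h => hv0 UpperHalfPlane.I (congrFun h _)
  -- the two cusps
  obtain ⟨a, ha, hvlim, -⟩ := ES.exists_tendsto_of_pow hv.continuous hn (ratioConst_ne_zero hN h5)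
    ((tendsto_difProd_pow hN h5).congr fun τ => (hvn' τ).symm)
  obtain ⟨b, hb, hFlim⟩ := exists_tendsto_slash_S hN h5 hn hnm hv hvn'
  have hpar : IsParChar (Gamma0 N) φ := isParChar_of_cusps hN (mult_T hsl ha hvlim)
    (fun γ h h' => mult_neg hv0 hsl h h') (mult_conj_S hsl hb hFlim)
  -- boundedness
  set w : ℍ → ℂ := v ∣[k] ModularGroup.S
  have hwb : IsBoundedAtImInfty w := by
    have h1 := hFlim.mul ((FermatAgent.ES.HasExp.qm_pow (M := N) (m * (N + 1))).tendsto_atImInfty)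
    refine Tendsto.isBigO_one ℝ (h1.congr fun τ => ?_)
    exact div_mul_cancel₀ _ (pow_ne_zero _ (Complex.exp_ne_zero _))
  refine ⟨φ, v, hφn, hpar,
    ⟨hv, hsl, fun γ => ?_⟩, hvne, funext hvn', fun γ τ₀ hfix => ?_⟩
  · obtain ⟨g, hg, rfl | ⟨j, rfl⟩⟩ := exists_cusp_form hN γ
    · rw [hsl ⟨γ, hg⟩]
      exact Tendsto.isBigO_one ℝ (hvlim.const_mul _)
    · rw [SlashAction.slash_mul, hsl ⟨g, hg⟩,
        show (fun τ => (φ ⟨g, hg⟩ : ℂ) * v τ) = (φ ⟨g, hg⟩ : ℂ) • v from rfl,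
        ModularForm.SL_smul_slash, SlashAction.slash_mul]
      refine Asymptotics.IsBigO.const_smul_left ?_ _
      rw [← zpow_natCast, FermatAgent.ES.slash_T_zpow]
      exact hwb.comp_tendsto (tendsto_vadd_atImInfty _)
  · have hd : UpperHalfPlane.denom (γ : SL(2, ℤ)) τ₀ ^ 12 = 1 := by
      have h := Curve.discriminant_smul (γ : SL(2, ℤ)) τ₀
      rw [hfix] at h
      exact (mul_eq_right₀ (ModularForm.discriminant_ne_zero τ₀)).1 h.symm
    refine Units.ext (mul_right_cancel₀ (hv0 τ₀) ?_)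
    rw [← congrFun (hsl γ) τ₀, ModularForm.SL_slash_apply, hfix, zpow_neg, zpow_natCast,
      show 2 * (6 * m) = 12 * m by ring, pow_mul, hd]
    simp

end FermatAgent.Mazur

end
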