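import Fermat.Agent.Mazur.GInf
import Fermat.Agent.ES.Hecke.Commute

/-!
# Hecke operators on the limit series

`δ_m (T_q ψ) = δ_{qm} ψ + q δ_{m/q} ψ` for primes `q` not dividing the level, and
`δ_m (U_q ψ) = δ_{qm} ψ` for primes dividing it.
-/

set_option autoImplicit false

noncomputable section

open HahnSeries (ofPowerSeries)
open scoped Classical MatrixGroups ModularForm
open UpperHalfPlane (qExpansion)
open scoped UpperHalfPlane
open CongruenceSubgroup (Gamma0)

namespace FermatAgent.Mazur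

open FermatAgent.ES (parGroup padChar IsTwist HasExp heckeChar prodShift transferFun
  goodLevel_Gamma0 charOp zetaC)
open FermatAgent.Curve (rotate jField)
open ModularCurve ModularCurve.Period
open P2MW.S_ModularForm_heckeT_slash_eq_self_of_mem_Gamma0.ModularForm (heckeMatrix heckeDiagMatrix)

local notation "Qbar" => AlgebraicClosure ℚ
local notation "psQ" => HahnSeries.ofPowerSeries ℤ (AlgebraicClosure ℚ)

attribute [local instance] embAlg

variable {ℓ : ℕ} [hℓ : Fact ℓ.Prime]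

local notation "LS" => LaurentSeries ℂ_[ℓ]
local notation "PS" => PowerSeries ℂ_[ℓ]

/-! ### Substitutions on decompositions -/

lemma rotate_ofPowerSeries {K : Type*} [Field K] {a : K} (ha : a ≠ 0) (G : PowerSeries K) :
    rotate ha (ofPowerSeries ℤ K G) = ofPowerSeries ℤ K (PowerSeries.rescale a G) := by
  ext j
  rw [Curve.coeff_rotate]
  rcases lt_or_ge j 0 with hj | hj
  · rw [ofPowerSeries_coeff_of_neg _ hj, ofPowerSeries_coeff_of_neg _ hj, mul_zero]
  · lift j to ℕ using hj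
    rw [HahnSeries.ofPowerSeries_apply_coeff, HahnSeries.ofPowerSeries_apply_coeff,
      PowerSeries.coeff_rescale, zpow_natCast]

lemma rotate_single {K : Type*} [Field K] {a : K} (ha : a ≠ 0) (k : ℤ) (c : K) :
    rotate ha (HahnSeries.single k c) = HahnSeries.single k (a ^ k * c) := by
  ext j
  rw [Curve.coeff_rotate]
  rcases eq_or_ne j k with rfl | hj
  · simp
  · simp [HahnSeries.coeff_single_of_ne hj]

lemma qExpand_ofPowerSeries {K : Type*} [CommRing K] (d : ℕ) [NeZero d] (G : PowerSeries K) :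
    qExpand K d (ofPowerSeries ℤ K G) =
      ofPowerSeries ℤ K (PowerSeries.expand d (NeZero.ne d) G) := by
  ext k
  by_cases hk : (d : ℤ) ∣ k
  · obtain ⟨i, rfl⟩ := hk
    rw [qExpand_coeff_mul]
    rcases lt_or_ge i 0 with hi | hi
    · rw [ofPowerSeries_coeff_of_neg _ hi, ofPowerSeries_coeff_of_neg _
        (mul_neg_of_pos_of_neg (by exact_mod_cast Nat.pos_of_ne_zero (NeZero.ne d)) hi)]
    · lift i to ℕ using hi
      rw [← Nat.cast_mul, HahnSeries.ofPowerSeries_apply_coeff,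
        HahnSeries.ofPowerSeries_apply_coeff, PowerSeries.coeff_expand_mul]
  · rw [qExpand_coeff_of_not_dvd _ _ hk]
    rcases lt_or_ge k 0 with hk0 | hk0
    · rw [ofPowerSeries_coeff_of_neg _ hk0]
    · lift k to ℕ using hk0
      rw [HahnSeries.ofPowerSeries_apply_coeff, PowerSeries.coeff_expand_of_not_dvd]
      exact fun h => hk (Int.natCast_dvd_natCast.2 h)

/-- `G` is the one-unit part of the decomposable `F`. -/
def IsDecG (F : LS) (G : PS) : Prop := IsDec F ∧ decG F = G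

lemma IsDecG.of_hasDec {F : LS} {c : ℂ_[ℓ]} {e : ℤ} {G : PS} {Z : ℂ_[ℓ] →₀ ℤ}
    (h : HasDec F c e G Z) : IsDecG F G :=
  ⟨⟨c, e, G, Z, h⟩, decG_eq h⟩

lemma IsDecG.one : IsDecG (1 : LS) 1 := .of_hasDec HasDec.one

lemma IsDecG.mul {F F' : LS} {G G' : PS} (h : IsDecG F G) (h' : IsDecG F' G') :
    IsDecG (F * F') (G * G') :=
  ⟨h.1.mul h'.1, by rw [decG_mul h.1 h'.1, h.2, h'.2]⟩

lemma IsDecG.zpow {F : LS} (h : IsDecG F 1) (k : ℤ) : IsDecG (F ^ k) 1 := by
  have hp : ∀ n : ℕ, IsDecG (F ^ n) 1 := fun n => ⟨h.1.pow n, by rw [decG_pow h.1, h.2, one_pow]⟩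
  obtain ⟨n, rfl | rfl⟩ := Int.eq_nat_or_neg k
  · rw [zpow_natCast]; exact hp n
  · rw [zpow_neg, zpow_natCast]
    exact ⟨(hp n).1.inv, by rw [decG_inv (hp n).1, (hp n).2]; simp⟩

lemma IsDecG.prod {ι : Type*} (s : Finset ι) {F : ι → LS} {G : ι → PS}
    (h : ∀ i ∈ s, IsDecG (F i) (G i)) : IsDecG (∏ i ∈ s, F i) (∏ i ∈ s, G i) := by
  induction s using Finset.induction_on with
  | empty => rw [Finset.prod_empty, Finset.prod_empty]; exact IsDecG.one
  | insert a s ha ih =>
    rw [Finset.prod_insert ha, Finset.prod_insert ha]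
    exact (h a (Finset.mem_insert_self a s)).mul
      (ih fun i hi => h i (Finset.mem_insert_of_mem hi))

lemma IsDecG.single (k : ℤ) {a : ℂ_[ℓ]} (ha : a ≠ 0) : IsDecG (HahnSeries.single k a : LS) 1 :=
  .of_hasDec (c := a) (e := k) (Z := 0)
    ⟨by simp [decS, linProdS_zero], ha, IsP1.one, by simp⟩

lemma IsDecG.ofP1 {G : PS} (hG : IsP1 G) : IsDecG (ofPowerSeries ℤ ℂ_[ℓ] G) G :=
  .of_hasDec (c := 1) (e := 0) (Z := 0)
    ⟨by simp [decS, linProdS_zero], one_ne_zero, hG, by simp⟩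

lemma IsDecG.lin {ρ : ℂ_[ℓ]} (h0 : ρ ≠ 0) (h1 : ‖ρ‖ < 1) : IsDecG (linS ρ) 1 :=
  .of_hasDec (c := 1) (e := 0) (Z := Finsupp.single ρ 1)
    ⟨by simp [decS, linProdS_single], one_ne_zero, IsP1.one, fun σ hσ => by
      rw [Finset.mem_singleton.1 (Finsupp.support_single_subset hσ)]
      exact ⟨h0, h1⟩⟩

/-- A substitution mapping the three kinds of factors correctly maps decompositions. -/
lemma IsDecG.map_of_factors {F : LS} {G : PS} (h : IsDecG F G) (T : LS →+* LS) (t : PS → PS)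
    (hs : ∀ (k : ℤ) (a : ℂ_[ℓ]), a ≠ 0 → IsDecG (T (HahnSeries.single k a)) 1)
    (hG : ∀ G, IsP1 G → IsDecG (T (ofPowerSeries ℤ ℂ_[ℓ] G)) (t G))
    (hl : ∀ ρ : ℂ_[ℓ], ρ ≠ 0 → ‖ρ‖ < 1 → IsDecG (T (linS ρ)) 1) :
    IsDecG (T F) (t G) := by
  obtain ⟨⟨c, e, G', Z, hd⟩, hFG⟩ := h
  rw [decG_eq hd] at hFG
  subst hFG
  rw [hd.eq, decS, map_mul, map_mul, linProdS, Finsupp.prod, map_prod]
  have h1 := ((hs e c hd.ne).mul (hG _ hd.unit)).mul
    (IsDecG.prod Z.support (F := fun ρ => T (linS ρ ^ Z ρ)) (G := fun _ => 1) fun ρ hρ => by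
      rw [map_zpow₀]
      exact (hl ρ (hd.disc ρ hρ).1 (hd.disc ρ hρ).2).zpow _)
  rwa [one_mul, Finset.prod_const_one, mul_one] at h1

lemma IsP1.expand' {G : PS} (hG : IsP1 G) (d : ℕ) [NeZero d] :
    IsP1 (PowerSeries.expand d (NeZero.ne d) G) := hG.expand (NeZero.ne d)

theorem IsDecG.expand {F : LS} {G : PS} (h : IsDecG F G) (d : ℕ) [NeZero d] :
    IsDecG (qExpand ℂ_[ℓ] d F) (PowerSeries.expand d (NeZero.ne d) G) := by
  refine h.map_of_factors (qExpand ℂ_[ℓ] d) (fun G => PowerSeries.expand d (NeZero.ne d) G)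
    (fun k a ha => by rw [qExpand_single]; exact IsDecG.single _ ha)
    (fun G hG => by rw [qExpand_ofPowerSeries]; exact IsDecG.ofP1 (hG.expand' d)) fun ρ h0 h1 => ?_
  set p : Polynomial ℂ_[ℓ] := Polynomial.X ^ d - Polynomial.C ρ
  have hp : p = (p.roots.map fun σ => Polynomial.X - Polynomial.C σ).prod := by
    conv_lhs => rw [← Polynomial.C_leadingCoeff_mul_prod_multiset_X_sub_C (p := p)
      (Polynomial.splits_iff_card_roots.1 (IsAlgClosed.splits p))]
    rw [(Polynomial.monic_X_pow_sub_C ρ (NeZero.ne d)).leadingCoeff, map_one, one_mul]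
  have hroots : ∀ σ ∈ p.roots, σ ≠ 0 ∧ ‖σ‖ < 1 := by
    intro σ hσ
    rw [Polynomial.mem_roots', Polynomial.IsRoot.def] at hσ
    simp only [p, Polynomial.eval_sub, Polynomial.eval_pow, Polynomial.eval_X, Polynomial.eval_C,
      sub_eq_zero] at hσ
    refine ⟨fun h => h0 (by rw [← hσ.2, h, zero_pow (NeZero.ne d)]), ?_⟩
    by_contra! hle
    rw [← hσ.2, norm_pow] at h1
    exact absurd h1 (one_le_pow₀ hle).not_gt
  have he : qExpand ℂ_[ℓ] d (linS ρ) =
      (p.roots.map fun σ => linS σ).prod := by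
    have h2 : qExpand ℂ_[ℓ] d (linS ρ) = ofPowerSeries ℤ ℂ_[ℓ] (p : PS) := by
      rw [linS, qExpand_ofPowerSeries]
      simp [p, map_sub, PowerSeries.expand_X, PowerSeries.expand_C]
    rw [h2, hp, ← Polynomial.coeToPowerSeries.ringHom_apply, map_multiset_prod,
      map_multiset_prod, Multiset.map_map, Multiset.map_map, ← hp]
    refine congrArg Multiset.prod (Multiset.map_congr rfl fun σ _ => ?_)
    simp [linS, Polynomial.coeToPowerSeries.ringHom_apply]
  rw [he]
  clear he hp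
  revert hroots
  generalize p.roots = s
  intro hroots
  induction s using Multiset.induction_on with
  | empty => simpa using IsDecG.one (ℓ := ℓ)
  | cons σ s ih =>
    rw [Multiset.map_cons, Multiset.prod_cons, ← one_mul (1 : PS)]
    exact (IsDecG.lin (hroots σ (Multiset.mem_cons_self σ s)).1
      (hroots σ (Multiset.mem_cons_self σ s)).2).mul
      (ih fun τ hτ => hroots τ (Multiset.mem_cons_of_mem hτ))

theorem IsDecG.rotate {F : LS} {G : PS} (h : IsDecG F G) {a : ℂ_[ℓ]} (ha : a ≠ 0)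
    (ha1 : ‖a‖ = 1) : IsDecG (Curve.rotate ha F) (PowerSeries.rescale a G) := by
  refine h.map_of_factors (Curve.rotate ha) (PowerSeries.rescale a)
    (fun k c hc => by
      rw [rotate_single]; exact IsDecG.single _ (mul_ne_zero (zpow_ne_zero _ ha) hc))
    (fun G hG => by rw [rotate_ofPowerSeries]; exact IsDecG.ofP1 (hG.rescale ha1.le))
    fun ρ h0 h1 => ?_
  have he : Curve.rotate ha (linS ρ) = HahnSeries.single (0 : ℤ) a * linS (ρ / a) := by
    rw [linS, linS, map_sub, map_sub, map_sub, mul_sub, HahnSeries.ofPowerSeries_X,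
      HahnSeries.ofPowerSeries_C, HahnSeries.ofPowerSeries_C, HahnSeries.C_apply,
      HahnSeries.C_apply, rotate_single, rotate_single, HahnSeries.single_mul_single,
      HahnSeries.single_mul_single]
    simp [mul_div_cancel₀ _ ha]
  rw [he, ← one_mul (1 : PS)]
  exact (IsDecG.single 0 ha).mul
    (IsDecG.lin (div_ne_zero h0 ha) (by rw [norm_div, ha1, div_one]; exact h1))

/-! ### Transfers of multiplier series -/

variable {N : ℕ}

/-- The product of the rotations. -/
def rotProd (q : ℕ) [NeZero q] {K : Type*} [Field K] {ζ : K} (hζ : ζ ≠ 0) (F : LaurentSeries K) :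
    LaurentSeries K :=
  ∏ j : ZMod q, rotate (pow_ne_zero j.val hζ) F

lemma rotProd_ofPowerSeries (q : ℕ) [NeZero q] {K : Type*} [Field K] {ζ : K} (hζ : ζ ≠ 0)
    (c : PowerSeries K) :
    rotProd q hζ (ofPowerSeries ℤ K c) =
      ofPowerSeries ℤ K (∏ j : ZMod q, PowerSeries.rescale (ζ ^ j.val) c) := by
  rw [rotProd, map_prod]
  exact Finset.prod_congr rfl fun j _ => rotate_ofPowerSeries _ c

lemma rotProd_mul (q : ℕ) [NeZero q] {K : Type*} [Field K] {ζ : K} (hζ : ζ ≠ 0)
    (F F' : LaurentSeries K) : rotProd q hζ (F * F') = rotProd q hζ F * rotProd q hζ F' := by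
  simp only [rotProd, map_mul, Finset.prod_mul_distrib]

/-- A primitive `q`-th root of unity in `ℚ̄` with image the standard one. -/
lemma exists_qbar_zeta (q : ℕ) [NeZero q] :
    ∃ ζ : Qbar, algebraMap Qbar ℂ ζ = zetaC q ∧ IsPrimitiveRoot ζ q := by
  have h := FermatAgent.ES.zetaC_isPrimitiveRoot q
  have hint : IsIntegral ℚ (zetaC q) :=
    ⟨Polynomial.X ^ q - 1, by simpa using Polynomial.monic_X_pow_sub_C (1 : ℚ) (NeZero.ne q),
      by simp [h.pow_eq_one]⟩
  obtain ⟨y, hy⟩ := FermatAgent.ES.exists_embC_eq hint.isAlgebraic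
  exact ⟨y, hy, IsPrimitiveRoot.of_map_of_injective (f := (algebraMap Qbar ℂ))
    (by rwa [show algebraMap Qbar ℂ y = zetaC q from hy]) (algebraMap Qbar ℂ).injective⟩

lemma psC_injective : Function.Injective (psC : PowerSeries Qbar → PowerSeries ℂ) :=
  PowerSeries.map_injective _ (algebraMap Qbar ℂ).injective

/-- A series of period `q` in the image of a `q`-periodic expansion. -/
lemma exists_descend_period (q : ℕ) (hq : q ≠ 0) {U : PowerSeries ℂ} {P : PowerSeries Qbar}
    (h : PowerSeries.expand q hq U = psC P) :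
    ∃ U' : PowerSeries Qbar, psC U' = U ∧ PowerSeries.expand q hq U' = P := by
  set U' : PowerSeries Qbar := PowerSeries.mk fun m => PowerSeries.coeff (q * m) P
  have hU : psC U' = U := PowerSeries.ext fun m => by
    rw [PowerSeries.coeff_map, PowerSeries.coeff_mk, ← PowerSeries.coeff_map, ← h,
      PowerSeries.coeff_expand_mul]
  refine ⟨U', hU, psC_injective ?_⟩
  rw [← h, ← hU, PowerSeries.map_expand]

variable [NeZero N]

omit [NeZero N] in
/-- The series of the transfer of a function with multiplier. -/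
theorem IsMult.hecke {q : ℕ} [NeZero q] (hq : q.Prime) {ζ : Qbar}
    (hζ : algebraMap Qbar ℂ ζ = zetaC q) (hζ0 : ζ ≠ 0) {n : ℕ} (φ : parGroup (Gamma0 N) n)
    {S : LaurentSeries Qbar} (hS : IsMult N (φ : Gamma0 N →* ℂˣ) S) :
    ∃ S', IsMult N (heckeChar N hq (φ : Gamma0 N →* ℂˣ)) S' ∧
      qExpand Qbar q S' = (if q ∣ N then 1 else qExpand Qbar q (qExpand Qbar q S)) *
        rotProd q hζ0 S := by
  have : Fact q.Prime := ⟨hq⟩
  obtain ⟨i, v, u, c, d, hv, hv0, hu, hu0, hc, hd, he⟩ := hS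
  have hT := (goodLevel_Gamma0 N).T_mem
  have hps : ∀ c : PowerSeries Qbar, psC (∏ j : ZMod q, PowerSeries.rescale (ζ ^ j.val) c) =
      prodShift q (psC c) := fun c => by
    rw [prodShift, map_prod]
    refine Finset.prod_congr rfl fun j _ => ?_
    ext e
    rw [PowerSeries.coeff_map, PowerSeries.coeff_rescale, PowerSeries.coeff_rescale,
      PowerSeries.coeff_map, map_mul, map_pow, map_pow, hζ]
  have hpne : ∀ c : PowerSeries Qbar, c ≠ 0 →
      ∏ j : ZMod q, PowerSeries.rescale (ζ ^ j.val) c ≠ 0 := fun c hc h => by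
    refine FermatAgent.ES.prodShift_ne_zero (ℓ := q) (c := psC c) ?_ (by rw [← hps, h, map_zero])
    exact fun h0 => hc (psC_injective (h0.trans (map_zero _).symm))
  -- one transfer
  have main : ∀ {ι : Type} [Fintype ι] (D : Period.TransferData (Gamma0 N) ι)
      (hD : ∀ x i j, ∃ z : ℤ, (D.rep x : Matrix (Fin 2) (Fin 2) ℝ) i j = z)
      (P : PowerSeries Qbar → PowerSeries Qbar) (C : ℂ),
      (∀ (v : ℍ → ℂ) c, HasExp 1 v (psC c) →
        HasExp q (C • transferFun D ((2 * i : ℕ) : ℤ) v) (psC (P c))) →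
      (∀ c, c ≠ 0 → P c ≠ 0) →
      ∃ (i' : ℕ) (v' u' : ℍ → ℂ) (c' d' : PowerSeries Qbar),
        IsTwist (Gamma0 N) ((2 * i' : ℕ) : ℤ) (charOp D (φ : Gamma0 N →* ℂˣ)) v' ∧ v' ≠ 0 ∧
        IsTwist (Gamma0 N) ((2 * i' : ℕ) : ℤ) 1 u' ∧ u' ≠ 0 ∧
        HasExp 1 v' (psC c') ∧ HasExp 1 u' (psC d') ∧
        PowerSeries.expand q hq.ne_zero c' = P c ∧ PowerSeries.expand q hq.ne_zero d' = P d := by
    intro ι _ D hD P C hP hP0
    have hw : ((2 * i : ℕ) : ℤ) * (Fintype.card ι : ℤ) = ((2 * (i * Fintype.card ι) : ℕ) : ℤ) := by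
      push_cast; ring
    have one : ∀ (χ : parGroup (Gamma0 N) n) (v : ℍ → ℂ) (c : PowerSeries Qbar),
        IsTwist (Gamma0 N) ((2 * i : ℕ) : ℤ) (χ : Gamma0 N →* ℂˣ) v → v ≠ 0 →
        HasExp 1 v (psC c) → ∃ (v' : ℍ → ℂ) (c' : PowerSeries Qbar),
          IsTwist (Gamma0 N) ((2 * (i * Fintype.card ι) : ℕ) : ℤ)
            (charOp D (χ : Gamma0 N →* ℂˣ)) v' ∧ v' ≠ 0 ∧
          HasExp 1 v' (psC c') ∧ PowerSeries.expand q hq.ne_zero c' = P c := by
      intro χ v c hv hv0 hc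
      have hu := (hv.transfer D hD).smul C
      rw [hw] at hu
      have hU := FermatAgent.ES.hasExp_one_twist hT (FermatAgent.ES.isParChar_charOp D χ.2.2) hu
      have hexp : HasExp q (C • transferFun D ((2 * i : ℕ) : ℤ) v)
          (PowerSeries.expand q hq.ne_zero
            (qExpansion ((1 : ℕ) : ℝ) (C • transferFun D ((2 * i : ℕ) : ℤ) v))) := by
        have := hU.expand hq.ne_zero
        rwa [mul_one] at this
      obtain ⟨c', hc'1, hc'2⟩ := exists_descend_period q hq.ne_zero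
        (hexp.series_unique (hP v c hc))
      refine ⟨_, c', hu, fun h => ?_, hc'1 ▸ hU, hc'2⟩
      refine hP0 c (fun h0 => hv0 ?_) (psC_injective ?_)
      · rw [h0, map_zero] at hc
        exact hc.eq_of_series HasExp.zero
      · rw [map_zero]
        exact (hP v c hc).series_unique (h ▸ HasExp.zero)
    obtain ⟨v', c', h1, h2, h3, h4⟩ := one φ v c hv hv0 hc
    obtain ⟨u', d', k1, k2, k3, k4⟩ := one 1 u d hu hu0 hd
    have e1 : charOp D ((1 : parGroup (Gamma0 N) n) : Gamma0 N →* ℂˣ) = 1 := by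
      refine MonoidHom.ext fun γ => ?_
      simp [FermatAgent.ES.charOp_apply]
    rw [e1] at k1
    exact ⟨_, v', u', c', d', h1, h2, k1, k2, h3, k3, h4, k4⟩
  have finish : ∀ {c' d' : PowerSeries Qbar} (A : LaurentSeries Qbar →+* LaurentSeries Qbar),
      psQ d' ≠ 0 →
      psQ (PowerSeries.expand q hq.ne_zero c') = A (psQ c) * rotProd q hζ0 (psQ c) →
      psQ (PowerSeries.expand q hq.ne_zero d') = A (psQ d) * rotProd q hζ0 (psQ d) →
      qExpand Qbar q (psQ c' / psQ d') = A S * rotProd q hζ0 S := by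
    intro c' d' A hd' h1 h2
    have h3 : qExpand Qbar q (psQ d') ≠ 0 := fun h => hd'
      (qExpand_injective q (h.trans (map_zero _).symm))
    rw [map_div₀, div_eq_iff h3, qExpand_ofPowerSeries, qExpand_ofPowerSeries, h1, h2, ← he,
      map_mul A, rotProd_mul]
    ring
  unfold heckeChar
  by_cases h : q ∣ N
  · rw [dif_pos h]
    obtain ⟨i', v', u', c', d', h1, h2, h3, h4, h5, h6, h7, h8⟩ :=
      main (Period.transferDataU h) (fun x => FermatAgent.ES.heckeMatrix_int hq.ne_zero x.val)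
        (fun c => ∏ j : ZMod q, PowerSeries.rescale (ζ ^ j.val) c) ((q : ℂ) ^ q) (fun v c hc => by
          rw [hps]; exact FermatAgent.ES.hasExp_transferU h i hc) hpne
    have hd' : psQ d' ≠ 0 := psQ_ne_zero_of_exp h6 h4
    refine ⟨psQ c' / psQ d', ⟨i', v', u', c', d', h1, h2, h3, h4, h5, h6,
      div_mul_cancel₀ _ hd'⟩, ?_⟩
    rw [if_pos h, one_mul]
    have h3' : qExpand Qbar q (psQ d') ≠ 0 := fun h0 => hd'
      (qExpand_injective q (h0.trans (map_zero _).symm))
    rw [map_div₀, div_eq_iff h3', qExpand_ofPowerSeries, qExpand_ofPowerSeries, h7, h8,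
      ← rotProd_ofPowerSeries q hζ0, ← rotProd_ofPowerSeries q hζ0, ← he, rotProd_mul]
  · rw [dif_neg h]
    obtain ⟨i', v', u', c', d', h1, h2, h3, h4, h5, h6, h7, h8⟩ :=
      main (Period.transferDataT h) (FermatAgent.ES.transferDataT_int h)
        (fun c => PowerSeries.expand q hq.ne_zero (PowerSeries.expand q hq.ne_zero c) *
          ∏ j : ZMod q, PowerSeries.rescale (ζ ^ j.val) c)
        (FermatAgent.ES.transferConst q i) (fun v c hc => by
          rw [map_mul, hps, PowerSeries.map_expand, PowerSeries.map_expand]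
          exact FermatAgent.ES.hasExp_transferT h i hc)
        (fun c hc => mul_ne_zero (fun h0 => hc (PowerSeries.ext fun e => by
          have := congrArg (PowerSeries.coeff (q * (q * e))) h0
          simpa [PowerSeries.coeff_expand_mul] using this)) (hpne c hc))
    have hd' : psQ d' ≠ 0 := psQ_ne_zero_of_exp h6 h4
    refine ⟨psQ c' / psQ d', ⟨i', v', u', c', d', h1, h2, h3, h4, h5, h6,
      div_mul_cancel₀ _ hd'⟩, ?_⟩
    rw [if_neg h]
    refine finish ((qExpand Qbar q).comp (qExpand Qbar q)) hd' ?_ ?_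
    · rw [h7, map_mul, RingHom.comp_apply, qExpand_ofPowerSeries, qExpand_ofPowerSeries,
        rotProd_ofPowerSeries]
    · rw [h8, map_mul, RingHom.comp_apply, qExpand_ofPowerSeries, qExpand_ofPowerSeries,
        rotProd_ofPowerSeries]

/-! ### The Hecke relations -/

section

variable {q : ℕ} [hq : Fact q.Prime] {ζ : ℂ_[ℓ]} (hζ : IsPrimitiveRoot ζ q)

include hζ

/-- A root of unity has norm one. -/
lemma norm_root_eq_one : ‖ζ‖ = 1 := by
  have h := congrArg norm hζ.pow_eq_one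
  rw [norm_pow, norm_one] at h
  exact (pow_eq_one_iff_of_nonneg (norm_nonneg _) hq.out.ne_zero).1 h

lemma expand_normSer_zmod [NeZero q] (G : PS) :
    PowerSeries.expand q hq.out.ne_zero (normSer q ζ G) =
      ∏ j : ZMod q, PowerSeries.rescale (ζ ^ j.val) G := by
  rw [expand_normSer hζ]
  refine Finset.prod_bij' (fun i _ => (i : ZMod q)) (fun j _ => j.val) ?_ ?_ ?_ ?_ ?_
  · exact fun i _ => Finset.mem_univ _
  · exact fun j _ => Finset.mem_range.2 (ZMod.val_lt j)
  · exact fun i hi => ZMod.val_cast_of_lt (Finset.mem_range.1 hi)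
  · exact fun j _ => ZMod.natCast_zmod_val j
  · exact fun i hi => by rw [ZMod.val_cast_of_lt (Finset.mem_range.1 hi)]

lemma normSer_mul (G G' : PS) : normSer q ζ (G * G') = normSer q ζ G * normSer q ζ G' := by
  refine PowerSeries.ext fun m => ?_
  have h : PowerSeries.expand q hq.out.ne_zero (normSer q ζ (G * G')) =
      PowerSeries.expand q hq.out.ne_zero (normSer q ζ G * normSer q ζ G') := by
    rw [map_mul, expand_normSer hζ, expand_normSer hζ, expand_normSer hζ,
      ← Finset.prod_mul_distrib]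
    exact Finset.prod_congr rfl fun i _ => map_mul _ _ _
  have h2 := congrArg (PowerSeries.coeff (q * m)) h
  rwa [PowerSeries.coeff_expand_mul, PowerSeries.coeff_expand_mul] at h2

lemma normSer_pow (G : PS) (n : ℕ) : normSer q ζ (G ^ n) = normSer q ζ G ^ n := by
  induction n with
  | zero =>
    rw [pow_zero, pow_zero]
    refine PowerSeries.ext fun m => ?_
    rw [normSer, PowerSeries.coeff_mk, Finset.prod_eq_one fun i _ => map_one _,
      PowerSeries.coeff_one, PowerSeries.coeff_one]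
    simp [hq.out.ne_zero]
  | succ n ih => rw [pow_succ, pow_succ, normSer_mul hζ, ih]

lemma PCong.normSer {n : ℕ} {G G' : PS} (h : PCong n G G') :
    PCong n (normSer q ζ G) (normSer q ζ G') := by
  obtain ⟨H, hH, rfl⟩ := h
  exact ⟨_, hH.normSer hζ, by rw [normSer_mul hζ, normSer_pow hζ]⟩

end

lemma PCong.expand {n : ℕ} {G G' : PS} (h : PCong n G G') {d : ℕ} (hd : d ≠ 0) :
    PCong n (PowerSeries.expand d hd G) (PowerSeries.expand d hd G') := by
  obtain ⟨H, hH, rfl⟩ := h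
  exact ⟨_, hH.expand hd, by rw [map_mul, map_pow]⟩

variable [Algebra Qbar ℂ_[ℓ]]

local notation "lsI" => lsMap (L := AlgebraicClosure ℚ) (K := ℂ_[ℓ])
local notation "V" => parabolicHoms ℤ_[ℓ] (Gamma0 N) ℤ_[ℓ]

lemma lsI_qExpand (d : ℕ) [NeZero d] (F : LaurentSeries Qbar) :
    lsI (qExpand Qbar d F) = qExpand ℂ_[ℓ] d (lsI F) := ModularCurve.coeffMap_qExpand _ d F

lemma lsI_rotate {a : Qbar} (ha : a ≠ 0) (F : LaurentSeries Qbar) :
    lsI (rotate ha F) = rotate ((_root_.map_ne_zero (algebraMap Qbar ℂ_[ℓ])).2 ha) (lsI F) := by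
  ext j
  rw [Curve.coeff_rotate, lsMap, coeffMap_coeff, Curve.coeff_rotate, map_mul, map_zpow₀,
    coeffMap_coeff]

/-- `T_q` on parabolic homomorphisms. -/
def heckeV {q : ℕ} (hq : q.Prime) (ψ : V) : V :=
  ⟨FermatAgent.Period.heckeOp ℤ_[ℓ] N hq ψ.1,
    FermatAgent.Period.isParabolicHom_heckeOp ℤ_[ℓ] hq ψ.2⟩

/-- **The Hecke relation for the limit series**: `T_q` takes `G(q)` to `G(q ^ q)` times the norm
series, the first factor being absent for `q ∣ N`. -/
theorem gInf_heckeV {q : ℕ} [hq : Fact q.Prime] (ψ : V) :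
    ∃ ζ : ℂ_[ℓ], IsPrimitiveRoot ζ q ∧ gInf (heckeV hq.out ψ) =
      (if q ∣ N then 1 else PowerSeries.expand q hq.out.ne_zero (gInf ψ)) *
        normSer q ζ (gInf ψ) := by
  have : NeZero q := ⟨hq.out.ne_zero⟩
  obtain ⟨ζ₀, hζC, hζp⟩ := exists_qbar_zeta q
  have hζ0 : ζ₀ ≠ 0 := hζp.ne_zero (NeZero.ne q)
  have hζ : IsPrimitiveRoot (algebraMap Qbar ℂ_[ℓ] ζ₀) q :=
    hζp.map_of_injective (algebraMap Qbar ℂ_[ℓ]).injective
  refine ⟨_, hζ, (eq_gInf ?_ fun k => ?_).symm⟩
  · refine IsP1.mul ?_ ((isP1_gInf ψ).normSer hζ)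
    split_ifs
    · exact IsP1.one
    · exact (isP1_gInf ψ).expand _
  obtain ⟨S', hS', he⟩ := (isMult_serLev k ψ).hecke hq.out hζC hζ0 (padChar ℓ k ψ)
  rw [show heckeChar N hq.out (padChar ℓ k ψ : Gamma0 N →* ℂˣ) =
    (padChar ℓ k (heckeV hq.out ψ) : Gamma0 N →* ℂˣ) from
    (FermatAgent.ES.padChar_heckeOp ℓ hq.out k ψ).symm] at hS'
  set F := lsI (serLev k ψ) ^ ℓ ^ k
  set F' := lsI S' ^ ℓ ^ k
  have hF : IsDecG F (gLev k ψ) :=
    ⟨isDec_lsI_pow (isMult_serLev k ψ) (padChar_pow_eq_one k ψ), rfl⟩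
  have hF' : IsDecG F' (decG F') :=
    ⟨isDec_lsI_pow hS' (padChar_pow_eq_one k _), rfl⟩
  have heq : qExpand ℂ_[ℓ] q F' = (if q ∣ N then 1 else qExpand ℂ_[ℓ] q (qExpand ℂ_[ℓ] q F)) *
      ∏ j : ZMod q, rotate ((_root_.map_ne_zero (algebraMap Qbar ℂ_[ℓ])).2
        (pow_ne_zero j.val hζ0)) F := by
    have h1 := congrArg (fun X => lsI X ^ ℓ ^ k) he
    simp only [rotProd, map_mul, map_prod, lsI_rotate, lsI_qExpand, mul_pow,
      ← Finset.prod_pow] at h1
    simp only [F', map_pow, h1]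
    congr 1
    · split_ifs with h
      · simp
      · simp only [lsI_qExpand, F, map_pow]
    · exact Finset.prod_congr rfl fun j _ => by simp only [F, map_pow]
  have hA : IsDecG (if q ∣ N then 1 else qExpand ℂ_[ℓ] q (qExpand ℂ_[ℓ] q F))
      (PowerSeries.expand q hq.out.ne_zero
        (if q ∣ N then 1 else PowerSeries.expand q hq.out.ne_zero (gLev k ψ))) := by
    split_ifs with h
    · rw [map_one]; exact IsDecG.one
    · exact (hF.expand q).expand q
  have hB : IsDecG (∏ j : ZMod q, rotate ((_root_.map_ne_zero (algebraMap Qbar ℂ_[ℓ])).2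
        (pow_ne_zero j.val hζ0)) F)
      (PowerSeries.expand q hq.out.ne_zero (normSer q (algebraMap Qbar ℂ_[ℓ] ζ₀) (gLev k ψ))) := by
    rw [expand_normSer_zmod hζ]
    refine IsDecG.prod _ fun j _ => ?_
    have := hF.rotate ((_root_.map_ne_zero (algebraMap Qbar ℂ_[ℓ])).2 (pow_ne_zero j.val hζ0))
      (by rw [map_pow, norm_pow, norm_root_eq_one hζ, one_pow])
    simpa only [map_pow] using this
  have h2 : PowerSeries.expand q hq.out.ne_zero (decG F') = PowerSeries.expand q hq.out.ne_zero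
      ((if q ∣ N then 1 else PowerSeries.expand q hq.out.ne_zero (gLev k ψ)) *
        normSer q (algebraMap Qbar ℂ_[ℓ] ζ₀) (gLev k ψ)) := by
    rw [← (hF'.expand q).2, heq, (hA.mul hB).2, ← map_mul]
  have h3 : decG F' = (if q ∣ N then 1 else PowerSeries.expand q hq.out.ne_zero (gLev k ψ)) *
      normSer q (algebraMap Qbar ℂ_[ℓ] ζ₀) (gLev k ψ) := PowerSeries.ext fun m => by
    have h4 := congrArg (PowerSeries.coeff (q * m)) h2
    rwa [PowerSeries.coeff_expand_mul, PowerSeries.coeff_expand_mul] at h4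
  refine (PCong.mul ?_ ((pcong_gInf k ψ).normSer hζ)).trans ((h3 ▸ pcong_gLev hS'))
  split_ifs
  · exact PCong.refl _ _
  · exact (pcong_gInf k ψ).expand _

/-- **The Hecke relation for `δ`**: the `m`-th coefficient of `δ(T_q ψ)` is `D(q m) + q D(m / q)`,
the second term being absent for `q ∣ N`. -/
theorem coeff_delt_heckeV {q : ℕ} [hq : Fact q.Prime] (ψ : V) (m : ℕ) :
    PowerSeries.coeff m (delt (heckeV hq.out ψ)) = PowerSeries.coeff (q * m) (delt ψ) +
      if ¬ q ∣ N ∧ q ∣ m then (q : ℂ_[ℓ]) * PowerSeries.coeff (m / q) (delt ψ) else 0 := by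
  obtain ⟨ζ, hζ, he⟩ := gInf_heckeV (q := q) ψ
  have hN := (isP1_gInf ψ).normSer hζ
  rw [delt, he]
  by_cases h : q ∣ N
  · rw [if_pos h, one_mul, coeff_dlog_normSer hζ (isP1_gInf ψ), if_neg fun h' => h'.1 h, add_zero]
    rfl
  · rw [if_neg h, dlog_mul ((isP1_gInf ψ).expand _) hN, map_add,
      coeff_dlog_normSer hζ (isP1_gInf ψ), dlog_expand (isP1_gInf ψ) hq.out.ne_zero,
      ← map_natCast (PowerSeries.C (R := ℂ_[ℓ])), PowerSeries.coeff_C_mul,
      PowerSeries.coeff_expand, add_comm]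
    simp only [h, not_false_eq_true, true_and, delt]
    split_ifs <;> simp

end FermatAgent.Mazur

end
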