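import Fermat.Agent.Mazur.DiscValue
import Fermat.Agent.Mazur.Mult
import Fermat.Agent.ES.Tate.Module

/-!
# The one-unit series attached to an `ℓ`-adic parabolic homomorphism

For a parabolic homomorphism `ψ : Γ₀(N) → ℤ_ℓ` the `ℓ^k`-th powers of the functions with
multipliers `ψ mod ℓ^k` have one-unit parts on the `q`-disc which converge coefficientwise to a
series `gInf ψ`.
-/

set_option autoImplicit false

noncomputable section

open HahnSeries (ofPowerSeries)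
open Filter Topology
open scoped Classical MatrixGroups
open CongruenceSubgroup (Gamma0)

namespace FermatAgent.Mazur

open FermatAgent.Curve (jField jElt toJField JIdx)
open FermatAgent.GaloisBasic
open FermatAgent.ES (parGroup padChar galChar goodLevel_Gamma0)
open ModularCurve ModularCurve.Period

local notation "Qbar" => AlgebraicClosure ℚ

attribute [local instance] embAlg

variable {ℓ : ℕ} [hℓ : Fact ℓ.Prime]

local notation "LS" => LaurentSeries ℂ_[ℓ]
local notation "PS" => PowerSeries ℂ_[ℓ]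

/-! ### The one-unit part -/

/-- The one-unit part of a decomposable series. -/
def decG (F : LS) : PS := if h : IsDec F then h.choose_spec.choose_spec.choose else 1

/-- The one-unit part is that of any decomposition. -/
lemma decG_eq {F : LS} {c : ℂ_[ℓ]} {e : ℤ} {G : PS} {Z : ℂ_[ℓ] →₀ ℤ} (h : HasDec F c e G Z) :
    decG F = G := by
  have hd : IsDec F := ⟨c, e, G, Z, h⟩
  rw [decG, dif_pos hd]
  obtain ⟨Z', hZ'⟩ := hd.choose_spec.choose_spec.choose_spec
  exact (hZ'.unique h).2.2.1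

/-- The one-unit part is an integral one-unit. -/
lemma isP1_decG (F : LS) : IsP1 (decG F) := by
  by_cases h : IsDec F
  · obtain ⟨c, e, G, Z, hd⟩ := h
    rw [decG_eq hd]; exact hd.unit
  · rw [decG, dif_neg h]; exact IsP1.one

lemma decG_one : decG (1 : LS) = 1 := decG_eq HasDec.one

/-- The one-unit part is multiplicative. -/
lemma decG_mul {F F' : LS} (h : IsDec F) (h' : IsDec F') : decG (F * F') = decG F * decG F' := by
  obtain ⟨c, e, G, Z, hd⟩ := h
  obtain ⟨c', e', G', Z', hd'⟩ := h'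
  rw [decG_eq hd, decG_eq hd', decG_eq (hd.mul hd')]

/-- The one-unit part of a power. -/
lemma decG_pow {F : LS} (h : IsDec F) (n : ℕ) : decG (F ^ n) = decG F ^ n := by
  obtain ⟨c, e, G, Z, hd⟩ := h
  rw [decG_eq hd, decG_eq (hd.pow n)]

/-- The one-unit part of an inverse. -/
lemma decG_inv {F : LS} (h : IsDec F) : decG F⁻¹ = (decG F)⁻¹ := by
  obtain ⟨c, e, G, Z, hd⟩ := h
  rw [decG_eq hd, decG_eq hd.inv]

lemma decG_map {F : LS} (h : IsDec F) {σ : ℂ_[ℓ] →+* ℂ_[ℓ]} (hσ : ∀ x, ‖σ x‖ = ‖x‖) :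
    decG (coeffMap σ F) = (decG F).map σ := by
  obtain ⟨c, e, G, Z, hd⟩ := h
  rw [decG_eq hd, decG_eq (hd.map hσ)]

/-- Decomposable series are closed under powers. -/
lemma IsDec.pow {F : LS} (h : IsDec F) (n : ℕ) : IsDec (F ^ n) := by
  obtain ⟨c, e, G, Z, hd⟩ := h
  exact ⟨_, _, _, _, hd.pow n⟩

lemma HasDec.order_eq {F : LS} {c : ℂ_[ℓ]} {e : ℤ} {G : PS} {Z : ℂ_[ℓ] →₀ ℤ}
    (h : HasDec F c e G Z) : F.order = e := by
  have hps : ∀ U : PS, PowerSeries.constantCoeff U ≠ 0 →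
      (ofPowerSeries ℤ ℂ_[ℓ] U).order = 0 ∧ ofPowerSeries ℤ ℂ_[ℓ] U ≠ 0 := by
    intro U hU
    have hc : (ofPowerSeries ℤ ℂ_[ℓ] U).coeff 0 ≠ 0 := by
      rwa [coeff_ofPowerSeries_eq, if_pos le_rfl, Int.toNat_zero,
        PowerSeries.coeff_zero_eq_constantCoeff]
    have hne : ofPowerSeries ℤ ℂ_[ℓ] U ≠ 0 := fun h0 => hc (by rw [h0, HahnSeries.coeff_zero])
    exact ⟨le_antisymm (HahnSeries.order_le_of_coeff_ne_zero hc)
      ((HahnSeries.le_order_iff_forall hne).2 fun k hk => by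
        rw [coeff_ofPowerSeries_eq, if_neg (by omega)]), hne⟩
  have hlin : ∀ ρ ∈ Z.support, (linS ρ).order = 0 := fun ρ hρ =>
    (hps _ (by simp [(h.disc ρ hρ).1])).1
  obtain ⟨hG, hG0⟩ := hps G h.unit.ne_zero
  rw [h.eq, decS, HahnSeries.order_mul (mul_ne_zero (HahnSeries.single_ne_zero h.ne) hG0)
      (linProdS_ne_zero Z), HahnSeries.order_mul (HahnSeries.single_ne_zero h.ne) hG0,
    HahnSeries.order_single h.ne, hG, add_zero, linProdS, Finsupp.prod,
    order_prod_zpow _ _ _ fun ρ _ => linS_ne_zero ρ,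
    Finset.sum_eq_zero fun ρ hρ => by rw [hlin ρ hρ, mul_zero], add_zero]

/-! ### Congruence modulo powers of one-units -/

/-- `G` is `G'` times an `n`-th power of an integral one-unit. -/
def PCong (n : ℕ) (G G' : PS) : Prop := ∃ H, IsP1 H ∧ G = G' * H ^ n

namespace PCong

variable {n : ℕ} {G G' G'' F F' : PowerSeries ℂ_[ℓ]}

/-- Congruence modulo `n`-th powers is reflexive. -/
lemma refl (n : ℕ) (G : PS) : PCong n G G := ⟨1, IsP1.one, by rw [one_pow, mul_one]⟩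

lemma symm (h : PCong n G G') : PCong n G' G := by
  obtain ⟨H, hH, rfl⟩ := h
  exact ⟨H⁻¹, hH.inv, by rw [mul_assoc, ← mul_pow, hH.mul_inv, one_pow, mul_one]⟩

/-- Congruence modulo `n`-th powers is transitive. -/
lemma trans (h : PCong n G G') (h' : PCong n G' G'') : PCong n G G'' := by
  obtain ⟨H, hH, rfl⟩ := h
  obtain ⟨H', hH', rfl⟩ := h'
  exact ⟨H' * H, hH'.mul hH, by rw [mul_assoc, ← mul_pow]⟩

/-- Congruences modulo `n`-th powers multiply. -/
lemma mul (h : PCong n G G') (h' : PCong n F F') : PCong n (G * F) (G' * F') := by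
  obtain ⟨H, hH, rfl⟩ := h
  obtain ⟨H', hH', rfl⟩ := h'
  exact ⟨H * H', hH.mul hH', by rw [mul_pow]; ring⟩

lemma of_dvd {m : ℕ} (hnm : n ∣ m) (h : PCong m G G') : PCong n G G' := by
  obtain ⟨q, rfl⟩ := hnm
  obtain ⟨H, hH, rfl⟩ := h
  exact ⟨H ^ q, hH.pow q, by rw [← pow_mul, mul_comm q]⟩

lemma map (h : PCong n G G') {σ : ℂ_[ℓ] →+* ℂ_[ℓ]} (hσ : ∀ x, ‖σ x‖ = ‖x‖) :
    PCong n (G.map σ) (G'.map σ) := by
  obtain ⟨H, hH, rfl⟩ := h
  exact ⟨H.map σ, hH.map hσ, by rw [map_mul, map_pow]⟩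

/-- Congruent series have close coefficients. -/
lemma norm_coeff_sub_le (h : PCong n G G') (hG' : IsP1 G') (m : ℕ) :
    ‖PowerSeries.coeff m G - PowerSeries.coeff m G'‖ ≤
      ‖(n : ℂ_[ℓ])‖ / ‖(m.factorial : ℂ_[ℓ])‖ := by
  obtain ⟨H, hH, rfl⟩ := h
  have hfac : ∀ j : ℕ, 0 < ‖(j.factorial : ℂ_[ℓ])‖ :=
    fun j => norm_natCast_cp_pos j.factorial_ne_zero
  have hd : BdBy (dlog (H ^ n)) ‖(n : ℂ_[ℓ])‖ := fun j => by
    rw [dlog_pow hH, map_nsmul, nsmul_eq_mul, norm_mul]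
    exact mul_le_of_le_one_right (norm_nonneg _) (bdBy_dlog hH j)
  rw [← map_sub, show G' * H ^ n - G' = G' * (H ^ n - 1) by ring, PowerSeries.coeff_mul]
  refine IsUltrametricDist.norm_sum_le_of_forall_le_of_nonneg
    (div_nonneg (norm_nonneg _) (norm_nonneg _)) fun x hx => ?_
  rw [Finset.HasAntidiagonal.mem_antidiagonal] at hx
  rw [norm_mul]
  refine (mul_le_of_le_one_left (norm_nonneg _) (hG'.2 _)).trans ?_
  rcases eq_or_ne x.2 0 with h2 | h2
  · rw [h2, map_sub, PowerSeries.coeff_zero_eq_constantCoeff, (hH.pow n).1]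
    simp [div_nonneg]
  · rw [map_sub, PowerSeries.coeff_one, if_neg h2, sub_zero]
    refine (norm_coeff_le_of_dlog (hH.pow n)
      (IsUltrametricDist.norm_natCast_le_one _ n) hd h2).trans ?_
    refine div_le_div_of_nonneg_left (norm_nonneg _) (hfac m) ?_
    obtain ⟨q, hq⟩ := Nat.factorial_dvd_factorial (show x.2 ≤ m by omega)
    rw [hq, Nat.cast_mul, norm_mul]
    exact mul_le_of_le_one_right (norm_nonneg _) (IsUltrametricDist.norm_natCast_le_one _ q)

end PCong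

lemma tendsto_norm_prime_pow : Tendsto (fun k : ℕ => ‖((ℓ ^ k : ℕ) : ℂ_[ℓ])‖) atTop (𝓝 0) := by
  simp only [Nat.cast_pow, norm_pow]
  exact tendsto_pow_atTop_nhds_zero_of_lt_one (norm_nonneg _) norm_prime_cp_lt_one

/-- Coefficientwise convergence from congruences. -/
lemma tendsto_coeff_of_pcong {Y : ℕ → PS} {G : PS} (hG : IsP1 G)
    (h : ∀ k, PCong (ℓ ^ k) (Y k) G) (m : ℕ) :
    Tendsto (fun k => PowerSeries.coeff m (Y k)) atTop (𝓝 (PowerSeries.coeff m G)) := by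
  refine tendsto_iff_norm_sub_tendsto_zero.2 (squeeze_zero (fun k => norm_nonneg _)
    (fun k => (h k).norm_coeff_sub_le hG m) ?_)
  simpa using (tendsto_norm_prime_pow (ℓ := ℓ)).div_const ‖(m.factorial : ℂ_[ℓ])‖

/-! ### Decompositions of functions with multiplier -/

variable [Algebra Qbar ℂ_[ℓ]] {N : ℕ} [NeZero N]

local notation "lsI" => lsMap (L := AlgebraicClosure ℚ) (K := ℂ_[ℓ])

/-- Natural numbers are integral in `ℂ_ℓ`. -/
lemma norm_algebraMap_ofNat_le (m : ℕ) : ‖algebraMap Qbar ℂ_[ℓ] (m : Qbar)‖ ≤ 1 := by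
  rw [map_natCast]; exact IsUltrametricDist.norm_natCast_le_one _ m

/-- A nonzero function of the field is decomposable. -/
lemma isDec_lsI {F : LaurentSeries Qbar} (hF : F ∈ jField Qbar N) (h0 : F ≠ 0) : IsDec (lsI F) :=
  isDec_jField N (f := ⟨F, hF⟩) fun h => h0 (congrArg Subtype.val h)

/-- The `n`-th power of a series with multiplier of order dividing `n` is decomposable. -/
lemma isDec_lsI_pow {φ : Gamma0 N →* ℂˣ} {S : LaurentSeries Qbar} (hS : IsMult N φ S) {n : ℕ}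
    (hφ : φ ^ n = 1) : IsDec (lsI S ^ n) := by
  rw [← map_pow]
  exact isDec_lsI (hS.pow_mem hφ) (pow_ne_zero _ hS.ne_zero)

/-- The decomposition of an `n`-th power has exponents divisible by `n`. -/
theorem IsMult.dvd_exp {φ : Gamma0 N →* ℂˣ} {S : LaurentSeries Qbar} (hS : IsMult N φ S) {n : ℕ}
    (hφ : φ ^ n = 1) {c : ℂ_[ℓ]} {e : ℤ} {G : PS} {Z : ℂ_[ℓ] →₀ ℤ}
    (h : HasDec (lsI S ^ n) c e G Z) : (n : ℤ) ∣ e ∧ ∀ ρ, (n : ℤ) ∣ Z ρ := by
  refine ⟨?_, fun ρ => ?_⟩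
  · rw [← h.order_eq, Curve.order_pow]
    exact dvd_mul_right _ _
  by_cases hρ : ρ ∈ Z.support
  swap
  · rw [Finsupp.notMem_support_iff.1 hρ]; exact dvd_zero _
  obtain ⟨hρ0, hρ1⟩ := h.disc ρ hρ
  set F : jField Qbar N := ⟨S ^ n, hS.pow_mem hφ⟩
  have hd : HasDec (lsI (F : LaurentSeries Qbar)) c e G Z := by
    rw [show (F : LaurentSeries Qbar) = S ^ n from rfl, map_pow]
    exact h
  have hord := (discEmb_order_of_hasDec hρ1 hρ0 N hd).1
  obtain ⟨a, ha⟩ : ∃ a : Qbar, algebraMap Qbar ℂ_[ℓ] a = jDisc ρ hρ1 := by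
    by_contra! hne
    exact Finsupp.mem_support_iff.1 hρ (hord ▸ discEmb_order_eq_zero hρ1 hρ0 N hne F)
  have hbig : 1 < ‖algebraMap Qbar ℂ_[ℓ] a‖ := by
    rw [ha, norm_jDisc]
    exact one_lt_inv₀ (norm_pos_iff.2 hρ0) |>.2 hρ1
  have h0 : a ≠ 0 := fun h0 => by
    rw [h0, map_zero, norm_zero] at hbig
    linarith
  have h1728 : a ≠ 1728 := fun h0 => by
    rw [h0, show (1728 : Qbar) = ((1728 : ℕ) : Qbar) by norm_num] at hbig
    exact absurd hbig (norm_algebraMap_ofNat_le 1728).not_gt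
  rw [← hord, ← ord_discPlace hρ1 hρ0 ha]
  exact hS.dvd_ord hφ rfl h0 h1728
    (by rw [ord_discPlace_jElt_sub]; exact one_pos)

/-- Functions with the same multiplier have congruent one-unit parts. -/
theorem pcong_of_isMult {φ : Gamma0 N →* ℂˣ} {S T : LaurentSeries Qbar} (hS : IsMult N φ S)
    (hT : IsMult N φ T) {n : ℕ} (hn : n ≠ 0) (hφ : φ ^ n = 1) :
    PCong n (decG (lsI S ^ n)) (decG (lsI T ^ n)) := by
  have h1 := hS.mul (hT.inv hn hφ)
  rw [mul_inv_cancel φ] at h1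
  have hq := isDec_lsI (ℓ := ℓ) h1.mem h1.ne_zero
  refine ⟨decG (lsI (S * T⁻¹)), isP1_decG _, ?_⟩
  rw [← decG_pow hq, ← decG_mul (isDec_lsI_pow hT hφ) (hq.pow n), ← mul_pow, ← map_mul,
    mul_left_comm, mul_inv_cancel₀ hT.ne_zero, mul_one]

local notation "V" => parabolicHoms ℤ_[ℓ] (Gamma0 N) ℤ_[ℓ]

omit [Algebra Qbar ℂ_[ℓ]] [NeZero N] in
/-- The multiplier modulo `ℓ ^ k` has order dividing `ℓ ^ k`. -/
lemma padChar_pow_eq_one (k : ℕ) (ψ : V) : (padChar ℓ k ψ : Gamma0 N →* ℂˣ) ^ ℓ ^ k = 1 :=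
  (padChar ℓ k ψ).2.1

/-- A function with multiplier `ψ mod ℓ^k`. -/
def serLev (k : ℕ) (ψ : V) : LaurentSeries Qbar := (exists_isMult (padChar ℓ k ψ)).choose

omit [Algebra Qbar ℂ_[ℓ]] in
/-- The chosen series has the multiplier `ψ` modulo `ℓ ^ k`. -/
lemma isMult_serLev (k : ℕ) (ψ : V) :
    IsMult N (padChar ℓ k ψ : Gamma0 N →* ℂˣ) (serLev k ψ) :=
  (exists_isMult (padChar ℓ k ψ)).choose_spec

/-- The one-unit part at level `k`. -/
def gLev (k : ℕ) (ψ : V) : PS := decG (lsI (serLev k ψ) ^ ℓ ^ k)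

lemma isP1_gLev (k : ℕ) (ψ : V) : IsP1 (gLev k ψ) := isP1_decG _

/-- Any series with that multiplier gives the one-unit part at level `k`, up to `ℓ ^ k`-th
powers. -/
lemma pcong_gLev {k : ℕ} {ψ : V} {S : LaurentSeries Qbar}
    (hS : IsMult N (padChar ℓ k ψ : Gamma0 N →* ℂˣ) S) :
    PCong (ℓ ^ k) (decG (lsI S ^ ℓ ^ k)) (gLev k ψ) :=
  pcong_of_isMult hS (isMult_serLev k ψ) (pow_ne_zero _ hℓ.out.ne_zero) (padChar_pow_eq_one k ψ)

lemma pcong_gLev_succ (k : ℕ) (ψ : V) : PCong (ℓ ^ k) (gLev (k + 1) ψ) (gLev k ψ) := by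
  have h := (isMult_serLev (k + 1) ψ).pow ℓ
  rw [FermatAgent.ES.padChar_succ] at h
  have h2 := pcong_gLev h
  rwa [map_pow, ← pow_mul, mul_comm ℓ, ← pow_succ] at h2

lemma pcong_gLev_of_le {k j : ℕ} (hkj : k ≤ j) (ψ : V) :
    PCong (ℓ ^ k) (gLev j ψ) (gLev k ψ) := by
  induction j, hkj using Nat.le_induction with
  | base => exact PCong.refl _ _
  | succ j hj ih => exact (((pcong_gLev_succ j ψ).of_dvd (pow_dvd_pow ℓ hj))).trans ih

lemma exists_lim_gLev (ψ : V) (m : ℕ) :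
    ∃ a, Tendsto (fun k => PowerSeries.coeff m (gLev k ψ)) atTop (𝓝 a) := by
  refine cauchySeq_tendsto_of_complete (cauchySeq_of_le_geometric ‖(ℓ : ℂ_[ℓ])‖
    (‖(m.factorial : ℂ_[ℓ])‖⁻¹) norm_prime_cp_lt_one fun k => ?_)
  rw [dist_eq_norm, norm_sub_rev]
  refine ((pcong_gLev_succ k ψ).norm_coeff_sub_le (isP1_gLev k ψ) m).trans_eq ?_
  rw [Nat.cast_pow, norm_pow]
  ring

/-- The limit series. -/
def gInf (ψ : V) : PS := PowerSeries.mk fun m => (exists_lim_gLev ψ m).choose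

lemma tendsto_gLev (ψ : V) (m : ℕ) :
    Tendsto (fun k => PowerSeries.coeff m (gLev k ψ)) atTop (𝓝 (PowerSeries.coeff m (gInf ψ))) := by
  rw [gInf, PowerSeries.coeff_mk]
  exact (exists_lim_gLev ψ m).choose_spec

/-- The limit series is an integral one-unit. -/
lemma isP1_gInf (ψ : V) : IsP1 (gInf ψ) := by
  refine ⟨?_, fun m => le_of_tendsto (tendsto_gLev ψ m).norm
    (Eventually.of_forall fun k => (isP1_gLev k ψ).2 m)⟩
  rw [← PowerSeries.coeff_zero_eq_constantCoeff_apply]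
  refine tendsto_nhds_unique (tendsto_gLev ψ 0) ?_
  simp [(isP1_gLev _ ψ).1]

/-- The limit series is congruent to each level modulo `ℓ ^ k`-th powers. -/
theorem pcong_gInf (k : ℕ) (ψ : V) : PCong (ℓ ^ k) (gInf ψ) (gLev k ψ) := by
  have hP := isP1_gLev k ψ
  choose H hH hHe using fun j : ℕ => pcong_gLev_of_le (Nat.le_add_left k j) ψ
  obtain ⟨Z, hZ, hZe⟩ := exists_root_of_tendsto (Q := (gLev k ψ)⁻¹ * gInf ψ) hH
    (pow_ne_zero k hℓ.out.ne_zero) fun m => by
    have h1 : ∀ j, H j ^ ℓ ^ k = (gLev k ψ)⁻¹ * gLev (j + k) ψ := fun j => by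
      rw [hHe j, ← mul_assoc, mul_comm _ (gLev k ψ), hP.mul_inv, one_mul]
    simp only [h1]
    exact tendsto_coeff_mul (fun i _ => tendsto_const_nhds) fun i _ =>
      (tendsto_add_atTop_iff_nat k).2 (tendsto_gLev ψ i)
  exact ⟨Z, hZ, by rw [hZe, ← mul_assoc, hP.mul_inv, one_mul]⟩

/-- The limit series is the only one-unit congruent to every level. -/
theorem eq_gInf {G : PS} {ψ : V} (hG : IsP1 G) (h : ∀ k, PCong (ℓ ^ k) G (gLev k ψ)) :
    G = gInf ψ :=
  PowerSeries.ext fun m =>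
    tendsto_nhds_unique (tendsto_coeff_of_pcong hG (fun k => (h k).symm) m) (tendsto_gLev ψ m)

/-- The one-unit part of a function with multiplier `ψ mod ℓ^k`, through the limit. -/
theorem pcong_gInf_of_isMult {k : ℕ} {ψ : V} {S : LaurentSeries Qbar}
    (hS : IsMult N (padChar ℓ k ψ : Gamma0 N →* ℂˣ) S) :
    PCong (ℓ ^ k) (decG (lsI S ^ ℓ ^ k)) (gInf ψ) :=
  (pcong_gLev hS).trans (pcong_gInf k ψ).symm

/-- The limit series turns sums into products. -/
theorem gInf_add (ψ ψ' : V) : gInf (ψ + ψ') = gInf ψ * gInf ψ' := by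
  refine (eq_gInf ((isP1_gInf ψ).mul (isP1_gInf ψ')) fun k => ?_).symm
  have h := (isMult_serLev k ψ).mul (isMult_serLev k ψ')
  rw [← Subgroup.coe_mul, ← FermatAgent.ES.padChar_add] at h
  refine ((pcong_gInf k ψ).mul (pcong_gInf k ψ')).trans ?_
  have h2 := pcong_gLev h
  rwa [map_mul, mul_pow, decG_mul (isDec_lsI_pow (isMult_serLev k ψ) (padChar_pow_eq_one k ψ))
    (isDec_lsI_pow (isMult_serLev k ψ') (padChar_pow_eq_one k ψ'))] at h2

/-- The limit series at zero is one. -/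
lemma gInf_zero : gInf (0 : V) = 1 := by
  refine (eq_gInf IsP1.one fun k => ?_).symm
  have h : IsMult N (padChar ℓ k (0 : V) : Gamma0 N →* ℂˣ) 1 := by
    rw [show (padChar ℓ k (0 : V) : Gamma0 N →* ℂˣ) = 1 from MonoidHom.ext fun γ => by
      rw [FermatAgent.ES.padChar_apply]; simp]
    exact IsMult.one
  have h2 := pcong_gLev h
  rwa [map_one, one_pow, decG_one] at h2

/-- The limit series turns multiples into powers. -/
lemma gInf_nsmul (m : ℕ) (ψ : V) : gInf (m • ψ) = gInf ψ ^ m := by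
  induction m with
  | zero => rw [zero_nsmul, gInf_zero, pow_zero]
  | succ m ih => rw [succ_nsmul, gInf_add, ih, pow_succ]

/-- The logarithmic derivative of the limit series. -/
def delt (ψ : V) : PS := dlog (gInf ψ)

/-- `δ` is additive. -/
lemma delt_add (ψ ψ' : V) : delt (ψ + ψ') = delt ψ + delt ψ' := by
  rw [delt, gInf_add, dlog_mul (isP1_gInf ψ) (isP1_gInf ψ')]; rfl

/-- The coefficients of `δ` are integral. -/
lemma bdBy_delt (ψ : V) : BdBy (delt ψ) 1 := bdBy_dlog (isP1_gInf ψ)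

/-- `q d/dq` of the limit series is `δ` times it. -/
lemma theta_gInf (ψ : V) : theta (gInf ψ) = delt ψ * gInf ψ := theta_eq_dlog_mul (isP1_gInf ψ)

/-- `δ` has no constant term. -/
lemma coeff_zero_delt (ψ : V) : PowerSeries.coeff 0 (delt ψ) = 0 := coeff_zero_dlog _

/-- The scalars. -/
abbrev zCp : ℤ_[ℓ] →+* ℂ_[ℓ] := (algebraMap ℚ_[ℓ] ℂ_[ℓ]).comp PadicInt.Coe.ringHom

omit [Algebra Qbar ℂ_[ℓ]] in
/-- The scalars are isometric. -/
lemma norm_zCp (a : ℤ_[ℓ]) : ‖zCp a‖ = ‖a‖ := by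
  show ‖algebraMap ℚ_[ℓ] ℂ_[ℓ] (a : ℚ_[ℓ])‖ = _
  rw [norm_algebraMap']
  rfl

/-- The `m`-th coefficient is linear over `ℤ_ℓ`. -/
theorem coeff_delt_smul (a : ℤ_[ℓ]) (ψ : V) (m : ℕ) :
    PowerSeries.coeff m (delt (a • ψ)) = zCp a * PowerSeries.coeff m (delt ψ) := by
  rw [← sub_eq_zero, ← norm_le_zero_iff]
  refine ge_of_tendsto' (tendsto_norm_prime_pow (ℓ := ℓ)) fun k => ?_
  have h1 : a - ((a.appr k : ℕ) : ℤ_[ℓ]) ∈ Ideal.span {(ℓ : ℤ_[ℓ]) ^ k} := PadicInt.appr_spec k a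
  obtain ⟨b, hb⟩ := Ideal.mem_span_singleton.1 h1
  have ha : a • ψ = (a.appr k) • ψ + (ℓ ^ k) • (b • ψ) := by
    rw [← Nat.cast_smul_eq_nsmul ℤ_[ℓ] (a.appr k), ← Nat.cast_smul_eq_nsmul ℤ_[ℓ] (ℓ ^ k),
      smul_smul, ← add_smul, Nat.cast_pow, ← hb, add_sub_cancel]
  have hz : zCp a = (a.appr k : ℂ_[ℓ]) + ((ℓ ^ k : ℕ) : ℂ_[ℓ]) * zCp b := by
    rw [← sub_eq_iff_eq_add', ← map_natCast zCp, ← map_natCast zCp, ← map_sub, ← map_mul,
      Nat.cast_pow, ← hb]
  have he : PowerSeries.coeff m (delt (a • ψ)) - zCp a * PowerSeries.coeff m (delt ψ) =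
      ((ℓ ^ k : ℕ) : ℂ_[ℓ]) *
        (PowerSeries.coeff m (delt (b • ψ)) - zCp b * PowerSeries.coeff m (delt ψ)) := by
    rw [ha, hz, delt_add, delt, gInf_nsmul, dlog_pow (isP1_gInf ψ), delt, gInf_nsmul,
      dlog_pow (isP1_gInf _), map_add, map_nsmul, map_nsmul, nsmul_eq_mul, nsmul_eq_mul]
    simp only [delt]
    ring
  rw [he, norm_mul]
  refine mul_le_of_le_one_right (norm_nonneg _) ?_
  rw [sub_eq_add_neg]
  refine (IsUltrametricDist.norm_add_le_max _ _).trans (max_le (bdBy_delt _ m) ?_)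
  rw [norm_neg, norm_mul, norm_zCp]
  exact mul_le_one₀ (PadicInt.norm_le_one b) (norm_nonneg _) (bdBy_delt ψ m)

/-- `δ ψ = 0` means that the series is trivial. -/
theorem gInf_eq_one_of_delt {ψ : V} (h : delt ψ = 0) : gInf ψ = 1 := by
  ext m
  rcases eq_or_ne m 0 with rfl | hm
  · rw [PowerSeries.coeff_zero_eq_constantCoeff, (isP1_gInf ψ).1, map_one]
  · have h1 := congrArg (PowerSeries.coeff m) (theta_gInf ψ)
    rw [h, zero_mul, coeff_theta, map_zero, mul_eq_zero] at h1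
    rw [PowerSeries.coeff_one, if_neg hm]
    exact h1.resolve_left (Nat.cast_ne_zero.2 hm)

/-! ### Galois equivariance -/

local notation "ιA" => (algebraMap (AlgebraicClosure ℚ) ℂ_[ℓ] : AlgebraicClosure ℚ →+* ℂ_[ℓ])

/-- The limit series commutes with the decomposition group. -/
theorem gInf_galPad (g : (padVal ιA).decompositionSubgroup ℚ) (ψ : V) :
    gInf (FermatAgent.ES.galPad ℓ (g : GQ) ψ) = (gInf ψ).map (galExt ιA g) := by
  have hσ := norm_galExt g
  refine (eq_gInf ((isP1_gInf ψ).map hσ) fun k => ?_).symm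
  have h := (isMult_serLev k ψ).galois (g : GQ)
  rw [← FermatAgent.ES.padChar_galPad] at h
  have hc : ∀ F : LaurentSeries Qbar, lsI (coeffMap (g : GQ).toRingEquiv.toRingHom F) =
      coeffMap (galExt ιA g) (lsI F) := fun F => by
    show coeffMap _ (coeffMap _ F) = coeffMap _ (coeffMap _ F)
    rw [coeffMap_coeffMap, coeffMap_coeffMap]
    refine coeffMap_congr (RingHom.ext fun x => ?_) F
    exact (galExt_apply g x).symm
  have h2 := pcong_gLev h
  rw [hc, ← map_pow, decG_map (isDec_lsI_pow (isMult_serLev k ψ) (padChar_pow_eq_one k ψ)) hσ] at h2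
  exact ((pcong_gInf k ψ).map hσ).trans h2

/-- `δ` commutes with the decomposition group. -/
theorem delt_galPad (g : (padVal ιA).decompositionSubgroup ℚ) (ψ : V) (m : ℕ) :
    PowerSeries.coeff m (delt (FermatAgent.ES.galPad ℓ (g : GQ) ψ)) =
      galExt ιA g (PowerSeries.coeff m (delt ψ)) := by
  have hG := isP1_gInf ψ
  have hσ := norm_galExt g
  have h1 : delt (FermatAgent.ES.galPad ℓ (g : GQ) ψ) = (delt ψ).map (galExt ιA g) := by
    have h2 : theta ((gInf ψ).map (galExt ιA g)) = (theta (gInf ψ)).map (galExt ιA g) := by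
      ext j
      rw [coeff_theta, PowerSeries.coeff_map, PowerSeries.coeff_map, coeff_theta, map_mul,
        map_natCast]
    rw [delt, gInf_galPad, dlog, h2, theta_gInf, map_mul, mul_assoc, (hG.map hσ).mul_inv, mul_one]
  rw [h1, PowerSeries.coeff_map]

end FermatAgent.Mazur

end
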