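import Fermat.Agent.Mazur.DiscLaurent
import Fermat.Prelude.Def_ModularCurve_JqCoeff

/-!
# The `j`-function on the punctured disc

`jDisc r = J(r) / r` identifies the punctured open unit disc with `‖·‖ > 1`.
-/

set_option autoImplicit false

noncomputable section

namespace FermatAgent.Mazur

open PowerSeries Finset

variable {K : Type*} [NormedField K] [IsUltrametricDist K] [CompleteSpace K] {r x y : K}

omit [CompleteSpace K] in
/-- The quotient by `X - r` has coefficients bounded by those of `f`. -/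
lemma norm_coeff_discQuot_le (hr : ‖r‖ < 1) {f : boundedPS K} {C : ℝ}
    (hC : ∀ n, ‖coeff n (f : PowerSeries K)‖ ≤ C) (k : ℕ) :
    ‖coeff k (discQuot r hr f : PowerSeries K)‖ ≤ C := by
  rw [discQuot, coeff_mk]
  refine IsUltrametricDist.norm_tsum_le_of_forall_le_of_nonneg
    ((norm_nonneg _).trans (hC 0)) fun n => ?_
  rw [norm_mul, norm_pow]
  exact (mul_le_of_le_one_right (norm_nonneg _) (pow_le_one₀ (norm_nonneg _) hr.le)).trans (hC _)

/-- The value of a series is within `C ‖r‖` of its constant term. -/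
lemma norm_evalDisc_sub_le (hr : ‖r‖ < 1) {f : boundedPS K} {C : ℝ}
    (hC : ∀ n, ‖coeff n (f : PowerSeries K)‖ ≤ C) :
    ‖evalDisc r hr f - coeff 0 (f : PowerSeries K)‖ ≤ C * ‖r‖ := by
  have hC0 : 0 ≤ C := (norm_nonneg _).trans (hC 0)
  rw [evalDisc_apply, (summable_norm_coeff_mul_pow hr f.2).of_norm.tsum_eq_zero_add, pow_zero,
    mul_one, add_sub_cancel_left]
  refine IsUltrametricDist.norm_tsum_le_of_forall_le_of_nonneg
    (mul_nonneg hC0 (norm_nonneg r)) fun n => ?_
  rw [norm_mul, norm_pow, pow_succ, ← mul_assoc]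
  exact mul_le_mul_of_nonneg_right
    ((mul_le_of_le_one_right (norm_nonneg _) (pow_le_one₀ (norm_nonneg _) hr.le)).trans (hC _))
    (norm_nonneg r)

/-- The ultrametric inequality for a difference. -/
lemma norm_sub_le_max_field {K : Type*} [NormedField K] [IsUltrametricDist K] (a b : K) :
    ‖a - b‖ ≤ max ‖a‖ ‖b‖ := by
  have h := IsUltrametricDist.norm_add_le_max a (-b)
  rwa [norm_neg, ← sub_eq_add_neg] at h

/-- An integer power series as a bounded series. -/
def intPS (K : Type*) [NormedField K] [IsUltrametricDist K] (f : PowerSeries ℤ) : boundedPS K :=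
  ⟨f.map (Int.castRingHom K), map_intCast_mem_boundedPS f⟩

omit [CompleteSpace K] in
/-- An integral series has coefficients of norm at most one. -/
lemma norm_coeff_intPS_le (f : PowerSeries ℤ) (n : ℕ) :
    ‖coeff n (intPS K f : PowerSeries K)‖ ≤ 1 := by
  rw [intPS, coeff_map, eq_intCast]
  exact IsUltrametricDist.norm_intCast_le_one K _

/-- `f(x) - f(y) = (x - y) g` with `g` close to the linear coefficient. -/
lemma exists_slope (hx : ‖x‖ < 1) (hy : ‖y‖ < 1) (f : boundedPS K) {C : ℝ}
    (hC : ∀ n, ‖coeff n (f : PowerSeries K)‖ ≤ C) :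
    ∃ g : K, evalDisc x hx f - evalDisc y hy f = (x - y) * g ∧
      ‖g - coeff 1 (f : PowerSeries K)‖ ≤ C * max ‖x‖ ‖y‖ := by
  have hC0 : 0 ≤ C := (norm_nonneg _).trans (hC 0)
  refine ⟨evalDisc x hx (discQuot y hy f), ?_, ?_⟩
  · have h := congrArg (evalDisc x hx) (sub_evalDisc_eq hy f)
    simp only [map_sub, map_mul, AlgHom.commutes, evalDisc_X, Algebra.algebraMap_self,
      RingHom.id_apply] at h
    exact h
  · have h1 := norm_evalDisc_sub_le hx (norm_coeff_discQuot_le hy hC)
    have h2 : ‖coeff 0 (discQuot y hy f : PowerSeries K) - coeff 1 (f : PowerSeries K)‖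
        ≤ C * ‖y‖ := by
      rw [discQuot, coeff_mk, (summable_shift hy f (0 + 1)).tsum_eq_zero_add, pow_zero, mul_one,
        add_sub_cancel_left]
      refine IsUltrametricDist.norm_tsum_le_of_forall_le_of_nonneg
        (mul_nonneg hC0 (norm_nonneg y)) fun n => ?_
      rw [norm_mul, norm_pow, pow_succ, ← mul_assoc]
      exact mul_le_mul_of_nonneg_right
        ((mul_le_of_le_one_right (norm_nonneg _) (pow_le_one₀ (norm_nonneg _) hy.le)).trans (hC _))
        (norm_nonneg y)
    have h3 := IsUltrametricDist.norm_add_le_max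
      (evalDisc x hx (discQuot y hy f) - coeff 0 (discQuot y hy f : PowerSeries K))
      (coeff 0 (discQuot y hy f : PowerSeries K) - coeff 1 (f : PowerSeries K))
    rw [sub_add_sub_cancel] at h3
    refine h3.trans (max_le (h1.trans ?_) (h2.trans ?_))
    · exact mul_le_mul_of_nonneg_left (le_max_left _ _) hC0
    · exact mul_le_mul_of_nonneg_left (le_max_right _ _) hC0

variable {f : PowerSeries ℤ}

/-- A series `X + ⋯` with integral coefficients is an isometry of the open disc. -/
lemma norm_evalDisc_sub_evalDisc (h1 : coeff 1 f = 1) (hx : ‖x‖ < 1) (hy : ‖y‖ < 1) :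
    ‖evalDisc x hx (intPS K f) - evalDisc y hy (intPS K f)‖ = ‖x - y‖ := by
  obtain ⟨g, hg, hg1⟩ := exists_slope hx hy (intPS K f) (norm_coeff_intPS_le f)
  rw [intPS, coeff_map, h1, map_one, one_mul] at hg1
  have hg' : ‖g - 1‖ < ‖(1 : K)‖ := by
    rw [norm_one]
    exact hg1.trans_lt (max_lt hx hy)
  have : ‖g‖ = 1 := by
    have h := IsUltrametricDist.norm_add_eq_max_of_norm_ne_norm hg'.ne
    rw [sub_add_cancel, max_eq_right hg'.le, norm_one] at h
    exact h
  rw [hg, norm_mul, this, mul_one]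

/-- The evaluation depends only on the point. -/
lemma evalDisc_congr (h : x = y) (hx : ‖x‖ < 1) (hy : ‖y‖ < 1) (g : boundedPS K) :
    evalDisc x hx g = evalDisc y hy g := by
  subst h; rfl

lemma evalDisc_zero_intPS (h0 : coeff 0 f = 0) :
    evalDisc (0 : K) (by simp) (intPS K f) = 0 := by
  rw [evalDisc_apply]
  convert tsum_zero with n
  cases n with
  | zero => simp [intPS, h0]
  | succ n => simp

lemma norm_evalDisc_intPS (h0 : coeff 0 f = 0) (h1 : coeff 1 f = 1) (hx : ‖x‖ < 1) :
    ‖evalDisc x hx (intPS K f)‖ = ‖x‖ := by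
  have h := norm_evalDisc_sub_evalDisc (K := K) h1 hx (y := 0) (by simp)
  rwa [evalDisc_zero_intPS h0, sub_zero, sub_zero] at h

/-- A series `X + ⋯` with integral coefficients is a bijection of the open disc. -/
lemma exists_evalDisc_eq (h0 : coeff 0 f = 0) (h1 : coeff 1 f = 1) {w : K} (hw : ‖w‖ < 1) :
    ∃ (z : K) (hz : ‖z‖ < 1), ‖z‖ = ‖w‖ ∧ evalDisc z hz (intPS K f) = w := by
  classical
  let step : {a : K // ‖a‖ ≤ ‖w‖} → {a : K // ‖a‖ ≤ ‖w‖} := fun a =>
    ⟨a.1 + (w - evalDisc a.1 (a.2.trans_lt hw) (intPS K f)), by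
      refine (IsUltrametricDist.norm_add_le_max _ _).trans (max_le a.2 ?_)
      refine (norm_sub_le_max_field w _).trans (max_le le_rfl ?_)
      rw [norm_evalDisc_intPS h0 h1]
      exact a.2⟩
  let seq : ℕ → {a : K // ‖a‖ ≤ ‖w‖} := fun n => step^[n] ⟨0, by simp⟩
  have herr : ∀ n, ‖w - evalDisc (seq n).1 ((seq n).2.trans_lt hw) (intPS K f)‖
      ≤ ‖w‖ ^ n * ‖w‖ := by
    intro n
    induction n with
    | zero =>
      rw [pow_zero, one_mul]
      refine (norm_sub_le_max_field w _).trans (max_le le_rfl ?_)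
      rw [norm_evalDisc_intPS h0 h1]
      exact (seq 0).2
    | succ n ih =>
      have hs : (seq (n + 1)).1
          = (seq n).1 + (w - evalDisc (seq n).1 ((seq n).2.trans_lt hw) (intPS K f)) := by
        simp only [seq, Function.iterate_succ_apply', step]
      set e := w - evalDisc (seq n).1 ((seq n).2.trans_lt hw) (intPS K f) with he
      obtain ⟨g, hg, hg1⟩ := exists_slope ((seq (n + 1)).2.trans_lt hw) ((seq n).2.trans_lt hw)
        (intPS K f) (norm_coeff_intPS_le f)
      rw [intPS, coeff_map, h1, map_one, one_mul] at hg1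
      have hd : (seq (n + 1)).1 - (seq n).1 = e := by rw [hs, add_sub_cancel_left]
      rw [hd] at hg
      have hnew : w - evalDisc (seq (n + 1)).1 ((seq (n + 1)).2.trans_lt hw) (intPS K f)
          = e * (1 - g) := by
        rw [mul_one_sub, ← hg, he]; ring
      rw [hnew, norm_mul, pow_succ, mul_right_comm]
      refine mul_le_mul ih ?_ (norm_nonneg _) (by positivity)
      rw [norm_sub_rev]
      exact hg1.trans (max_le (seq (n + 1)).2 (seq n).2)
  have hcauchy : CauchySeq fun n => (seq n).1 := by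
    refine cauchySeq_of_le_geometric ‖w‖ ‖w‖ hw fun n => ?_
    rw [dist_eq_norm, norm_sub_rev]
    have hs : (seq (n + 1)).1
        = (seq n).1 + (w - evalDisc (seq n).1 ((seq n).2.trans_lt hw) (intPS K f)) := by
      simp only [seq, Function.iterate_succ_apply', step]
    rw [hs, add_sub_cancel_left, mul_comm]
    exact herr n
  obtain ⟨z, hz⟩ := cauchySeq_tendsto_of_complete hcauchy
  have hzle : ‖z‖ ≤ ‖w‖ := le_of_tendsto' hz.norm fun n => (seq n).2
  have hz1 : ‖z‖ < 1 := hzle.trans_lt hw
  have heq : evalDisc z hz1 (intPS K f) = w := by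
    rw [← sub_eq_zero, ← norm_eq_zero]
    refine le_antisymm ?_ (norm_nonneg _)
    have hlim : Filter.Tendsto
        (fun n => max ‖z - (seq n).1‖ (‖w‖ ^ n * ‖w‖)) Filter.atTop (nhds 0) := by
      have hA : Filter.Tendsto (fun n => ‖z - (seq n).1‖) Filter.atTop (nhds 0) := by
        simpa using (hz.const_sub z).norm
      have hB : Filter.Tendsto (fun n => ‖w‖ ^ n * ‖w‖) Filter.atTop (nhds 0) := by
        simpa using (tendsto_pow_atTop_nhds_zero_of_lt_one (norm_nonneg w) hw).mul_const ‖w‖
      simpa using hA.max hB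
    refine ge_of_tendsto' hlim fun n => ?_
    have h2 := IsUltrametricDist.norm_add_le_max
      (evalDisc z hz1 (intPS K f) - evalDisc (seq n).1 ((seq n).2.trans_lt hw) (intPS K f))
      (evalDisc (seq n).1 ((seq n).2.trans_lt hw) (intPS K f) - w)
    rw [sub_add_sub_cancel, norm_evalDisc_sub_evalDisc h1] at h2
    exact h2.trans (max_le_max le_rfl ((norm_sub_rev _ _).trans_le (herr n)))
  refine ⟨z, hz1, ?_, heq⟩
  have := norm_evalDisc_intPS (K := K) h0 h1 hz1
  rw [heq] at this
  exact this.symm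

/-! ### The `j`-function -/

/-- The series of `1/j`. -/
def jInvSeries : PowerSeries ℤ := X * PowerSeries.invOfUnit ModularCurve.jNum 1

lemma coeff_zero_jInvSeries : coeff 0 jInvSeries = 0 := coeff_zero_X_mul _

/-- `1 / j` starts with `q`. -/
lemma coeff_one_jInvSeries : coeff 1 jInvSeries = 1 := by
  rw [jInvSeries, coeff_succ_X_mul, PowerSeries.coeff_zero_eq_constantCoeff,
    PowerSeries.constantCoeff_invOfUnit]
  rfl

/-- The `j`-function on the disc. -/
def jDisc (r : K) (hr : ‖r‖ < 1) : K := evalDisc r hr (intPS K ModularCurve.jNum) / r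

lemma norm_jNum_disc (hr : ‖r‖ < 1) : ‖evalDisc r hr (intPS K ModularCurve.jNum)‖ = 1 := by
  have h := norm_evalDisc_sub_le hr (norm_coeff_intPS_le (K := K) ModularCurve.jNum)
  have hc : coeff 0 (intPS K ModularCurve.jNum : PowerSeries K) = 1 := by
    rw [intPS, coeff_map, PowerSeries.coeff_zero_eq_constantCoeff,
      ModularCurve.constantCoeff_jNum, map_one]
  rw [hc, one_mul] at h
  have h' : ‖evalDisc r hr (intPS K ModularCurve.jNum) - 1‖ < ‖(1 : K)‖ := by
    rw [norm_one]; exact h.trans_lt hr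
  have := IsUltrametricDist.norm_add_eq_max_of_norm_ne_norm h'.ne
  rw [sub_add_cancel, max_eq_right h'.le, norm_one] at this
  exact this

/-- On the disc `|j(r)| = 1 / |r|`. -/
lemma norm_jDisc (hr : ‖r‖ < 1) : ‖jDisc r hr‖ = ‖r‖⁻¹ := by
  rw [jDisc, norm_div, norm_jNum_disc, one_div]

/-- The series of `1 / j` takes the value `1 / j(r)`. -/
lemma evalDisc_jInvSeries (hr : ‖r‖ < 1) :
    evalDisc r hr (intPS K jInvSeries) = (jDisc r hr)⁻¹ := by
  have hprod : intPS K jInvSeries * intPS K ModularCurve.jNum = discX := by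
    refine Subtype.ext ?_
    change jInvSeries.map (Int.castRingHom K) * ModularCurve.jNum.map (Int.castRingHom K) = X
    rw [← map_mul, jInvSeries, mul_assoc, mul_comm (PowerSeries.invOfUnit ModularCurve.jNum 1),
      PowerSeries.mul_invOfUnit _ _ (by rw [ModularCurve.constantCoeff_jNum]; rfl), mul_one,
      PowerSeries.map_X]
  have h := congrArg (evalDisc r hr) hprod
  rw [map_mul, evalDisc_X] at h
  have hne : evalDisc r hr (intPS K ModularCurve.jNum) ≠ 0 := fun h0 => by
    have := norm_jNum_disc (K := K) hr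
    rw [h0, norm_zero] at this
    exact zero_ne_one this
  rw [jDisc, inv_div, eq_div_iff hne, h]

/-- `j` is injective on the disc. -/
lemma jDisc_injective (hx : ‖x‖ < 1) (hy : ‖y‖ < 1) (h : jDisc x hx = jDisc y hy) : x = y := by
  have h' := norm_evalDisc_sub_evalDisc (K := K) coeff_one_jInvSeries hx hy
  rw [evalDisc_jInvSeries, evalDisc_jInvSeries, h, sub_self, norm_zero] at h'
  exact sub_eq_zero.mp (norm_eq_zero.mp h'.symm)

/-- `j` takes every value of norm above one on the punctured disc. -/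
lemma exists_jDisc_eq {a : K} (ha : 1 < ‖a‖) :
    ∃ (z : K) (hz : ‖z‖ < 1), z ≠ 0 ∧ jDisc z hz = a := by
  have ha' : ‖a⁻¹‖ < 1 := by rw [norm_inv]; exact inv_lt_one_of_one_lt₀ ha
  obtain ⟨z, hz, hnorm, heq⟩ :=
    exists_evalDisc_eq coeff_zero_jInvSeries coeff_one_jInvSeries ha'
  refine ⟨z, hz, fun h => ?_, ?_⟩
  · rw [h, norm_zero, norm_inv, eq_comm, _root_.inv_eq_zero] at hnorm
    linarith
  · rw [evalDisc_jInvSeries] at heq
    exact inv_injective heq

end FermatAgent.Mazur

end
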