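import Fermat.Agent.Mazur.PlaceGal
import Fermat.Agent.Mazur.Kummer
import Fermat.Agent.Mazur.EisPoint
import Fermat.Agent.ES.Tate.Module

/-!
# The Kummer cocycle of a fixed point

A fixed place `P` and the functions with multiplier `ψ mod ℓ^k`, evaluated at `P`, give a cocycle
`g ↦ kumLin g ψ` on the parabolic homomorphisms with values in `ℤ_ℓ(1)`.
-/

set_option autoImplicit false

noncomputable section

open scoped Classical MatrixGroups Matrix
open CongruenceSubgroup (Gamma0)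
open ModularCurve.Period

namespace FermatAgent.Mazur

open FermatAgent.Curve (jField jElt OrdGE)
open FermatAgent.GaloisBasic
open AlgebraicCurve (Place)
open FermatAgent.ES (parGroup padChar padChar_galPad galChar galLin galPad galMat padCyclo)
open FermatAgent.Period (parabolicCoords)
open ModularCurve (coeffMap)

attribute [local instance] embAlg

local notation "Qbar" => AlgebraicClosure ℚ

/-! ### Compatible roots of unity -/

section Roots

variable (ℓ : ℕ) [hℓ : Fact ℓ.Prime]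

lemma exists_zr (k : ℕ) : ∃ z : Qbar, algebraMap Qbar ℂ z = FermatAgent.ES.zetaC (ℓ ^ k) := by
  obtain ⟨ζ, hζ⟩ := FermatAgent.ES.exists_primitive_qbar ℓ k
  obtain ⟨i, -, hi⟩ := (hζ.map_of_injective (algebraMap Qbar ℂ).injective).eq_pow_of_pow_eq_one
    (FermatAgent.ES.zetaC_isPrimitiveRoot (ℓ ^ k)).pow_eq_one
  exact ⟨ζ ^ i, by rw [map_pow, hi]⟩

/-- A compatible system of roots of unity of `ℓ`-power order. -/
def zr (k : ℕ) : Qbar := (exists_zr ℓ k).choose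

lemma algebraMap_zr (k : ℕ) : algebraMap Qbar ℂ (zr ℓ k) = FermatAgent.ES.zetaC (ℓ ^ k) :=
  (exists_zr ℓ k).choose_spec

lemma zr_spec (k : ℕ) : IsPrimitiveRoot (zr ℓ k) (ℓ ^ k) :=
  IsPrimitiveRoot.of_map_of_injective (f := algebraMap Qbar ℂ)
    (by rw [algebraMap_zr]; exact FermatAgent.ES.zetaC_isPrimitiveRoot _)
    (algebraMap Qbar ℂ).injective

lemma zr_succ (k : ℕ) : zr ℓ (k + 1) ^ ℓ = zr ℓ k := by
  apply (algebraMap Qbar ℂ).injective
  rw [map_pow, algebraMap_zr, algebraMap_zr, FermatAgent.ES.zetaC, FermatAgent.ES.zetaC,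
    ← Complex.exp_nat_mul]
  congr 1
  have h0 : (ℓ : ℂ) ≠ 0 := Nat.cast_ne_zero.2 hℓ.out.ne_zero
  push_cast
  field_simp
  ring

/-- `x ↦ ζ_k ^ x`. -/
def zp (k : ℕ) : AddChar ℤ_[ℓ] Qbar :=
  (AddChar.zmodChar (ℓ ^ k) (zr_spec ℓ k).pow_eq_one).compAddMonoidHom
    (PadicInt.toZModPow (p := ℓ) k).toAddMonoidHom

lemma zp_apply (k : ℕ) (x : ℤ_[ℓ]) : zp ℓ k x = zr ℓ k ^ (PadicInt.toZModPow k x).val := rfl

variable {ℓ}

/-- The values are `ℓ ^ k`-th roots of unity. -/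
lemma zp_pow_eq_one (k : ℕ) (x : ℤ_[ℓ]) : zp ℓ k x ^ ℓ ^ k = 1 := by
  rw [zp_apply, ← pow_mul, mul_comm, pow_mul, (zr_spec ℓ k).pow_eq_one, one_pow]

/-- Natural multiples give powers. -/
lemma zp_natCast_mul (k m : ℕ) (x : ℤ_[ℓ]) : zp ℓ k ((m : ℤ_[ℓ]) * x) = zp ℓ k x ^ m := by
  rw [← nsmul_eq_mul, AddChar.map_nsmul_eq_pow]

lemma zp_eq_iff {k : ℕ} {x y : ℤ_[ℓ]} :
    zp ℓ k x = zp ℓ k y ↔ PadicInt.toZModPow k x = PadicInt.toZModPow k y := by
  refine ⟨fun h => ZMod.val_injective _ ((zr_spec ℓ k).pow_inj (ZMod.val_lt _) (ZMod.val_lt _) h),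
    fun h => by rw [zp_apply, zp_apply, h]⟩

/-- The values at all levels determine the `ℓ`-adic integer. -/
lemma zp_inj {x y : ℤ_[ℓ]} (h : ∀ k, zp ℓ k x = zp ℓ k y) : x = y :=
  PadicInt.ext_of_toZModPow.mp fun k => zp_eq_iff.1 (h k)

lemma zp_succ (k : ℕ) (x : ℤ_[ℓ]) : zp ℓ (k + 1) x ^ ℓ = zp ℓ k x := by
  rw [zp_apply, zp_apply, ← pow_mul, mul_comm, pow_mul, zr_succ]
  rw [← pow_mod_orderOf (zr ℓ k) _,
    ← (zr_spec ℓ k).eq_orderOf]
  congr 1
  rw [← ZMod.val_natCast, ← DFunLike.congr_fun (PadicInt.zmod_cast_comp_toZModPow k (k + 1)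
    k.le_succ) x, RingHom.comp_apply, ZMod.castHom_apply, ZMod.natCast_val]

/-- Galois acts on the values through the cyclotomic character. -/
lemma apply_zp (g : GQ) (k : ℕ) (x : ℤ_[ℓ]) : g (zp ℓ k x) = zp ℓ k (padCyclo ℓ g * x) := by
  rw [FermatAgent.ES.padCyclo_spec ℓ g k (zp_pow_eq_one k x), ← zp_natCast_mul]
  rw [zp_eq_iff, map_mul, map_mul, map_natCast, ZMod.natCast_zmod_val]

lemma zp_eq_one_of_dvd {k : ℕ} {x : ℤ_[ℓ]} (h : (ℓ : ℤ_[ℓ]) ^ k ∣ x) : zp ℓ k x = 1 := by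
  obtain ⟨y, rfl⟩ := h
  rw [← Nat.cast_pow, zp_natCast_mul, zp_pow_eq_one]

lemma dvd_of_zp_eq_one {k : ℕ} {x : ℤ_[ℓ]} (h : zp ℓ k x = 1) : (ℓ : ℤ_[ℓ]) ^ k ∣ x := by
  rw [← Ideal.mem_span_singleton, ← PadicInt.ker_toZModPow, RingHom.mem_ker,
    ← map_zero (PadicInt.toZModPow (p := ℓ) k), ← zp_eq_iff, h, AddChar.map_zero_eq_one]

/-- A compatible system of roots comes from `ℤ_ℓ`. -/
lemma exists_zp_eq (t : ℕ → Qbar) (h1 : ∀ k, t k ^ ℓ ^ k = 1) (h2 : ∀ k, t (k + 1) ^ ℓ = t k) :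
    ∃ x, ∀ k, zp ℓ k x = t k := by
  choose a ha ha' using fun k => (zr_spec ℓ k).eq_pow_of_pow_eq_one (h1 k)
  have hz : ∀ k, zp ℓ k (a k : ℤ_[ℓ]) = t k := fun k => by
    rw [← mul_one ((a k : ℕ) : ℤ_[ℓ]), zp_natCast_mul, zp_apply, map_one, ← pow_mul, ← ha']
    rcases k with - | k
    · have := ha 0
      simp at this ⊢
      simp [this]
    · have : Fact (1 < ℓ ^ (k + 1)) := ⟨Nat.one_lt_pow k.succ_ne_zero hℓ.out.one_lt⟩
      rw [ZMod.val_one, one_mul]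
  obtain ⟨x, hx⟩ := FermatAgent.ES.exists_padic_of_compat ℓ
    (fun k => ((a k : ℕ) : ZMod (ℓ ^ k))) fun k => by
      rw [map_natCast, ← map_natCast (PadicInt.toZModPow (p := ℓ) k),
        ← map_natCast (PadicInt.toZModPow (p := ℓ) k) (a k), ← zp_eq_iff, hz k, ← zp_succ,
        hz (k + 1), h2]
  exact ⟨x, fun k => by rw [← hz k, zp_eq_iff, hx, map_natCast]⟩

/-- A compatible system of roots in an overfield comes from `ℤ_ℓ`. -/
lemma exists_zp_map {K : Type*} [Field K] [Algebra Qbar K] (t : ℕ → K)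
    (h1 : ∀ k, t k ^ ℓ ^ k = 1) (h2 : ∀ k, t (k + 1) ^ ℓ = t k) :
    ∃ x, ∀ k, algebraMap Qbar K (zp ℓ k x) = t k := by
  have hinj := (algebraMap Qbar K).injective
  choose i _ hi using fun k =>
    ((zr_spec ℓ k).map_of_injective hinj).eq_pow_of_pow_eq_one (h1 k)
  have hs : ∀ k, algebraMap Qbar K (zr ℓ k ^ i k) = t k := fun k => by rw [map_pow, hi]
  obtain ⟨x, hx⟩ := exists_zp_eq (ℓ := ℓ) (fun k => zr ℓ k ^ i k)
    (fun k => hinj (by rw [map_pow, hs, h1, map_one]))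
    (fun k => hinj (by rw [map_pow, hs, hs, h2]))
  exact ⟨x, fun k => by rw [hx, hs]⟩

end Roots

/-- An additive map between `ℤ_ℓ`-modules into `ℤ_ℓ` is linear. -/
lemma map_smul_of_additive {ℓ : ℕ} [Fact ℓ.Prime] {M : Type*} [AddCommGroup M] [Module ℤ_[ℓ] M]
    (f : M →+ ℤ_[ℓ]) (a : ℤ_[ℓ]) (x : M) : f (a • x) = a * f x := by
  refine zp_inj fun k => zp_eq_iff.2 ?_
  obtain ⟨b, hb⟩ := Ideal.mem_span_singleton.1 (PadicInt.appr_spec k a)
  have ha : a = ((a.appr k : ℕ) : ℤ_[ℓ]) + ((ℓ ^ k : ℕ) : ℤ_[ℓ]) * b := by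
    rw [Nat.cast_pow, ← hb, add_sub_cancel]
  conv_lhs => rw [ha]
  conv_rhs => rw [ha]
  rw [add_smul, mul_smul, Nat.cast_smul_eq_nsmul, Nat.cast_smul_eq_nsmul, map_add, map_nsmul,
    map_nsmul, add_mul, mul_assoc, nsmul_eq_mul, nsmul_eq_mul]
  simp only [map_add, map_mul, map_natCast, ZMod.natCast_self, zero_mul]

/-! ### Series with equal powers -/

lemma laurent_eq_of_pow_eq {x y : LaurentSeries Qbar} {n : ℕ} (hn : n ≠ 0) (hy : y ≠ 0)
    (h : x ^ n = y ^ n) (hlc : x.leadingCoeff = y.leadingCoeff) : x = y := by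
  have : NeZero (n : Qbar) := ⟨Nat.cast_ne_zero.2 hn⟩
  obtain ⟨ζ, hζ⟩ := HasEnoughRootsOfUnity.exists_primitiveRoot Qbar n
  have ht : (x / y) ^ n = 1 := by rw [div_pow, h, div_self (pow_ne_zero _ hy)]
  have : NeZero n := ⟨hn⟩
  obtain ⟨i, -, hi⟩ := (hζ.map_of_injective
    (f := (HahnSeries.C : Qbar →+* LaurentSeries Qbar))
      HahnSeries.C_injective).eq_pow_of_pow_eq_one ht
  rw [← map_pow, eq_div_iff hy] at hi
  rw [← hi] at hlc ⊢
  rw [HahnSeries.leadingCoeff_mul, HahnSeries.C_apply, HahnSeries.leadingCoeff_of_single] at hlc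
  rw [(mul_eq_right₀ (HahnSeries.leadingCoeff_ne_zero.2 hy)).1 hlc, map_one, one_mul]

variable {N : ℕ} [NeZero N]

omit [NeZero N] in
/-- Every element of the field is fixed by an open subgroup. -/
lemma exists_fix_jField {x : LaurentSeries Qbar} (hx : x ∈ jField Qbar N) :
    ∃ L : IntermediateField ℚ Qbar, FiniteDimensional ℚ L ∧
      ∀ g ∈ L.fixingSubgroup, coeffMap (g : Qbar →+* Qbar) x = x := by
  induction hx using IntermediateField.adjoin_induction with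
  | mem x hx =>
    obtain ⟨d, rfl⟩ := hx
    exact ⟨⊥, inferInstance, fun g _ => coeffMap_jGenL _ d⟩
  | algebraMap c =>
    refine ⟨IntermediateField.adjoin ℚ {c}, IntermediateField.adjoin.finiteDimensional
      (Algebra.IsIntegral.isIntegral c), fun g hg => ?_⟩
    rw [coeffMap_algebraMap']
    congr 1
    exact (IntermediateField.mem_fixingSubgroup_iff _ _).1 hg c
      (IntermediateField.mem_adjoin_simple_self ℚ c)
  | add x y _ _ hx hy =>
    obtain ⟨L, hL, h⟩ := hx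
    obtain ⟨M, hM, h'⟩ := hy
    refine ⟨L ⊔ M, inferInstance, fun g hg => ?_⟩
    rw [map_add, h g (IntermediateField.fixingSubgroup_antitone le_sup_left hg),
      h' g (IntermediateField.fixingSubgroup_antitone le_sup_right hg)]
  | inv x _ hx =>
    obtain ⟨L, hL, h⟩ := hx
    exact ⟨L, hL, fun g hg => by rw [map_inv₀, h g hg]⟩
  | mul x y _ _ hx hy =>
    obtain ⟨L, hL, h⟩ := hx
    obtain ⟨M, hM, h'⟩ := hy
    refine ⟨L ⊔ M, inferInstance, fun g hg => ?_⟩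
    rw [map_mul, h g (IntermediateField.fixingSubgroup_antitone le_sup_left hg),
      h' g (IntermediateField.fixingSubgroup_antitone le_sup_right hg)]

namespace FixPt

variable (D : FixPt N)

/-- The coefficientwise action respects products in the group. -/
lemma galU_mul (g h : GQ) (u : (LaurentSeries Qbar)ˣ) : galU (g * h) u = galU g (galU h u) := by
  refine Units.ext ?_
  show coeffMap _ _ = coeffMap _ (coeffMap _ _)
  rw [ModularCurve.coeffMap_coeffMap]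
  rfl

/-- The identity acts trivially on series. -/
lemma galU_one (u : (LaurentSeries Qbar)ˣ) : galU 1 u = u := by
  refine Units.ext ?_
  show coeffMap _ _ = _
  ext k
  simp [ModularCurve.coeffMap_coeff]

lemma mem_regUnits_galU {u : (LaurentSeries Qbar)ˣ} (hu : u ∈ D.regUnits) (g : GQ) :
    galU g u ∈ D.regUnits := by
  obtain ⟨f, hf, hf0⟩ := hu
  exact ⟨galJ N g • f, by rw [coe_galJ_smul, hf]; rfl, by rw [D.ord_galJ, hf0]⟩

/-! ### Good series -/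

/-- `u` has multiplier `φ`, and its `n`-th power has order zero at the point. -/
def IsGood (n : ℕ) (φ : Gamma0 N →* ℂˣ) (u : (LaurentSeries Qbar)ˣ) : Prop :=
  IsMult N φ (u : LaurentSeries Qbar) ∧ u ^ n ∈ D.regUnits

variable {D}

/-- Good series multiply. -/
lemma IsGood.mul {n : ℕ} {φ φ' : Gamma0 N →* ℂˣ} {u v : (LaurentSeries Qbar)ˣ}
    (hu : D.IsGood n φ u) (hv : D.IsGood n φ' v) : D.IsGood n (φ * φ') (u * v) :=
  ⟨hu.1.mul hv.1, by rw [mul_pow]; exact mul_mem hu.2 hv.2⟩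

/-- The `ℓ`-th power of a good series of level `k + 1` is good of level `k`. -/
lemma IsGood.pow_succ {ℓ k : ℕ} {φ : Gamma0 N →* ℂˣ} {u : (LaurentSeries Qbar)ˣ}
    (hu : D.IsGood (ℓ ^ (k + 1)) φ u) : D.IsGood (ℓ ^ k) (φ ^ ℓ) (u ^ ℓ) :=
  ⟨by rw [Units.val_pow_eq_pow_val]; exact hu.1.pow ℓ, by
    rw [← pow_mul, mul_comm, ← _root_.pow_succ]; exact hu.2⟩

/-- Galois carries good series to good series of the transformed character. -/
lemma IsGood.galois {n : ℕ} [NeZero n] {φ : parGroup (Gamma0 N) n} {u : (LaurentSeries Qbar)ˣ}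
    (hu : D.IsGood n (φ : Gamma0 N →* ℂˣ) u) (g : GQ) :
    D.IsGood n (galChar (FermatAgent.ES.goodLevel_Gamma0 N) n g φ : Gamma0 N →* ℂˣ) (galU g u) :=
  ⟨hu.1.galois g, by rw [← map_pow]; exact D.mem_regUnits_galU hu.2 g⟩

/-- Two good series with the same multiplier differ by a function of order zero. -/
lemma IsGood.div_mem {n : ℕ} {φ : Gamma0 N →* ℂˣ} (hn : n ≠ 0) (hφ : φ ^ n = 1)
    {u v : (LaurentSeries Qbar)ˣ} (hu : D.IsGood n φ u) (hv : D.IsGood n φ v) :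
    v * u⁻¹ ∈ D.regUnits := by
  have h1 := hv.1.mul (hu.1.inv hn hφ)
  rw [mul_inv_cancel φ] at h1
  set f : jField Qbar N := ⟨_, h1.mem⟩
  obtain ⟨f', hf', hf'0⟩ := mul_mem hv.2 (inv_mem hu.2)
  have hff : f' = f ^ n := Subtype.ext (by
    rw [hf']
    show _ = ((v : LaurentSeries Qbar) * (u : LaurentSeries Qbar)⁻¹) ^ n
    simp [mul_pow, Units.val_inv_eq_inv_val])
  refine ⟨f, by simp [f, Units.val_inv_eq_inv_val], ?_⟩
  rw [hff, Curve.ord_pow] at hf'0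
  exact (mul_eq_zero.1 hf'0).resolve_left (Nat.cast_ne_zero.2 hn)

variable (D)

theorem exists_isGood {n : ℕ} [NeZero n] (φ : parGroup (Gamma0 N) n) :
    ∃ u, D.IsGood n (φ : Gamma0 N →* ℂˣ) u := by
  obtain ⟨S, hS⟩ := exists_isMult φ
  have hφ : (φ : Gamma0 N →* ℂˣ) ^ n = 1 := φ.2.1
  set x := jElt Qbar N - algebraMap Qbar (jField Qbar N) D.a
  have hx0 : x ≠ 0 := fun h => by
    have := D.ord_a
    rw [show jElt Qbar N - algebraMap Qbar (jField Qbar N) D.a = x from rfl, h, Place.ord_zero]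
      at this
    exact zero_ne_one this
  set F : jField Qbar N := ⟨S ^ n, hS.pow_mem hφ⟩
  obtain ⟨m, hm⟩ := hS.dvd_ord hφ (F := F) rfl D.ne_zero D.ne_1728 (v := D.P)
    (by rw [D.ord_a]; exact one_pos)
  have hX : ∀ m : ℤ, IsMult N 1 ((x : LaurentSeries Qbar) ^ m) := fun m => by
    have h1 := isMult_jElt_sub (N := N) D.a
    rcases Int.eq_nat_or_neg m with ⟨i, rfl | rfl⟩
    · rw [zpow_natCast]
      have := h1.pow i
      rwa [one_char_pow] at this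
    · rw [zpow_neg, zpow_natCast]
      have := h1.pow i
      rw [one_char_pow] at this
      exact this.inv_of_one
  have hT := hS.mul (hX (-m))
  rw [mul_one (φ : Gamma0 N →* ℂˣ)] at hT
  refine ⟨Units.mk0 _ hT.ne_zero, hT, ?_⟩
  refine ⟨F * (x ^ (-m)) ^ n, ?_, ?_⟩
  · rw [IntermediateField.coe_mul, IntermediateField.coe_pow, Units.val_pow_eq_pow_val,
      Units.val_mk0, mul_pow]
    congr 1
  have hF0 : F ≠ 0 := fun h => pow_ne_zero n hS.ne_zero (congrArg Subtype.val h)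
  rw [D.P.ord_mul hF0 (pow_ne_zero _ (zpow_ne_zero _ hx0)), Curve.ord_pow, Place.ord_zpow,
    D.ord_a, hm]
  ring

/-! ### The cocycle -/

/-- `g R(g⁻¹ u) / R(u)`. -/
def kap (g : GQ) : (LaurentSeries Qbar)ˣ →* Qbarˣ :=
  ((Units.map (g : Qbar →* Qbar)).comp (D.val.comp (galU g⁻¹))) * D.val⁻¹

/-- The cocycle is `g R(g⁻¹ u) / R(u)`. -/
lemma kap_apply (g : GQ) (u : (LaurentSeries Qbar)ˣ) :
    (D.kap g u : Qbar) = g (D.val (galU g⁻¹ u) : Qbar) * (D.val u : Qbar)⁻¹ := by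
  simp [kap, Units.val_inv_eq_inv_val]

lemma kap_reg (g : GQ) {u : (LaurentSeries Qbar)ˣ} (hu : u ∈ D.regUnits) : D.kap g u = 1 := by
  obtain ⟨f, hf, hf0⟩ := hu
  refine Units.ext ?_
  rw [kap_apply, D.val_galU g⁻¹ hf hf0]
  simp [AlgEquiv.aut_inv]

lemma kap_mul (g h : GQ) (u : (LaurentSeries Qbar)ˣ) :
    (D.kap (g * h) u : Qbar) = g (D.kap h (galU g⁻¹ u) : Qbar) * (D.kap g u : Qbar) := by
  rw [kap_apply, kap_apply, kap_apply, mul_inv_rev, galU_mul, map_mul, map_inv₀,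
    AlgEquiv.mul_apply]
  field_simp

lemma kap_pow_eq_one (g : GQ) {n : ℕ} {φ : Gamma0 N →* ℂˣ} {u : (LaurentSeries Qbar)ˣ}
    (hu : D.IsGood n φ u) : (D.kap g u : Qbar) ^ n = 1 := by
  rw [← Units.val_pow_eq_pow_val, ← map_pow, D.kap_reg g hu.2, Units.val_one]

variable {D} in
lemma IsGood.kap_eq (g : GQ) {n : ℕ} {φ : Gamma0 N →* ℂˣ} (hn : n ≠ 0) (hφ : φ ^ n = 1)
    {u v : (LaurentSeries Qbar)ˣ} (hu : D.IsGood n φ u) (hv : D.IsGood n φ v) :
    D.kap g u = D.kap g v := by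
  have h := D.kap_reg g (hu.div_mem hn hφ hv)
  rw [map_mul, map_inv, mul_inv_eq_one] at h
  exact h.symm

variable {ℓ : ℕ} [hℓ : Fact ℓ.Prime]

local notation "V" => parabolicHoms ℤ_[ℓ] (Gamma0 N) ℤ_[ℓ]

/-- A good series for `ψ mod ℓ^k`. -/
def goodU (k : ℕ) (ψ : V) : (LaurentSeries Qbar)ˣ := (D.exists_isGood (padChar ℓ k ψ)).choose

/-- The chosen series is good. -/
lemma isGood_goodU (k : ℕ) (ψ : V) :
    D.IsGood (ℓ ^ k) (padChar ℓ k ψ : Gamma0 N →* ℂˣ) (D.goodU k ψ) :=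
  (D.exists_isGood (padChar ℓ k ψ)).choose_spec

variable {D} in
lemma IsGood.kap_goodU (g : GQ) {k : ℕ} {ψ : V} {u : (LaurentSeries Qbar)ˣ}
    (hu : D.IsGood (ℓ ^ k) (padChar ℓ k ψ : Gamma0 N →* ℂˣ) u) :
    D.kap g u = D.kap g (D.goodU k ψ) :=
  hu.kap_eq g (pow_ne_zero _ hℓ.out.ne_zero) (padChar ℓ k ψ).2.1 (D.isGood_goodU k ψ)

lemma exists_kum (g : GQ) (ψ : V) :
    ∃ x : ℤ_[ℓ], ∀ k, zp ℓ k x = (D.kap g (D.goodU k ψ) : Qbar) := by
  refine exists_zp_eq _ (fun k => D.kap_pow_eq_one g (D.isGood_goodU k ψ)) fun k => ?_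
  have h := (D.isGood_goodU (k + 1) ψ).pow_succ
  rw [FermatAgent.ES.padChar_succ] at h
  rw [← h.kap_goodU g, map_pow, Units.val_pow_eq_pow_val]

/-- The cocycle as a function. -/
def kum (g : GQ) (ψ : V) : ℤ_[ℓ] := (D.exists_kum g ψ).choose

variable {D} in
/-- Any good series gives the value of the Kummer cocycle. -/
theorem IsGood.zp_kum (g : GQ) {k : ℕ} {ψ : V} {u : (LaurentSeries Qbar)ˣ}
    (hu : D.IsGood (ℓ ^ k) (padChar ℓ k ψ : Gamma0 N →* ℂˣ) u) :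
    zp ℓ k (D.kum g ψ) = (D.kap g u : Qbar) := by
  rw [hu.kap_goodU g]
  exact (D.exists_kum g ψ).choose_spec k

variable (ℓ) in
/-- The cocycle as a family of linear forms. -/
def kumLin (g : GQ) : V →ₗ[ℤ_[ℓ]] ℤ_[ℓ] :=
  have hadd : ∀ ψ ψ' : V, D.kum g (ψ + ψ') = D.kum g ψ + D.kum g ψ' := fun ψ ψ' => by
    refine zp_inj fun k => ?_
    have h := (D.isGood_goodU k ψ).mul (D.isGood_goodU k ψ')
    rw [← Subgroup.coe_mul, ← FermatAgent.ES.padChar_add] at h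
    rw [h.zp_kum g, AddChar.map_add_eq_mul, (D.isGood_goodU k ψ).zp_kum g,
      (D.isGood_goodU k ψ').zp_kum g, map_mul, Units.val_mul]
  { toFun := D.kum g
    map_add' := hadd
    map_smul' := fun a ψ => map_smul_of_additive (AddMonoidHom.mk' (D.kum g) hadd) a ψ }

/-- The linear form is the cocycle. -/
lemma kumLin_apply (g : GQ) (ψ : V) : D.kumLin ℓ g ψ = D.kum g ψ := rfl

/-- The cocycle identity. -/
theorem kumLin_mul (g h : GQ) (ψ : V) :
    D.kumLin ℓ (g * h) ψ =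
      padCyclo ℓ g * D.kumLin ℓ h (galLin ℓ g⁻¹ ψ) + D.kumLin ℓ g ψ := by
  refine zp_inj fun k => ?_
  have hu := D.isGood_goodU k ψ
  have hu' := hu.galois g⁻¹
  rw [← padChar_galPad] at hu'
  rw [kumLin_apply, kumLin_apply, kumLin_apply, FermatAgent.ES.galLin_apply,
    AddChar.map_add_eq_mul, hu.zp_kum, hu.zp_kum, ← apply_zp, hu'.zp_kum, D.kap_mul]

theorem kumLin_one : D.kumLin ℓ 1 = 0 := by
  refine LinearMap.ext fun ψ => ?_
  have h := D.kumLin_mul (ℓ := ℓ) 1 1 ψ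
  rw [mul_one, map_one, one_mul, inv_one, map_one, Module.End.one_apply, left_eq_add] at h
  rw [h, LinearMap.zero_apply]

/-- Continuity of the cocycle. -/
theorem exists_kumLin_dvd (k : ℕ) (ψ : V) : ∃ U : Subgroup GQ, IsOpen (U : Set GQ) ∧
    ∀ g ∈ U, (ℓ : ℤ_[ℓ]) ^ k ∣ D.kumLin ℓ g ψ := by
  set u := D.goodU (ℓ := ℓ) k ψ
  have hu := D.isGood_goodU k ψ
  obtain ⟨f, hf, -⟩ := hu.2
  obtain ⟨L, hL, hfix⟩ := exists_fix_jField f.2
  set s : Set Qbar := {(u : LaurentSeries Qbar).leadingCoeff, (D.val u : Qbar)}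
  have : FiniteDimensional ℚ (IntermediateField.adjoin ℚ s) :=
    IntermediateField.finiteDimensional_adjoin fun x _ => Algebra.IsIntegral.isIntegral x
  refine ⟨(L ⊔ IntermediateField.adjoin ℚ s).fixingSubgroup,
    IntermediateField.fixingSubgroup_isOpen _, fun g hg => dvd_of_zp_eq_one ?_⟩
  have hg' := inv_mem hg
  have hs : ∀ x ∈ s, g⁻¹ x = x := fun x hx => (IntermediateField.mem_fixingSubgroup_iff _ _).1
    (IntermediateField.fixingSubgroup_antitone le_sup_right hg') x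
    (IntermediateField.subset_adjoin ℚ s hx)
  have hgu : galU g⁻¹ u = u := by
    refine Units.ext (laurent_eq_of_pow_eq (pow_ne_zero k hℓ.out.ne_zero) u.ne_zero ?_ ?_)
    · show (coeffMap (g⁻¹ : GQ).toRingEquiv.toRingHom (u : LaurentSeries Qbar)) ^ _ = _
      rw [← map_pow, ← Units.val_pow_eq_pow_val, ← hf]
      exact hfix g⁻¹ (IntermediateField.fixingSubgroup_antitone le_sup_left hg')
    · have hne : coeffMap ((g⁻¹ : GQ) : Qbar →+* Qbar) (u : LaurentSeries Qbar) ≠ 0 :=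
        (_root_.map_ne_zero _).2 u.ne_zero
      have horder : (coeffMap ((g⁻¹ : GQ) : Qbar →+* Qbar) (u : LaurentSeries Qbar)).order =
          (u : LaurentSeries Qbar).order := by
        refine le_antisymm (HahnSeries.order_le_of_coeff_ne_zero ?_)
          (HahnSeries.order_le_of_coeff_ne_zero ?_)
        · rw [ModularCurve.coeffMap_coeff, _root_.map_ne_zero, ← HahnSeries.leadingCoeff_eq]
          exact HahnSeries.leadingCoeff_ne_zero.2 u.ne_zero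
        · have h := HahnSeries.leadingCoeff_ne_zero.2 hne
          rw [HahnSeries.leadingCoeff_eq, ModularCurve.coeffMap_coeff, _root_.map_ne_zero] at h
          exact h
      show (coeffMap ((g⁻¹ : GQ) : Qbar →+* Qbar) (u : LaurentSeries Qbar)).leadingCoeff = _
      rw [HahnSeries.leadingCoeff_eq, horder, ModularCurve.coeffMap_coeff,
        ← HahnSeries.leadingCoeff_eq]
      exact hs _ (Set.mem_insert _ _)
  have hval := hs (D.val u : Qbar) (Set.mem_insert_of_mem _ rfl)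
  rw [kumLin_apply, hu.zp_kum, kap_apply, hgu]
  conv_lhs => rw [← hval]
  rw [AlgEquiv.aut_inv, AlgEquiv.apply_symm_apply, ← AlgEquiv.aut_inv, hval,
    mul_inv_cancel₀ (D.val u).ne_zero]

/-! ### The cocycle at an unramified prime -/

/-- The Eichler–Shimura relation at Frobenius: `F² - T_q F + q = 0`. -/
lemma galLin_congruence [Algebra Qbar ℂ_[ℓ]] {q : ℕ} (hq : q.Prime) (hqN : ¬ q ∣ N) (hqℓ : q ≠ ℓ)
    {A : ValuationSubring Qbar} (hA : A.LiesOverPrime q) {F : GQ} (hF : A.IsFrobeniusAt F q)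
    (ψ : V) : galLin ℓ F (galLin ℓ F ψ) - tV hq (galLin ℓ F ψ) + q • ψ = 0 := by
  refine (parabolicCoords (Gamma0 N) ℤ_[ℓ] ℤ_[ℓ]).injective ?_
  rw [map_zero, map_add, map_sub, map_nsmul, tV_apply, ← parAction_hop,
    ← FermatAgent.ES.heckePadMat_mulVec, FermatAgent.ES.galLin_apply,
    ← FermatAgent.ES.galMat_mulVec, FermatAgent.ES.galLin_apply, ← FermatAgent.ES.galMat_mulVec,
    Matrix.mulVec_mulVec, Matrix.mulVec_mulVec, ← Nat.cast_smul_eq_nsmul ℤ_[ℓ],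
    ← Matrix.natCast_mulVec, ← Matrix.sub_mulVec, ← Matrix.add_mulVec]
  exact (congrArg (· *ᵥ _) (FermatAgent.ES.galMat_congruence ℓ hq hqN hqℓ hA hF)).trans
    (Matrix.zero_mulVec _)

/-- At a prime prime to `ℓ N` the values on inertia are killed by `T_q - 1 - q`. -/
theorem kumLin_inertia [Algebra Qbar ℂ_[ℓ]] {q : ℕ} (hq : q.Prime) (hqN : ¬ q ∣ N) (hqℓ : q ≠ ℓ)
    {A : ValuationSubring Qbar} (hA : A.LiesOverPrime q) {σ : GQ}
    (hσ : σ ∈ A.inertiaSubgroupIn ℚ) (ψ : V) :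
    D.kumLin ℓ σ (tV hq ψ) = (1 + q : ℤ_[ℓ]) * D.kumLin ℓ σ ψ := by
  obtain ⟨F, hF⟩ := exists_isFrobeniusAt hq hA
  obtain ⟨hFD, -⟩ := id hF
  have htriv : ∀ τ ∈ A.inertiaSubgroupIn ℚ, galLin (N := N) ℓ τ = 1 := fun τ hτ =>
    LinearMap.ext fun φ => (parabolicCoords (Gamma0 N) ℤ_[ℓ] ℤ_[ℓ]).injective (by
      rw [FermatAgent.ES.galLin_apply, ← FermatAgent.ES.galMat_mulVec,
        FermatAgent.ES.galMat_inertia ℓ hq hqN hqℓ hA hτ, Matrix.one_mulVec]; rfl)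
  have hqℓ' : ¬ q ∣ ℓ := fun h => hqℓ ((Nat.prime_dvd_prime_iff_eq hq hℓ.out).1 h)
  have hcyc : ∀ τ ∈ A.inertiaSubgroupIn ℚ, padCyclo ℓ τ = 1 := fun τ hτ => by
    refine PadicInt.ext_of_toZModPow.mp fun k => ?_
    rw [map_one, ← Nat.cast_one (R := ZMod (ℓ ^ k))]
    exact FermatAgent.ES.toZModPow_padCyclo_eq ℓ (zr_spec ℓ k) (by
      rw [pow_one]
      exact inertia_fixes_rootsOfUnity hq hA (fun h => hqℓ' (hq.dvd_of_dvd_pow h))
        (pow_ne_zero _ hℓ.out.ne_zero) hτ (zr_spec ℓ k).pow_eq_one)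
  have hadd : ∀ τ ∈ A.inertiaSubgroupIn ℚ, ∀ τ' ∈ A.inertiaSubgroupIn ℚ, ∀ φ : V,
      D.kumLin ℓ (τ * τ') φ = D.kumLin ℓ τ φ + D.kumLin ℓ τ' φ := fun τ hτ τ' _ φ => by
    rw [kumLin_mul, hcyc τ hτ, one_mul, htriv τ⁻¹ (inv_mem hτ), Module.End.one_apply, add_comm]
  -- the tame quotient
  have htame : ∀ τ ∈ A.inertiaSubgroupIn ℚ, ∀ φ : V,
      D.kumLin ℓ (F * τ * F⁻¹) φ = (q : ℤ_[ℓ]) * D.kumLin ℓ τ φ := by
    intro τ hτ φ
    refine zp_inj fun k => ?_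
    obtain ⟨κ, -, hκF, hκ⟩ := exists_tame_char hq hA (fun h => hqℓ' (hq.dvd_of_dvd_pow h))
      (pow_ne_zero k hℓ.out.ne_zero) hF
    obtain ⟨U, hU, hUd⟩ := D.exists_kumLin_dvd k φ
    obtain ⟨n, hn⟩ := hκ (fun τ => zp ℓ k (D.kumLin ℓ τ φ))
      (fun a ha b hb => by rw [hadd a ha b hb φ, AddChar.map_add_eq_mul])
      (fun a _ => zp_pow_eq_one _ _) U hU fun a _ haU => zp_eq_one_of_dvd (hUd a haU)
    rw [zp_natCast_mul, hn _ hτ, hn _ (conj_mem_inertiaSubgroupIn_of_mem hq hA hτ hFD), hκF τ hτ,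
      ← zpow_natCast, ← zpow_natCast, ← zpow_mul, ← zpow_mul, mul_comm]
  have hcF : padCyclo ℓ F = q := FermatAgent.ES.padCyclo_frobenius ℓ hq hqℓ hA hF
  -- invariance under Frobenius
  have hinv : ∀ φ : V, D.kumLin ℓ σ (galLin ℓ F φ) = D.kumLin ℓ σ φ := by
    intro φ
    set φ' := galLin ℓ F φ
    have hback : galLin ℓ F⁻¹ φ' = φ := by
      rw [← Module.End.mul_apply, ← map_mul, inv_mul_cancel, map_one, Module.End.one_apply]
    have h0 := D.kumLin_mul (ℓ := ℓ) F F⁻¹ φ'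
    rw [mul_inv_cancel, D.kumLin_one, LinearMap.zero_apply, hback] at h0
    have h1 := D.kumLin_mul (ℓ := ℓ) (F * σ) F⁻¹ φ'
    rw [D.kumLin_mul F σ φ', map_mul, hcyc σ hσ, mul_one, mul_inv_rev, map_mul,
      Module.End.mul_apply,
      hback, htriv σ⁻¹ (inv_mem hσ), Module.End.one_apply, htame σ hσ, hcF] at h1
    rw [hcF] at h0
    refine mul_left_cancel₀ (Nat.cast_ne_zero.2 hq.ne_zero : (q : ℤ_[ℓ]) ≠ 0) ?_
    linear_combination h1 - h0
  have h := congrArg (D.kumLin ℓ σ) (galLin_congruence hq hqN hqℓ hA hF ψ)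
  rw [map_zero, map_add, map_sub, map_nsmul, ← galLin_tV hq F ψ, hinv, hinv, hinv,
    nsmul_eq_mul] at h
  linear_combination -h

end FixPt

end FermatAgent.Mazur

end
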