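import Fermat.Agent.Mazur.DiscFibre
import Fermat.Agent.Mazur.DiscValue
import Fermat.Agent.Mazur.Mult
import Fermat.Prelude.Def_AlgebraicCurve_BaseChangeGalois
import Fermat.Prelude.Thm_ModularCurve_coeffMap_qExpand
import Mathlib.Algebra.Category.Grp.Injective

/-!
# Galois-fixed places and a choice of values

Galois acts on the field of modular functions through the coefficients.  At a fixed place the value
of a function of order zero extends to a homomorphism on all non-zero series.
-/

set_option autoImplicit false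

noncomputable section

open scoped Classical

namespace FermatAgent.Mazur

open FermatAgent.Curve (jField jElt JIdx OrdGE jGenL evalAt evalAt_spec)
open FermatAgent.GaloisBasic
open AlgebraicCurve (Place SemilinearAut)
open ModularCurve (coeffMap)

attribute [local instance] embAlg

local notation "Qbar" => AlgebraicClosure ℚ

variable {N : ℕ}

/-! ### The action on functions -/

/-- The generators have rational coefficients. -/
lemma coeffMap_jGenL (σ : Qbar →+* Qbar) (d : JIdx N) :
    coeffMap σ (jGenL Qbar N d) = jGenL Qbar N d := by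
  rw [jGenL, ModularCurve.coeffMap_qExpand]
  congr 1
  rw [ModularCurve.jqModC, map_mul, ModularCurve.coeffMap_single, map_one,
    ModularCurve.coeffMap_ofPowerSeries]
  congr 2
  ext k
  simp

/-- The action on coefficients restricts to `σ` on constants. -/
lemma coeffMap_algebraMap' (σ : Qbar →+* Qbar) (c : Qbar) :
    coeffMap σ (algebraMap Qbar (LaurentSeries Qbar) c) =
      algebraMap Qbar (LaurentSeries Qbar) (σ c) := by
  rw [ModularCurve.algebraMap_laurentSeries_eq_single,
    ModularCurve.algebraMap_laurentSeries_eq_single, ModularCurve.coeffMap_single]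

lemma coeffMap_mem_jField (σ : Qbar →+* Qbar) {x : LaurentSeries Qbar} (hx : x ∈ jField Qbar N) :
    coeffMap σ x ∈ jField Qbar N := by
  induction hx using IntermediateField.adjoin_induction with
  | mem x hx =>
    obtain ⟨d, rfl⟩ := hx
    rw [coeffMap_jGenL]
    exact IntermediateField.subset_adjoin Qbar _ ⟨d, rfl⟩
  | algebraMap c => rw [coeffMap_algebraMap']; exact IntermediateField.algebraMap_mem _ _
  | add x y _ _ hx hy => rw [map_add]; exact add_mem hx hy
  | inv x _ hx => rw [map_inv₀]; exact inv_mem hx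
  | mul x y _ _ hx hy => rw [map_mul]; exact mul_mem hx hy

lemma coeffMap_symm_apply (g : GQ) (x : LaurentSeries Qbar) :
    coeffMap (g : Qbar →+* Qbar) (coeffMap (g.symm : Qbar →+* Qbar) x) = x := by
  ext k
  simp [ModularCurve.coeffMap_coeff]

variable (N) in
/-- The automorphism of the field given by the coefficients. -/
def jAut (g : GQ) : jField Qbar N ≃+* jField Qbar N where
  toFun x := ⟨coeffMap (g : Qbar →+* Qbar) x, coeffMap_mem_jField _ x.2⟩
  invFun x := ⟨coeffMap (g.symm : Qbar →+* Qbar) x, coeffMap_mem_jField _ x.2⟩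
  left_inv x := Subtype.ext (by simpa using coeffMap_symm_apply g.symm (x : LaurentSeries Qbar))
  right_inv x := Subtype.ext (coeffMap_symm_apply g (x : LaurentSeries Qbar))
  map_mul' x y := Subtype.ext (map_mul (coeffMap (g : Qbar →+* Qbar)) _ _)
  map_add' x y := Subtype.ext (map_add (coeffMap (g : Qbar →+* Qbar)) _ _)

variable (N) in
/-- Galois as semilinear automorphisms. -/
def galJ (g : GQ) : SemilinearAut Qbar (jField Qbar N) :=
  ⟨(jAut N g, g.toRingEquiv), fun a => Subtype.ext (coeffMap_algebraMap' _ a)⟩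

/-- Galois acts on the field through the coefficients. -/
lemma coe_galJ_smul (g : GQ) (x : jField Qbar N) :
    ((galJ N g • x : jField Qbar N) : LaurentSeries Qbar) = coeffMap (g : Qbar →+* Qbar) x := rfl

lemma galJ_smul_algebraMap (g : GQ) (c : Qbar) :
    galJ N g • algebraMap Qbar (jField Qbar N) c = algebraMap Qbar (jField Qbar N) (g c) :=
  Subtype.ext (coeffMap_algebraMap' _ c)

lemma galJ_smul_toJField_X (g : GQ) (d : JIdx N) :
    galJ N g • Curve.toJField Qbar N (MvPolynomial.X d) =
      Curve.toJField Qbar N (MvPolynomial.X d) := by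
  refine Subtype.ext ?_
  rw [coe_galJ_smul, Curve.coe_toJField, Curve.evL, MvPolynomial.aeval_X, coeffMap_jGenL]

lemma ordGE_galJ (g : GQ) {v : Place Qbar (jField Qbar N)} {f : jField Qbar N} {n : ℤ}
    (h : OrdGE v n f) : OrdGE (galJ N g • v) n (galJ N g • f) :=
  h.imp (fun h0 => by rw [h0, smul_zero]) fun h0 => by rwa [SemilinearAut.ord_smul]

variable [NeZero N]

lemma galJ_smul_jElt_sub (g : GQ) (c : Qbar) :
    galJ N g • (jElt Qbar N - algebraMap Qbar (jField Qbar N) c) =
      jElt Qbar N - algebraMap Qbar (jField Qbar N) (g c) := by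
  rw [smul_sub, galJ_smul_algebraMap]
  congr 1
  exact galJ_smul_toJField_X g _

/-- A point with rational coordinates outside the unit disc is fixed by Galois. -/
theorem galJ_smul_eq_self {ℓ : ℕ} [Fact ℓ.Prime] [Algebra Qbar ℂ_[ℓ]] (hN : N.Prime)
    {P : Place Qbar (jField Qbar N)} {a b : ℚ}
    (hP : HasCoords P (a : Qbar) b)
    (hav : 1 < ‖algebraMap Qbar ℂ_[ℓ] (a : Qbar)‖)
    (hbv : ‖algebraMap Qbar ℂ_[ℓ] (b : Qbar)‖ = ‖algebraMap Qbar ℂ_[ℓ] (a : Qbar)‖ ^ N) (g : GQ) :
    galJ N g • P = P := by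
  refine place_eq_of_values N hN ⟨?_, ?_⟩ hP hav hbv
  · have h := ordGE_galJ g hP.ordGE_j
    rwa [galJ_smul_jElt_sub, map_ratCast] at h
  · have h := ordGE_galJ g hP.ordGE_jN
    rwa [smul_sub, galJ_smul_algebraMap, galJ_smul_toJField_X, map_ratCast] at h

/-! ### Fixed points -/

/-- A place fixed by Galois, unramified over `j`, away from the elliptic points. -/
structure FixPt (N : ℕ) [NeZero N] where
  /-- the place -/
  P : Place (AlgebraicClosure ℚ) (jField (AlgebraicClosure ℚ) N)
  /-- the value of `j` at the place -/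
  a : AlgebraicClosure ℚ
  ord_a : P.ord (jElt (AlgebraicClosure ℚ) N - algebraMap _ _ a) = 1
  ne_zero : a ≠ 0
  ne_1728 : a ≠ 1728
  fix : ∀ g : GQ, galJ N g • P = P

namespace FixPt

variable (D : FixPt N)

/-- Galois fixes the order at a fixed place. -/
lemma ord_galJ (g : GQ) (f : jField Qbar N) : D.P.ord (galJ N g • f) = D.P.ord f := by
  have h := SemilinearAut.ord_smul (galJ N g) D.P f
  rwa [D.fix g] at h

/-- Units of the series with a value at the place. -/
def regUnits : Subgroup (LaurentSeries Qbar)ˣ where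
  carrier := {u | ∃ f : jField Qbar N, (f : LaurentSeries Qbar) = u ∧ D.P.ord f = 0}
  one_mem' := ⟨1, rfl, D.P.ord_one⟩
  mul_mem' := by
    rintro u v ⟨f, hf, hf0⟩ ⟨f', hf', hf'0⟩
    refine ⟨f * f', by rw [IntermediateField.coe_mul, hf, hf', Units.val_mul], ?_⟩
    rw [D.P.ord_mul (fun h => u.ne_zero (by rw [← hf, h]; rfl))
      (fun h => v.ne_zero (by rw [← hf', h]; rfl)), hf0, hf'0, add_zero]
  inv_mem' := by
    rintro u ⟨f, hf, hf0⟩
    exact ⟨f⁻¹, by rw [IntermediateField.coe_inv, hf, Units.val_inv_eq_inv_val],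
      by rw [D.P.ord_inv, hf0, neg_zero]⟩

lemma exists_val {f : jField Qbar N} (hf : f ≠ 0) (h : D.P.ord f = 0) :
    ∃ c : Qbar, c ≠ 0 ∧ OrdGE D.P 1 (f - algebraMap Qbar (jField Qbar N) c) := by
  obtain ⟨c, hc⟩ := Curve.exists_sub_algebraMap D.P (f := f) (Or.inr h.ge)
  refine ⟨c, fun h0 => ?_, hc⟩
  rw [h0, map_zero, sub_zero] at hc
  rcases hc with hc | hc
  · exact hf hc
  · omega

lemma exists_val_unit (u : D.regUnits) : ∃ c : Qbarˣ, ∀ f : jField Qbar N,
    (f : LaurentSeries Qbar) = ((u : (LaurentSeries Qbar)ˣ) : LaurentSeries Qbar) →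
      OrdGE D.P 1 (f - algebraMap Qbar (jField Qbar N) (c : Qbar)) := by
  obtain ⟨⟨u, hu⟩, f, hf, hf0⟩ := u, u.2
  obtain ⟨c, hc0, hc⟩ := D.exists_val (f := f) (fun h => u.ne_zero (by rw [← hf, h]; rfl)) hf0
  refine ⟨Units.mk0 c hc0, fun f' hf' => ?_⟩
  rwa [show f' = f from Subtype.ext (hf'.trans hf.symm)]

/-- The value at the place. -/
def valHom : D.regUnits →* Qbarˣ :=
  MonoidHom.mk' (fun u => (D.exists_val_unit u).choose) fun u v => by
    obtain ⟨f, hf, hf0⟩ := u.2
    obtain ⟨f', hf', hf'0⟩ := v.2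
    have h1 := (D.exists_val_unit u).choose_spec f hf
    have h2 := (D.exists_val_unit v).choose_spec f' hf'
    have h3 := (D.exists_val_unit (u * v)).choose_spec (f * f')
      (by rw [IntermediateField.coe_mul, hf, hf']; rfl)
    set c := (D.exists_val_unit u).choose
    set c' := (D.exists_val_unit v).choose
    refine Units.ext (Curve.eq_of_ordGE_one_sub h3 ?_)
    rw [Units.val_mul, map_mul,
      show f * f' - algebraMap Qbar (jField Qbar N) c * algebraMap Qbar (jField Qbar N) c' =
        (f - algebraMap Qbar (jField Qbar N) c) * f' +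
        algebraMap Qbar (jField Qbar N) c * (f' - algebraMap Qbar (jField Qbar N) c') by ring]
    refine ((h1.mul (m := 0) (Or.inr hf'0.ge)).mono (by omega)).add
      (((Curve.ordGE_algebraMap _).mul h2).mono (by omega))

theorem exists_ext : ∃ R : (LaurentSeries Qbar)ˣ →* Qbarˣ, ∀ u : D.regUnits, R u = D.valHom u := by
  have hsurj : ∀ {n : ℤ}, n ≠ 0 →
      Function.Surjective (fun x : Additive Qbarˣ => n • x) := fun {n} hn x => by
    obtain ⟨y, hy⟩ := IsAlgClosed.exists_pow_nat_eq ((x.toMul : Qbarˣ) : Qbar)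
      (n := n.natAbs) (Int.natAbs_pos.2 hn)
    have hy0 : y ≠ 0 := fun h => x.toMul.ne_zero (by
      rw [← hy, h, zero_pow (Int.natAbs_ne_zero.2 hn)])
    have hu : Units.mk0 y hy0 ^ n.natAbs = x.toMul := Units.ext (by simpa using hy)
    rcases Int.natAbs_eq n with h | h
    · exact ⟨Additive.ofMul (Units.mk0 y hy0), Additive.toMul.injective (by
        show Units.mk0 y hy0 ^ n = x.toMul
        rw [h, zpow_natCast, hu])⟩
    · exact ⟨Additive.ofMul (Units.mk0 y hy0)⁻¹, Additive.toMul.injective (by
        show (Units.mk0 y hy0)⁻¹ ^ n = x.toMul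
        rw [h, zpow_neg, inv_zpow, inv_inv, zpow_natCast, hu])⟩
  let : DivisibleBy (Additive Qbarˣ) ℤ := divisibleByOfSMulRightSurj _ _ hsurj
  obtain ⟨R, hR⟩ := (Module.Baer.of_divisible (Additive Qbarˣ)).extension_property_addMonoidHom
    (MonoidHom.toAdditive D.regUnits.subtype) (fun x y h => Subtype.ext h)
    (MonoidHom.toAdditive D.valHom)
  exact ⟨MonoidHom.toAdditive.symm R, fun u => congrArg Additive.toMul
    (DFunLike.congr_fun hR (Additive.ofMul u))⟩

/-- A multiplicative extension of the value. -/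
def val : (LaurentSeries Qbar)ˣ →* Qbarˣ := D.exists_ext.choose

/-- The value agrees with the residue at the place. -/
lemma val_spec {u : (LaurentSeries Qbar)ˣ} {f : jField Qbar N}
    (hf : (f : LaurentSeries Qbar) = u) (h0 : D.P.ord f = 0) :
    OrdGE D.P 1 (f - algebraMap Qbar (jField Qbar N) (D.val u : Qbar)) := by
  rw [val, D.exists_ext.choose_spec ⟨u, f, hf, h0⟩]
  exact (D.exists_val_unit ⟨u, f, hf, h0⟩).choose_spec f hf

/-- The coefficientwise action on units. -/
def galU (g : GQ) : (LaurentSeries Qbar)ˣ →* (LaurentSeries Qbar)ˣ :=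
  Units.map ((coeffMap (g : Qbar →+* Qbar)).toMonoidHom)

/-- The value commutes with Galois on the functions of order zero. -/
theorem val_galU (g : GQ) {u : (LaurentSeries Qbar)ˣ} {f : jField Qbar N}
    (hf : (f : LaurentSeries Qbar) = u) (h0 : D.P.ord f = 0) :
    (D.val (galU g u) : Qbar) = g (D.val u : Qbar) := by
  have h1 := ordGE_galJ g (D.val_spec hf h0)
  rw [D.fix g, smul_sub, galJ_smul_algebraMap] at h1
  refine Curve.eq_of_ordGE_one_sub (D.val_spec (u := galU g u) (f := galJ N g • f) ?_ ?_) h1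
  · rw [coe_galJ_smul, hf]; rfl
  · rw [D.ord_galJ, h0]

end FixPt

end FermatAgent.Mazur

end
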