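import Fermat.Agent.Mazur.GoodTorsion
import Fermat.Agent.BAD.InertiaRoot
import Fermat.Agent.ECLocal.PointMaps

/-!
# Potentially good reduction excludes rational torsion of large order

At a prime `ℓ ≥ 5` of potentially good reduction the twelfth root of `ℓ` gives a model with good
reduction; a Frobenius element fixing that root fixes the transported point.
-/

set_option autoImplicit false

noncomputable section

open scoped WeierstrassCurve.Affine Classical

namespace FermatAgent.Mazur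

open WeierstrassCurve WeierstrassCurve.Affine FermatAgent.ECLocal FermatAgent.GaloisBasic

local notation "Qbar" => AlgebraicClosure ℚ

/-- A valuation subring contains the roots of its elements. -/
lemma mem_of_pow_mem' {K : Type*} [Field K] (A : ValuationSubring K) {x : K} {n : ℕ} (hn : n ≠ 0)
    (h : x ^ n ∈ A) : x ∈ A := by
  rcases A.mem_or_inv_mem x with hx | hx
  · exact hx
  rcases eq_or_ne x 0 with rfl | h0
  · exact A.zero_mem
  obtain ⟨m, rfl⟩ := Nat.exists_eq_succ_of_ne_zero hn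
  have : x = x ^ (m + 1) * x⁻¹ ^ m := by
    rw [inv_pow, pow_succ']
    field_simp
  rw [this]
  exact mul_mem h (pow_mem hx m)

/-- A Frobenius element can be chosen to fix a root of `ℓ`. -/
lemma exists_frobenius_fix_root {ℓ n : ℕ} (hℓ : ℓ.Prime) {A : ValuationSubring Qbar}
    (hA : A.LiesOverPrime ℓ) (hn : n ≠ 0) (hnℓ : n.Coprime ℓ) {ρ : Qbar} (hρ : ρ ^ n = (ℓ : Qbar)) :
    ∃ σ : Qbar ≃ₐ[ℚ] Qbar, A.IsFrobeniusAt σ ℓ ∧ σ ρ = ρ := by
  obtain ⟨σ, hσ⟩ := exists_isFrobeniusAt hℓ hA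
  have hρ0 : ρ ≠ 0 := fun h => by
    rw [h, zero_pow hn] at hρ
    exact hℓ.ne_zero (by exact_mod_cast hρ.symm)
  set ζ := σ ρ / ρ with hζdef
  have hζ : ζ ^ n = 1 := by
    rw [hζdef, div_pow, ← map_pow, hρ, map_natCast, div_self]
    exact_mod_cast hℓ.ne_zero
  obtain ⟨τ, hτ, hτρ, hτz⟩ := BAD.exists_inertia_smul_root hℓ hA hn hnℓ hρ
    (ζ := ζ⁻¹) (by rw [inv_pow, hζ, inv_one])
  refine ⟨τ * σ, ?_, ?_⟩
  · rw [isFrobeniusAt_iff hℓ hA] at hσ ⊢
    rw [mem_inertiaSubgroupIn_iff hℓ hA] at hτ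
    intro b
    have h := Ideal.add_mem _ (hτ (σ • b)) (hσ b)
    rwa [sub_add_sub_cancel, ← mul_smul] at h
  · have hζ0 : ζ ≠ 0 := div_ne_zero ((map_ne_zero _).2 hρ0) hρ0
    have hs : σ ρ = ζ * ρ := by rw [hζdef, div_mul_cancel₀ _ hρ0]
    rw [AlgEquiv.mul_apply, hs, map_mul, hτz ζ hζ, hτρ, mul_inv_cancel_left₀ hζ0]

variable {W : WeierstrassCurve ℤ}

/-- **No rational point of large order at a prime of potentially good reduction.** -/
theorem not_potentially_good {ℓ : ℕ} (hℓ : ℓ.Prime) (h5 : 5 ≤ ℓ) (hΔ : W.Δ ≠ 0)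
    (hc : (ℓ : ℤ) ^ padicValInt ℓ W.Δ ∣ W.c₄ ^ 3) {N : ℕ} (hN : N.Prime) (hN2 : 2 * ℓ + 1 ≤ N)
    (Q : ((W.map (Int.castRingHom ℚ))⁄Qbar).Point) (hQ : N • Q = 0) (hQ0 : Q ≠ 0)
    (hfix : ∀ σ : Qbar ≃ₐ[ℚ] Qbar, σ • Q = Q) : False := by
  have := Fact.mk hℓ
  set v := padicValInt ℓ W.Δ
  obtain ⟨A, hA⟩ := exists_liesOverPrime hℓ
  obtain ⟨ρ, hρ⟩ := IsAlgClosed.exists_pow_nat_eq (ℓ : Qbar) (show 0 < 12 by norm_num)
  have hco : Nat.Coprime 12 ℓ := by
    refine (hℓ.coprime_iff_not_dvd.2 fun h => ?_).symm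
    have h12 : ℓ ∣ 2 * (2 * 3) := by simpa using h
    rcases (hℓ.dvd_mul).1 h12 with h' | h'
    · have := (Nat.prime_dvd_prime_iff_eq hℓ Nat.prime_two).1 h'; omega
    · rcases (hℓ.dvd_mul).1 h' with h'' | h''
      · have := (Nat.prime_dvd_prime_iff_eq hℓ Nat.prime_two).1 h''; omega
      · have := (Nat.prime_dvd_prime_iff_eq hℓ Nat.prime_three).1 h''; omega
  obtain ⟨σ, hσ, hσρ⟩ := exists_frobenius_fix_root hℓ hA (by norm_num) hco hρ
  obtain ⟨D, hD⟩ : (ℓ : ℤ) ^ v ∣ W.Δ := padicValInt_dvd W.Δ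
  have hDℓ : ¬ (ℓ : ℤ) ∣ D := fun h => by
    have : (ℓ : ℤ) ^ (v + 1) ∣ W.Δ := by rw [pow_succ, hD]; exact mul_dvd_mul_left _ h
    rcases (padicValInt_dvd_iff _ _).1 this with h0 | h0
    · exact hΔ h0
    · omega
  obtain ⟨m₄, hm₄⟩ := hc
  have hrel := W.c_relation
  obtain ⟨m₆, hm₆⟩ : (ℓ : ℤ) ^ v ∣ W.c₆ ^ 2 :=
    ⟨m₄ - 1728 * D, by linear_combination hrel + hm₄ - 1728 * hD⟩
  set ε : Qbar := ρ ^ v with hεdef
  have hρ0 : ρ ≠ 0 := fun h => by
    rw [h, zero_pow (by norm_num)] at hρ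
    exact hℓ.ne_zero (by exact_mod_cast hρ.symm)
  have hε0 : ε ≠ 0 := pow_ne_zero _ hρ0
  have hε12 : ε ^ 12 = (ℓ : Qbar) ^ v := by rw [hεdef, ← pow_mul, mul_comm, pow_mul, hρ]
  have hσε : σ ε = ε := by rw [hεdef, map_pow, hσρ]
  have hint : ∀ n : ℤ, (n : Qbar) ∈ A := fun n => intCast_mem A n
  have h4 : (-27 : Qbar) * (W.c₄ : Qbar) / ε ^ 4 ∈ A := by
    have h : ((W.c₄ : Qbar) / ε ^ 4) ^ 3 = (m₄ : Qbar) := by
      rw [div_pow, ← pow_mul, hε12, div_eq_iff (pow_ne_zero _ (by exact_mod_cast hℓ.ne_zero))]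
      exact_mod_cast hm₄.trans (mul_comm _ _)
    rw [mul_div_assoc]
    exact mul_mem (by exact_mod_cast hint (-27)) (mem_of_pow_mem' A three_ne_zero (h ▸ hint m₄))
  have h6 : (-54 : Qbar) * (W.c₆ : Qbar) / ε ^ 6 ∈ A := by
    have h : ((W.c₆ : Qbar) / ε ^ 6) ^ 2 = (m₆ : Qbar) := by
      rw [div_pow, ← pow_mul, hε12, div_eq_iff (pow_ne_zero _ (by exact_mod_cast hℓ.ne_zero))]
      exact_mod_cast hm₆.trans (mul_comm _ _)
    rw [mul_div_assoc]
    exact mul_mem (by exact_mod_cast hint (-54)) (mem_of_pow_mem' A two_ne_zero (h ▸ hint m₆))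
  let M : WeierstrassCurve A := ⟨0, 0, 0, ⟨_, h4⟩, ⟨_, h6⟩⟩
  set V : WeierstrassCurve Qbar := ((W.map (Int.castRingHom ℚ))⁄Qbar).toAffine with hVdef
  have hV : V = W.map (Int.castRingHom Qbar) := by
    rw [hVdef]
    show (W.map (Int.castRingHom ℚ)).map (algebraMap ℚ Qbar) = _
    rw [WeierstrassCurve.map_map,
      RingHom.ext_int ((algebraMap ℚ Qbar).comp (Int.castRingHom ℚ))]
  let C : VariableChange Qbar :=
    ⟨Units.mk0 (ε / 6) (div_ne_zero hε0 (by norm_num)), -(W.b₂ : Qbar) / 12, -(W.a₁ : Qbar) / 2,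
      (W.a₁ : Qbar) * (W.b₂ : Qbar) / 24 - (W.a₃ : Qbar) / 2⟩
  have hM : C • V = gen M := by
    rw [hV, variableChange_def]
    ext <;>
      simp only [C, M, gen, WeierstrassCurve.map, Units.val_inv_eq_inv_val, Units.val_mk0,
        eq_intCast, map_zero, ValuationSubring.subtype_apply,
        WeierstrassCurve.b₂, WeierstrassCurve.b₄, WeierstrassCurve.b₆, WeierstrassCurve.c₄,
        WeierstrassCurve.c₆, Int.cast_add, Int.cast_mul, Int.cast_sub, Int.cast_neg, Int.cast_pow,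
        Int.cast_ofNat] <;>
      field_simp <;> ring
  have hgood : IsLocalRing.residue A M.Δ ≠ 0 := by
    have hΔM : M.Δ = ((6 ^ 12 * D : ℤ) : A) := by
      apply Subtype.ext
      have h1 : (M.Δ : Qbar) = (gen M).Δ := by
        rw [gen, WeierstrassCurve.map_Δ]; rfl
      have h2 : V.Δ = ((ℓ : Qbar) ^ v) * (D : Qbar) := by
        rw [hV, WeierstrassCurve.map_Δ, eq_intCast, hD]; push_cast; rfl
      rw [h1, ← hM, variableChange_Δ, h2, ← hε12]
      show _ = ((6 ^ 12 * D : ℤ) : Qbar)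
      simp only [C, Units.val_inv_eq_inv_val, Units.val_mk0]
      push_cast
      field_simp
      ring
    rw [hΔM, Ne, residue_intCast_eq_zero_iff hℓ hA]
    intro h
    rcases (Nat.prime_iff_prime_int.1 hℓ).dvd_or_dvd h with h' | h'
    · have h'' : ℓ ∣ 6 := hℓ.dvd_of_dvd_pow (n := 12) (by exact_mod_cast h')
      have := Nat.le_of_dvd (by norm_num) h''
      interval_cases ℓ <;> revert h'' hℓ <;> norm_num
    · exact hDℓ h'
  set f : (gen M).toAffine.Point →+ V.toAffine.Point :=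
    (vcHom C V).comp (pointCongr (congrArg WeierstrassCurve.toAffine hM.symm)).toAddMonoidHom
  have hf : Function.Injective f :=
    (vcHom_injective C V).comp (pointCongr _).injective
  obtain ⟨R, hR⟩ : ∃ R, f R = Q := by
    obtain ⟨S, hS⟩ := vcHom_surjective C V Q
    refine ⟨(pointCongr (congrArg WeierstrassCurve.toAffine hM.symm)).symm S, ?_⟩
    show vcHom C V (pointCongr _ ((pointCongr _).symm S)) = _
    rw [AddEquiv.apply_symm_apply, hS]
  refine no_fixed_torsion_good hℓ h5 hA hgood hσ hN hN2 (R := R)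
    (hf (by rw [map_nsmul, hR, map_zero]; exact hQ)) (fun h => hQ0 (by rw [← hR, h, map_zero]))
    fun k x y h hk => ?_
  have hkQ : f (.some x y h) = k • Q := by rw [← hk, map_nsmul, hR]
  have hfix' : σ • (k • Q) = k • Q := by rw [galois_smul_nsmul, hfix]
  simp only [f, AddMonoidHom.coe_comp, AddEquiv.coe_toAddMonoidHom, Function.comp_apply,
    pointCongr_some, vcHom_some] at hkQ
  rw [← hkQ] at hfix'
  obtain ⟨hx, hy⟩ := Affine.Point.some.injEq .. |>.mp hfix'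
  simp only [C, Units.val_mk0, AlgEquiv.coe_toAlgHom, map_add, map_mul, map_pow, map_div₀, map_neg,
    map_sub, map_intCast, map_ofNat, hσε] at hx hy
  have hu : ε / 6 ≠ 0 := div_ne_zero hε0 (by norm_num)
  have hx' : σ x = x := mul_left_cancel₀ (pow_ne_zero 2 hu) (by linear_combination hx)
  rw [hx'] at hy
  exact ⟨hx', mul_left_cancel₀ (pow_ne_zero 3 hu) (by linear_combination hy)⟩

end FermatAgent.Mazur

end
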