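import Fermat.Agent.Mazur.DeltaRatio
import Fermat.Agent.EC.PointMap
import Fermat.Agent.ECLocal.PointMaps
import Fermat.Prelude.Def_FLTPrelim_GaloisRep

/-!
# Invariants of the quotient by a cyclic subgroup of order `N`

Vélu's formulas in the form needed here: for a point `Q` of order `N` of an integral Weierstrass
curve there is `τ` with `j(τ) = j(E)` and `j(Nτ)` given by symmetric functions of the abscissas
of the multiples of `Q`, together with the discriminant identity.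
-/

set_option autoImplicit false

noncomputable section

open UpperHalfPlane Complex
open scoped PeriodPair Real MatrixGroups WeierstrassCurve.Affine

namespace FermatAgent.Mazur

open WeierstrassCurve
open FermatAgent.ES (perPair dif)

local notation "Qbar" => AlgebraicClosure ℚ

variable (W : WeierstrassCurve ℤ)

/-- The abscissa. -/
def xAbs : ((W.map (Int.castRingHom ℚ))⁄Qbar).Point → Qbar
  | .zero => 0
  | .some x _ _ => x

/-- The abscissa of an affine point. -/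
lemma xAbs_some {x y : Qbar} (h : ((W.map (Int.castRingHom ℚ))⁄Qbar).toAffine.Nonsingular x y) :
    xAbs W (.some x y h) = x := rfl

/-- The abscissa commutes with Galois. -/
lemma xAbs_smul (σ : Qbar ≃ₐ[ℚ] Qbar) (P : ((W.map (Int.castRingHom ℚ))⁄Qbar).Point) :
    xAbs W (σ • P) = σ (xAbs W P) := by
  rcases P with _ | ⟨x, y, h⟩
  · exact (map_zero σ).symm
  · rfl

variable (N : ℕ) (Q : ((W.map (Int.castRingHom ℚ))⁄Qbar).Point)

/-- `12 x + b₂` at `k • Q`. -/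
def uAbs (k : ℕ) : Qbar := 12 * xAbs W (k • Q) + W.b₂

/-- `c₄` of the quotient curve. -/
def quotC4 : Qbar := W.c₄ + ∑ k ∈ Finset.Ioo 0 N, (5 * uAbs W Q k ^ 2 - 5 * W.c₄)

/-- `c₆` of the quotient curve. -/
def quotC6 : Qbar :=
  W.c₆ + ∑ k ∈ Finset.Ioo 0 N,
    (35 / 2 * uAbs W Q k ^ 3 - 63 / 2 * W.c₄ * uAbs W Q k - 14 * W.c₆)

/-- The discriminant of the quotient curve. -/
def quotDelta : Qbar := (quotC4 W N Q ^ 3 - quotC6 W N Q ^ 2) / 1728

/-- `∏ (x(kQ) - x(2kQ))`. -/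
def diffProd : Qbar := ∏ k ∈ Finset.Ioo 0 N, (xAbs W (k • Q) - xAbs W ((2 * k) • Q))

variable {W N Q}

/-! ### The complex model -/

lemma weierstrassP_congr {L L' : PeriodPair} (h : L.lattice = L'.lattice) (z : ℂ) :
    ℘[L] z = ℘[L'] z := by
  unfold PeriodPair.weierstrassP
  rw [h]

lemma weierstrassP_scalePair {L : PeriodPair} {c : ℂ} (hc : c ≠ 0) (z : ℂ) :
    ℘[scalePair L c hc] (c * z) = ℘[L] z / c ^ 2 := by
  let e : L.lattice ≃ (scalePair L c hc).lattice :=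
    { toFun := fun l => ⟨c * l, (mem_scalePair hc).2 (by rw [mul_div_cancel_left₀ _ hc]; exact l.2)⟩
      invFun := fun l => ⟨l / c, (mem_scalePair hc).1 l.2⟩
      left_inv := fun l => Subtype.ext (mul_div_cancel_left₀ _ hc)
      right_inv := fun l => Subtype.ext (mul_div_cancel₀ _ hc) }
  rw [PeriodPair.weierstrassP, PeriodPair.weierstrassP,
    ← e.tsum_eq fun l => 1 / (c * z - (l : ℂ)) ^ 2 - 1 / (l : ℂ) ^ 2, div_eq_mul_inv,
    ← tsum_mul_right]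
  refine tsum_congr fun l => ?_
  change 1 / (c * z - c * (l : ℂ)) ^ 2 - 1 / (c * (l : ℂ)) ^ 2 = _
  rw [← mul_sub, mul_pow, mul_pow]
  simp only [one_div, mul_inv]
  ring

/-- The change of variables to `y² = x³ - c₄/48 x - c₆/864`. -/
def toShort (V : WeierstrassCurve ℂ) : VariableChange ℂ :=
  ⟨1, -V.b₂ / 12, -V.a₁ / 2, -(V.a₁ * (-V.b₂ / 12) + V.a₃) / 2⟩

lemma toShort_smul (V : WeierstrassCurve ℂ) {L : PeriodPair} (h2 : L.g₂ = V.c₄ / 12)
    (h3 : L.g₃ = V.c₆ / 216) : toShort V • V = wCurve L := by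
  simp only [WeierstrassCurve.variableChange_def, toShort, wCurve, h2, h3, b₂, b₄, b₆, c₄, c₆]
  ext <;> simp <;> ring

/-! ### Steps of the construction -/

/-- The discriminant of `y² = 4x³ - (c₄/12) x - c₆/216` is `Δ`. -/
private lemma discr_div_eq :
    ((W.c₄ : ℂ) / 12) ^ 3 - 27 * ((W.c₆ : ℂ) / 216) ^ 2 = (W.Δ : ℂ) := by
  have h := congrArg (Int.cast (R := ℂ)) W.c_relation
  push_cast at h
  linear_combination -h / 1728

/-- `k₀ k` reduced modulo `N`. -/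
private def mulMod (N : ℕ) (k₀ : ℤ) (k : ℕ) : ℕ := (k₀ * k % N).toNat

/-- `mulMod` is the least nonnegative residue. -/
private lemma mulMod_val [NeZero N] (k₀ : ℤ) (k : ℕ) : (mulMod N k₀ k : ℤ) = k₀ * k % N :=
  Int.toNat_of_nonneg (Int.emod_nonneg _ (by simp [NeZero.ne N]))

/-- No `0 < k < N` is divisible by `N`. -/
private lemma not_dvd_of_mem_Ioo {k : ℕ} (hk : k ∈ Finset.Ioo 0 N) : ¬(N : ℤ) ∣ (k : ℤ) := by
  intro h
  obtain ⟨hk0, hkN⟩ := Finset.mem_Ioo.1 hk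
  exact absurd (Nat.le_of_dvd hk0 (Int.natCast_dvd_natCast.1 h)) (by omega)

/-- Multiplication by a unit modulo `N` preserves non-divisibility by `N`. -/
private lemma not_dvd_mulMod [NeZero N] (hN : N.Prime) {k₀ : ℤ} (hk₀ : ¬(N : ℤ) ∣ k₀) {k : ℕ}
    (hk : ¬(N : ℤ) ∣ (k : ℤ)) : ¬(N : ℤ) ∣ (mulMod N k₀ k : ℤ) := fun h => by
  rw [mulMod_val, Int.dvd_iff_emod_eq_zero, Int.emod_emod_of_dvd _ (dvd_refl _),
    ← Int.dvd_iff_emod_eq_zero] at h
  exact ((Nat.prime_iff_prime_int.1 hN).dvd_mul.1 h).elim hk₀ hk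

/-- Sums and products over `0 < k < N` may be reindexed by a unit modulo `N`. -/
private lemma mulMod_perm [NeZero N] (hN : N.Prime) {k₀ : ℤ} (hk₀ : ¬(N : ℤ) ∣ k₀) (f : ℕ → ℂ) :
    (∑ k ∈ Finset.Ioo 0 N, f (mulMod N k₀ k) = ∑ k ∈ Finset.Ioo 0 N, f k) ∧
      (∏ k ∈ Finset.Ioo 0 N, f (mulMod N k₀ k) = ∏ k ∈ Finset.Ioo 0 N, f k) := by
  have hmem : ∀ k ∈ Finset.Ioo 0 N, mulMod N k₀ k ∈ Finset.Ioo 0 N := by
    intro k hk
    have h1 := Int.emod_lt_of_pos (k₀ * k) (by simp [NeZero.pos N] : (0 : ℤ) < N)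
    rw [← mulMod_val] at h1
    refine Finset.mem_Ioo.2 ⟨Nat.pos_of_ne_zero fun h0 => ?_, by exact_mod_cast h1⟩
    exact not_dvd_mulMod hN hk₀ (not_dvd_of_mem_Ioo hk) (by simp [h0])
  have hinj : Set.InjOn (mulMod N k₀) (Finset.Ioo 0 N : Finset ℕ) := by
    intro a ha b hb hab
    have h1 := mulMod_val (N := N) k₀ a
    rw [hab, mulMod_val k₀ b] at h1
    have h2 : (N : ℤ) ∣ k₀ * ((a : ℤ) - b) := by
      rw [mul_sub]
      exact Int.ModEq.dvd h1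
    rcases (Nat.prime_iff_prime_int.1 hN).dvd_mul.1 h2 with h | h
    · exact absurd h hk₀
    · have ha' := Finset.mem_Ioo.1 ha
      have hb' := Finset.mem_Ioo.1 hb
      have := Int.eq_zero_of_abs_lt_dvd h (by rw [abs_lt]; omega)
      omega
  have himg : (Finset.Ioo 0 N).image (mulMod N k₀) = Finset.Ioo 0 N :=
    Finset.eq_of_subset_of_card_le (Finset.image_subset_iff.2 hmem)
      (by rw [Finset.card_image_of_injOn hinj])
  constructor
  · conv_rhs => rw [← himg]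
    rw [Finset.sum_image hinj]
  · conv_rhs => rw [← himg]
    rw [Finset.prod_image hinj]

/-- `k c/N` is not a period of `c (ℤ τ + ℤ)` unless `N ∣ k`. -/
private lemma nat_mul_div_notMem [NeZero N] {τ : ℍ} {c : ℂ} (hc : c ≠ 0) {k : ℕ}
    (hk : ¬(N : ℤ) ∣ (k : ℤ)) :
    ((k : ℂ) * (c / N)) ∉ (scalePair (perPair τ) c hc).lattice := by
  intro h
  have hN0 : (N : ℂ) ≠ 0 := NeZero.ne _
  rw [mem_scalePair, ES.mem_perPair_lattice] at h
  obtain ⟨m, n, hmn⟩ := h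
  have hh := LinearIndependent.pair_iff.1 (ES.indep_coe_one τ)
    (((m * N : ℤ)) : ℝ) (((n * N - (k : ℤ) : ℤ)) : ℝ) (by
      simp only [Complex.real_smul]
      push_cast
      field_simp at hmn
      linear_combination hmn)
  have h0 : n * N - (k : ℤ) = 0 := by exact_mod_cast hh.2
  exact hk ⟨n, by linarith⟩

/-- `Q` corresponds to a point `z` of exact order `N` of `ℂ/L ≅ E(ℂ)`, and `℘(u)` gives the
abscissa of `k Q` whenever `u ≡ k z`. -/
private lemma exists_point_model (ι : Qbar →+* ℂ) {L : PeriodPair}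
    (hg2 : L.g₂ = (W.c₄ : ℂ) / 12) (hg3 : L.g₃ = (W.c₆ : ℂ) / 216) (hQ0 : Q ≠ 0)
    (hQ : N • Q = 0) :
    ∃ z : ℂ, z ∉ L.lattice ∧ (N : ℂ) * z ∈ L.lattice ∧
      ∀ (k : ℕ) (u : ℂ), u ∉ L.lattice → (k : ℂ) * z - u ∈ L.lattice →
        ℘[L] u = ι (xAbs W (k • Q)) + (W.b₂ : ℂ) / 12 := by
  classical
  set V : WeierstrassCurve ℂ := W.map (Int.castRingHom ℂ) with hV
  have hshort : toShort V • V = wCurve L :=
    toShort_smul V (by rw [hg2, hV, map_c₄]; rfl) (by rw [hg3, hV, map_c₆]; rfl)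
  have hmap : WeierstrassCurve.map ((W.map (Int.castRingHom ℚ))⁄Qbar) ι = V := by
    show WeierstrassCurve.map (WeierstrassCurve.map (W.map (Int.castRingHom ℚ))
      (algebraMap ℚ Qbar)) ι = V
    rw [hV, WeierstrassCurve.map_map, WeierstrassCurve.map_map,
      RingHom.ext_int ((ι.comp (algebraMap ℚ Qbar)).comp (Int.castRingHom ℚ))]
  set φ : (wCurve L).toAffine.Point →+ V.toAffine.Point :=
    (ECLocal.vcHom (toShort V) V).comp (ECLocal.pointCongr (congrArg WeierstrassCurve.toAffine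
      hshort).symm).toAddMonoidHom with hφ
  have hφinj : Function.Injective φ :=
    (ECLocal.vcHom_injective (toShort V) V).comp (AddEquiv.injective _)
  set ψ : ((W.map (Int.castRingHom ℚ))⁄Qbar).Point →+ V.toAffine.Point :=
    EC.mapPoint ι hmap with hψ
  have hφsurj : Function.Surjective φ :=
    (ECLocal.vcHom_surjective (toShort V) V).comp (AddEquiv.surjective _)
  obtain ⟨w, hw⟩ := hφsurj (ψ Q)
  obtain ⟨z, rfl⟩ := wHom_surjective w
  rw [wHom_apply] at hw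
  refine ⟨z, fun h => hQ0 (EC.mapPoint_injective ι hmap (by
    rw [map_zero, ← hψ, ← hw, wPt_of_mem h, map_zero])), ?_, fun k u hu hsub => ?_⟩
  · rw [← wPt_eq_zero_iff, ← nsmul_eq_mul, ← wHom_apply, map_nsmul, wHom_apply]
    refine hφinj ?_
    rw [map_nsmul, hw, ← map_nsmul, hQ, map_zero, map_zero]
  have hkQ : φ (wPt L ((k : ℂ) * z)) = ψ (k • Q) := by
    rw [← nsmul_eq_mul, ← wHom_apply, map_nsmul, map_nsmul, wHom_apply, hw, ← map_nsmul]
  rw [show (k : ℂ) * z = u + ((k : ℂ) * z - u) by ring, wPt_add_coe _ hsub, hφ,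
    AddMonoidHom.comp_apply, AddEquiv.coe_toAddMonoidHom, wPt_of_notMem hu,
    ECLocal.pointCongr_some, ECLocal.vcHom_some] at hkQ
  rcases hkP : k • Q with _ | ⟨x, y', h'⟩
  · rw [hkP, ← WeierstrassCurve.Affine.Point.zero_def, map_zero] at hkQ
    exact absurd hkQ (WeierstrassCurve.Affine.Point.some_ne_zero _)
  · rw [hkP, hψ, EC.mapPoint_some, WeierstrassCurve.Affine.Point.some.injEq] at hkQ
    rw [xAbs_some, ← hkQ.1]
    simp [toShort, hV, map_b₂]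
    ring

/-- If `z ≡ k₀ c/N` then `k z ≡ (k₀ k mod N) c/N`. -/
private lemma mul_sub_mulMod_mem [NeZero N] {τ : ℍ} {c : ℂ} {hc : c ≠ 0} {z : ℂ} {k₀ : ℤ}
    (hzk : z - k₀ * c / N ∈ (scalePair (perPair τ) c hc).lattice) (k : ℕ) :
    (k : ℂ) * z - (mulMod N k₀ k : ℕ) * (c / N) ∈ (scalePair (perPair τ) c hc).lattice := by
  have hN0 : (N : ℂ) ≠ 0 := NeZero.ne _
  have h2 : ((k₀ * k / N : ℤ) : ℂ) * c ∈ (scalePair (perPair τ) c hc).lattice := by
    rw [mem_scalePair, ES.mem_perPair_lattice]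
    exact ⟨0, k₀ * k / N, by push_cast; field_simp; simp⟩
  have he : ((mulMod N k₀ k : ℕ) : ℂ) = (k₀ : ℂ) * k - N * ((k₀ * k / N : ℤ) : ℂ) := by
    have := Int.emod_add_mul_ediv (k₀ * k) N
    rw [← mulMod_val] at this
    have h' : ((mulMod N k₀ k : ℕ) : ℂ) + (N : ℂ) * ((k₀ * k / N : ℤ) : ℂ) = (k₀ : ℂ) * k := by
      exact_mod_cast this
    linear_combination h'
  convert add_mem (nsmul_mem hzk k) h2 using 1
  rw [he, nsmul_eq_mul]
  field_simp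
  ring

/-- A lattice `c (ℤ τ + ℤ)` with the invariants of `W` in which `Q` becomes `k₀ c/N`. -/
private lemma exists_adapted_abscissa (ι : Qbar →+* ℂ) (hc4 : W.c₄ ≠ 0) (hc6 : W.c₆ ≠ 0)
    (hΔ : W.Δ ≠ 0) [NeZero N] (hN : N.Prime) (hQ0 : Q ≠ 0) (hQ : N • Q = 0) :
    ∃ (τ : ℍ) (c : ℂ) (hc : c ≠ 0) (k₀ : ℤ), ¬(N : ℤ) ∣ k₀ ∧
      (scalePair (perPair τ) c hc).g₂ = (W.c₄ : ℂ) / 12 ∧
      (scalePair (perPair τ) c hc).g₃ = (W.c₆ : ℂ) / 216 ∧
      ∀ k : ℕ, ¬(N : ℤ) ∣ (k : ℤ) → ℘[scalePair (perPair τ) c hc]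
        ((mulMod N k₀ k : ℕ) * (c / N)) = ι (xAbs W (k • Q)) + (W.b₂ : ℂ) / 12 := by
  obtain ⟨L, hg2, hg3⟩ := exists_pair (a := (W.c₄ : ℂ) / 12) (b := (W.c₆ : ℂ) / 216)
    (div_ne_zero (by exact_mod_cast hc4) (by norm_num))
    (div_ne_zero (by exact_mod_cast hc6) (by norm_num))
    (by rw [discr_div_eq]; exact_mod_cast hΔ)
  obtain ⟨z, hz', hz, hx⟩ := exists_point_model ι hg2 hg3 hQ0 hQ
  obtain ⟨τ, c, hc, k₀, hlat, hk₀, hzk⟩ := exists_adapted L hN hz hz'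
  refine ⟨τ, c, hc, k₀, hk₀, by rw [← hg2, PeriodPair.g₂, PeriodPair.g₂, G_congr hlat],
    by rw [← hg3, PeriodPair.g₃, PeriodPair.g₃, G_congr hlat], fun k hk => ?_⟩
  rw [← weierstrassP_congr hlat]
  refine hx k _ ?_ ?_
  · rw [hlat]
    exact nat_mul_div_notMem hc (not_dvd_mulMod hN hk₀ hk)
  · rw [hlat] at hzk ⊢
    exact mul_sub_mulMod_mem hzk k

/-- The Eisenstein sums of the lattice `(c/N)(ℤ Nτ + ℤ)`. -/
private lemma G_superlattice_split [NeZero N] {τ : ℍ} {c : ℂ} (hc : c ≠ 0) {n : ℕ} (hn : 2 < n) :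
    (scalePair (perPair (mulPt N τ)) (c / N) (div_ne_zero hc (NeZero.ne _))).G n
      = (scalePair (perPair τ) c hc).G n + ∑ k ∈ Finset.Ioo 0 N,
          (scalePair (perPair τ) c hc).sumInvPow ((k : ℕ) * (c / N)) n := by
  rw [G_super hc τ hn, Fin.sum_univ_eq_sum_range
    (fun k => (scalePair (perPair τ) c hc).sumInvPow ((k : ℕ) * (c / N)) n) N,
    Finset.range_eq_Ico, Finset.sum_eq_sum_Ico_succ_bot (NeZero.pos N)]
  congr 1
  simp

/-- The invariant `g₂` of the superlattice gives `c₄` of the quotient. -/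
private lemma quotC4_eq [NeZero N] (hN : N.Prime) (ι : Qbar →+* ℂ) {τ : ℍ} {c : ℂ} {hc : c ≠ 0}
    {k₀ : ℤ} (hk₀ : ¬(N : ℤ) ∣ k₀) (hg2 : (scalePair (perPair τ) c hc).g₂ = (W.c₄ : ℂ) / 12)
    (hx : ∀ k : ℕ, ¬(N : ℤ) ∣ (k : ℤ) → ℘[scalePair (perPair τ) c hc]
      ((mulMod N k₀ k : ℕ) * (c / N)) = ι (xAbs W (k • Q)) + (W.b₂ : ℂ) / 12) :
    720 * (scalePair (perPair (mulPt N τ)) (c / N) (div_ne_zero hc (NeZero.ne _))).G 4
      = ι (quotC4 W N Q) := by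
  set M := scalePair (perPair τ) c hc
  rw [G_superlattice_split hc (by norm_num : 2 < 4),
    ← (mulMod_perm hN hk₀ fun k => M.sumInvPow ((k : ℕ) * (c / N)) 4).1,
    quotC4, map_add, map_sum, mul_add, Finset.mul_sum, map_intCast]
  congr 1
  · rw [PeriodPair.g₂] at hg2
    linear_combination 12 * hg2
  · refine Finset.sum_congr rfl fun k hk => ?_
    have hnd := not_dvd_of_mem_Ioo hk
    rw [sumInvPow_four (nat_mul_div_notMem hc (not_dvd_mulMod hN hk₀ hnd)), hg2, hx k hnd]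
    simp only [uAbs, map_sub, map_add, map_mul, map_pow, map_ofNat, map_intCast]
    ring

/-- The invariant `g₃` of the superlattice gives `c₆` of the quotient. -/
private lemma quotC6_eq [NeZero N] (hN : N.Prime) (ι : Qbar →+* ℂ) {τ : ℍ} {c : ℂ} {hc : c ≠ 0}
    {k₀ : ℤ} (hk₀ : ¬(N : ℤ) ∣ k₀) (hg2 : (scalePair (perPair τ) c hc).g₂ = (W.c₄ : ℂ) / 12)
    (hg3 : (scalePair (perPair τ) c hc).g₃ = (W.c₆ : ℂ) / 216)
    (hx : ∀ k : ℕ, ¬(N : ℤ) ∣ (k : ℤ) → ℘[scalePair (perPair τ) c hc]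
      ((mulMod N k₀ k : ℕ) * (c / N)) = ι (xAbs W (k • Q)) + (W.b₂ : ℂ) / 12) :
    30240 * (scalePair (perPair (mulPt N τ)) (c / N) (div_ne_zero hc (NeZero.ne _))).G 6
      = ι (quotC6 W N Q) := by
  set M := scalePair (perPair τ) c hc
  rw [G_superlattice_split hc (by norm_num : 2 < 6),
    ← (mulMod_perm hN hk₀ fun k => M.sumInvPow ((k : ℕ) * (c / N)) 6).1,
    quotC6, map_add, map_sum, mul_add, Finset.mul_sum, map_intCast]
  congr 1
  · rw [PeriodPair.g₃] at hg3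
    linear_combination 216 * hg3
  · refine Finset.sum_congr rfl fun k hk => ?_
    have hnd := not_dvd_of_mem_Ioo hk
    rw [sumInvPow_six (nat_mul_div_notMem hc (not_dvd_mulMod hN hk₀ hnd)), hg2, hg3, hx k hnd]
    simp only [uAbs, map_sub, map_add, map_mul, map_div₀, map_pow, map_ofNat, map_intCast]
    ring

/-- `℘((k₀ · 2k mod N)/N) = ℘(2 (k₀ k mod N)/N)`. -/
private lemma weierstrassP_mulMod_two_mul [NeZero N] (τ : ℍ) (k₀ : ℤ) (k : ℕ) :
    ℘[perPair τ] (((mulMod N k₀ (2 * k) : ℕ) : ℂ) / N)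
      = ℘[perPair τ] (((2 * mulMod N k₀ k : ℕ) : ℂ) / N) := by
  have hdvd : (N : ℤ) ∣ ((mulMod N k₀ (2 * k) : ℕ) : ℤ) - ((2 * mulMod N k₀ k : ℕ) : ℤ) := by
    push_cast
    rw [mulMod_val, mulMod_val, Nat.cast_mul, Nat.cast_two, mul_left_comm k₀]
    exact (((Int.mod_modEq (k₀ * (k : ℤ)) N).mul_left 2).trans
      (Int.mod_modEq (2 * (k₀ * (k : ℤ))) N).symm).dvd
  obtain ⟨e, he⟩ := hdvd
  have he' : ((mulMod N k₀ (2 * k) : ℕ) : ℂ) = ((2 * mulMod N k₀ k : ℕ) : ℂ) + (N : ℂ) * e := by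
    have : ((mulMod N k₀ (2 * k) : ℕ) : ℂ) - ((2 * mulMod N k₀ k : ℕ) : ℂ) = (N : ℂ) * e := by
      exact_mod_cast he
    linear_combination this
  rw [he', add_div, mul_div_cancel_left₀ _ (NeZero.ne (N : ℂ))]
  exact (perPair τ).weierstrassP_add_coe _
    ⟨(e : ℂ), ES.mem_perPair_lattice.2 ⟨0, e, by simp⟩⟩

/-- `∏ (x(kQ) - x(2kQ))` is the modular product `difProd`, rescaled. -/
private lemma map_diffProd_eq [NeZero N] (hN : N.Prime) (h5 : 5 ≤ N) (ι : Qbar →+* ℂ) {τ : ℍ}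
    {c : ℂ} {hc : c ≠ 0} {k₀ : ℤ} (hk₀ : ¬(N : ℤ) ∣ k₀)
    (hx : ∀ k : ℕ, ¬(N : ℤ) ∣ (k : ℤ) → ℘[scalePair (perPair τ) c hc]
      ((mulMod N k₀ k : ℕ) * (c / N)) = ι (xAbs W (k • Q)) + (W.b₂ : ℂ) / 12) :
    ι (diffProd W N Q) = ((2 * (π : ℂ) * Complex.I) ^ 2 / c ^ 2) ^ (N - 1) * difProd N τ := by
  have hdif : ∀ k : ℕ, dif N (cVec N k) (cVec N (2 * k)) τ
      = ((2 * (π : ℂ) * Complex.I) ^ 2)⁻¹ * (℘[perPair τ] ((k : ℂ) / N)
          - ℘[perPair τ] (((2 * k : ℕ) : ℂ) / N)) := fun k => by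
    rw [ES.dif_eq_of_lift N (v' := ![0, (k : ℤ)]) (w' := ![0, ((2 * k : ℕ) : ℤ)])
      (fun i => by fin_cases i <;> simp [cVec]) (fun i => by fin_cases i <;> simp [cVec])]
    simp [ES.zPt]
  have hterm : ∀ k : ℕ, ¬(N : ℤ) ∣ (k : ℤ) → ι (xAbs W (k • Q))
      = ℘[perPair τ] (((mulMod N k₀ k : ℕ) : ℂ) / N) / c ^ 2 - (W.b₂ : ℂ) / 12 := by
    intro k hk
    have h := hx k hk
    rw [show ((mulMod N k₀ k : ℕ) : ℂ) * (c / N) = c * (((mulMod N k₀ k : ℕ) : ℂ) / N) by ring,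
      weierstrassP_scalePair hc] at h
    linear_combination -h
  rw [diffProd, map_prod, difProd,
    ← (mulMod_perm hN hk₀ fun k => dif N (cVec N k) (cVec N (2 * k)) τ).2,
    show N - 1 = (Finset.Ioo 0 N).card by simp, ← Finset.prod_const, ← Finset.prod_mul_distrib]
  refine Finset.prod_congr rfl fun k hk => ?_
  have hk2 : ¬(N : ℤ) ∣ ((2 * k : ℕ) : ℤ) := fun h => by
    push_cast at h
    rcases (Nat.prime_iff_prime_int.1 hN).dvd_mul.1 h with h | h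
    · have := Int.le_of_dvd two_pos h; omega
    · exact not_dvd_of_mem_Ioo hk h
  rw [map_sub, hterm k (not_dvd_of_mem_Ioo hk), hterm (2 * k) hk2, weierstrassP_mulMod_two_mul,
    hdif]
  have hπ : (2 * (π : ℂ) * Complex.I) ≠ 0 := by simp [Real.pi_ne_zero]
  field_simp
  ring

/-- The powers of `π`, `c` and `N` in the discriminant identity. -/
private lemma deltaRatio_algebra [NeZero N] {c p D D' r : ℂ} (hc : c ≠ 0)
    (h : p ^ 6 * D' = r * D ^ N) :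
    (((2 * (π : ℂ) * Complex.I) ^ 2 / c ^ 2) ^ (N - 1) * p) ^ 6
        * (64 / 27 * (π : ℂ) ^ 12 * (1728 * D') / (c / N) ^ 12)
      = r * (N : ℂ) ^ 12 * (64 / 27 * (π : ℂ) ^ 12 * (1728 * D) / c ^ 12) ^ N := by
  obtain ⟨m, rfl⟩ : ∃ m, N = m + 1 := ⟨N - 1, by have := NeZero.pos N; omega⟩
  rw [Nat.add_sub_cancel, mul_pow, ← pow_mul, div_pow, mul_pow (2 * (π : ℂ)) Complex.I,
    Complex.I_sq, div_pow, div_pow]
  rw [show ((2 * (π : ℂ)) ^ 2 * -1) ^ (m * 6) = (4096 * (π : ℂ) ^ 12) ^ m by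
    rw [mul_comm m 6, pow_mul]; ring]
  rw [show (64 / 27 * (π : ℂ) ^ 12 * (1728 * D)) ^ (m + 1)
    = (4096 * (π : ℂ) ^ 12) ^ (m + 1) * D ^ (m + 1) by rw [← mul_pow]; ring]
  rw [← pow_mul, ← pow_mul, pow_succ (4096 * (π : ℂ) ^ 12)]
  have he : (c ^ (12 * (m + 1)) : ℂ) = c ^ (2 * (m * 6)) * c ^ 12 := by
    rw [← pow_add]; congr 1; ring
  rw [he]
  have hc1 : c ^ (2 * (m * 6)) ≠ 0 := pow_ne_zero _ hc
  field_simp
  linear_combination 4096 * 27 * h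

/-- **The quotient by `⟨Q⟩`**: some `τ` has `j(τ) = j(E)` and `j(N τ) = j(E/⟨Q⟩)`, with the relation
between the discriminants. -/
theorem exists_tau (ι : Qbar →+* ℂ) (hc4 : W.c₄ ≠ 0) (hc6 : W.c₆ ≠ 0) (hΔ : W.Δ ≠ 0)
    [NeZero N] (hN : N.Prime) (h5 : 5 ≤ N) (hQ0 : Q ≠ 0) (hQ : N • Q = 0) :
    ∃ τ : ℍ, Curve.jFun τ = ι ((W.c₄ : Qbar) ^ 3 / W.Δ) ∧
      quotDelta W N Q ≠ 0 ∧
      Curve.jFun (mulPt N τ) = ι (quotC4 W N Q ^ 3 / quotDelta W N Q) ∧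
      ι (diffProd W N Q) ^ 6 * ι (quotDelta W N Q)
        = ratioConst N * (N : ℂ) ^ 12 * ι (W.Δ : Qbar) ^ N := by
  -- a lattice `c (ℤ τ + ℤ)` for `W` with `Q = k₀ c/N`
  obtain ⟨τ, c, hc, k₀, hk₀, hg2, hg3, hx⟩ := exists_adapted_abscissa ι hc4 hc6 hΔ hN hQ0 hQ
  have hN0 : (N : ℂ) ≠ 0 := NeZero.ne _
  -- the superlattice `(c/N) (ℤ Nτ + ℤ)` gives the quotient
  set M' := scalePair (perPair (mulPt N τ)) (c / N) (div_ne_zero hc hN0) with hM'
  have hG4 : 720 * M'.G 4 = ι (quotC4 W N Q) := quotC4_eq hN ι hk₀ hg2 hx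
  have hG6 : 30240 * M'.G 6 = ι (quotC6 W N Q) := quotC6_eq hN ι hk₀ hg2 hg3 hx
  have hdisc : M'.g₂ ^ 3 - 27 * M'.g₃ ^ 2 = ι (quotDelta W N Q) := by
    rw [quotDelta, map_div₀, map_sub, map_pow, map_pow, ← hG4, ← hG6, map_ofNat,
      PeriodPair.g₂, PeriodPair.g₃]
    ring
  have hdisc' : M'.g₂ ^ 3 - 27 * M'.g₃ ^ 2
      = 64 / 27 * (π : ℂ) ^ 12 * (1728 * ModularForm.discriminant (mulPt N τ)) / (c / N) ^ 12 := by
    rw [hM', g₂_scalePair, g₃_scalePair, ← discr_perPair]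
    ring
  have hd0 : quotDelta W N Q ≠ 0 := by
    intro h0
    rw [h0, map_zero, hdisc'] at hdisc
    simp [Real.pi_ne_zero, ModularForm.discriminant_ne_zero, hc, hN0] at hdisc
  refine ⟨τ, ?_, hd0, ?_, ?_⟩
  · rw [← jPair_perPair, ← jPair_scalePair hc, jPair, hg2, hg3, discr_div_eq, map_div₀, map_pow,
      map_intCast, map_intCast]
    ring
  · rw [← jPair_perPair, ← jPair_scalePair (div_ne_zero hc hN0), jPair, ← hM', hdisc, map_div₀,
      map_pow, ← hG4, PeriodPair.g₂]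
    ring
  · have hid := deltaRatio_eq hN h5 τ
    rw [deltaRatio, div_eq_iff (pow_ne_zero _ (ModularForm.discriminant_ne_zero τ))] at hid
    have hΔτ : (W.Δ : ℂ)
        = 64 / 27 * (π : ℂ) ^ 12 * (1728 * ModularForm.discriminant τ) / c ^ 12 := by
      rw [← discr_div_eq, ← hg2, ← hg3, g₂_scalePair, g₃_scalePair, ← discr_perPair]
      ring
    rw [map_diffProd_eq hN h5 ι hk₀ hx, ← hdisc, hdisc', map_intCast, hΔτ]
    exact deltaRatio_algebra hc hid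

end FermatAgent.Mazur

end
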