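import Fermat.Agent.Mazur.KummerRoot
import Fermat.Agent.Mazur.GInf

/-!
# Canonical roots of the values of the limit series

At a fixed point `r` of the disc the value of `gInf ψ` has canonical `ℓ ^ k`-th roots: the values of
the series with multiplier divided by their decompositions.  The decomposition group moves them by
the Kummer cocycle of the point.
-/

set_option autoImplicit false

noncomputable section

open HahnSeries (ofPowerSeries)
open scoped Classical MatrixGroups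
open CongruenceSubgroup (Gamma0)
open ModularCurve.Period

namespace FermatAgent.Mazur

open FermatAgent.Curve (jField jElt OrdGE)
open FermatAgent.GaloisBasic
open FermatAgent.ES (padChar galPad galLin padCyclo)
open ModularCurve (coeffMap)
open AlgebraicCurve (Place)

attribute [local instance] embAlg

local notation "Qbar" => AlgebraicClosure ℚ

variable {ℓ : ℕ} [hℓ : Fact ℓ.Prime] {N : ℕ} [NeZero N]

local notation "LS" => LaurentSeries ℂ_[ℓ]
local notation "PS" => PowerSeries ℂ_[ℓ]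
local notation "V" => parabolicHoms ℤ_[ℓ] (Gamma0 N) ℤ_[ℓ]
local notation "lsI" => lsMap (L := AlgebraicClosure ℚ) (K := ℂ_[ℓ])
local notation "ιA" => (algebraMap (AlgebraicClosure ℚ) ℂ_[ℓ] : AlgebraicClosure ℚ →+* ℂ_[ℓ])

/-! ### Leading coefficients -/

lemma leadingCoeff_coeffMap {R S : Type*} [Field R] [Field S] (σ : R →+* S) (F : LaurentSeries R) :
    (coeffMap σ F).leadingCoeff = σ F.leadingCoeff := by
  rcases eq_or_ne F 0 with rfl | hF
  · simp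
  have hne : coeffMap σ F ≠ 0 := (_root_.map_ne_zero _).2 hF
  have ho : (coeffMap σ F).order = F.order := by
    refine le_antisymm (HahnSeries.order_le_of_coeff_ne_zero ?_)
      (HahnSeries.order_le_of_coeff_ne_zero ?_)
    · rw [ModularCurve.coeffMap_coeff, _root_.map_ne_zero, ← HahnSeries.leadingCoeff_eq]
      exact HahnSeries.leadingCoeff_ne_zero.2 hF
    · have h := HahnSeries.leadingCoeff_ne_zero.2 hne
      rw [HahnSeries.leadingCoeff_eq, ModularCurve.coeffMap_coeff, _root_.map_ne_zero] at h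
      exact h
  rw [HahnSeries.leadingCoeff_eq, ho, ModularCurve.coeffMap_coeff, ← HahnSeries.leadingCoeff_eq]

/-- `∏ (f ρ) ^ Z ρ`. -/
def zProd (f : ℂ_[ℓ] → ℂ_[ℓ]) (Z : ℂ_[ℓ] →₀ ℤ) : ℂ_[ℓ] := Z.prod fun ρ k => f ρ ^ k

section ZProd

variable {f : ℂ_[ℓ] → ℂ_[ℓ]} {Z W : ℂ_[ℓ] →₀ ℤ}

lemma zProd_zero : zProd f (0 : ℂ_[ℓ] →₀ ℤ) = 1 := Finsupp.prod_zero_index

lemma zProd_ne_zero (h : ∀ ρ ∈ Z.support, f ρ ≠ 0) : zProd f Z ≠ 0 :=
  Finset.prod_ne_zero_iff.2 fun ρ hρ => zpow_ne_zero _ (h ρ hρ)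

lemma zProd_add (hZ : ∀ ρ ∈ Z.support, f ρ ≠ 0) (hW : ∀ ρ ∈ W.support, f ρ ≠ 0) :
    zProd f (Z + W) = zProd f Z * zProd f W :=
  Finsupp.prod_add_index (fun _ _ => zpow_zero _) fun ρ hρ _ _ =>
    zpow_add₀ ((Finset.mem_union.1 hρ).elim (hZ ρ) (hW ρ)) _ _

lemma zProd_nsmul (n : ℕ) : zProd f (n • Z) = zProd f Z ^ n := by
  rcases eq_or_ne n 0 with rfl | hn
  · rw [zero_nsmul, zProd_zero, pow_zero]
  rw [zProd, zProd, Finsupp.prod, Finsupp.prod, Finsupp.support_smul_eq hn, ← Finset.prod_pow]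
  refine Finset.prod_congr rfl fun ρ _ => ?_
  rw [Finsupp.smul_apply, ← zpow_natCast, ← zpow_mul, nsmul_eq_mul, mul_comm]

end ZProd

lemma HasDec.leadingCoeff {F : LS} {c : ℂ_[ℓ]} {e : ℤ} {G : PS} {Z : ℂ_[ℓ] →₀ ℤ}
    (h : HasDec F c e G Z) : F.leadingCoeff = c * zProd (fun ρ => -ρ) Z := by
  have hps : ∀ U : PS, PowerSeries.constantCoeff U ≠ 0 →
      (ofPowerSeries ℤ ℂ_[ℓ] U).leadingCoeff = PowerSeries.constantCoeff U := by
    intro U hU
    have hc : (ofPowerSeries ℤ ℂ_[ℓ] U).coeff 0 = PowerSeries.constantCoeff U := by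
      rw [coeff_ofPowerSeries_eq, if_pos le_rfl, Int.toNat_zero,
        PowerSeries.coeff_zero_eq_constantCoeff]
    have hne : ofPowerSeries ℤ ℂ_[ℓ] U ≠ 0 := fun h0 => hU (by
      rw [← hc, h0, HahnSeries.coeff_zero])
    rw [HahnSeries.leadingCoeff_eq, show (ofPowerSeries ℤ ℂ_[ℓ] U).order = 0 from
      le_antisymm (HahnSeries.order_le_of_coeff_ne_zero (hc.symm ▸ hU))
      ((HahnSeries.le_order_iff_forall hne).2 fun k hk => by
        rw [coeff_ofPowerSeries_eq, if_neg (by omega)]), hc]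
  show leadHom F = _
  rw [h.eq, decS, linProdS, Finsupp.prod, map_mul, map_mul, map_prod, zProd, Finsupp.prod]
  show (HahnSeries.single e c).leadingCoeff * _ * _ = _
  rw [HahnSeries.leadingCoeff_of_single,
    show leadHom (ofPowerSeries ℤ ℂ_[ℓ] G) = 1 from
      (hps G h.unit.ne_zero).trans h.unit.1, mul_one]
  congr 1
  refine Finset.prod_congr rfl fun ρ hρ => ?_
  rw [map_zpow₀]
  show (ofPowerSeries ℤ ℂ_[ℓ] (PowerSeries.X - PowerSeries.C ρ)).leadingCoeff ^ _ = _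
  rw [hps _ (by simp [(h.disc ρ hρ).1])]
  simp

/-- One-units with equal powers are equal. -/
lemma IsP1.eq_of_pow_eq {F G : PS} (hF : IsP1 F) (hG : IsP1 G) {n : ℕ} (hn : n ≠ 0)
    (h : F ^ n = G ^ n) : F = G := by
  have h0 : (F - G) * (∑ i ∈ Finset.range n, F ^ i * G ^ (n - 1 - i)) = 0 := by
    rw [mul_comm, geom_sum₂_mul, h, sub_self]
  rcases mul_eq_zero.1 h0 with h1 | h1
  · exact sub_eq_zero.1 h1
  · have h2 := congrArg PowerSeries.constantCoeff h1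
    simp only [map_sum, map_mul, map_pow, hF.1, hG.1, one_pow, mul_one, map_zero, Finset.sum_const,
      Finset.card_range, nsmul_eq_mul] at h2
    exact absurd h2 (Nat.cast_ne_zero.2 hn)

variable [Algebra Qbar ℂ_[ℓ]]

/-! ### Decomposed series -/

/-- The `n`-th power of `S` decomposes as the `n`-th power of `(c, e, 1, Z)` times `G`. -/
structure PowDec (n : ℕ) (S : LaurentSeries (AlgebraicClosure ℚ)) (c : ℂ_[ℓ]) (e : ℤ)
    (G : PowerSeries ℂ_[ℓ]) (Z : ℂ_[ℓ] →₀ ℤ) : Prop where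
  dec : HasDec (lsMap (L := AlgebraicClosure ℚ) (K := ℂ_[ℓ]) S ^ n) (c ^ n) ((n : ℤ) * e) G (n • Z)
  lead : c * zProd (fun ρ => -ρ) Z = algebraMap (AlgebraicClosure ℚ) ℂ_[ℓ] S.leadingCoeff

namespace PowDec

variable {n : ℕ} {S S' : LaurentSeries (AlgebraicClosure ℚ)} {c c' : ℂ_[ℓ]} {e e' : ℤ}
  {G G' : PowerSeries ℂ_[ℓ]} {Z Z' : ℂ_[ℓ] →₀ ℤ}

lemma disc (hn : n ≠ 0) (h : PowDec n S c e G Z) : ∀ ρ ∈ Z.support, ρ ≠ 0 ∧ ‖ρ‖ < 1 := fun ρ hρ =>
  h.dec.disc ρ (by rwa [Finsupp.support_smul_eq hn])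

lemma neg_ne (hn : n ≠ 0) (h : PowDec n S c e G Z) : ∀ ρ ∈ Z.support, (-ρ : ℂ_[ℓ]) ≠ 0 :=
  fun ρ hρ => neg_ne_zero.2 (h.disc hn ρ hρ).1

theorem unique (hn : n ≠ 0) (h : PowDec n S c e G Z) (h' : PowDec n S c' e' G' Z') :
    c = c' ∧ e = e' ∧ G = G' ∧ Z = Z' := by
  obtain ⟨-, he, hG, hZ⟩ := h.dec.unique h'.dec
  have hZ' : Z = Z' := Finsupp.ext fun ρ => by
    have h1 := DFunLike.congr_fun hZ ρ
    simp only [Finsupp.smul_apply, nsmul_eq_mul] at h1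
    exact mul_left_cancel₀ (Nat.cast_ne_zero.2 hn) h1
  refine ⟨?_, mul_left_cancel₀ (Nat.cast_ne_zero.2 hn) he, hG, hZ'⟩
  have h1 := h.lead
  rw [← h'.lead, ← hZ'] at h1
  exact mul_right_cancel₀ (zProd_ne_zero (h.neg_ne hn)) h1

theorem mul (hn : n ≠ 0) (h : PowDec n S c e G Z) (h' : PowDec n S' c' e' G' Z') :
    PowDec n (S * S') (c * c') (e + e') (G * G') (Z + Z') where
  dec := by
    rw [map_mul, mul_pow, mul_pow, mul_add, nsmul_add]
    exact h.dec.mul h'.dec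
  lead := by
    rw [zProd_add (h.neg_ne hn) (h'.neg_ne hn), HahnSeries.leadingCoeff_mul, map_mul, ← h.lead,
      ← h'.lead]
    ring

theorem pow {p : ℕ} (h : PowDec (n * p) S c e G Z) :
    PowDec n (S ^ p) (c ^ p) ((p : ℤ) * e) G (p • Z) where
  dec := by
    rw [map_pow, ← pow_mul, ← pow_mul, smul_smul, ← mul_assoc, ← Nat.cast_mul, mul_comm p n]
    exact h.dec
  lead := by
    rw [zProd_nsmul, ← mul_pow, h.lead, ← map_pow]
    congr 1
    exact (map_pow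
      ({ toFun := fun x => x.leadingCoeff
         map_one' := HahnSeries.leadingCoeff_one
         map_mul' := fun _ _ => HahnSeries.leadingCoeff_mul _ _ } :
          LaurentSeries Qbar →* Qbar) S p).symm

theorem map (h : PowDec n S c e G Z) (g : (padVal ιA).decompositionSubgroup ℚ) :
    PowDec n (coeffMap ((g : GQ) : Qbar →+* Qbar) S) (galExt ιA g c) e
      (G.map (galExt ιA g)) (Z.mapDomain (galExt ιA g)) where
  dec := by
    have hc : lsI (coeffMap ((g : GQ) : Qbar →+* Qbar) S) = coeffMap (galExt ιA g) (lsI S) := by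
      show coeffMap _ (coeffMap _ S) = coeffMap _ (coeffMap _ S)
      rw [ModularCurve.coeffMap_coeffMap, ModularCurve.coeffMap_coeffMap]
      refine ModularCurve.coeffMap_congr (RingHom.ext fun x => ?_) S
      exact (galExt_apply g x).symm
    have h1 := h.dec.map (σ := galExt ιA g) (norm_galExt g)
    rw [map_pow, map_pow, ← hc, Finsupp.mapDomain_smul] at h1
    exact h1
  lead := by
    rw [leadingCoeff_coeffMap, RingHom.coe_coe, ← galExt_apply (ι := ιA) g, ← h.lead, map_mul,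
      zProd, zProd, Finsupp.prod_mapDomain_index_inj (galExt ιA g).injective, Finsupp.prod,
      Finsupp.prod, map_prod]
    congr 1
    exact Finset.prod_congr rfl fun ρ _ => by rw [map_zpow₀, map_neg]

end PowDec

/-- A series with multiplier of order dividing `n` has a decomposed `n`-th power. -/
theorem exists_powDec {n : ℕ} (hn : n ≠ 0) {φ : Gamma0 N →* ℂˣ} {S : LaurentSeries Qbar}
    (hS : IsMult N φ S) (hφ : φ ^ n = 1) :
    ∃ (c : ℂ_[ℓ]) (e : ℤ) (G : PS) (Z : ℂ_[ℓ] →₀ ℤ), PowDec n S c e G Z := by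
  obtain ⟨c₀, e₀, G, Z₀, hd⟩ := isDec_lsI_pow (ℓ := ℓ) hS hφ
  obtain ⟨⟨e, rfl⟩, hZ⟩ := hS.dvd_exp hφ hd
  choose q hq using hZ
  set Z : ℂ_[ℓ] →₀ ℤ := Finsupp.onFinset Z₀.support q fun ρ h => Finsupp.mem_support_iff.2 (by
    rw [hq ρ]; exact mul_ne_zero (Nat.cast_ne_zero.2 hn) h) with hZdef
  have hnZ : n • Z = Z₀ := Finsupp.ext fun ρ => by
    rw [Finsupp.smul_apply, hZdef, Finsupp.onFinset_apply, hq ρ, nsmul_eq_mul]
  have hneg : ∀ ρ ∈ Z.support, (-ρ : ℂ_[ℓ]) ≠ 0 := fun ρ hρ => neg_ne_zero.2 (hd.disc ρ (by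
    rwa [← hnZ, Finsupp.support_smul_eq hn])).1
  set c := algebraMap Qbar ℂ_[ℓ] S.leadingCoeff / zProd (fun ρ => -ρ) Z
  have hc : c * zProd (fun ρ => -ρ) Z = algebraMap Qbar ℂ_[ℓ] S.leadingCoeff :=
    div_mul_cancel₀ _ (zProd_ne_zero hneg)
  have hcn : c ^ n = c₀ := by
    refine mul_right_cancel₀ (pow_ne_zero n (zProd_ne_zero hneg)) ?_
    rw [← mul_pow, hc, ← zProd_nsmul, hnZ, ← hd.leadingCoeff]
    show _ = leadHom _
    rw [map_pow]
    congr 1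
    exact (leadingCoeff_coeffMap _ S).symm
  refine ⟨c, e, G, Z, ?_, hc⟩
  rw [hcn, hnZ]
  exact hd

/-! ### Decomposed roots -/

/-- `S ^ n` decomposes as the `n`-th power of `(c, e, H, Z)` times `G₀`. -/
structure RootDec (n : ℕ) (G₀ : PowerSeries ℂ_[ℓ]) (S : LaurentSeries (AlgebraicClosure ℚ))
    (c : ℂ_[ℓ]) (e : ℤ) (H : PowerSeries ℂ_[ℓ]) (Z : ℂ_[ℓ] →₀ ℤ) : Prop
    extends PowDec n S c e (G₀ * H ^ n) Z where
  unit : IsP1 H

namespace RootDec

variable {n : ℕ} {G₀ G₀' : PowerSeries ℂ_[ℓ]} {S S' : LaurentSeries (AlgebraicClosure ℚ)}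
  {c c' : ℂ_[ℓ]} {e e' : ℤ} {H H' : PowerSeries ℂ_[ℓ]} {Z Z' : ℂ_[ℓ] →₀ ℤ}

theorem unique (hn : n ≠ 0) (hG₀ : IsP1 G₀) (h : RootDec n G₀ S c e H Z)
    (h' : RootDec n G₀ S c' e' H' Z') : c = c' ∧ e = e' ∧ H = H' ∧ Z = Z' := by
  obtain ⟨hc, he, hG, hZ⟩ := h.toPowDec.unique hn h'.toPowDec
  exact ⟨hc, he, h.unit.eq_of_pow_eq h'.unit hn
    (mul_left_cancel₀ (fun h0 => hG₀.ne_zero (by rw [h0, map_zero])) hG), hZ⟩

theorem mul (hn : n ≠ 0) (h : RootDec n G₀ S c e H Z) (h' : RootDec n G₀' S' c' e' H' Z') :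
    RootDec n (G₀ * G₀') (S * S') (c * c') (e + e') (H * H') (Z + Z') where
  toPowDec := by
    rw [mul_pow, mul_mul_mul_comm]
    exact h.toPowDec.mul hn h'.toPowDec
  unit := h.unit.mul h'.unit

theorem pow {p : ℕ} (h : RootDec (n * p) G₀ S c e H Z) :
    RootDec n G₀ (S ^ p) (c ^ p) ((p : ℤ) * e) (H ^ p) (p • Z) where
  toPowDec := by
    rw [← pow_mul, mul_comm p n]
    exact h.toPowDec.pow
  unit := h.unit.pow p

theorem map (h : RootDec n G₀ S c e H Z) (g : (padVal ιA).decompositionSubgroup ℚ) :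
    RootDec n (G₀.map (galExt ιA g)) (coeffMap ((g : GQ) : Qbar →+* Qbar) S) (galExt ιA g c) e
      (H.map (galExt ιA g)) (Z.mapDomain (galExt ιA g)) where
  toPowDec := by
    have h1 := h.toPowDec.map g
    rw [map_mul, map_pow] at h1
    exact h1
  unit := h.unit.map (norm_galExt g)

end RootDec

/-- A function decomposes over the constant series. -/
theorem exists_rootDec_of_isMult_one (n : ℕ) {S : LaurentSeries Qbar} (hm : IsMult N 1 S) :
    ∃ (c : ℂ_[ℓ]) (e : ℤ) (H : PS) (Z : ℂ_[ℓ] →₀ ℤ), RootDec n 1 S c e H Z := by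
  obtain ⟨c, e, G, Z, hd⟩ := isDec_lsI (ℓ := ℓ) hm.mem hm.ne_zero
  exact ⟨c, e, G, Z, ⟨by rw [one_mul]; exact hd.pow n,
    by rw [← hd.leadingCoeff]; exact leadingCoeff_coeffMap _ _⟩, hd.unit⟩

/-- Existence of the decomposed root. -/
theorem exists_rootDec {k : ℕ} {ψ : V} {S : LaurentSeries Qbar}
    (hS : IsMult N (padChar ℓ k ψ : Gamma0 N →* ℂˣ) S) :
    ∃ c e H Z, RootDec (ℓ ^ k) (gInf ψ) S c e H Z := by
  obtain ⟨c, e, G, Z, h⟩ :=
    exists_powDec (ℓ := ℓ) (pow_ne_zero k hℓ.out.ne_zero) hS (padChar_pow_eq_one k ψ)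
  obtain ⟨H, hH, hG⟩ := pcong_gInf_of_isMult hS
  rw [decG_eq h.dec] at hG
  exact ⟨c, e, H, Z, hG ▸ h, hH⟩

section Value

variable (r : ℂ_[ℓ]) (hr : ‖r‖ < 1)

/-- The value of the decomposed root at `r`. -/
def rootVal (n : ℕ) (G₀ : PowerSeries ℂ_[ℓ]) (S : LaurentSeries Qbar) : ℂ_[ℓ] :=
  if h : ∃ (c : ℂ_[ℓ]) (e : ℤ) (H : PS) (Z : ℂ_[ℓ] →₀ ℤ), RootDec n G₀ S c e H Z then
    h.choose * r ^ h.choose_spec.choose *
      serVal hr h.choose_spec.choose_spec.choose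
        h.choose_spec.choose_spec.choose_spec.choose_spec.unit.2 *
      zProd (fun ρ => r - ρ) h.choose_spec.choose_spec.choose_spec.choose
  else 1

variable {r}

lemma RootDec.rootVal_eq {n : ℕ} (hn : n ≠ 0) {G₀ : PS} (hG₀ : IsP1 G₀) {S : LaurentSeries Qbar}
    {c : ℂ_[ℓ]} {e : ℤ} {H : PS} {Z : ℂ_[ℓ] →₀ ℤ} (h : RootDec n G₀ S c e H Z) :
    rootVal r hr n G₀ S = c * r ^ e * serVal hr H h.unit.2 * zProd (fun ρ => r - ρ) Z := by
  have hex : ∃ (c : ℂ_[ℓ]) (e : ℤ) (H : PS) (Z : ℂ_[ℓ] →₀ ℤ), RootDec n G₀ S c e H Z :=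
    ⟨c, e, H, Z, h⟩
  rw [rootVal, dif_pos hex]
  obtain ⟨h1, h2, h3, h4⟩ :=
    hex.choose_spec.choose_spec.choose_spec.choose_spec.unique hn hG₀ h
  rw [serVal_congr hr h3 _ h.unit.2, h4, h2, h1]

omit [Algebra Qbar ℂ_[ℓ]] in
/-- An isometric endomorphism fixing `r` commutes with evaluation at `r`. -/
lemma map_serVal {σ : ℂ_[ℓ] →+* ℂ_[ℓ]} (hσc : Continuous σ) (hσr : σ r = r) {G : PS}
    (hG : BdBy G 1) (hG' : BdBy (G.map σ) 1) :
    σ (serVal hr G hG) = serVal hr (G.map σ) hG' := by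
  have hs := summable_shift hr (toBdd G hG) 0
  simp only [zero_add] at hs
  show σ (evalDisc r hr (toBdd G hG)) = evalDisc r hr (toBdd _ hG')
  rw [evalDisc_apply, evalDisc_apply]
  refine (hs.map_tsum σ hσc).trans (tsum_congr fun n => ?_)
  rw [map_mul, map_pow, hσr, show (toBdd (G.map σ) hG' : PS) = G.map σ from rfl,
    PowerSeries.coeff_map]
  rfl

end Value

/-! ### The roots -/

/-- A fixed point lying on the disc. -/
structure DiscPt (ℓ N : ℕ) [Fact ℓ.Prime] [NeZero N] [Algebra (AlgebraicClosure ℚ) ℂ_[ℓ]]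
    extends FixPt N where
  /-- the parameter of the point on the disc -/
  r : ℂ_[ℓ]
  hr : ‖r‖ < 1
  hr0 : r ≠ 0
  ha : algebraMap (AlgebraicClosure ℚ) ℂ_[ℓ] a = jDisc r hr
  hP : P = discPlace hr hr0 ha
  galExt_r : ∀ g : (padVal (algebraMap (AlgebraicClosure ℚ) ℂ_[ℓ])).decompositionSubgroup ℚ,
    galExt (algebraMap (AlgebraicClosure ℚ) ℂ_[ℓ]) g r = r

namespace DiscPt

variable (D : DiscPt ℓ N)

/-- The value of a function of order zero. -/
theorem value_eq {u : (LaurentSeries Qbar)ˣ} {f : jField Qbar N}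
    (hf : (f : LaurentSeries Qbar) = u) (h0 : D.P.ord f = 0) {c : ℂ_[ℓ]} {e : ℤ} {G : PS}
    {Z : ℂ_[ℓ] →₀ ℤ} (hd : HasDec (lsI (u : LaurentSeries Qbar)) c e G Z) :
    Z D.r = 0 ∧ algebraMap Qbar ℂ_[ℓ] (D.val u : Qbar) =
      c * D.r ^ e * serVal D.hr G hd.unit.2 * zProd (fun ρ => D.r - ρ) Z := by
  rw [← hf] at hd
  obtain ⟨hord, hval⟩ := discEmb_order_of_hasDec D.hr D.hr0 N hd
  have hZ : Z D.r = 0 := by rw [← hord, ← ord_discPlace D.hr D.hr0 D.ha, ← D.hP, h0]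
  refine ⟨hZ, ?_⟩
  have hc := D.toFixPt.val_spec hf h0
  rw [D.hP] at hc
  have hz : (discEmb N D.hr D.hr0 (f - algebraMap Qbar (jField Qbar N)
      (D.val u : Qbar))).coeff 0 = 0 := by
    rcases hc with h | h
    · simp [h]
    · rw [ord_discPlace] at h
      exact HahnSeries.coeff_eq_zero_of_lt_order (by omega)
  rw [map_sub, AlgHom.commutes, HahnSeries.coeff_sub, laurent_algebraMap_tower,
    ModularCurve.algebraMap_laurentSeries_eq_single, HahnSeries.coeff_single_same, hval hZ,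
    sub_eq_zero] at hz
  exact hz.symm

variable {n : ℕ} {G₀ G₀' : PowerSeries ℂ_[ℓ]} {c c' : ℂ_[ℓ]} {e e' : ℤ}
  {H H' : PowerSeries ℂ_[ℓ]} {Z Z' : ℂ_[ℓ] →₀ ℤ} {u v : (LaurentSeries (AlgebraicClosure ℚ))ˣ}

/-- A decomposed root avoids `r`, and its value has power `R(u^n) / G₀(r)`. -/
theorem rootVal_pow (hn : n ≠ 0) (hG₀ : IsP1 G₀) (hu : u ^ n ∈ D.regUnits)
    (h : RootDec n G₀ (u : LaurentSeries Qbar) c e H Z) :
    rootVal D.r D.hr n G₀ (u : LaurentSeries Qbar) ^ n * serVal D.hr G₀ hG₀.2 =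
      algebraMap Qbar ℂ_[ℓ] (D.val u : Qbar) ^ n ∧ ∀ ρ ∈ Z.support, D.r - ρ ≠ 0 := by
  obtain ⟨f, hf, hf0⟩ := hu
  have hd := h.dec
  rw [← map_pow, ← Units.val_pow_eq_pow_val] at hd
  obtain ⟨hZr, hval⟩ := D.value_eq hf hf0 hd
  rw [map_pow, Units.val_pow_eq_pow_val, map_pow] at hval
  refine ⟨?_, fun ρ hρ => sub_ne_zero.2 fun hρr => ?_⟩
  · rw [h.rootVal_eq D.hr hn hG₀, hval,
      serVal_mul D.hr hG₀.2 ((intSer ℓ).pow_mem h.unit.2 _), serVal_pow D.hr h.unit.2,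
      zProd_nsmul, zpow_mul, zpow_natCast]
    rw [mul_pow, mul_pow, mul_pow, ← zpow_natCast (D.r ^ e), ← zpow_mul, mul_comm e, zpow_mul,
      zpow_natCast]
    ring
  · rw [Finsupp.smul_apply, nsmul_eq_mul, mul_eq_zero] at hZr
    rw [← hρr] at hρ
    exact Finsupp.mem_support_iff.1 hρ (hZr.resolve_left (Nat.cast_ne_zero.2 hn))

lemma rootVal_mul (hn : n ≠ 0) (hG₀ : IsP1 G₀) (hG₀' : IsP1 G₀') (hu : u ^ n ∈ D.regUnits)
    (hv : v ^ n ∈ D.regUnits) (h : RootDec n G₀ (u : LaurentSeries Qbar) c e H Z)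
    (h' : RootDec n G₀' (v : LaurentSeries Qbar) c' e' H' Z') :
    rootVal D.r D.hr n (G₀ * G₀') ((u * v : (LaurentSeries Qbar)ˣ) : LaurentSeries Qbar) =
      rootVal D.r D.hr n G₀ (u : LaurentSeries Qbar) *
        rootVal D.r D.hr n G₀' (v : LaurentSeries Qbar) := by
  rw [Units.val_mul, (h.mul hn h').rootVal_eq D.hr hn (hG₀.mul hG₀'), h.rootVal_eq D.hr hn hG₀,
    h'.rootVal_eq D.hr hn hG₀', serVal_mul D.hr h.unit.2 h'.unit.2, zpow_add₀ D.hr0,
    zProd_add (D.rootVal_pow hn hG₀ hu h).2 (D.rootVal_pow hn hG₀' hv h').2]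
  ring

/-- Over the constant series the root is the value. -/
lemma rootVal_one (hn : n ≠ 0) (hm : IsMult N 1 (u : LaurentSeries Qbar)) (hu : u ∈ D.regUnits) :
    rootVal D.r D.hr n 1 (u : LaurentSeries Qbar) = algebraMap Qbar ℂ_[ℓ] (D.val u : Qbar) := by
  obtain ⟨f, hf, hf0⟩ := hu
  obtain ⟨c, e, G, Z, hd⟩ := isDec_lsI (ℓ := ℓ) hm.mem hm.ne_zero
  have h : RootDec n 1 (u : LaurentSeries Qbar) c e G Z :=
    ⟨⟨by rw [one_mul]; exact hd.pow n,
      by rw [← hd.leadingCoeff]; exact leadingCoeff_coeffMap _ _⟩, hd.unit⟩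
  rw [h.rootVal_eq D.hr hn IsP1.one, (D.value_eq hf hf0 hd).2]

/-- The value of `u` divided by the value of its decomposed root. -/
def ratio (n : ℕ) (G₀ : PowerSeries ℂ_[ℓ]) (u : (LaurentSeries Qbar)ˣ) : ℂ_[ℓ] :=
  algebraMap Qbar ℂ_[ℓ] (D.val u : Qbar) / rootVal D.r D.hr n G₀ (u : LaurentSeries Qbar)

/-- The `n`-th power of the ratio is the value of the one-unit. -/
theorem ratio_pow (hn : n ≠ 0) (hG₀ : IsP1 G₀) (hu : u ^ n ∈ D.regUnits)
    (h : RootDec n G₀ (u : LaurentSeries Qbar) c e H Z) :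
    D.ratio n G₀ u ^ n = serVal D.hr G₀ hG₀.2 := by
  have h1 := (D.rootVal_pow hn hG₀ hu h).1
  have h0 : algebraMap Qbar ℂ_[ℓ] (D.val u : Qbar) ≠ 0 :=
    (_root_.map_ne_zero _).2 (D.val u).ne_zero
  rw [ratio, div_pow, ← h1, mul_div_cancel_left₀]
  exact left_ne_zero_of_mul (h1 ▸ pow_ne_zero n h0)

/-- The ratio is multiplicative. -/
theorem ratio_mul (hn : n ≠ 0) (hG₀ : IsP1 G₀) (hG₀' : IsP1 G₀') (hu : u ^ n ∈ D.regUnits)
    (hv : v ^ n ∈ D.regUnits) (h : RootDec n G₀ (u : LaurentSeries Qbar) c e H Z)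
    (h' : RootDec n G₀' (v : LaurentSeries Qbar) c' e' H' Z') :
    D.ratio n (G₀ * G₀') (u * v) = D.ratio n G₀ u * D.ratio n G₀' v := by
  rw [ratio, ratio, ratio, D.rootVal_mul hn hG₀ hG₀' hu hv h h', map_mul, Units.val_mul, map_mul,
    div_mul_div_comm]

/-- The ratio depends only on the multiplier. -/
theorem ratio_eq (hn : n ≠ 0) (hG₀ : IsP1 G₀) {φ : Gamma0 N →* ℂˣ} (hφ : φ ^ n = 1)
    (hu : D.toFixPt.IsGood n φ u) (hv : D.toFixPt.IsGood n φ v)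
    (h : RootDec n G₀ (u : LaurentSeries Qbar) c e H Z) :
    D.ratio n G₀ u = D.ratio n G₀ v := by
  have hm := hu.div_mem hn hφ hv
  set F := v * u⁻¹ with hF
  have hF1 : IsMult N 1 (F : LaurentSeries Qbar) := by
    have := hv.1.mul (hu.1.inv hn hφ)
    rw [mul_inv_cancel φ] at this
    simpa [F, Units.val_inv_eq_inv_val] using this
  obtain ⟨c₁, e₁, H₁, Z₁, h₁⟩ := exists_rootDec_of_isMult_one (ℓ := ℓ) n hF1
  have h2 := D.ratio_mul hn IsP1.one hG₀ (pow_mem hm n) hu.2 h₁ h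
  rw [one_mul, hF, inv_mul_cancel_right, ← hF,
    show D.ratio n 1 F = 1 by
      rw [ratio, D.rootVal_one hn hF1 hm, div_self ((_root_.map_ne_zero _).2 (D.val F).ne_zero)],
    one_mul] at h2
  exact h2.symm

/-- The ratio at level `n` of a power is the power of that at level `n p`. -/
theorem ratio_pow_eq {p : ℕ} (hn : n * p ≠ 0) (hG₀ : IsP1 G₀)
    (h : RootDec (n * p) G₀ (u : LaurentSeries Qbar) c e H Z) :
    D.ratio n G₀ (u ^ p) = D.ratio (n * p) G₀ u ^ p := by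
  rw [ratio, ratio, Units.val_pow_eq_pow_val, h.pow.rootVal_eq D.hr (left_ne_zero_of_mul hn) hG₀,
    h.rootVal_eq D.hr hn hG₀, serVal_pow D.hr h.unit.2, zProd_nsmul, map_pow,
    Units.val_pow_eq_pow_val, map_pow, mul_comm (p : ℤ), zpow_mul, zpow_natCast, div_pow, mul_pow,
    mul_pow, mul_pow]

/-- The decomposition group moves the ratios by the cocycle. -/
theorem galExt_ratio (hn : n ≠ 0) (hG₀ : IsP1 G₀) (g : (padVal ιA).decompositionSubgroup ℚ)
    (h : RootDec n G₀ (FixPt.galU (g : GQ)⁻¹ u : LaurentSeries Qbar) c e H Z) :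
    galExt ιA g (D.ratio n G₀ (FixPt.galU (g : GQ)⁻¹ u)) =
      algebraMap Qbar ℂ_[ℓ] (D.kap (g : GQ) u : Qbar) * D.ratio n (G₀.map (galExt ιA g)) u := by
  have hd' := h.map g
  have hS : coeffMap (((g : GQ)) : Qbar →+* Qbar)
      (FixPt.galU (g : GQ)⁻¹ u : LaurentSeries Qbar) = (u : LaurentSeries Qbar) :=
    congrArg Units.val ((FixPt.galU_mul _ _ u).symm.trans
      (by rw [mul_inv_cancel, FixPt.galU_one]))
  rw [hS] at hd'
  rw [ratio, ratio, h.rootVal_eq D.hr hn hG₀,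
    hd'.rootVal_eq D.hr hn (hG₀.map (norm_galExt g)), map_div₀,
    galExt_apply, map_mul, map_mul, map_mul, map_zpow₀, D.galExt_r,
    map_serVal D.hr (continuous_galExt g) (D.galExt_r g) h.unit.2 hd'.unit.2,
    zProd, zProd, Finsupp.prod_mapDomain_index_inj (galExt ιA g).injective, Finsupp.prod,
    Finsupp.prod, map_prod, FixPt.kap_apply, map_mul, map_inv₀]
  simp only [map_zpow₀, map_sub, D.galExt_r]
  have hv0 : algebraMap Qbar ℂ_[ℓ] (D.val u : Qbar) ≠ 0 :=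
    (_root_.map_ne_zero _).2 (D.val u).ne_zero
  field_simp

variable {k : ℕ} {ψ : parabolicHoms ℤ_[ℓ] (Gamma0 N) ℤ_[ℓ]}

/-- The canonical root of `gInf ψ (r)`. -/
def rootU (k : ℕ) (ψ : V) : ℂ_[ℓ] := D.ratio (ℓ ^ k) (gInf ψ) (D.goodU k ψ)

lemma rootU_eq (hu : D.IsGood (ℓ ^ k) (padChar ℓ k ψ : Gamma0 N →* ℂˣ) u) :
    D.rootU k ψ = D.ratio (ℓ ^ k) (gInf ψ) u := by
  obtain ⟨c, e, H, Z, h⟩ := exists_rootDec hu.1
  exact (D.ratio_eq (pow_ne_zero _ hℓ.out.ne_zero) (isP1_gInf ψ) (padChar_pow_eq_one k ψ) hu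
    (D.isGood_goodU k ψ) h).symm

/-- The canonical root is an `ℓ ^ k`-th root of the value of the limit series. -/
theorem rootU_pow (k : ℕ) (ψ : V) :
    D.rootU k ψ ^ ℓ ^ k = serVal D.hr (gInf ψ) (isP1_gInf ψ).2 := by
  obtain ⟨c, e, H, Z, h⟩ := exists_rootDec (D.isGood_goodU k ψ).1
  exact D.ratio_pow (pow_ne_zero _ hℓ.out.ne_zero) (isP1_gInf ψ) (D.isGood_goodU k ψ).2 h

/-- The canonical root turns sums into products. -/
theorem rootU_add (k : ℕ) (ψ ψ' : V) : D.rootU k (ψ + ψ') = D.rootU k ψ * D.rootU k ψ' := by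
  have hu := D.isGood_goodU k ψ
  have hv := D.isGood_goodU k ψ'
  have hg := hu.mul hv
  rw [← Subgroup.coe_mul, ← FermatAgent.ES.padChar_add] at hg
  obtain ⟨c, e, H, Z, h⟩ := exists_rootDec hu.1
  obtain ⟨c', e', H', Z', h'⟩ := exists_rootDec hv.1
  rw [D.rootU_eq hg, gInf_add]
  exact D.ratio_mul (pow_ne_zero _ hℓ.out.ne_zero) (isP1_gInf ψ) (isP1_gInf ψ') hu.2 hv.2 h h'

/-- The canonical roots are compatible in `k`. -/
theorem rootU_succ (k : ℕ) (ψ : V) : D.rootU (k + 1) ψ ^ ℓ = D.rootU k ψ := by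
  have hu := D.isGood_goodU (k + 1) ψ
  have hg := hu.pow_succ
  rw [FermatAgent.ES.padChar_succ] at hg
  obtain ⟨c, e, H, Z, h⟩ := exists_rootDec hu.1
  rw [pow_succ ℓ k] at h
  rw [D.rootU_eq hg,
    D.ratio_pow_eq (mul_ne_zero (pow_ne_zero _ hℓ.out.ne_zero) hℓ.out.ne_zero) (isP1_gInf ψ) h,
    rootU, pow_succ ℓ k]

/-- **The decomposition group moves the roots by the Kummer cocycle.** -/
theorem galExt_rootU (g : (padVal ιA).decompositionSubgroup ℚ) (k : ℕ) (ψ : V) :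
    galExt ιA g (D.rootU k (galLin ℓ (g : GQ)⁻¹ ψ)) =
      algebraMap Qbar ℂ_[ℓ] (zp ℓ k (D.kumLin ℓ (g : GQ) ψ)) * D.rootU k ψ := by
  have hu := D.isGood_goodU k ψ
  have hu' := hu.galois (g : GQ)⁻¹
  rw [← FermatAgent.ES.padChar_galPad, ← FermatAgent.ES.galLin_apply] at hu'
  obtain ⟨c, e, H, Z, h⟩ := exists_rootDec hu'.1
  rw [D.rootU_eq hu', D.galExt_ratio (pow_ne_zero _ hℓ.out.ne_zero) (isP1_gInf _) g h,
    ← gInf_galPad, ← FermatAgent.ES.galLin_apply, ← Module.End.mul_apply, ← map_mul,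
    mul_inv_cancel, map_one, Module.End.one_apply, FixPt.kumLin_apply, hu.zp_kum, rootU]

end DiscPt

end FermatAgent.Mazur

end
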