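import Fermat.Agent.Mazur.CuspReduce

/-!
# Stable lines of prime order and multiplicative reduction at `2` and `3`
-/

set_option autoImplicit false

noncomputable section

open scoped WeierstrassCurve.Affine Classical

namespace FermatAgent.Mazur

open WeierstrassCurve WeierstrassCurve.Affine.Point FermatAgent.ECLocal
open FermatAgent.Curve (jField)
open AlgebraicCurve (Place)

local notation "Qbar" => AlgebraicClosure ℚ

variable {W : WeierstrassCurve ℤ} {N : ℕ} {Q : ((W.map (Int.castRingHom ℚ))⁄Qbar).Point}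

/-- A complex embedding of `ℚ̄`. -/
@[instance_reducible]
def qbarAlgebraC : Algebra Qbar ℂ :=
  (IsAlgClosed.lift (R := ℚ) (S := Qbar) (M := ℂ)).toRingHom.toAlgebra

/-- Multiplicative reduction forces `c₄, c₆ ≠ 0`. -/
lemma c₄_c₆_ne_zero {ℓ : ℕ} (hℓ : ℓ.Prime) (hΔ : (ℓ : ℤ) ∣ W.Δ) (hc4 : ¬(ℓ : ℤ) ∣ W.c₄) :
    W.c₄ ≠ 0 ∧ W.c₆ ≠ 0 := by
  refine ⟨fun h => hc4 (h ▸ dvd_zero _), fun h => hc4 ?_⟩
  have hrel := W.c_relation
  refine (Nat.prime_iff_prime_int.1 hℓ).dvd_of_dvd_pow (n := 3) ?_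
  rw [show W.c₄ ^ 3 = 1728 * W.Δ by rw [hrel, h]; ring]
  exact hΔ.mul_left _

/-- With a trivial quotient by a stable line every Galois element fixes a point of order `N`. -/
lemma exists_fixed_of_cofix (hN : N.Prime) (hΔ0 : W.Δ ≠ 0) (hQ : N • Q = 0) (hQ0 : Q ≠ 0)
    (hcof : ∀ (σ : Qbar ≃ₐ[ℚ] Qbar) (R : ((W.map (Int.castRingHom ℚ))⁄Qbar).Point),
      N • R = 0 → ∃ s : ℕ, σ • R = R + s • Q) (σ : Qbar ≃ₐ[ℚ] Qbar) :
    ∃ R : ((W.map (Int.castRingHom ℚ))⁄Qbar).Point, N • R = 0 ∧ R ≠ 0 ∧ σ • R = R := by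
  have := Fact.mk hN
  obtain ⟨m, hm⟩ := hcof σ Q hQ
  by_cases hm0 : (m : ZMod N) = 0
  · refine ⟨Q, hQ, hQ0, ?_⟩
    obtain ⟨c, rfl⟩ := (ZMod.natCast_eq_zero_iff _ _).1 hm0
    rw [hm, mul_nsmul, hQ, nsmul_zero, add_zero]
  · have hW := EC.intMap_Δ_ne_zero hΔ0
    set T := Submodule.torsionBy ℤ ((W.map (Int.castRingHom ℚ))⁄Qbar).Point (N : ℤ)
    obtain ⟨R, hR, hRC⟩ : ∃ R : ((W.map (Int.castRingHom ℚ))⁄Qbar).Point, N • R = 0 ∧
        ∀ k : ℕ, R ≠ k • Q := by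
      by_contra hne
      push Not at hne
      have hcard : Nat.card T = N ^ 2 := EC.natCard_torsionBy_rat _ hW hN.ne_zero
      have hT : ∀ x : T, ∃ k : Fin N, (x : _) = (k : ℕ) • Q := fun x => by
        obtain ⟨k, hk⟩ := hne x (nsmul_coe_torsion (W := W) x)
        exact ⟨⟨k % N, Nat.mod_lt _ hN.pos⟩, by
          rw [hk]
          conv_lhs => rw [← Nat.mod_add_div k N, add_nsmul, mul_nsmul, hQ, nsmul_zero, add_zero]⟩
      choose f hf using hT
      have hle := Nat.card_le_card_of_injective f fun x y h =>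
        Subtype.ext (by rw [hf x, hf y, h])
      rw [hcard, Nat.card_eq_fintype_card, Fintype.card_fin, sq] at hle
      nlinarith [hN.two_le]
    obtain ⟨s, hs⟩ := hcof σ R hR
    set t : ℕ := (-(s : ZMod N) / m).val
    refine ⟨R + t • Q, by rw [nsmul_add, hR, nsmul_nsmul_eq_zero hQ, add_zero], ?_, ?_⟩
    · intro h0
      refine hRC ((N - 1) * t) ?_
      rw [eq_neg_of_add_eq_zero_left h0, eq_comm, eq_neg_iff_add_eq_zero, ← add_nsmul,
        show (N - 1) * t + t = t * N by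
          rw [← Nat.succ_mul, Nat.succ_eq_add_one, Nat.sub_add_cancel hN.pos, mul_comm],
        mul_nsmul', hQ, nsmul_zero]
    · have hst : N ∣ s + t * m := by
        rw [← ZMod.natCast_eq_zero_iff]
        push_cast
        rw [ZMod.natCast_val, ZMod.cast_id', id_eq, div_mul_cancel₀ _ hm0, add_neg_cancel]
      obtain ⟨c, hc⟩ := hst
      have h0 : (s + t * m) • Q = 0 := by rw [hc, mul_nsmul, hQ, nsmul_zero]
      have hadd : σ • (R + t • Q) = σ • R + σ • (t • Q) :=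
        _root_.map_add (WeierstrassCurve.Affine.Point.map σ.toAlgHom) R (t • Q)
      rw [hadd, galois_smul_nsmul, hm, hs]
      rw [add_nsmul, mul_nsmul' Q t m] at h0
      calc R + s • Q + t • (Q + m • Q) = R + t • Q + (s • Q + t • m • Q) := by
            rw [nsmul_add]; abel
        _ = R + t • Q := by rw [h0, add_zero]

/-- At `2` and `3` a line with trivial quotient is at multiplicative reduction and lies in the
identity component. -/
lemma cofix_local (hN : N.Prime) (hN11 : 11 ≤ N) {ℓ : ℕ} (hℓ : ℓ.Prime) (hℓ3 : ℓ ≤ 3)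
    {A : ValuationSubring Qbar} (hA : A.LiesOverPrime ℓ) (hΔ0 : W.Δ ≠ 0)
    (hss : (ℓ : ℤ) ∣ W.Δ → ¬(ℓ : ℤ) ∣ W.c₄) (hQ : N • Q = 0) (hQ0 : Q ≠ 0)
    (hcof : ∀ (σ : Qbar ≃ₐ[ℚ] Qbar) (R : ((W.map (Int.castRingHom ℚ))⁄Qbar).Point),
      N • R = 0 → ∃ s : ℕ, σ • R = R + s • Q) :
    (ℓ : ℤ) ∣ W.Δ ∧ IsE0 (toGen W A Q) := by
  have := Fact.mk hN
  have hℓN : ℓ ≠ N := by omega
  obtain ⟨σ, hσ⟩ := GaloisBasic.exists_isFrobeniusAt hℓ hA
  obtain ⟨m, hm⟩ := hcof σ Q hQ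
  have hdvd : (ℓ : ℤ) ∣ W.Δ := by
    by_contra hgood
    have hall : ∀ P : ((W.map (Int.castRingHom ℚ))⁄Qbar).Point, IsE0 (toGen W A P) := fun P =>
      isE0_of_residue_Δ_ne_zero (residue_modelAt_Δ hℓ hA hgood) _
    obtain ⟨R, hR, hR0, hfix⟩ := exists_fixed_of_cofix hN hΔ0 hQ hQ0 hcof σ
    exact not_fixed_of_zeroComponent hℓ hA hN hℓN hℓ3 hN11 hR hR0 (fun k => hall _) hσ hfix
  refine ⟨hdvd, ?_⟩
  by_contra hQE
  have hc4 := hss hdvd
  obtain ⟨r, hr⟩ := exists_node hℓ hA hΔ0 hdvd hc4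
  obtain ⟨R, hR, hR0, hRE⟩ := exists_zeroComponent (N := N) hℓ hA hΔ0 hdvd hc4
  have hCnot : ∀ k : ℕ, ¬N ∣ k → ¬IsE0 (toGen W A (k • Q)) := fun k hk h =>
    hQE ((isE0_iff_nsmul hN hQ hk).1 h)
  have : CharP (IsLocalRing.ResidueField A) ℓ := residueChar (hp := ⟨hℓ⟩) A hA
  have := Fact.mk hℓ
  -- residues of abscissas
  set rb := IsLocalRing.residue A r
  have hnode : ∀ S, N • S = 0 → S ≠ 0 → ¬IsE0 (toGen W A S) →
      ∀ h : xAbs W S ∈ A, IsLocalRing.residue A ⟨xAbs W S, h⟩ = rb := fun S hS hS0 hSE h =>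
    (residue_eq_residue_iff A _ _).2 (not_not.1 fun hc => hSE ((hr S hS hS0).2 hc))
  have hσQ : σ • Q ≠ 0 := fun h =>
    hQ0 (MulAction.injective σ (h.trans (galois_smul_zero W σ).symm))
  have hσQe : σ • Q = (1 + m) • Q := by rw [hm, add_nsmul, one_nsmul]
  have hrb : rb ^ ℓ = rb := by
    have hxQ := xAbs_mem hℓ hA hN hℓN hQ
    obtain ⟨h, he⟩ := frob_residue hA hσ hxQ
    rw [hnode Q hQ hQ0 hQE hxQ] at he
    rw [← he]
    have h1 : ¬N ∣ 1 + m := fun hd => hσQ (by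
      obtain ⟨c, hc⟩ := hd
      rw [hσQe, hc, mul_nsmul, hQ, nsmul_zero])
    have h' : xAbs W (σ • Q) ∈ A := by rw [xAbs_smul]; exact h
    have := hnode _ (by rw [← galois_smul_nsmul, hQ, galois_smul_zero]) hσQ
      (by rw [hσQe]; exact hCnot _ h1) h'
    rw [← this]
    congr 1
    exact Subtype.ext (xAbs_smul W σ Q).symm
  refine not_fixed_of_zeroComponent hℓ hA hN hℓN hℓ3 hN11 hR hR0
    (fun k => by rw [map_nsmul]; exact (hRE.nsmul k).1) hσ ?_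
  obtain ⟨s, hs⟩ := hcof σ R hR
  by_contra hne
  have hsN : ¬N ∣ s := fun hd => hne (by
    obtain ⟨c, rfl⟩ := hd
    rw [hs, mul_nsmul, hQ, nsmul_zero, add_zero])
  have hσR : N • (σ • R) = 0 := by rw [← galois_smul_nsmul, hR, galois_smul_zero]
  have hσR0 : σ • R ≠ 0 := fun h =>
    hR0 (MulAction.injective σ (h.trans (galois_smul_zero W σ).symm))
  have hσRE : ¬IsE0 (toGen W A (σ • R)) := fun h => by
    refine hCnot s hsN ?_
    rw [show s • Q = σ • R + -R by rw [hs]; abel, map_add, map_neg]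
    exact (h.add hRE.neg.1).1
  have hxR := xAbs_mem hℓ hA hN hℓN hR
  obtain ⟨h, he⟩ := frob_residue hA hσ hxR
  have h' : xAbs W (σ • R) ∈ A := by rw [xAbs_smul]; exact h
  have h2 := hnode _ hσR hσR0 hσRE h'
  have h3 : IsLocalRing.residue A ⟨xAbs W R, hxR⟩ ^ ℓ = rb ^ ℓ := by
    rw [← he, hrb, ← h2]
    congr 1
    exact Subtype.ext (xAbs_smul W σ R).symm
  have h4 := frobenius_inj (IsLocalRing.ResidueField A) ℓ h3
  exact (hr R hR hR0).1 hRE ((residue_eq_residue_iff A _ _).1 h4)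

/-- Transfer of the dichotomy to `padicValRat`. -/
lemma padicValRat_dichotomy [Algebra Qbar ℂ] [NeZero N] (hN : N.Prime) {ℓ : ℕ} [hℓ : Fact ℓ.Prime]
    {P : Place Qbar (jField Qbar N)} {a b : ℚ}
    (hP : HasCoords P (a : Qbar) b)
    (ha : padicValRat ℓ a < 0) :
    padicValRat ℓ b = N * padicValRat ℓ a ∨
      (N : ℤ) * padicValRat ℓ b = padicValRat ℓ a := by
  let j : Qbar →+* ℂ_[ℓ] := (IsAlgClosed.lift (R := ℚ) (S := Qbar) (M := ℂ_[ℓ])).toRingHom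
  let : Algebra Qbar ℂ_[ℓ] := j.toAlgebra
  have hnorm : ∀ x : ℚ, ‖algebraMap Qbar ℂ_[ℓ] (x : Qbar)‖ = ‖(x : ℚ_[ℓ])‖ := fun x => by
    rw [map_ratCast, ← PadicComplex.norm_extends' (p := ℓ) (x : ℚ_[ℓ])]
    congr 1
    exact (map_ratCast (algebraMap ℚ_[ℓ] ℂ_[ℓ]) x).symm
  have hℓ1 : (1 : ℝ) < ℓ := by exact_mod_cast hℓ.out.one_lt
  have ha0 : a ≠ 0 := fun h => by simp [h] at ha
  have hna : ‖(a : ℚ_[ℓ])‖ = (ℓ : ℝ) ^ (-padicValRat ℓ a) := by
    rw [Padic.norm_eq_zpow_neg_valuation (by exact_mod_cast ha0), Padic.valuation_ratCast]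
  have hav : 1 < ‖algebraMap Qbar ℂ_[ℓ] (a : Qbar)‖ := by
    rw [hnorm, hna]
    exact one_lt_zpow₀ hℓ1 (by omega)
  have hd := value_dichotomy (K := ℂ_[ℓ]) N hN P hP hav
  have hb0 : b ≠ 0 := fun h => by
    rcases hd with hd | hd <;> rw [h, Rat.cast_zero, _root_.map_zero, norm_zero] at hd
    · exact (pow_pos (lt_trans one_pos hav) N).ne hd
    · rw [zero_pow hN.ne_zero] at hd
      exact (lt_trans one_pos hav).ne hd
  have hnb : ‖(b : ℚ_[ℓ])‖ = (ℓ : ℝ) ^ (-padicValRat ℓ b) := by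
    rw [Padic.norm_eq_zpow_neg_valuation (by exact_mod_cast hb0), Padic.valuation_ratCast]
  rw [hnorm, hnorm, hna, hnb, ← zpow_natCast, ← zpow_natCast, ← zpow_mul, ← zpow_mul] at hd
  have hinj := zpow_right_injective₀ (a := (ℓ : ℝ)) (by linarith) hℓ1.ne'
  rcases hd with hd | hd
  · left
    have := hinj hd
    linarith
  · right
    have := hinj hd
    linarith

end FermatAgent.Mazur

end
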