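import Fermat.Agent.Mazur.EdgeCusp
import Fermat.Agent.Mazur.FreyCofixed
import Fermat.Agent.Mazur.PotGood

/-!
# A rational point of order `p` off the identity components at `2` and `3`

The rational point of `X₀(p)` such a point defines would be near a cusp at an Eisenstein prime, or
at distance `1/2` from it at the only Eisenstein prime `2`; neither exists.
-/

set_option autoImplicit false

noncomputable section

open scoped WeierstrassCurve.Affine Classical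

namespace FermatAgent.Mazur

open WeierstrassCurve WeierstrassCurve.Affine.Point FermatAgent.ECLocal
open FermatAgent.Curve (jField)
open AlgebraicCurve (Place)

local notation "Qbar" => AlgebraicClosure ℚ

/-- For a prime `p = 11` or `p ≥ 17` with `9 ∤ p - 1` and no prime `≥ 5` dividing `p - 1`, the
Eisenstein prime power is a power of `2`, so `16 ∣ p - 1`. -/
lemma sixteen_dvd_sub_one {p : ℕ} (hp : p.Prime) (hp11 : p = 11 ∨ 17 ≤ p) (h9 : ¬ 9 ∣ p - 1)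
    (hbig : ∀ q : ℕ, q.Prime → 5 ≤ q → ¬ q ∣ p - 1) : 16 ∣ p - 1 := by
  obtain ⟨ℓ, k, hℓ, hk, h24, hcase⟩ := exists_eis_prime hp hp11
  have hk' : k ≠ 0 := fun h => h24 (by rw [h, pow_zero]; exact one_dvd _)
  rcases hcase with hle | ⟨h5, -⟩
  · have hℓ2 := hℓ.two_le
    interval_cases ℓ
    · refine (pow_dvd_pow 2 (show 4 ≤ k from ?_)).trans hk
      by_contra h4
      exact h24 ((pow_dvd_pow 2 (show k ≤ 3 by omega)).trans (by norm_num))
    · refine absurd ((pow_dvd_pow 3 (show 2 ≤ k from ?_)).trans hk) h9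
      by_contra h2'
      exact h24 ((pow_dvd_pow 3 (show k ≤ 1 by omega)).trans (by norm_num))
  · exact absurd ((dvd_pow_self ℓ hk').trans hk) (hbig ℓ hℓ h5)

/-- At a prime `ℓ ≥ 5` dividing `p - 1` a curve with a rational point of order `p` has non-integral
`j`, and the rational point of `X₀(p)` would be close to a cusp. -/
lemma false_of_five_le_dvd [Algebra Qbar ℂ] {p : ℕ} [NeZero p] (hp : p.Prime) (hp7 : 7 ≤ p)
    {W : WeierstrassCurve ℤ} (hΔ : W.Δ ≠ 0) (hc4 : W.c₄ ≠ 0)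
    {Q : ((W.map (Int.castRingHom ℚ))⁄Qbar).Point} (hQ : p • Q = 0) (hQ0 : Q ≠ 0)
    (hQfix : ∀ σ : Qbar ≃ₐ[ℚ] Qbar, σ • Q = Q) {P P' : Place Qbar (jField Qbar p)} {a b : ℚ}
    (hP : HasCoords P (a : Qbar) b) (hP' : HasCoords P' (b : Qbar) a)
    (ha : (a : Qbar) = (W.c₄ : Qbar) ^ 3 / W.Δ) {ℓ : ℕ} (hℓ : ℓ.Prime) (h5 : 5 ≤ ℓ)
    (hd : ℓ ∣ p - 1) : False := by
  have := Fact.mk hp
  have := Fact.mk hℓ
  have h24 : ¬ ℓ ^ 1 ∣ 24 := by
    intro h
    rw [pow_one] at h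
    rcases (hℓ.dvd_mul (m := 8) (n := 3)).1 h with h8 | h3
    · have := Nat.le_of_dvd (by norm_num) (hℓ.dvd_of_dvd_pow (m := 2) (n := 3) h8)
      omega
    · have := Nat.le_of_dvd (by norm_num) h3
      omega
  have hle : 2 * ℓ + 1 ≤ p := by
    have h2 : 2 ∣ p - 1 := (hp.even_sub_one (by omega)).two_dvd
    have := Nat.le_of_dvd (by omega)
      (((Nat.coprime_primes Nat.prime_two hℓ).2 (by omega)).mul_dvd_of_dvd_of_dvd h2 hd)
    omega
  have hva : padicValRat ℓ a < 0 := by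
    have ha' : a = ((W.c₄ ^ 3 : ℤ) : ℚ) / (W.Δ : ℚ) :=
      (Rat.cast_injective (α := Qbar)) (by rw [ha]; push_cast; rfl)
    have hlt : padicValInt ℓ (W.c₄ ^ 3) < padicValInt ℓ W.Δ := by
      by_contra hle'
      exact not_potentially_good hℓ h5 hΔ
        ((padicValInt_dvd_iff _ _).2 (Or.inr (not_lt.1 hle'))) hp hle Q hQ hQ0 hQfix
    rw [ha', padicValRat.div (by exact_mod_cast pow_ne_zero _ hc4) (by exact_mod_cast hΔ),
      padicValRat.of_int, padicValRat.of_int]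
    omega
  let : Algebra Qbar ℂ_[ℓ] :=
    (IsAlgClosed.lift (R := ℚ) (S := Qbar) (M := ℂ_[ℓ])).toRingHom.toAlgebra
  have hC := cuspAt hp (by omega) (k := 1) (by rwa [pow_one]) h24
  rcases padicValRat_dichotomy hp hP hva with h | h
  · exact hC P a b hP hva h fun h2 => by omega
  · refine hC P' b a hP' ?_ h.symm fun h2 => by omega
    by_contra hb
    have : (0 : ℤ) ≤ p * padicValRat ℓ b := mul_nonneg (by positivity) (not_lt.1 hb)
    omega

/-- No elliptic curve over `ℤ` with multiplicative reduction at `2` and `3` has a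
rational point of prime order `p = 11` or `p ≥ 17` off the identity component at both. -/
theorem s15_core {p : ℕ} (hp : p.Prime) (hp11 : p = 11 ∨ 17 ≤ p)
    (W : WeierstrassCurve ℤ) (hΔ : W.Δ ≠ 0)
    (Q : ((W.map (Int.castRingHom ℚ))⁄Qbar).Point)
    (hQfix : ∀ σ : Qbar ≃ₐ[ℚ] Qbar, σ • Q = Q) (hQord : addOrderOf Q = p)
    (h2Δ : (2 : ℤ) ∣ W.Δ) (h2c₄ : ¬ (2 : ℤ) ∣ W.c₄)
    (h2 : ∀ A : ValuationSubring Qbar, A.LiesOverPrime 2 → ¬ W.InZeroComponentAt A Q)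
    (h3Δ : (3 : ℤ) ∣ W.Δ) (h3c₄ : ¬ (3 : ℤ) ∣ W.c₄)
    (h3 : ∀ A : ValuationSubring Qbar, A.LiesOverPrime 3 → ¬ W.InZeroComponentAt A Q) : False := by
  have : NeZero p := ⟨hp.ne_zero⟩
  have := Fact.mk hp
  let := qbarAlgebraC
  have hQ : p • Q = 0 := hQord ▸ addOrderOf_nsmul_eq_zero Q
  have hQ0 : Q ≠ 0 := fun h => by
    rw [h, addOrderOf_zero] at hQord
    exact hp.ne_one hQord.symm
  obtain ⟨hc4, hc6⟩ := c₄_c₆_ne_zero (W := W) Nat.prime_three h3Δ h3c₄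
  obtain ⟨Pl, Pl', a, b, κ, hP, hP', ha, hb, hκ, hd0, hid⟩ :=
    exists_rat_place hp (by omega) hc4 hc6 hΔ hQ hQ0 (fun σ => ⟨1, by rw [hQfix, one_nsmul]⟩)
  have key : ∀ ℓ : ℕ, ℓ.Prime → ℓ ∣ 6 → (ℓ : ℤ) ∣ W.Δ → ¬(ℓ : ℤ) ∣ W.c₄ →
      (∀ A : ValuationSubring Qbar, A.LiesOverPrime ℓ → ¬ W.InZeroComponentAt A Q) →
      padicValRat ℓ b < 0 ∧ padicValRat ℓ a = p * padicValRat ℓ b := by
    intro ℓ hℓ h6 hdΔ hdc hE
    have := Fact.mk hℓ
    obtain ⟨A, hA⟩ := GaloisBasic.exists_liesOverPrime hℓ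
    obtain ⟨hn, -, hne⟩ := padicValRat_values hp (by omega) hℓ h6 hA hΔ hdΔ hdc hQ hQ0 ha hb hκ
      hd0 hid
    rcases padicValRat_dichotomy hp hP hn with h | h
    · exact absurd h (hne fun h' => hE A hA ((inZeroComponentAt_iff W A Q).2 h'))
    · refine ⟨?_, h.symm⟩
      by_contra hb'
      have : (0 : ℤ) ≤ p * padicValRat ℓ b := mul_nonneg (by positivity) (not_lt.1 hb')
      omega
  obtain ⟨a2, b2⟩ := key 2 Nat.prime_two (by norm_num) h2Δ h2c₄ h2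
  obtain ⟨a3, b3⟩ := key 3 Nat.prime_three (by norm_num) h3Δ h3c₄ h3
  by_cases h9 : 9 ∣ p - 1
  · have := Fact.mk Nat.prime_three
    let : Algebra Qbar ℂ_[3] :=
      (IsAlgClosed.lift (R := ℚ) (S := Qbar) (M := ℂ_[3])).toRingHom.toAlgebra
    exact cuspAt (ℓ := 3) hp (by omega) (k := 2) h9 (by norm_num) Pl' b a hP' a3 b3
      (fun h => absurd h (by norm_num))
  by_cases hbig : ∃ ℓ, ℓ.Prime ∧ 5 ≤ ℓ ∧ ℓ ∣ p - 1
  · obtain ⟨ℓ, hℓ, h5, hd⟩ := hbig
    exact false_of_five_le_dvd hp (by omega) hΔ hc4 hQ hQ0 hQfix hP hP' ha hℓ h5 hd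
  push Not at hbig
  have h16 := sixteen_dvd_sub_one hp hp11 h9 hbig
  have := Fact.mk Nat.prime_two
  by_cases hb1 : padicValRat 2 b = -1
  · exact Edge.cuspEdge hp h16 Pl' b a hP' hb1 (by rw [b2, hb1]; ring) a3 b3
  · let : Algebra Qbar ℂ_[2] :=
      (IsAlgClosed.lift (R := ℚ) (S := Qbar) (M := ℂ_[2])).toRingHom.toAlgebra
    exact cuspAt (ℓ := 2) hp (by omega) (k := 4) h16 (by norm_num) Pl' b a hP' a2 b2
      (fun _ => by omega)

end FermatAgent.Mazur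

end
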