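import Fermat.Agent.Mazur.SeriesD
import Fermat.Agent.Mazur.JDisc
import Mathlib.RingTheory.PowerSeries.Expand
import Mathlib.RingTheory.RootsOfUnity.PrimitiveRoots
import Mathlib.Analysis.Normed.Group.Ultra

/-!
# Roots, values and norm series of integral one-units

A coefficientwise limit of `n`-th powers of integral one-units is such a power
(`exists_root_of_tendsto`). `serVal` is the value of an integral series at a point `r` of the
disc: if `θ g = d g` with the coefficients of `d` dominated by `d₁`, then `g(r) - 1` has the norm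
of `d₁ r` for small `r` (`norm_serVal_sub_one`). The norm series `normSer`, made from the product
of the rotations by roots of unity, is again a one-unit (`IsP1.normSer`), with the coefficients of
index divisible by `q` of the logarithmic derivative (`coeff_dlog_normSer`).
-/

set_option autoImplicit false

noncomputable section

open PowerSeries Finset Filter Topology

namespace FermatAgent.Mazur

variable {ℓ : ℕ} [hℓ : Fact ℓ.Prime]

/-! ### Roots -/

/-- Coefficientwise limits multiply. -/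
lemma tendsto_coeff_mul {Y Z : ℕ → PowerSeries ℂ_[ℓ]} {A B : PowerSeries ℂ_[ℓ]} {m : ℕ}
    (hY : ∀ j ≤ m, Tendsto (fun i => coeff j (Y i)) atTop (𝓝 (coeff j A)))
    (hZ : ∀ j ≤ m, Tendsto (fun i => coeff j (Z i)) atTop (𝓝 (coeff j B))) :
    Tendsto (fun i => coeff m (Y i * Z i)) atTop (𝓝 (coeff m (A * B))) := by
  simp only [coeff_mul]
  refine tendsto_finsetSum _ fun x hx => ?_
  rw [HasAntidiagonal.mem_antidiagonal] at hx
  exact (hY _ (by omega)).mul (hZ _ (by omega))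

lemma tendsto_coeff_pow {Y : ℕ → PowerSeries ℂ_[ℓ]} {A : PowerSeries ℂ_[ℓ]} {m : ℕ}
    (hY : ∀ j ≤ m, Tendsto (fun i => coeff j (Y i)) atTop (𝓝 (coeff j A))) (n : ℕ) :
    ∀ j ≤ m, Tendsto (fun i => coeff j (Y i ^ n)) atTop (𝓝 (coeff j (A ^ n))) := by
  induction n with
  | zero => intro j _; simp
  | succ n ih =>
    intro j hj
    simp only [pow_succ]
    exact tendsto_coeff_mul (fun k hk => ih k (by omega)) fun k hk => hY k (by omega)

/-- The coefficient of `q^m` in an `n`-th power is affine in the coefficient of `q^m`. -/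
lemma coeff_pow_trunc {Y : PowerSeries ℂ_[ℓ]} (hY : constantCoeff Y = 1) {m : ℕ} (hm : m ≠ 0)
    (n : ℕ) :
    coeff m (Y ^ n) = coeff m ((trunc m Y : PowerSeries ℂ_[ℓ]) ^ n) + n * coeff m Y := by
  set T : PowerSeries ℂ_[ℓ] := (trunc m Y : PowerSeries ℂ_[ℓ])
  have hcoeff : ∀ j, coeff j T = if j < m then coeff j Y else 0 := fun j => by
    rw [Polynomial.coeff_coe, coeff_trunc]
  obtain ⟨R, hR⟩ : X ^ m ∣ Y - T := X_pow_dvd_iff.2 fun j hj => by
    rw [map_sub, hcoeff, if_pos hj, sub_self]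
  have hR0 : constantCoeff R = coeff m Y := by
    have h := congrArg (coeff m) hR
    rw [map_sub, hcoeff, if_neg (lt_irrefl m), sub_zero, coeff_X_pow_mul', if_pos le_rfl,
      Nat.sub_self, coeff_zero_eq_constantCoeff] at h
    exact h.symm
  have hT0 : constantCoeff T = 1 := by
    rw [← coeff_zero_eq_constantCoeff_apply, hcoeff, if_pos (Nat.pos_of_ne_zero hm),
      coeff_zero_eq_constantCoeff_apply, hY]
  rw [← sub_eq_iff_eq_add', ← map_sub, ← geom_sum₂_mul, hR,
    mul_left_comm, coeff_X_pow_mul', if_pos le_rfl, Nat.sub_self, coeff_zero_eq_constantCoeff,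
    map_mul, hR0]
  simp [map_sum, map_mul, map_pow, hY, hT0]

/-- Coefficientwise limits of `n`-th powers of integral one-units are `n`-th powers. -/
theorem exists_root_of_tendsto {Q : PowerSeries ℂ_[ℓ]} {Y : ℕ → PowerSeries ℂ_[ℓ]}
    (hY : ∀ i, IsP1 (Y i)) {n : ℕ} (hn : n ≠ 0)
    (h : ∀ m, Tendsto (fun i => coeff m (Y i ^ n)) atTop (𝓝 (coeff m Q))) :
    ∃ Z, IsP1 Z ∧ Z ^ n = Q := by
  have hlim : ∀ m, ∃ a, Tendsto (fun i => coeff m (Y i)) atTop (𝓝 a) := by
    intro m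
    induction m using Nat.strong_induction_on with
    | _ m ih =>
      rcases eq_or_ne m 0 with rfl | hm
      · exact ⟨1, by simp [(hY _).1]⟩
      classical
      choose a ha using ih
      set A : PowerSeries ℂ_[ℓ] := PowerSeries.mk fun j => if hj : j < m then a j hj else 0
      have hT : ∀ j ≤ m, Tendsto (fun i => coeff j ((trunc m (Y i) : PowerSeries ℂ_[ℓ])))
          atTop (𝓝 (coeff j A)) := fun j _ => by
        simp only [Polynomial.coeff_coe, coeff_trunc, A, coeff_mk]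
        by_cases hj : j < m
        · simpa [hj] using ha j hj
        · simp [hj]
      refine ⟨(n : ℂ_[ℓ])⁻¹ * (coeff m Q - coeff m (A ^ n)), ?_⟩
      refine Tendsto.congr (fun i => ?_)
        (((h m).sub (tendsto_coeff_pow hT n m le_rfl)).const_mul ((n : ℂ_[ℓ])⁻¹))
      rw [coeff_pow_trunc (hY i).1 hm, add_sub_cancel_left, ← mul_assoc,
        inv_mul_cancel₀ (Nat.cast_ne_zero.2 hn), one_mul]
  choose a ha using hlim
  refine ⟨PowerSeries.mk a, ⟨?_, fun m => ?_⟩, ?_⟩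
  · rw [← coeff_zero_eq_constantCoeff_apply, coeff_mk]
    refine tendsto_nhds_unique (ha 0) ?_
    simp [(hY _).1]
  · rw [coeff_mk]
    exact le_of_tendsto (ha m).norm (Eventually.of_forall fun i => (hY i).2 m)
  · ext m
    exact tendsto_nhds_unique
      (tendsto_coeff_pow (fun j _ => by rw [coeff_mk]; exact ha j) n m le_rfl) (h m)

/-! ### Values -/

/-- An integral series as an element of the bounded series. -/
def toBdd (G : PowerSeries ℂ_[ℓ]) (h : BdBy G 1) : boundedPS ℂ_[ℓ] := ⟨G, ⟨1, h⟩⟩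

variable {r : ℂ_[ℓ]} (hr : ‖r‖ < 1)

/-- The value of an integral series. -/
def serVal (G : PowerSeries ℂ_[ℓ]) (h : BdBy G 1) : ℂ_[ℓ] := evalDisc r hr (toBdd G h)

/-- The value is multiplicative. -/
lemma serVal_mul {F G : PowerSeries ℂ_[ℓ]} (hF : BdBy F 1) (hG : BdBy G 1) (hFG : BdBy (F * G) 1) :
    serVal hr (F * G) hFG = serVal hr F hF * serVal hr G hG := by
  show evalDisc r hr (toBdd F hF * toBdd G hG) =
    evalDisc r hr (toBdd F hF) * evalDisc r hr (toBdd G hG)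
  exact map_mul _ _ _

/-- The value of one is one. -/
lemma serVal_one : serVal hr (1 : PowerSeries ℂ_[ℓ]) (intSer ℓ).one_mem = 1 :=
  map_one (evalDisc r hr)

/-- The value of a power is the power of the value. -/
lemma serVal_pow {G : PowerSeries ℂ_[ℓ]} (hG : BdBy G 1) (k : ℕ) :
    serVal hr (G ^ k) ((intSer ℓ).pow_mem hG k) = serVal hr G hG ^ k := by
  show evalDisc r hr (toBdd G hG ^ k) = evalDisc r hr (toBdd G hG) ^ k
  exact map_pow _ _ _

/-- The value depends only on the series. -/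
lemma serVal_congr {F G : PowerSeries ℂ_[ℓ]} (h : F = G) (hF : BdBy F 1) (hG : BdBy G 1) :
    serVal hr F hF = serVal hr G hG := by subst h; rfl

/-- An integral one-unit takes values congruent to one modulo `r`. -/
lemma norm_serVal_sub_one_le {G : PowerSeries ℂ_[ℓ]} (hG : IsP1 G) :
    ‖serVal hr G hG.2 - 1‖ ≤ ‖r‖ := by
  have h := norm_evalDisc_sub_le hr (f := toBdd G hG.2) (C := 1) hG.2
  simpa [toBdd, serVal, coeff_zero_eq_constantCoeff, hG.1] using h

/-- `|r|^(m-1) < |m!|` for `m ≥ 2` when `|r| ≤ |ℓ|`, resp. `|r| ≤ |4|` for `ℓ = 2`. -/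
lemma norm_pow_lt_factorial (hsmall : if ℓ = 2 then ‖r‖ ≤ ‖(ℓ : ℂ_[ℓ])‖ ^ 2
      else ‖r‖ ≤ ‖(ℓ : ℂ_[ℓ])‖) {m : ℕ} (hm : 2 ≤ m) :
    ‖r‖ ^ (m - 1) ≤ ‖(ℓ : ℂ_[ℓ])‖ * ‖(m.factorial : ℂ_[ℓ])‖ := by
  rw [norm_natCast_cp_eq m.factorial_ne_zero, ← pow_succ']
  have hv := sub_one_mul_padicValNat_factorial_lt_of_ne_zero ℓ (show m ≠ 0 by omega)
  by_cases h2 : ℓ = 2
  · rw [if_pos h2] at hsmall
    refine (pow_le_pow_left₀ (norm_nonneg _) hsmall _).trans ?_
    rw [← pow_mul]
    refine pow_le_pow_of_le_one (norm_nonneg _) norm_prime_cp_lt_one.le ?_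
    have : (ℓ - 1) * padicValNat ℓ m.factorial = padicValNat ℓ m.factorial := by
      rw [show ℓ - 1 = 1 by omega, one_mul]
    omega
  · rw [if_neg h2] at hsmall
    refine (pow_le_pow_left₀ (norm_nonneg _) hsmall _).trans
      (pow_le_pow_of_le_one (norm_nonneg _) norm_prime_cp_lt_one.le ?_)
    have h3 : 2 ≤ ℓ - 1 := by have := hℓ.out.two_le; omega
    have : 2 * padicValNat ℓ m.factorial ≤ (ℓ - 1) * padicValNat ℓ m.factorial :=
      Nat.mul_le_mul_right _ h3
    omega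

/-- `θ g = d g` with `|d_m| ≤ |d_1| ≤ 1` gives `|g(r) - 1| = |d_1 r|`. -/
theorem norm_serVal_sub_one {d g : PowerSeries ℂ_[ℓ]} (hg : IsP1 g) (hd0 : coeff 0 d = 0)
    (hd : BdBy d ‖coeff 1 d‖) (h1 : ‖coeff 1 d‖ ≤ 1) (h : theta g = d * g)
    (hsmall : if ℓ = 2 then ‖r‖ ≤ ‖(ℓ : ℂ_[ℓ])‖ ^ 2 else ‖r‖ ≤ ‖(ℓ : ℂ_[ℓ])‖) :
    ‖serVal hr g hg.2 - 1‖ = ‖coeff 1 d‖ * ‖r‖ := by
  have hg1 : coeff 1 g = coeff 1 d := by
    have h' := congrArg (coeff 1) h
    rw [coeff_theta, Nat.cast_one, one_mul, coeff_mul,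
      show antidiagonal (1 : ℕ) = {(0, 1), (1, 0)} from rfl, sum_pair (by decide)] at h'
    simpa [hd0, coeff_zero_eq_constantCoeff, hg.1] using h'
  set f : ℕ → ℂ_[ℓ] := fun m => coeff m g * r ^ m
  have hs : Summable f := (summable_norm_coeff_mul_pow hr ⟨1, hg.2⟩).of_norm
  have hval : serVal hr g hg.2 = ∑' m, f m := evalDisc_apply hr _
  have htail : ‖∑' m, f (m + 2)‖ ≤ ‖(ℓ : ℂ_[ℓ])‖ * (‖coeff 1 d‖ * ‖r‖) := by
    refine IsUltrametricDist.norm_tsum_le_of_forall_le_of_nonneg (by positivity) fun m => ?_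
    have hb := norm_factorial_mul_coeff_le hg.1 hd0 hd h1 h (show m + 2 ≠ 0 by omega)
    rw [norm_mul] at hb
    have hp := norm_pow_lt_factorial hsmall (show 2 ≤ m + 2 by omega)
    have hfac := norm_natCast_cp_pos (ℓ := ℓ) (Nat.factorial_ne_zero (m + 2))
    rw [norm_mul, norm_pow, show m + 2 = (m + 2 - 1) + 1 by omega, pow_succ]
    rw [show (m + 2 - 1) + 1 = m + 2 by omega]
    calc ‖coeff (m + 2) g‖ * (‖r‖ ^ (m + 2 - 1) * ‖r‖)
        ≤ ‖coeff (m + 2) g‖ *
          ((‖(ℓ : ℂ_[ℓ])‖ * ‖((m + 2).factorial : ℂ_[ℓ])‖) * ‖r‖) := by gcongr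
      _ = ‖(ℓ : ℂ_[ℓ])‖ * (‖((m + 2).factorial : ℂ_[ℓ])‖ * ‖coeff (m + 2) g‖) * ‖r‖ := by ring
      _ ≤ ‖(ℓ : ℂ_[ℓ])‖ * ‖coeff 1 d‖ * ‖r‖ := by gcongr
      _ = _ := by ring
  rw [hval, ← hs.sum_add_tsum_nat_add 2, sum_range_succ, sum_range_one]
  simp only [f, pow_zero, mul_one, pow_one, coeff_zero_eq_constantCoeff, hg.1, hg1]
  rw [show ∀ a b : ℂ_[ℓ], 1 + a + b - 1 = a + b from fun a b => by ring]
  rcases eq_or_ne (‖coeff 1 d‖ * ‖r‖) 0 with hz | hz
  · rw [hz, mul_zero] at htail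
    rw [norm_le_zero_iff.1 htail, add_zero, norm_mul, hz]
  rw [IsUltrametricDist.norm_add_eq_max_of_norm_ne_norm, max_eq_left, norm_mul]
  · rw [norm_mul]
    exact htail.trans (mul_le_of_le_one_left (by positivity) norm_prime_cp_lt_one.le)
  · rw [norm_mul]
    exact (htail.trans_lt (mul_lt_of_lt_one_left ((Ne.symm hz).lt_of_le (by positivity))
      norm_prime_cp_lt_one)).ne'

/-! ### Norm series -/

lemma theta_rescale (a : ℂ_[ℓ]) (G : PowerSeries ℂ_[ℓ]) :
    theta (rescale a G) = rescale a (theta G) := by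
  ext m
  simp only [coeff_theta, coeff_rescale]
  ring

/-- Rescaling by an integer preserves integral one-units. -/
lemma IsP1.rescale {G : PowerSeries ℂ_[ℓ]} (hG : IsP1 G) {a : ℂ_[ℓ]} (ha : ‖a‖ ≤ 1) :
    IsP1 (PowerSeries.rescale a G) := by
  refine ⟨by rw [← coeff_zero_eq_constantCoeff_apply, coeff_rescale]; simp [hG.1], fun m => ?_⟩
  rw [coeff_rescale, norm_mul, norm_pow]
  exact mul_le_one₀ (pow_le_one₀ (norm_nonneg _) ha) (norm_nonneg _) (hG.2 m)

lemma dlog_rescale {G : PowerSeries ℂ_[ℓ]} (hG : IsP1 G) {a : ℂ_[ℓ]} (ha : ‖a‖ ≤ 1) :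
    dlog (rescale a G) = rescale a (dlog G) := by
  have h := theta_eq_dlog_mul hG
  rw [dlog, theta_rescale, h, map_mul, mul_assoc, (hG.rescale ha).mul_inv, mul_one]

/-- `q ↦ q ^ d` preserves integral one-units. -/
lemma IsP1.expand {G : PowerSeries ℂ_[ℓ]} (hG : IsP1 G) {d : ℕ} (hd : d ≠ 0) :
    IsP1 (PowerSeries.expand d hd G) := by
  refine ⟨by rw [constantCoeff_expand, hG.1], fun m => ?_⟩
  rw [coeff_expand]
  split_ifs
  · exact hG.2 _
  · simp

/-- The logarithmic derivative after `q ↦ q ^ d`. -/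
lemma dlog_expand {G : PowerSeries ℂ_[ℓ]} (hG : IsP1 G) {d : ℕ} (hd : d ≠ 0) :
    dlog (expand d hd G) = (d : PowerSeries ℂ_[ℓ]) * expand d hd (dlog G) := by
  have h := theta_eq_dlog_mul hG
  have hθ : theta (expand d hd G) = (d : PowerSeries ℂ_[ℓ]) * expand d hd (theta G) := by
    ext m
    rw [coeff_theta, ← map_natCast (PowerSeries.C (R := ℂ_[ℓ])), coeff_C_mul, coeff_expand,
      coeff_expand]
    split_ifs with hdvd
    · obtain ⟨i, rfl⟩ := hdvd
      rw [Nat.mul_div_cancel_left _ (Nat.pos_of_ne_zero hd), coeff_theta, Nat.cast_mul]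
      ring
    · simp
  rw [dlog, hθ, h, map_mul, mul_assoc, mul_assoc, (hG.expand hd).mul_inv, mul_one]

variable {q : ℕ} [hq : Fact q.Prime] {ζ : ℂ_[ℓ]} (hζ : IsPrimitiveRoot ζ q)

/-- `∏_ζ G(ζ q^{1/q})`. -/
def normSer (q : ℕ) (ζ : ℂ_[ℓ]) (G : PowerSeries ℂ_[ℓ]) : PowerSeries ℂ_[ℓ] :=
  PowerSeries.mk fun m => coeff (q * m) (∏ i ∈ range q, rescale (ζ ^ i) G)

include hζ

lemma norm_pow_root_le (i : ℕ) : ‖ζ ^ i‖ ≤ 1 := by
  rw [norm_pow]
  refine pow_le_one₀ (norm_nonneg _) ?_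
  have h := congrArg norm hζ.pow_eq_one
  rw [norm_pow, norm_one] at h
  exact ((pow_eq_one_iff_of_nonneg (norm_nonneg _) hq.out.ne_zero).1 h).le

lemma isP1_prod_rescale {G : PowerSeries ℂ_[ℓ]} (hG : IsP1 G) (s : Finset ℕ) :
    IsP1 (∏ i ∈ s, rescale (ζ ^ i) G) := by
  classical
  induction s using Finset.induction_on with
  | empty => rw [prod_empty]; exact IsP1.one
  | insert a s ha ih => rw [prod_insert ha]; exact (hG.rescale (norm_pow_root_le hζ a)).mul ih

/-- The norm series at `q ^ q` is the product of the rotations. -/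
lemma expand_normSer (G : PowerSeries ℂ_[ℓ]) :
    expand q hq.out.ne_zero (normSer q ζ G) = ∏ i ∈ range q, rescale (ζ ^ i) G := by
  set P := ∏ i ∈ range q, rescale (ζ ^ i) G
  have hinv : rescale ζ P = P := by
    rw [map_prod]
    simp only [← RingHom.comp_apply, ← rescale_mul]
    refine Finset.prod_bij' (fun i _ => (i + 1) % q) (fun i _ => (i + (q - 1)) % q) ?_ ?_ ?_ ?_ ?_
    · exact fun i _ => mem_range.2 (Nat.mod_lt _ hq.out.pos)
    · exact fun i _ => mem_range.2 (Nat.mod_lt _ hq.out.pos)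
    · intro i hi
      rw [mem_range] at hi
      rw [Nat.mod_add_mod, show i + 1 + (q - 1) = i + q by have := hq.out.pos; omega,
        Nat.add_mod_right, Nat.mod_eq_of_lt hi]
    · intro i hi
      rw [mem_range] at hi
      rw [Nat.mod_add_mod, show i + (q - 1) + 1 = i + q by have := hq.out.pos; omega,
        Nat.add_mod_right, Nat.mod_eq_of_lt hi]
    · intro i _
      rw [pow_eq_pow_mod (m := i + 1) hζ.pow_eq_one |>.symm, pow_succ]
  ext m
  rw [coeff_expand]
  split_ifs with h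
  · obtain ⟨i, rfl⟩ := h
    rw [Nat.mul_div_cancel_left _ hq.out.pos, normSer, coeff_mk]
  · have h1 := congrArg (coeff m) hinv
    rw [coeff_rescale] at h1
    by_contra hne
    refine h ((hζ.pow_eq_one_iff_dvd m).1 ?_)
    have h2 : (ζ ^ m - 1) * coeff m P = 0 := by rw [sub_mul, one_mul, h1, sub_self]
    exact sub_eq_zero.1 ((mul_eq_zero.1 h2).resolve_right (Ne.symm hne))

/-- The norm series of an integral one-unit is an integral one-unit. -/
lemma IsP1.normSer {G : PowerSeries ℂ_[ℓ]} (hG : IsP1 G) : IsP1 (normSer q ζ G) := by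
  have h := isP1_prod_rescale hζ hG (range q)
  rw [← expand_normSer hζ] at h
  refine ⟨by simpa using h.1, fun m => ?_⟩
  simpa [coeff_expand, hq.out.pos] using h.2 (q * m)

/-- `D_m` of the norm series is `D_(qm)`. -/
lemma coeff_dlog_normSer {G : PowerSeries ℂ_[ℓ]} (hG : IsP1 G) (m : ℕ) :
    coeff m (dlog (normSer q ζ G)) = coeff (q * m) (dlog G) := by
  have h := congrArg dlog (expand_normSer hζ G)
  rw [dlog_expand (hG.normSer hζ) hq.out.ne_zero] at h
  have hprod : ∀ s : Finset ℕ, dlog (∏ i ∈ s, rescale (ζ ^ i) G)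
      = ∑ i ∈ s, rescale (ζ ^ i) (dlog G) := by
    intro s
    classical
    induction s using Finset.induction_on with
    | empty => simp [dlog_one]
    | insert a s ha ih =>
      rw [prod_insert ha, sum_insert ha, dlog_mul (hG.rescale (norm_pow_root_le hζ a))
        (isP1_prod_rescale hζ hG s), ih, dlog_rescale hG (norm_pow_root_le hζ a)]
  have h1 := congrArg (coeff (q * m)) h
  rw [hprod, map_sum, ← map_natCast (PowerSeries.C (R := ℂ_[ℓ])), coeff_C_mul, coeff_expand,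
    if_pos (dvd_mul_right _ _), Nat.mul_div_cancel_left _ hq.out.pos] at h1
  have h2 : ∀ i : ℕ,
      coeff (q * m) (rescale (ζ ^ i) (dlog G)) = coeff (q * m) (dlog G) := fun i => by
    rw [coeff_rescale, ← pow_mul, mul_left_comm, pow_mul, hζ.pow_eq_one, one_pow, one_mul]
  simp only [h2, sum_const, card_range, nsmul_eq_mul] at h1
  exact mul_left_cancel₀ (Nat.cast_ne_zero.2 hq.out.ne_zero) h1

end FermatAgent.Mazur

end
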