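import Fermat.Agent.ECLocal.IntCurve
import Fermat.Agent.ECLocal.NoTorsion
import Fermat.Agent.ECLocal.StableLine
import Fermat.Agent.EC.TorsionRat
import Fermat.Agent.GaloisBasic.Frobenius
import Fermat.Agent.Mazur.QuotientInv
import Fermat.Prelude.Def_EllipticCurve_FrobeniusTrace

/-!
# Abscissas of `N`-torsion points at a small prime
-/

set_option autoImplicit false

noncomputable section

open scoped WeierstrassCurve.Affine

namespace FermatAgent.Mazur

open WeierstrassCurve FermatAgent.ECLocal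

local notation "Qbar" => AlgebraicClosure ℚ

variable {W : WeierstrassCurve ℤ} {A : ValuationSubring Qbar} {ℓ : ℕ}
  {N : ℕ} {P R : ((W.map (Int.castRingHom ℚ))⁄Qbar).Point}

/-- Frobenius reduces to the `ℓ`-th power. -/
lemma frob_residue (hA : A.LiesOverPrime ℓ) {σ : Qbar ≃ₐ[ℚ] Qbar} (hσ : A.IsFrobeniusAt σ ℓ)
    {x : Qbar} (hx : x ∈ A) :
    ∃ h : σ x ∈ A, IsLocalRing.residue A ⟨σ x, h⟩ = IsLocalRing.residue A ⟨x, hx⟩ ^ ℓ := by
  have := hA
  set g : A.decompositionSubgroup ℚ := ⟨σ, hσ.mem_decompositionSubgroup⟩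
  refine ⟨(g • (⟨x, hx⟩ : A)).2, ?_⟩
  exact (IsLocalRing.ResidueField.residue_smul _ g (⟨x, hx⟩ : A)).trans (hσ.smul_residue_eq _)

section Integral

variable (hℓ : ℓ.Prime) (hA : A.LiesOverPrime ℓ) (hN : N.Prime) (hℓN : ℓ ≠ N)

include hℓ hA hN hℓN in
lemma natCast_N_residue_ne_zero : (N : IsLocalRing.ResidueField A) ≠ 0 :=
  natCast_residue_ne_zero hℓ hA fun h => hℓN ((Nat.prime_dvd_prime_iff_eq hℓ hN).1 h)

include hℓ hA hN hℓN in
lemma not_isE1_of_torsion (hP : N • P = 0) (hP0 : P ≠ 0) : ¬IsE1 (toGen W A P) := fun h =>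
  hP0 ((toGen W A).injective (by
    rw [map_zero]
    exact h.eq_zero_of_nsmul_eq_zero (natCast_N_residue_ne_zero hℓ hA hN hℓN)
      (by rw [← map_nsmul, hP, map_zero])))

include hℓ hA hN hℓN in
/-- The abscissa of an `N`-torsion point is integral. -/
lemma xAbs_mem (hP : N • P = 0) : xAbs W P ∈ A := by
  rcases P with _ | ⟨x, y, h⟩
  · exact A.zero_mem
  by_contra hx
  refine not_isE1_of_torsion hℓ hA hN hℓN hP (Affine.Point.some_ne_zero h) ?_
  rw [toGen_some, isE1_some_iff]
  exact hx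

include hℓ hA hN hℓN in
/-- Congruent abscissas of nonsingular reductions come from the same point up to sign. -/
lemma eq_or_eq_neg_of_residue (hP : N • P = 0) (hR : N • R = 0) (hP0 : P ≠ 0) (hR0 : R ≠ 0)
    (hPz : IsE0 (toGen W A P)) (hRz : IsE0 (toGen W A R))
    (h : A.valuation (xAbs W P - xAbs W R) < 1) : P = R ∨ P = -R := by
  classical
  rcases hPe : P with _ | ⟨x, y, hxy⟩
  · exact absurd hPe hP0
  rcases hRe : R with _ | ⟨x', y', hxy'⟩
  · exact absurd hRe hR0
  subst hPe hRe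
  rw [xAbs_some, xAbs_some] at h
  have hx : x ∈ A := xAbs_mem hℓ hA hN hℓN hP
  have hx' : x' ∈ A := xAbs_mem hℓ hA hN hℓN hR
  have hres : IsLocalRing.residue A ⟨x, hx⟩ = IsLocalRing.residue A ⟨x', hx'⟩ :=
    (residue_eq_residue_iff A _ _).2 h
  have h0 := toGen_some W A hxy ▸ hPz
  have h0' := toGen_some W A hxy' ▸ hRz
  have e1 := red_some_of_mem (W := modelAt W A) (gen_modelAt W A ▸ hxy) hx h0
  have e2 := red_some_of_mem (W := modelAt W A) (gen_modelAt W A ▸ hxy') hx' h0'
  have hkill : ∀ S : ((W.map (Int.castRingHom ℚ))⁄Qbar).Point, N • S = 0 →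
      IsE1 (toGen W A S) → S = 0 := fun S hS h1 => by
    by_contra hne
    exact not_isE1_of_torsion hℓ hA hN hℓN hS hne h1
  rcases Affine.Y_eq_of_X_eq ((isE0_some_iff_of_mem _ hx).1 h0).1
      ((isE0_some_iff_of_mem _ hx').1 h0').1 hres with hy | hy
  · left
    refine sub_eq_zero.1 (hkill _ (by rw [nsmul_sub, hP, hR, sub_zero]) ?_)
    rw [map_sub, toGen_some, toGen_some]
    refine IsE1.sub_of_red_eq h0 h0' ?_
    rw [e1, e2, Affine.Point.some.injEq]
    exact ⟨hres, hy⟩
  · right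
    refine eq_neg_of_add_eq_zero_left (hkill _ (by rw [nsmul_add, hP, hR, add_zero]) ?_)
    rw [map_add, toGen_some, toGen_some, ← sub_neg_eq_add]
    refine IsE1.sub_of_red_eq h0 h0'.neg.1 ?_
    rw [e1, h0'.neg.2, e2, Affine.Point.neg_some, Affine.Point.some.injEq]
    exact ⟨hres, hy⟩

include hℓ hA hN hℓN in
/-- At `ℓ ≤ 3` Frobenius fixes no point of prime order `≥ 11` spanning a group in the identity
component. -/
lemma not_fixed_of_zeroComponent (hℓ3 : ℓ ≤ 3) (hN11 : 11 ≤ N) (hR : N • R = 0) (hR0 : R ≠ 0)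
    (hRz : ∀ k : ℕ, IsE0 (toGen W A (k • R))) {σ : Qbar ≃ₐ[ℚ] Qbar}
    (hσ : A.IsFrobeniusAt σ ℓ) : σ • R ≠ R := by
  classical
  intro hfix
  have hk : ∀ k : ℕ, 0 < k → k < 11 → k • R ≠ 0 := fun k h0 h11 h => hR0 (by
    have hco : Nat.Coprime k N := ((hN.coprime_iff_not_dvd).2 fun hd => by
      have := Nat.le_of_dvd h0 hd; omega).symm
    exact AddMonoid.addOrderOf_eq_one_iff.1 (Nat.dvd_one.1 (hco ▸ Nat.dvd_gcd
      (addOrderOf_dvd_of_nsmul_eq_zero h) (addOrderOf_dvd_of_nsmul_eq_zero hR))))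
  have hNk : ∀ k : ℕ, N • (k • R) = 0 := fun k => by rw [← mul_nsmul, mul_nsmul', hR, nsmul_zero]
  have hmem : ∀ k : ℕ, xAbs W (k • R) ∈ A := fun k => xAbs_mem hℓ hA hN hℓN (hNk k)
  set f : Fin 4 → IsLocalRing.ResidueField A := fun i =>
    IsLocalRing.residue A ⟨xAbs W (((i : ℕ) + 1) • R), hmem _⟩ with hf
  have hroot : ∀ i, (f i) ^ ℓ = f i := by
    intro i
    obtain ⟨h, he⟩ := frob_residue hA hσ (hmem ((i : ℕ) + 1))
    rw [hf, ← he]
    congr 1
    refine Subtype.ext ?_
    show σ (xAbs W _) = _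
    rw [← xAbs_smul, galois_smul_nsmul, hfix]
  have hinj : Function.Injective f := by
    intro i j hij
    by_contra hne
    have hv := (residue_eq_residue_iff A _ _).1 hij
    rcases eq_or_eq_neg_of_residue hℓ hA hN hℓN (hNk _) (hNk _) (hk _ (by omega) (by omega))
      (hk _ (by omega) (by omega)) (hRz _) (hRz _) hv with h | h
    · rcases lt_or_gt_of_ne (fun h' : (i : ℕ) = j => hne (Fin.ext h')) with hlt | hgt
      · refine hk ((j : ℕ) - i) (by omega) (by omega) ?_
        exact left_eq_add.1 (h.trans (by rw [← add_nsmul]; congr 1; omega))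
      · refine hk ((i : ℕ) - j) (by omega) (by omega) ?_
        exact left_eq_add.1 (h.symm.trans (by rw [← add_nsmul]; congr 1; omega))
    · refine hk ((i : ℕ) + 1 + ((j : ℕ) + 1)) (by omega) (by omega) ?_
      rw [add_nsmul, h, neg_add_cancel]
  have hp : (Polynomial.X ^ ℓ - Polynomial.X : Polynomial (IsLocalRing.ResidueField A)) ≠ 0 :=
    FiniteField.X_pow_card_sub_X_ne_zero _ hℓ.one_lt
  have hsub : Finset.univ.image f ⊆
      (Polynomial.X ^ ℓ - Polynomial.X :
        Polynomial (IsLocalRing.ResidueField A)).roots.toFinset := by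
    intro a ha
    obtain ⟨i, -, rfl⟩ := Finset.mem_image.1 ha
    rw [Multiset.mem_toFinset, Polynomial.mem_roots hp]
    simp [hroot i]
  have hcard := (Finset.card_le_card hsub).trans
    ((Multiset.toFinset_card_le _).trans (Polynomial.card_roots' _))
  rw [Finset.card_image_of_injective _ hinj, Finset.card_univ, Fintype.card_fin,
    FiniteField.X_pow_card_sub_X_natDegree_eq _ hℓ.one_lt] at hcard
  omega

end Integral

/-! ### Multiplicative places -/

variable (hℓ : ℓ.Prime) (hA : A.LiesOverPrime ℓ) (hN : N.Prime) (hℓN : ℓ ≠ N)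
  (hΔ0 : W.Δ ≠ 0) (hΔ : (ℓ : ℤ) ∣ W.Δ) (hc4 : ¬(ℓ : ℤ) ∣ W.c₄)

include hℓ hA hΔ0 hΔ hc4 in
/-- The node: the abscissas off the identity component are congruent to a common `r`. -/
lemma exists_node : ∃ r : A, ∀ S : ((W.map (Int.castRingHom ℚ))⁄Qbar).Point, N • S = 0 → S ≠ 0 →
    (IsE0 (toGen W A S) ↔ ¬A.valuation (xAbs W S - r) < 1) := by
  obtain ⟨r, t, ⟨M⟩, -⟩ := exists_nodeModel_at W A hℓ hA hΔ0 hΔ hc4
  refine ⟨r, fun S hS hS0 => ?_⟩
  obtain ⟨Q, hQ⟩ := (translatePoint_bijective (modelAt W A) r t).2 (toGen W A S)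
  rw [← hQ, isE0_translatePoint]
  rcases Q with _ | ⟨x, y, h⟩
  · refine absurd ((toGen W A).injective ?_) hS0
    rw [← hQ, ← Affine.Point.zero_def, map_zero, map_zero]
  rw [M.isE0_some_iff h]
  obtain ⟨h', e⟩ := translatePoint_some (modelAt W A) r t h
  rw [e] at hQ
  rcases hSe : S with _ | ⟨xs, ys, hs⟩
  · exact absurd hSe hS0
  rw [hSe, toGen_some, Affine.Point.some.injEq] at hQ
  rw [xAbs_some, ← hQ.1, add_sub_cancel_right]

include hℓ hA hΔ0 hΔ hc4 in
/-- Some point of order `N` lies in the identity component. -/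
lemma exists_zeroComponent [hNf : Fact N.Prime] :
    ∃ R : ((W.map (Int.castRingHom ℚ))⁄Qbar).Point, N • R = 0 ∧ R ≠ 0 ∧ IsE0 (toGen W A R) := by
  classical
  obtain ⟨r, t, ⟨M⟩, -⟩ := exists_nodeModel_at W A hℓ hA hΔ0 hΔ hc4
  by_contra hne
  push Not at hne
  have hW := EC.intMap_Δ_ne_zero hΔ0
  set T := Submodule.torsionBy ℤ ((W.map (Int.castRingHom ℚ))⁄Qbar).Point (N : ℤ)
  have hcard : Nat.card T = N ^ 2 := EC.natCard_torsionBy_rat _ hW hNf.out.ne_zero
  set e : ((W.map (Int.castRingHom ℚ))⁄Qbar).Point →+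
      NodeModel.ComponentGroup (translation r t • modelAt W A) :=
    M.componentHom.comp ((AddEquiv.ofBijective (translatePoint (modelAt W A) r t)
      (translatePoint_bijective (modelAt W A) r t)).symm.toAddMonoidHom.comp
        (toGen W A).toAddMonoidHom) with he
  have hker : ∀ S, e S = 0 → IsE0 (toGen W A S) := by
    intro S hS
    simp only [he, AddMonoidHom.comp_apply, AddEquiv.coe_toAddMonoidHom,
      M.componentHom_eq_zero_iff] at hS
    rw [← isE0_translatePoint (modelAt W A) r t] at hS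
    rwa [show translatePoint (modelAt W A) r t ((AddEquiv.ofBijective _
      (translatePoint_bijective (modelAt W A) r t)).symm (toGen W A S)) = toGen W A S from
      (AddEquiv.ofBijective _
        (translatePoint_bijective (modelAt W A) r t)).apply_symm_apply _] at hS
  have hT : ∀ x : T, N • (x : ((W.map (Int.castRingHom ℚ))⁄Qbar).Point) = 0 := fun x =>
    nsmul_coe_torsion (W := W) x
  have hinj : Function.Injective fun x : T => e x := by
    intro x y hxy
    by_contra hne'
    refine hne _ (by rw [nsmul_sub, hT, hT, sub_zero])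
      (sub_ne_zero.2 fun h => hne' (Subtype.ext h)) (hker _ ?_)
    rw [map_sub]
    exact sub_eq_zero.2 hxy
  set c := A.valuation ((translation r t • modelAt W A).a₆ : Qbar)
  have hpow : ∀ S, N • S = 0 → ∃ k : ℤ, c ^ k = M.value ((AddEquiv.ofBijective _
      (translatePoint_bijective (modelAt W A) r t)).symm (toGen W A S)) ^ N := by
    intro S hS
    refine M.value_pow_eq ?_
    show N • e S = 0
    rw [← map_nsmul, hS, map_zero]
  choose k hk using fun x : T => hpow x (hT x)
  have hfac : ∀ x y : T, (k x : ZMod N) = k y → e (x : _) = e y := by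
    intro x y hxy
    obtain ⟨d, hd⟩ := (ZMod.intCast_eq_intCast_iff_dvd_sub _ _ _).1 hxy
    set u := M.value ((AddEquiv.ofBijective _
      (translatePoint_bijective (modelAt W A) r t)).symm (toGen W A (x : _)))
    set v := M.value ((AddEquiv.ofBijective _
      (translatePoint_bijective (modelAt W A) r t)).symm (toGen W A (y : _)))
    have hc0 : c ≠ 0 := M.c_ne_zero
    have h1 : (u * c ^ d) ^ N = v ^ N := by
      rw [mul_pow, ← hk x, ← hk y, ← zpow_natCast (c ^ d), ← zpow_mul, ← zpow_add₀ hc0]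
      congr 1
      rw [mul_comm d]; linarith
    have h2 : u * c ^ d = v := (pow_left_inj₀ zero_le zero_le hNf.out.ne_zero).1 h1
    show NodeModel.cl _ u = NodeModel.cl _ v
    rw [← h2, NodeModel.cl_mul (M.value_ne_zero _) (zpow_ne_zero _ hc0),
      NodeModel.cl_c_zpow M, add_zero]
  have hkinj : Function.Injective fun x : T => (k x : ZMod N) := fun x y h => hinj (hfac x y h)
  have hle := Nat.card_le_card_of_injective _ hkinj
  rw [hcard, Nat.card_zmod, sq] at hle
  nlinarith [hNf.out.two_le]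

end FermatAgent.Mazur

end
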