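import Fermat.Agent.Mazur.WeierOde

/-!
# The addition theorem for `℘`

For fixed `w`, both `z ↦ ℘(z + w)` and the chord expression solve `f'' = 6 f² - g₂/2` with the same
initial data at `z = 0`.
-/

set_option autoImplicit false

noncomputable section

open Filter Topology
open scoped PeriodPair

namespace FermatAgent.Mazur

variable (L : PeriodPair)

/-- The slope of the chord. -/
def wSlope (z w : ℂ) : ℂ := (℘'[L] z / 2 - ℘'[L] w / 2) / (℘[L] z - ℘[L] w)

/-- The abscissa of the sum. -/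
def wX3 (z w : ℂ) : ℂ := wSlope L z w ^ 2 - ℘[L] z - ℘[L] w

/-- The ordinate of the sum. -/
def wY3 (z w : ℂ) : ℂ := -(wSlope L z w * (wX3 L z w - ℘[L] z) + ℘'[L] z / 2)

variable {L} {z w : ℂ}

/-- `℘` separates points which are not equal up to sign. -/
lemma weierstrassP_ne (hz : z ∉ L.lattice) (hw : w ∉ L.lattice) (hp : z + w ∉ L.lattice)
    (hm : z - w ∉ L.lattice) : ℘[L] z ≠ ℘[L] w := fun h => by
  rcases ES.weierstrassP_eq_imp L hz hw h with h' | h'
  · exact hm (by simpa using neg_mem h')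
  · exact hp (by rwa [add_comm])

/-- `℘'` is the derivative of `℘`. -/
lemma hasDerivAt_weierstrassP (hz : z ∉ L.lattice) : HasDerivAt ℘[L] (℘'[L] z) z := by
  have := (L.analyticOnNhd_weierstrassP z hz).differentiableAt.hasDerivAt
  rwa [L.deriv_weierstrassP] at this

/-- `℘'' = 6 ℘² - g₂ / 2`. -/
lemma hasDerivAt_derivWeierstrassP (hz : z ∉ L.lattice) :
    HasDerivAt ℘'[L] (6 * ℘[L] z ^ 2 - L.g₂ / 2) z := by
  have := (L.analyticOnNhd_derivWeierstrassP z hz).differentiableAt.hasDerivAt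
  rwa [ES.deriv_derivWeierstrassP_eq L hz] at this

lemma slope_identity (hz : z ∉ L.lattice) (hw : w ∉ L.lattice) (hne : ℘[L] z ≠ ℘[L] w) :
    2 * wSlope L z w * (℘'[L] z / 2) - wSlope L z w ^ 2 * (℘[L] z - ℘[L] w)
      = ℘[L] z ^ 2 + ℘[L] z * ℘[L] w + ℘[L] w ^ 2 - L.g₂ / 4 := by
  have h0 : ℘[L] z - ℘[L] w ≠ 0 := sub_ne_zero.2 hne
  have h1 := L.derivWeierstrassP_sq z hz
  have h2 := L.derivWeierstrassP_sq w hw
  rw [wSlope]
  field_simp
  linear_combination 4 * (h1 - h2)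

lemma hasDerivAt_wSlope (hz : z ∉ L.lattice) (hw : w ∉ L.lattice) (hne : ℘[L] z ≠ ℘[L] w) :
    HasDerivAt (fun u => wSlope L u w) (℘[L] z - wX3 L z w) z := by
  have h0 : ℘[L] z - ℘[L] w ≠ 0 := sub_ne_zero.2 hne
  have hd := (((hasDerivAt_derivWeierstrassP hz).div_const 2).sub_const (℘'[L] w / 2)).div
    ((hasDerivAt_weierstrassP hz).sub_const (℘[L] w)) h0
  refine hd.congr_deriv ?_
  have key := slope_identity hz hw hne
  have hs : wSlope L z w * (℘[L] z - ℘[L] w) = ℘'[L] z / 2 - ℘'[L] w / 2 := div_mul_cancel₀ _ h0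
  rw [← hs, div_eq_iff (pow_ne_zero 2 h0), wX3]
  linear_combination -(℘[L] z - ℘[L] w) * key

lemma hasDerivAt_wX3 (hz : z ∉ L.lattice) (hw : w ∉ L.lattice) (hne : ℘[L] z ≠ ℘[L] w) :
    HasDerivAt (fun u => wX3 L u w) (2 * wY3 L z w) z := by
  have hd := (((hasDerivAt_wSlope hz hw hne).fun_pow 2).sub
    (hasDerivAt_weierstrassP hz)).sub_const (℘[L] w)
  refine hd.congr_deriv ?_
  simp only [wY3]
  push_cast
  ring

lemma hasDerivAt_wY3 (hz : z ∉ L.lattice) (hw : w ∉ L.lattice) (hne : ℘[L] z ≠ ℘[L] w) :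
    HasDerivAt (fun u => wY3 L u w) (3 * wX3 L z w ^ 2 - L.g₂ / 4) z := by
  have hd := (((hasDerivAt_wSlope hz hw hne).mul ((hasDerivAt_wX3 hz hw hne).sub
    (hasDerivAt_weierstrassP hz))).add ((hasDerivAt_derivWeierstrassP hz).div_const 2)).neg
  refine hd.congr_deriv ?_
  have key := slope_identity hz hw hne
  simp only [wY3, wX3, Pi.sub_apply] at key ⊢
  linear_combination (2 : ℂ) * key

/-! ### The expression near `z = 0` -/

variable (L w)

/-- `℘ z - z⁻² - ℘ w`. -/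
def wNum (z : ℂ) : ℂ := ℘[L - (0 : ℂ)] z - ℘[L] w

/-- The holomorphic extension of the chord expression to `z = 0`. -/
def wExt (z : ℂ) : ℂ :=
  -(((1 - z ^ 3 * (℘'[L - (0 : ℂ)] z / 2 - ℘'[L] w / 2)) / (1 + z ^ 2 * wNum L w z)) + 1)
      * (z * (℘'[L - (0 : ℂ)] z / 2 - ℘'[L] w / 2) + wNum L w z) / (1 + z ^ 2 * wNum L w z)
    - ℘[L - (0 : ℂ)] z - ℘[L] w

variable {L w}

lemma wExt_eq (hz : z ∉ L.lattice) (hne : ℘[L] z ≠ ℘[L] w) : wExt L w z = wX3 L z w := by
  have hz0 : z ≠ 0 := fun h => hz (h ▸ L.lattice.zero_mem)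
  have h1 : ℘[L - (0 : ℂ)] z = ℘[L] z - 1 / z ^ 2 := by
    have := L.weierstrassPExcept_def 0 z
    simpa [sub_eq_add_neg] using this
  have h2 : ℘'[L - (0 : ℂ)] z = ℘'[L] z + 2 / z ^ 3 := by
    simpa using L.derivWeierstrassPExcept_def 0 z
  have h0 : ℘[L] z - ℘[L] w ≠ 0 := sub_ne_zero.2 hne
  have hden : 1 + z ^ 2 * wNum L w z = z ^ 2 * (℘[L] z - ℘[L] w) := by
    rw [wNum, h1]; field_simp; ring
  rw [wExt, hden, wNum, wX3, wSlope, h1, h2]
  field_simp
  ring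

lemma analyticAt_wExt : AnalyticAt ℂ (wExt L w) 0 := by
  have h1 : AnalyticAt ℂ ℘[L - (0 : ℂ)] 0 := L.analyticAt_weierstrassPExcept 0
  have h2 : AnalyticAt ℂ ℘'[L - (0 : ℂ)] 0 := L.analyticAt_derivWeierstrassPExcept 0
  unfold wExt wNum
  fun_prop (disch := simp)

lemma wExt_zero : wExt L w 0 = ℘[L] w := by
  simp [wExt, wNum]
  ring

lemma deriv_wExt_zero : deriv (wExt L w) 0 = ℘'[L] w := by
  have h1 : HasDerivAt ℘[L - (0 : ℂ)] 0 0 := by
    have := (L.analyticAt_weierstrassPExcept 0).differentiableAt.hasDerivAt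
    rwa [L.deriv_weierstrassPExcept_same, L.derivWeierstrassPExcept_zero_zero] at this
  have h2 : HasDerivAt ℘'[L - (0 : ℂ)] (deriv ℘'[L - (0 : ℂ)] 0) 0 :=
    (L.analyticAt_derivWeierstrassPExcept 0).differentiableAt.hasDerivAt
  have hid := hasDerivAt_id' (0 : ℂ)
  have hB := (h2.div_const 2).sub_const (℘'[L] w / 2)
  have hD := ((hid.fun_pow 2).fun_mul (h1.sub_const (℘[L] w))).const_add 1
  have hu := ((hid.fun_pow 3).fun_mul hB).const_sub 1
  have hn := (hid.fun_mul hB).add (h1.sub_const (℘[L] w))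
  have hD0 : 1 + (0 : ℂ) ^ 2 * (℘[L - (0 : ℂ)] 0 - ℘[L] w) ≠ 0 := by simp
  have hd := ((((hu.div hD hD0).add_const 1).neg.fun_mul hn).div hD hD0).sub h1
    |>.sub_const (℘[L] w)
  refine (hd.congr_deriv ?_).deriv
  simp
  ring

/-- The set where the addition theorem makes sense. -/
def wGood (L : PeriodPair) (w : ℂ) : Set ℂ :=
  ((L.lattice : Set ℂ) ∪ (fun x => x - w) '' L.lattice ∪ (fun x => x + w) '' L.lattice)ᶜ

lemma mem_wGood : z ∈ wGood L w ↔
    z ∉ L.lattice ∧ z + w ∉ L.lattice ∧ z - w ∉ L.lattice := by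
  simp only [wGood, Set.mem_compl_iff, Set.mem_union, SetLike.mem_coe, Set.mem_image, not_or,
    and_assoc]
  refine and_congr_right fun _ => and_congr ?_ ?_
  · refine ⟨fun h hz => h ⟨z + w, hz, by ring⟩, ?_⟩
    rintro h ⟨x, hx, rfl⟩
    exact h (by simpa using hx)
  · refine ⟨fun h hz => h ⟨z - w, hz, by ring⟩, ?_⟩
    rintro h ⟨x, hx, rfl⟩
    exact h (by simpa using hx)

lemma isConnected_wGood : IsConnected (wGood L w) :=
  (((ES.countable_lattice L).union ((ES.countable_lattice L).image _)).union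
    ((ES.countable_lattice L).image _)).isConnected_compl_of_one_lt_rank (by simp)

lemma isOpen_wGood : IsOpen (wGood L w) := by
  have h : wGood L w = {z | z ∉ L.lattice} ∩ ((· + w) ⁻¹' {z | z ∉ L.lattice})
      ∩ ((· - w) ⁻¹' {z | z ∉ L.lattice}) := by
    ext z
    simp [mem_wGood, and_assoc]
  have hU : IsOpen {z : ℂ | z ∉ L.lattice} := L.isClosed_lattice.isOpen_compl
  rw [h]
  exact (hU.inter (hU.preimage (by fun_prop))).inter (hU.preimage (by fun_prop))

lemma eventually_mem_wGood (hw : w ∉ L.lattice) : ∀ᶠ z in 𝓝[≠] (0 : ℂ), z ∈ wGood L w := by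
  have hU : IsOpen {z : ℂ | z ∉ L.lattice} := L.isClosed_lattice.isOpen_compl
  have h1 : ∀ᶠ z in 𝓝 (0 : ℂ), z + w ∉ L.lattice :=
    (continuous_add_const w).continuousAt.preimage_mem_nhds (hU.mem_nhds (by simpa using hw))
  have h2 : ∀ᶠ z in 𝓝 (0 : ℂ), z - w ∉ L.lattice :=
    (continuous_sub_right w).continuousAt.preimage_mem_nhds (hU.mem_nhds (by simpa using hw))
  filter_upwards [nhdsWithin_le_nhds h1, nhdsWithin_le_nhds h2, self_mem_nhdsWithin,
    mem_nhdsWithin_of_mem_nhds (L.compl_lattice_sdiff_singleton_mem_nhds 0)] with z a b c d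
  exact mem_wGood.2 ⟨by simp_all, a, b⟩

lemma deriv2_wX3 (hw : w ∉ L.lattice) (hz : z ∈ wGood L w) :
    deriv (deriv (fun u => wX3 L u w)) z = 6 * wX3 L z w ^ 2 + 2 * (-L.g₂ / 4) := by
  obtain ⟨a, b, c⟩ := mem_wGood.1 hz
  have h : deriv (fun u => wX3 L u w) =ᶠ[𝓝 z] fun u => 2 * wY3 L u w := by
    filter_upwards [isOpen_wGood.mem_nhds hz] with u hu
    obtain ⟨a', b', c'⟩ := mem_wGood.1 hu
    exact (hasDerivAt_wX3 a' hw (weierstrassP_ne a' hw b' c')).deriv
  rw [h.deriv_eq, ((hasDerivAt_wY3 a hw (weierstrassP_ne a hw b c)).const_mul 2).deriv]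
  ring

lemma eventually_wExt_eq (hw : w ∉ L.lattice) :
    ∀ᶠ z in 𝓝[≠] (0 : ℂ), wExt L w z = wX3 L z w := by
  filter_upwards [eventually_mem_wGood hw] with z hz
  obtain ⟨a, b, c⟩ := mem_wGood.1 hz
  exact wExt_eq a (weierstrassP_ne a hw b c)

lemma ode_wExt (hw : w ∉ L.lattice) :
    ∀ᶠ z in 𝓝[≠] (0 : ℂ),
      deriv (deriv (wExt L w)) z = 6 * wExt L w z ^ 2 + 2 * (-L.g₂ / 4) := by
  have h := eventually_eventually_nhdsWithin.2 (eventually_wExt_eq hw)
  filter_upwards [h, eventually_mem_wGood hw, self_mem_nhdsWithin] with z hz hg hz0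
  have he : wExt L w =ᶠ[𝓝 z] fun u => wX3 L u w := by
    rwa [isOpen_compl_singleton.nhdsWithin_eq hz0] at hz
  rw [he.deriv.deriv_eq, he.eq_of_nhds, deriv2_wX3 hw hg]

/-- **Addition theorem**: the values of `℘` and `℘' / 2` at `z + w` are given by the chord
construction. -/
theorem weierstrassP_add (hz : z ∉ L.lattice) (hw : w ∉ L.lattice) (hp : z + w ∉ L.lattice)
    (hm : z - w ∉ L.lattice) :
    ℘[L] (z + w) = wX3 L z w ∧ ℘'[L] (z + w) / 2 = wY3 L z w := by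
  set g : ℂ → ℂ := fun u => ℘[L] (u + w) with hg
  have hga : ∀ u, u + w ∉ L.lattice → AnalyticAt ℂ g u := fun u hu =>
    (L.analyticOnNhd_weierstrassP _ hu).comp (f := (· + w)) (by fun_prop)
  have hgd : ∀ u, u + w ∉ L.lattice → HasDerivAt g (℘'[L] (u + w)) u := fun u hu =>
    (hasDerivAt_weierstrassP hu).comp_add_const u w
  have h0w : (0 : ℂ) + w ∉ L.lattice := by simpa using hw
  have heq : wExt L w =ᶠ[𝓝 0] g := by
    refine eventuallyEq_of_ode analyticAt_wExt (hga 0 h0w) (ode_wExt hw) ?_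
      (by simp [wExt_zero, hg]) (by rw [deriv_wExt_zero, (hgd 0 h0w).deriv, zero_add])
    filter_upwards [eventually_mem_wGood hw] with u hu
    have h : deriv g =ᶠ[𝓝 u] fun v => ℘'[L] (v + w) := by
      filter_upwards [isOpen_wGood.mem_nhds hu] with v hv using (hgd v (mem_wGood.1 hv).2.1).deriv
    rw [h.deriv_eq, ((hasDerivAt_derivWeierstrassP (mem_wGood.1 hu).2.1).comp_add_const u w).deriv]
    simp only [hg]
    ring
  set d : ℂ → ℂ := fun u => wX3 L u w - g u with hd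
  have hne : ∀ u ∈ wGood L w, ℘[L] u ≠ ℘[L] w := fun u hu =>
    weierstrassP_ne (mem_wGood.1 hu).1 hw (mem_wGood.1 hu).2.1 (mem_wGood.1 hu).2.2
  have hda : AnalyticOnNhd ℂ d (wGood L w) := by
    intro u hu
    have h1 := L.analyticOnNhd_weierstrassP u (mem_wGood.1 hu).1
    have h2 := L.analyticOnNhd_derivWeierstrassP u (mem_wGood.1 hu).1
    have h3 := hga u (mem_wGood.1 hu).2.1
    simp only [hd, wX3, wSlope]
    fun_prop (disch := exact sub_ne_zero.2 (hne u hu))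
  have hev : ∀ᶠ u in 𝓝[≠] (0 : ℂ), u ∈ wGood L w ∧ d u = 0 := by
    filter_upwards [eventually_mem_wGood hw, eventually_wExt_eq hw,
      nhdsWithin_le_nhds heq] with u hu he hgu
    exact ⟨hu, by simp [hd, ← he, hgu]⟩
  obtain ⟨u₀, hu₀, hu₀'⟩ :=
    ((eventually_eventually_nhdsWithin.2 hev).and self_mem_nhdsWithin).exists
  rw [isOpen_compl_singleton.nhdsWithin_eq hu₀'] at hu₀
  have hzero : Set.EqOn d 0 (wGood L w) :=
    hda.eqOn_zero_of_preconnected_of_eventuallyEq_zero isConnected_wGood.isPreconnected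
      hu₀.self_of_nhds.1 (hu₀.mono fun u hu => hu.2)
  have hzg : z ∈ wGood L w := mem_wGood.2 ⟨hz, hp, hm⟩
  refine ⟨(sub_eq_zero.1 (hzero hzg)).symm, ?_⟩
  have h : (fun u => wX3 L u w) =ᶠ[𝓝 z] g := by
    filter_upwards [isOpen_wGood.mem_nhds hzg] with u hu using sub_eq_zero.1 (hzero hu)
  have := h.deriv_eq
  rw [(hasDerivAt_wX3 hz hw (hne z hzg)).deriv, (hgd z hp).deriv] at this
  linear_combination -this / 2

end FermatAgent.Mazur

end
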