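import Fermat.Agent.Mazur.WeierPoint
import Fermat.Agent.ES.Units.Dif
import Fermat.Agent.Curve.JFun
import Mathlib.NumberTheory.LSeries.HurwitzZetaValues
import Mathlib.NumberTheory.ModularForms.EisensteinSeries.QExpansion

/-!
# Lattices with given invariants; sublattices of index `N`

`g₂, g₃` of `ℤ τ + ℤ` in terms of `E₄, E₆`, lattices with prescribed invariants, adapted bases
for a point of order `N`, and Vélu's formulas for the invariants of a superlattice.
-/

set_option autoImplicit false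

noncomputable section

open Filter Topology UpperHalfPlane Complex
open scoped PeriodPair Real MatrixGroups ModularForm

namespace FermatAgent.Mazur

open FermatAgent.ES (perPair mem_perPair_lattice)

/-! ### `ℤ τ + ℤ` -/

lemma G_perPair {k : ℕ} (hk : 3 ≤ k) (τ : ℍ) :
    (perPair τ).G k = 2 * riemannZeta k * ModularForm.E hk τ := by
  have h2 : (∑' v : Fin 2 → ℤ, EisensteinSeries.eisSummand k v τ) = (perPair τ).G k := by
    rw [PeriodPair.G, ← ((perPair τ).latticeEquivProd.toEquiv.trans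
      (finTwoArrowEquiv ℤ).symm).tsum_eq fun v => EisensteinSeries.eisSummand k v τ]
    refine tsum_congr fun l => ?_
    have hl : (l : ℂ) = ((perPair τ).latticeEquivProd l).1 * (τ : ℂ)
        + ((perPair τ).latticeEquivProd l).2 := by
      conv_lhs => rw [← (perPair τ).latticeEquivProd.symm_apply_apply l]
      rw [PeriodPair.latticeEquiv_symm_apply]
      simp
    simp [EisensteinSeries.eisSummand, hl]
  rw [← h2, tsum_eisSummand_eq_riemannZeta_mul_eisensteinSeries hk,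
    show ModularForm.E hk τ = (1 / 2 : ℂ) • EisensteinSeries.eisensteinSeriesSIF (N := 1) 0 k τ
      from rfl, EisensteinSeries.eisensteinSeriesSIF_apply]
  simp only [smul_eq_mul]
  ring

lemma g₂_perPair (τ : ℍ) :
    (perPair τ).g₂ = 4 * (π : ℂ) ^ 4 / 3 * ModularForm.E₄ τ := by
  rw [PeriodPair.g₂, G_perPair (by norm_num : 3 ≤ 4), show ((4 : ℕ) : ℂ) = 4 by norm_num,
    riemannZeta_four]
  ring

lemma riemannZeta_six_val : riemannZeta 6 = (π : ℂ) ^ 6 / 945 := by
  have h := riemannZeta_two_mul_nat (k := 3) (by norm_num)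
  rw [show bernoulli (2 * 3) = 1 / 42 by decide +kernel] at h
  norm_num [Nat.factorial] at h
  rw [h]
  ring

lemma g₃_perPair (τ : ℍ) :
    (perPair τ).g₃ = 8 * (π : ℂ) ^ 6 / 27 * ModularForm.E₆ τ := by
  rw [PeriodPair.g₃, G_perPair (by norm_num : 3 ≤ 6), show ((6 : ℕ) : ℂ) = 6 by norm_num,
    riemannZeta_six_val]
  ring

/-- The `j`-invariant of a lattice. -/
def jPair (L : PeriodPair) : ℂ := 1728 * L.g₂ ^ 3 / (L.g₂ ^ 3 - 27 * L.g₃ ^ 2)

/-- The discriminant of the lattice of periods is a multiple of `Δ(τ)`. -/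
lemma discr_perPair (τ : ℍ) :
    (perPair τ).g₂ ^ 3 - 27 * (perPair τ).g₃ ^ 2
      = 64 / 27 * (π : ℂ) ^ 12 * (1728 * ModularForm.discriminant τ) := by
  rw [g₂_perPair, g₃_perPair, ModularForm.discriminant_eq_E₄_cube_sub_E₆_sq]
  ring

lemma discr_perPair_ne_zero (τ : ℍ) :
    (perPair τ).g₂ ^ 3 - 27 * (perPair τ).g₃ ^ 2 ≠ 0 := by
  rw [discr_perPair]
  simp [Real.pi_ne_zero, ModularForm.discriminant_ne_zero τ]

/-- The invariant of the lattice of periods is `j(τ)`. -/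
lemma jPair_perPair (τ : ℍ) : jPair (perPair τ) = Curve.jFun τ := by
  rw [jPair, discr_perPair, g₂_perPair, Curve.jFun]
  have hπ : (π : ℂ) ≠ 0 := by exact_mod_cast Real.pi_ne_zero
  have hΔ := ModularForm.discriminant_ne_zero τ
  field_simp
  ring

/-! ### Equal and scaled lattices -/

/-- The Eisenstein sums depend only on the lattice. -/
lemma G_congr {L L' : PeriodPair} (h : L.lattice = L'.lattice) (n : ℕ) : L.G n = L'.G n := by
  unfold PeriodPair.G
  rw [h]

/-- The pair scaled by `c`. -/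
def scalePair (L : PeriodPair) (c : ℂ) (hc : c ≠ 0) : PeriodPair where
  ω₁ := c * L.ω₁
  ω₂ := c * L.ω₂
  indep := by
    rw [LinearIndependent.pair_iff]
    intro s t h
    refine LinearIndependent.pair_iff.1 L.indep s t (mul_left_cancel₀ hc ?_)
    simp only [Complex.real_smul] at h ⊢
    linear_combination h

variable {L : PeriodPair} {c : ℂ} (hc : c ≠ 0)

/-- The points of a scaled lattice. -/
lemma mem_scalePair {x : ℂ} : x ∈ (scalePair L c hc).lattice ↔ x / c ∈ L.lattice := by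
  simp only [PeriodPair.mem_lattice, scalePair]
  refine exists₂_congr fun m n => ?_
  rw [eq_div_iff hc]
  constructor <;> intro h <;> linear_combination h

lemma G_scalePair (n : ℕ) : (scalePair L c hc).G n = L.G n / c ^ n := by
  let e : L.lattice ≃ (scalePair L c hc).lattice :=
    { toFun := fun l => ⟨c * l, (mem_scalePair hc).2 (by rw [mul_div_cancel_left₀ _ hc]; exact l.2)⟩
      invFun := fun l => ⟨l / c, (mem_scalePair hc).1 l.2⟩
      left_inv := fun l => Subtype.ext (mul_div_cancel_left₀ _ hc)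
      right_inv := fun l => Subtype.ext (mul_div_cancel₀ _ hc) }
  rw [PeriodPair.G, PeriodPair.G, ← e.tsum_eq fun l => ((l : ℂ) ^ n)⁻¹, div_eq_mul_inv,
    ← tsum_mul_right]
  refine tsum_congr fun l => ?_
  change ((c * (l : ℂ)) ^ n)⁻¹ = _
  rw [mul_pow, mul_inv, mul_comm]

/-- Scaling by `c` divides `g₂` by `c ^ 4`. -/
lemma g₂_scalePair : (scalePair L c hc).g₂ = L.g₂ / c ^ 4 := by
  rw [PeriodPair.g₂, G_scalePair, PeriodPair.g₂]; ring

/-- Scaling by `c` divides `g₃` by `c ^ 6`. -/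
lemma g₃_scalePair : (scalePair L c hc).g₃ = L.g₃ / c ^ 6 := by
  rw [PeriodPair.g₃, G_scalePair, PeriodPair.g₃]; ring

/-- Scaling keeps the invariant. -/
lemma jPair_scalePair : jPair (scalePair L c hc) = jPair L := by
  rw [jPair, jPair, g₂_scalePair, g₃_scalePair,
    show (L.g₂ / c ^ 4) ^ 3 - 27 * (L.g₃ / c ^ 6) ^ 2
      = (L.g₂ ^ 3 - 27 * L.g₃ ^ 2) / c ^ 12 by ring,
    show 1728 * (L.g₂ / c ^ 4) ^ 3 = 1728 * L.g₂ ^ 3 / c ^ 12 by ring,
    div_div_div_cancel_right₀ (pow_ne_zero 12 hc)]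

/-- A lattice with prescribed invariants, away from `j = 0, 1728`. -/
theorem exists_pair {a b : ℂ} (ha : a ≠ 0) (hb : b ≠ 0) (hd : a ^ 3 - 27 * b ^ 2 ≠ 0) :
    ∃ L : PeriodPair, L.g₂ = a ∧ L.g₃ = b := by
  obtain ⟨τ, hτ⟩ := Curve.exists_jFun_eq (1728 * a ^ 3 / (a ^ 3 - 27 * b ^ 2))
  rw [← jPair_perPair, jPair] at hτ
  have hD := discr_perPair_ne_zero τ
  set p := (perPair τ).g₂
  set q := (perPair τ).g₃
  rw [div_eq_div_iff hD hd] at hτ
  have h1 : q ^ 2 * a ^ 3 = b ^ 2 * p ^ 3 := by linear_combination hτ / (1728 * 27)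
  have hp : p ≠ 0 := fun h => by
    rw [h] at h1
    simp [ha] at h1
    exact hD (by rw [h, h1]; ring)
  have hq : q ≠ 0 := fun h => by
    rw [h] at h1
    simp [hb, hp] at h1
  obtain ⟨c, hc⟩ := IsAlgClosed.exists_eq_mul_self (q / b * (a / p))
  have hc0 : c ≠ 0 := fun h => by simp [h, hq, hb, ha, hp] at hc
  refine ⟨scalePair (perPair τ) c hc0, ?_, ?_⟩
  · rw [g₂_scalePair, show c ^ 4 = (c * c) ^ 2 by ring, ← hc, div_eq_iff (by simp [hq, hb, ha, hp])]
    field_simp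
    linear_combination -h1
  · rw [g₃_scalePair, show c ^ 6 = (c * c) ^ 3 by ring, ← hc, div_eq_iff (by simp [hq, hb, ha, hp])]
    field_simp
    linear_combination -(perPair τ).g₃ * h1

/-! ### Adapted bases -/

/-- The point `N τ`. -/
def mulPt (N : ℕ) [NeZero N] (τ : ℍ) : ℍ :=
  ⟨(N : ℂ) * τ, by
    simpa using mul_pos (Nat.cast_pos.2 (NeZero.pos N) : (0 : ℝ) < N) τ.im_pos⟩

/-- The coordinate of `N τ`. -/
@[simp] lemma coe_mulPt (N : ℕ) [NeZero N] (τ : ℍ) : (mulPt N τ : ℂ) = N * τ := rfl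

lemma exists_unimodular {N : ℕ} (hN : N.Prime) (a b : ℤ) (h : ¬((N : ℤ) ∣ a ∧ (N : ℤ) ∣ b)) :
    ∃ p q r s k : ℤ, p * s - q * r = 1 ∧ ¬(N : ℤ) ∣ k ∧
      (N : ℤ) ∣ a - k * r ∧ (N : ℤ) ∣ b - k * s := by
  by_cases ha : (N : ℤ) ∣ a
  · exact ⟨1, 0, 0, 1, b, by ring, fun hb => h ⟨ha, hb⟩, by simpa using ha, by simp⟩
  · have hco : IsCoprime a (N : ℤ) :=
      ((Nat.prime_iff_prime_int.1 hN).coprime_iff_not_dvd.2 ha).symm
    obtain ⟨u, v, huv⟩ := hco
    exact ⟨0, -1, 1, b * u, a, by ring, ha, by simp,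
      ⟨b * v, by linear_combination (-b) * huv⟩⟩

/-- A point of order `N` is `k / N` for a suitable basis. -/
theorem exists_adapted (L : PeriodPair) {N : ℕ} (hN : N.Prime) {z : ℂ}
    (hz : (N : ℂ) * z ∈ L.lattice) (hz' : z ∉ L.lattice) :
    ∃ (τ : ℍ) (c : ℂ) (hc : c ≠ 0) (k : ℤ), L.lattice = (scalePair (perPair τ) c hc).lattice ∧
      ¬(N : ℤ) ∣ k ∧ z - k * c / N ∈ L.lattice := by
  have hN0 : (N : ℂ) ≠ 0 := Nat.cast_ne_zero.2 hN.ne_zero
  obtain ⟨a, b, hab⟩ := PeriodPair.mem_lattice.1 hz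
  have hdvd : ¬((N : ℤ) ∣ a ∧ (N : ℤ) ∣ b) := by
    rintro ⟨⟨a', rfl⟩, ⟨b', rfl⟩⟩
    refine hz' (PeriodPair.mem_lattice.2 ⟨a', b', mul_left_cancel₀ hN0 ?_⟩)
    push_cast at hab
    linear_combination hab
  obtain ⟨p, q, r, s, k, hdet, hk, ⟨e, he⟩, ⟨f, hf⟩⟩ := exists_unimodular hN a b hdvd
  set c : ℂ := r * L.ω₁ + s * L.ω₂ with hcdef
  set d : ℂ := p * L.ω₁ + q * L.ω₂ with hddef
  have hspan : ∀ x : ℂ, x ∈ L.lattice ↔ ∃ m n : ℤ, (m : ℂ) * d + n * c = x := by
    intro x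
    rw [PeriodPair.mem_lattice]
    have hdet' : (p : ℂ) * s - q * r = 1 := by exact_mod_cast hdet
    constructor
    · rintro ⟨m, n, rfl⟩
      refine ⟨m * s - n * r, n * p - m * q, ?_⟩
      rw [hcdef, hddef]
      push_cast
      linear_combination ((m : ℂ) * L.ω₁ + n * L.ω₂) * hdet'
    · rintro ⟨m, n, rfl⟩
      refine ⟨m * p + n * r, m * q + n * s, ?_⟩
      rw [hcdef, hddef]
      push_cast
      ring
  have hli : ∀ u v : ℝ, (u : ℂ) * d + v * c = 0 → u = 0 ∧ v = 0 := by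
    intro u v huv
    have h := LinearIndependent.pair_iff.1 L.indep (u * p + v * r) (u * q + v * s) (by
      simp only [Complex.real_smul]
      push_cast
      rw [hcdef, hddef] at huv
      linear_combination huv)
    have hdet' : (p : ℝ) * s - q * r = 1 := by exact_mod_cast hdet
    exact ⟨by linear_combination (s : ℝ) * h.1 - (r : ℝ) * h.2 - u * hdet',
      by linear_combination (p : ℝ) * h.2 - (q : ℝ) * h.1 - v * hdet'⟩
  have hc0 : c ≠ 0 := fun h => one_ne_zero (hli 0 1 (by simp [h])).2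
  have him : (d / c).im ≠ 0 := by
    intro him
    refine one_ne_zero (hli 1 (-(d / c).re) ?_).1
    have : d / c = ((d / c).re : ℂ) := Complex.ext rfl (by simp [him])
    rw [div_eq_iff hc0] at this
    push_cast
    linear_combination this
  have hzk : z - k * c / N ∈ L.lattice := by
    refine PeriodPair.mem_lattice.2 ⟨e, f, mul_left_cancel₀ hN0 ?_⟩
    have he' : (a : ℂ) - k * r = N * e := by exact_mod_cast he
    have hf' : (b : ℂ) - k * s = N * f := by exact_mod_cast hf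
    rw [hcdef]
    field_simp
    linear_combination hab - he' * L.ω₁ - hf' * L.ω₂
  rcases lt_or_gt_of_ne him with hneg | hpos
  · refine ⟨⟨-(d / c), by simpa using hneg⟩, c, hc0, k, ?_, hk, hzk⟩
    ext x
    rw [mem_scalePair, mem_perPair_lattice, hspan]
    constructor
    · rintro ⟨m, n, rfl⟩
      exact ⟨-m, n, by simp; field_simp⟩
    · rintro ⟨m, n, h⟩
      refine ⟨-m, n, ?_⟩
      simp at h ⊢
      field_simp at h
      linear_combination h
  · refine ⟨⟨d / c, hpos⟩, c, hc0, k, ?_, hk, hzk⟩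
    ext x
    rw [mem_scalePair, mem_perPair_lattice, hspan]
    constructor
    · rintro ⟨m, n, rfl⟩
      exact ⟨m, n, by simp; field_simp⟩
    · rintro ⟨m, n, h⟩
      refine ⟨m, n, ?_⟩
      simp at h ⊢
      field_simp at h
      linear_combination h

/-! ### The superlattice -/

/-- The fourth sum of inverse powers in terms of `℘`. -/
lemma sumInvPow_four {x : ℂ} (hx : x ∉ L.lattice) :
    L.sumInvPow x 4 = ℘[L] x ^ 2 - L.g₂ / 12 := by
  have h := L.iteratedDeriv_weierstrassPExcept_self x (n := 2)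
  rw [L.weierstrassPExcept_of_notMem x hx, if_neg (by norm_num), iteratedDeriv_succ,
    iteratedDeriv_one, L.deriv_weierstrassP, ES.deriv_derivWeierstrassP_eq L hx] at h
  norm_num [Nat.factorial] at h
  linear_combination -h / 6

/-- The sixth sum of inverse powers in terms of `℘`. -/
lemma sumInvPow_six {x : ℂ} (hx : x ∉ L.lattice) :
    L.sumInvPow x 6 = ℘[L] x ^ 3 - 3 / 20 * L.g₂ * ℘[L] x - L.g₃ / 10 := by
  have h := L.iteratedDeriv_weierstrassPExcept_self x (n := 4)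
  have hU : ∀ᶠ u in 𝓝 x, u ∉ L.lattice := L.isClosed_lattice.isOpen_compl.mem_nhds hx
  have h2 : deriv ℘'[L] =ᶠ[𝓝 x] fun u => 6 * ℘[L] u ^ 2 - L.g₂ / 2 := by
    filter_upwards [hU] with u hu using ES.deriv_derivWeierstrassP_eq L hu
  have h3 : deriv (deriv ℘'[L]) =ᶠ[𝓝 x] fun u => 12 * (℘[L] u * ℘'[L] u) := by
    refine h2.deriv.trans ?_
    filter_upwards [hU] with u hu
    refine (((((hasDerivAt_weierstrassP hu).fun_pow 2).const_mul 6).sub_const
      (L.g₂ / 2)).congr_deriv ?_).deriv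
    push_cast
    ring
  have h4 : deriv (deriv (deriv ℘'[L])) x
      = 12 * (℘'[L] x * ℘'[L] x + ℘[L] x * (6 * ℘[L] x ^ 2 - L.g₂ / 2)) := by
    rw [h3.deriv_eq]
    exact (((hasDerivAt_weierstrassP hx).fun_mul (hasDerivAt_derivWeierstrassP hx)).const_mul
      12).deriv
  rw [L.weierstrassPExcept_of_notMem x hx, if_neg (by norm_num), iteratedDeriv_succ,
    iteratedDeriv_succ, iteratedDeriv_succ, iteratedDeriv_one, L.deriv_weierstrassP, h4] at h
  norm_num [Nat.factorial] at h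
  linear_combination -h / 120 + L.derivWeierstrassP_sq x hx / 10

variable {N : ℕ} [NeZero N]

lemma mem_super {τ : ℍ} {x : ℂ} :
    x ∈ (scalePair (perPair (mulPt N τ)) (c / N) (div_ne_zero hc (NeZero.ne _))).lattice ↔
      ∃ k : Fin N, x - (k : ℕ) * c / N ∈ (scalePair (perPair τ) c hc).lattice := by
  have hN : (N : ℂ) ≠ 0 := NeZero.ne _
  simp only [mem_scalePair, mem_perPair_lattice, coe_mulPt]
  constructor
  · rintro ⟨m, n, h⟩
    obtain ⟨k, t, hkt⟩ : ∃ (k : Fin N) (t : ℤ), n = (k : ℕ) + N * t := by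
      have h1 := Int.emod_nonneg n (by simp [NeZero.ne N] : (N : ℤ) ≠ 0)
      have h2 := Int.emod_lt_of_pos n (by simp [NeZero.pos N] : (0 : ℤ) < N)
      refine ⟨⟨(n % N).toNat, by omega⟩, n / N, ?_⟩
      simp only [Int.toNat_of_nonneg h1]
      exact (Int.emod_add_mul_ediv n N).symm
    refine ⟨k, m, t, ?_⟩
    subst hkt
    push_cast at h
    field_simp at h ⊢
    linear_combination h
  · rintro ⟨k, m, t, h⟩
    refine ⟨m, (k : ℕ) + N * t, ?_⟩
    push_cast
    field_simp at h ⊢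
    linear_combination h

omit [NeZero N] in
/-- Sums over a union of cosets. -/
lemma G_of_cosets (M M' : PeriodPair) (e : ℂ)
    (h : ∀ x, x ∈ M'.lattice ↔ ∃ k : Fin N, x - (k : ℕ) * e ∈ M.lattice)
    (hdis : ∀ k k' : Fin N, ((k : ℕ) - (k' : ℕ) : ℂ) * e ∈ M.lattice → k = k')
    {n : ℕ} (hn : 2 < n) : M'.G n = ∑ k : Fin N, M.sumInvPow ((k : ℕ) * e) n := by
  have hmem : ∀ p : Fin N × M.lattice, (p.2 : ℂ) - (p.1 : ℕ) * e ∈ M'.lattice := fun p =>
    neg_sub ((p.1 : ℕ) * e) (p.2 : ℂ) ▸ neg_mem ((h _).2 ⟨p.1, by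
      rw [sub_sub_cancel_left]; exact neg_mem p.2.2⟩)
  set f : Fin N × M.lattice → M'.lattice := fun p => ⟨_, hmem p⟩ with hf
  have hinj : Function.Injective f := by
    intro p p' hp
    have hp' : (p.2 : ℂ) - (p.1 : ℕ) * e = (p'.2 : ℂ) - (p'.1 : ℕ) * e := congrArg Subtype.val hp
    have hm : (((p.1 : ℕ) : ℂ) - (p'.1 : ℕ)) * e ∈ M.lattice := by
      rw [show (((p.1 : ℕ) : ℂ) - (p'.1 : ℕ)) * e = (p.2 : ℂ) - (p'.2 : ℂ) by
        linear_combination -hp']
      exact sub_mem p.2.2 p'.2.2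
    have h1 := hdis _ _ hm
    refine Prod.ext h1 (Subtype.ext ?_)
    rw [h1] at hp'
    exact sub_left_injective hp'
  have hsurj : Function.Surjective f := by
    intro x
    obtain ⟨k, hk⟩ := (h _).1 (neg_mem x.2)
    refine ⟨(k, ⟨_, neg_mem hk⟩), Subtype.ext ?_⟩
    change -(-(x : ℂ) - (k : ℕ) * e) - (k : ℕ) * e = x
    ring
  have hsum : Summable fun p : Fin N × M.lattice => (((f p : M'.lattice) : ℂ) ^ n)⁻¹ :=
    ((Equiv.ofBijective f ⟨hinj, hsurj⟩).summable_iff
      (f := fun l : M'.lattice => ((l : ℂ) ^ n)⁻¹)).2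
      (by simpa using (M'.hasSum_sumInvPow 0 hn).summable)
  rw [PeriodPair.G, ← (Equiv.ofBijective f ⟨hinj, hsurj⟩).tsum_eq fun l => ((l : ℂ) ^ n)⁻¹]
  refine (hsum.tsum_prod).trans ?_
  rw [tsum_fintype]
  rfl

lemma eq_of_mem_scalePair (τ : ℍ) (k k' : Fin N)
    (h : (((k : ℕ) : ℂ) - (k' : ℕ)) * (c / N) ∈ (scalePair (perPair τ) c hc).lattice) :
    k = k' := by
  have hN : (N : ℂ) ≠ 0 := NeZero.ne _
  rw [mem_scalePair, mem_perPair_lattice] at h
  obtain ⟨m, t, ht⟩ := h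
  have hh := LinearIndependent.pair_iff.1 (ES.indep_coe_one τ)
    (((m * N : ℤ)) : ℝ) (((t * N - ((k : ℕ) : ℤ) + ((k' : ℕ) : ℤ) : ℤ)) : ℝ) (by
      simp only [Complex.real_smul]
      push_cast
      field_simp at ht
      linear_combination ht)
  have h0 : t * N - ((k : ℕ) : ℤ) + ((k' : ℕ) : ℤ) = 0 := by exact_mod_cast hh.2
  have hk := k.2
  have hk' := k'.2
  have : t = 0 := by nlinarith
  subst this
  exact Fin.ext (by omega)

/-- The invariants of the superlattice. -/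
theorem G_super (τ : ℍ) {n : ℕ} (hn : 2 < n) :
    (scalePair (perPair (mulPt N τ)) (c / N) (div_ne_zero hc (NeZero.ne _))).G n
      = ∑ k : Fin N, (scalePair (perPair τ) c hc).sumInvPow ((k : ℕ) * (c / N)) n :=
  G_of_cosets _ _ _ (fun x => by rw [mem_super hc]; simp only [mul_div_assoc])
    (eq_of_mem_scalePair hc τ) hn

end FermatAgent.Mazur

end
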