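import Fermat.Agent.ES.Units.Injective
import Mathlib.Analysis.Analytic.Order

/-!
# Uniqueness for `f'' = 6 f² + 2A`
-/

set_option autoImplicit false

open Filter Topology
open scoped PeriodPair

namespace FermatAgent.Mazur

/-- Two analytic solutions of `f'' = 6 f ^ 2 + 2 * A` with the same initial data agree. -/
theorem eventuallyEq_of_ode {f g : ℂ → ℂ} {a A : ℂ} (hf : AnalyticAt ℂ f a)
    (hg : AnalyticAt ℂ g a) (hf2 : ∀ᶠ z in 𝓝[≠] a, deriv (deriv f) z = 6 * f z ^ 2 + 2 * A)
    (hg2 : ∀ᶠ z in 𝓝[≠] a, deriv (deriv g) z = 6 * g z ^ 2 + 2 * A)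
    (h0 : f a = g a) (h1 : deriv f a = deriv g a) : f =ᶠ[𝓝 a] g := by
  set d : ℂ → ℂ := fun z => f z - g z with hd
  set c : ℂ → ℂ := fun z => 6 * (f z + g z) with hc
  have hda : AnalyticAt ℂ d a := hf.sub hg
  have hca : AnalyticAt ℂ c a := analyticAt_const.mul (hf.add hg)
  have hdiff : deriv d =ᶠ[𝓝 a] fun z => deriv f z - deriv g z := by
    filter_upwards [hf.eventually_analyticAt, hg.eventually_analyticAt] with z hz hz'
    exact deriv_fun_sub hz.differentiableAt hz'.differentiableAt
  have hd2' : deriv (deriv d) =ᶠ[𝓝 a] fun z => deriv (deriv f) z - deriv (deriv g) z := by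
    refine hdiff.deriv.trans ?_
    filter_upwards [hf.deriv.eventually_analyticAt, hg.deriv.eventually_analyticAt] with z hz hz'
    exact deriv_fun_sub hz.differentiableAt hz'.differentiableAt
  have hd2 : deriv (deriv d) =ᶠ[𝓝 a] c * d := by
    refine (hda.deriv.deriv.frequently_eq_iff_eventually_eq (hca.mul hda)).1 ?_
    refine Eventually.frequently ?_
    filter_upwards [hf2, hg2, nhdsWithin_le_nhds hd2'] with z hz hz' hz''
    rw [hz'', hz, hz', hd, hc, Pi.mul_apply]
    ring
  have hd0 : d a = 0 := by simp [hd, h0]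
  have hd1 : deriv d a = 0 := by rw [hdiff.eq_of_nhds]; simp [h1]
  suffices analyticOrderAt d a = ⊤ by
    filter_upwards [analyticOrderAt_eq_top.1 this] with z hz using sub_eq_zero.1 hz
  have e1 : analyticOrderAt (deriv d) a + 1 = analyticOrderAt d a := by
    simpa [hd0] using hda.analyticOrderAt_deriv_add_one
  have e2 : analyticOrderAt (deriv (deriv d)) a + 1 = analyticOrderAt (deriv d) a := by
    simpa [hd1] using hda.deriv.analyticOrderAt_deriv_add_one
  have e3 : analyticOrderAt (deriv (deriv d)) a = analyticOrderAt c a + analyticOrderAt d a := by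
    rw [analyticOrderAt_congr hd2, analyticOrderAt_mul hca hda]
  by_contra htop
  obtain ⟨n, hn⟩ := ENat.ne_top_iff_exists.1 htop
  rw [← e2, e3, ← hn] at e1
  cases hk : analyticOrderAt c a with
  | top => rw [hk] at e1; simp at e1
  | coe k =>
    rw [hk] at e1
    norm_cast at e1
    omega

/-- `℘` is not locally constant. -/
theorem weierstrassP_deriv_ne_zero (L : PeriodPair) {z : ℂ} (hz : z ∉ L.lattice)
    (h : ℘'[L] z = 0) : 6 * ℘[L] z ^ 2 - L.g₂ / 2 ≠ 0 := by
  intro h2
  have hU : IsOpen (L.lattice : Set ℂ)ᶜ := L.isClosed_lattice.isOpen_compl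
  have hP : AnalyticAt ℂ ℘[L] z := L.analyticOnNhd_weierstrassP z hz
  have heq : ℘[L] =ᶠ[𝓝 z] fun _ => ℘[L] z := by
    refine eventuallyEq_of_ode (A := -L.g₂ / 4) hP analyticAt_const ?_ ?_ rfl (by simp [h])
    · filter_upwards [nhdsWithin_le_nhds (hU.mem_nhds hz)] with w hw
      rw [L.deriv_weierstrassP, ES.deriv_derivWeierstrassP_eq L hw]
      ring
    · refine Eventually.of_forall fun w => ?_
      simp only [deriv_const']
      linear_combination -h2
  refine ES.derivWeierstrassP_not_identically_zero L ?_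
  refine L.analyticOnNhd_derivWeierstrassP.eqOn_zero_of_preconnected_of_eventuallyEq_zero
    (ES.isConnected_compl_lattice L).isPreconnected hz ?_
  have := heq.deriv
  rw [L.deriv_weierstrassP] at this
  filter_upwards [this] with w hw
  simp [hw]

end FermatAgent.Mazur
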