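import Fermat.Agent.Mazur.WeierAdd
import Mathlib.AlgebraicGeometry.EllipticCurve.Affine.Point

/-!
# Uniformisation of `Y² = x³ - g₂/4 x - g₃/4` by `ℂ / L`
-/

set_option autoImplicit false

noncomputable section

open Filter Topology
open scoped PeriodPair

namespace FermatAgent.Mazur

open WeierstrassCurve.Affine

variable (L : PeriodPair)

/-- The cubic attached to a lattice. -/
def wCurve : WeierstrassCurve ℂ := ⟨0, 0, 0, -L.g₂ / 4, -L.g₃ / 4⟩

lemma nonsingular_wCurve {z : ℂ} (hz : z ∉ L.lattice) :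
    (wCurve L).toAffine.Nonsingular (℘[L] z) (℘'[L] z / 2) := by
  rw [nonsingular_iff', equation_iff]
  simp only [wCurve]
  refine ⟨by linear_combination (L.derivWeierstrassP_sq z hz) / 4, ?_⟩
  by_cases h : ℘'[L] z = 0
  · left
    intro h'
    exact weierstrassP_deriv_ne_zero L hz h (by linear_combination (-2 : ℂ) * h')
  · right
    simpa using h

open Classical in
/-- `z ↦ (℘ z, ℘' z / 2)`. -/
def wPt (z : ℂ) : (wCurve L).toAffine.Point :=
  if hz : z ∈ L.lattice then 0 else .some _ _ (nonsingular_wCurve L hz)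

variable {L}

/-- Lattice points go to the origin. -/
lemma wPt_of_mem {z : ℂ} (hz : z ∈ L.lattice) : wPt L z = 0 := by rw [wPt, dif_pos hz]

/-- Other points go to `(℘ z, ℘' z / 2)`. -/
lemma wPt_of_notMem {z : ℂ} (hz : z ∉ L.lattice) :
    wPt L z = .some _ _ (nonsingular_wCurve L hz) := by rw [wPt, dif_neg hz]

/-- Only lattice points go to the origin. -/
lemma wPt_eq_zero_iff {z : ℂ} : wPt L z = 0 ↔ z ∈ L.lattice := by
  refine ⟨fun h => ?_, wPt_of_mem⟩
  by_contra hz
  rw [wPt_of_notMem hz] at h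
  simp at h

/-- The uniformisation is periodic. -/
lemma wPt_add_coe (z : ℂ) {l : ℂ} (hl : l ∈ L.lattice) : wPt L (z + l) = wPt L z := by
  by_cases hz : z ∈ L.lattice
  · rw [wPt_of_mem hz, wPt_of_mem (add_mem hz hl)]
  · have hzl : z + l ∉ L.lattice := fun h => hz (by simpa using sub_mem h hl)
    rw [wPt_of_notMem hz, wPt_of_notMem hzl, Point.some.injEq]
    exact ⟨L.weierstrassP_add_coe z ⟨l, hl⟩,
      congrArg (· / 2) (L.derivWeierstrassP_add_coe z ⟨l, hl⟩)⟩

lemma wPt_neg (z : ℂ) : wPt L (-z) = -wPt L z := by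
  by_cases hz : z ∈ L.lattice
  · rw [wPt_of_mem hz, wPt_of_mem (neg_mem hz), neg_zero]
  · have hz' : -z ∉ L.lattice := fun h => hz (by simpa using neg_mem h)
    rw [wPt_of_notMem hz, wPt_of_notMem hz', Point.neg_some, Point.some.injEq]
    refine ⟨L.weierstrassP_neg z, ?_⟩
    simp [negY, wCurve, L.derivWeierstrassP_neg, neg_div]

lemma wPt_add_of_generic {z w : ℂ} (hz : z ∉ L.lattice) (hw : w ∉ L.lattice)
    (hp : z + w ∉ L.lattice) (hm : z - w ∉ L.lattice) :
    wPt L (z + w) = wPt L z + wPt L w := by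
  have hne := weierstrassP_ne hz hw hp hm
  obtain ⟨h1, h2⟩ := weierstrassP_add hz hw hp hm
  rw [wPt_of_notMem hz, wPt_of_notMem hw, wPt_of_notMem hp, Point.add_of_X_ne hne,
    Point.some.injEq]
  rw [slope_of_X_ne hne, h1, h2]
  simp only [addY, negAddY, addX, negY, wCurve, wY3, wX3, wSlope]
  constructor <;> ring

lemma exists_generic (z : ℂ) :
    ∃ u, u ∉ L.lattice ∧ u + u ∉ L.lattice ∧ z + u ∉ L.lattice ∧ z - u ∉ L.lattice := by
  have hc := ES.countable_lattice L
  have h := ((hc.union (hc.image (· / 2))).union (hc.image (· - z))).union (hc.image (z - ·))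
  obtain ⟨u, hu⟩ : ∃ u, u ∉ ((L.lattice : Set ℂ) ∪ (· / 2) '' L.lattice
      ∪ (· - z) '' L.lattice ∪ (z - ·) '' L.lattice) :=
    (h.dense_compl ℂ).nonempty
  simp only [Set.mem_union, SetLike.mem_coe, Set.mem_image, not_or] at hu
  obtain ⟨⟨⟨h1, h2⟩, h3⟩, h4⟩ := hu
  exact ⟨u, h1, fun h => h2 ⟨u + u, h, by ring⟩, fun h => h3 ⟨z + u, h, by ring⟩,
    fun h => h4 ⟨z - u, h, by ring⟩⟩

lemma wPt_add (z w : ℂ) : wPt L (z + w) = wPt L z + wPt L w := by
  by_cases hz : z ∈ L.lattice
  · rw [wPt_of_mem hz, zero_add, add_comm, wPt_add_coe w hz]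
  by_cases hw : w ∈ L.lattice
  · rw [wPt_of_mem hw, add_zero, wPt_add_coe z hw]
  by_cases hp : z + w ∈ L.lattice
  · rw [wPt_of_mem hp, show w = -z + (z + w) by ring, wPt_add_coe (-z) hp, wPt_neg, add_neg_cancel]
  by_cases hm : z - w ∈ L.lattice
  · have h2 : z + z ∉ L.lattice := fun h => hp (by
      have := sub_mem h hm
      rwa [show z + z - (z - w) = z + w by ring] at this)
    have hw' : wPt L w = wPt L z := by
      rw [show w = z + -(z - w) by ring, wPt_add_coe z (neg_mem hm)]
    rw [hw', show z + w = z + z + -(z - w) by ring, wPt_add_coe (z + z) (neg_mem hm)]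
    obtain ⟨u, hu, hu2, hzu, hzu'⟩ := exists_generic (L := L) z
    rw [show z + z = z + u + (z - u) by ring,
      wPt_add_of_generic hzu hzu' (by rwa [show z + u + (z - u) = z + z by ring])
        (by rwa [show z + u - (z - u) = u + u by ring]),
      wPt_add_of_generic hz hu hzu hzu', sub_eq_add_neg z u,
      wPt_add_of_generic hz (fun h => hu (by simpa using neg_mem h)) (by rwa [← sub_eq_add_neg])
        (by rwa [sub_neg_eq_add]), wPt_neg]
    abel
  exact wPt_add_of_generic hz hw hp hm

variable (L) in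
/-- The uniformisation as a homomorphism. -/
def wHom : ℂ →+ (wCurve L).toAffine.Point where
  toFun := wPt L
  map_zero' := wPt_of_mem L.lattice.zero_mem
  map_add' := wPt_add

/-- The homomorphism is the uniformisation. -/
lemma wHom_apply (z : ℂ) : wHom L z = wPt L z := rfl

/-- `℘` takes every value. -/
theorem exists_weierstrassP_eq (c : ℂ) : ∃ z, z ∉ L.lattice ∧ ℘[L] z = c := by
  by_contra hne
  push Not at hne
  classical
  set F : ℂ → ℂ := fun z => if z ∈ L.lattice then 0 else (℘[L] z - c)⁻¹ with hF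
  have han : ∀ z, AnalyticAt ℂ F z := by
    intro l
    by_cases hl : l ∈ L.lattice
    · have hP : AnalyticAt ℂ ℘[L - l] l := L.analyticAt_weierstrassPExcept l
      have key : ∀ z, z ≠ l → (z - l) ^ 2 * (℘[L - l] z - c) + 1 - (z - l) ^ 2 / l ^ 2
          = (z - l) ^ 2 * (℘[L] z - c) := by
        intro z hz
        have := L.ite_eq_one_sub_sq_mul_weierstrassP l hl z
        rw [if_neg hz] at this
        linear_combination -this
      have hG : AnalyticAt ℂ
          (fun z => (z - l) ^ 2 /
            ((z - l) ^ 2 * (℘[L - l] z - c) + 1 - (z - l) ^ 2 / l ^ 2)) l := by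
        by_cases hl0 : l = 0
        · subst hl0
          simp only [ne_eq, OfNat.ofNat_ne_zero, not_false_eq_true, zero_pow, div_zero, sub_zero]
          fun_prop (disch := simp)
        · fun_prop (disch := simp)
      refine hG.congr ?_
      filter_upwards [L.compl_lattice_sdiff_singleton_mem_nhds l] with z hz
      by_cases hzl : z = l
      · subst hzl
        simp [hF, hl]
      · have hz' : z ∉ L.lattice := by simp_all
        rw [key z hzl]
        simp only [hF, if_neg hz']
        rw [div_mul_eq_div_div, div_self (pow_ne_zero 2 (sub_ne_zero.2 hzl)), one_div]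
    · refine (((L.analyticOnNhd_weierstrassP l hl).sub analyticAt_const).inv
        (sub_ne_zero.2 (hne l hl))).congr ?_
      filter_upwards [L.isClosed_lattice.isOpen_compl.mem_nhds hl] with z hz
      simp only [hF, Pi.inv_apply, Pi.sub_apply]
      rw [if_neg (show z ∉ L.lattice from hz)]
  have hd : Differentiable ℂ F := fun z => (han z).differentiableAt
  have hper : ∀ z, ∀ l ∈ L.lattice, F (z + l) = F z := by
    intro z l hl
    simp only [hF, L.weierstrassP_add_coe z ⟨l, hl⟩, Submodule.add_mem_iff_left _ hl]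
  have hconst : ∀ z, F z = F 0 := fun z => hd.apply_eq_apply_of_bounded
    (IsZLattice.isCompact_range_of_periodic L.lattice _ hd.continuous
      fun z w hw => hper z w hw).isBounded z 0
  have h := hconst (L.ω₁ / 2)
  simp only [hF, if_pos L.lattice.zero_mem, if_neg L.ω₁_div_two_notMem_lattice,
    inv_eq_zero] at h
  exact hne _ L.ω₁_div_two_notMem_lattice (sub_eq_zero.1 h)

/-- The uniformisation is surjective. -/
theorem wHom_surjective : Function.Surjective (wHom L) := by
  rintro (_ | ⟨x, y, h⟩)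
  · exact ⟨0, map_zero _⟩
  obtain ⟨z, hz, hzx⟩ := exists_weierstrassP_eq (L := L) x
  have hsq : y ^ 2 = (℘'[L] z / 2) ^ 2 := by
    have he := (equation_iff x y).1 h.1
    have := L.derivWeierstrassP_sq z hz
    rw [hzx] at this
    simp only [wCurve] at he
    linear_combination he - this / 4
  rcases eq_or_eq_neg_of_sq_eq_sq _ _ hsq with rfl | rfl
  · exact ⟨z, by rw [wHom_apply, wPt_of_notMem hz, Point.some.injEq]; exact ⟨hzx, rfl⟩⟩
  · refine ⟨-z, ?_⟩
    rw [map_neg, wHom_apply, wPt_of_notMem hz, Point.neg_some, Point.some.injEq]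
    exact ⟨hzx, by simp [negY, wCurve]⟩

end FermatAgent.Mazur

end
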